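import Fermat.Agent.MLT.Odd.EndgameAlg
import Fermat.Agent.MLT.SupportPatched
import Fermat.Agent.MLT.SupportBranches
import Fermat.Agent.MLT.SupportQuadric
import Mathlib.RingTheory.Nakayama

/-!
# The endgame of avoidance: the bottom level is not zero

At every level of a patching system the top module sits in a chain of levels, one prime `q` of `T`
at a time, with `t_q²` mapping each level into the old part of the previous one. If all bottom
levels vanished, the product of the `t_q²` would lie in the annihilator of the patched module, so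
some `t_q` would lie in a component of the special fibre with all branches unramified on `T`; there
`t_q` is a unit multiple of the quadratic form of the Frobenius matrix, which cuts the dimension.
-/

set_option autoImplicit false

namespace FermatLib.MLT

open IsLocalRing

namespace BranchSystem

variable {B : Type*} [CommRing B] [IsLocalRing B] [IsNoetherianRing B] {ι : Type*} [Fintype ι]
  {β : Type*} (D : BranchSystem B ι β)

/-- A component of full dimension unramified at `i` does not contain the quadratic form of the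
Frobenius matrix at `i`. -/
theorem qForm_notMem_of_unr {Q : Ideal B} {σ : ι → β} (hσ : ∀ j, D.br j (σ j) ≤ Q)
    (hdim : ringKrullDim (B ⧸ Q) = D.dim) {i : ι} {n p : Fin 3 → B}
    (hp : ∀ r, p r ∈ maximalIdeal B) (hV : D.V i = quadVars n p) (hδ : 2 < D.δ i)
    (hn : ∀ r, n r ∈ Q) : qForm p ∉ Q := by
  classical
  intro hmem
  have h := D.ringKrullDim_le_at Q i (J := quadUnr n ⊔ Ideal.span {qForm p}) (n := 2)
    (sup_le (Ideal.span_le.mpr (Set.range_subset_iff.mpr hn))
      ((Ideal.span_singleton_le_iff_mem _).mpr hmem))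
    (by
      rw [hV]
      exact cuts_quadCross hp (fun r => Ideal.mem_sup_left (Ideal.subset_span ⟨r, rfl⟩))
        (Ideal.mem_sup_right (Ideal.mem_span_singleton_self _)))
    (σ := σ) fun j _ => hσ j
  rw [hdim, D.dim_eq i] at h
  have : D.δ i + D.dimOff i ≤ 2 + D.dimOff i := by exact_mod_cast h
  omega

end BranchSystem

/-- Where `q ≡ 1`, `a` is twice the scalar part `h` and `q c` the determinant of `h + P`, a prime
containing `t_q` contains `Q(P)`. -/
theorem qForm_mem_of_avoidT_mem {B : Type*} [CommRing B] {Q : Ideal B} [Q.IsPrime] {q a c h : B}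
    {p : Fin 3 → B} (h2 : (2 : B) ∉ Q) (hq : q - 1 ∈ Q) (ha : a - 2 * h ∈ Q)
    (hc : q * c - (h ^ 2 - qForm p) ∈ Q) (ht : avoidT q a c ∈ Q) : qForm p ∈ Q := by
  have key : (q + 1) ^ 2 * qForm p ∈ Q := by
    have e : (q + 1) ^ 2 * qForm p = q * avoidT q a c - q * (a + 2 * h) * (a - 2 * h)
        + (q + 1) ^ 2 * (q * c - (h ^ 2 - qForm p)) + (q - 1) * ((q - 1) * h ^ 2) := by
      rw [avoidT]
      ring
    rw [e]
    exact add_mem (add_mem (sub_mem (Ideal.mul_mem_left _ _ ht) (Ideal.mul_mem_left _ _ ha))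
      (Ideal.mul_mem_left _ _ hc)) (Ideal.mul_mem_right _ _ hq)
  refine (‹Q.IsPrime›.mem_or_mem key).resolve_left fun hq1 => h2 ?_
  have := sub_mem (‹Q.IsPrime›.mem_of_pow_mem 2 hq1) hq
  rwa [show q + 1 - (q - 1) = 2 by ring] at this

variable {S B R₀ M₀ : Type} [CommRing S] [IsLocalRing S] [CommRing B] [IsLocalRing B]
  [CommRing R₀] [AddCommGroup M₀] [Module R₀ M₀] {𝔞 : Ideal S} {d : ℕ}

variable [IsNoetherianRing S] [IsAdicComplete (maximalIdeal S) S] [Finite (ResidueField S)]
  [IsNoetherianRing B] [IsAdicComplete (maximalIdeal B) B] [Finite (ResidueField B)]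
  {ι : Type*} [Fintype ι] {β : Type*}

namespace PatchSystem

variable (P : PatchSystem S B R₀ M₀ 𝔞 d) (D : BranchSystem B ι β) (ϖ : S)
  [IsDomain (S ⧸ Ideal.span {ϖ})]

/-- On a component of the special fibre unramified at all primes of `T`, no product of powers of
the `t_q` kills all levels. -/
theorem exists_prod_avoidT_smul_ne_zero (hdimS : ringKrullDim (S ⧸ Ideal.span {ϖ}) = D.dim)
    {Q : Ideal B} (hQ : Q ∈ associatedPrimes B (P.Fibre ϖ)) {σ : ι → β}
    (hσ : ∀ j, D.br j (σ j) ≤ Q) {k : ℕ} (T : Fin k → ι) (n p : Fin k → Fin 3 → B)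
    (q a c h : Fin k → B) (hp : ∀ j r, p j r ∈ maximalIdeal B)
    (hV : ∀ j, D.V (T j) = quadVars (n j) (p j)) (hδ : ∀ j, 2 < D.δ (T j))
    (hn : ∀ j r, n j r ∈ Q) (h2 : (2 : B) ∉ Q) (hq : ∀ j, q j - 1 ∈ Q)
    (ha : ∀ j, a j - 2 * h j ∈ Q) (hc : ∀ j, q j * c j - (h j ^ 2 - qForm (p j)) ∈ Q) (e : ℕ) :
    ∃ (m : ℕ) (x : (P.level m).N), (∏ j, avoidT (q j) (a j) (c j) ^ e) • x ≠ 0 := by
  by_contra! hall
  have := hQ.isPrime
  have hle : P.annih ≤ Q := by
    refine ((P.annihilator_fibre_le_iff ϖ).mp ?_).1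
    have h := IsAssociatedPrime.annihilator_le hQ
    rwa [Submodule.annihilator_top] at h
  have hmem : (∏ j, avoidT (q j) (a j) (c j) ^ e) ∈ Q := by
    refine hle (P.le_annih (I := Ideal.span {_}) (fun m z hz x => ?_)
      (Ideal.mem_span_singleton_self _))
    obtain ⟨w, rfl⟩ := Ideal.mem_span_singleton'.mp hz
    rw [mul_smul, hall, smul_zero]
  obtain ⟨j, -, hj⟩ := (Ideal.IsPrime.prod_mem_iff).mp hmem
  exact D.qForm_notMem_of_unr hσ ((P.ringKrullDim_of_mem_associatedPrimes_fibre ϖ hQ).trans hdimS)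
    (hp j) (hV j) (hδ j) (hn j)
    (qForm_mem_of_avoidT_mem h2 (hq j) (ha j) (hc j) (‹Q.IsPrime›.mem_of_pow_mem e hj))

end PatchSystem

end FermatLib.MLT
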