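import Fermat.Agent.MLT.Odd.PatchBuildLevel
import Fermat.Agent.MLT.PatchSupport

/-!
# The patching systems of a family of levels exist
-/

set_option autoImplicit false

noncomputable section

namespace FermatLib.MLT.Odd

open IsLocalRing PatchBuild

variable {O : Type} [CommRing O] [IsDomain O] [IsDiscreteValuationRing O]
  [IsAdicComplete (maximalIdeal O) O] [Finite (ResidueField O)] [CharZero O]
  {p : ℕ} [Fact p.Prime] {ρbar : ResidualGaloisRep (ResidueField O)}
  {S : OddPrimes p ρbar} {d : OddVariant → ℕ} {tp : S.TamePairs} {ζ : ℕ → O}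
  {L₀ : OddLevel S ∅ 0 1 d tp ζ} {r g : ℕ}

omit [IsAdicComplete (maximalIdeal O) O] [Finite (ResidueField O)] [CharZero O] [Fact p.Prime] in
/-- The relations of level `n` tend to zero. -/
theorem groupRel_le_pow (hpO : (p : O) ∈ maximalIdeal O) {ν : Type} [Fintype ν] (n : ℕ) :
    groupRel O (Fintype.equivFin (Fin r ⊕ ν)) (p ^ (n + 1)) ≤
      maximalIdeal (MvPowerSeries (Fin (Fintype.card (Fin r ⊕ ν))) O) ^ (n + 2) := by
  refine le_trans ?_ (datumRel_le_pow hpO (n + 1))
  refine Ideal.span_le.mpr ?_
  rintro _ ⟨i, rfl⟩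
  exact Ideal.subset_span ⟨_, rfl⟩

/-- The patching system of a variant. -/
def oddSystem (hpO : (p : O) ∈ maximalIdeal O) (F : OddFamily L₀ r g)
    (E : ∀ n, LevelFrame (F.level n) g) (v : OddVariant) :
    PatchSystem (DiamondFrameRing O r S.T) (CoordRing S g) L₀.R (L₀.M v)
      (diamondFrameAug O r S.T) (d v) where
  J n := groupRel O (Fintype.equivFin (Fin r ⊕ FrameVar S.T)) (p ^ (n + 1))
  J_tendsto k := by
    refine (Filter.eventually_ge_atTop k).mono fun n hn => ?_
    exact (groupRel_le_pow hpO n).trans (Ideal.pow_le_pow_right (by omega))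
  level n := by
    haveI : NeZero (p ^ (n + 1)) := ⟨pow_ne_zero _ (Fact.out : p.Prime).ne_zero⟩
    exact (E n).patchLevel (F.hom n) v

omit [IsAdicComplete (maximalIdeal O) O] [Finite (ResidueField O)] [CharZero O] [Fact p.Prime] in
/-- The identification modulo `ϖ` as surjections of the level modules. -/
theorem exists_surjective_levels_mod {n : ℕ} (F : OddFamily L₀ r g)
    (E : LevelFrame (F.level n) g) {ϖ : O} (hϖ : maximalIdeal O = Ideal.span {ϖ}) :
    (∃ h : E.Mod OddVariant.std →ₗ[CoordRing S g]
        E.Mod OddVariant.chi ⧸ (Ideal.span {(MvPowerSeries.C ϖ : CoordRing S g)} • ⊤ :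
          Submodule (CoordRing S g) (E.Mod OddVariant.chi)), Function.Surjective h) ∧
    (∃ h : E.Mod OddVariant.chi →ₗ[CoordRing S g]
        E.Mod OddVariant.std ⧸ (Ideal.span {(MvPowerSeries.C ϖ : CoordRing S g)} • ⊤ :
          Submodule (CoordRing S g) (E.Mod OddVariant.std)), Function.Surjective h) := by
  have hI : (maximalIdeal O).map (algebraMap O (F.level n).R) =
      Ideal.span {algebraMap O (F.level n).R ϖ} := by
    rw [hϖ, Ideal.map_span, Set.image_singleton]
  let θ := ((Submodule.quotEquivOfEq _ _ (congrArg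
      (fun I : Ideal (F.level n).R => I • (⊤ : Submodule (F.level n).R ((F.level n).M .std)))
      hI.symm)).trans (F.level n).θ).trans (Submodule.quotEquivOfEq _ _ (congrArg
      (fun I : Ideal (F.level n).R => I • (⊤ : Submodule (F.level n).R ((F.level n).M .chi))) hI))
  exact ⟨exists_surjective_mod (E.eval_C ϖ) θ, exists_surjective_mod (E.eval_C ϖ) θ.symm⟩

omit [CharZero O] in
/-- **The patching systems exist.** -/
theorem nonempty_oddPatch (hpO : (p : O) ∈ maximalIdeal O) (F : OddFamily L₀ r g) :
    Nonempty (OddPatch F) := by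
  let E : ∀ n, LevelFrame (F.level n) g := fun n => (nonempty_levelFrame _ (F.gen n)).some
  refine ⟨{
    sys := oddSystem hpO F E
    eval := fun n => (E n).eval
    eval_algebraMap := fun n => (E n).eval_C
    eval_surjective := fun n => (E n).eval_surjective
    ψ_eq := fun v n c => rfl
    φ_eq := fun v n => rfl
    φ_algebraMap := fun v n => (E n).phi_C
    φ_diamond := fun v n => (E n).phi_inl
    φ_frame := fun v n => (E n).phi_inr
    basis := fun n => (E n).basis
    coord_T := fun n => (E n).coord_T
    coord_z := fun n => (E n).coord_z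
    coord_l := fun n => (E n).coord_l
    coord_pz := fun n => (E n).coord_pz
    coord_pe := fun n => (E n).coord_pe
    incl := fun v n => frameIncl (E n).eval ((F.level n).M v)
    incl_smul := fun v n c a m h => smul_frameIncl_of_eq_C h m
    incl_span := fun v n => frameIncl_span (E n).eval_surjective
    incl_π := fun v n m => congrArg ((F.hom n).πM v) (frameCoeff_zero_incl m)
    smul_eq_zero := fun v n c x h => smul_frameMod_eq_zero h x
    incl_mem_iff := fun v n m => ?_
    lift := fun v w f =>
      { toFun := fun n => frameMap (f n)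
        φ_compat := fun _ _ _ => rfl }
    lift_incl := fun v w f n m => frameMap_incl (f n) m
    fibre_iff := ?_ }⟩
  · refine ⟨fun h => ?_, frameIncl_mem_smul (E n).eval_surjective (E n).maximal_le_comap⟩
    have := frameCoeff_zero_mem (I := (maximalIdeal O).map (algebraMap O (F.level n).R) ⊔
      Ideal.span (Set.range fun i => (F.level n).δ i - 1)) (fun k hk => ?_) h
    · exact (frameCoeff_zero_incl (f := (E n).eval) m) ▸ this
    · have hle : (maximalIdeal (DiamondFrameRing O r S.T)).map (E n).phi ≤
          ((maximalIdeal O).map (algebraMap O (F.level n).R) ⊔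
            Ideal.span (Set.range fun i => (F.level n).δ i - 1)).comap
            (MvPowerSeries.constantCoeff.comp (E n).eval) :=
        Ideal.map_le_iff_le_comap.mpr fun s hs => (E n).constantCoeff_mem_maximal hs
      exact hle hk
  · intro ϖ hϖ Q hQ hϖQ
    choose h₁ hh₁ using fun n => (exists_surjective_levels_mod F (E n) hϖ).1
    choose h₂ hh₂ using fun n => (exists_surjective_levels_mod F (E n) hϖ).2
    have hphi : ∀ v n, ((oddSystem hpO F E v).level n).φ (MvPowerSeries.C ϖ) = MvPowerSeries.C ϖ :=
      fun v n => (E n).phi_C ϖ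
    have h12 := (oddSystem hpO F E .std).annih_le_radical_sup (oddSystem hpO F E .chi)
      (hphi .chi) h₁ hh₁
    have h21 := (oddSystem hpO F E .chi).annih_le_radical_sup (oddSystem hpO F E .std)
      (hphi .std) h₂ hh₂
    have hsup : ∀ I : Ideal (CoordRing S g), I ≤ Q →
        (I ⊔ Ideal.span {MvPowerSeries.C ϖ}).radical ≤ Q := fun I hI =>
      hQ.radical_le_iff.mpr (sup_le hI ((Ideal.span_singleton_le_iff_mem _).mpr hϖQ))
    exact ⟨fun h => h21.trans (hsup _ h), fun h => h12.trans (hsup _ h)⟩

end FermatLib.MLT.Odd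

end
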