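import Fermat.Agent.MLT.Odd.PatchBranches
import Fermat.Agent.MLT.SupportFlip
import Fermat.Agent.MLT.SupportPatched
import Fermat.Agent.MLT.SupportLift

/-!
# Flips at the primes of `T` on the patched modules of a family

`std` and `chi` share their special fibres; on `chi` the framed matrices commute and the quadric of
inertia is a unit times a power of `ϖ`. So from a component of the special fibre of `std` one
reaches a component with the other branch at `q`.
-/

set_option autoImplicit false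

noncomputable section

namespace FermatLib.MLT.Odd

open IsLocalRing

variable {O : Type} [CommRing O] [IsDomain O] [IsDiscreteValuationRing O]
  [IsAdicComplete (maximalIdeal O) O] [Finite (ResidueField O)] [CharZero O]
  {p : ℕ} [Fact p.Prime] {ρbar : ResidualGaloisRep (ResidueField O)}
  {S : OddPrimes p ρbar} {d : OddVariant → ℕ} {tp : S.TamePairs} {ζ : ℕ → O}
  {L₀ : OddLevel S ∅ 0 1 d tp ζ} {r g : ℕ} {F : OddFamily L₀ r g}

namespace OddPatch

variable (P : OddPatch F)

omit [CharZero O] [Fact p.Prime] in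
/-- The scalars act as scalars. -/
theorem phi_C (v : OddVariant) (c : O) : (P.sys v).phi (MvPowerSeries.C c) = MvPowerSeries.C c :=
  (P.sys v).phi_eq fun n => P.φ_algebraMap v n c

omit [CharZero O] [Fact p.Prime] in
/-- The fibres of `std` and `chi` have the same support. -/
theorem annihilator_fibre_std_le_iff {ϖ : O} (hϖ : maximalIdeal O = Ideal.span {ϖ})
    (Q : Ideal (CoordRing S g)) (hQ : Q.IsPrime) :
    Module.annihilator (CoordRing S g) ((P.sys .std).Fibre (MvPowerSeries.C ϖ)) ≤ Q ↔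
      Module.annihilator (CoordRing S g) ((P.sys .chi).Fibre (MvPowerSeries.C ϖ)) ≤ Q := by
  rw [(P.sys .std).annihilator_fibre_le_iff, (P.sys .chi).annihilator_fibre_le_iff, P.phi_C,
    P.phi_C]
  constructor <;> rintro ⟨h, hmem⟩
  · exact ⟨(P.fibre_iff ϖ hϖ Q hQ hmem).mp h, hmem⟩
  · exact ⟨(P.fibre_iff ϖ hϖ Q hQ hmem).mpr h, hmem⟩

omit [CharZero O] [Fact p.Prime] in
/-- **Flip at a prime of `T`**, in both directions. -/
theorem exists_flip_T {ι : Type*} [Fintype ι] (D : BranchSystem (CoordRing S g) ι Bool)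
    {ϖ : O} (hϖ : maximalIdeal O = Ideal.span {ϖ}) (hϖ0 : ϖ ≠ 0)
    [IsDomain (DiamondFrameRing O r S.T ⧸
      Ideal.span {(MvPowerSeries.C ϖ : DiamondFrameRing O r S.T)})]
    (hdimS : ringKrullDim (DiamondFrameRing O r S.T ⧸
      Ideal.span {(MvPowerSeries.C ϖ : DiamondFrameRing O r S.T)}) = D.dim)
    (hbr : ∀ Q ∈ associatedPrimes (CoordRing S g) ((P.sys .std).Fibre (MvPowerSeries.C ϖ)),
      ∀ j, ∃ b, D.br j b ≤ Q)
    (i : ι) (q : S.T) (hV : D.V i = quadVars (nCoord S g q) (pCoord S g q))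
    (hδ : D.δ i = 3) (hunr : D.br i true = quadUnr (nCoord S g q))
    (hst : D.br i false = quadSt (nCoord S g q) (pCoord S g q))
    {e : ℕ} {u : CoordRing S g} (hu : IsUnit u)
    (hmin : ∀ k j, nCoord S g q k * pCoord S g q j -
      nCoord S g q j * pCoord S g q k ∈ (P.sys .chi).annih)
    (hqn : qForm (nCoord S g q) - MvPowerSeries.C ϖ ^ e * u ∈ (P.sys .chi).annih)
    {Q₀ : Ideal (CoordRing S g)}
    (hQ₀ : Q₀ ∈ associatedPrimes (CoordRing S g) ((P.sys .std).Fibre (MvPowerSeries.C ϖ)))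
    {σ : ι → Bool} (hσ : ∀ j, D.br j (σ j) ≤ Q₀) :
    ∃ Q ∈ associatedPrimes (CoordRing S g) ((P.sys .std).Fibre (MvPowerSeries.C ϖ)),
      D.br i (!σ i) ≤ Q ∧ ∀ j, j ≠ i → D.br j (σ j) ≤ Q := by
  have hC : (MvPowerSeries.C ϖ : DiamondFrameRing O r S.T) ≠ 0 := fun h => hϖ0 (by
    simpa using congrArg MvPowerSeries.constantCoeff h)
  refine exists_assocPrime_flip D
    (fun Q hQ => ((P.sys .std).ringKrullDim_of_mem_associatedPrimes_fibre _ hQ).trans hdimS) hbr
    (fun Q hQ => ((P.sys .chi).ringKrullDim_of_mem_associatedPrimes_fibre _ hQ).trans hdimS)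
    (P.annihilator_fibre_std_le_iff hϖ)
    ((P.sys .chi).fibreMk (MvPowerSeries.C ϖ)) ((P.sys .chi).fibreMk_surjective _)
    (ϖ := MvPowerSeries.C ϖ) (fun x => ?_) ?_ i (nCoord S g q) (pCoord S g q)
    (fun j => coordX_mem_maximalIdeal _) (fun j => coordX_mem_maximalIdeal _) hV hδ hunr hst hu
    (by rwa [(P.sys .chi).annihilator_patched]) (by rwa [(P.sys .chi).annihilator_patched]) hQ₀ hσ
  · rw [(P.sys .chi).fibreMk_eq_zero_iff, P.phi_C]
  · exact P.phi_C .chi ϖ ▸ (P.sys .chi).isSMulRegular_phi hC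

end OddPatch

end FermatLib.MLT.Odd
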