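import Fermat.Agent.MLT.Odd.GeneratorsProofCount

/-!
# Auxiliary primes and generators of the framed rings: the proof

The points of the framed ring with values in the dual numbers which kill the local coordinates
form a space of dimension at most `g`, so `g` further elements generate the maximal ideal.
-/

set_option autoImplicit false
set_option linter.style.haveILetI false
set_option linter.unusedSectionVars false

noncomputable section

open IsLocalRing CategoryTheory Module groupCohomology ExtCitation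

namespace FermatLib.MLT.Odd

open FermatLib.Galois FermatLib.Galois.Deform

attribute [local instance] FermatLib.Galois.Deform.dualAlgebra

local notation "Qbar" => AlgebraicClosure ℚ

variable {O : Type} [CommRing O] [IsDomain O] [IsDiscreteValuationRing O]
  [IsAdicComplete (maximalIdeal O) O] [Finite (ResidueField O)] [CharZero O]
  {p : ℕ} [Fact p.Prime] {ρbar : ResidualGaloisRep (ResidueField O)}

/-- **Auxiliary primes and generators.** -/
theorem twPrimes_generators_proof (hp2 : p ≠ 2) (hpO : (p : O) ∈ maximalIdeal O)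
    (hres : OddResidual p ρbar) (S : OddPrimes p ρbar) (tp : S.TamePairs) :
    ∃ r g : ℕ, g + S.F.card + S.pIdx = r + S.T.card ∧
      ∀ (n : ℕ) (avoid : Finset ℕ), ∃ qv : Fin r → ℕ, IsTWFamily S n qv ∧ (∀ i, qv i ∉ avoid) ∧
        ∀ (R : Type) [CommRing R] [IsLocalRing R] [Algebra O R] [IsLocalHom (algebraMap O R)]
          [Module.Finite O R],
          (Function.Surjective fun c : O => residue R (algebraMap O R c)) →
          ∀ ρ : GaloisRepAdic R, IsOddLift S (Finset.univ.image qv) ρ → IsLiftOf ρbar ρ →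
            Algebra.adjoin O (Set.range ρ.trace) = ⊤ → HasGenerators S tp g ρ := by
  classical
  have hpk : (p : ResidueField O) = 0 := by
    rw [← map_natCast (residue O), residue_eq_zero_iff]
    exact hpO
  have : CharP (ResidueField O) p :=
    (CharP.charP_iff_prime_eq_zero (Fact.out : p.Prime)).mpr hpk
  letI : Algebra (ZMod p) (ResidueField O) := ZMod.algebra (ResidueField O) p
  have h2 : (2 : ResidueField O) ≠ 0 := CFT.TW.two_ne_zero_of_charP p hp2
  have hs := hres.isTWSetting hp2 S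
  set f := finrank (ZMod p) (ResidueField O) with hf
  obtain ⟨r, hr, hrF⟩ : ∃ r : ℕ, finrank (ZMod p)
      (dualAdSelmer (CFT.tateFin (Ad.adRep (residualMat ρbar) p))
        (CFT.tateInf (Ad.adRep (residualMat ρbar) p)) S.selmerSet (fun _ => ⊥)) ≤ r ∧
      S.F.card + S.pIdx ≤ r :=
    ⟨_, le_max_left _ (S.F.card + S.pIdx), le_max_right _ _⟩
  refine ⟨r, r + S.T.card - (S.F.card + S.pIdx), by omega, fun n avoid => ?_⟩
  obtain ⟨qv, hinj, hnot, hpl, hcount⟩ := exists_twPrimes_count_all hs S.selmerSet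
    S.pPrime_mem_selmerSet S.residualMat_inertia avoid n r hr
  refine ⟨fun i => (qv i : ℕ), isTWFamily_of_places hres S (fun x hx => Finset.mem_union_left _ ?_)
    (fun i j h => hinj (Subtype.ext h)) hpl, fun i hi => ?_, ?_⟩
  · have hx' : x.Prime := by
      rcases Finset.mem_insert.1 hx with rfl | hx
      · exact Fact.out
      · exact S.prime_of_mem x hx
    exact Finset.mem_image.2 ⟨⟨x, hx'⟩, Finset.mem_subtype.mpr hx, rfl⟩
  · obtain ⟨A, σ, h⟩ := hpl i
    exact h.notMem (Finset.mem_union_right _ hi)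
  intro R _ _ _ _ _ hsurj ρ hlift hlo hgen b
  have : IsNoetherianRing R := IsNoetherianRing.of_finite O R
  obtain ⟨π, e, hρ₀⟩ := exists_frame hsurj hlo
  obtain ⟨χ, hχ⟩ := exists_det_eq_algebraMap hpO hlift.det
  have hdetM : ∀ g, (matOf ρ e g).det = algebraMap O R (χ g) := fun g => hχ g e
  obtain ⟨ep, zp, hep, hzp, hvan, hLp⟩ := exists_pCoords (O' := O) hp2 hsurj hlift hlo
  obtain ⟨Lp, hLp1, hLp2, hLp3⟩ := hLp π e (residualMat ρbar) hρ₀ χ hdetM
  -- the coordinates at `F`
  have hFp : ∀ x : S.F, (x : ℕ).Prime := fun x =>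
    S.prime_of_mem _ (Finset.mem_union_right _ x.2)
  choose iF jF hF using fun x : S.F => GenLocal.exists_coord_F (q := ⟨x.1, hFp x⟩) π hlift hlo e
    (residualMat ρbar) hρ₀ x.2 (tp.atF x) h2 χ hdetM hres.det
  let lF : ℕ → R := fun x => if h : x ∈ S.F then
    (matOf ρ e (tp.atF ⟨x, h⟩).gen - 1) (iF ⟨x, h⟩) (jF ⟨x, h⟩) else 0
  have hlF : ∀ x : S.F, lF x = (matOf ρ e (tp.atF x).gen - 1) (iF x) (jF x) := fun x =>
    dif_pos x.2
  have hlFm : ∀ x : S.F, lF x ∈ maximalIdeal R := fun x => by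
    rw [hlF]
    exact GenLocal.entry_mem_maximalIdeal (q := ⟨x.1, hFp x⟩) π hlo e (residualMat ρbar) hρ₀ x.2
      (tp.atF x) _ _
  have hzm : ∀ x : S.F, zCoord S (tp.atF x) ρ ∈ maximalIdeal R := fun x =>
    GenLocal.zCoord_mem_maximalIdeal (q := ⟨x.1, hFp x⟩) π hlo x.2 (tp.atF x)
  refine ⟨lF, ep, zp, fun x hx => ⟨hlFm ⟨x, hx⟩, ?_⟩, ⟨hep, hzp, hvan⟩, ?_⟩
  · rw [hlF ⟨x, hx⟩]
    exact GenLocal.vanishesWhere_entry (q := ⟨x, hFp ⟨x, hx⟩⟩) e (tp.atF ⟨x, hx⟩) _ _
  -- the framed ring
  let A := MvPowerSeries (FrameVar S.T) R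
  let π' : A →ₐ[O] ResidueField O := fullFrameRes π S.T
  let aR : (S.F ⊕ S.F) ⊕ Fin 2 → R := Sum.elim
    (Sum.elim (fun x => zCoord S (tp.atF x) ρ) fun x => lF x) ![if S.pCase = PCase.mixed then ep else 0, if S.pCase = PCase.mixed then zp else 0]
  let a : (S.T × Fin 6) ⊕ ((S.F ⊕ S.F) ⊕ Fin 2) → A :=
    Sum.elim (framedCoord ρ b tp.atT) fun i => MvPowerSeries.C (aR i)
  have haRm : ∀ i, aR i ∈ maximalIdeal R := by
    rintro ((x | x) | i)
    · exact hzm x
    · exact hlFm x
    · fin_cases i <;> simp only [aR, Sum.elim_inr] <;> simp only [Matrix.cons_val_zero,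
        Matrix.cons_val_one, Fin.zero_eta, Fin.mk_one] <;> split_ifs
      exacts [hep, zero_mem _, hzp, zero_mem _]
  have hC : ∀ x ∈ maximalIdeal R, (MvPowerSeries.C x : A) ∈ maximalIdeal A := fun x hx => by
    rw [← res_eq_zero_iff π']
    show π (MvPowerSeries.constantCoeff (MvPowerSeries.C x)) = 0
    rw [MvPowerSeries.constantCoeff_C]
    exact (res_eq_zero_iff π x).mpr hx
  -- the reduction in the given basis
  let ρb := mapRep (π : R →+* ResidueField O) (matOf ρ b)
  have hρb : ∀ g, (matOf ρ b g).map π = ρb g := fun _ => rfl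
  have hscal : ∀ q : S.T, ∀ σ ∈ (tp.atT q).A.decompositionSubgroup ℚ,
      ∃ c : ResidueField O, ρb σ = c • 1 := fun q σ hσ => by
    obtain ⟨c, hc⟩ := S.scalar_T q q.2 (tp.atT q).A (tp.atT q).liesOver σ hσ
    exact ⟨c, (GenLocal.map_matOf_eq_smul_one_iff π b hlo σ c).mpr hc⟩
  have hinert : ∀ q : S.T, ∀ σ ∈ (tp.atT q).A.inertiaSubgroupIn ℚ, ρb σ = 1 := fun q σ hσ =>
    (GenLocal.map_matOf_eq_one_iff π b hlo σ).mpr
      (S.unramified_T q q.2 (tp.atT q).A (tp.atT q).liesOver σ hσ)
  have hTm : ∀ i, framedCoord ρ b tp.atT i ∈ maximalIdeal A := by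
    rintro ⟨q, i⟩
    rw [← res_eq_zero_iff π']
    have key : ∀ σ ∈ (tp.atT q).A.decompositionSubgroup ℚ, ∀ j : Fin 3,
        π' (tracelessCoord (frameMat q (matOf ρ b σ)) j) = 0 := fun σ hσ j => by
      obtain ⟨c, hc⟩ := hscal q σ hσ
      have hN : ∀ u v, π' (frameMat q (matOf ρ b σ) u v) = (c • (1 : M2 (ResidueField O))) u v :=
        fun u v => by
          rw [← hc, ← hρb, ← frameMat_map_res π q (matOf ρ b σ)]
          rfl
      fin_cases j
      · show π' (Ring.inverse (2 : A) *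
          (frameMat q (matOf ρ b σ) 0 0 - frameMat q (matOf ρ b σ) 1 1)) = 0
        rw [map_mul, map_sub, hN, hN]
        simp
      · show π' (frameMat q (matOf ρ b σ) 0 1) = 0
        rw [hN]
        simp
      · show π' (frameMat q (matOf ρ b σ) 1 0) = 0
        rw [hN]
        simp
    induction i using Fin.addCases (m := 3) (n := 3) with
    | left j =>
      simp only [framedCoord, Fin.addCases_left]
      exact key _ (FermatLib.Galois.inertiaSubgroupIn_le_decompositionSubgroup
        (tp.atT q).gen_mem) j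
    | right j =>
      simp only [framedCoord, Fin.addCases_right]
      exact key _ (tp.atT q).frob_spec.mem_decompositionSubgroup j
  have ham : ∀ i, a i ∈ maximalIdeal A := by
    rintro (i | i)
    exacts [hTm i, hC _ (haRm i)]
  -- detection at `T`
  let H : S.T → Type := fun q => ↥((tp.atT q).A.decompositionSubgroup ℚ)
  let loc : ∀ q, H q → GQ := fun q h => h.1
  have hloc : ∀ φ : DualPoint O A, (∀ i, φ (a i) = TrivSqZeroExt.inl (π' (a i))) →
      ∀ q h, (frameMat q (matOf ρ b (loc q h))).map (dualSnd φ) = 0 := by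
    intro φ hφ q h
    have hz : ∀ i, dualSnd φ (a i) = 0 := fun i => by
      rw [dualSnd, hφ i, TrivSqZeroExt.snd_inl]
    refine map_dualSnd_frameMat_eq_zero π (matOf ρ b) ρb hρb q (tp.atT q) (matCont_matOf ρ b) h2 φ
      (hscal q) (hinert q) (fun g => ?_) (fun i => ?_) (fun i => ?_) h.1 h.2
    · rw [hχ g b, show (MvPowerSeries.C (algebraMap O R (χ g)) : A) = algebraMap O A (χ g) by
        simp [A, MvPowerSeries.algebraMap_apply]]
      exact dualSnd_algebraMap φ _
    · have := hz (Sum.inl (q, Fin.castAdd 3 i))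
      simp only [a, Sum.elim_inl, framedCoord, Fin.addCases_left] at this
      exact this
    · have := hz (Sum.inl (q, Fin.natAdd 3 i))
      simp only [a, Sum.elim_inl, framedCoord, Fin.addCases_right] at this
      exact this
  -- the locally trivial tangent vectors
  set LT := Frame.locallyTrivial π loc (matOf ρ b) aR
  have hsub : ∀ l ∈ tangentSpace π aR, l ∈ tangentSpace π (Empty.elim : Empty → R) := by
    rintro l ⟨φ, -, rfl⟩
    exact ⟨φ, fun i => i.elim, rfl⟩
  let ι₀ : LT →ₗ[ZMod p] tangentSpace π (Empty.elim : Empty → R) :=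
    { toFun := fun l => ⟨l.1, hsub _ l.2.1⟩
      map_add' := fun _ _ => rfl
      map_smul' := fun _ _ => rfl }
  have hι₀ : Function.Injective ι₀ := fun x y h =>
    Subtype.ext (congrArg (fun u : tangentSpace π (Empty.elim : Empty → R) => u.1) h)
  have hkill : ∀ (l : LT) i, l.1 (aR i) = 0 := by
    rintro ⟨_, ⟨φ, hφ, rfl⟩, -⟩ i
    show TrivSqZeroExt.snd (φ (aR i)) = 0
    rw [hφ i, TrivSqZeroExt.snd_inl]
  have hWp : ∀ l ∈ LinearMap.range ι₀,
      tangentRes π e (residualMat ρbar) hρ₀ χ hdetM (pPrime p) l ∈ Lp := by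
    rintro _ ⟨l, rfl⟩
    refine hLp3 _ fun hm => ⟨?_, ?_⟩
    · show l.1 ep = 0
      simpa [aR, hm] using hkill l (Sum.inr 0)
    · show l.1 zp = 0
      simpa [aR, hm] using hkill l (Sum.inr 1)
  have hW0 : ∀ l ∈ LinearMap.range ι₀, ∀ q : Nat.Primes, (q : ℕ) ∈ S.T ∪ S.F →
      tangentRes (p := p) π e (residualMat ρbar) hρ₀ χ hdetM q l = 0 := by
    rintro _ ⟨l, rfl⟩ q hq
    rcases Finset.mem_union.1 hq with hq | hq
    · obtain ⟨X, hX⟩ := l.2.2 ⟨q, hq⟩
      obtain ⟨Y, hY⟩ := exists_coboundary_basis_change π b e (hsub _ l.2.1)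
        ((tp.atT ⟨q, hq⟩).A.decompositionSubgroup ℚ : Set GQ) ⟨X, fun g hg => hX ⟨g, hg⟩⟩
      refine GenLocal.resAt_classMap_eq_zero π (matOf ρ e) (residualMat ρbar) hρ₀ χ hdetM
        (Empty.elim : Empty → R) p h2 q (tp.atT ⟨q, hq⟩).liesOver (ι₀ l) ⟨Y, fun g hg => ?_⟩
      show (matOf ρ e g).map l.1 = _
      rw [hY g hg, hρ₀]
    · exact hF ⟨q, hq⟩ Empty (Empty.elim : Empty → R) (ι₀ l)
        (hkill l (Sum.inl (Sum.inl ⟨q, hq⟩)))
        (by rw [← hlF ⟨q, hq⟩]; exact hkill l (Sum.inl (Sum.inr ⟨q, hq⟩)))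
  obtain ⟨hfinW, hW⟩ := finrank_add_le_of_selmer S π e hρ₀ χ hdetM hp2 hres tp hlift hlo hgen qv
    rfl hcount Lp hLp1 hLp2 (LinearMap.range ι₀) hWp hW0
  have hfinLT : FiniteDimensional (ZMod p) LT :=
    Module.Finite.equiv (LinearEquiv.ofInjective ι₀ hι₀).symm
  have : FiniteDimensional (ResidueField O) LT :=
    Module.Finite.of_restrictScalars_finite (ZMod p) (ResidueField O) LT
  rw [← (LinearEquiv.ofInjective ι₀ hι₀).finrank_eq,
    ← Module.finrank_mul_finrank (ZMod p) (ResidueField O) LT, ← mul_add, mul_comm r] at hW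
  have hLT := Nat.le_of_mul_le_mul_left hW Module.finrank_pos
  have haR : ∀ k, ∃ i, a i = MvPowerSeries.C (aR k) := fun k => ⟨Sum.inr k, rfl⟩
  obtain ⟨hfinV, hV⟩ := finrank_tangentSpace_fullFrame_le π loc (matOf ρ b) aR a haR hloc
  have hV' : finrank (ResidueField O) (tangentSpace (fullFrameRes π S.T) a) ≤
      finrank (ResidueField O) LT + ∑ q : S.T, finrank (ResidueField O)
        (Frame.localCentralizer π loc (matOf ρ b) q) := hV
  have hcen : ∑ q : S.T, finrank (ResidueField O)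
      (Frame.localCentralizer π loc (matOf ρ b) q) ≤ 4 * S.T.card := by
    refine (Finset.sum_le_sum fun q _ => (Submodule.finrank_le _).trans_eq
      (Module.finrank_matrix (ResidueField O) (ResidueField O) (Fin 2) (Fin 2))).trans ?_
    simp [mul_comm]
  obtain ⟨v, hv, hbot⟩ := exists_extension π' a (g := r + S.T.card - (S.F.card + S.pIdx)) (by
    show finrank (ResidueField O) (tangentSpace (fullFrameRes π S.T) a) ≤ _
    omega)
  refine ⟨v, hv, ?_⟩
  have heq := maximalIdeal_eq_of_tangentSpace_eq_bot π' (Sum.elim a v)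
    (by rintro (i | i); exacts [ham i, hv i]) hbot
  refine le_antisymm ?_ ?_
  · refine heq.le.trans (sup_le ?_ (Ideal.span_le.mpr ?_))
    · exact le_sup_of_le_left (le_sup_of_le_left (le_sup_of_le_left le_sup_left))
    rintro _ ⟨(i | ((x | x) | i)) | i, rfl⟩
    · exact Ideal.mem_sup_left (Ideal.mem_sup_left (Ideal.mem_sup_left (Ideal.mem_sup_right
        (Ideal.subset_span ⟨i, rfl⟩))))
    · exact Ideal.mem_sup_left (Ideal.mem_sup_left (Ideal.mem_sup_right
        (Ideal.subset_span (Or.inl ⟨x, rfl⟩))))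
    · exact Ideal.mem_sup_left (Ideal.mem_sup_left (Ideal.mem_sup_right
        (Ideal.subset_span (Or.inr ⟨x, x.2, rfl⟩))))
    · by_cases hm : S.pCase = PCase.mixed
      · refine Ideal.mem_sup_left (Ideal.mem_sup_right ?_)
        rw [if_pos hm]
        refine Ideal.subset_span ?_
        fin_cases i <;> simp [a, aR, hm]
      · fin_cases i <;> simp [a, aR, hm]
    · exact Ideal.mem_sup_right (Ideal.subset_span ⟨i, rfl⟩)
  · refine sup_le (sup_le (sup_le (sup_le (le_sup_left.trans heq.ge) ?_) ?_) ?_) ?_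
    · exact Ideal.span_le.mpr (by rintro _ ⟨i, rfl⟩; exact hTm i)
    · refine Ideal.span_le.mpr ?_
      rintro _ (⟨x, rfl⟩ | ⟨x, hx, rfl⟩)
      · exact hC _ (hzm x)
      · exact hC _ (hlFm ⟨x, hx⟩)
    · split_ifs
      · refine Ideal.span_le.mpr ?_
        rintro _ (rfl | rfl)
        exacts [hC _ hep, hC _ hzp]
      · exact bot_le
    · exact Ideal.span_le.mpr (by rintro _ ⟨i, rfl⟩; exact hv i)

end FermatLib.MLT.Odd

end
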