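import Mathlib.LinearAlgebra.Trace
import Fermat.Prelude.Def_GaloisRep_StrictOrdinary
import Fermat.Prelude.Def_GaloisRep_Flat
import Mathlib.RingTheory.MvPowerSeries.Basic
import Mathlib.LinearAlgebra.Matrix.NonsingularInverse

/-!
# Lifting at an odd prime: the sets of primes, the local conditions, tame pairs and frames

`T` are the primes `q ≡ 1 (mod p)` with scalar residual Frobenius (framed, Ihara avoidance), `F`
the other residually unramified primes where level raising may be needed (branch coordinates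
`z_r = tr Frob - ε (r + 1)` and `l_r`), `Smin` the residually ramified primes.
-/

set_option autoImplicit false

namespace FermatLib.MLT.Odd

open IsLocalRing

local notation "Γℚ" => (AlgebraicClosure ℚ ≃ₐ[ℚ] AlgebraicClosure ℚ)

/-- The local condition at `p`: flat; strictly ordinary; or ordinary with the two branches
flat and strictly ordinary. -/
inductive PCase : Type
  | flat
  | strictOnly
  | mixed
deriving DecidableEq

variable {k : Type} [Field k]

/-- `ρbar` is scalar on the decomposition groups at `q`. -/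
def IsScalarAt (ρbar : ResidualGaloisRep k) (q : ℕ) : Prop :=
  ∀ A : ValuationSubring (AlgebraicClosure ℚ), A.LiesOverPrime q →
    ∀ σ ∈ A.decompositionSubgroup ℚ, ∃ c : k, ρbar.ρ σ = c • 1

/-- The sets of primes and the residual local hypotheses. -/
structure OddPrimes (p : ℕ) (ρbar : ResidualGaloisRep k) : Type where
  Smin : Finset ℕ
  T : Finset ℕ
  F : Finset ℕ
  ε : ℕ → ℤ
  pCase : PCase
  prime_of_mem : ∀ q ∈ Smin ∪ T ∪ F, q.Prime
  ne_p : ∀ q ∈ Smin ∪ T ∪ F, q ≠ p
  disjoint_min_T : Disjoint Smin T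
  disjoint_min_F : Disjoint Smin F
  disjoint_T_F : Disjoint T F
  ramified_min : ∀ q ∈ Smin, ¬ ρbar.IsUnramifiedAt q
  unipotent_min : ∀ q ∈ Smin, (GaloisRepAdic.ofResidualGaloisRep ρbar).IsUnipotentOnInertiaAt q
  unramified_T : ∀ q ∈ T, ρbar.IsUnramifiedAt q
  one_mod_T : ∀ q ∈ T, q ≡ 1 [MOD p]
  scalar_T : ∀ q ∈ T, IsScalarAt ρbar q
  unramified_F : ∀ q ∈ F, ρbar.IsUnramifiedAt q
  not_scalar_F : ∀ q ∈ F, q ≡ 1 [MOD p] → ¬ IsScalarAt ρbar q
  sign_F : ∀ q ∈ F, ε q = 1 ∨ ε q = -1
  trace_F : ∀ q ∈ F, ∀ A : ValuationSubring (AlgebraicClosure ℚ), A.LiesOverPrime q →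
    ∀ σ : Γℚ, A.IsFrobeniusAt σ q →
      LinearMap.trace k ρbar.V (ρbar.ρ σ) = (ε q : k) * ((q : k) + 1)
  unramified_out : ∀ q : ℕ, q.Prime → q ≠ p → q ∉ Smin ∪ T ∪ F → ρbar.IsUnramifiedAt q
  flat_p : pCase ≠ PCase.strictOnly → (GaloisRepAdic.ofResidualGaloisRep ρbar).IsFlatAt p
  not_flat_p : pCase = PCase.strictOnly → ¬ (GaloisRepAdic.ofResidualGaloisRep ρbar).IsFlatAt p
  strict_p : pCase ≠ PCase.flat →
    (GaloisRepAdic.ofResidualGaloisRep ρbar).IsStrictOrdinaryAt p

variable {p : ℕ} {ρbar : ResidualGaloisRep k}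

/-- All the primes of `S`, without `p`. -/
def OddPrimes.all (S : OddPrimes p ρbar) : Finset ℕ := S.Smin ∪ S.T ∪ S.F

/-- The number of branch indices at `p`. -/
def OddPrimes.pIdx (S : OddPrimes p ρbar) : ℕ := if S.pCase = PCase.mixed then 1 else 0

/-- The number of copies of the old module at `r`: one when `U_r` is localised, which is done at
`r = p` (at the unit root) and at the primes `r ≡ -1 (mod p)` (at the sign `ε r`). -/
def OddPrimes.kap (_S : OddPrimes p ρbar) (r : ℕ) : ℕ :=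
  if r = p ∨ p ∣ r + 1 then 1 else 2

/-- A chosen place over `q` with a Frobenius and an inertia element generating the tame
`p`-quotient: any continuous map to a finite group whose inertia image is a `p`-group is
determined on inertia by `gen`, on the decomposition group by `gen` and `frob`. -/
structure TamePair (p q : ℕ) : Type 1 where
  A : ValuationSubring (AlgebraicClosure ℚ)
  liesOver : A.LiesOverPrime q
  frob : Γℚ
  gen : Γℚ
  frob_spec : A.IsFrobeniusAt frob q
  gen_mem : gen ∈ A.inertiaSubgroupIn ℚ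
  tame : ∀ (G : Type) [Group G] [Finite G] (ψ : Γℚ →* G), GaloisFactorsThroughFiniteLevel ψ →
    (∀ σ ∈ A.inertiaSubgroupIn ℚ, ∃ m : ℕ, ψ σ ^ p ^ m = 1) →
    (∀ σ ∈ A.inertiaSubgroupIn ℚ, ψ σ ∈ Subgroup.zpowers (ψ gen)) ∧
    (∀ σ ∈ A.decompositionSubgroup ℚ, ψ σ ∈ Subgroup.closure {ψ gen, ψ frob}) ∧
    ψ (frob * gen * frob⁻¹) = ψ gen ^ q

/-- Tame pairs at the primes of `T` and `F`. -/
abbrev OddPrimes.TamePairs (S : OddPrimes p ρbar) : Type 1 :=
  ∀ q : (S.T ∪ S.F : Finset ℕ), TamePair p q.1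

/-- The chosen pair at a prime of `T`. -/
def OddPrimes.TamePairs.atT {S : OddPrimes p ρbar} (tp : S.TamePairs) (q : S.T) :
    TamePair p q.1 :=
  tp ⟨q.1, Finset.mem_union_left _ q.2⟩

/-- The chosen pair at a prime of `F`. -/
def OddPrimes.TamePairs.atF {S : OddPrimes p ρbar} (tp : S.TamePairs) (q : S.F) :
    TamePair p q.1 :=
  tp ⟨q.1, Finset.mem_union_right _ q.2⟩

variable {O : Type} [CommRing O] [IsLocalRing O]

/-- `ρ` lifts `ρbar`. -/
def IsLiftOf (ρbar : ResidualGaloisRep (ResidueField O)) {A : Type} [CommRing A] [IsLocalRing A]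
    [Algebra O A] [IsLocalHom (algebraMap O A)] (ρ : GaloisRepAdic A) : Prop :=
  ρ.residual.IsEquiv (ρbar.baseChangeAlong (ResidueField.map (algebraMap O A)))

/-- The condition at `p`. -/
def pCondition (c : PCase) {A : Type} [CommRing A] [IsLocalRing A] (ρ : GaloisRepAdic A) (p : ℕ) :
    Prop :=
  match c with
  | PCase.flat => ρ.IsFlatAt p
  | PCase.strictOnly => ρ.IsStrictOrdinaryAt p
  | PCase.mixed => ρ.IsOrdinaryAt p

/-- The lifts considered: cyclotomic determinant, the condition at `p`, unipotent at `Smin` and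
`F`, with the sign `ε` at `F`, and no condition at `T` and at the auxiliary primes `Q`. -/
structure IsOddLift (S : OddPrimes p ρbar) (Q : Finset ℕ) {A : Type} [CommRing A] [IsLocalRing A]
    (ρ : GaloisRepAdic A) : Prop where
  det : ρ.DetIsCyclotomic p
  at_p : pCondition S.pCase ρ p
  unramified : ∀ q : ℕ, q.Prime → q ≠ p → q ∉ S.all ∪ Q → ρ.IsUnramifiedAt q
  unipotent : ∀ q ∈ S.Smin ∪ S.F, ρ.IsUnipotentOnInertiaAt q
  sign : ∀ q ∈ S.F, ∀ P : ValuationSubring (AlgebraicClosure ℚ), P.LiesOverPrime q →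
    ∀ φ : Γℚ, P.IsFrobeniusAt φ q → ∀ σ ∈ P.inertiaSubgroupIn ℚ, ∀ v : ρ.V,
      ρ.ρ φ (ρ.ρ σ v - v) = ((q : A) * (S.ε q : A)) • (ρ.ρ σ v - v)

/-- The coordinate `z_r`. -/
noncomputable def zCoord (S : OddPrimes p ρbar) {r : ℕ} (t : TamePair p r) {A : Type} [CommRing A]
    [IsLocalRing A] (ρ : GaloisRepAdic A) : A :=
  ρ.trace t.frob - (S.ε r : A) * ((r : A) + 1)

section Frame

variable {R : Type} [CommRing R] {T : Finset ℕ}

/-- The frame variables: four at each prime of `T`. -/
abbrev FrameVar (T : Finset ℕ) : Type := T × Fin 2 × Fin 2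

/-- The universal change of basis at `q`. -/
noncomputable def frameChange (q : T) : Matrix (Fin 2) (Fin 2) (MvPowerSeries (FrameVar T) R) :=
  1 + Matrix.of fun i j => MvPowerSeries.X (q, i, j)

/-- A matrix in the universal frame at `q`. -/
noncomputable def frameMat (q : T) (M : Matrix (Fin 2) (Fin 2) R) :
    Matrix (Fin 2) (Fin 2) (MvPowerSeries (FrameVar T) R) :=
  frameChange q * M.map MvPowerSeries.C * (frameChange q)⁻¹

/-- The coordinates of the traceless part. -/
noncomputable def tracelessCoord {A : Type} [CommRing A] (M : Matrix (Fin 2) (Fin 2) A) :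
    Fin 3 → A :=
  ![Ring.inverse (2 : A) * (M 0 0 - M 1 1), M 0 1, M 1 0]

/-- The framed coordinates at `q`: `0, 1, 2` of inertia, `3, 4, 5` of Frobenius. -/
noncomputable def framedCoord [IsLocalRing R] (ρ : GaloisRepAdic R)
    (b : Module.Basis (Fin 2) R ρ.V) (tp : ∀ q : T, TamePair p q.1) (qi : T × Fin 6) :
    MvPowerSeries (FrameVar T) R :=
  Fin.addCases (m := 3) (n := 3)
    (tracelessCoord (frameMat qi.1 (LinearMap.toMatrix b b (ρ.ρ (tp qi.1).gen))))
    (tracelessCoord (frameMat qi.1 (LinearMap.toMatrix b b (ρ.ρ (tp qi.1).frob)))) qi.2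

end Frame

end FermatLib.MLT.Odd
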