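import Mathlib
import Fermat.Agent.MLT.Odd.Defs
import Fermat.Agent.Mazur.LocalTame
import Fermat.Agent.Galois.FrobeniusElement
import Fermat.Agent.Basic.FrobeniusExists

/-!
# Tame pairs exist

One element of inertia at a place over `q` generates the image of inertia in every finite quotient
where this image is a `p`-group (`p ≠ q`): the elements that work for a given open normal subgroup
form a non-empty closed set, and inertia is compact.
-/

set_option autoImplicit false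

noncomputable section

set_option linter.style.haveILetI false

open scoped Pointwise

namespace FermatLib.MLT.Odd

local notation "Qbar" => AlgebraicClosure ℚ
local notation "Γℚ" => (AlgebraicClosure ℚ ≃ₐ[ℚ] AlgebraicClosure ℚ)

local instance tamePairQbarIsGalois : IsGalois ℚ Qbar :=
  have : IsAlgClosure ℚ Qbar := ⟨inferInstance, AlgebraicClosure.isAlgebraic ℚ⟩
  IsAlgClosure.isGalois ℚ Qbar

/-- The automorphisms sending `x` into a given set form a closed set. -/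
theorem isClosed_setOf_apply_mem (x : Qbar) (S : Set Qbar) : IsClosed {σ : Γℚ | σ x ∈ S} := by
  let E : IntermediateField ℚ Qbar := IntermediateField.adjoin ℚ {x}
  haveI : FiniteDimensional ℚ E :=
    IntermediateField.adjoin.finiteDimensional (Algebra.IsIntegral.isIntegral x)
  have hopen : IsOpen {σ : Γℚ | σ x ∉ S} := by
    refine isOpen_iff_forall_mem_open.mpr fun σ hσ =>
      ⟨(fun t => σ * t) '' (E.fixingSubgroup : Set Γℚ), ?_, ?_, ⟨1, one_mem _, mul_one σ⟩⟩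
    · rintro _ ⟨t, ht, rfl⟩
      have htx : t x = x := (IntermediateField.mem_fixingSubgroup_iff _ _).mp ht x
        (IntermediateField.mem_adjoin_simple_self ℚ x)
      show (σ * t) x ∉ S
      rwa [AlgEquiv.mul_apply, htx]
    · exact (Homeomorph.mulLeft σ).isOpenMap _ (IntermediateField.fixingSubgroup_isOpen E)
  exact isOpen_compl_iff.mp hopen

/-- Inertia is closed. -/
theorem isClosed_inertiaSubgroupIn (A : ValuationSubring Qbar) :
    IsClosed ((A.inertiaSubgroupIn ℚ : Subgroup Γℚ) : Set Γℚ) := by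
  have hset : ((A.inertiaSubgroupIn ℚ : Subgroup Γℚ) : Set Γℚ) =
      (⋂ x : Qbar, {σ : Γℚ | σ x ∈ {y | y ∈ A ↔ x ∈ A}}) ∩
        ⋂ x ∈ A, {σ : Γℚ | σ x ∈ {y | y - x ∈ A.nonunits}} := by
    ext σ
    rw [SetLike.mem_coe, FermatLib.Galois.mem_inertiaSubgroupIn_iff_forall_mem]
    simp only [Set.mem_inter_iff, Set.mem_iInter, Set.mem_ofPred_eq]
    refine and_congr_left' ⟨fun h x => ?_, fun h => ?_⟩
    · have hA : σ • A = A := MulAction.mem_stabilizer_iff.mp h
      conv_lhs => rw [← hA, FermatLib.Galois.mem_smul_place, ← AlgEquiv.mul_apply, inv_mul_cancel,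
        AlgEquiv.one_apply]
    · refine MulAction.mem_stabilizer_iff.mpr (SetLike.ext fun y => ?_)
      rw [FermatLib.Galois.mem_smul_place, ← h (σ⁻¹ y), ← AlgEquiv.mul_apply, mul_inv_cancel,
        AlgEquiv.one_apply]
  rw [hset]
  exact (isClosed_iInter fun x => isClosed_setOf_apply_mem x _).inter
    (isClosed_biInter fun x _ => isClosed_setOf_apply_mem x _)

variable (p : ℕ) (A : ValuationSubring Qbar)

/-- The inertia elements generating the image of inertia in every quotient by a subgroup containing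
`H` where this image is a `p`-group. -/
def tameGenerators (H : Subgroup Γℚ) : Set Γℚ :=
  {τ | τ ∈ A.inertiaSubgroupIn ℚ ∧ ∀ (Γ : Type) [Group Γ] [Finite Γ] (ψ : Γℚ →* Γ),
    (∀ h ∈ H, ψ h = 1) → (∀ σ ∈ A.inertiaSubgroupIn ℚ, ∃ m : ℕ, ψ σ ^ p ^ m = 1) →
      ∀ σ ∈ A.inertiaSubgroupIn ℚ, ψ σ ∈ Subgroup.zpowers (ψ τ)}

theorem tameGenerators_mono {H H' : Subgroup Γℚ} (h : H ≤ H') :
    tameGenerators p A H ⊆ tameGenerators p A H' :=
  fun _ hτ => ⟨hτ.1, fun Γ _ _ ψ hψ => hτ.2 Γ ψ fun g hg => hψ g (h hg)⟩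

theorem isClosed_tameGenerators {H : Subgroup Γℚ} (hH : IsOpen (H : Set Γℚ)) :
    IsClosed (tameGenerators p A H) := by
  have hU : IsClosed {τ : Γℚ | ∃ c ∈ tameGenerators p A H, c⁻¹ * τ ∈ H} := by
    refine ⟨isOpen_iff_forall_mem_open.mpr fun τ hτ =>
      ⟨(fun t => τ * t) '' (H : Set Γℚ), ?_, (Homeomorph.mulLeft τ).isOpenMap _ hH,
        ⟨1, one_mem _, mul_one τ⟩⟩⟩
    rintro _ ⟨t, ht, rfl⟩ ⟨c, hc, hct⟩
    refine hτ ⟨c, hc, ?_⟩
    rw [← mul_assoc] at hct
    simpa using mul_mem hct (inv_mem ht)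
  have heq : tameGenerators p A H =
      ((A.inertiaSubgroupIn ℚ : Subgroup Γℚ) : Set Γℚ) ∩
        {τ : Γℚ | ∃ c ∈ tameGenerators p A H, c⁻¹ * τ ∈ H} := by
    refine Set.Subset.antisymm (fun τ hτ => ⟨hτ.1, τ, hτ, by rw [inv_mul_cancel]; exact one_mem _⟩)
      ?_
    rintro τ ⟨hI, c, hc, hct⟩
    refine ⟨hI, fun Γ _ _ ψ hψ hpw σ hσ => ?_⟩
    have : ψ τ = ψ c := by
      rw [← mul_inv_cancel_left c τ, map_mul, hψ _ hct, mul_one]
    rw [this]
    exact hc.2 Γ ψ hψ hpw σ hσ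
  rw [heq]
  exact (isClosed_inertiaSubgroupIn A).inter hU

theorem nonempty_tameGenerators {q : ℕ} (hp : p.Prime) (hq : q.Prime) (hpq : p ≠ q)
    (hA : A.LiesOverPrime q) {H : Subgroup Γℚ} [H.Normal] (hH : IsOpen (H : Set Γℚ)) :
    (tameGenerators p A H).Nonempty := by
  set I := A.inertiaSubgroupIn ℚ
  let N : Subgroup I :=
    sInf {M : Subgroup I | M.Normal ∧ H.subgroupOf I ≤ M ∧ ∀ σ : I, ∃ m : ℕ, σ ^ p ^ m ∈ M}
  have hNn : N.Normal := ⟨fun n hn g => Subgroup.mem_sInf.mpr fun M hM =>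
    hM.1.conj_mem n (Subgroup.mem_sInf.mp hn M hM) g⟩
  have hHN : H.subgroupOf I ≤ N := le_sInf fun M hM => hM.2.1
  haveI : Finite (Γℚ ⧸ H) := Subgroup.quotient_finite_of_isOpen H hH
  haveI : H.FiniteIndex := Subgroup.finiteIndex_of_finite_quotient
  haveI : (H.subgroupOf I).FiniteIndex := inferInstance
  haveI : N.FiniteIndex := Subgroup.finiteIndex_of_le hHN
  let ψ₀ : I →* I ⧸ N := QuotientGroup.mk' N
  have hpow : ∀ σ, ∃ m : ℕ, ψ₀ σ ^ p ^ m = 1 := fun σ => by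
    obtain ⟨a, b, hb, he⟩ :=
      Nat.exists_eq_pow_mul_and_not_dvd (orderOf_pos (ψ₀ σ)).ne' p hp.ne_one
    refine ⟨a, ?_⟩
    rw [← map_pow]
    refine (QuotientGroup.eq_one_iff _).mpr (Subgroup.mem_sInf.mpr fun M hM => ?_)
    haveI := hM.1
    obtain ⟨m, hm⟩ := hM.2.2 σ
    have h1 : orderOf (QuotientGroup.mk' M σ) ∣ p ^ m := orderOf_dvd_of_pow_eq_one (by
      rw [← map_pow]; exact (QuotientGroup.eq_one_iff _).mpr hm)
    have h2 : orderOf (QuotientGroup.mk' M σ) ∣ p ^ a * b := by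
      rw [← he]
      refine orderOf_dvd_of_pow_eq_one ?_
      rw [← map_pow]
      exact (QuotientGroup.eq_one_iff _).mpr (sInf_le (a := M) hM
        ((QuotientGroup.eq_one_iff _).mp (by
          show ψ₀ (σ ^ orderOf (ψ₀ σ)) = 1
          rw [map_pow, pow_orderOf_eq_one])))
    have hcop : Nat.Coprime (orderOf (QuotientGroup.mk' M σ)) b :=
      Nat.Coprime.coprime_dvd_left h1 (Nat.Coprime.pow_left m (hp.coprime_iff_not_dvd.mpr hb))
    have h3 : orderOf (QuotientGroup.mk' M σ) ∣ p ^ a := hcop.dvd_of_dvd_mul_right h2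
    obtain ⟨c, hc⟩ := h3
    refine (QuotientGroup.eq_one_iff _).mp ?_
    show QuotientGroup.mk' M (σ ^ p ^ a) = 1
    rw [map_pow, hc, pow_mul, pow_orderOf_eq_one, one_pow]
  obtain ⟨τ, hτ, -⟩ := FermatLib.Mazur.exists_tame_generator hp hq hpq hA ψ₀ hpow H hH
    fun σ hσ => (QuotientGroup.eq_one_iff _).mpr (hHN (Subgroup.mem_subgroupOf.mpr hσ))
  refine ⟨τ, τ.2, fun Γ _ _ ψ hψ hpw σ hσ => ?_⟩
  have hN : N ≤ (ψ.comp I.subtype).ker := sInf_le
    ⟨inferInstance, fun g hg => hψ _ (Subgroup.mem_subgroupOf.mp hg), fun g => by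
      obtain ⟨m, hm⟩ := hpw g g.2
      exact ⟨m, by rw [MonoidHom.mem_ker, map_pow]; exact hm⟩⟩
  obtain ⟨n, hn⟩ := hτ ⟨σ, hσ⟩
  have h0 : (τ ^ n)⁻¹ * ⟨σ, hσ⟩ ∈ N := by
    refine (QuotientGroup.eq).mp ?_
    exact hn
  have h1 := hN h0
  rw [MonoidHom.mem_ker, map_mul, map_inv, inv_mul_eq_one, map_zpow] at h1
  exact ⟨n, h1⟩

/-- One element works for all finite quotients. -/
theorem exists_tame_generator_all {q : ℕ} (hp : p.Prime) (hq : q.Prime) (hpq : p ≠ q)
    (hA : A.LiesOverPrime q) :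
    ∃ τ, ∀ H : Subgroup Γℚ, H.Normal → IsOpen (H : Set Γℚ) → τ ∈ tameGenerators p A H := by
  let ι := {H : Subgroup Γℚ // H.Normal ∧ IsOpen (H : Set Γℚ)}
  haveI : Nonempty ι := ⟨⟨⊤, inferInstance, by rw [Subgroup.coe_top]; exact isOpen_univ⟩⟩
  have hne := IsCompact.nonempty_iInter_of_directed_nonempty_isCompact_isClosed
    (fun H : ι => tameGenerators p A H.1) ?_ ?_ ?_ ?_
  · obtain ⟨τ, hτ⟩ := hne
    exact ⟨τ, fun H hn ho => Set.mem_iInter.mp hτ ⟨H, hn, ho⟩⟩
  · intro H H'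
    haveI := H.2.1
    haveI := H'.2.1
    exact ⟨⟨H.1 ⊓ H'.1, inferInstance, H.2.2.inter H'.2.2⟩,
      tameGenerators_mono p A inf_le_left, tameGenerators_mono p A inf_le_right⟩
  · exact fun H => haveI := H.2.1; nonempty_tameGenerators p A hp hq hpq hA H.2.2
  · exact fun H => (isClosed_tameGenerators p A H.2.2).isCompact
  · exact fun H => isClosed_tameGenerators p A H.2.2

variable {p}

/-- Tame pairs exist. -/
theorem nonempty_tamePair {q : ℕ} (hp : p.Prime) (hq : q.Prime) (hqp : q ≠ p) :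
    Nonempty (TamePair p q) := by
  obtain ⟨A, hA⟩ := FermatLib.Basic.exists_liesOverPrime hq
  obtain ⟨F, hF⟩ := FermatLib.Basic.exists_isFrobeniusAt hq A hA
  obtain ⟨τ, hτ⟩ := exists_tame_generator_all p A hp hq (Ne.symm hqp) hA
  have hgen : τ ∈ A.inertiaSubgroupIn ℚ :=
    (hτ ⊤ inferInstance (by rw [Subgroup.coe_top]; exact isOpen_univ)).1
  refine ⟨⟨A, hA, F, τ, hF, hgen, fun G _ _ ψ hfac hpw => ?_⟩⟩
  obtain ⟨L, hL, hLψ⟩ := hfac
  have hker : L.fixingSubgroup ≤ ψ.ker := fun g hg =>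
    hLψ g ((IntermediateField.mem_fixingSubgroup_iff _ _).mp hg)
  have hopen : IsOpen (ψ.ker : Set Γℚ) :=
    Subgroup.isOpen_mono hker (IntermediateField.fixingSubgroup_isOpen L)
  have h1 := (hτ ψ.ker inferInstance hopen).2 G ψ (fun h hh => MonoidHom.mem_ker.mp hh) hpw
  refine ⟨h1, fun σ hσ => ?_, ?_⟩
  · obtain ⟨k, t, ht, hσL⟩ :=
      FermatLib.Galois.exists_frobenius_pow_mul_inertia hq hA L hF hσ
    have : (F ^ k * t)⁻¹ * σ ∈ L.fixingSubgroup :=
      (IntermediateField.mem_fixingSubgroup_iff _ _).mpr fun x hx => by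
        rw [AlgEquiv.mul_apply, hσL x hx, ← AlgEquiv.mul_apply, inv_mul_cancel,
          AlgEquiv.one_apply]
    have h2 := MonoidHom.mem_ker.mp (hker this)
    rw [map_mul, map_inv, inv_mul_eq_one, map_mul, map_pow] at h2
    rw [← h2]
    exact mul_mem (pow_mem (Subgroup.subset_closure (by simp)) k)
      ((Subgroup.zpowers_le.mpr (Subgroup.subset_closure (by simp))) (h1 t ht))
  · obtain ⟨s, hs, hs'⟩ := FermatLib.Mazur.exists_tame_generator hp hq (Ne.symm hqp) hA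
      (ψ.comp (A.inertiaSubgroupIn ℚ).subtype) (fun σ => hpw σ σ.2) ψ.ker hopen
      fun σ hσ => MonoidHom.mem_ker.mp hσ
    obtain ⟨n, hn⟩ := hs ⟨τ, hgen⟩
    obtain ⟨hmem, he⟩ := hs' F hF
    have hn' : ψ (s : Γℚ) ^ n = ψ τ := hn
    have he' : ψ (F * (s : Γℚ) * F⁻¹) = ψ (s : Γℚ) ^ q := he
    rw [map_mul, map_mul, map_inv] at he' ⊢
    rw [← hn', ← conj_zpow, he', ← zpow_natCast, ← zpow_natCast, ← zpow_mul, ← zpow_mul, mul_comm]

end FermatLib.MLT.Odd

end
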