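import Fermat.Agent.MLT.Odd.GeneratorsDefs
import Fermat.Agent.MLT.Odd.GeneratorsProofMain
import Fermat.Agent.MLT.Odd.TamePair

/-!
# Tame pairs and generators of the framed rings

The main statements; the proof is in `GeneratorsProofMain`.
-/

set_option autoImplicit false

namespace FermatLib.MLT.Odd

open IsLocalRing Polynomial

/-- Tame pairs exist. -/
theorem exists_tamePair {p q : ℕ} (hp : p.Prime) (hq : q.Prime) (hqp : q ≠ p) :
    Nonempty (TamePair p q) :=
  nonempty_tamePair hp hq hqp

variable {O : Type} [CommRing O] [IsDomain O] [IsDiscreteValuationRing O]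
  [IsAdicComplete (maximalIdeal O) O] [Finite (ResidueField O)] [CharZero O]
  {p : ℕ} [Fact p.Prime] {ρbar : ResidualGaloisRep (ResidueField O)}

/-- **Taylor–Wiles primes and generators.** -/
theorem exists_twPrimes_generators (hp2 : p ≠ 2) (hpO : (p : O) ∈ maximalIdeal O)
    (hres : OddResidual p ρbar) (S : OddPrimes p ρbar) (tp : S.TamePairs) :
    ∃ r g : ℕ, g + S.F.card + S.pIdx = r + S.T.card ∧
      ∀ (n : ℕ) (avoid : Finset ℕ), ∃ qv : Fin r → ℕ, IsTWFamily S n qv ∧ (∀ i, qv i ∉ avoid) ∧
        ∀ (R : Type) [CommRing R] [IsLocalRing R] [Algebra O R] [IsLocalHom (algebraMap O R)]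
          [Module.Finite O R],
          (Function.Surjective fun c : O => residue R (algebraMap O R c)) →
          ∀ ρ : GaloisRepAdic R, IsOddLift S (Finset.univ.image qv) ρ → IsLiftOf ρbar ρ →
            Algebra.adjoin O (Set.range ρ.trace) = ⊤ → HasGenerators S tp g ρ :=
  twPrimes_generators_proof hp2 hpO hres S tp

end FermatLib.MLT.Odd
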