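import Fermat.Agent.Galois.RepAdic
import Fermat.Agent.Galois.Chebotarev
import Fermat.Agent.Galois.CyclotomicFrobenius
import Fermat.Prelude.Def_GaloisRep_LocalConditions

/-!
# An absolutely irreducible representation is not Eisenstein

If the traces are `2` on the kernel of a character with abelian image containing the determinant,
that kernel acts by unipotents, so there is a stable line or the image is abelian.  So for an
absolutely irreducible `ρbar` with cyclotomic determinant there are primes `ℓ ≡ 1 (mod N)` at which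
the trace of Frobenius is not `ℓ + 1`.
-/

set_option autoImplicit false

noncomputable section

namespace FermatLib.MLT.HeckeRep

open FermatLib.Galois Matrix

local notation "Qbar" => AlgebraicClosure ℚ
local notation "Γℚ" => (AlgebraicClosure ℚ ≃ₐ[ℚ] AlgebraicClosure ℚ)

/-- With full span, the traces on a kernel of determinant one with abelian quotient are not all
`2`. -/
theorem exists_trace_ne_two {G C k : Type*} [Group G] [CommGroup C] [Field k] (χ : G →* C)
    (ρ : G →* Matrix (Fin 2) (Fin 2) k) (h : HasFullSpan ρ)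
    (hdet : ∀ g, χ g = 1 → (ρ g).det = 1) : ∃ g, χ g = 1 ∧ (ρ g).trace ≠ 2 := by
  by_contra! hall
  have hch : ∀ M : Matrix (Fin 2) (Fin 2) k, M.trace = 2 → M.det = 1 → (M - 1) * (M - 1) = 0 := by
    intro M ht hd
    have e : (M - 1) * (M - 1) = (M.trace - 2) • M + (1 - M.det) • 1 := by
      ext i j
      fin_cases i <;> fin_cases j <;>
        simp [Matrix.mul_apply, Matrix.trace_fin_two, Matrix.det_fin_two, Fin.sum_univ_two] <;> ring
    rw [e, ht, hd, sub_self, sub_self, zero_smul, zero_smul, add_zero]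
  have hnil : ∀ g, χ g = 1 → (ρ g - 1) * (ρ g - 1) = 0 := fun g hg =>
    hch _ (hall g hg) (hdet g hg)
  by_cases htriv : ∀ g, χ g = 1 → ρ g = 1
  · -- abelian image: every value is scalar
    have hcomm : ∀ a b : G, ρ a * ρ b = ρ b * ρ a := fun a b => by
      have h1 := htriv (a * b * (b * a)⁻¹) (by
        rw [map_mul, map_mul, map_inv, map_mul, mul_comm (χ b), mul_inv_cancel])
      conv_lhs => rw [← map_mul, ← inv_mul_cancel_right (a * b) (b * a), map_mul, h1, one_mul,
        map_mul]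
    have hs : ∀ g, ρ g = Matrix.scalar (Fin 2) (ρ g 0 0) := fun g =>
      h.eq_scalar_of_commute fun σ => hcomm g σ
    have key : ∀ X ∈ Submodule.span k (Set.range ρ), X 0 1 = 0 := by
      intro X hX
      induction hX using Submodule.span_induction with
      | mem x hx => obtain ⟨g, rfl⟩ := hx; rw [hs g]; simp
      | zero => simp
      | add x y _ _ hx hy => simp [hx, hy]
      | smul a x _ hx => simp [hx]
    have := key !![0, 1; 0, 0] (by rw [h.span_range_eq_top]; exact Submodule.mem_top)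
    simp at this
  · push Not at htriv
    obtain ⟨g₀, hg₀, hne⟩ := htriv
    set N := ρ g₀ - 1 with hN
    have hN0 : N ≠ 0 := sub_ne_zero.2 hne
    obtain ⟨u, hu⟩ : ∃ u, N *ᵥ u ≠ 0 := by
      by_contra! hu
      exact hN0 (Matrix.ext_iff_mulVec.2 fun v => by rw [hu, zero_mulVec])
    set v := N *ᵥ u with hv
    have hNv : N *ᵥ v = 0 := by rw [hv, mulVec_mulVec, hnil g₀ hg₀, zero_mulVec]
    have hdec : ∀ x : Fin 2 → k, ∃ a b : k, x = a • v + b • u := fun x => by
      have htop : Submodule.span k ({v, u} : Set (Fin 2 → k)) = ⊤ :=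
        eq_top_of_mem_of_ne_smul (Submodule.subset_span (Set.mem_insert _ _))
          (Submodule.subset_span (Set.mem_insert_of_mem _ rfl)) hu fun a ha =>
          hu (by rw [hv, ha, mulVec_smul, hNv, smul_zero])
      obtain ⟨a, b, hab⟩ := Submodule.mem_span_pair.1
        (show x ∈ Submodule.span k ({v, u} : Set (Fin 2 → k)) from htop ▸ Submodule.mem_top)
      exact ⟨a, b, hab.symm⟩
    have hker : ∀ x, N *ᵥ x = 0 → ∃ a : k, x = a • v := fun x hx => by
      obtain ⟨a, b, rfl⟩ := hdec x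
      rw [mulVec_add, mulVec_smul, mulVec_smul, hNv, smul_zero, zero_add] at hx
      exact ⟨a, by rw [(smul_eq_zero.1 hx).resolve_right hu, zero_smul, add_zero]⟩
    -- the unipotents of the kernel kill `v`
    have hkill : ∀ g, χ g = 1 → (ρ g - 1) *ᵥ v = 0 := by
      intro g hg
      set M := ρ g - 1 with hM
      have hMN : M * N + N * M = 0 := by
        have h1 := hnil (g * g₀) (by rw [map_mul, hg, hg₀, one_mul])
        have h2 := hall (g * g₀) (by rw [map_mul, hg, hg₀, one_mul])
        have hMt : M.trace = 0 := by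
          rw [hM, Matrix.trace_sub, hall g hg, Matrix.trace_one]; simp
        have hNt : N.trace = 0 := by
          rw [hN, Matrix.trace_sub, hall g₀ hg₀, Matrix.trace_one]; simp
        have hMNt : (M * N).trace = 0 := by
          have e : M * N = ρ (g * g₀) - 1 - M - N := by
            rw [map_mul, hM, hN]; noncomm_ring
          rw [e, Matrix.trace_sub, Matrix.trace_sub, hMt, hNt, Matrix.trace_sub, h2,
            Matrix.trace_one]
          simp
        have hid : M * N + N * M =
            M.trace • N + N.trace • M + ((M * N).trace - M.trace * N.trace) • 1 := by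
          ext i j
          fin_cases i <;> fin_cases j <;>
            simp [Matrix.mul_apply, Matrix.trace_fin_two, Fin.sum_univ_two] <;> ring
        rw [hid, hMt, hNt, hMNt]
        simp
      obtain ⟨a, ha⟩ : ∃ a : k, M *ᵥ v = a • v := by
        refine hker _ ?_
        rw [mulVec_mulVec, eq_neg_of_add_eq_zero_right hMN, neg_mulVec, ← mulVec_mulVec, hNv,
          mulVec_zero, neg_zero]
      have h2 : M *ᵥ (M *ᵥ v) = 0 := by rw [mulVec_mulVec, hnil g hg, zero_mulVec]
      rw [ha, mulVec_smul, ha, smul_smul] at h2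
      rw [ha, mul_self_eq_zero.1 ((smul_eq_zero.1 h2).resolve_right hu), zero_smul]
    -- hence the line of `v` is stable
    obtain ⟨σ, hσ⟩ := h.noStableLine v hu
    have h1 := hkill (σ⁻¹ * g₀ * σ) (by
      rw [map_mul, map_mul, hg₀, mul_one, map_inv, inv_mul_cancel])
    have e : ρ (σ⁻¹ * g₀ * σ) - 1 = ρ σ⁻¹ * N * ρ σ := by
      rw [hN, mul_sub, sub_mul, mul_one, ← map_mul, ← map_mul, ← map_mul, inv_mul_cancel, map_one]
    rw [e] at h1
    have h2 : N *ᵥ (ρ σ *ᵥ v) = 0 := by
      have := congrArg (ρ σ *ᵥ ·) h1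
      simp only [mulVec_zero, mulVec_mulVec, ← mul_assoc, ← map_mul, mul_inv_cancel, map_one,
        one_mul] at this
      rwa [← mulVec_mulVec] at this
    obtain ⟨a, ha⟩ := hker _ h2
    exact hσ a ha

/-- **Primes `ℓ ≡ 1 (mod N)` with trace of Frobenius different from `ℓ + 1`.** -/
theorem exists_frobenius_trace_ne {k : Type} [Field k] {ρbar : ResidualGaloisRep k}
    (hirr : ρbar.IsAbsolutelyIrreducible) {p : ℕ} (hp : p.Prime)
    (hdet : (GaloisRepAdic.ofResidualGaloisRep ρbar).DetIsCyclotomic p) (N : ℕ) [NeZero N]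
    (T : Finset ℕ) :
    ∃ ℓ : ℕ, ℓ.Prime ∧ ℓ ∉ T ∧ ¬ ℓ ∣ N ∧ ℓ ≠ p ∧ (ℓ : ZMod N) = 1 ∧
      ∃ A : ValuationSubring Qbar, A.LiesOverPrime ℓ ∧ ∃ σ : Γℚ, A.IsFrobeniusAt σ ℓ ∧
        LinearMap.trace k ρbar.V (ρbar.ρ σ) ≠ (ℓ : k) + 1 := by
  have hpk : (p : k) = 0 := by
    have h : (p : k) ∈ IsLocalRing.maximalIdeal k := hdet.1
    simpa [IsLocalRing.maximalIdeal_eq_bot] using h
  have : NeZero (N * p) := ⟨mul_ne_zero (NeZero.ne N) hp.ne_zero⟩
  have hdet1 : ∀ g, modCycloChar (N * p) g = 1 → (residualMat ρbar g).det = 1 := by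
    intro g hg
    rw [residualMat, det_repMatrix]
    have h := hdet.2 1 g 1 fun μ hμ => by
      rw [pow_one] at hμ
      have hμ' : μ ^ (N * p) = 1 := by rw [mul_comm, pow_mul, hμ, one_pow]
      rw [apply_eq_pow_modCycloChar (N * p) g hμ', hg, Units.val_one, pow_one]
      have : Fact (1 < N * p) := ⟨lt_of_lt_of_le hp.one_lt
        (Nat.le_mul_of_pos_left p (Nat.pos_of_ne_zero (NeZero.ne N)))⟩
      rw [ZMod.val_one, pow_one]
    simp only [pow_one, Nat.cast_one, hpk, Ideal.span_singleton_zero, Ideal.mem_bot,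
      sub_eq_zero] at h
    exact h
  obtain ⟨g, hg, hne⟩ := exists_trace_ne_two (modCycloChar (N * p)) (residualMat ρbar)
    ((isAbsolutelyIrreducible_iff_hasFullSpan ρbar).1 hirr) hdet1
  rw [residualMat, trace_repMatrix] at hne
  obtain ⟨L, hL, hL1⟩ := ρbar.factorsThroughFiniteLevel
  obtain ⟨F, hF, hF1⟩ := exists_finite_level_modCycloChar (N * p)
  have := hL; have := hF
  have : FiniteDimensional ℚ (L ⊔ F : IntermediateField ℚ Qbar) :=
    IntermediateField.finiteDimensional_sup _ _
  obtain ⟨ℓ, hℓ, hℓT, A, hA, σ, hσ, heq⟩ :=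
    exists_isFrobeniusAt_eqOn (L ⊔ F) g (T ∪ (N * p).primeFactors)
  rw [Finset.mem_union, not_or, Nat.mem_primeFactors] at hℓT
  have hℓNp : ¬ ℓ ∣ N * p := fun h => hℓT.2 ⟨hℓ, h, NeZero.ne _⟩
  have hfix : ∀ x ∈ L ⊔ F, (g⁻¹ * σ) x = x := fun x hx => by
    rw [AlgEquiv.mul_apply, heq x hx, ← AlgEquiv.mul_apply, inv_mul_cancel, AlgEquiv.one_apply]
  have hχσ : modCycloChar (N * p) σ = 1 := by
    have h1 := hF1 (g⁻¹ * σ) ((IntermediateField.mem_fixingSubgroup_iff _ _).2 fun x hx =>
      hfix x (le_sup_right (a := L) hx))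
    rwa [map_mul, map_inv, hg, inv_one, one_mul] at h1
  have hρσ : ρbar.ρ σ = ρbar.ρ g := by
    have h1 := hL1 (g⁻¹ * σ) fun x hx => hfix x (le_sup_left (b := F) hx)
    calc ρbar.ρ σ = ρbar.ρ g * ρbar.ρ (g⁻¹ * σ) := by rw [← map_mul, mul_inv_cancel_left]
      _ = ρbar.ρ g := by rw [h1, mul_one]
  have hℓ1 : (ℓ : ZMod (N * p)) = 1 := by
    rw [← modCycloChar_frobenius hℓ hℓNp hA hσ, hχσ, Units.val_one]
  have hcast : ∀ m (hm : m ∣ N * p), (ℓ : ZMod m) = 1 := fun m hm => by
    have h := congrArg (ZMod.castHom hm (ZMod m)) hℓ1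
    rwa [map_natCast, map_one] at h
  have hℓk : (ℓ : k) = 1 := by
    have : CharP k p := (CharP.charP_iff_prime_eq_zero hp).2 hpk
    have h := congrArg (ZMod.castHom (dvd_refl p) k) (hcast p (dvd_mul_left p N))
    rwa [map_natCast, map_one] at h
  refine ⟨ℓ, hℓ, hℓT.1, fun h => hℓNp (h.mul_right p), fun h => hℓNp (h ▸ dvd_mul_left ℓ N),
    hcast N (dvd_mul_right N p), A, hA, σ, hσ, ?_⟩
  rwa [hρσ, hℓk, one_add_one_eq_two]

end FermatLib.MLT.HeckeRep
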