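import Fermat.Agent.MLT.Odd.SupplyZeroEigen
import Fermat.Agent.MLT.Hecke.IharaComm
import Fermat.Agent.Modular.TwistSystemEigen

/-!
# Removing a prime from the level of an eigenclass, or twisting it to an eigenform

The characters are products over auxiliary primes `qv i`.  An eigenclass at level `L q` gives one at
level `L`, or one with `U q ^ 2 = χ q`; the latter twists to an eigenform with `a_q ^ 2 = 1`.
-/

set_option autoImplicit false
set_option linter.style.haveILetI false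

noncomputable section

open scoped MatrixGroups
open CongruenceSubgroup MvPolynomial

namespace FermatLib.MLT

variable {K : Type} [Field K] {r : ℕ} {qv : Fin r → ℕ}

/-- The character of level `L` which is `ω i` at `qv i`. -/
def qvChar (ω : ∀ i, (ZMod (qv i))ˣ →* Kˣ) (L : ℕ) (h : ∀ i, qv i ∣ L) : (ZMod L)ˣ →* Kˣ :=
  ∏ i, (ω i).comp (ZMod.unitsMap (h i))

theorem qvChar_apply (ω : ∀ i, (ZMod (qv i))ˣ →* Kˣ) (L : ℕ) (h : ∀ i, qv i ∣ L) (u : (ZMod L)ˣ) :
    qvChar ω L h u = ∏ i, ω i (ZMod.unitsMap (h i) u) := by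
  simp [qvChar, MonoidHom.finsetProd_apply]

theorem qvChar_raise (ω : ∀ i, (ZMod (qv i))ˣ →* Kˣ) (L : ℕ) (q : Nat.Primes)
    (h : ∀ i, qv i ∣ L) :
    raiseChar q (qvChar ω L h) = qvChar ω (L * (q : ℕ)) fun i => (h i).mul_right _ := by
  refine MonoidHom.ext fun u => ?_
  show qvChar ω L h (ZMod.unitsMap (Nat.dvd_mul_right L q) u) = _
  rw [qvChar_apply, qvChar_apply]
  refine Finset.prod_congr rfl fun i _ => congrArg (ω i) ?_
  rw [← MonoidHom.comp_apply, ZMod.unitsMap_comp]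

/-- An eigenclass at `Pr` of level `L` with the values `lam`. -/
def QvEigen (ω : ∀ i, (ZMod (qv i))ˣ →* Kˣ) (Pr : Set Nat.Primes) (lam : Nat.Primes → K)
    (L : ℕ) : Prop :=
  ∃ (h : ∀ i, qv i ∣ L) (x : BettiMod L (qvChar ω L h) K), x ≠ 0 ∧
    ∀ l : Nat.Primes, l ∈ Pr → (X l : BettiHeckeAlg K) • x = lam l • x

variable [IsAlgClosed K] {ω : ∀ i, (ZMod (qv i))ˣ →* Kˣ} {Pr : Set Nat.Primes}
  {lam : Nat.Primes → K}

/-- **Descent at a prime outside `Pr`.** -/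
theorem qvEigen_descent {L : ℕ} [NeZero L] {q : Nat.Primes} (hq : ¬ (q : ℕ) ∣ L) (hqPr : q ∉ Pr)
    (hdvd : ∀ i, qv i ∣ L) (h : QvEigen ω Pr lam (L * (q : ℕ))) :
    QvEigen ω Pr lam L ∨
      ∃ (x : BettiMod (L * (q : ℕ)) (qvChar ω (L * (q : ℕ)) fun i => (hdvd i).mul_right _) K)
        (u : Nat.Primes → K), x ≠ 0 ∧ (∀ l, (X l : BettiHeckeAlg K) • x = u l • x) ∧
        (∀ l ∈ Pr, u l = lam l) ∧ u q ^ 2 = (qvChar ω L hdvd (levelUnit hq) : K) := by
  classical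
  haveI : NeZero (L * (q : ℕ)) := ⟨mul_ne_zero (NeZero.ne L) q.2.ne_zero⟩
  rw [← qvChar_raise ω L q hdvd]
  obtain ⟨h', x, hx, heig⟩ := h
  obtain ⟨x, hx, heig⟩ : ∃ x : BettiMod (L * (q : ℕ)) (raiseChar q (qvChar ω L hdvd)) K, x ≠ 0 ∧
      ∀ l : Nat.Primes, l ∈ Pr → (X l : BettiHeckeAlg K) • x = lam l • x := by
    rw [qvChar_raise ω L q hdvd]
    exact ⟨x, hx, heig⟩
  by_cases ha : levelTrace hq (qvChar ω L hdvd) K x ≠ 0
  · refine Or.inl ⟨hdvd, _, ha, fun l hl => ?_⟩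
    rw [← levelTrace_X_smul hq (fun e : l = q => hqPr (e ▸ hl)), heig l hl, map_smul]
  by_cases hb : levelTrace hq (qvChar ω L hdvd) K (levelAtkin hq (qvChar ω L hdvd) K x) ≠ 0
  · refine Or.inl ⟨hdvd, _, hb, fun l hl => ?_⟩
    have hlq : l ≠ q := fun e => hqPr (e ▸ hl)
    rw [← levelTrace_X_smul hq hlq, ← levelAtkin_X_smul hq hlq, heig l hl, map_smul, map_smul]
  push Not at ha hb
  right
  set c : K := (qvChar ω L hdvd (levelUnit hq) : K)
  have hx2 : (X q : BettiHeckeAlg K) ^ 2 • x = c • x := by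
    have h2 := X_sq_sub_smul hq x
    rw [ha, hb, smul_zero, smul_zero, sub_zero, map_zero, map_zero, sub_zero, sub_eq_zero] at h2
    exact h2
  let U : Submodule K (BettiMod (L * (q : ℕ)) (raiseChar q (qvChar ω L hdvd)) K) :=
    { carrier := {v | (∀ l ∈ Pr, (X l : BettiHeckeAlg K) • v = lam l • v) ∧
        (X q : BettiHeckeAlg K) ^ 2 • v = c • v}
      add_mem' := fun {a b} ha hb => ⟨fun l hl => by rw [smul_add, ha.1 l hl, hb.1 l hl, smul_add],
        by rw [smul_add, ha.2, hb.2, smul_add]⟩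
      zero_mem' := ⟨fun l _ => by rw [smul_zero, smul_zero], by rw [smul_zero, smul_zero]⟩
      smul_mem' := fun a v hv => ⟨fun l hl => by
          rw [smul_comm (X l : BettiHeckeAlg K) a v, hv.1 l hl, smul_comm],
        by rw [smul_comm ((X q : BettiHeckeAlg K) ^ 2) a v, hv.2, smul_comm]⟩ }
  have hU : U ≠ ⊥ := fun h0 => hx <| by
    have hmem : x ∈ U := ⟨heig, hx2⟩
    rwa [h0, Submodule.mem_bot] at hmem
  obtain ⟨w, hwU, hw, u, hu⟩ := exists_eigen_all U hU fun l v hv =>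
    ⟨fun l' hl' => by
      rw [smul_comm (X l' : BettiHeckeAlg K) (X l : BettiHeckeAlg K) v, hv.1 l' hl',
        smul_comm (X l : BettiHeckeAlg K) (lam l') v],
    by rw [smul_comm ((X q : BettiHeckeAlg K) ^ 2) (X l : BettiHeckeAlg K) v, hv.2,
        smul_comm (X l : BettiHeckeAlg K) c v]⟩
  refine ⟨w, u, hw, hu, fun l hl => smul_left_injective K hw ?_, smul_left_injective K hw ?_⟩
  · exact (hu l).symm.trans (hwU.1 l hl)
  · show u q ^ 2 • w = c • w
    rw [← hwU.2, pow_two (X q : BettiHeckeAlg K), mul_smul, hu, smul_comm, hu, smul_smul, pow_two]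

variable [CharZero K]

omit [IsAlgClosed K] [CharZero K] in
/-- The twisting factor at `n` is the power of the character. -/
theorem twistFactor_qv {k : ℕ} (ψ : (n : ℕ) → (ZMod n)ˣ →* Kˣ) (hinj : Function.Injective qv)
    (hψ : ∀ i, ψ (qv i) = ω i ^ k) {L : ℕ} (h : ∀ i, qv i ∣ L) (J : Finset (Fin r))
    (hJ : ∀ i, i ∉ J → ω i = 1) {n : ℕ} (hn : n.Coprime L) :
    Modular.Twist.twistFactor (J.image qv) ψ n =
      (qvChar ω L h (ZMod.unitOfCoprime n hn) : K) ^ k := by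
  classical
  rw [Modular.Twist.twistFactor, Finset.prod_image fun a _ b _ e => hinj e, qvChar_apply,
    Units.coe_prod, ← Finset.prod_pow,
    ← Finset.prod_subset (Finset.subset_univ J) fun i _ hi => by simp [hJ i hi]]
  refine Finset.prod_congr rfl fun i _ => ?_
  have hc : n.Coprime (qv i) := hn.coprime_dvd_right (h i)
  rw [Modular.Twist.ofUnitHom_natCast hc, hψ, MonoidHom.pow_apply, Units.val_pow_eq_pow_val]
  congr 2
  exact congrArg (ω i) (Units.ext (by simp [ZMod.unitsMap_val, ZMod.cast_natCast (h i)]))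

omit [IsAlgClosed K] in
/-- A ring map from the algebraic integers to a field of characteristic zero is injective. -/
theorem injective_algebraicIntegers (ι : integralClosure ℤ ℂ →+* K) : Function.Injective ι := by
  rw [RingHom.injective_iff_ker_eq_bot]
  haveI := RingHom.ker_isPrime ι
  refine Ideal.eq_bot_of_comap_eq_bot (R := ℤ) ?_
  ext n
  simp [RingHom.mem_ker]

/-- **Twist to an eigenform special at `q`.** -/
theorem exists_eigenform_of_qvChar {L : ℕ} [NeZero L] {q : Nat.Primes} (hq : ¬ (q : ℕ) ∣ L)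
    (hinj : Function.Injective qv) (hprime : ∀ i, (qv i).Prime) (hdvd : ∀ i, qv i ∣ L)
    (hsq : ∀ i, ¬ qv i ^ 2 ∣ L) {k : ℕ} (hω : ∀ i u, ω i u ^ (2 * k + 1) = 1)
    {x : BettiMod (L * (q : ℕ)) (qvChar ω (L * (q : ℕ)) fun i => (hdvd i).mul_right _) K}
    (hx : x ≠ 0) (u : Nat.Primes → K) (heig : ∀ l, (X l : BettiHeckeAlg K) • x = u l • x)
    (hnE : ∀ N : ℕ, [NeZero N] → L * (q : ℕ) ∣ N →
      ∃ l : Nat.Primes, ((l : ℕ) : ZMod N) = 1 ∧ u l ≠ (l : ℕ) + 1)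
    (huq : u q ^ 2 = (qvChar ω L hdvd (levelUnit hq) : K)) :
    ∃ (N : ℕ) (_ : NeZero N) (f : CuspForm (Gamma0 N) 2) (ι : integralClosure ℤ ℂ →+* K),
      f.IsNormalizedEigenform ∧ (q : ℕ) ∣ N ∧ ¬ (q : ℕ) ^ 2 ∣ N ∧
      (∀ l : ℕ, l.Prime → l ∣ N → l ∣ L * (q : ℕ)) ∧
      ModularFormClass.qCoeff ⇑f (q : ℕ) ^ 2 = 1 ∧
      ∀ (l : Nat.Primes) (hl : (l : ℕ).Coprime (L * (q : ℕ))) (a : integralClosure ℤ ℂ),
        (a : ℂ) = ModularFormClass.qCoeff ⇑f (l : ℕ) →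
        ι a = (qvChar ω (L * (q : ℕ)) (fun i => (hdvd i).mul_right _)
          (ZMod.unitOfCoprime (l : ℕ) hl) : K) ^ k * u l := by
  classical
  haveI : NeZero (L * (q : ℕ)) := ⟨mul_ne_zero (NeZero.ne L) q.2.ne_zero⟩
  let ψ : (n : ℕ) → (ZMod n)ˣ →* Kˣ := fun n =>
    if h : ∃ i, qv i = n then (ω h.choose ^ k).comp (ZMod.unitsMap (dvd_of_eq h.choose_spec)) else 1
  have hψ : ∀ i, ψ (qv i) = ω i ^ k := by
    intro i
    have hex : ∃ j, qv j = qv i := ⟨i, rfl⟩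
    have hgen : ∀ j (e : qv j = qv i), j = i →
        (ω j ^ k).comp (ZMod.unitsMap (dvd_of_eq e)) = ω i ^ k := by
      rintro j e rfl
      rw [ZMod.unitsMap_self, MonoidHom.comp_id]
    simp only [ψ, dif_pos hex]
    exact hgen _ hex.choose_spec (hinj hex.choose_spec)
  set J : Finset (Fin r) := Finset.univ.filter fun i => ω i ≠ 1
  set Q := J.image qv with hQdef
  have hJ : ∀ i, i ∉ J → ω i = 1 := fun i hi => by simpa [J] using hi
  have hqv : ∀ i, qv i ≠ (q : ℕ) := fun i e => hq (e ▸ hdvd i)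
  have hQ : ∀ p ∈ Q, p.Prime ∧ p ∣ L * (q : ℕ) ∧ ¬ p ^ 2 ∣ L * (q : ℕ) := by
    intro p hp
    obtain ⟨i, -, rfl⟩ := Finset.mem_image.1 hp
    refine ⟨hprime i, (hdvd i).mul_right _, fun h => hsq i ?_⟩
    exact (((Nat.coprime_primes (hprime i) q.2).2 (hqv i)).pow_left 2).dvd_of_dvd_mul_right h
  have hψ2 : ∀ p ∈ Q, ψ p ^ 2 ≠ 1 := by
    intro p hp h1
    obtain ⟨i, hi, rfl⟩ := Finset.mem_image.1 hp
    refine (Finset.mem_filter.1 hi).2 (MonoidHom.ext fun v => ?_)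
    have h2 := DFunLike.congr_fun h1 v
    rw [hψ, MonoidHom.pow_apply, MonoidHom.pow_apply, MonoidHom.one_apply, ← pow_mul,
      mul_comm] at h2
    have h3 := hω i v
    rw [pow_succ, h2, one_mul] at h3
    rw [h3, MonoidHom.one_apply]
  have hord : ∀ (M : ℕ) (h : ∀ i, qv i ∣ M) (v : (ZMod M)ˣ),
      (qvChar ω M h v : K) ^ (2 * k + 1) = 1 := fun M h v => by
    rw [← Units.val_pow_eq_pow_val, qvChar_apply, ← Finset.prod_pow,
      Finset.prod_eq_one fun i _ => hω i _, Units.val_one]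
  have hχ : ∀ (n : ℕ) (hn : n.Coprime (L * (q : ℕ))),
      (qvChar ω (L * (q : ℕ)) (fun i => (hdvd i).mul_right _) (ZMod.unitOfCoprime n hn) : K) *
        Modular.Twist.twistFactor Q ψ n ^ 2 = 1 := fun n hn => by
    rw [twistFactor_qv ψ hinj hψ (fun i => (hdvd i).mul_right _) J hJ hn, ← pow_mul, ← pow_succ', mul_comm k 2]
    exact hord _ _ _
  have hQ0 : ∏ p ∈ Q, p ≠ 0 := Finset.prod_ne_zero_iff.2 fun p hp => (hQ p hp).1.ne_zero
  haveI : NeZero (L * (q : ℕ) * ∏ p ∈ Q, p) := ⟨mul_ne_zero (NeZero.ne _) hQ0⟩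
  obtain ⟨f, ι, hf, hval⟩ := Modular.Twist.exists_twist_eigenform hQ hψ2 hχ hx u
    (fun l _ => by rw [← BettiMod.X_smul]; exact heig l)
    (hnE (L * (q : ℕ) * ∏ p ∈ Q, p) (dvd_mul_right _ _))
  have hcopQ : (q : ℕ).Coprime (∏ p ∈ Q, p) := Nat.Coprime.prod_right fun p hp => by
    obtain ⟨i, -, rfl⟩ := Finset.mem_image.1 hp
    exact (Nat.coprime_primes q.2 (hprime i)).2 (hqv i).symm
  refine ⟨L * (q : ℕ) * ∏ p ∈ Q, p, inferInstance, f, ι, hf,
    (dvd_mul_left _ L).mul_right _, fun h => hq ?_, fun l hl h => ?_, ?_, fun l hl a ha => ?_⟩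
  · have h' : (q : ℕ) ^ 2 ∣ L * (q : ℕ) := (hcopQ.pow_left 2).dvd_of_dvd_mul_right h
    rw [pow_two, mul_comm L] at h'
    exact (Nat.mul_dvd_mul_iff_left q.2.pos).1 h'
  · refine (hl.dvd_mul.1 h).elim id fun h' => ?_
    obtain ⟨p, hp, hlp⟩ := (hl.prime.dvd_finsetProd_iff _).1 h'
    exact (Nat.prime_dvd_prime_iff_eq hl (hQ p hp).1).1 hlp ▸ (hQ p hp).2.1
  · obtain ⟨a, ha, ha'⟩ := hval q
    have hqQ : (q : ℕ) ∉ Q := fun h => by
      obtain ⟨i, -, e⟩ := Finset.mem_image.1 h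
      exact hqv i e
    rw [if_neg hqQ, twistFactor_qv ψ hinj hψ hdvd J hJ (q.2.coprime_iff_not_dvd.2 hq)] at ha'
    have h2 : ι (a ^ 2) = 1 := by
      rw [map_pow, ha', mul_pow, huq, ← pow_mul, mul_comm k 2]
      show (qvChar ω L hdvd (levelUnit hq) : K) ^ (2 * k) * _ = 1
      rw [← pow_succ]
      exact hord _ _ _
    have h3 : a ^ 2 = 1 := injective_algebraicIntegers ι (h2.trans (map_one ι).symm)
    rw [← ha, ← SubmonoidClass.coe_pow, h3, OneMemClass.coe_one]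
  · obtain ⟨b, hb, hb'⟩ := hval l
    have hlQ : (l : ℕ) ∉ Q := fun h =>
      l.2.ne_one (Nat.eq_one_of_dvd_coprimes hl dvd_rfl (hQ _ h).2.1)
    rw [if_neg hlQ, twistFactor_qv ψ hinj hψ (fun i => (hdvd i).mul_right _) J hJ hl] at hb'
    rw [show a = b from Subtype.ext (ha.trans hb.symm), hb']

end FermatLib.MLT

end
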