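import Fermat.Agent.MLT.Hecke.GammaHHecke
import Fermat.Agent.MLT.BettiBaseChange
import Fermat.Agent.MLT.BettiResidual
import Fermat.Agent.MLT.BettiLift
import Fermat.Agent.Basic.EigenChar
import Mathlib.RingTheory.LocalRing.Module
import Mathlib.RingTheory.LocalRing.ResidueField.Ideal
import Mathlib.RingTheory.Support

/-!
# Eigenclasses over a field from points of a localised Hecke module

A point `ν` of the operators at `Pr` which kills the annihilator of `H¹(Γ₀(L), χ)_θ` is the system
of eigenvalues of a class with coefficients in the field; conversely such a class makes the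
localised module nonzero.
-/

set_option autoImplicit false
set_option linter.style.haveILetI false

noncomputable section

open scoped MatrixGroups TensorProduct
open CongruenceSubgroup MvPolynomial

namespace FermatLib.MLT

/-- A point in the support of a finite module is the eigenvalue system of a functional. -/
theorem exists_eigen_functional {T M K : Type} [CommRing T] [Field K] [AddCommGroup M]
    [Module T M] [Module.Finite T M] (ν : T →+* K)
    (hann : ∀ t : T, (∀ m : M, t • m = 0) → ν t = 0) :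
    ∃ q : M →+ K, q ≠ 0 ∧ ∀ (t : T) (m : M), q (t • m) = ν t * q m := by
  haveI : (RingHom.ker ν).IsPrime := RingHom.ker_isPrime ν
  let P : PrimeSpectrum T := ⟨RingHom.ker ν, inferInstance⟩
  have hsupp : P ∈ Module.support T M := by
    rw [Module.support_eq_zeroLocus, PrimeSpectrum.mem_zeroLocus]
    exact fun t ht => hann t (Module.mem_annihilator.1 ht)
  haveI := (Module.mem_support_iff_nontrivial_residueField_tensorProduct P).1 hsupp
  obtain ⟨z, hz⟩ := exists_ne (0 : P.asIdeal.ResidueField ⊗[T] M)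
  obtain ⟨φ, hφ⟩ : ∃ φ : Module.Dual P.asIdeal.ResidueField (P.asIdeal.ResidueField ⊗[T] M),
      φ z ≠ 0 := by
    by_contra! h
    exact hz ((Module.forall_dual_apply_eq_zero_iff _ z).1 h)
  let f : P.asIdeal.ResidueField →+* K := Ideal.ResidueField.lift P.asIdeal ν le_rfl
    fun t ht => (isUnit_iff_ne_zero.2 fun h => ht h)
  let q : M →+ K := f.toAddMonoidHom.comp (φ.toAddMonoidHom.comp
    (TensorProduct.mk T P.asIdeal.ResidueField M 1).toAddMonoidHom)
  have hq : ∀ m, q m = f (φ (1 ⊗ₜ m)) := fun m => rfl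
  refine ⟨q, fun h => hφ ?_, fun t m => ?_⟩
  · induction z using TensorProduct.induction_on with
    | zero => exact map_zero φ
    | tmul c m =>
      have h1 : f (φ (1 ⊗ₜ m)) = 0 := DFunLike.congr_fun h m
      rw [← mul_one c, ← smul_eq_mul, ← TensorProduct.smul_tmul', map_smul,
        (map_eq_zero_iff f f.injective).1 h1, smul_zero]
    | add x y hx hy =>
      rw [map_add]
      by_cases hx0 : φ x = 0 <;> by_cases hy0 : φ y = 0
      · rw [hx0, hy0, add_zero]
      · exact absurd (hy (fun e => hy0 (by rw [e, map_zero])) hy0) hy0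
      · exact absurd (hx (fun e => hx0 (by rw [e, map_zero])) hx0) hx0
      · exact absurd (hx (fun e => hx0 (by rw [e, map_zero])) hx0) hx0
  · have e : (1 : P.asIdeal.ResidueField) ⊗ₜ[T] (t • m) =
        algebraMap T P.asIdeal.ResidueField t • ((1 : P.asIdeal.ResidueField) ⊗ₜ[T] m) := by
      rw [algebraMap_smul, ← TensorProduct.tmul_smul]
    rw [hq, hq, e, map_smul, smul_eq_mul, map_mul]
    congr 1
    exact Ideal.ResidueField.lift_algebraMap _ _ _ _ t

variable {A : Type} [CommRing A] {L : ℕ} {K : Type} [Field K] [Algebra A K]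

/-- Base change of a class times a scalar. -/
theorem bettiBaseEquiv_map_span (χ : (ZMod L)ˣ →* Aˣ) (c : K) (x : BettiMod L χ A) :
    bettiBaseEquiv (B := K) χ K (BettiMod.map (LinearMap.toSpanSingleton A K c) x) =
      c • bettiBaseEquiv (B := K) χ K (BettiMod.map (LinearMap.toSpanSingleton A K 1) x) := by
  obtain ⟨d, rfl⟩ := BettiMod.mk_surjective x
  rw [BettiMod.map_mk, BettiMod.map_mk, bettiBaseEquiv_mk, bettiBaseEquiv_mk, ← map_smul]
  refine congrArg BettiMod.mk (Subtype.ext (funext fun γ => ?_))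
  show (d : Gamma0 L → A) γ • c = c • ((d : Gamma0 L → A) γ • (1 : K))
  simp only [Algebra.smul_def, mul_comm, one_mul, Algebra.algebraMap_self, RingHom.id_apply]

/-- The values of a point on the polynomials in the operators at `Pr`. -/
theorem eval_map_eq_of_agree {Pr : Set Nat.Primes} (ν : ↥(supported A Pr) →+* K)
    (hC : ∀ a, ν (algebraMap A _ a) = algebraMap A K a) (lam : Nat.Primes → K)
    (hX : ∀ (l : Nat.Primes) (hl : l ∈ Pr), ν ⟨X l, X_mem_supported_set hl⟩ = lam l)
    (P : ↥(supported A Pr)) :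
    eval lam (MvPolynomial.map (algebraMap A K) (P : BettiHeckeAlg A)) = ν P := by
  obtain ⟨P, hP⟩ := P
  induction hP using Algebra.adjoin_induction with
  | mem x hx =>
    obtain ⟨l, hl, rfl⟩ := hx
    rw [MvPolynomial.map_X, eval_X, ← hX l hl]
  | algebraMap a =>
    rw [show (⟨algebraMap A (BettiHeckeAlg A) a, _⟩ : ↥(supported A Pr)) = algebraMap A _ a from rfl,
      hC]
    show eval lam (MvPolynomial.map _ (MvPolynomial.C a)) = _
    rw [MvPolynomial.map_C, eval_C]
  | add x y hx' hy' hx hy =>
    rw [show (⟨x + y, _⟩ : ↥(supported A Pr)) = ⟨x, hx'⟩ + ⟨y, hy'⟩ from rfl, map_add ν,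
      ← hx, ← hy, Subalgebra.coe_add, map_add, map_add]
  | mul x y hx' hy' hx hy =>
    rw [show (⟨x * y, _⟩ : ↥(supported A Pr)) = ⟨x, hx'⟩ * ⟨y, hy'⟩ from rfl, map_mul ν,
      ← hx, ← hy, Subalgebra.coe_mul, map_mul, map_mul]

variable [NeZero L] {χ : (ZMod L)ˣ →* Aˣ} {k : Type} [Field k] {Pr : Set Nat.Primes}
  {θ : BettiHeckeAlg A →+* k}

/-- **An eigenclass over the field from a point of the localised module.** -/
theorem exists_eigen_of_bettiLoc_point [IsNoetherianRing A] [IsAlgClosed K] (hχ : χ (-1) = 1)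
    (hR : BettiRightExact L χ (bettiResidualSubmonoid Pr θ))
    (hE : BettiNonEisenstein L χ (bettiResidualSubmonoid Pr θ))
    [Module.Finite A (BettiResLoc χ Pr θ)]
    (ν : ↥(supported A Pr) →+* K) (hC : ∀ a, ν (algebraMap A _ a) = algebraMap A K a)
    (hν : ∀ P : ↥(supported A Pr), (∀ m : BettiResLoc χ Pr θ, (P : BettiHeckeAlg A) • m = 0) →
      ν P = 0)
    (lam : Nat.Primes → K)
    (hX : ∀ (l : Nat.Primes) (hl : l ∈ Pr), ν ⟨X l, X_mem_supported_set hl⟩ = lam l) :
    (∃ y : BettiMod L (bettiBaseChar K χ) K, y ≠ 0 ∧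
      ∀ l : Nat.Primes, l ∈ Pr → (X l : BettiHeckeAlg K) • y = lam l • y) ∧
    ∀ P ∈ bettiResidualSubmonoid Pr θ,
      eval lam (MvPolynomial.map (algebraMap A K) P) ≠ 0 := by
  classical
  let T := supported A Pr
  set S := bettiResidualSubmonoid Pr θ
  haveI : Module.Finite T (BettiResLoc χ Pr θ) :=
    Module.Finite.of_restrictScalars_finite A T _
  obtain ⟨q, hq0, hq⟩ := exists_eigen_functional (M := BettiResLoc χ Pr θ) ν fun t ht => hν t ht
  have hev := eval_map_eq_of_agree ν hC lam hX
  have hqA : ∀ (a : A) m, q (a • m) = a • q m := fun a m => by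
    rw [← algebraMap_smul T a m, hq, hC, Algebra.smul_def]
  have hS : ∀ P (hP : P ∈ S), eval lam (MvPolynomial.map (algebraMap A K) P) ≠ 0 := by
    intro P hP h0
    refine hq0 (AddMonoidHom.ext fun m => ?_)
    have hm : m = P • ((IsLocalizedModule.map_units
        (LocalizedModule.mkLinearMap S (BettiMod L χ A)) ⟨P, hP⟩).unit.inv m) := by
      exact (LinearMap.congr_fun (IsLocalizedModule.map_units
        (LocalizedModule.mkLinearMap S (BettiMod L χ A)) ⟨P, hP⟩).mul_val_inv m).symm
    rw [AddMonoidHom.zero_apply, hm,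
      show P • _ = (⟨P, hP.1⟩ : T) • _ from rfl, hq, ← hev ⟨P, hP.1⟩, h0, zero_mul]
  refine ⟨?_, hS⟩
  set χK := bettiBaseChar K χ
  let V := BettiMod L χK K
  haveI : FiniteDimensional K V := bettiH1_gamma0_finite (A := K) (V := K) L (nebenChar χK)
  haveI : SMulCommClass (BettiHeckeAlg K) K V := IsScalarTower.to_smulCommClass'
  let T' := supported K Pr
  let ρ : T' →+* Module.End K V := (Algebra.lsmul K K V).toRingHom.comp T'.val.toRingHom
  let εK : T' →+* K := (eval lam).comp T'.val.toRingHom
  haveI : (RingHom.ker εK).IsPrime := RingHom.ker_isPrime εK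
  have hker : RingHom.ker ρ ≤ RingHom.ker εK := by
    rintro ⟨z, hz⟩ hρ
    have hρ' : ∀ v : V, z • v = 0 := fun v => LinearMap.congr_fun hρ v
    let Pd : (Nat.Primes →₀ ℕ) → BettiHeckeAlg A := fun d => monomial d 1
    have hPd : ∀ d ∈ z.support, Pd d ∈ T := fun d hd => by
      rw [mem_supported]
      intro l hl
      refine mem_supported.1 hz ?_
      rcases eq_or_ne (1 : A) 0 with h10 | h10
      · rw [show Pd d = 0 from by simp [Pd, h10]] at hl
        simp at hl
      · rw [Finset.mem_coe, vars_monomial h10] at hl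
        exact Finset.mem_coe.2 ((mem_vars_iff_mem_support l).2 ⟨d, hd, hl⟩)
    have hz' : z = ∑ d ∈ z.support, C (coeff d z) * MvPolynomial.map (algebraMap A K) (Pd d) := by
      conv_lhs => rw [as_sum z]
      refine Finset.sum_congr rfl fun d _ => ?_
      rw [MvPolynomial.map_monomial, map_one, C_mul_monomial, mul_one]
    have h1 : ∀ x : BettiMod L χ A, ∑ d ∈ z.support,
        BettiMod.map (LinearMap.toSpanSingleton A K (coeff d z)) (Pd d • x) = 0 := by
      intro x
      refine (bettiBaseEquiv (B := K) χ K).injective ?_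
      rw [map_sum, map_zero,
        ← hρ' (bettiBaseEquiv (B := K) χ K (BettiMod.map (LinearMap.toSpanSingleton A K 1) x))]
      conv_rhs => rw [hz', Finset.sum_smul]
      refine Finset.sum_congr rfl fun d _ => ?_
      rw [bettiBaseEquiv_map_span, map_smul (BettiMod.map (LinearMap.toSpanSingleton A K 1)),
        bettiBaseEquiv_smul, mul_smul, ← MvPolynomial.algebraMap_eq, algebraMap_smul]
    let V₁ : Submodule A K := Submodule.span A (z.support.image fun d => coeff d z : Set K)
    haveI : Module.Finite A V₁ := Module.Finite.span_of_finite A (Finset.finite_toSet _)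
    let cd : z.support → V₁ := fun d =>
      ⟨coeff d.1 z, Submodule.subset_span (Finset.mem_image_of_mem _ d.2)⟩
    have h2 : ∀ m : BettiResLoc χ Pr θ, ∑ d : z.support, ((Pd d.1 • m) ⊗ₜ[A] cd d) = 0 := by
      intro m
      refine (bettiTensorMap_bijective (V := V₁) hχ hR).1
        (BettiLoc.map_injective hE V₁.injective_subtype ?_)
      rw [map_zero, map_zero, ← bettiTensorMap_lTensor, map_sum, map_sum]
      simp only [LinearMap.lTensor_tmul, bettiTensorMap_tmul, Submodule.subtype_apply]
      induction m using LocalizedModule.induction_on with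
      | h x s =>
        simp only [LocalizedModule.smul'_mk, BettiLoc.map_mk]
        rw [← LocalizedModule.zero_mk s, ← h1 x]
        rw [← Finset.sum_coe_sort z.support]
        exact (map_sum (AddMonoidHom.mk'
          (fun z : BettiMod L χ K => (LocalizedModule.mk z s : BettiLoc L χ K S)) fun a b => by
            rw [LocalizedModule.mk_add_mk, ← smul_add, LocalizedModule.mk_cancel_common_left])
          _ _).symm
    have h3 : ∀ m, (∑ d : z.support, ν ⟨Pd d.1, hPd d.1 d.2⟩ * coeff d.1 z) * q m = 0 := by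
      intro m
      let μ : BettiResLoc χ Pr θ →ₗ[A] V₁ →ₗ[A] K :=
        LinearMap.mk₂ A (fun m v => q m * (v : K))
          (fun m m' v => by rw [map_add, add_mul])
          (fun a m v => by rw [hqA, smul_mul_assoc])
          (fun m v v' => by rw [Submodule.coe_add, mul_add])
          (fun a m v => by rw [Submodule.coe_smul, mul_smul_comm])
      have h := congrArg (TensorProduct.lift μ) (h2 m)
      rw [map_sum, map_zero] at h
      rw [← h, Finset.sum_mul]
      refine Finset.sum_congr rfl fun d _ => ?_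
      rw [TensorProduct.lift.tmul, LinearMap.mk₂_apply,
        show Pd d.1 • m = (⟨Pd d.1, hPd d.1 d.2⟩ : T) • m from rfl, hq]
      ring
    obtain ⟨m, hm⟩ : ∃ m, q m ≠ 0 := by
      by_contra! h
      exact hq0 (AddMonoidHom.ext h)
    have h4 := (mul_eq_zero.1 (h3 m)).resolve_right hm
    rw [RingHom.mem_ker]
    show eval lam z = 0
    rw [hz', map_sum, ← h4, ← Finset.sum_coe_sort z.support]
    refine Finset.sum_congr rfl fun d _ => ?_
    rw [map_mul, eval_C, ← hev ⟨Pd d.1, hPd d.1 d.2⟩, mul_comm]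
  obtain ⟨v, χ', hv, hχ', hle⟩ := Basic.exists_eigenchar_ker_le ρ (RingHom.ker εK) hker
  refine ⟨v, hv, fun l hl => ?_⟩
  have hCK : ∀ c : K, χ' ⟨C c, C_mem_supported_set Pr c⟩ = c := fun c =>
    smul_left_injective K hv (show χ' ⟨C c, C_mem_supported_set Pr c⟩ • v = c • v by
      rw [← hχ']
      show (C c : BettiHeckeAlg K) • v = c • v
      rw [← MvPolynomial.algebraMap_eq, algebraMap_smul])
  set c := χ' ⟨X l, X_mem_supported_set hl⟩
  have h := hle (show (⟨X l, X_mem_supported_set hl⟩ - ⟨C c, C_mem_supported_set Pr c⟩ : T') ∈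
    RingHom.ker χ' by rw [RingHom.mem_ker, map_sub, hCK, sub_self])
  have h' : lam l = c := by
    rw [RingHom.mem_ker, map_sub, sub_eq_zero] at h
    simpa [εK] using h
  rw [h']
  exact hχ' ⟨X l, X_mem_supported_set hl⟩

/-- A class on a nonzero space of eigenclasses is an eigenclass for all operators. -/
theorem exists_eigen_all [IsAlgClosed K] {χK : (ZMod L)ˣ →* Kˣ}
    (U : Submodule K (BettiMod L χK K)) (hU : U ≠ ⊥)
    (hst : ∀ (l : Nat.Primes), ∀ v ∈ U, (X l : BettiHeckeAlg K) • v ∈ U) :
    ∃ w ∈ U, w ≠ 0 ∧ ∃ u : Nat.Primes → K, ∀ l, (X l : BettiHeckeAlg K) • w = u l • w := by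
  classical
  haveI : FiniteDimensional K (BettiMod L χK K) :=
    bettiH1_gamma0_finite (A := K) (V := K) L (nebenChar χK)
  haveI : SMulCommClass (BettiHeckeAlg K) K (BettiMod L χK K) := IsScalarTower.to_smulCommClass'
  have hst' : ∀ P : BettiHeckeAlg K, ∀ v ∈ U, P • v ∈ U := fun P => by
    induction P using MvPolynomial.induction_on with
    | C a => intro v hv; rw [← MvPolynomial.algebraMap_eq, algebraMap_smul]; exact U.smul_mem a hv
    | add P Q hP hQ => intro v hv; rw [add_smul]; exact U.add_mem (hP v hv) (hQ v hv)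
    | mul_X P p hP => intro v hv; rw [mul_smul]; exact hP _ (hst p v hv)
  let ρ : BettiHeckeAlg K →+* Module.End K U :=
    { toFun := fun P => (Algebra.lsmul K K (BettiMod L χK K) P).restrict (hst' P)
      map_one' := LinearMap.ext fun w => Subtype.ext (one_smul (BettiHeckeAlg K) w.1)
      map_mul' := fun P Q => LinearMap.ext fun w => Subtype.ext (mul_smul P Q w.1)
      map_zero' := LinearMap.ext fun w => Subtype.ext (zero_smul (BettiHeckeAlg K) w.1)
      map_add' := fun P Q => LinearMap.ext fun w => Subtype.ext (add_smul P Q w.1) }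
  haveI : Nontrivial U := Submodule.nontrivial_iff_ne_bot.2 hU
  obtain ⟨𝔪, h𝔪, hle⟩ := Ideal.exists_le_maximal _ (RingHom.ker_ne_top ρ)
  haveI := h𝔪.isPrime
  obtain ⟨w, χ', hw, hχ', -⟩ := Basic.exists_eigenchar_ker_le ρ 𝔪 hle
  exact ⟨w.1, w.2, fun h => hw (Subtype.ext h), fun l => χ' (X l),
    fun l => congrArg Subtype.val (hχ' (X l))⟩

/-- **An eigenclass makes the localised module nonzero.** -/
theorem nontrivial_bettiResLoc_of_eigen [IsNoetherianRing A]
    (hR : BettiRightExact L χ (bettiResidualSubmonoid Pr θ))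
    {y : BettiMod L (bettiBaseChar K χ) K} (hy : y ≠ 0) (lam : Nat.Primes → K)
    (heig : ∀ l : Nat.Primes, l ∈ Pr → (X l : BettiHeckeAlg K) • y = lam l • y)
    (hS : ∀ P ∈ bettiResidualSubmonoid Pr θ,
      eval lam (MvPolynomial.map (algebraMap A K) P) ≠ 0) :
    Nontrivial (BettiResLoc χ Pr θ) := by
  classical
  rw [← not_subsingleton_iff_nontrivial]
  intro hsub
  set S := bettiResidualSubmonoid Pr θ
  set e := bettiBaseEquiv (B := K) χ K
  obtain ⟨c, hc⟩ := BettiMod.mk_surjective (e.symm y)
  obtain ⟨G, hG⟩ := (Modular.gamma0_fg L).out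
  let V₁ : Submodule A K := Submodule.span A ((c : Gamma0 L → K) '' (G : Set (Gamma0 L)))
  haveI : Module.Finite A V₁ :=
    Module.Finite.span_of_finite A ((Finset.finite_toSet G).image _)
  have hval : ∀ γ, (c : Gamma0 L → K) γ ∈ V₁ := by
    intro γ
    have hγ : γ ∈ Subgroup.closure (G : Set (Gamma0 L)) := hG ▸ Subgroup.mem_top γ
    induction hγ using Subgroup.closure_induction with
    | mem x hx => exact Submodule.subset_span ⟨x, hx, rfl⟩
    | one => rw [bettiCocycles.map_one]; exact V₁.zero_mem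
    | mul x x' _ _ hx hx' =>
      rw [bettiCocycles.map_mul]; exact V₁.add_mem hx (V₁.smul_mem _ hx')
    | inv x _ hx => rw [bettiCocycles.map_inv]; exact V₁.neg_mem (V₁.smul_mem _ hx)
  let c₁ : bettiCocycles (Gamma0 L) (nebenChar χ) V₁ :=
    ⟨fun γ => ⟨_, hval γ⟩, fun γ δ => Subtype.ext (bettiCocycles.map_mul c γ δ),
      fun γ h => Subtype.ext (bettiCocycles.map_neg_one c h)⟩
  have hsub₁ : Subsingleton (BettiLoc L χ V₁ S) :=
    haveI : Subsingleton (BettiLoc L χ A S) := hsub
    (bettiTensorMap_surjective hR).subsingleton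
  obtain ⟨⟨P, hP⟩, hPc⟩ : ∃ s : S, s • BettiMod.mk c₁ = 0 := by
    have h := hsub₁.elim (LocalizedModule.mk (BettiMod.mk c₁) (1 : S)) 0
    rw [← LocalizedModule.zero_mk (1 : S), LocalizedModule.mk_eq] at h
    obtain ⟨u, hu⟩ := h
    exact ⟨u, by simpa using hu⟩
  have hPy : MvPolynomial.map (algebraMap A K) P • y = 0 := by
    have h0 : BettiMod.map V₁.subtype (BettiMod.mk c₁) = e.symm y := hc ▸ rfl
    have h := congrArg (BettiMod.map V₁.subtype) (show P • BettiMod.mk c₁ = 0 from hPc)
    rw [map_smul, h0, map_zero] at h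
    rw [← e.apply_symm_apply y, ← bettiBaseEquiv_smul, h, map_zero]
  suffices key : ∀ Q ∈ supported A Pr, MvPolynomial.map (algebraMap A K) Q • y =
      eval lam (MvPolynomial.map (algebraMap A K) Q) • y by
    rw [key P hP.1] at hPy
    exact hS P hP ((smul_eq_zero.1 hPy).resolve_right hy)
  intro Q hQ
  induction hQ using Algebra.adjoin_induction with
  | mem x hx => obtain ⟨l, hl, rfl⟩ := hx; rw [MvPolynomial.map_X, eval_X, heig l hl]
  | algebraMap a =>
    rw [MvPolynomial.algebraMap_eq, MvPolynomial.map_C, eval_C, ← MvPolynomial.algebraMap_eq,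
      algebraMap_smul]
  | add x x' _ _ hx hx' => rw [map_add, map_add, add_smul, add_smul, hx, hx']
  | mul x x' _ _ hx hx' =>
    rw [map_mul, map_mul, mul_smul, hx', smul_comm, hx, smul_smul, mul_comm]

end FermatLib.MLT

end
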