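import Fermat.Agent.Galois.OrdinaryCondition

/-!
Local conditions on an adic Galois representation, tested on a family of changes of coefficients
`φ i : A →+* B i` which is jointly a closed embedding.  Used for representations over localised
Hecke algebras, which embed into the product of their eigen systems.
-/

noncomputable section

namespace FermatLib.MLT.HeckeRep

open IsLocalRing FermatLib.Galois FermatLib.Galois.FlatModel FermatLib.Galois.DeformLocal
open FermatLib.Galois.OrdinaryCondition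
open scoped TensorProduct

local notation "Qbar" => AlgebraicClosure ℚ
local notation "Γℚ" => (AlgebraicClosure ℚ ≃ₐ[ℚ] AlgebraicClosure ℚ)

/-- The family `φ` is jointly injective, and the topology of `A` is induced from those of the
`B i`. -/
def IsClosedFamily {ι : Type*} {A : Type} [CommRing A] [IsLocalRing A] {B : ι → Type}
    [∀ i, CommRing (B i)] [∀ i, IsLocalRing (B i)] (φ : ∀ i, A →+* B i) : Prop :=
  ∀ j : ℕ, ∃ m : ℕ, ∀ a : A, (∀ i, φ i a ∈ maximalIdeal (B i) ^ m) → a ∈ maximalIdeal A ^ j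

variable {ι : Type*} {A : Type} [CommRing A] [IsLocalRing A] {B : ι → Type}
  [∀ i, CommRing (B i)] [∀ i, IsLocalRing (B i)] {φ : ∀ i, A →+* B i}

theorem IsClosedFamily.nonempty (hc : IsClosedFamily φ) : Nonempty ι := by
  by_contra h
  rw [not_nonempty_iff] at h
  obtain ⟨m, hm⟩ := hc 1
  have h1 := hm 1 fun i => h.elim i
  rw [pow_one] at h1
  exact (maximalIdeal.isMaximal A).ne_top ((Ideal.eq_top_iff_one _).2 h1)

theorem IsClosedFamily.eq_zero [IsNoetherianRing A] (hc : IsClosedFamily φ) {a : A}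
    (h : ∀ i, φ i a = 0) : a = 0 :=
  eq_zero_of_forall_mem_pow fun j => by
    obtain ⟨m, hm⟩ := hc (j + 1)
    exact hm a fun i => by rw [h i]; exact zero_mem _

variable (hφ : ∀ i, IsLocalHom (φ i)) {ρ : GaloisRepAdic A}

/-- An endomorphism killed by all changes of coefficients is zero. -/
theorem end_eq_zero_of_family [IsNoetherianRing A] (hc : IsClosedFamily φ)
    {f : Module.End A ρ.V} (hf : ∀ i, endBaseChange (φ i) (hφ i) ρ f = 0) : f = 0 :=
  LinearMap.ext fun v => (Module.finBasis A ρ.V).ext_elem fun k => by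
    rw [LinearMap.zero_apply, map_zero, Finsupp.zero_apply]
    exact hc.eq_zero fun i => eq_zero_of_endBaseChange (φ i) (hφ i) ρ (hf i) _ v k

theorem isUnramifiedAt_of_family [IsNoetherianRing A] (hc : IsClosedFamily φ) {q : ℕ}
    (h : ∀ i, (ρ.baseChangeAlong (φ i) (hφ i)).IsUnramifiedAt q) : ρ.IsUnramifiedAt q := by
  intro P hP σ hσ
  rw [← sub_eq_zero]
  refine end_eq_zero_of_family hφ hc fun i => ?_
  rw [map_sub, map_one, endBaseChange_rho, h i P hP σ hσ, sub_self]

theorem isUnipotentOnInertiaAt_of_family [IsNoetherianRing A] (hc : IsClosedFamily φ) {q : ℕ}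
    (h : ∀ i, (ρ.baseChangeAlong (φ i) (hφ i)).IsUnipotentOnInertiaAt q) :
    ρ.IsUnipotentOnInertiaAt q := by
  intro P hP σ hσ
  rw [← sub_eq_zero]
  ext k
  rw [Polynomial.coeff_zero]
  refine hc.eq_zero fun i => ?_
  have := h i P hP σ hσ
  rw [charpoly_baseChange_apply] at this
  rw [← Polynomial.coeff_map, Polynomial.map_sub, this]
  simp

theorem detIsCyclotomic_of_family [IsNoetherianRing A] (hc : IsClosedFamily φ) {p : ℕ}
    (hp : p ≠ 0) (h : ∀ i, (ρ.baseChangeAlong (φ i) (hφ i)).DetIsCyclotomic p) :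
    ρ.DetIsCyclotomic p := by
  obtain ⟨i₀⟩ := hc.nonempty
  have hpA : (p : A) ∈ maximalIdeal A := natCast_mem_maximalIdeal_of_hom (φ i₀) (h i₀).1
  refine ⟨hpA, fun n σ a ha => mem_of_forall_mem_sup_pow fun j => ?_⟩
  obtain ⟨m, hm⟩ := hc (j + 1)
  obtain ⟨a', ha'⟩ := exists_cyclotomic_exponent hp (max n m) σ
  have h1 : LinearMap.det (ρ.ρ σ) - (a' : A) ∈ maximalIdeal A ^ (j + 1) := by
    refine hm _ fun i => ?_
    have h2 := (h i).2 (max n m) σ a' ha'
    rw [det_baseChange_apply] at h2
    rw [map_sub, map_natCast]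
    refine (Ideal.span_singleton_le_iff_mem _).2 ?_ h2
    rw [Nat.cast_pow]
    exact Ideal.pow_le_pow_right (le_max_right n m) (Ideal.pow_mem_pow (h i).1 _)
  have h3 := natCast_sub_mem_span_of_modEq (A := A)
    (exponent_modEq hp (le_max_left n m) ha ha')
  rw [← sub_add_sub_cancel _ (a' : A) (a : A), map_add, Ideal.Quotient.eq_zero_iff_mem.2 h1,
    zero_add]
  exact Ideal.mem_map_of_mem _ h3

theorem equations_of_family [IsNoetherianRing A] (hc : IsClosedFamily φ)
    {P : ValuationSubring Qbar} {σ₀ : Γℚ}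
    (h : ∀ i, Equations (ρ.baseChangeAlong (φ i) (hφ i)) P σ₀) : Equations ρ P σ₀ := by
  refine ⟨?_, end_eq_zero_of_family hφ hc fun i => ?_, fun g hg =>
    end_eq_zero_of_family hφ hc fun i => ?_, fun τ hτ => end_eq_zero_of_family hφ hc fun i => ?_⟩
  · rw [← sub_eq_zero]
    refine hc.eq_zero fun i => ?_
    have := (h i).trace_eq
    rw [detSubOne_baseChange, ← endBaseChange_rho, ← map_one (endBaseChange _ _ ρ), ← map_sub,
      trace_endBaseChange] at this
    rw [map_sub, this, sub_self]
  · simp only [map_sub, map_mul, map_one, endBaseChange_smul, endBaseChange_rho,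
      ← detSubOne_baseChange _ (hφ i)]
    exact (h i).mul_self
  · simp only [map_sub, map_mul, map_one, endBaseChange_smul, endBaseChange_rho,
      ← detSubOne_baseChange _ (hφ i)]
    exact (h i).decomposition g hg
  · simp only [map_sub, map_mul, map_one, endBaseChange_smul, endBaseChange_rho,
      ← detSubOne_baseChange _ (hφ i)]
    exact (h i).inertia τ hτ

theorem isOrdinaryAt_of_family [IsNoetherianRing A] (hc : IsClosedFamily φ) {p : ℕ}
    (hp : p.Prime) (hp2 : p ≠ 2) (hdet : ρ.DetIsCyclotomic p)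
    (h : ∀ i, (ρ.baseChangeAlong (φ i) (hφ i)).IsOrdinaryAt p) : ρ.IsOrdinaryAt p := by
  intro P hP
  obtain ⟨σ₀, hσ₀, hu⟩ := exists_isUnit_detSubOne hp hp2 hdet hP
  exact exists_line_of_equations _ hu
    (equations_of_family hφ hc fun i => equations_of_isOrdinaryAt (h i) hP hσ₀)

/-- Finite products of modules with models have models. -/
theorem hasModelAt_pi {p : ℕ} {κ : Type*} [Finite κ] (M : κ → Type*) [∀ k, AddCommGroup (M k)]
    (act : ∀ k, Γℚ → M k → M k) (h : ∀ k, HasModelAt p (M k) (act k)) :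
    HasModelAt p (∀ k, M k) fun σ z k => act k σ (z k) := by
  have key : ∀ (n : ℕ) (w : Fin n → κ),
      HasModelAt p (∀ i, M (w i)) fun σ z i => act (w i) σ (z i) := by
    intro n
    induction n with
    | zero => exact fun w => HasModel.of_subsingleton
    | succ n ih =>
      intro w
      let e : (M (w 0) × ∀ i, M (w (Fin.succ i))) ≃+ (∀ i, M (w i)) :=
        { toFun := fun x => Fin.cons (α := fun i => M (w i)) x.1 x.2
          invFun := fun f => (f 0, fun i => f i.succ)
          left_inv := fun x => by simp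
          right_inv := fun f => funext fun i => Fin.cases (by simp) (fun j => by simp) i
          map_add' := fun x y => funext fun i => Fin.cases (by simp) (fun j => by simp) i }
      refine ((h (w 0)).prod (ih fun i => w i.succ)).congr e fun σ x => ?_
      funext i
      refine Fin.cases ?_ (fun j => ?_) i <;> simp [e]
  cases nonempty_fintype κ
  let e := (Fintype.equivFin κ).symm
  refine (key _ e).of_injective
    { toFun := fun (z : ∀ k, M k) i => z (e i)
      map_zero' := rfl
      map_add' := fun _ _ => rfl } ?_ fun σ z => rfl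
  intro z z' hzz'
  funext k
  obtain ⟨i, rfl⟩ := e.surjective k
  exact congrFun hzz' i

theorem repr_mem_of_toBaseChange_mem {B' : Type} [CommRing B'] [IsLocalRing B'] (f : A →+* B')
    (hf : IsLocalHom f) (ρ : GaloisRepAdic A) {κ : Type*} (b : Module.Basis κ A ρ.V)
    {K : Ideal B'} {v : ρ.V}
    (hv : toBaseChange f hf ρ v ∈ K • (⊤ : Submodule B' (ρ.baseChangeAlong f hf).V)) (k : κ) :
    f (b.repr v k) ∈ K := by
  let _ : Algebra A B' := f.toAlgebra
  let c : Module.Basis κ B' (ρ.baseChangeAlong f hf).V := Algebra.TensorProduct.basis B' b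
  have hc : c.repr (toBaseChange f hf ρ v) k = f (b.repr v k) := by
    show ((Algebra.TensorProduct.basis B' b).repr ((1 : B') ⊗ₜ[A] v)) k = _
    rw [Algebra.TensorProduct.basis_repr_tmul]
    simp [RingHom.algebraMap_toAlgebra]
  rw [← hc]
  refine Submodule.smul_induction_on hv (fun a ha w _ => ?_) fun x y hx hy => ?_
  · rw [map_smul, Finsupp.smul_apply, smul_eq_mul]
    exact K.mul_mem_right _ ha
  · rw [map_add, Finsupp.add_apply]
    exact K.add_mem hx hy

theorem isFlatAt_of_family [IsNoetherianRing A] [Finite ι] [∀ i, IsNoetherianRing (B i)]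
    (hc : IsClosedFamily φ) {p : ℕ} [Finite (ResidueField A)]
    (h : ∀ i, (ρ.baseChangeAlong (φ i) (hφ i)).IsFlatAt p) : ρ.IsFlatAt p := by
  refine (isFlatAt_iff_hasModelAt ρ p).2 ⟨inferInstance, fun I hI => ?_⟩
  obtain ⟨j, hj⟩ := IsLocalRing.finite_quotient_iff.1 hI
  obtain ⟨m, hm⟩ := hc j
  have hmod : ∀ i, HasModelAt p _ fun σ =>
      (ρ.baseChangeAlong (φ i) (hφ i)).levelAction (maximalIdeal (B i) ^ m) σ := fun i => by
    have := (h i).1
    exact ((isFlatAt_iff_hasModelAt _ p).1 (h i)).2 _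
      (IsLocalRing.finite_quotient_iff.2 ⟨m, le_rfl⟩)
  let J : Ideal A := ⨅ i, (maximalIdeal (B i) ^ m).comap (φ i)
  have hJ : ∀ a, a ∈ J ↔ ∀ i, φ i a ∈ maximalIdeal (B i) ^ m := fun a => by simp [J]
  have hJI : J ≤ I := fun a ha => hj (hm a ((hJ a).1 ha))
  let g : ρ.V →+ ∀ i, (ρ.baseChangeAlong (φ i) (hφ i)).V ⧸
      (maximalIdeal (B i) ^ m • (⊤ : Submodule (B i) (ρ.baseChangeAlong (φ i) (hφ i)).V)) :=
    AddMonoidHom.pi fun i =>
      (Submodule.mkQ _).toAddMonoidHom.comp (toBaseChange (φ i) (hφ i) ρ)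
  have hg : ∀ v ∈ J • (⊤ : Submodule A ρ.V), g v = 0 := by
    intro v hv
    refine Submodule.smul_induction_on hv (fun a ha w _ => ?_) fun x y hx hy => ?_
    · funext i
      show Submodule.mkQ _ (toBaseChange (φ i) (hφ i) ρ (a • w)) = 0
      rw [toBaseChange_smul, Submodule.mkQ_apply, Submodule.Quotient.mk_eq_zero]
      exact Submodule.smul_mem_smul ((hJ a).1 ha i) Submodule.mem_top
    · rw [map_add, hx, hy, add_zero]
  let gJ : ρ.V ⧸ (J • (⊤ : Submodule A ρ.V)) →+ _ :=
    QuotientAddGroup.lift (J • (⊤ : Submodule A ρ.V)).toAddSubgroup g hg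
  have hJmod : HasModelAt p (ρ.V ⧸ (J • (⊤ : Submodule A ρ.V))) fun σ => ρ.levelAction J σ := by
    refine (hasModelAt_pi _ _ hmod).of_injective gJ ((injective_iff_map_eq_zero gJ).2
      fun x hx => ?_) fun σ x => ?_
    · obtain ⟨v, rfl⟩ := Submodule.Quotient.mk_surjective _ x
      rw [Submodule.Quotient.mk_eq_zero]
      refine mem_ker_smul_top_of_repr_mem ρ (Module.finBasis A ρ.V) J fun k => (hJ _).2 fun i => ?_
      exact repr_mem_of_toBaseChange_mem (φ i) (hφ i) ρ _
        ((Submodule.Quotient.mk_eq_zero _).1 (congrFun hx i)) k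
    · obtain ⟨v, rfl⟩ := Submodule.Quotient.mk_surjective _ x
      rfl
  refine hJmod.of_surjective
    (Submodule.mapQ _ _ LinearMap.id (Submodule.smul_mono_left hJI)).toAddMonoidHom
    (fun x => ?_) fun σ x => ?_
  · obtain ⟨v, rfl⟩ := Submodule.Quotient.mk_surjective _ x
    exact ⟨Submodule.Quotient.mk v, rfl⟩
  · obtain ⟨v, rfl⟩ := Submodule.Quotient.mk_surjective _ x
    rfl

end FermatLib.MLT.HeckeRep
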