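import Mathlib.RingTheory.Ideal.GoingUp
import Fermat.Agent.Galois.CyclotomicFrobenius
import Fermat.Agent.Galois.RepAdic
import Fermat.Agent.MLT.Odd.HeckeRepFamily

/-!
Preparation for trace descent of Galois representations to localised Hecke algebras: maps of
finite algebras over a complete local ring, continuity of traces, values of a cyclotomic
determinant.
-/

noncomputable section

namespace FermatLib.MLT.HeckeRep

open IsLocalRing FermatLib.Galois FermatLib.Galois.FlatModel FermatLib.Galois.DeformLocal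
open scoped TensorProduct

local notation "Qbar" => AlgebraicClosure ℚ
local notation "Γℚ" => (AlgebraicClosure ℚ ≃ₐ[ℚ] AlgebraicClosure ℚ)

section Finite

variable {𝒪 : Type} [CommRing 𝒪] {T B : Type} [CommRing T] [IsLocalRing T] [Algebra 𝒪 T]
  [CommRing B] [IsLocalRing B] [Algebra 𝒪 B]

/-- A map from a local ring to a local ring which is finite over the base is local. -/
theorem isLocalHom_of_finite [Module.Finite 𝒪 B] (χ : T →ₐ[𝒪] B) : IsLocalHom (χ : T →+* B) := by
  have hint : (χ : T →+* B).IsIntegral := by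
    have h : ((χ : T →+* B).comp (algebraMap 𝒪 T)).IsIntegral := by
      rw [show (χ : T →+* B).comp (algebraMap 𝒪 T) = algebraMap 𝒪 B from χ.comp_algebraMap]
      exact algebraMap_isIntegral_iff.2 inferInstance
    exact RingHom.IsIntegral.tower_top _ _ h
  have := Ideal.isMaximal_comap_of_isIntegral_of_isMaximal' (χ : T →+* B) hint (maximalIdeal B)
  exact ((IsLocalRing.local_hom_TFAE (χ : T →+* B)).out 4 0).1
    (IsLocalRing.eq_maximalIdeal this)

theorem maximalIdeal_map_le [IsLocalRing 𝒪] [Module.Finite 𝒪 B] :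
    (maximalIdeal 𝒪).map (algebraMap 𝒪 B) ≤ maximalIdeal B := by
  have hloc : IsLocalHom (algebraMap 𝒪 B) := isLocalHom_of_finite (Algebra.ofId 𝒪 B)
  exact ((IsLocalRing.local_hom_TFAE (algebraMap 𝒪 B)).out 0 2).1 hloc

theorem finite_residueField_of_finite [IsLocalRing 𝒪] [Finite (ResidueField 𝒪)]
    [Module.Finite 𝒪 B] : Finite (ResidueField B) := by
  have hloc : IsLocalHom (algebraMap 𝒪 B) := isLocalHom_of_finite (Algebra.ofId 𝒪 B)
  have : Module.Finite (ResidueField 𝒪) (ResidueField B) := inferInstance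
  exact Module.finite_of_finite (ResidueField 𝒪)

/-- The powers of the maximal ideal of a finite algebra are cofinal with those of the base. -/
theorem exists_maximalIdeal_pow_le_map [IsLocalRing 𝒪] [IsNoetherianRing 𝒪] [Module.Finite 𝒪 B]
    (n : ℕ) : ∃ m, maximalIdeal B ^ m ≤ (maximalIdeal 𝒪 ^ n).map (algebraMap 𝒪 B) := by
  cases n with
  | zero => exact ⟨0, by rw [pow_zero, pow_zero, Ideal.one_eq_top, Ideal.one_eq_top, Ideal.map_top]⟩
  | succ n =>
  set I := (maximalIdeal 𝒪 ^ (n + 1)).map (algebraMap 𝒪 B)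
  have : IsArtinianRing (𝒪 ⧸ maximalIdeal 𝒪 ^ (n + 1)) := by
    rw [isArtinianRing_iff_isNilpotent_maximalIdeal]
    refine ⟨n + 1, ?_⟩
    have hm : maximalIdeal (𝒪 ⧸ maximalIdeal 𝒪 ^ (n + 1)) ≤
        (maximalIdeal 𝒪).map (Ideal.Quotient.mk _) := by
      intro x hx
      obtain ⟨a, rfl⟩ := Ideal.Quotient.mk_surjective x
      refine Ideal.mem_map_of_mem _ ?_
      by_contra hu
      rw [IsLocalRing.mem_maximalIdeal, mem_nonunits_iff, not_not] at hu
      exact hx (hu.map _)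
    rw [Ideal.zero_eq_bot, ← le_bot_iff]
    refine (Ideal.pow_right_mono hm _).trans ?_
    rw [← Ideal.map_pow, le_bot_iff, Ideal.map_eq_bot_iff_le_ker, Ideal.mk_ker]
  let : Algebra (𝒪 ⧸ maximalIdeal 𝒪 ^ (n + 1)) (B ⧸ I) :=
    (Ideal.quotientMap I (algebraMap 𝒪 B) Ideal.le_comap_map).toAlgebra
  have : IsScalarTower 𝒪 (𝒪 ⧸ maximalIdeal 𝒪 ^ (n + 1)) (B ⧸ I) :=
    IsScalarTower.of_algebraMap_eq fun x => rfl
  have : Module.Finite (𝒪 ⧸ maximalIdeal 𝒪 ^ (n + 1)) (B ⧸ I) :=
    Module.Finite.of_restrictScalars_finite 𝒪 _ _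
  have : IsArtinianRing (B ⧸ I) :=
    IsArtinianRing.of_finite (𝒪 ⧸ maximalIdeal 𝒪 ^ (n + 1)) (B ⧸ I)
  exact exists_maximalIdeal_pow_le_of_isArtinianRing_quotient I

end Finite

/-- Elements of a finite product with components in `I`. -/
theorem mem_smul_top_pi {𝒪 : Type} [CommRing 𝒪] {ι : Type} [Finite ι] {B : ι → Type}
    [∀ i, CommRing (B i)] [∀ i, Algebra 𝒪 (B i)] {I : Ideal 𝒪} {y : ∀ i, B i}
    (h : ∀ i, y i ∈ I.map (algebraMap 𝒪 (B i))) : y ∈ I • (⊤ : Submodule 𝒪 (∀ i, B i)) := by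
  classical
  cases nonempty_fintype ι
  rw [← Finset.univ_sum_single y]
  refine Submodule.sum_mem _ fun i _ => ?_
  have hi : y i ∈ I • (⊤ : Submodule 𝒪 (B i)) := by
    rw [Ideal.smul_top_eq_map]
    exact h i
  have := Submodule.mem_map_of_mem (f := LinearMap.single 𝒪 B i) hi
  rw [Submodule.map_smul''] at this
  exact Submodule.smul_mono le_rfl le_top this

/-- A finite local algebra over a complete local ring, embedded in a finite product of finite
local algebras, carries the induced topology. -/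
theorem isClosedFamily_of_finite {𝒪 : Type} [CommRing 𝒪] [IsLocalRing 𝒪] [IsNoetherianRing 𝒪]
    {T : Type} [CommRing T] [IsLocalRing T] [Algebra 𝒪 T] [Module.Finite 𝒪 T] {ι : Type}
    [Finite ι] {B : ι → Type} [∀ i, CommRing (B i)] [∀ i, IsLocalRing (B i)]
    [∀ i, Algebra 𝒪 (B i)] [∀ i, Module.Finite 𝒪 (B i)] (χ : ∀ i, T →ₐ[𝒪] B i)
    (hχ : ∀ a, (∀ i, χ i a = 0) → a = 0) : IsClosedFamily fun i => (χ i : T →+* B i) := by
  cases nonempty_fintype ι
  intro j
  let f : T →ₗ[𝒪] ∀ i, B i := LinearMap.pi fun i => (χ i).toLinearMap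
  have hf : Function.Injective f :=
    (injective_iff_map_eq_zero f).2 fun a ha => hχ a fun i => congrFun ha i
  obtain ⟨c, hc⟩ := Ideal.exists_pow_inf_eq_pow_smul (maximalIdeal 𝒪) (LinearMap.range f)
  choose m hm using fun i => exists_maximalIdeal_pow_le_map (𝒪 := 𝒪) (B := B i) (j + c)
  refine ⟨Finset.univ.sup m, fun a ha => ?_⟩
  have h1 : f a ∈ maximalIdeal 𝒪 ^ (j + c) • (⊤ : Submodule 𝒪 (∀ i, B i)) :=
    mem_smul_top_pi fun i =>
      hm i (Ideal.pow_le_pow_right (Finset.le_sup (Finset.mem_univ i)) (ha i))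
  have h2 : f a ∈ maximalIdeal 𝒪 ^ j • LinearMap.range f := by
    have : f a ∈ maximalIdeal 𝒪 ^ (j + c) • ⊤ ⊓ LinearMap.range f := ⟨h1, a, rfl⟩
    rw [hc (j + c) (Nat.le_add_left c j), Nat.add_sub_cancel] at this
    exact Submodule.smul_mono le_rfl inf_le_right this
  rw [← Submodule.map_top, ← Submodule.map_smul'', Submodule.mem_map] at h2
  obtain ⟨b, hb, hba⟩ := h2
  cases hf hba
  rw [Ideal.smul_top_eq_map, Submodule.restrictScalars_mem, Ideal.map_pow] at hb
  exact Ideal.pow_right_mono maximalIdeal_map_le j hb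

section Rep

variable {A : Type} [CommRing A] [IsLocalRing A] (ρ : GaloisRepAdic A)

theorem trace_mem_of_range_le {I : Ideal A} {f : Module.End A ρ.V}
    (h : ∀ v, f v ∈ I • (⊤ : Submodule A ρ.V)) : LinearMap.trace A ρ.V f ∈ I := by
  let b := adicBasis ρ
  rw [LinearMap.trace_eq_matrix_trace A b]
  refine Ideal.sum_mem _ fun i _ => ?_
  show LinearMap.toMatrix b b f i i ∈ I
  rw [LinearMap.toMatrix_apply]
  refine Submodule.smul_induction_on (h (b i)) (fun a ha w _ => ?_) fun x y hx hy => ?_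
  · rw [map_smul, Finsupp.smul_apply, smul_eq_mul]
    exact I.mul_mem_right _ ha
  · rw [map_add, Finsupp.add_apply]
    exact I.add_mem hx hy

/-- Continuity of the trace. -/
theorem trace_mul_sub_trace_mem {I : Ideal A} {σ : Γℚ}
    (hσ : ∀ v, ρ.ρ σ v - v ∈ I • (⊤ : Submodule A ρ.V)) (g : Γℚ) :
    ρ.trace (g * σ) - ρ.trace g ∈ I := by
  rw [GaloisRepAdic.trace, GaloisRepAdic.trace, ← map_sub, map_mul]
  refine trace_mem_of_range_le ρ fun v => ?_
  rw [LinearMap.sub_apply, Module.End.mul_apply, ← map_sub]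
  have := Submodule.mem_map_of_mem (f := ρ.ρ g) (hσ v)
  rw [Submodule.map_smul''] at this
  exact Submodule.smul_mono le_rfl le_top this

/-- A cyclotomic determinant at an element acting on all `p`-power roots of unity by given
exponents. -/
theorem det_eq_of_exponents [IsNoetherianRing A] {p : ℕ} (h : ρ.DetIsCyclotomic p) {σ : Γℚ}
    {x : A} (hσ : ∀ n, ∃ a : ℕ, (∀ μ : Qbar, μ ^ p ^ n = 1 → σ μ = μ ^ a) ∧
      (a : A) - x ∈ Ideal.span {((p ^ n : ℕ) : A)}) : LinearMap.det (ρ.ρ σ) = x := by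
  rw [← sub_eq_zero]
  refine eq_zero_of_forall_mem_pow fun j => ?_
  obtain ⟨a, ha, hax⟩ := hσ (j + 1)
  have h1 := (h.2 (j + 1) σ a ha)
  have h2 := Ideal.add_mem _ h1 hax
  rw [sub_add_sub_cancel] at h2
  refine (Ideal.span_singleton_le_iff_mem _).2 ?_ h2
  rw [Nat.cast_pow]
  exact Ideal.pow_mem_pow h.1 _

/-- A cyclotomic determinant at complex conjugation. -/
theorem det_complexConjugation [IsNoetherianRing A] {p : ℕ} (hp : p ≠ 0)
    (h : ρ.DetIsCyclotomic p) : LinearMap.det (ρ.ρ complexConjugation) = -1 := by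
  refine det_eq_of_exponents ρ h fun n => ⟨p ^ n - 1, fun μ hμ => ?_, ?_⟩
  · have h1 : μ ^ (p ^ n - 1) * μ = 1 := by
      rw [← pow_succ, Nat.sub_add_cancel (Nat.one_le_pow _ _ (Nat.pos_of_ne_zero hp)), hμ]
    rw [complexConjugation_apply_of_pow_eq_one (pow_ne_zero n hp) hμ]
    exact (eq_inv_of_mul_eq_one_left h1).symm
  · rw [sub_neg_eq_add, ← Nat.cast_one (R := A), ← Nat.cast_add,
      Nat.sub_add_cancel (Nat.one_le_pow _ _ (Nat.pos_of_ne_zero hp))]
    exact Ideal.mem_span_singleton_self _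

/-- A cyclotomic determinant at a Frobenius. -/
theorem det_frobenius [IsNoetherianRing A] {p : ℕ} (hp : p.Prime) (h : ρ.DetIsCyclotomic p)
    {ℓ : ℕ} (hℓ : ℓ.Prime) (hℓp : ℓ ≠ p) {P : ValuationSubring Qbar} (hP : P.LiesOverPrime ℓ)
    {σ : Γℚ} (hσ : P.IsFrobeniusAt σ ℓ) : LinearMap.det (ρ.ρ σ) = (ℓ : A) := by
  refine det_eq_of_exponents ρ h fun n => ⟨ℓ, fun μ hμ => ?_, by simp⟩
  have hd : orderOf μ ∣ p ^ n := orderOf_dvd_of_pow_eq_one hμ
  refine apply_eq_pow_of_isFrobeniusAt P hℓ hP (fun hdvd => hℓp ?_) hσ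
    (IsPrimitiveRoot.orderOf μ)
  exact (Nat.prime_dvd_prime_iff_eq hℓ hp).1 (hℓ.dvd_of_dvd_pow (hdvd.trans hd))

/-- Residual absolute irreducibility passes to changes of coefficients. -/
theorem residual_isAbsolutelyIrreducible_baseChange {B : Type} [CommRing B] [IsLocalRing B]
    (φ : A →+* B) (hφ : IsLocalHom φ) (h : ρ.residual.IsAbsolutelyIrreducible) :
    (ρ.baseChangeAlong φ hφ).residual.IsAbsolutelyIrreducible := by
  rw [← hasFullSpan_adicMat_iff] at h ⊢
  refine (h.repMap φ).of_trace_eq fun σ => ?_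
  rw [trace_repMap, adicMat, adicMat, trace_repMatrix, trace_repMatrix]
  exact (trace_baseChangeAlong φ hφ ρ σ).symm

end Rep

end FermatLib.MLT.HeckeRep
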