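import Fermat.Agent.Galois.RepDescentAdic
import Fermat.Agent.Galois.FrobeniusDensity
import Fermat.Agent.Galois.LucasTrace
import Fermat.Agent.MLT.Odd.HeckeRepDescentPrep

/-!
Galois representations over localised Hecke algebras: from the representations attached to a
jointly injective family of eigen systems, by descent of traces.
-/

noncomputable section

namespace FermatLib.MLT.HeckeRep

open IsLocalRing FermatLib.Galois FermatLib.Galois.DeformLocal Polynomial

local notation "Qbar" => AlgebraicClosure ℚ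
local notation "Γℚ" => (AlgebraicClosure ℚ ≃ₐ[ℚ] AlgebraicClosure ℚ)

variable {ι : Type} {O : ι → Type} [∀ i, CommRing (O i)] [∀ i, IsLocalRing (O i)]

/-- For every `k`, a finite level controlling all traces modulo the `k`-th powers of the maximal
ideals. -/
theorem exists_level_trace_sub_mem [Finite ι] (r : ∀ i, GaloisRepAdic (O i)) (k : ℕ) :
    ∃ L : IntermediateField ℚ Qbar, FiniteDimensional ℚ L ∧ ∀ σ : Γℚ, (∀ x ∈ L, σ x = x) →
      ∀ (i : ι) (g : Γℚ), (r i).trace (g * σ) - (r i).trace g ∈ maximalIdeal (O i) ^ k := by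
  choose L hL hLc using fun i => (r i).isAdicContinuous k
  have := hL
  exact ⟨⨆ i, L i, inferInstance, fun σ hσ i g =>
    trace_mul_sub_trace_mem (r i) (hLc i σ fun x hx => hσ x (le_iSup L i hx)) g⟩

variable {T : Type} [CommRing T] [IsLocalRing T]

omit [IsLocalRing T] in
/-- Traces are approximated by the images of elements of `T`, given such elements at Frobenius
elements outside a finite set. -/
theorem exists_trace_approx [Finite ι] (χ : ∀ i, T →+* O i) (r : ∀ i, GaloisRepAdic (O i))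
    {p : ℕ} (hp : p ≠ 0) (hdet : ∀ i, (r i).DetIsCyclotomic p) (S : Finset ℕ) (t : ℕ → T)
    (htr : ∀ (i : ι) (ℓ : ℕ), ℓ.Prime → ℓ ∉ S → ∀ P : ValuationSubring Qbar, P.LiesOverPrime ℓ →
      ∀ σ : Γℚ, P.IsFrobeniusAt σ ℓ → (r i).trace σ = χ i (t ℓ))
    (k : ℕ) (g : Γℚ) :
    ∃ x : T, ∀ i, χ i x - (r i).trace g ∈ maximalIdeal (O i) ^ k := by
  obtain ⟨L, hL, hLc⟩ := exists_level_trace_sub_mem r k
  refine forall_of_forall_isFrobeniusAt
    (P := fun g => ∃ x : T, ∀ i, χ i x - (r i).trace g ∈ maximalIdeal (O i) ^ k) S L ?_ ?_ ?_ g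
  · rintro g h hgh ⟨x, hx⟩
    refine ⟨x, fun i => ?_⟩
    have hfix : ∀ z ∈ L, (g⁻¹ * h) z = z := fun z hz => by
      rw [AlgEquiv.mul_apply, ← hgh z hz, ← AlgEquiv.mul_apply, inv_mul_cancel, AlgEquiv.one_apply]
    have h1 := hLc _ hfix i g
    rw [mul_inv_cancel_left] at h1
    simpa using sub_mem (hx i) h1
  · rintro σ b ⟨x, hx⟩
    obtain ⟨a, ha⟩ := exists_cyclotomic_exponent hp k σ
    refine ⟨lucasTrace x (a : T) b, fun i => ?_⟩
    have hd : LinearMap.det ((r i).ρ σ) - (a : O i) ∈ maximalIdeal (O i) ^ k := by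
      refine (Ideal.span_singleton_le_iff_mem _).2 ?_ ((hdet i).2 k σ a ha)
      rw [Nat.cast_pow]
      exact Ideal.pow_mem_pow (hdet i).1 _
    have hpow : (r i).trace (σ ^ b) =
        lucasTrace ((r i).trace σ) (LinearMap.det ((r i).ρ σ)) b := by
      rw [GaloisRepAdic.trace, GaloisRepAdic.trace, ← trace_repMatrix (adicBasis (r i)),
        ← trace_repMatrix (adicBasis (r i)), ← det_repMatrix (adicBasis (r i)), map_pow,
        trace_pow_eq_lucasTrace]
    rw [hpow, ← Ideal.Quotient.eq, map_lucasTrace, map_lucasTrace, map_lucasTrace, map_natCast,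
      Ideal.Quotient.eq.2 (hx i), Ideal.Quotient.eq.2 hd]
  · exact fun ℓ hℓ hℓS P hP σ hσ =>
      ⟨t ℓ, fun i => by rw [htr i ℓ hℓ hℓS P hP σ hσ, sub_self]; exact zero_mem _⟩

variable {𝒪 : Type} [CommRing 𝒪] [IsLocalRing 𝒪] [IsNoetherianRing 𝒪] [Algebra 𝒪 T]
  [Module.Finite 𝒪 T] [∀ i, Algebra 𝒪 (O i)] [∀ i, Module.Finite 𝒪 (O i)]

omit [IsLocalRing T] [Module.Finite 𝒪 T] in
/-- The image of a finite algebra in a finite product of finite local algebras is closed. -/
theorem exists_eq_of_approx [Finite ι] (χ : ∀ i, T →ₐ[𝒪] O i) (y : ∀ i, O i)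
    (h : ∀ k, ∃ x : T, ∀ i, χ i x - y i ∈ maximalIdeal (O i) ^ k) :
    ∃ x : T, ∀ i, χ i x = y i := by
  cases nonempty_fintype ι
  let f : T →ₗ[𝒪] ∀ i, O i := LinearMap.pi fun i => (χ i).toLinearMap
  let N := LinearMap.range f
  suffices hN : y ∈ N by
    obtain ⟨x, hx⟩ := hN
    exact ⟨x, fun i => congrFun hx i⟩
  rw [← Submodule.Quotient.mk_eq_zero]
  refine (Submodule.mem_bot (R := 𝒪)).1 ?_
  rw [← Ideal.iInf_pow_smul_eq_bot_of_isLocalRing (M := (∀ i, O i) ⧸ N) (maximalIdeal 𝒪)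
    (maximalIdeal.isMaximal 𝒪).ne_top, Submodule.mem_iInf]
  intro n
  choose m hm using fun i => exists_maximalIdeal_pow_le_map (𝒪 := 𝒪) (B := O i) n
  obtain ⟨x, hx⟩ := h (Finset.univ.sup m)
  have hdiff : f x - y ∈ maximalIdeal 𝒪 ^ n • (⊤ : Submodule 𝒪 (∀ i, O i)) :=
    mem_smul_top_pi fun i =>
      hm i (Ideal.pow_le_pow_right (Finset.le_sup (Finset.mem_univ i)) (hx i))
  have h2 := Submodule.mem_map_of_mem (f := N.mkQ) hdiff
  rw [Submodule.map_smul'', map_sub, Submodule.mkQ_apply, Submodule.mkQ_apply,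
    (Submodule.Quotient.mk_eq_zero N).2 (LinearMap.mem_range_self f x), zero_sub,
    Submodule.neg_mem_iff] at h2
  exact Submodule.smul_mono le_rfl le_top h2

/-- The matrices of a family of representations, in the product of the coefficient rings. -/
def piMat (r : ∀ i, GaloisRepAdic (O i)) : Γℚ →* Matrix (Fin 2) (Fin 2) (∀ i, O i) where
  toFun σ := Matrix.of fun a b i => adicMat (r i) σ a b
  map_one' := by
    ext a b i
    by_cases hab : a = b
    · subst hab; simp
    · simp [Matrix.one_apply_ne hab]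
  map_mul' σ τ := by
    ext a b i
    simp [Matrix.mul_apply, Finset.sum_apply]

omit [∀ i, Algebra 𝒪 (O i)] [∀ i, Module.Finite 𝒪 (O i)] in
theorem piMat_map_eval (r : ∀ i, GaloisRepAdic (O i)) (σ : Γℚ) (i : ι) :
    (piMat r σ).map (Pi.evalRingHom O i) = adicMat (r i) σ := rfl

/-- **Trace descent.** Representations attached to a jointly injective finite family of eigen
systems of a finite local algebra, one of them residually absolutely irreducible, come from one
representation over that algebra. -/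
theorem exists_galoisRepAdic_of_systems [Finite ι] (χ : ∀ i, T →ₐ[𝒪] O i)
    (hχ : ∀ a, (∀ i, χ i a = 0) → a = 0) {p : ℕ} (hp : p.Prime) (hp2 : p ≠ 2)
    (r : ∀ i, GaloisRepAdic (O i)) (hdet : ∀ i, (r i).DetIsCyclotomic p)
    (S : Finset ℕ) (t : ℕ → T)
    (htr : ∀ (i : ι) (ℓ : ℕ), ℓ.Prime → ℓ ∉ S → ∀ P : ValuationSubring Qbar, P.LiesOverPrime ℓ →
      ∀ σ : Γℚ, P.IsFrobeniusAt σ ℓ → (r i).trace σ = χ i (t ℓ))
    (i₀ : ι) (hirr : (r i₀).residual.IsAbsolutelyIrreducible) :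
    ∃ ρ : GaloisRepAdic T, ρ.residual.IsAbsolutelyIrreducible ∧ ρ.DetIsCyclotomic p ∧
      (∀ i, (ρ.baseChangeAlong (χ i : T →+* O i) (isLocalHom_of_finite (χ i))).IsEquiv (r i)) ∧
      ∀ ℓ : ℕ, ℓ.Prime → ℓ ∉ S → ℓ ≠ p → ∀ P : ValuationSubring Qbar, P.LiesOverPrime ℓ →
        ∀ σ : Γℚ, P.IsFrobeniusAt σ ℓ → ρ.trace σ = t ℓ ∧
          LinearMap.charpoly (ρ.ρ σ) = X ^ 2 - C (t ℓ) * X + C (ℓ : T) := by
  have := fun i => IsNoetherianRing.of_finite 𝒪 (O i)
  have := IsNoetherianRing.of_finite 𝒪 T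
  have hloc := fun i => isLocalHom_of_finite (χ i)
  have hclosed := isClosedFamily_of_finite χ hχ
  -- the trace function
  choose τ hτ using fun g => exists_eq_of_approx χ (fun i => (r i).trace g) fun k =>
    exists_trace_approx (fun i => (χ i : T →+* O i)) r hp.ne_zero hdet S t htr k g
  have hτuniq : ∀ {x y : T}, (∀ i, χ i x = χ i y) → x = y := fun {x y} hxy =>
    sub_eq_zero.1 (hχ _ fun i => by rw [map_sub, hxy i, sub_self])
  let f : T →+* ∀ i, O i := RingHom.pi fun i => (χ i : T →+* O i)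
  have hf : Function.Injective f := fun x y hxy => hτuniq fun i => congrFun hxy i
  have hτf : ∀ σ, f (τ σ) = (piMat r σ).trace := fun σ => by
    funext i
    show χ i (τ σ) = _
    rw [hτ, GaloisRepAdic.trace, ← trace_repMatrix (adicBasis (r i))]
    simp [Matrix.trace, piMat, adicMat, Finset.sum_apply]
  have hdetc : (piMat r complexConjugation).det = -1 := by
    funext i
    refine ((Pi.evalRingHom O i).map_det (piMat r complexConjugation)).trans ?_
    show ((piMat r complexConjugation).map (Pi.evalRingHom O i)).det = _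
    rw [piMat_map_eval, adicMat, det_repMatrix, det_complexConjugation (r i) hp.ne_zero (hdet i)]
    rfl
  have h2 : IsUnit (2 : T) := by
    by_contra h2
    have hm2 : (2 : T) ∈ maximalIdeal T := h2
    have hpm : (p : T) ∈ maximalIdeal T :=
      FlatModel.natCast_mem_maximalIdeal_of_hom (χ i₀ : T →+* O i₀) (hdet i₀).1
    obtain ⟨m, hm⟩ := hp.odd_of_ne_two hp2
    refine (maximalIdeal.isMaximal T).ne_top ((Ideal.eq_top_iff_one _).2 ?_)
    have h1 := sub_mem hpm (Ideal.mul_mem_right (m : T) _ hm2)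
    rw [hm, Nat.cast_add, Nat.cast_mul, Nat.cast_two, Nat.cast_one, add_sub_cancel_left] at h1
    exact h1
  obtain ⟨g, hg⟩ := (hasFullSpan_adicMat_iff (r i₀)).2 hirr
  have hgram : IsUnit (Matrix.of fun a b => τ (g a * g b)).det := by
    have := hloc i₀
    refine isUnit_of_map_unit (χ i₀ : T →+* O i₀) _ ?_
    rw [RingHom.map_det]
    convert hg using 2
    ext a b
    show χ i₀ (τ (g a * g b)) = (adicMat (r i₀) (g a) * adicMat (r i₀) (g b)).trace
    rw [hτ, ← map_mul, adicMat, trace_repMatrix]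
    rfl
  have hcont : ∀ n : ℕ, ∃ L : IntermediateField ℚ Qbar, FiniteDimensional ℚ L ∧
      ∀ σ : Γℚ, (∀ x ∈ L, σ x = x) → ∀ x, τ (x * σ) - τ x ∈ maximalIdeal T ^ n := by
    intro n
    obtain ⟨m, hm⟩ := hclosed n
    obtain ⟨L, hL, hLc⟩ := exists_level_trace_sub_mem r m
    refine ⟨L, hL, fun σ hσ x => hm _ fun i => ?_⟩
    show χ i _ ∈ _
    rw [map_sub, hτ, hτ]
    exact hLc σ hσ i x
  obtain ⟨ρ, hρirr, hρtr, -⟩ := exists_galoisRepAdic_descent f hf h2 (piMat r) τ hτf
    complexConjugation_mul_self hdetc g hgram hcont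
  have hequiv : ∀ i, (ρ.baseChangeAlong (χ i : T →+* O i) (hloc i)).IsEquiv (r i) := fun i =>
    adic_isEquiv_of_trace_eq (residual_isAbsolutelyIrreducible_baseChange ρ _ _ hρirr) fun σ => by
      rw [trace_baseChangeAlong, hρtr]
      exact hτ σ i
  have hρdet : ρ.DetIsCyclotomic p :=
    detIsCyclotomic_of_family (φ := fun i => (χ i : T →+* O i)) hloc hclosed hp.ne_zero fun i =>
      detIsCyclotomic_of_isEquiv ⟨(hequiv i).some.symm⟩ (hdet i)
  refine ⟨ρ, hρirr, hρdet, hequiv, fun ℓ hℓ hℓS hℓp P hP σ hσ => ?_⟩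
  have htℓ : ρ.trace σ = t ℓ := by
    rw [hρtr]
    exact hτuniq fun i => by rw [hτ, htr i ℓ hℓ hℓS P hP σ hσ]
  refine ⟨htℓ, ?_⟩
  rw [adic_charpoly_eq, htℓ, det_frobenius ρ hp hρdet hℓ hℓp hP hσ]

end FermatLib.MLT.HeckeRep
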