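import Fermat.Agent.Galois.FrobeniusDensity
import Fermat.Agent.Galois.NewformRepDet
import Fermat.Agent.MLT.Odd.HeckeRepDescentPrep

/-!
The determinant of an adic representation is cyclotomic as soon as it is so at Frobenius elements.
-/

noncomputable section

namespace FermatLib.MLT.HeckeRep

open IsLocalRing FermatLib.Galois FermatLib.Galois.DeformLocal

local notation "Qbar" => AlgebraicClosure ℚ
local notation "Γℚ" => (AlgebraicClosure ℚ ≃ₐ[ℚ] AlgebraicClosure ℚ)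

variable {A : Type} [CommRing A] [IsLocalRing A] [IsNoetherianRing A]

/-- A determinant which is `ℓ` at the Frobenius elements over `ℓ` outside a finite set is
cyclotomic. -/
theorem detIsCyclotomic_of_frobenius {p : ℕ} (hp : p.Prime) (hpA : (p : A) ∈ maximalIdeal A)
    (ρ : GaloisRepAdic A) (S : Finset ℕ)
    (h : ∀ ℓ : ℕ, ℓ.Prime → ℓ ∉ S → ∀ P : ValuationSubring Qbar, P.LiesOverPrime ℓ →
      ∀ σ : Γℚ, P.IsFrobeniusAt σ ℓ → LinearMap.det (ρ.ρ σ) = (ℓ : A)) :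
    ρ.DetIsCyclotomic p := by
  refine ⟨hpA, fun n σ a ha => mem_of_forall_mem_sup_pow fun j => ?_⟩
  set K : Ideal A := Ideal.span {((p ^ n : ℕ) : A)} ⊔ maximalIdeal A ^ (j + 1) with hK
  suffices hmem : LinearMap.det (ρ.ρ σ) - (a : A) ∈ K by
    rw [hK] at hmem
    have := Ideal.mem_map_of_mem (Ideal.Quotient.mk (maximalIdeal A ^ (j + 1))) hmem
    rwa [Ideal.map_sup, Ideal.map_quotient_self, sup_bot_eq] at this
  obtain ⟨L, hL, hLc⟩ := ρ.isAdicContinuous (j + 1)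
  have : NeZero (p ^ n) := ⟨pow_ne_zero n hp.ne_zero⟩
  obtain ⟨ζ, hζ⟩ := HasEnoughRootsOfUnity.exists_primitiveRoot Qbar (p ^ n)
  have : FiniteDimensional ℚ (IntermediateField.adjoin ℚ {ζ}) :=
    IntermediateField.adjoin.finiteDimensional
      ((AlgebraicClosure.isAlgebraic ℚ).isAlgebraic ζ).isIntegral
  have := hL
  have : FiniteDimensional ℚ (L ⊔ IntermediateField.adjoin ℚ {ζ} : IntermediateField ℚ Qbar) :=
    IntermediateField.finiteDimensional_sup _ _
  refine forall_of_forall_isFrobeniusAt (P := fun g => ∀ a : ℕ,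
    (∀ μ : Qbar, μ ^ p ^ n = 1 → g μ = μ ^ a) → LinearMap.det (ρ.ρ g) - (a : A) ∈ K) (insert p S)
    (L ⊔ IntermediateField.adjoin ℚ {ζ}) ?_ ?_ ?_ σ a ha
  · intro g g' hgg' hP b hb
    have hfix : ∀ z ∈ L, (g⁻¹ * g') z = z := fun z hz => by
      rw [AlgEquiv.mul_apply, ← hgg' z (le_sup_left (b := IntermediateField.adjoin ℚ {ζ}) hz),
        ← AlgEquiv.mul_apply, inv_mul_cancel, AlgEquiv.one_apply]
    have hexp : ∀ μ : Qbar, μ ^ p ^ n = 1 → g μ = μ ^ b := fun μ hμ => by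
      obtain ⟨i, -, rfl⟩ := hζ.eq_pow_of_pow_eq_one hμ
      rw [hgg' _ (le_sup_right (a := L)
        (pow_mem (IntermediateField.mem_adjoin_simple_self ℚ ζ) i)), hb _ hμ]
    have h1 := hP b hexp
    have h2 := s35_det_sub_one_mem _ _ (hLc _ hfix)
    have h3 : LinearMap.det (ρ.ρ g') =
        LinearMap.det (ρ.ρ g) * LinearMap.det (ρ.ρ (g⁻¹ * g')) := by
      rw [← map_mul, ← map_mul, mul_inv_cancel_left]
    rw [h3, show LinearMap.det (ρ.ρ g) * LinearMap.det (ρ.ρ (g⁻¹ * g')) - (b : A) =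
      LinearMap.det (ρ.ρ g) * (LinearMap.det (ρ.ρ (g⁻¹ * g')) - 1) +
        (LinearMap.det (ρ.ρ g) - (b : A)) by ring]
    exact K.add_mem (K.mul_mem_left _ (Ideal.mem_sup_right h2)) h1
  · intro g b hP c hc
    obtain ⟨a₀, ha₀⟩ := exists_cyclotomic_exponent hp.ne_zero n g
    have hpow : ∀ (k : ℕ) (μ : Qbar), μ ^ p ^ n = 1 → (g ^ k) μ = μ ^ a₀ ^ k := by
      intro k
      induction k with
      | zero => intro μ _; simp
      | succ k ih =>
        intro μ hμ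
        rw [pow_succ', AlgEquiv.mul_apply, ih μ hμ, map_pow, ha₀ μ hμ, ← pow_mul, pow_succ']
    have hmod := exponent_modEq hp.ne_zero le_rfl hc (hpow b)
    have h1 := natCast_sub_mem_span_of_modEq (A := A) hmod
    rw [Nat.cast_pow a₀] at h1
    have h2 : LinearMap.det (ρ.ρ g) ^ b - (a₀ : A) ^ b ∈ K :=
      Ideal.mem_of_dvd _ (sub_dvd_pow_sub_pow _ _ b) (hP a₀ ha₀)
    rw [map_pow, map_pow, ← sub_add_sub_cancel _ ((a₀ : A) ^ b) (c : A)]
    exact K.add_mem h2 (Ideal.mem_sup_left h1)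
  · intro ℓ hℓ hℓS P hP g hg b hb
    rw [Finset.mem_insert, not_or] at hℓS
    have hexp : ∀ μ : Qbar, μ ^ p ^ n = 1 → g μ = μ ^ ℓ := fun μ hμ =>
      apply_eq_pow_of_isFrobeniusAt P hℓ hP
        (fun hdvd => hℓS.1 ((Nat.prime_dvd_prime_iff_eq hℓ hp).1
          (hℓ.dvd_of_dvd_pow (hdvd.trans (orderOf_dvd_of_pow_eq_one hμ))))) hg
        (IsPrimitiveRoot.orderOf μ)
    rw [h ℓ hℓ hℓS.2 P hP g hg]
    exact Ideal.mem_sup_left
      (natCast_sub_mem_span_of_modEq (exponent_modEq hp.ne_zero le_rfl hb hexp))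

/-- A Frobenius characteristic polynomial `X² - t X + ℓ` gives determinant `ℓ`. -/
theorem det_of_charpoly_eq {R : Type} [CommRing R] [IsLocalRing R] (ρ : GaloisRepAdic R) {σ : Γℚ}
    {t d : R} (h : LinearMap.charpoly (ρ.ρ σ) =
      Polynomial.X ^ 2 - Polynomial.C t * Polynomial.X + Polynomial.C d) :
    LinearMap.det (ρ.ρ σ) = d ∧ ρ.trace σ = t := by
  rw [adic_charpoly_eq] at h
  have h0 := congrArg (fun f : Polynomial R => f.coeff 0) h
  have h1 := congrArg (fun f : Polynomial R => f.coeff 1) h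
  simp [Polynomial.coeff_X_pow] at h0 h1
  exact ⟨h0, h1⟩

end FermatLib.MLT.HeckeRep
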