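import Fermat.Agent.MLT.LevelBookkeeping
import Fermat.Agent.MLT.Odd.HeckeRepDescent
import Fermat.Agent.MLT.Odd.HeckeRepDet
import Fermat.Agent.Galois.DeformLocal
import Fermat.Agent.Galois.RepAdic
import Fermat.Agent.Galois.EigenformCharacter
import Fermat.Agent.Modular.Newforms.OldRoot
import Fermat.Agent.Basic.FrobeniusExists

/-!
# An eigenform with `U q ^ 2 = 1` is special at `q`

If a lift has at almost all primes the traces of an eigenform of level exactly divisible by `q`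
with `a_q² = 1`, then the square of the trace of Frobenius at `q` is `(q + 1)²`: either the newform
is new at `q`, or `a_q` is a root of its Hecke polynomial.
-/

set_option autoImplicit false
set_option linter.style.haveILetI false

noncomputable section

open IsLocalRing Polynomial FermatLib.Galois FermatLib.MLT.HeckeRep

namespace FermatLib.MLT.Odd

local notation "Qbar" => AlgebraicClosure ℚ
local notation "Γℚ" => (AlgebraicClosure ℚ ≃ₐ[ℚ] AlgebraicClosure ℚ)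
local notation "ZbarC" => integralClosure ℤ ℂ

/-- Two representations with cyclotomic determinant and the same traces at almost all Frobenius
elements have the same traces. -/
theorem trace_eq_of_frobenius_traces {B : Type} [CommRing B] [IsDomain B]
    [IsDiscreteValuationRing B] [IsAdicComplete (maximalIdeal B) B] [Finite (ResidueField B)]
    [CharZero B] {p : ℕ} (hp : p ≠ 0) (r r' : GaloisRepAdic B) (hr : r.DetIsCyclotomic p)
    (hr' : r'.DetIsCyclotomic p) (S : Finset ℕ)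
    (h : ∀ ℓ : ℕ, ℓ.Prime → ℓ ∉ S → ∀ P : ValuationSubring Qbar, P.LiesOverPrime ℓ →
      ∀ σ : Γℚ, P.IsFrobeniusAt σ ℓ → ∃ t : B, r.trace σ = t ∧ r'.trace σ = t)
    (hconst : ∀ ℓ : ℕ, ℓ.Prime → ℓ ∉ S → ∀ P P' : ValuationSubring Qbar, P.LiesOverPrime ℓ →
      P'.LiesOverPrime ℓ → ∀ σ σ' : Γℚ, P.IsFrobeniusAt σ ℓ → P'.IsFrobeniusAt σ' ℓ →
        r.trace σ = r.trace σ') (g : Γℚ) :
    r.trace g = r'.trace g := by
  classical
  let t : ℕ → B := fun ℓ =>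
    if hℓ : ℓ.Prime then
      r.trace (FermatLib.Basic.exists_isFrobeniusAt hℓ (FermatLib.Basic.exists_liesOverPrime hℓ).choose
        (FermatLib.Basic.exists_liesOverPrime hℓ).choose_spec).choose
    else 0
  have ht : ∀ ℓ : ℕ, ℓ.Prime → ℓ ∉ S → ∀ P : ValuationSubring Qbar, P.LiesOverPrime ℓ →
      ∀ σ : Γℚ, P.IsFrobeniusAt σ ℓ → r.trace σ = t ℓ ∧ r'.trace σ = t ℓ := by
    intro ℓ hℓ hℓS P hP σ hσ
    obtain ⟨u, hu, hu'⟩ := h ℓ hℓ hℓS P hP σ hσ
    have e : r.trace σ = t ℓ := by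
      simp only [t, dif_pos hℓ]
      exact hconst ℓ hℓ hℓS P _ hP (FermatLib.Basic.exists_liesOverPrime hℓ).choose_spec σ _ hσ
        (FermatLib.Basic.exists_isFrobeniusAt hℓ _
          (FermatLib.Basic.exists_liesOverPrime hℓ).choose_spec).choose_spec
    exact ⟨e, hu'.trans (hu.symm.trans e)⟩
  let rr : Bool → GaloisRepAdic B := fun b => if b then r else r'
  have key : ∀ k : ℕ, r.trace g - r'.trace g ∈ maximalIdeal B ^ k := fun k => by
    obtain ⟨x, hx⟩ := exists_trace_approx (T := B) (fun _ : Bool => RingHom.id B) rr hp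
      (fun b => by cases b <;> assumption) S t
      (fun b ℓ hℓ hℓS P hP σ hσ => by
        cases b
        · exact (ht ℓ hℓ hℓS P hP σ hσ).2
        · exact (ht ℓ hℓ hℓS P hP σ hσ).1) k g
    have h1 := sub_mem (hx false) (hx true)
    simpa [rr] using h1
  refine sub_eq_zero.1 ((Submodule.mem_bot (R := B)).1 ?_)
  rw [← Ideal.iInf_pow_eq_bot_of_isLocalRing (maximalIdeal B) (maximalIdeal.isMaximal B).ne_top,
    Submodule.mem_iInf]
  exact key

/-- The trace transfers from an attached representation. -/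
theorem trace_sq_of_attached {O' : Type} [CommRing O'] [IsDomain O'] [IsDiscreteValuationRing O']
    [IsAdicComplete (maximalIdeal O') O'] [Finite (ResidueField O')] [CharZero O'] {p : ℕ}
    [Fact p.Prime] {r : GaloisRepAdic O'} (hdet : r.DetIsCyclotomic p)
    {O'' : Type} [CommRing O''] [IsDomain O''] [IsDiscreteValuationRing O'']
    [IsAdicComplete (maximalIdeal O'') O''] [Finite (ResidueField O'')] [CharZero O'']
    [Algebra O' O''] [IsLocalHom (algebraMap O' O'')]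
    (hinj : Function.Injective (algebraMap O' O'')) (ρ : GaloisRepAdic O'') (S : Finset ℕ)
    (tr : ℕ → O') (hr : ∀ ℓ : ℕ, ℓ.Prime → ℓ ∉ S → ∀ P : ValuationSubring Qbar,
      P.LiesOverPrime ℓ → ∀ σ : Γℚ, P.IsFrobeniusAt σ ℓ → r.trace σ = tr ℓ)
    (hρ : ∀ ℓ : ℕ, ℓ.Prime → ℓ ∉ S → ∀ P : ValuationSubring Qbar, P.LiesOverPrime ℓ →
      ∀ σ : Γℚ, P.IsFrobeniusAt σ ℓ → LinearMap.charpoly (ρ.ρ σ) =
        X ^ 2 - C (algebraMap O' O'' (tr ℓ)) * X + C (ℓ : O''))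
    (σ : Γℚ) {c : O'} (hc : ρ.trace σ ^ 2 = algebraMap O' O'' c) : r.trace σ ^ 2 = c := by
  have hp : p.Prime := Fact.out
  have hloc : IsLocalHom (algebraMap O' O'') := inferInstance
  let r₂ := r.baseChangeAlong (algebraMap O' O'') hloc
  have hd₂ : r₂.DetIsCyclotomic p := DeformLocal.detIsCyclotomic_baseChange _ hloc hdet
  have htr₂ : ∀ g, r₂.trace g = algebraMap O' O'' (r.trace g) := fun g =>
    trace_baseChangeAlong _ hloc r g
  have hpO : (p : O'') ∈ maximalIdeal O'' := hd₂.1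
  have hdρ : ρ.DetIsCyclotomic p := detIsCyclotomic_of_frobenius hp hpO ρ S
    fun ℓ hℓ hℓS P hP g hg => (det_of_charpoly_eq ρ (hρ ℓ hℓ hℓS P hP g hg)).1
  have e : r₂.trace σ = ρ.trace σ := trace_eq_of_frobenius_traces hp.ne_zero r₂ ρ hd₂ hdρ S
    (fun ℓ hℓ hℓS P hP g hg => ⟨_, (htr₂ g).trans (congrArg _ (hr ℓ hℓ hℓS P hP g hg)),
      (det_of_charpoly_eq ρ (hρ ℓ hℓ hℓS P hP g hg)).2⟩)
    (fun ℓ hℓ hℓS P P' hP hP' g g' hg hg' => by
      rw [htr₂, htr₂, hr ℓ hℓ hℓS P hP g hg, hr ℓ hℓ hℓS P' hP' g' hg']) σ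
  refine hinj ?_
  rw [map_pow, ← htr₂, e, hc]

/-- **An eigenform with `a_q² = 1` at a prime exactly dividing its level is special at `q`.** -/
theorem trace_sq_of_eigenform (hattach : PadicAttachment)
    (h35 : NewformFrobeniusAtBadPrime) {O' : Type} [CommRing O'] [IsDomain O']
    [IsDiscreteValuationRing O'] [IsAdicComplete (maximalIdeal O') O'] [Finite (ResidueField O')]
    [CharZero O'] {p : ℕ} [Fact p.Prime] {r : GaloisRepAdic O'} (hdet : r.DetIsCyclotomic p)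
    {K : Type} [Field K] [CharZero K] (j : O' →+* K) (hj : Function.Injective j) {N : ℕ} [NeZero N]
    {f : CuspForm (CongruenceSubgroup.Gamma0 N) 2} (hf : f.IsNormalizedEigenform) (ι : ZbarC →+* K)
    (E : Finset ℕ) (tr : ℕ → O') (hr : ∀ ℓ : ℕ, ℓ.Prime → ℓ ∉ E → ∀ P : ValuationSubring Qbar,
      P.LiesOverPrime ℓ → ∀ σ : Γℚ, P.IsFrobeniusAt σ ℓ → r.trace σ = tr ℓ)
    (hf_tr : ∀ ℓ : ℕ, ℓ.Prime → ℓ ∉ E → ¬ ℓ ∣ N → ∀ a : ZbarC,
      (a : ℂ) = ModularFormClass.qCoeff ⇑f ℓ → ι a = j (tr ℓ))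
    {q : ℕ} (hq : q.Prime) (hqp : q ≠ p) (hqN : q ∣ N) (hq2 : ¬ q ^ 2 ∣ N)
    (hu : ModularFormClass.qCoeff ⇑f q ^ 2 = 1) {A : ValuationSubring Qbar}
    (hA : A.LiesOverPrime q) {σ : Γℚ} (hσ : A.IsFrobeniusAt σ q) :
    r.trace σ ^ 2 = ((q : O') + 1) ^ 2 := by
  classical
  have hp : p.Prime := Fact.out
  obtain ⟨M, g, hMN, hg, hgf⟩ := Modular.exists_newform_of_eigenform (NeZero.ne N) hf
  haveI : NeZero M := ⟨fun h0 => NeZero.ne N (zero_dvd_iff.1 (h0 ▸ hMN))⟩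
  set S₁ := insert p (E ∪ N.primeFactors) with hS₁
  have hout : ∀ ℓ : ℕ, ℓ.Prime → ℓ ∉ S₁ → ℓ ∉ E ∧ ¬ ℓ ∣ N := fun ℓ hℓ h => by
    simp only [hS₁, Finset.mem_insert, Finset.mem_union, not_or] at h
    exact ⟨h.2.1, fun hd => h.2.2 (Nat.mem_primeFactors.2 ⟨hℓ, hd, NeZero.ne N⟩)⟩
  have hqS₁ : q ∈ S₁ := Finset.mem_insert_of_mem
    (Finset.mem_union_right _ (Nat.mem_primeFactors.2 ⟨hq, hqN, NeZero.ne N⟩))
  have hMS₁ : ∀ s : ℕ, s.Prime → s ∣ M → s ∈ S₁ := fun s hs hd => Finset.mem_insert_of_mem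
    (Finset.mem_union_right _ (Nat.mem_primeFactors.2 ⟨hs, hd.trans hMN, NeZero.ne N⟩))
  -- the value at `q` when `g` is old there
  have hroot : ¬ q ∣ M → ∃ e : ℤ, e ^ 2 = 1 ∧
      ModularFormClass.qCoeff ⇑g q = (e : ℂ) * ((q : ℂ) + 1) := by
    intro hqM
    obtain ⟨M', hN'⟩ := hqN
    subst hN'
    haveI : NeZero M' := ⟨fun h => NeZero.ne (q * M') (by rw [h, mul_zero])⟩
    have hqM' : ¬ q ∣ M' := fun h => hq2 (by rw [sq]; exact mul_dvd_mul_left q h)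
    have hMM' : M ∣ M' :=
      (((hq.coprime_iff_not_dvd).2 hqM).symm).dvd_of_dvd_mul_left hMN
    have h := Modular.Newforms.qCoeff_root_of_lower hq hqM' hMM' hf hg.1 hgf
    rcases sq_eq_one_iff.1 hu with h1 | h1
    · exact ⟨1, one_pow 2, by rw [h1] at h; push_cast; linear_combination -h⟩
    · exact ⟨-1, neg_one_sq, by rw [h1] at h; push_cast; linear_combination h⟩
  -- the character of `g`
  set S : Finset ℕ := if q ∣ M then S₁ else S₁.erase q with hS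
  have hpS : p ∈ S := by
    rw [hS]
    split_ifs
    · exact Finset.mem_insert_self p _
    · exact Finset.mem_erase.2 ⟨hqp.symm, Finset.mem_insert_self p _⟩
  have hMS : ∀ s : ℕ, s.Prime → s ∣ M → s ∈ S := fun s hs hd => by
    rw [hS]
    split_ifs with h
    · exact hMS₁ s hs hd
    · exact Finset.mem_erase.2 ⟨fun e => h (e ▸ hd), hMS₁ s hs hd⟩
  have hsub : ∀ ℓ : ℕ, ℓ ∉ S → ℓ ∉ S₁ ∨ (ℓ = q ∧ ¬ q ∣ M) := fun ℓ hℓ => by
    by_cases h : ℓ ∈ S₁
    · right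
      rw [hS] at hℓ
      split_ifs at hℓ with hd
      · exact absurd h hℓ
      · exact ⟨not_not.1 fun hne => hℓ (Finset.mem_erase.2 ⟨hne, h⟩), hd⟩
    · exact Or.inl h
  haveI := Modular.heckeAlgebra_moduleFinite M 2 (↑S : Set ℕ)
  obtain ⟨ξ, -, hξT, -⟩ := exists_eigenformCharacter (S := (↑S : Set ℕ)) hg.1
  let tr' : ℕ → O' := fun ℓ =>
    if ℓ = q ∧ ¬ q ∣ M then
      (if h : ¬ q ∣ M then (hroot h).choose else 0 : ℤ) * ((q : O') + 1)
    else tr ℓ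
  have hval : ∀ (ℓ : ℕ) (hℓ : ℓ.Prime) (hℓM : ¬ ℓ ∣ M) (hℓS : ℓ ∉ (↑S : Set ℕ)),
      ι (ξ (CuspForm.heckeAlgebra.T hℓ hℓM hℓS)) = j (tr' ℓ) := by
    intro ℓ hℓ hℓM hℓS
    rcases hsub ℓ (fun h => hℓS h) with h | ⟨rfl, h⟩
    · obtain ⟨hE, hN⟩ := hout ℓ hℓ h
      have hne : ¬ (ℓ = q ∧ ¬ q ∣ M) := fun h' => h (h'.1 ▸ hqS₁)
      rw [show tr' ℓ = tr ℓ from if_neg hne]
      exact hf_tr ℓ hℓ hE hN _ ((hξT ℓ hℓ hℓM hℓS).trans (hgf ℓ hℓ hN))
    · rw [show tr' ℓ = ((hroot h).choose : O') * ((ℓ : O') + 1) from by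
        simp [tr', h]]
      have e : ξ (CuspForm.heckeAlgebra.T hℓ hℓM hℓS) =
          ((hroot h).choose : ZbarC) * ((ℓ : ZbarC) + 1) :=
        Subtype.ext ((hξT ℓ hℓ hℓM hℓS).trans ((hroot h).choose_spec.2.trans (by push_cast; rfl)))
      rw [e, map_mul, map_add, map_intCast, map_natCast, map_one, map_mul, map_add, map_intCast,
        map_natCast, map_one]
  -- values in `O'`
  have hrange : ∀ t, (ι.comp ξ) t ∈ j.range := by
    rintro ⟨t, ht⟩
    induction ht using Algebra.adjoin_induction with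
    | mem x hx =>
      rcases hx with ⟨ℓ, hℓ, hℓM, hℓS, rfl⟩ | ⟨s, hsM, hs, hsS, rfl⟩
      · exact ⟨tr' ℓ, (hval ℓ hℓ hℓM hℓS).symm⟩
      · exact absurd (Finset.mem_coe.2 (hMS s hs hsM)) hsS
    | algebraMap m => exact ⟨(m : O'), by
        rw [map_intCast]
        exact (map_intCast (ι.comp ξ) m).symm.trans (congrArg _ (by simp; rfl))⟩
    | add x y hx' hy' hx hy =>
      exact (map_add (ι.comp ξ) ⟨x, hx'⟩ ⟨y, hy'⟩).symm ▸ add_mem hx hy
    | mul x y hx' hy' hx hy =>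
      exact (map_mul (ι.comp ξ) ⟨x, hx'⟩ ⟨y, hy'⟩).symm ▸ mul_mem hx hy
  let χ₀ : CuspForm.heckeAlgebra M 2 (↑S : Set ℕ) →+* O' :=
    ((RingEquiv.ofBijective j.rangeRestrict ⟨fun a b h => hj (congrArg Subtype.val h),
      j.rangeRestrict_surjective⟩).symm.toRingHom).comp ((ι.comp ξ).codRestrict j.range hrange)
  have hχ₀ : ∀ t, j (χ₀ t) = ι (ξ t) := fun t =>
    congrArg Subtype.val ((RingEquiv.ofBijective j.rangeRestrict ⟨fun a b h =>
      hj (congrArg Subtype.val h), j.rangeRestrict_surjective⟩).apply_symm_apply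
        ((ι.comp ξ).codRestrict j.range hrange t))
  have hχT : ∀ (ℓ : ℕ) (hℓ : ℓ.Prime) (hℓM : ¬ ℓ ∣ M) (hℓS : ℓ ∉ (↑S : Set ℕ)),
      χ₀ (CuspForm.heckeAlgebra.T hℓ hℓM hℓS) = tr' ℓ := fun ℓ hℓ hℓM hℓS =>
    hj ((hχ₀ _).trans (hval ℓ hℓ hℓM hℓS))
  have htr' : ∀ ℓ : ℕ, ℓ.Prime → ℓ ∉ S₁ → tr' ℓ = tr ℓ := fun ℓ _ hℓ =>
    if_neg fun h : ℓ = q ∧ ¬ q ∣ M => hℓ (h.1 ▸ hqS₁)
  have hr' : ∀ ℓ : ℕ, ℓ.Prime → ℓ ∉ S₁ → ∀ P : ValuationSubring Qbar, P.LiesOverPrime ℓ →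
      ∀ τ : Γℚ, P.IsFrobeniusAt τ ℓ → r.trace τ = tr' ℓ := fun ℓ hℓ hℓS P hP τ hτ => by
    rw [htr' ℓ hℓ hℓS]
    exact hr ℓ hℓ (hout ℓ hℓ hℓS).1 P hP τ hτ
  have hS_of : ∀ ℓ, ℓ ∉ S₁ → ℓ ∉ (↑S : Set ℕ) := fun ℓ h hS' => h (by
    have hS'' : ℓ ∈ S := hS'
    rw [hS] at hS''
    split_ifs at hS'' with hd
    · exact hS''
    · exact (Finset.mem_erase.1 hS'').2)
  by_cases hqM : q ∣ M
  · -- new at `q`
    let chig : CuspForm.heckeAlgebra M 2 (↑S : Set ℕ) →+* ℂ :=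
      (integralClosure ℤ ℂ).val.toRingHom.comp ξ
    have hker : RingHom.ker chig.rangeRestrict ≤ RingHom.ker χ₀ := fun t ht => by
      have h1 : chig t = 0 := congrArg Subtype.val (RingHom.mem_ker.1 ht)
      have h0 : ξ t = 0 := Subtype.ext h1
      refine RingHom.mem_ker.2 (hj ?_)
      rw [hχ₀, h0, map_zero, map_zero]
    let iota : chig.range →+* O' :=
      RingHom.liftOfSurjective chig.rangeRestrict chig.rangeRestrict_surjective ⟨χ₀, hker⟩
    have hiota : ∀ t, iota (chig.rangeRestrict t) = χ₀ t := fun t =>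
      RingHom.liftOfRightInverse_comp_apply _ _ _ _ t
    obtain ⟨O'', _, _, _, _, _, _, _, _, _, hinj, ρ, hcp, hbad⟩ := h35 hg p S O' hdet.1 chig
      (fun ℓ hℓ hℓM hℓS => hξT ℓ hℓ hℓM hℓS) iota hpS hMS
    refine trace_sq_of_attached hdet hinj ρ S₁ tr' hr' (fun ℓ hℓ hℓS P hP τ hτ => ?_) σ ?_
    · have hℓM : ¬ ℓ ∣ M := fun hd => hℓS (hMS₁ ℓ hℓ hd)
      rw [hcp ℓ hℓ hℓM (hS_of ℓ hℓS) P hP τ hτ, RingHom.comp_apply, hiota, hχT]
    · have hq2M : ¬ q ^ 2 ∣ M := fun hd => hq2 (hd.trans hMN)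
      rw [map_pow, map_add, map_natCast, map_one]
      rcases hbad q hq hqp hqM hq2M A hA σ hσ with h | h
      · rw [(det_of_charpoly_eq ρ h).2]
      · have h' : LinearMap.charpoly (ρ.ρ σ) =
            X ^ 2 - C (-((q : O'') + 1)) * X + C (q : O'') := by
          rw [h, map_neg, neg_mul, sub_neg_eq_add]
        rw [(det_of_charpoly_eq ρ h').2, neg_sq]
  · -- old at `q`
    obtain ⟨O'', _, _, _, _, _, _, _, _, _, hinj, ρ, hcp, -⟩ :=
      hattach p M S hpS hMS O' hdet.1 χ₀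
    refine trace_sq_of_attached hdet hinj ρ S₁ tr' hr' (fun ℓ hℓ hℓS P hP τ hτ => ?_) σ ?_
    · rw [hcp ℓ hℓ (fun hd => hℓS (hMS₁ ℓ hℓ hd)) (hS_of ℓ hℓS) P hP τ hτ, hχT]
    · have hqS : q ∉ (↑S : Set ℕ) := by
        rw [hS, if_neg hqM]
        simp
      rw [(det_of_charpoly_eq ρ (hcp q hq hqM hqS A hA σ hσ)).2, hχT, ← map_pow]
      refine congrArg _ ?_
      have he : ((hroot hqM).choose : O') ^ 2 = 1 := by
        exact_mod_cast congrArg (Int.cast : ℤ → O') (hroot hqM).choose_spec.1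
      simp only [tr', hqM, not_false_eq_true, and_self, if_true, dif_pos]
      rw [mul_pow, he, one_mul]

end FermatLib.MLT.Odd

end
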