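import Fermat.Agent.MLT.Odd.GlueModular
import Fermat.Agent.MLT.Hecke.GammaH
import Fermat.Agent.Modular.TwistSystemCusp
import Fermat.Agent.Modular.HeckeAction

/-!
# A nonzero localised module gives a residual point of the Hecke algebra of cusp forms

`T l - (l + 1)`, `l ≡ 1 (mod N)`, makes classes cuspidal, so a residual system which is not
Eisenstein and occurs in `H¹(Γ₀(N), O)` kills the Hecke polynomials that kill the cusp forms.
-/

set_option autoImplicit false
set_option linter.style.haveILetI false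

noncomputable section

open scoped MatrixGroups
open CongruenceSubgroup MvPolynomial

namespace FermatLib.MLT

variable {N : ℕ} [NeZero N] {O : Type} [CommRing O]

omit [NeZero N] in
/-- Hecke polynomials with integer coefficients on classes and on homomorphisms. -/
theorem exists_smul_mk_eq_heckeHomEval (P : ModularCurve.HeckeAlg)
    (c : bettiCocycles (Gamma0 N) (nebenChar (1 : (ZMod N)ˣ →* Oˣ)) O) :
    ∃ c' : bettiCocycles (Gamma0 N) (nebenChar (1 : (ZMod N)ˣ →* Oˣ)) O,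
      MvPolynomial.map (Int.castRingHom O) P • BettiMod.mk c = BettiMod.mk c' ∧
      glueHom c' = Modular.heckeHomEval N O O P (glueHom c) := by
  induction P using MvPolynomial.induction_on generalizing c with
  | C a =>
    refine ⟨(a : O) • c, ?_, ?_⟩
    · rw [map_C, ← MvPolynomial.algebraMap_eq, algebraMap_smul, map_smul, eq_intCast]
    · rw [Modular.heckeHomEval_C_apply]
      refine AddMonoidHom.ext fun g => ?_
      show (a : O) • (c : Gamma0 N → O) (Additive.toMul g) = a • glueHom c g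
      rw [Int.cast_smul_eq_zsmul]
      rfl
  | add P Q hP hQ =>
    obtain ⟨c₁, h₁, h₁'⟩ := hP c
    obtain ⟨c₂, h₂, h₂'⟩ := hQ c
    refine ⟨c₁ + c₂, by rw [map_add, add_smul, h₁, h₂, map_add], ?_⟩
    rw [map_add, LinearMap.add_apply, ← h₁', ← h₂']
    exact AddMonoidHom.ext fun g => rfl
  | mul_X P p hP =>
    obtain ⟨c', h, h'⟩ :=
      hP ((bettiHeckeSystem N p).transferCocycles O (isWeight_heckeWeight 1 p) c)
    refine ⟨c', ?_, ?_⟩
    · rw [map_mul, map_X, mul_smul, X_smul_mk_eq p c _ (glueHom_transferCocycles c p), h]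
    · rw [h', map_mul, Module.End.mul_apply, Modular.heckeHomEval_X_apply,
        glueHom_transferCocycles]

variable [IsDomain O] [CharZero O]

/-- `T l - (l + 1)` makes homomorphisms cuspidal, for a prime `l ≡ 1 (mod N)`. -/
theorem isCuspidalHom_heckeHomEval_sub (l : Nat.Primes) (hl : ((l : ℕ) : ZMod N) = 1)
    (φ : Additive (Gamma0 N) →+ O) :
    Modular.IsCuspidalHom
      (Modular.heckeHomEval N O O (X l - C (((l : ℕ) : ℤ) + 1)) φ) := by
  set ψ := Modular.heckeHomEval N O O (X l - C (((l : ℕ) : ℤ) + 1)) φ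
  refine Modular.isCuspidalHom_of_isParabolicHom fun γ hγ => ?_
  obtain ⟨g, m, hg⟩ := Modular.exists_eq_conj_of_trace_sq_eq_four hγ
  have hmem : g * ModularGroup.T ^ (N : ℤ) * g⁻¹ ∈ Gamma0 N := by
    have h1 : g * ModularGroup.T ^ (N : ℤ) * g⁻¹ ∈ Gamma N :=
      (Gamma_normal N).conj_mem _ (ModularGroup_T_pow_mem_Gamma N N dvd_rfl) g
    exact Gamma0_mem.2 (Gamma_mem.1 h1).2.2.1
  set u : Gamma0 N := ⟨_, hmem⟩ with hu
  have h0 : ψ (Additive.ofMul u) = 0 := by
    simp only [ψ, map_sub, LinearMap.sub_apply, AddMonoidHom.sub_apply,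
      Modular.heckeHomEval_X_apply, Modular.heckeHomEval_C_apply,
      Modular.Twist.heckeHomOp_apply_conj_T (R := O) l hl g u rfl φ]
    rw [AddMonoidHom.smul_apply, zsmul_eq_mul, nsmul_eq_mul]
    push_cast
    ring
  have hsq : (γ ^ 2) ^ (N : ℤ) = u ^ (2 * m) := by
    refine Subtype.ext ?_
    have hg2 : (γ : SL(2, ℤ)) ^ 2 = g * ModularGroup.T ^ (2 * m) * g⁻¹ := by
      rw [two_mul, zpow_add, pow_two]
      rcases hg with h | h <;> rw [h]
      · group
      · rw [neg_mul_neg]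
        group
    rw [SubgroupClass.coe_zpow, SubgroupClass.coe_zpow, SubmonoidClass.coe_pow, hg2]
    show _ = (g * ModularGroup.T ^ (N : ℤ) * g⁻¹) ^ (2 * m)
    rw [conj_zpow, conj_zpow, ← zpow_mul, ← zpow_mul, mul_comm]
  have h3 := congrArg (fun z => ψ (Additive.ofMul z)) hsq
  simp only [ofMul_zpow, ofMul_pow, map_zsmul, map_nsmul, h0, smul_zero] at h3
  simpa [NeZero.ne N] using h3

/-- A polynomial killing the cusp forms, times `T l - (l + 1)`, kills `H¹(Γ₀(N), O)`. -/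
theorem map_mul_sub_smul_eq_zero {P : ModularCurve.HeckeAlg}
    (hP : CuspForm.heckeEvalForms N 2 P = 0) (l : Nat.Primes) (hl : ((l : ℕ) : ZMod N) = 1)
    (x : BettiMod N (1 : (ZMod N)ˣ →* Oˣ) O) :
    MvPolynomial.map (Int.castRingHom O) (P * (X l - C (((l : ℕ) : ℤ) + 1))) • x = 0 := by
  obtain ⟨c, rfl⟩ := BettiMod.mk_surjective x
  obtain ⟨c', h, h'⟩ := exists_smul_mk_eq_heckeHomEval (P * (X l - C (((l : ℕ) : ℤ) + 1))) c
  rw [h, bettiModMk_one_eq_zero]
  rw [map_mul, Module.End.mul_apply,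
    Modular.heckeHomEval_eq_zero hP (isCuspidalHom_heckeHomEval_sub l hl (glueHom c))] at h'
  exact Subtype.ext (funext fun γ => DFunLike.congr_fun h' (Additive.ofMul γ))

variable {k : Type} [Field k] {Pr : Set Nat.Primes} {θ : BettiHeckeAlg O →+* k}

/-- **The residual point of a nonzero module of trivial character.** -/
theorem exists_residual_point_of_nontrivial {E : Set ℕ}
    (hPr : ∀ l : Nat.Primes, ¬ (l : ℕ) ∣ N → (l : ℕ) ∉ E → l ∈ Pr)
    (hE : ∀ r : ℕ, r.Prime → r ∣ N → r ∈ E)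
    (l₀ : Nat.Primes) (hl₀ : l₀ ∈ Pr) (hl1 : ((l₀ : ℕ) : ZMod N) = 1)
    (hne : θ (X l₀) ≠ ((l₀ : ℕ) : k) + 1) [Nontrivial (GammaHBase O Pr θ N)] :
    ∃ θ' : ↥(CuspForm.heckeAlgebra N 2 E) →+* k,
      ∀ (ℓ : ℕ) (hℓ : ℓ.Prime) (hN : ¬ ℓ ∣ N) (hℓE : ℓ ∉ E),
        θ' (CuspForm.heckeAlgebra.T hℓ hN hℓE) = θ (X ⟨ℓ, hℓ⟩) := by
  classical
  let T := supported ℤ Pr
  let ev : T →+* ↥(CuspForm.heckeAlgebra N 2 (∅ : Set ℕ)) :=
    (CuspForm.heckeEvalForms N 2).comp T.val.toRingHom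
  let θz : T →+* k := (θ.comp (MvPolynomial.map (Int.castRingHom O))).comp T.val.toRingHom
  have hmap : ∀ P ∈ T, MvPolynomial.map (Int.castRingHom O) P ∈ supported O Pr := by
    intro P hP
    induction hP using Algebra.adjoin_induction with
    | mem x hx => obtain ⟨l, hl, rfl⟩ := hx; rw [map_X]; exact X_mem_supported_set hl
    | algebraMap a =>
      rw [MvPolynomial.algebraMap_eq, map_C]
      exact C_mem_supported_set Pr _
    | add x y _ _ hx hy => rw [map_add]; exact add_mem hx hy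
    | mul x y _ _ hx hy => rw [map_mul]; exact mul_mem hx hy
  have hker : RingHom.ker ev.rangeRestrict ≤ RingHom.ker θz := by
    rintro ⟨P, hP⟩ hP0
    have hP0' : CuspForm.heckeEvalForms N 2 P = 0 := congrArg Subtype.val (RingHom.mem_ker.1 hP0)
    rw [RingHom.mem_ker]
    by_contra hθ
    have hmem : MvPolynomial.map (Int.castRingHom O) (P * (X l₀ - C (((l₀ : ℕ) : ℤ) + 1))) ∈
        bettiResidualSubmonoid Pr θ := by
      refine mem_bettiResidualSubmonoid.2 ⟨hmap _ (T.mul_mem hP (T.sub_mem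
        (X_mem_supported_set hl₀) (C_mem_supported_set Pr _))), ?_⟩
      rw [map_mul, map_mul]
      refine mul_ne_zero hθ ?_
      rw [map_sub, map_sub, map_X, map_C, map_add, map_natCast, map_one, map_add, map_natCast,
        map_one, map_add, map_natCast, map_one, sub_ne_zero]
      exact hne
    refine not_subsingleton (GammaHBase O Pr θ N) ⟨fun a b => ?_⟩
    suffices h : ∀ z : GammaHBase O Pr θ N, z = 0 by rw [h a, h b]
    intro z
    induction z using LocalizedModule.induction_on with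
    | h x s =>
      rw [← LocalizedModule.zero_mk s, LocalizedModule.mk_eq]
      refine ⟨⟨_, hmem⟩, ?_⟩
      simp only [Submonoid.smul_def, smul_zero]
      rw [smul_comm, map_mul_sub_smul_eq_zero hP0' l₀ hl1 x, smul_zero]
  let φ : ev.range →+* k :=
    RingHom.liftOfSurjective ev.rangeRestrict ev.rangeRestrict_surjective ⟨θz, hker⟩
  have hφ : ∀ P, φ (ev.rangeRestrict P) = θz P := fun P =>
    RingHom.liftOfRightInverse_comp_apply _ _ _ _ P
  let incl := Subalgebra.inclusion (CuspForm.heckeAlgebra_mono (N := N) (k := 2) (Set.empty_subset E))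
  have hgen : ∀ (ℓ : ℕ) (hℓ : ℓ.Prime) (hN : ¬ ℓ ∣ N) (hℓE : ℓ ∉ E),
      ev ⟨X ⟨ℓ, hℓ⟩, X_mem_supported_set (hPr ⟨ℓ, hℓ⟩ hN hℓE)⟩ =
        incl (CuspForm.heckeAlgebra.T hℓ hN hℓE) := fun ℓ hℓ hN hℓE => by
    refine (CuspForm.heckeEvalForms_heckeGen_of_not_dvd (ℓ := ⟨ℓ, hℓ⟩) hN).trans (Subtype.ext ?_)
    exact (CuspForm.heckeAlgebra.coe_T (S := (∅ : Set ℕ)) hℓ hN (Set.notMem_empty ℓ)).trans
      (CuspForm.heckeAlgebra.coe_T hℓ hN hℓE).symm
  have hrange : ∀ t, incl t ∈ ev.range := by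
    rintro ⟨t, ht⟩
    induction ht using Algebra.adjoin_induction with
    | mem x hx =>
      rcases hx with ⟨ℓ, hℓ, hN, hℓE, rfl⟩ | ⟨r, hrN, hr, hrE, rfl⟩
      · exact ⟨_, hgen ℓ hℓ hN hℓE⟩
      · exact absurd (hE r hr hrN) hrE
    | algebraMap a => exact (incl.commutes a).symm ▸ intCast_mem ev.range a
    | add x y hx' hy' hx hy =>
      exact (map_add incl ⟨x, hx'⟩ ⟨y, hy'⟩).symm ▸ add_mem hx hy
    | mul x y hx' hy' hx hy =>
      exact (map_mul incl ⟨x, hx'⟩ ⟨y, hy'⟩).symm ▸ mul_mem hx hy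
  refine ⟨φ.comp (incl.toRingHom.codRestrict ev.range hrange), fun ℓ hℓ hN hℓE => ?_⟩
  have e : incl.toRingHom.codRestrict ev.range hrange (CuspForm.heckeAlgebra.T hℓ hN hℓE) =
      ev.rangeRestrict ⟨X ⟨ℓ, hℓ⟩, X_mem_supported_set (hPr ⟨ℓ, hℓ⟩ hN hℓE)⟩ :=
    Subtype.ext (hgen ℓ hℓ hN hℓE).symm
  rw [RingHom.comp_apply, e, hφ]
  exact congrArg θ (map_X (Int.castRingHom O) (⟨ℓ, hℓ⟩ : Nat.Primes))

end FermatLib.MLT

end
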