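import Fermat.Agent.MLT.Odd.SupplyModulesRank
import Fermat.Agent.MLT.Odd.SupplyZeroEigen
import Fermat.Agent.MLT.Odd.SupplyZeroExit
import Fermat.Agent.MLT.Odd.SupplyZeroDescent
import Fermat.Agent.MLT.Odd.SupplyZeroSeed
import Fermat.Agent.MLT.Odd.HeckeRepNonEisenstein

/-!
# Without a minimal seed every system is special at a prime of `T`, from the inputs

The point of a system is an eigenclass of level `S.level ∏ Q`.  Removing the primes of `T` one at a
time either reaches the level `∏ Smin ∏ Q`, where the module is then nonzero and gives a minimal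
seed, or stops at some `q` with `U q ^ 2 = χ q`, which makes the system special at `q`.
-/

set_option autoImplicit false
set_option linter.style.haveILetI false
set_option linter.unusedSectionVars false

noncomputable section

open CongruenceSubgroup MvPolynomial
open IsLocalRing

namespace FermatLib.MLT.Odd

local notation "Γℚ" => (AlgebraicClosure ℚ ≃ₐ[ℚ] AlgebraicClosure ℚ)
local notation "Qbar" => AlgebraicClosure ℚ

variable {O : Type} [CommRing O] [IsDomain O] [IsDiscreteValuationRing O]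
  [IsAdicComplete (maximalIdeal O) O] [Finite (ResidueField O)] [CharZero O] {p : ℕ}
  [Fact p.Prime] {ρbar : ResidualGaloisRep (ResidueField O)} {S : OddPrimes p ρbar}
  {tp : S.TamePairs} {P : SupplyParams S tp} {Q : Finset ℕ} {r e : ℕ}

namespace SupplyLevel

variable (C : SupplyLevel P Q r e)

/-- The elliptic elements are harmless at every level. -/
theorem ellipticHarmless_any (hp2 : p ≠ 2) (hpO : (p : O) ∈ maximalIdeal O) (L : ℕ) :
    EllipticHarmless L S.supplyPrimes (C.theta .std) := by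
  have h2 : NoEllipticTwo O L := Or.inl (supply_isUnit_two hp2 hpO)
  rcases P.ell_spec with h | ⟨h3, hθ⟩
  · exact Or.inl ⟨h2, Or.inl h⟩
  · refine Or.inr (Or.inl ⟨h2, P.ell, Or.inl P.ell_good, h3, ?_⟩)
    rwa [theta, residualRaiseSet_X_of_notMem _ _ C.ell_notMem,
      baseTheta_X_of_not_dvd P .std P.ell_good]

/-- The character `ω i` of the systems at `qv i`. -/
def omega {K : Type} [Field K] [Algebra (DiamondRing O C.Δ) K] (i : Fin r) :
    (ZMod (C.qv i))ˣ →* Kˣ :=
  (Units.map (algebraMap (DiamondRing O C.Δ) K : DiamondRing O C.Δ →* K)).comp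
    ((MonoidAlgebra.of O C.Δ).toHomUnits.comp
      ((MonoidHom.mulSingle (fun _ : Fin r => Multiplicative (ZMod (p ^ e))) i).comp (C.f i)))

theorem coe_omega {K : Type} [Field K] [Algebra (DiamondRing O C.Δ) K] (i : Fin r)
    (u : (ZMod (C.qv i))ˣ) : (C.omega (K := K) i u : K) =
      algebraMap (DiamondRing O C.Δ) K (MonoidAlgebra.of O C.Δ (Pi.mulSingle i (C.f i u))) := rfl

theorem omega_pow {K : Type} [Field K] [Algebra (DiamondRing O C.Δ) K] (i : Fin r)
    (u : (ZMod (C.qv i))ˣ) : C.omega (K := K) i u ^ p ^ (e + 1) = 1 := by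
  refine Units.ext ?_
  rw [Units.val_pow_eq_pow_val, coe_omega, Units.val_one, ← map_pow, ← map_pow, ← Pi.mulSingle_pow]
  have h : C.f i u ^ p ^ (e + 1) = 1 := by
    rw [← ofAdd_toAdd (C.f i u), ← ofAdd_nsmul, nsmul_eq_mul]
    have h0 : ((p ^ (e + 1) : ℕ) : ZMod (p ^ e)) = 0 :=
      (ZMod.natCast_eq_zero_iff _ _).2 (pow_dvd_pow p (Nat.le_succ e))
    rw [h0, zero_mul, ofAdd_zero]
  rw [h, Pi.mulSingle_one, map_one, map_one]

/-- The diamond character over the field. -/
theorem qvChar_omega {K : Type} [Field K] [Algebra (DiamondRing O C.Δ) K] {L : ℕ}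
    (h : ∀ i, C.qv i ∣ L) {χ : (ZMod L)ˣ →* Oˣ} (hχ : χ = 1) :
    bettiBaseChar K (charDiamond O χ (MonoidHom.pi fun i => (C.f i).comp (ZMod.unitsMap (h i)) :
      (ZMod L)ˣ →* C.Δ)) = qvChar (C.omega (K := K)) L h := by
  refine MonoidHom.ext fun u => Units.ext ?_
  subst hχ
  rw [coe_bettiBaseChar, coe_charDiamond, MonoidHom.one_apply, Units.val_one, map_one, one_mul,
    qvChar_apply, Units.coe_prod]
  simp only [coe_omega]
  rw [← map_prod, ← map_prod]
  exact congrArg _ (congrArg _ (Finset.univ_prod_mulSingle _).symm)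

theorem residual_degree (hpO : (p : O) ∈ maximalIdeal O) {L : ℕ} (χ : (ZMod L)ˣ →* Oˣ)
    (hχ : χ = 1) (hL : ¬ (P.lne : ℕ) ∣ L) :
    C.theta .std (X P.lne) ≠ C.theta .std (MvPolynomial.C (heckeDegree χ P.lne)) := by
  subst hχ
  rw [theta, residualRaiseSet_X_of_notMem _ _ C.lne_notMem,
    baseTheta_X_of_not_dvd P .std P.lne_good, residualRaiseSet_C, baseTheta_C,
    residue_heckeDegree (fun d => by simp) P.lne hL]
  exact P.lne_spec

theorem lne_not_dvd {N : ℕ} (hN : ∀ q : ℕ, q.Prime → q ∣ N → q ∣ p * S.level) :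
    ¬ (P.lne : ℕ) ∣ N * ∏ i, C.qv i := fun h => by
  rcases P.lne.2.dvd_mul.1 h with h | h
  · exact P.lne_good (hN _ P.lne.2 h)
  · obtain ⟨i, -, hi⟩ := (Prime.dvd_finsetProd_iff P.lne.2.prime _).1 h
    exact C.lne_notMem
      (C.mem_qPrimes.2 ⟨i, ((Nat.prime_dvd_prime_iff_eq P.lne.2 (C.prime i)).1 hi).symm⟩)

/-- **The module of level `N ∏ Q` gives the module of level `N`.** -/
theorem nontrivial_base_of_module (hp2 : p ≠ 2) (hpO : (p : O) ∈ maximalIdeal O) {N : ℕ} [NeZero N]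
    (hN : ∀ q : ℕ, q.Prime → q ∣ N → q ∣ p * S.level) (hNdvd : N ∣ N * ∏ i, C.qv i)
    (h : ∀ i, C.qv i ∣ N * ∏ i, C.qv i) [NeZero (N * ∏ i, C.qv i)]
    (hnt : Nontrivial (GammaHCharMod O ((1 : (ZMod N)ˣ →* Oˣ).comp (ZMod.unitsMap hNdvd))
      (MonoidHom.pi fun i => (C.f i).comp (ZMod.unitsMap (h i)) :
        (ZMod (N * ∏ i, C.qv i))ˣ →* C.Δ) S.supplyPrimes (C.theta .std))) :
    Nontrivial (GammaHBase O S.supplyPrimes (P.baseTheta .std) N) := by
  haveI : NeZero (p ^ e) := ⟨pow_ne_zero _ (Fact.out : p.Prime).ne_zero⟩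
  haveI := diamond_isLocalRing O C.Δ hpO (isPGroup_twGroup r)
  have hndvd : ∀ q ∈ C.qPrimes, ¬ (q : ℕ) ∣ p * S.level := fun q hq => by
    obtain ⟨i, hi⟩ := C.mem_qPrimes.1 hq
    exact hi ▸ C.not_dvd_qv i
  have hQ : ∀ q ∈ C.qPrimes, ¬ (q : ℕ) ∣ N := fun q hq hd => hndvd q hq (hN _ q.2 hd)
  have hone : ∀ q ∈ C.qPrimes, ((q : ℕ) : ResidueField O) = 1 := fun q hq => by
    obtain ⟨i, hi⟩ := C.mem_qPrimes.1 hq
    obtain ⟨c, hc⟩ := C.one_mod i
    rw [← hi, show C.qv i = p * c + 1 by have := (C.prime i).one_le; omega, Nat.cast_add,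
      Nat.cast_mul, supply_residue_natCast hpO, zero_mul, zero_add, Nat.cast_one]
  have hαq : ∀ q ∈ C.qPrimes, C.rootFun q ^ 2 - P.baseTheta .std (X q) * C.rootFun q + 1 = 0 ∧
      2 * C.rootFun q ≠ P.baseTheta .std (X q) := fun q hq => by
    obtain ⟨i, hi⟩ := C.mem_qPrimes.1 hq
    obtain rfl : q = ⟨C.qv i, C.prime i⟩ := Subtype.ext hi.symm
    rw [baseTheta_X_of_not_dvd P .std (hndvd _ hq), C.rootFun_qv]
    exact ⟨C.α_root i, C.α_simple i⟩
  have hα0 : ∀ q ∈ C.qPrimes, C.rootFun q ≠ 0 := fun q hq h0 => by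
    have := (hαq q hq).1
    rw [h0] at this
    simp at this
  have hnew : ∀ (q : Nat.Primes) (hq : q ∈ C.qPrimes), C.rootFun q ^ 2 ≠ P.baseTheta .std
      (MvPolynomial.C ((1 : (ZMod N)ˣ →* Oˣ) (levelUnit (hQ q hq)) : O)) := fun q hq => by
    rw [baseTheta_C, MonoidHom.one_apply, Units.val_one, map_one]
    intro h2
    refine (hαq q hq).2 (mul_right_cancel₀ (hα0 q hq) ?_)
    linear_combination (hαq q hq).1 + h2
  obtain ⟨φ, g, -, -, -, -, -, -, -, hfree⟩ := exists_gammaHChar_levelMap O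
    (MonoidHom.pi fun i => (C.f i).comp (ZMod.unitsMap (h i)) :
      (ZMod (N * ∏ i, C.qv i))ˣ →* C.Δ)
    S.supplyPrimes (P.baseTheta .std) (fun a ha => by
      rw [baseTheta_C]; exact (residue_eq_zero_iff _).2 ha)
    (map_neg_one_of_odd ((Fact.out : p.Prime).odd_of_ne_two hp2).pow _)
    (1 : (ZMod N)ˣ →* Oˣ) hNdvd (fun c =>
      (residue_surjective c).imp fun a ha => (baseTheta_C P .std a).trans ha)
    C.qPrimes (by rw [C.prod_qPrimes]) hQ (fun q hq => Or.inl (hndvd q hq)) C.rootFun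
    (fun q hq => by
      rw [baseTheta_C, MonoidHom.one_apply, Units.val_one, mul_one, map_natCast, hone q hq]
      exact (hαq q hq).1)
    hα0 (fun q hq => (hαq q hq).2) hnew rfl (C.ellipticHarmless_any hp2 hpO _)
  obtain ⟨h1, h2, h3, hrank⟩ := hfree p hpO (isPGroup_twGroup r) P.lne (Or.inl P.lne_good)
    C.lne_notMem (by
      rw [baseTheta_X_of_not_dvd P .std P.lne_good, baseTheta_C,
        residue_heckeDegree (fun d => by simp) P.lne (C.lne_not_dvd hN)]
      exact P.lne_spec)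
  haveI := h1
  haveI := h2
  haveI := hnt
  refine Module.nontrivial_of_finrank_pos (R := O)
    (M := BettiResLoc (1 : (ZMod N)ˣ →* Oˣ) S.supplyPrimes (P.baseTheta .std)) ?_
  rw [← hrank]
  exact (Module.finrank_pos_iff_of_free _ _).2 hnt

end SupplyLevel

/-- The diamonds and the good operators as polynomials in the operators at `S.supplyPrimes`. -/
theorem polys_le_supported (C : SupplyLevel P Q r e) :
    C.polys .std ≤ (supported (DiamondRing O C.Δ) S.supplyPrimes).restrictScalars O := by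
  refine Algebra.adjoin_le ?_
  rintro z (⟨g, rfl⟩ | ⟨l, ⟨hl, hlE⟩, rfl⟩)
  · exact C_mem_supported_set _ _
  · show C.opT .std l ∈ supported (DiamondRing O C.Δ) S.supplyPrimes
    rw [SupplyLevel.opT, dif_pos hl]
    refine mul_mem (C_mem_supported_set _ _) (X_mem_supported_set (Or.inl fun hd => hlE ?_))
    refine Nat.mem_primeFactors.2 ⟨hl, hd.trans (mul_dvd_mul_left p ?_),
      mul_ne_zero (Fact.out : p.Prime).ne_zero (NeZero.ne _)⟩
    exact dvd_mul_right _ _

/-- A point of a subring of operators extends to a point killing the annihilator. -/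
theorem exists_ringHom_extends_action {B R M K : Type} [CommRing B] [Algebra O B] [CommRing R]
    [Algebra O R] [AddCommGroup M] [Module O M] [Module.Finite O M] [Field K] [IsAlgClosed K]
    (act : B →ₐ[O] Module.End O M) (i : R →ₐ[O] B) (θ : R →+* K)
    (hθ : ∀ x, act (i x) = 0 → θ x = 0) :
    ∃ ν : B →+* K, (∀ x, ν (i x) = θ x) ∧ ∀ z, act z = 0 → ν z = 0 := by
  let I : Ideal B := RingHom.ker act
  let J : Ideal R := I.comap i.toRingHom
  let q : (R ⧸ J) →+* B ⧸ I := Ideal.quotientMap I i.toRingHom le_rfl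
  have hq : Function.Injective q := Ideal.quotientMap_injective' (h := le_rfl)
  letI := q.toAlgebra
  haveI : Algebra.IsIntegral (R ⧸ J) (B ⧸ I) := ⟨fun x => by
    obtain ⟨t, rfl⟩ := Ideal.Quotient.mk_surjective x
    obtain ⟨f, hfm, hf⟩ := LinearMap.exists_monic_and_aeval_eq_zero O (act t)
    refine ⟨f.map (algebraMap O (R ⧸ J)), hfm.map _, ?_⟩
    rw [Polynomial.eval₂_map]
    have hmem : Polynomial.aeval t f ∈ I := by
      rw [RingHom.mem_ker, ← Polynomial.aeval_algHom_apply]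
      exact hf
    have h0 := Ideal.Quotient.eq_zero_iff_mem.2 hmem
    rw [Polynomial.aeval_def, Polynomial.hom_eval₂] at h0
    rw [← h0]
    refine congrArg (fun g => Polynomial.eval₂ g _ f) (RingHom.ext fun c => ?_)
    show q (Ideal.Quotient.mk J (algebraMap O R c)) = _
    rw [Ideal.quotientMap_mk]
    exact congrArg _ (i.commutes c)⟩
  let θ' : (R ⧸ J) →+* K := Ideal.Quotient.lift J θ fun x hx => hθ x (RingHom.mem_ker.1 hx)
  obtain ⟨ι, hι⟩ := Modular.Twist.exists_ringHom_extends_field (A := R ⧸ J) (B := B ⧸ I) hq θ'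
  refine ⟨ι.comp (Ideal.Quotient.mk I), fun x => ?_, fun z hz => ?_⟩
  · exact RingHom.congr_fun hι (Ideal.Quotient.mk J x)
  · rw [RingHom.comp_apply, (Ideal.Quotient.eq_zero_iff_mem (I := I)).2
      (RingHom.mem_ker.2 hz), map_zero]

/-- **The point of a system as a point of all the operators at `S.supplyPrimes`.** -/
theorem exists_point_extension (hp2 : p ≠ 2) (hpO : (p : O) ∈ maximalIdeal O)
    (C : SupplyLevel P Q r e) {O' : Type} [CommRing O'] [IsDomain O'] [Algebra O O']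
    (ev : C.hecke .std →ₐ[O] O') {K : Type} [Field K] [IsAlgClosed K] (jK : O' →+* K) :
    ∃ ν : ↥(supported (DiamondRing O C.Δ) S.supplyPrimes) →+* K,
      (∀ (x : C.polys .std), ν ⟨x, polys_le_supported C x.2⟩ = jK (ev (C.toHecke .std x))) ∧
      ∀ z : ↥(supported (DiamondRing O C.Δ) S.supplyPrimes),
        (∀ m : C.Mod .std, (z : BettiHeckeAlg (DiamondRing O C.Δ)) • m = 0) → ν z = 0 := by
  haveI : Module.Finite (DiamondRing O C.Δ) (C.Mod .std) := (C.free_mod hp2 hpO .std).2.1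
  haveI : NeZero (p ^ e) := ⟨pow_ne_zero _ (Fact.out : p.Prime).ne_zero⟩
  haveI : Module.Finite O (C.Mod .std) := Module.Finite.trans (DiamondRing O C.Δ) (C.Mod .std)
  let B := supported (DiamondRing O C.Δ) S.supplyPrimes
  let i : C.polys .std →ₐ[O] B :=
    Subalgebra.inclusion (T := B.restrictScalars O) (polys_le_supported C)
  let act : B →ₐ[O] Module.End O (C.Mod .std) :=
    (Algebra.lsmul O O (C.Mod .std)).comp (B.val.restrictScalars O)
  obtain ⟨ν, hν, hνk⟩ := exists_ringHom_extends_action (B := ↥B) (R := ↥(C.polys .std))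
    (M := C.Mod .std) act i
    (jK.comp (ev.toRingHom.comp (C.toHecke .std).toRingHom)) fun x hx => by
      show jK (ev (C.toHecke .std x)) = 0
      rw [show C.toHecke .std x = 0 from Subtype.ext (by exact hx), map_zero, map_zero]
  exact ⟨ν, hν, fun z hz => hνk z (LinearMap.ext hz)⟩

section Systems

variable {C : SupplyLevel P Q r e}

theorem supplyPrimes_of_notMem_exc {l : ℕ} (hl : l.Prime) (hlE : l ∉ C.exc .std) :
    (⟨l, hl⟩ : Nat.Primes) ∈ S.supplyPrimes :=
  Or.inl fun hd => hlE (Nat.mem_primeFactors.2 ⟨hl,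
    hd.trans (mul_dvd_mul_left p (dvd_mul_right _ _)),
    mul_ne_zero (Fact.out : p.Prime).ne_zero (NeZero.ne _)⟩)

variable (C) in
/-- The values at the good operators of a point with values in a field. -/
def GoodValues {O' : Type} [CommRing O'] [Algebra O O'] (ev : C.hecke .std →ₐ[O] O') {K : Type}
    [Field K] [Algebra (DiamondRing O C.Δ) K] (jK : O' →+* K) (lam : Nat.Primes → K) : Prop :=
  ∀ (l : ℕ) (hl : l.Prime), l ∉ C.exc .std → ∀ hcop : l.Coprime (C.level .std),
    (qvChar (C.omega (K := K)) (C.level .std) (C.qv_dvd_level .std)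
        (ZMod.unitOfCoprime l hcop) : K) ^ ((p ^ (e + 1) - 1) / 2) * lam ⟨l, hl⟩ =
      jK (ev (C.tElt .std l))

theorem goodValues_of_point {O' : Type} [CommRing O'] [Algebra O O'] (ev : C.hecke .std →ₐ[O] O')
    {K : Type} [Field K] [Algebra (DiamondRing O C.Δ) K] (jK : O' →+* K)
    (ν : ↥(supported (DiamondRing O C.Δ) S.supplyPrimes) →+* K)
    (hC : ∀ a, ν (algebraMap (DiamondRing O C.Δ) _ a) = algebraMap (DiamondRing O C.Δ) K a)
    (hνpolys : ∀ (x : C.polys .std),
      ν ⟨x, polys_le_supported C x.2⟩ = jK (ev (C.toHecke .std x)))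
    (lam : Nat.Primes → K)
    (hX : ∀ (l : Nat.Primes) (hl : l ∈ S.supplyPrimes), ν ⟨X l, X_mem_supported_set hl⟩ = lam l) :
    GoodValues C ev jK lam := by
  intro l hl hlE hcop
  have hlPr := supplyPrimes_of_notMem_exc (C := C) hl hlE
  have hmem : C.opT .std l ∈ C.polys .std := Algebra.subset_adjoin (Or.inr ⟨l, ⟨hl, hlE⟩, rfl⟩)
  have hop : (⟨C.opT .std l, polys_le_supported C hmem⟩ :
      ↥(supported (DiamondRing O C.Δ) S.supplyPrimes)) =
      algebraMap (DiamondRing O C.Δ) _ (C.twist .std l) *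
        ⟨X ⟨l, hl⟩, X_mem_supported_set hlPr⟩ := by
    refine Subtype.ext ?_
    show (dite l.Prime (fun h => (MvPolynomial.C (C.twist .std l) : BettiHeckeAlg (DiamondRing O C.Δ))
      * (X ⟨l, h⟩ : BettiHeckeAlg (DiamondRing O C.Δ))) fun _ => 0) = _
    rw [dif_pos hl]
    rfl
  rw [SupplyLevel.tElt, dif_pos ⟨hl, hlE⟩, ← hνpolys ⟨_, hmem⟩, hop, map_mul, hX ⟨l, hl⟩ hlPr, hC,
    ← C.qvChar_omega (C.qv_dvd_level .std) (χ := C.char .std) rfl, coe_bettiBaseChar]
  congr 1
  rw [SupplyLevel.twist, dif_pos hcop, map_pow]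
  rfl

/-- The values are not Eisenstein. -/
theorem goodValues_ne_eisenstein (hres : OddResidual p ρbar) (Y : SupplySystems C .std) (j : Y.κ)
    {K : Type} [Field K] [Algebra (DiamondRing O C.Δ) K] (jK : (Y.y j).O' →+* K)
    (hjK : Function.Injective jK) (lam : Nat.Primes → K)
    (hgood : GoodValues C (Y.ev j) jK lam) (N : ℕ) [NeZero N] :
    ∃ l : Nat.Primes, l ∈ S.supplyPrimes ∧ ((l : ℕ) : ZMod N) = 1 ∧ lam l ≠ (l : ℕ) + 1 := by
  have hp : p.Prime := Fact.out
  haveI : NeZero (N * C.level .std) := ⟨mul_ne_zero (NeZero.ne N) (NeZero.ne _)⟩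
  obtain ⟨l, hl, hlE, hlN, -, hl1, A', hA', σ, hσ, hne⟩ :=
    HeckeRep.exists_frobenius_trace_ne hres.absIrred hp hres.det (N * C.level .std) (C.exc .std)
  have hcast : ∀ m : ℕ, m ∣ N * C.level .std → (l : ZMod m) = 1 := fun m hm => by
    have h := congrArg (ZMod.castHom hm (ZMod m)) hl1
    rwa [map_natCast, map_one] at h
  have hcop : l.Coprime (C.level .std) :=
    hl.coprime_iff_not_dvd.2 fun hd => hlN (hd.mul_left N)
  refine ⟨⟨l, hl⟩, supplyPrimes_of_notMem_exc hl hlE,
    hcast N (dvd_mul_right _ _), fun hcontra => hne ?_⟩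
  have h1 := hgood l hl hlE hcop
  rw [show ZMod.unitOfCoprime l hcop = 1 from Units.ext (by
    simpa using hcast _ (dvd_mul_left _ N)), map_one, Units.val_one, one_pow, one_mul, hcontra,
    ← Y.t_spec j l hl hlE A' hA' σ hσ] at h1
  have h2 : (Y.y j).r.trace σ = (l : (Y.y j).O') + 1 :=
    hjK (by rw [← h1, map_add, map_natCast, map_one])
  have h3 := congrArg (residue (Y.y j).O') h2
  rw [OddSystem.residue_trace, map_add, map_natCast, map_one] at h3
  apply (ResidueField.map (algebraMap O (Y.y j).O')).injective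
  rw [h3, map_add, map_natCast, map_one]

set_option maxHeartbeats 1000000 in
/-- The base level without the primes of `T` carries no eigenclass when there is no minimal seed. -/
theorem not_qvEigen_min (hp2 : p ≠ 2) (hpO : (p : O) ∈ maximalIdeal O)
    (hres : OddResidual p ρbar) (hc : S.pCase = PCase.flat) (hmin : ¬ HasMinimalSeed S)
    (hPr : ∀ l : Nat.Primes, l ∈ S.supplyPrimes ↔ ¬ (l : ℕ) ∣ p * S.level)
    {K : Type} [Field K] [IsAlgClosed K] [Algebra (DiamondRing O C.Δ) K] (lam : Nat.Primes → K)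
    (hS : ∀ P' ∈ bettiResidualSubmonoid S.supplyPrimes (gammaHTheta O (C.theta .std) C.Δ),
      eval lam (MvPolynomial.map (algebraMap (DiamondRing O C.Δ) K) P') ≠ 0)
    (heig : QvEigen (C.omega (K := K)) S.supplyPrimes lam ((∏ q ∈ S.Smin, q) * ∏ i, C.qv i)) :
    False := by
  classical
  have hp : p.Prime := Fact.out
  haveI : NeZero (p ^ e) := ⟨pow_ne_zero _ hp.ne_zero⟩
  haveI := diamond_isLocalRing O C.Δ hpO (isPGroup_twGroup r)
  let Pr := S.supplyPrimes
  let θA := gammaHTheta O (C.theta .std) C.Δ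
  obtain ⟨h, x, hx, hxeig⟩ := heig
  set N := ∏ q ∈ S.Smin, q with hN
  have hNmem : ∀ q : ℕ, q.Prime → q ∣ N → q ∈ S.Smin := fun q hq hd => by
    obtain ⟨q', hq', hd'⟩ := (Prime.dvd_finsetProd_iff hq.prime _).1 hd
    rwa [(Nat.prime_dvd_prime_iff_eq hq (S.prime_of_mem q'
      (Finset.mem_union_left _ (Finset.mem_union_left _ hq')))).1 hd']
  haveI : NeZero N := ⟨Finset.prod_ne_zero_iff.2 fun q hq =>
    (S.prime_of_mem q (Finset.mem_union_left _ (Finset.mem_union_left _ hq))).ne_zero⟩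
  haveI : NeZero (N * ∏ i, C.qv i) := ⟨mul_ne_zero (NeZero.ne N)
    (Finset.prod_ne_zero_iff.2 fun i _ => (C.prime i).ne_zero)⟩
  have hNlev : ∀ q : ℕ, q.Prime → q ∣ N → q ∣ p * S.level := fun q hq hd =>
    (dvd_level_of_mem_all (Finset.mem_union_left _ (Finset.mem_union_left _
      (hNmem q hq hd)))).mul_left p
  obtain ⟨x', hx', hxeig'⟩ : ∃ x' : BettiMod (N * ∏ i, C.qv i) (bettiBaseChar K (charDiamond O
      ((1 : (ZMod N)ˣ →* Oˣ).comp (ZMod.unitsMap (dvd_mul_right N (∏ i, C.qv i))))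
      (MonoidHom.pi fun i => (C.f i).comp (ZMod.unitsMap (h i)) :
        (ZMod (N * ∏ i, C.qv i))ˣ →* C.Δ))) K, x' ≠ 0 ∧
      ∀ l : Nat.Primes, l ∈ Pr → (X l : BettiHeckeAlg K) • x' = lam l • x' := by
    rw [C.qvChar_omega h
      (χ := (1 : (ZMod N)ˣ →* Oˣ).comp (ZMod.unitsMap (dvd_mul_right N (∏ i, C.qv i)))) rfl]
    exact ⟨x, hx, hxeig⟩
  have hnt : Nontrivial (BettiResLoc (charDiamond O
      ((1 : (ZMod N)ˣ →* Oˣ).comp (ZMod.unitsMap (dvd_mul_right N (∏ i, C.qv i))))
      (MonoidHom.pi fun i => (C.f i).comp (ZMod.unitsMap (h i)) :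
        (ZMod (N * ∏ i, C.qv i))ˣ →* C.Δ)) Pr θA) :=
    nontrivial_bettiResLoc_of_eigen
      (bettiRightExact_residual _ (charDiamond_neg_one O _ _ rfl
          (map_neg_one_of_odd (hp.odd_of_ne_two hp2).pow _)) _
        (ellipticHarmless_diamond O Pr _ (C.ellipticHarmless_any hp2 hpO _))) hx' lam hxeig' hS
  haveI := C.nontrivial_base_of_module hp2 hpO hNlev (dvd_mul_right N _) h hnt
  haveI : NeZero (N * (p * S.level)) :=
    ⟨mul_ne_zero (NeZero.ne N) (mul_ne_zero hp.ne_zero (NeZero.ne _))⟩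
  obtain ⟨l₀, hl₀, hlT, hlN, -, hl1, A', hA', σ, hσ, hne⟩ :=
    HeckeRep.exists_frobenius_trace_ne hres.absIrred hp hres.det N (p * S.level).primeFactors
  have hl₀g : ¬ l₀ ∣ p * S.level := fun hd => hlT
    (Nat.mem_primeFactors.2 ⟨hl₀, hd, mul_ne_zero hp.ne_zero (NeZero.ne _)⟩)
  have hexcl : S.seedExcluded = insert p (S.all : Set ℕ) :=
    if_neg (by rw [hc]; exact fun h => nomatch h)
  obtain ⟨θ', hθ'⟩ := exists_residual_point_of_nontrivial (O := O) (Pr := Pr)
    (θ := P.baseTheta .std) (N := N) (E := S.seedExcluded)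
    (fun l _ hlE => (hPr l).2 fun hd => by
      rw [hexcl] at hlE
      rcases l.2.dvd_mul.1 hd with hd | hd
      · exact hlE (by
          rw [(Nat.prime_dvd_prime_iff_eq l.2 hp).1 hd]; exact Set.mem_insert _ _)
      · exact hlE (level_dvd_mem l.2 hd))
    (fun q hq hd => hexcl ▸ Set.mem_insert_of_mem _
      (Finset.mem_union_left _ (Finset.mem_union_left _ (hNmem q hq hd))))
    ⟨l₀, hl₀⟩ ((hPr _).2 hl₀g) hl1 (by
      rw [baseTheta_X_of_not_dvd P .std (l := ⟨l₀, hl₀⟩) hl₀g,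
        P.θX_good ⟨l₀, hl₀⟩ hl₀g A' hA' σ hσ]
      exact hne)
  refine hmin ⟨N, inferInstance, Finset.squarefree_prod_of_pairwise_isCoprime
    (fun q hq q' hq' hne' => Nat.coprime_iff_isRelPrime.mp ((Nat.coprime_primes
      (S.prime_of_mem q (Finset.mem_union_left _ (Finset.mem_union_left _ hq)))
      (S.prime_of_mem q' (Finset.mem_union_left _ (Finset.mem_union_left _ hq')))).mpr hne'))
    (fun q hq => (S.prime_of_mem q (Finset.mem_union_left _ (Finset.mem_union_left _ hq))).squarefree),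
    fun q hq hd => Or.inl (by rw [Finset.union_empty]; exact hNmem q hq hd), θ', ?_,
    fun _ hpE => absurd (hexcl ▸ Set.mem_insert p _) hpE⟩
  intro l hl hlN' hlE _ A'' hA'' τ hτ
  have hg : ¬ l ∣ p * S.level := fun hd => by
    rw [hexcl] at hlE
    rcases hl.dvd_mul.1 hd with hd | hd
    · exact hlE (by rw [(Nat.prime_dvd_prime_iff_eq hl hp).1 hd]; exact Set.mem_insert _ _)
    · exact hlE (level_dvd_mem hl hd)
  rw [hθ' l hl hlN' hlE, baseTheta_X_of_not_dvd P .std (l := ⟨l, hl⟩) hg,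
    P.θX_good ⟨l, hl⟩ hg A'' hA'' τ hτ]

/-- The exit of the descent at `a`: the system is special at `a`. -/
theorem trace_sq_of_exit (hattach : Galois.PadicAttachment)
    (h35 : NewformFrobeniusAtBadPrime) (hp2 : p ≠ 2) (hres : OddResidual p ρbar)
    (Y : SupplySystems C .std) (j : Y.κ) {K : Type} [Field K] [IsAlgClosed K] [CharZero K]
    [Algebra (DiamondRing O C.Δ) K] (jK : (Y.y j).O' →+* K) (hjK : Function.Injective jK)
    (lam : Nat.Primes → K) (hgood : GoodValues C (Y.ev j) jK lam) {a : ℕ} (hap : a.Prime)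
    (haT : a ∈ S.T) (haall : a ∈ S.all) {U : Finset ℕ} (hall : ∀ x ∈ S.Smin ∪ U, x ∈ S.all)
    {L : ℕ} [NeZero L] (hL : L = (∏ q ∈ S.Smin ∪ U, q) * ∏ i, C.qv i) (haL : ¬ a ∣ L)
    (hLadvd : L * a ∣ C.level .std) (hdvd : ∀ i, C.qv i ∣ L)
    (x : BettiMod (L * ((⟨a, hap⟩ : Nat.Primes) : ℕ))
      (qvChar (C.omega (K := K)) (L * ((⟨a, hap⟩ : Nat.Primes) : ℕ))
        fun i => (hdvd i).mul_right _) K)
    (u : Nat.Primes → K) (hx : x ≠ 0) (hxeig : ∀ l, (X l : BettiHeckeAlg K) • x = u l • x)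
    (hxlam : ∀ l ∈ S.supplyPrimes, u l = lam l)
    (hxq : u ⟨a, hap⟩ ^ 2 =
      (qvChar (C.omega (K := K)) L hdvd (levelUnit (q := (⟨a, hap⟩ : Nat.Primes)) haL) : K)) :
    (Y.y j).r.trace (tp.atT ⟨a, haT⟩).frob ^ 2 = ((a : (Y.y j).O') + 1) ^ 2 := by
  classical
  have hp : p.Prime := Fact.out
  have hqvall : ∀ i, C.qv i ∉ S.all := fun i h => C.notMem i (Finset.mem_insert_of_mem h)
  set k : ℕ := (p ^ (e + 1) - 1) / 2 with hk
  have hω : ∀ i u, C.omega (K := K) i u ^ (2 * k + 1) = 1 := fun i u => by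
    obtain ⟨m, hm⟩ := (hp.odd_of_ne_two hp2).pow (n := e + 1)
    rw [show 2 * k + 1 = p ^ (e + 1) by rw [hk, hm]; omega]
    exact C.omega_pow i u
  have hsq : ∀ i, ¬ C.qv i ^ 2 ∣ L := fun i hd => by
    rw [hL] at hd
    have hcop : (C.qv i).Coprime (∏ q ∈ S.Smin ∪ U, q) := Nat.Coprime.prod_right fun x hx =>
      (Nat.coprime_primes (C.prime i) (S.prime_of_mem x (hall x hx))).2
        fun h => hqvall i (h ▸ hall x hx)
    have h' := (hcop.pow_left 2).dvd_of_dvd_mul_left hd
    rw [← Finset.mul_prod_erase _ _ (Finset.mem_univ i), pow_two] at h'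
    obtain ⟨i', hi', hd'⟩ := (Prime.dvd_finsetProd_iff (C.prime i).prime _).1
      ((Nat.mul_dvd_mul_iff_left (C.prime i).pos).1 h')
    exact (Finset.mem_erase.1 hi').1
      (C.injective ((Nat.prime_dvd_prime_iff_eq (C.prime i) (C.prime i')).1 hd').symm)
  obtain ⟨N, _, f, ι, hf, haN', ha2, -, hfa, hfval⟩ := exists_eigenform_of_qvChar
    (ω := C.omega (K := K)) (q := ⟨a, hap⟩) haL C.injective C.prime hdvd hsq hω hx u hxeig
    (fun M _ _ => by
      obtain ⟨l, hl, hl1, hne⟩ := goodValues_ne_eisenstein hres Y j jK hjK lam hgood M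
      exact ⟨l, hl1, by rw [hxlam l hl]; exact hne⟩) hxq
  refine trace_sq_of_eigenform hattach h35 (Y.y j).lift.det jK hjK hf ι (C.exc .std)
    (fun l => Y.ev j (C.tElt .std l))
    (fun l hl hlE A' hA' σ hσ => Y.t_spec j l hl hlE A' hA' σ hσ) (fun l hl hlE _ b hb => ?_) hap (S.ne_p a haall)
    haN' ha2 hfa (tp.atT ⟨a, haT⟩).liesOver (tp.atT ⟨a, haT⟩).frob_spec
  have hcop : l.Coprime (C.level .std) := hl.coprime_iff_not_dvd.2 fun hd => hlE
    (Nat.mem_primeFactors.2 ⟨hl, hd.mul_left p, mul_ne_zero hp.ne_zero (NeZero.ne _)⟩)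
  have hcop' : l.Coprime (L * a) := hcop.coprime_dvd_right hLadvd
  have hlPr := supplyPrimes_of_notMem_exc (C := C) hl hlE
  rw [hfval ⟨l, hl⟩ hcop' b hb, hxlam _ hlPr, ← hgood l hl hlE hcop]
  congr 2
  rw [qvChar_apply, qvChar_apply, Units.coe_prod, Units.coe_prod]
  exact Finset.prod_congr rfl fun i _ => congrArg (fun v => (C.omega (K := K) i v : K))
    (Units.ext (by
      simp [ZMod.unitsMap_val, ZMod.cast_natCast ((hdvd i).mul_right a),
        ZMod.cast_natCast (C.qv_dvd_level .std i)]))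

end Systems

/-- **Without a minimal seed every system is special at a prime of `T`.** -/
theorem supply_trace_sq_of_inputs (hattach : Galois.PadicAttachment)
    (h35 : NewformFrobeniusAtBadPrime) (hp2 : p ≠ 2) (hpO : (p : O) ∈ maximalIdeal O)
    (hres : OddResidual p ρbar) (hc : S.pCase = PCase.flat) (hF : S.F = ∅)
    (hmin : ¬ HasMinimalSeed S) {C : SupplyLevel P Q r e} (Y : SupplySystems C .std) (j : Y.κ) :
    ∃ q : S.T, (Y.y j).r.trace (tp.atT q).frob ^ 2 = (((q : ℕ) : (Y.y j).O') + 1) ^ 2 := by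
  classical
  have hp : p.Prime := Fact.out
  haveI : NeZero (p ^ e) := ⟨pow_ne_zero _ hp.ne_zero⟩
  let O' := (Y.y j).O'
  let F := FractionRing O'
  let K := AlgebraicClosure F
  haveI : CharZero F := charZero_of_injective_algebraMap (IsFractionRing.injective O' F)
  haveI : CharZero K := charZero_of_injective_algebraMap (algebraMap F K).injective
  let jK : O' →+* K := (algebraMap F K).comp (algebraMap O' F)
  have hjK : Function.Injective jK :=
    (algebraMap F K).injective.comp (IsFractionRing.injective O' F)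
  let A := DiamondRing O C.Δ
  let Pr := S.supplyPrimes
  obtain ⟨ν, hνpolys, hνann⟩ := exists_point_extension hp2 hpO C (Y.ev j) jK
  letI algK : Algebra A K := (ν.comp (algebraMap A ↥(supported A Pr))).toAlgebra
  let lam : Nat.Primes → K := fun l =>
    if hl : l ∈ Pr then ν ⟨X l, X_mem_supported_set hl⟩ else 0
  have hlam : ∀ (l : Nat.Primes) (hl : l ∈ Pr), ν ⟨X l, X_mem_supported_set hl⟩ = lam l :=
    fun l hl => (show lam l = _ from dif_pos hl).symm
  have hgood : GoodValues C (Y.ev j) jK lam :=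
    goodValues_of_point (Y.ev j) jK ν (fun a => rfl) hνpolys lam hlam
  have hlevel : S.level = ∏ q ∈ S.Smin ∪ S.T, q := by
    rw [OddPrimes.level, if_pos hc, mul_one, OddPrimes.all, hF, Finset.union_empty]
  have hloc : S.locPrimes = ∅ := by simp [OddPrimes.locPrimes, hF, hc]
  have hPr : ∀ l : Nat.Primes, l ∈ Pr ↔ ¬ (l : ℕ) ∣ p * S.level := fun l =>
    ⟨fun h => h.resolve_right (by rw [hloc]; exact Finset.notMem_empty _), Or.inl⟩
  have hdvdstd : ∀ i, C.qv i ∣ C.level .std := C.qv_dvd_level .std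
  -- the eigenclass
  let θA := gammaHTheta O (C.theta .std) C.Δ
  have hχA : ∀ {L : ℕ} (χ : (ZMod L)ˣ →* Oˣ) (δ : (ZMod L)ˣ →* C.Δ), χ = 1 →
      charDiamond O χ δ (-1) = 1 := fun χ δ hχ => charDiamond_neg_one O χ δ (by rw [hχ]; rfl)
        (map_neg_one_of_odd (hp.odd_of_ne_two hp2).pow _)
  haveI := diamond_isLocalRing O C.Δ hpO (isPGroup_twGroup r)
  have hR : ∀ (L : ℕ) [NeZero L] (χ : (ZMod L)ˣ →* Oˣ) (δ : (ZMod L)ˣ →* C.Δ), χ = 1 →
      BettiRightExact L (charDiamond O χ δ) (bettiResidualSubmonoid Pr θA) := fun L _ χ δ hχ =>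
    bettiRightExact_residual _ (hχA χ δ hχ) _
      (ellipticHarmless_diamond O Pr _ (C.ellipticHarmless_any hp2 hpO L))
  have hlnestd : ¬ (P.lne : ℕ) ∣ C.level .std :=
    C.lne_not_dvd (N := S.level) fun q _ h => h.mul_left p
  have hE : BettiNonEisenstein (C.level .std) (charDiamond O (C.char .std) (C.delta .std))
      (bettiResidualSubmonoid Pr θA) :=
    bettiNonEisenstein_residual _ _ P.lne (Or.inl P.lne_good) (by
      rw [gammaHTheta_X, gammaHTheta_C, show diamondAug O C.Δ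
          (heckeDegree (charDiamond O (C.char .std) (C.delta .std)) P.lne) =
            heckeDegree (C.char .std) P.lne by
        show algebraMap (DiamondRing O C.Δ) O _ = _
        rw [← heckeDegree_baseChar, bettiBaseChar_charDiamond]]
      exact C.residual_degree hpO _ rfl hlnestd)
  haveI : Module.Finite A (BettiResLoc (charDiamond O (C.char .std) (C.delta .std)) Pr θA) :=
    (C.free_mod hp2 hpO .std).2.1
  obtain ⟨⟨y, hy, hyeig⟩, hS⟩ := exists_eigen_of_bettiLoc_point
    (hχA (C.char .std) (C.delta .std) rfl) (hR _ (C.char .std) (C.delta .std) rfl) hE ν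
    (fun a => rfl) hνann lam hlam
  -- descent over `T`
  suffices key : ∀ U : Finset ℕ, U ⊆ S.T →
      QvEigen (C.omega (K := K)) Pr lam ((∏ q ∈ S.Smin ∪ U, q) * ∏ i, C.qv i) →
      ∃ q : S.T, (Y.y j).r.trace (tp.atT q).frob ^ 2 = (((q : ℕ) : O') + 1) ^ 2 by
    refine key S.T (Finset.Subset.refl _) ?_
    have heig0 : QvEigen (C.omega (K := K)) Pr lam (C.level .std) := by
      refine ⟨hdvdstd, ?_⟩
      rw [← C.qvChar_omega hdvdstd (χ := C.char .std) rfl]
      exact ⟨y, hy, hyeig⟩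
    rw [← hlevel]
    exact heig0
  intro U
  induction U using Finset.induction_on with
  | empty =>
    intro _ heig
    rw [Finset.union_empty] at heig
    exact absurd heig fun h => not_qvEigen_min hp2 hpO hres hc hmin hPr lam hS h
  | @insert a U haU ih =>
    intro hsub heig
    have haT : a ∈ S.T := hsub (Finset.mem_insert_self a U)
    have hUT : U ⊆ S.T := fun x hx => hsub (Finset.mem_insert_of_mem hx)
    have hall : ∀ x ∈ S.Smin ∪ U, x ∈ S.all := fun x hx => by
      rcases Finset.mem_union.1 hx with hx | hx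
      · exact Finset.mem_union_left _ (Finset.mem_union_left _ hx)
      · exact Finset.mem_union_left _ (Finset.mem_union_right _ (hUT hx))
    have haall : a ∈ S.all := Finset.mem_union_left _ (Finset.mem_union_right _ haT)
    have haN : a ∉ S.Smin ∪ U := fun h => (Finset.mem_union.1 h).elim
      (fun h => Finset.disjoint_left.1 S.disjoint_min_T h haT) haU
    have hap : a.Prime := S.prime_of_mem a haall
    set L := (∏ q ∈ S.Smin ∪ U, q) * ∏ i, C.qv i with hL
    have hLeq : (∏ q ∈ S.Smin ∪ insert a U, q) * ∏ i, C.qv i = L * a := by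
      rw [Finset.union_insert, Finset.prod_insert haN, hL]; ring
    haveI : NeZero L := ⟨mul_ne_zero (Finset.prod_ne_zero_iff.2 fun x hx =>
      (S.prime_of_mem x (hall x hx)).ne_zero)
      (Finset.prod_ne_zero_iff.2 fun i _ => (C.prime i).ne_zero)⟩
    have hqvall : ∀ i, C.qv i ∉ S.all := fun i h => C.notMem i (Finset.mem_insert_of_mem h)
    have haL : ¬ a ∣ L := fun hd => by
      rcases hap.dvd_mul.1 hd with hd | hd
      · obtain ⟨x, hx, hd⟩ := (Prime.dvd_finsetProd_iff hap.prime _).1 hd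
        exact haN ((Nat.prime_dvd_prime_iff_eq hap (S.prime_of_mem x (hall x hx))).1 hd ▸ hx)
      · obtain ⟨i, -, hd⟩ := (Prime.dvd_finsetProd_iff hap.prime _).1 hd
        exact hqvall i ((Nat.prime_dvd_prime_iff_eq hap (C.prime i)).1 hd ▸ haall)
    have hdvd : ∀ i, C.qv i ∣ L := fun i =>
      (Finset.dvd_prod_of_mem _ (Finset.mem_univ i)).mul_left _
    have haPr : (⟨a, hap⟩ : Nat.Primes) ∉ Pr := fun h =>
      (hPr _).1 h ((dvd_level_of_mem_all haall).mul_left p)
    rw [hLeq] at heig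
    rcases qvEigen_descent (q := ⟨a, hap⟩) haL haPr hdvd heig with h | ⟨x, u, hx, hxeig, hxlam, hxq⟩
    · exact ih hUT h
    -- exit
    refine ⟨⟨a, haT⟩, trace_sq_of_exit hattach h35 hp2 hres Y j jK hjK lam hgood hap haT haall
      hall hL haL ?_ hdvd x u hx hxeig hxlam hxq⟩
    rw [← hLeq]
    refine mul_dvd_mul_right ?_ _
    show (∏ q ∈ S.Smin ∪ insert a U, q) ∣ S.level
    rw [hlevel]
    exact Finset.prod_dvd_prod_of_subset _ _ _
      (Finset.union_subset_union le_rfl (Finset.insert_subset haT hUT))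

end FermatLib.MLT.Odd

end
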