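import Fermat.Agent.MLT.Odd.SupplyModules
import Fermat.Agent.MLT.Odd.SupplyZeroMain
import Fermat.Agent.Galois.AttachmentProved
import Fermat.Agent.S35

/-!
# Without a minimal seed every system is special at a prime of `T`
-/

set_option autoImplicit false

noncomputable section

namespace FermatLib.MLT.Odd

open IsLocalRing

variable {O : Type} [CommRing O] [IsDomain O] [IsDiscreteValuationRing O]
  [IsAdicComplete (maximalIdeal O) O] [Finite (ResidueField O)] [CharZero O] {p : ℕ}
  [Fact p.Prime] {ρbar : ResidualGaloisRep (ResidueField O)} {S : OddPrimes p ρbar}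
  {tp : S.TamePairs} {P : SupplyParams S tp} {Q : Finset ℕ} {r e : ℕ}

/-- **The systems of the full module without a minimal seed.** -/
theorem supply_trace_sq_of_not_minimalSeed (hp2 : p ≠ 2) (hpO : (p : O) ∈ maximalIdeal O)
    (hres : OddResidual p ρbar) (hc : S.pCase = PCase.flat) (hF : S.F = ∅)
    (hmin : ¬ HasMinimalSeed S) {C : SupplyLevel P Q r e} (Y : SupplySystems C .std) (j : Y.κ) :
    ∃ q : S.T, (Y.y j).r.trace (tp.atT q).frob ^ 2 = (((q : ℕ) : (Y.y j).O') + 1) ^ 2 :=
  supply_trace_sq_of_inputs Galois.padicAttachment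
    (fun {_} _ {_} hg lam _ S O' _ _ _ _ _ _ hlamO' chig hchig iota hlamS hMS =>
      Fermat.Agent.S35.result hg lam S O' hlamO' chig hchig iota hlamS hMS)
    hp2 hpO hres hc hF hmin Y j

end FermatLib.MLT.Odd
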