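import Fermat.Agent.MLT.Odd.SupplyLevelMake
import Fermat.Agent.MLT.Odd.SupplyZero

/-!
# The data of all the levels
-/

set_option autoImplicit false
set_option linter.style.haveILetI false

noncomputable section

namespace FermatLib.MLT.Odd

open IsLocalRing

local notation "Γℚ" => (AlgebraicClosure ℚ ≃ₐ[ℚ] AlgebraicClosure ℚ)

variable {O : Type} [CommRing O] [IsDomain O] [IsDiscreteValuationRing O]
  [IsAdicComplete (maximalIdeal O) O] [Finite (ResidueField O)] [CharZero O]
  {p : ℕ} [Fact p.Prime] {ρbar : ResidualGaloisRep (ResidueField O)} {S : OddPrimes p ρbar}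
  {tp : S.TamePairs} {P : SupplyParams S tp} {Q : Finset ℕ} {r e : ℕ}

/-- Every level has its systems and maps. -/
theorem nonempty_levelPack (hp2 : p ≠ 2) (hpO : (p : O) ∈ maximalIdeal O)
    (hres : OddResidual p ρbar) (C : SupplyLevel P Q r e) : Nonempty (LevelPack C) := by
  obtain ⟨Ystd⟩ := nonempty_supplySystems hp2 hpO hres C (v := .std) (fun s h => by cases h)
  obtain ⟨Ychi⟩ := nonempty_supplySystems hp2 hpO hres C (v := .chi) (fun s h => by cases h)
  have hold : ∀ s : S.oldSet, Nonempty (SupplySystems C (.old (s : ℕ))) := fun s =>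
    nonempty_supplySystems hp2 hpO hres C fun s' h => by
      obtain rfl : (s : ℕ) = s' := OddVariant.old.inj h
      exact S.mem_oldSet.1 s.2
  let Yold : ∀ s : S.oldSet, SupplySystems C (.old (s : ℕ)) := fun s => (hold s).some
  have hraise : ∀ s : S.oldSet, Nonempty (SupplyRaise Ystd (s : ℕ)) := fun s =>
    nonempty_supplyRaise hp2 hpO hres Ystd (S.mem_oldSet.1 s.2)
  exact ⟨⟨Ystd, Ychi, Yold, fun s => (hraise s).some⟩⟩

/-- The systems of the full module of level zero exist. -/
theorem LevelPack.nonempty_std (hp2 : p ≠ 2) (hpO : (p : O) ∈ maximalIdeal O)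
    (K : LevelPack (SupplyLevel.zero P)) : Nonempty K.std.κ := by
  by_contra hne
  rw [not_nonempty_iff] at hne
  have h1 : (1 : (SupplyLevel.zero P).hecke .std) = 0 := K.std.ev_inj 1 fun j => hne.elim j
  have hzero : ∀ a : (SupplyLevel.zero P).Mod .std, a = 0 := fun a =>
    (one_smul ((SupplyLevel.zero P).hecke .std) a).symm.trans
      ((congrArg (fun z : (SupplyLevel.zero P).hecke .std => z • a) h1).trans (zero_smul _ a))
  have hsub : Subsingleton ((SupplyLevel.zero P).Mod .std) :=
    ⟨fun a b => (hzero a).trans (hzero b).symm⟩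
  haveI : Nontrivial (DiamondRing O (SupplyLevel.zero P).Δ) :=
    (diamondAug O (SupplyLevel.zero P).Δ).toRingHom.domain_nontrivial
  have hpos := rank_std_pos hp2 hpO P
  rw [SupplyParams.rank, Module.finrank_zero_of_subsingleton] at hpos
  exact lt_irrefl 0 hpos

namespace LevelPack

variable {C : SupplyLevel P Q r e} (K : LevelPack C) {ι₀' : Type} [Finite ι₀'] [Nonempty ι₀']
  (x₀' : ι₀' → OddSystem S ∅) (K₀ : LevelPack (SupplyLevel.zero P)) (hp2 : p ≠ 2)
  (hpO : (p : O) ∈ maximalIdeal O) (hres : OddResidual p ρbar)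

instance nonempty_idx {C : SupplyLevel P Q r e} (K : LevelPack C) {ι' : Type} [Nonempty ι'] :
    Nonempty (K.Idx ι') :=
  ‹Nonempty ι'›.map Idx.extra

omit [IsAdicComplete (maximalIdeal O) O] [Finite (ResidueField O)] [CharZero O]
  [Finite ι₀'] [Nonempty ι₀'] in
/-- The family of level zero is part of the family of a level. -/
theorem levelAlg_le_comap :
    levelAlg (K.fam (K₀.fam x₀')) ≤ (levelAlg (K₀.fam x₀')).comap
      (AlgHom.pi fun i => (Pi.evalAlgHom O
        (fun a => (K.fam (K₀.fam x₀') a).O') (Idx.extra i) :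
          (∀ a, (K.fam (K₀.fam x₀') a).O') →ₐ[O] (K₀.fam x₀' i).O')) :=
  Algebra.adjoin_le (by
    rintro _ ⟨σ, rfl⟩
    exact Algebra.subset_adjoin ⟨σ, rfl⟩)

/-- The projection to the level ring of level zero. -/
def proj : LevelRing (K.fam (K₀.fam x₀')) →ₐ[O] LevelRing (K₀.fam x₀') :=
  ((AlgHom.pi fun i => (Pi.evalAlgHom O
      (fun a => (K.fam (K₀.fam x₀') a).O') (Idx.extra i) :
        (∀ a, (K.fam (K₀.fam x₀') a).O') →ₐ[O] (K₀.fam x₀' i).O')).comp
    (levelAlg (K.fam (K₀.fam x₀'))).val).codRestrict _ fun a =>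
      K.levelAlg_le_comap x₀' K₀ a.2

omit [IsAdicComplete (maximalIdeal O) O] [Finite (ResidueField O)] [CharZero O]
  [Finite ι₀'] [Nonempty ι₀'] in
theorem proj_trace (σ : Γℚ) : K.proj x₀' K₀ (levelTrace _ σ) = levelTrace _ σ :=
  Subtype.ext (funext fun _ => rfl)

/-- The map of an old module to level zero. -/
def oldProj (s : ℕ) : ∀ dec : Decidable (S.HasOld s),
    (K.oldModule (K₀.fam x₀') s dec).M →+ (K₀.oldModule x₀' s dec).M
  | .isTrue h => (exists_supplyLevelMap hp2 hpO hres C (v := .old s)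
      (fun s' h' => OddVariant.old.inj h' ▸ h)).choose.toAddMonoidHom
  | .isFalse _ => 0

/-- The maps to level zero. -/
def modProj : ∀ v, (K.mods (K₀.fam x₀') v).M →+ (K₀.mods x₀' v).M
  | .std => (exists_supplyLevelMap hp2 hpO hres C (v := .std)
      (fun s h => by cases h)).choose.toAddMonoidHom
  | .chi => (exists_supplyLevelMap hp2 hpO hres C (v := .chi)
      (fun s h => by cases h)).choose.toAddMonoidHom
  | .old s => K.oldProj x₀' K₀ hp2 hpO hres s (S.decHasOld s)

omit [Finite ι₀'] [Nonempty ι₀'] in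
theorem levelMap_const {v : OddVariant} (hv : ∀ s, v = .old s → S.HasOld s) (c : O)
    (m : C.Mod v) :
    (exists_supplyLevelMap hp2 hpO hres C hv).choose (algebraMap O (C.hecke v) c • m) =
      algebraMap O ((SupplyLevel.zero P).hecke v) c •
        (exists_supplyLevelMap hp2 hpO hres C hv).choose m := by
  generalize (exists_supplyLevelMap hp2 hpO hres C hv).choose = g
  exact (congrArg g (algebraMap_smul _ c m)).trans
    ((g.map_smul c m).trans (algebraMap_smul _ c (g m)).symm)

omit [Finite ι₀'] [Nonempty ι₀'] in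
theorem levelMap_ker {v : OddVariant} (hv : ∀ s, v = .old s → S.HasOld s)
    (B : Fin r → C.hecke v) (hB : ∀ i, B i = C.diamond v (twGen i)) (m : C.Mod v)
    (hm : (exists_supplyLevelMap hp2 hpO hres C hv).choose m = 0) :
    m ∈ Ideal.span (Set.range fun i => B i - 1) • (⊤ : Submodule (C.hecke v) (C.Mod v)) := by
  refine (span_smul_top_eq _ _ (fun i w => ?_) m).2
    ((exists_supplyLevelMap hp2 hpO hres C hv).choose_spec.2.2.2 m hm)
  exact ((sub_smul _ _ w).trans (congrArg₂ (fun x y => x - y)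
      ((congrArg (fun b : C.hecke v => b • w) (hB i)).trans
        (SupplyLevel.diamond_smul C v (twGen i) w)) (one_smul _ w))).trans
    ((sub_smul _ _ w).trans (congrArg₂ (fun x y => x - y) rfl (one_smul _ w))).symm

omit [Finite ι₀'] [Nonempty ι₀'] in
theorem oldProj_surjective (s : ℕ) (dec : Decidable (S.HasOld s)) :
    Function.Surjective (K.oldProj x₀' K₀ hp2 hpO hres s dec) := by
  cases dec with
  | isFalse _ => exact fun b => ⟨PUnit.unit, (@Subsingleton.elim PUnit.{1} _ _ b)⟩
  | isTrue h =>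
    have hg := (exists_supplyLevelMap hp2 hpO hres C (v := .old s)
      (fun s' h' => OddVariant.old.inj h' ▸ h)).choose_spec.1
    intro b
    obtain ⟨a, ha⟩ := hg b
    exact ⟨a, ha⟩

omit [Finite ι₀'] [Nonempty ι₀'] in
theorem oldProj_trace (s : ℕ) (dec : Decidable (S.HasOld s)) :
    SystemModule.IsTraceMap (K.oldModule (K₀.fam x₀') s dec) (K₀.oldModule x₀' s dec)
      (K.oldProj x₀' K₀ hp2 hpO hres s dec) := by
  cases dec with
  | isFalse _ => exact ⟨fun _ _ => rfl, fun _ _ _ _ => rfl⟩
  | isTrue h =>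
    have hc := levelMap_const (v := .old s) (C := C) hp2 hpO hres
      (fun s' h' => OddVariant.old.inj h' ▸ h)
    have ht := (exists_supplyLevelMap hp2 hpO hres C (v := .old s)
      (fun s' h' => OddVariant.old.inj h' ▸ h)).choose_spec.2.1
    exact ⟨fun c m => hc c m, fun ℓ hℓ hℓE m => ht ℓ hℓ hℓE m⟩

theorem oldProj_ker (s : ℕ) (dec : Decidable (S.HasOld s))
    (m : (K.oldModule (K₀.fam x₀') s dec).M)
    (hm : K.oldProj x₀' K₀ hp2 hpO hres s dec m = 0) :
    m ∈ Ideal.span (Set.range fun i => (K.oldModule (K₀.fam x₀') s dec).action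
        (K.delta (K₀.fam x₀') hp2 hpO hres i) - 1) •
      (⊤ : Submodule (K.oldModule (K₀.fam x₀') s dec).T (K.oldModule (K₀.fam x₀') s dec).M) := by
  cases dec with
  | isFalse _ => exact (@Subsingleton.elim PUnit.{1} _ m PUnit.unit).symm ▸ zero_mem _
  | isTrue h =>
    letI : Module (DiamondRing O C.Δ) (K.oldModule (K₀.fam x₀') s (.isTrue h)).M :=
      (inferInstance : Module (DiamondRing O C.Δ) (C.Mod (.old s)))
    refine (span_smul_top_eq _ (fun i : Fin r => MonoidAlgebra.of O C.Δ (twGen i) - 1)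
      (fun i w => ?_) m).2 ?_
    · rw [sub_smul, sub_smul, one_smul, one_smul]
      exact congrArg (· - w) ((congrArg (· • w)
        (K.action_delta_old (K₀.fam x₀') hp2 hpO hres s h i)).trans
          (SupplyLevel.diamond_smul C _ _ _))
    · have h2 := (exists_supplyLevelMap hp2 hpO hres C (v := .old s)
        (fun s' h' => OddVariant.old.inj h' ▸ h)).choose_spec.2.2.2 m hm
      exact h2

/-- **The map to level zero.** -/
def dataHom : LevelDataHom (K.data (K₀.fam x₀') hp2 hpO hres
      (ι' := K₀.Idx ι₀') (tp := tp) (P := P))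
    (K₀.data x₀' hp2 hpO hres) where
  subset := Finset.empty_subset _
  π := K.proj x₀' K₀
  π_trace := K.proj_trace x₀' K₀
  π_δ i := levelEval_ext _ fun j =>
    ((K.levelEval_delta (K₀.fam x₀') hp2 hpO hres i (.extra j)).trans rfl).trans
      (map_one (levelEval (K₀.fam x₀') j)).symm
  πM := K.modProj x₀' K₀ hp2 hpO hres
  πM_trace v := by
    cases v with
    | std =>
      exact ⟨levelMap_const (v := .std) hp2 hpO hres (fun s h => by cases h), fun ℓ hℓ hℓE m =>
        (exists_supplyLevelMap hp2 hpO hres C (v := .std) (fun s h => by cases h)).choose_spec.2.1 ℓ hℓ hℓE m⟩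
    | chi =>
      exact ⟨levelMap_const (v := .chi) hp2 hpO hres (fun s h => by cases h), fun ℓ hℓ hℓE m =>
        (exists_supplyLevelMap hp2 hpO hres C (v := .chi) (fun s h => by cases h)).choose_spec.2.1 ℓ hℓ hℓE m⟩
    | old s => exact K.oldProj_trace x₀' K₀ hp2 hpO hres s (S.decHasOld s)
  πM_surjective v := by
    cases v with
    | std => exact (exists_supplyLevelMap hp2 hpO hres C (v := .std) (fun s h => by cases h)).choose_spec.1
    | chi => exact (exists_supplyLevelMap hp2 hpO hres C (v := .chi) (fun s h => by cases h)).choose_spec.1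
    | old s => exact K.oldProj_surjective x₀' K₀ hp2 hpO hres s (S.decHasOld s)
  ker_πM v := by
    cases v with
    | std => exact levelMap_ker (v := .std) hp2 hpO hres (fun s h => by cases h) _ (K.action_delta_std _ hp2 hpO hres)
    | chi => exact levelMap_ker (v := .chi) hp2 hpO hres (fun s h => by cases h) _ (K.action_delta_chi _ hp2 hpO hres)
    | old s => exact K.oldProj_ker x₀' K₀ hp2 hpO hres s (S.decHasOld s)

end LevelPack

/-- The level zero family: the systems, and the auxiliary points. -/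
def basePoints (K₀ : LevelPack (SupplyLevel.zero P)) {m : ℕ} (pts : Fin m → GaloisRepAdic O)
    (hpts : ∀ i, IsOddLift S ∅ (pts i) ∧ IsLiftOf ρbar (pts i)) :
    K₀.std.κ ⊕ Fin m → OddSystem S ∅ :=
  Sum.elim K₀.std.y fun i => pointSystem (pts i) (hpts i)

/-- **The data of all the levels.** -/
theorem nonempty_levelSupply (hp2 : p ≠ 2) (hpO : (p : O) ∈ maximalIdeal O)
    (hζ : ∃ ζ : O, ζ ^ p = 1 ∧ ζ ≠ 1) (hres : OddResidual p ρbar) (tp : S.TamePairs)
    (hseed : HasSeed S) {m : ℕ} (pts : Fin m → GaloisRepAdic O)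
    (hpts : ∀ i, IsOddLift S ∅ (pts i) ∧ IsLiftOf ρbar (pts i)) :
    Nonempty (LevelSupply S tp pts) := by
  obtain ⟨P⟩ := nonempty_supplyParams hp2 hpO hζ hres hseed tp
  obtain ⟨K₀⟩ := nonempty_levelPack hp2 hpO hres (SupplyLevel.zero P)
  haveI := K₀.nonempty_std hp2 hpO
  let x' := basePoints K₀ pts hpts
  haveI : Nonempty (K₀.Idx (K₀.std.κ ⊕ Fin m)) :=
    (inferInstance : Nonempty K₀.std.κ).map LevelPack.Idx.std
  refine ⟨{
    d := P.ranks
    ζ := P.ζ
    avoid := P.avoid
    ζ_spec := P.ζ_spec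
    d_pos := rank_std_pos hp2 hpO P
    d_old := fun hc => ?_
    ι₀ := K₀.Idx (K₀.std.κ ⊕ Fin m)
    x₀ := K₀.fam x'
    D₀ := K₀.data x' hp2 hpO hres
    xpt := fun i => levelEval (K₀.fam x') (.extra (.inr i))
    xpt_trace := fun i σ => levelEval_levelTrace _ _ σ
    std_system := fun j => supply_isSystemOfLevel hp2 hpO hres K₀.std j
    level := fun n r qv hqv havoid => ?_ }⟩
  · show S.kap p * P.oldRank p (S.decHasOld p) < P.rank .std
    generalize S.decHasOld p = dec
    cases dec with
    | isFalse h => exact absurd (Or.inr ⟨rfl, hc⟩) h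
    | isTrue h => exact rank_old_p_lt hp2 hpO hres hc P
  · obtain ⟨C, -⟩ := exists_supplyLevel hres P hqv havoid
    obtain ⟨K⟩ := nonempty_levelPack hp2 hpO hres C
    exact ⟨_, inferInstance, K.fam (K₀.fam x'), K.data (K₀.fam x') hp2 hpO hres,
      ⟨K.dataHom x' K₀ hp2 hpO hres⟩,
      fun hc hF hmin j => supply_trace_sq_of_not_minimalSeed hp2 hpO hres hc hF hmin K.std j⟩

end FermatLib.MLT.Odd
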