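import Fermat.Agent.MLT.Odd.ProducerDefs
import Fermat.Agent.MLT.Odd.SupplyAssembly
import Fermat.Agent.MLT.Odd.Generators

/-!
# The Hecke modules of the levels
-/

set_option autoImplicit false

namespace FermatLib.MLT.Odd

open IsLocalRing CuspForm

local notation "Γℚ" => (AlgebraicClosure ℚ ≃ₐ[ℚ] AlgebraicClosure ℚ)

variable {O : Type} [CommRing O] [IsDomain O] [IsDiscreteValuationRing O]
  [IsAdicComplete (maximalIdeal O) O] [Finite (ResidueField O)] [CharZero O]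
  {p : ℕ} [Fact p.Prime] {ρbar : ResidualGaloisRep (ResidueField O)}

/-- **Existence of the levels.** `pts` are auxiliary points which have to be points of level zero. -/
theorem exists_oddLevels (hp2 : p ≠ 2) (hpO : (p : O) ∈ maximalIdeal O)
    (hζ : ∃ ζ : O, ζ ^ p = 1 ∧ ζ ≠ 1) (hres : OddResidual p ρbar) (S : OddPrimes p ρbar)
    (tp : S.TamePairs) (hseed : HasSeed S) {m : ℕ} (pts : Fin m → GaloisRepAdic O)
    (hpts : ∀ i, IsOddLift S ∅ (pts i) ∧ IsLiftOf ρbar (pts i)) :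
    ∃ (d : OddVariant → ℕ) (ζ : ℕ → O) (avoid : Finset ℕ),
      (∀ q ∈ S.T, ζ q ^ p = 1 ∧ ζ q ≠ 1) ∧ 0 < d .std ∧
      (S.pCase = PCase.mixed → S.kap p * d (.old p) < d .std) ∧
      ∃ (L₀ : OddLevel S ∅ 0 1 d tp ζ) (x : Fin m → L₀.R →ₐ[O] O),
        (∀ i σ, x i (L₀.ρ.trace σ) = (pts i).trace σ) ∧
        (∀ y : OddPoint O L₀.R, (∀ a ∈ Module.annihilator L₀.R (L₀.M .std), y.toHom a = 0) →
          IsSystemOfLevel S (y.rep L₀.ρ)) ∧
        ∀ (n : ℕ) {r : ℕ} (qv : Fin r → ℕ), IsTWFamily S n qv → (∀ i, qv i ∉ avoid) →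
          ∃ L : OddLevel S (Finset.univ.image qv) r (p ^ (n + 1)) d tp ζ,
            Nonempty (OddLevelHom L L₀) ∧
            (S.pCase = PCase.flat → S.F = ∅ → ¬ HasMinimalSeed S → ∀ v : L.M .std,
              (∏ q : S.T, (L.ρ.trace (tp.atT q).frob ^ 2 - (((q : ℕ) : L.R) + 1) ^ 2) ^ 2) • v = 0) := by
  obtain ⟨D⟩ := nonempty_levelSupply hp2 hpO hζ hres tp hseed pts hpts
  exact exists_oddLevels_of_data hp2 hres tp pts D

end FermatLib.MLT.Odd
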