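import Fermat.Agent.MLT.Odd.PatchBranchFacts
import Fermat.Agent.MLT.Odd.PatchFlips
import Fermat.Agent.MLT.Odd.PatchBuild
import Fermat.Agent.MLT.Odd.EndgameCore
import Fermat.Agent.MLT.Odd.Producer
import Fermat.Agent.MLT.LocQUniversal

/-!
# Ihara avoidance at an odd prime

If there were no minimal seed, the product of the `(t_q² - (q + 1)²)²` would kill every level.
The special fibre of the patched module has a component unramified at all of `T`, where this
product does not vanish.
-/

set_option autoImplicit false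

noncomputable section

namespace FermatLib.MLT.Odd

open IsLocalRing

variable {O : Type} [CommRing O] [IsDomain O] [IsDiscreteValuationRing O]
  [IsAdicComplete (maximalIdeal O) O] [Finite (ResidueField O)] [CharZero O]
  {p : ℕ} [Fact p.Prime] {ρbar : ResidualGaloisRep (ResidueField O)}
  {S : OddPrimes p ρbar} {d : OddVariant → ℕ} {tp : S.TamePairs} {ζ : ℕ → O}
  {L₀ : OddLevel S ∅ 0 1 d tp ζ} {r g : ℕ} {F : OddFamily L₀ r g}

omit [CharZero O] [Fact p.Prime] in
/-- A component of the special fibre contains the annihilator and `ϖ`. -/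
theorem OddPatch.le_of_mem_associatedPrimes_fibre (P : OddPatch F) {ϖ : O} {v : OddVariant}
    {Q : Ideal (CoordRing S g)}
    (hQ : Q ∈ associatedPrimes (CoordRing S g) ((P.sys v).Fibre (MvPowerSeries.C ϖ))) :
    (P.sys v).annih ≤ Q ∧ MvPowerSeries.C ϖ ∈ Q := by
  have := hQ.isPrime
  have h := IsAssociatedPrime.annihilator_le hQ
  rw [Submodule.annihilator_top, (P.sys v).annihilator_fibre_le_iff, P.phi_C] at h
  exact h

omit [CharZero O] in
/-- A square root of `q + Q(P)`; its double squares to the trace of Frobenius squared. -/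
theorem OddPatch.exists_sqrt_coord (P : OddPatch F) (hp2 : p ≠ 2) (hpO : (p : O) ∈ maximalIdeal O)
    (hres : OddResidual p ρbar) (q : S.T) :
    ∃ h : CoordRing S g, h ^ 2 = ((q : ℕ) : CoordRing S g) + qForm (pCoord S g q) ∧
      ∀ n, P.eval n ((2 * h) ^ 2) =
        MvPowerSeries.C ((F.level n).ρ.trace (tp.atT q).frob ^ 2) := by
  have hq1 : ((q : ℕ) : CoordRing S g) - 1 ∈ maximalIdeal (CoordRing S g) := by
    have := natCast_sub_one_mem hpO (S.prime_of_mem q (by simp)) (S.one_mod_T q q.2)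
    simpa [MvPowerSeries.isUnit_iff_constantCoeff] using this
  have hQ : qForm (pCoord S g q) ∈ maximalIdeal (CoordRing S g) :=
    add_mem (Ideal.pow_mem_of_mem _ (coordX_mem_maximalIdeal _) 2 two_pos)
      (Ideal.mul_mem_right _ _ (coordX_mem_maximalIdeal _))
  obtain ⟨h, hh, -⟩ := LocQ.exists_sqrt (isUnit_two_coordRing (S := S) (g := g) hp2 hpO)
    (x := ((q : ℕ) : CoordRing S g) + qForm (pCoord S g q)) isUnit_one
    (by rw [one_pow, add_sub_right_comm]; exact add_mem hq1 hQ)
  refine ⟨h, hh, fun n => ?_⟩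
  set L := F.level n
  have : IsNoetherianRing L.R := IsNoetherianRing.of_finite O L.R
  have : Finite (ResidueField L.R) := HeckeRep.finite_residueField_of_finite (𝒪 := O)
  obtain ⟨-, hdΦ, -, -, -⟩ := matOf_atT Fact.out hpO hres.det L.residue_surjective L.isLiftOf
    L.lift.det (P.basis n) tp q
  have h2 : IsUnit (2 : L.R) := by
    simpa only [map_ofNat] using (isUnit_two_of_odd hp2 hpO).map (algebraMap O L.R)
  have hsq := sq_sub_quad_frameMat (RingHom.id (MvPowerSeries (FrameVar S.T) L.R)) h2 q hdΦ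
  simp only [RingHom.id_apply] at hsq
  have htr : Matrix.trace (FermatLib.Galois.Deform.matOf L.ρ (P.basis n) (tp.atT q).frob) =
      L.ρ.trace (tp.atT q).frob :=
    (LinearMap.trace_eq_matrix_trace L.R (P.basis n) _).symm
  rw [frameScalar, htr, map_mul] at hsq
  rw [mul_pow, hh, map_mul, map_add, map_pow, map_ofNat, map_natCast, map_qForm, P.eval_pCoord,
    P.eval_pCoord, P.eval_pCoord, map_pow]
  have hi : (2 : MvPowerSeries (FrameVar S.T) L.R) * MvPowerSeries.C (Ring.inverse 2) = 1 := by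
    rw [← map_ofNat MvPowerSeries.C 2, ← map_mul, Ring.mul_inverse_cancel _ h2, map_one]
  linear_combination (-4) * hsq + MvPowerSeries.C (L.ρ.trace (tp.atT q).frob) ^ 2 *
    (2 * MvPowerSeries.C (Ring.inverse 2) + 1) * hi

omit [CharZero O] in
/-- **A component unramified at all of `T`.** -/
theorem OddPatch.exists_component_unramified (P : OddPatch F) (hp2 : p ≠ 2)
    (hpO : (p : O) ∈ maximalIdeal O) (hres : OddResidual p ρbar) (hd : 0 < d .std)
    (hcount : g + S.F.card + S.pIdx = r + S.T.card)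
    (hζ : ∀ q ∈ S.T, ζ q ^ p = 1 ∧ ζ q ≠ 1) {ϖ : O} (hϖi : Irreducible ϖ)
    (hϖ : maximalIdeal O = Ideal.span {ϖ}) :
    ∃ Q ∈ associatedPrimes (CoordRing S g) ((P.sys .std).Fibre (MvPowerSeries.C ϖ)),
      ∃ σ : BranchIdx S → Bool, (∀ j, (oddBranches S g ϖ hϖ).br j (σ j) ≤ Q) ∧
        ∀ q : S.T, σ (some (Sum.inl q)) = true := by
  classical
  set D := oddBranches S g ϖ hϖ
  have := isDomain_diamondFrameFibre hϖ r S.T
  have hdimS := ringKrullDim_diamondFrameFibre_eq_dim hϖ hcount
  have hbr : ∀ Q ∈ associatedPrimes (CoordRing S g) ((P.sys .std).Fibre (MvPowerSeries.C ϖ)),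
      ∀ j, ∃ b, D.br j b ≤ Q := fun Q hQ j => by
    have := hQ.isPrime
    obtain ⟨hann, hϖQ⟩ := P.le_of_mem_associatedPrimes_fibre hQ
    exact P.exists_branch_le hp2 hpO hres.det hϖ hann hϖQ j
  suffices h : ∀ U : Finset S.T,
      ∃ Q ∈ associatedPrimes (CoordRing S g) ((P.sys .std).Fibre (MvPowerSeries.C ϖ)),
        ∃ σ : BranchIdx S → Bool, (∀ j, D.br j (σ j) ≤ Q) ∧
          ∀ q ∈ U, σ (some (Sum.inl q)) = true by
    obtain ⟨Q, hQ, σ, hσ, hU⟩ := h Finset.univ
    exact ⟨Q, hQ, σ, hσ, fun q => hU q (Finset.mem_univ q)⟩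
  intro U
  induction U using Finset.induction_on with
  | empty =>
    have : Nonempty (Fin (d .std)) := ⟨⟨0, hd⟩⟩
    have : Nontrivial ((P.sys .std).Fibre (MvPowerSeries.C ϖ)) :=
      inferInstanceAs (Nontrivial (Fin (d .std) → DiamondFrameRing O r S.T ⧸
        Ideal.span {(MvPowerSeries.C ϖ : DiamondFrameRing O r S.T)}))
    obtain ⟨Q, hQ⟩ := associatedPrimes.nonempty (CoordRing S g)
      ((P.sys .std).Fibre (MvPowerSeries.C ϖ))
    choose σ hσ using hbr Q hQ
    exact ⟨Q, hQ, σ, hσ, by simp⟩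
  | insert q U _ ih =>
    obtain ⟨Q, hQ, σ, hσ, hU⟩ := ih
    cases hb : σ (some (Sum.inl q))
    · obtain ⟨e, u, hu, hqn⟩ := P.exists_qForm_n_sub_mem_annih_chi hp2 hpO hres.det hϖ hζ q
      have hmin := (P.chi_relations hp2 hpO hres.det hζ q).1
      obtain ⟨Q', hQ', hflip, hsame⟩ := P.exists_flip_T D hϖ hϖi.ne_zero hdimS hbr
        (some (Sum.inl q)) q rfl rfl rfl rfl hu hmin hqn hQ hσ
      rw [hb, Bool.not_false] at hflip
      refine ⟨Q', hQ', Function.update σ (some (Sum.inl q)) true, fun j => ?_, fun q' hq' => ?_⟩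
      · rcases eq_or_ne j (some (Sum.inl q)) with rfl | hj
        · rwa [Function.update_self]
        · rw [Function.update_of_ne hj]
          exact hsame j hj
      · rcases eq_or_ne q' q with rfl | hne
        · exact Function.update_self _ _ _
        · rw [Function.update_of_ne (by simpa using hne)]
          exact hU q' ((Finset.mem_insert.mp hq').resolve_left hne)
    · refine ⟨Q, hQ, σ, hσ, fun q' hq' => ?_⟩
      rcases Finset.mem_insert.mp hq' with rfl | hq'
      exacts [hb, hU q' hq']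

/-- The product of the `t_q` does not kill every level. -/
theorem OddPatch.exists_prod_smul_ne_zero (P : OddPatch F) (hp2 : p ≠ 2)
    (hpO : (p : O) ∈ maximalIdeal O) (hres : OddResidual p ρbar) (hd : 0 < d .std)
    (hcount : g + S.F.card + S.pIdx = r + S.T.card)
    (hζ : ∀ q ∈ S.T, ζ q ^ p = 1 ∧ ζ q ≠ 1) :
    ∃ (n : ℕ) (v : (F.level n).M .std),
      (∏ q : S.T, ((F.level n).ρ.trace (tp.atT q).frob ^ 2 -
        (((q : ℕ) : (F.level n).R) + 1) ^ 2) ^ 2) • v ≠ 0 := by
  classical
  obtain ⟨ϖ, hϖi⟩ := IsDiscreteValuationRing.exists_irreducible O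
  have hϖ := hϖi.maximalIdeal_eq
  have := isDomain_diamondFrameFibre hϖ r S.T
  obtain ⟨Q, hQ, σ, hσ, hunr⟩ :=
    P.exists_component_unramified hp2 hpO hres hd hcount hζ hϖi hϖ
  obtain ⟨-, hϖQ⟩ := P.le_of_mem_associatedPrimes_fibre hQ
  choose h hsq hev using fun q : S.T => P.exists_sqrt_coord hp2 hpO hres q
  let e := Fintype.equivFin S.T
  have hQp := hQ.isPrime
  have hn : ∀ (q : S.T) i, nCoord S g q i ∈ Q := fun q i => by
    have hle := hσ (some (Sum.inl q))
    rw [hunr q] at hle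
    exact hle (Ideal.subset_span ⟨i, rfl⟩)
  have h2 : (2 : CoordRing S g) ∉ Q := fun hm => hQp.ne_top (Ideal.eq_top_of_isUnit_mem _ hm
    (isUnit_two_coordRing hp2 hpO))
  have hq1 : ∀ q : S.T, ((q : ℕ) : CoordRing S g) - 1 ∈ Q := fun q => by
    have hqm := natCast_sub_one_mem hpO (S.prime_of_mem q (by simp)) (S.one_mod_T q q.2)
    obtain ⟨a, ha⟩ := Ideal.mem_span_singleton'.mp (hϖ ▸ hqm)
    have := congrArg (MvPowerSeries.C : O →+* CoordRing S g) ha
    rw [map_mul, map_sub, map_natCast, map_one] at this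
    exact this ▸ Ideal.mul_mem_left _ _ hϖQ
  obtain ⟨n, x, hx⟩ := (P.sys .std).exists_prod_avoidT_smul_ne_zero (oddBranches S g ϖ hϖ)
    (MvPowerSeries.C ϖ) (ringKrullDim_diamondFrameFibre_eq_dim hϖ hcount) hQ hσ
    (fun j => some (Sum.inl (e.symm j))) (fun j => nCoord S g (e.symm j))
    (fun j => pCoord S g (e.symm j)) (fun j => ((e.symm j : ℕ) : CoordRing S g))
    (fun j => 2 * h (e.symm j)) (fun _ => 1) (fun j => h (e.symm j))
    (fun j r => coordX_mem_maximalIdeal _) (fun j => rfl) (fun j => by norm_num [oddBranches, branchDim])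
    (fun j i => hn _ i) h2 (fun j => hq1 _)
    (fun j => by simp) (fun j => by rw [hsq]; simp) 2
  refine ⟨n, ?_⟩
  by_contra! hall
  refine hx (P.smul_eq_zero .std n _ x ?_)
  have hev' : P.eval n (∏ j, avoidT ((e.symm j : ℕ) : CoordRing S g) (2 * h (e.symm j)) 1 ^ 2) =
      MvPowerSeries.C (∏ q : S.T, ((F.level n).ρ.trace (tp.atT q).frob ^ 2 -
        (((q : ℕ) : (F.level n).R) + 1) ^ 2) ^ 2) := by
    rw [map_prod, map_prod, ← Equiv.prod_comp e.symm
      (fun q : S.T => MvPowerSeries.C (((F.level n).ρ.trace (tp.atT q).frob ^ 2 -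
        (((q : ℕ) : (F.level n).R) + 1) ^ 2) ^ 2))]
    refine Finset.prod_congr rfl fun j _ => ?_
    simp only [avoidT, one_mul, map_pow, map_sub, map_add, map_natCast, map_one, hev]
  rw [hev']
  exact Ideal.mem_map_of_mem _ (Module.mem_annihilator.mpr hall)

/-- **Ihara avoidance.** -/
theorem hasMinimalSeed_of_hasSeed (hp2 : p ≠ 2) (hpO : (p : O) ∈ maximalIdeal O)
    (hζ : ∃ z : O, z ^ p = 1 ∧ z ≠ 1) (hres : OddResidual p ρbar) (S : OddPrimes p ρbar)
    (hflat : S.pCase = PCase.flat) (hF : S.F = ∅) (hseed : HasSeed S) : HasMinimalSeed S := by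
  classical
  by_contra hmin
  let tp : S.TamePairs := fun q => (exists_tamePair (Fact.out : p.Prime)
    (S.prime_of_mem q.1 (by
      have := q.2
      simp only [Finset.mem_union] at this ⊢
      tauto))
    (S.ne_p q.1 (by
      have := q.2
      simp only [Finset.mem_union] at this ⊢
      tauto))).some
  obtain ⟨r, g, hcount, hgen⟩ := exists_twPrimes_generators hp2 hpO hres S tp
  obtain ⟨d, ζ, avoid, hζT, hd, -, L₀, -, -, -, hlev⟩ :=
    exists_oddLevels hp2 hpO hζ hres S tp hseed (m := 0) Fin.elim0 fun i => i.elim0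
  choose qv hqv hqa hg using fun n => hgen n avoid
  choose L hhom hkill using fun n => hlev n (qv n) (hqv n) (hqa n)
  let F : OddFamily L₀ r g :=
    { qv := qv
      level := L
      hom := fun n => (hhom n).some
      gen := fun n => hg n (L n).R (L n).residue_surjective (L n).ρ (L n).lift (L n).isLiftOf
        (L n).generated }
  obtain ⟨P⟩ := nonempty_oddPatch hpO F
  obtain ⟨n, v, hv⟩ := P.exists_prod_smul_ne_zero hp2 hpO hres hd hcount hζT
  exact hv (hkill n hflat hF hmin v)

end FermatLib.MLT.Odd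

end
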