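import Fermat.Agent.MLT.Odd.Defs
import Fermat.Prelude.Def_CuspForm_HeckeAlgebra
import Mathlib.FieldTheory.Finite.Basic

/-!
# Modular seeds and the Mazur principle away from `p`

Residual modularity is carried by a character of a Hecke algebra which keeps the operators at
`p` and at the primes of the level, so that congruences of `U` operators survive level lowering.
-/

set_option autoImplicit false

namespace FermatLib.MLT.Odd

open IsLocalRing CuspForm

local notation "Γℚ" => (AlgebraicClosure ℚ ≃ₐ[ℚ] AlgebraicClosure ℚ)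

variable {k : Type} [Field k] {p : ℕ} {ρbar : ResidualGaloisRep k}

/-- `θ` has the traces of `ρbar` away from `p N E`. -/
def HasResidualTraces (p : ℕ) (ρbar : ResidualGaloisRep k) {N : ℕ} [NeZero N] {E : Set ℕ}
    (θ : heckeAlgebra N 2 E →+* k) : Prop :=
  ∀ (ℓ : ℕ) (hℓ : ℓ.Prime) (hℓN : ¬ ℓ ∣ N) (hℓE : ℓ ∉ E), ℓ ≠ p →
    ∀ A : ValuationSubring (AlgebraicClosure ℚ), A.LiesOverPrime ℓ →
      ∀ σ : Γℚ, A.IsFrobeniusAt σ ℓ →
        LinearMap.trace k ρbar.V (ρbar.ρ σ) = θ (heckeAlgebra.T hℓ hℓN hℓE)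

/-- The primes outside which a seed is recorded: `S.all`, and `p` unless needed. -/
def OddPrimes.seedExcluded (S : OddPrimes p ρbar) : Set ℕ :=
  if S.pCase = PCase.mixed then (S.all : Set ℕ) else insert p (S.all : Set ℕ)

/-- A modular seed with level in the primes `Smin`, `T`, and `p` unless the case is flat, and in
the mixed case `U_p ^ 2` (or `T_p ^ 2`) congruent to one. -/
def HasSeedIn (S : OddPrimes p ρbar) (T' : Finset ℕ) : Prop :=
  ∃ (N : ℕ) (_ : NeZero N), Squarefree N ∧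
    (∀ q : ℕ, q.Prime → q ∣ N → q ∈ S.Smin ∪ T' ∨ (q = p ∧ S.pCase ≠ PCase.flat)) ∧
    ∃ θ : heckeAlgebra N 2 S.seedExcluded →+* k, HasResidualTraces p ρbar θ ∧
      ∀ (hp : p.Prime) (hpE : p ∉ S.seedExcluded),
        (∀ hN : p ∣ N, θ (heckeAlgebra.U hp hN hpE) ^ 2 = 1) ∧
        (∀ hN : ¬ p ∣ N, θ (heckeAlgebra.T hp hN hpE) ^ 2 = 1)

/-- Residual modularity of the required shape. -/
def HasSeed (S : OddPrimes p ρbar) : Prop := HasSeedIn S S.T

/-- Residual modularity without the primes of `T` in the level. -/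
def HasMinimalSeed (S : OddPrimes p ρbar) : Prop := HasSeedIn S ∅

/-- **Mazur's principle** at a prime `q ≠ p` where `ρbar` is unramified, unless `q ≡ 1 (mod p)`
and Frobenius is scalar. The other Hecke operators keep their values. At `p = 3` the representation
is assumed not induced from `ℚ(√-3)`: some element of determinant `-1` has nonzero trace. -/
def MazurNonScalar : Prop :=
  ∀ (p : ℕ) [Fact p.Prime], p ≠ 2 → ∀ (k : Type) [Field k] [Finite k] [CharP k p]
    (ρbar : ResidualGaloisRep k), ρbar.IsAbsolutelyIrreducible →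
    (GaloisRepAdic.ofResidualGaloisRep ρbar).DetIsCyclotomic p →
    (p = 3 → ∃ σ, LinearMap.det (ρbar.ρ σ) = -1 ∧ LinearMap.trace k ρbar.V (ρbar.ρ σ) ≠ 0) →
    ∀ (N q : ℕ) [NeZero N] [NeZero (N / q)], Squarefree N → q.Prime → q ∣ N → q ≠ p →
      ρbar.IsUnramifiedAt q → ¬ (q ≡ 1 [MOD p] ∧ IsScalarAt ρbar q) →
    ∀ (E : Finset ℕ) (θ : heckeAlgebra N 2 (E : Set ℕ) →+* k), HasResidualTraces p ρbar θ →
      ∃ θ' : heckeAlgebra (N / q) 2 (insert q (E : Set ℕ)) →+* k,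
        (∀ (ℓ : ℕ) (hℓ : ℓ.Prime) (h' : ¬ ℓ ∣ N / q) (hE' : ℓ ∉ insert q (E : Set ℕ))
          (h : ¬ ℓ ∣ N) (hE : ℓ ∉ (E : Set ℕ)),
          θ' (heckeAlgebra.T hℓ h' hE') = θ (heckeAlgebra.T hℓ h hE)) ∧
        ∀ (ℓ : ℕ) (hℓ : ℓ.Prime) (h' : ℓ ∣ N / q) (hE' : ℓ ∉ insert q (E : Set ℕ))
          (h : ℓ ∣ N) (hE : ℓ ∉ (E : Set ℕ)),
          θ' (heckeAlgebra.U hℓ h' hE') = θ (heckeAlgebra.U hℓ h hE)

end FermatLib.MLT.Odd
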