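import Fermat.Agent.MLT.ResidualIdentify
import Fermat.Agent.MLT.Odd.Inputs
import Fermat.Agent.Modular.LevelChangeSystem
import Fermat.Agent.Modular.IntStruct
import Fermat.Agent.Modular.HeckeFinite

/-!
# Residual modularity and residual Hecke characters

`exists_residualCharacter` turns residual modularity of level `M` into a character of the full
Hecke algebra of level `M` with the traces of the residual representation, with values in the
residue field of a coefficient ring containing `ζ_p` where all integral quadratics split;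
`isResiduallyModularOfLevel_of_hasResidualTraces` goes back from a character of a Hecke algebra
away from a finite set.
-/

set_option autoImplicit false
set_option linter.style.haveILetI false

noncomputable section

open IsLocalRing Polynomial WeierstrassCurve
open scoped WeierstrassCurve.Affine

namespace FermatLib.MLT.Odd

local notation "Qbar" => AlgebraicClosure ℚ
local notation "Γℚ" => (AlgebraicClosure ℚ ≃ₐ[ℚ] AlgebraicClosure ℚ)
local notation "ZbarC" => integralClosure ℤ ℂ

variable {W : WeierstrassCurve ℤ} {p : ℕ} [Fact p.Prime]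

/-- The trace of a Frobenius at a good prime on the residual representation. -/
theorem trace_curveResidualRepExt_frobenius (hΔ : W.Δ ≠ 0) {k : Type} [Field k]
    (ι : ZMod p →+* k) {ℓ : ℕ} (hℓ : ℓ.Prime) (hg : W.IsGoodPrimeFor ℓ) (hℓp : ℓ ≠ p)
    {A : ValuationSubring Qbar} (hA : A.LiesOverPrime ℓ) {σ : Γℚ} (hσ : A.IsFrobeniusAt σ ℓ) :
    LinearMap.trace k _ ((curveResidualRepExt W hΔ p ι).ρ σ) = ((W.apOfModel ℓ : ℤ) : k) := by
  rw [trace_curveResidualRepExt, galoisTrace_of_isFrobeniusAt hℓ hg hℓp hA hσ, map_intCast]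

/-- A character of a Hecke algebra away from a finite set with the residual traces of `W` makes
`W` residually modular of that level. -/
theorem isResiduallyModularOfLevel_of_hasResidualTraces (hattach : Galois.PadicAttachment)
    (hΔ : W.Δ ≠ 0) {N : ℕ} [NeZero N] {k : Type} [Field k] (ι : ZMod p →+* k) {E : Set ℕ}
    (hE : E.Finite) (θ : ↥(CuspForm.heckeAlgebra N 2 E) →+* k)
    (hθ : HasResidualTraces p (curveResidualRepExt W hΔ p ι) θ) :
    W.IsResiduallyModularOfLevel p N := by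
  haveI := Modular.heckeAlgebra_moduleFinite N 2 E
  haveI : CharP k p := charP_of_injective_ringHom ι.injective p
  haveI : (RingHom.ker θ).IsPrime := RingHom.ker_isPrime θ
  haveI : (RingHom.ker θ).IsMaximal := by
    refine Ideal.isMaximal_of_isIntegral_of_isMaximal_comap (R := ℤ) (RingHom.ker θ) ?_
    have hle : Ideal.span {(p : ℤ)} ≤ (RingHom.ker θ).comap (algebraMap ℤ _) := by
      rw [Ideal.span_singleton_le_iff_mem, Ideal.mem_comap, RingHom.mem_ker, map_natCast,
        map_natCast, CharP.cast_eq_zero]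
    have hmax : (Ideal.span {(p : ℤ)}).IsMaximal := PrincipalIdealRing.isMaximal_of_irreducible
      (Nat.prime_iff_prime_int.mp Fact.out).irreducible
    rw [← hmax.eq_of_le (Ideal.IsPrime.ne_top inferInstance) hle]
    exact hmax
  obtain ⟨f, χ, 𝔪, hf, hmax, hcomap, -, hT, -⟩ :=
    Modular.exists_normalizedEigenform_lift_maximal_away (Modular.hasIntegralStructure N 2)
      (RingHom.ker θ)
  have hpm : (p : ZbarC) ∈ 𝔪 := by
    have h : (p : ↥(CuspForm.heckeAlgebra N 2 E)) ∈ RingHom.ker θ := by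
      rw [RingHom.mem_ker, map_natCast, CharP.cast_eq_zero]
    rw [← hcomap, Ideal.mem_comap, map_natCast] at h
    exact h
  refine isResiduallyModularOfLevel_of_forall_notMem hattach Fact.out hΔ hf hmax hpm hE.toFinset
    fun ℓ hℓ hg hℓN hℓp hℓE => ?_
  rw [Set.Finite.mem_toFinset] at hℓE
  refine ⟨χ (CuspForm.heckeAlgebra.T hℓ hℓN hℓE), hT ℓ hℓ hℓN hℓE, ?_⟩
  have h : CuspForm.heckeAlgebra.T hℓ hℓN hℓE -
      ((W.apOfModel ℓ : ℤ) : ↥(CuspForm.heckeAlgebra N 2 E)) ∈ RingHom.ker θ := by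
    obtain ⟨A, hA⟩ := Basic.exists_liesOverPrime hℓ
    obtain ⟨σ, hσ⟩ := Basic.exists_isFrobeniusAt hℓ A hA
    rw [RingHom.mem_ker, map_sub, map_intCast, ← hθ ℓ hℓ hℓN hℓE hℓp A hA σ hσ,
      trace_curveResidualRepExt_frobenius hΔ ι hℓ hg hℓp hA hσ, sub_self]
  rw [← hcomap, Ideal.mem_comap, map_sub, map_intCast] at h
  exact h

/-- Residual modularity as a character of the Hecke algebra of the same level with values in the
residue field of a coefficient ring containing `ζ_p` in which all quadratics split residually. -/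
theorem exists_residualCharacter (hattach : Galois.PadicAttachment) (hΔ : W.Δ ≠ 0) {M : ℕ}
    [NeZero M] (hres : W.IsResiduallyModularOfLevel p M) :
    ∃ (O : Type) (_ : CommRing O) (_ : IsDomain O) (_ : IsDiscreteValuationRing O)
      (_ : IsAdicComplete (maximalIdeal O) O) (_ : Finite (ResidueField O)) (_ : CharZero O),
      (p : O) ∈ maximalIdeal O ∧ (∃ ζ : O, ζ ^ p = 1 ∧ ζ ≠ 1) ∧
      (∀ b d : ℤ, ∃ r : ResidueField O,
        r ^ 2 + (b : ResidueField O) * r + (d : ResidueField O) = 0) ∧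
      ∀ ι : ZMod p →+* ResidueField O,
        ∃ θ : ↥(CuspForm.heckeAlgebra M 2 (∅ : Set ℕ)) →+* ResidueField O,
          HasResidualTraces p (curveResidualRepExt W hΔ p ι) θ := by
  classical
  obtain ⟨f, 𝔪, hf, hmax, hpm, hwit⟩ := hres
  have hpp : p.Prime := Fact.out
  haveI := hmax
  letI : Field (ZbarC ⧸ 𝔪) := Ideal.Quotient.field 𝔪
  haveI : CharP (ZbarC ⧸ 𝔪) p := by
    refine (CharP.charP_iff_prime_eq_zero hpp).mpr ?_
    rw [← map_natCast (Ideal.Quotient.mk 𝔪), Ideal.Quotient.eq_zero_iff_mem]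
    exact hpm
  haveI := Modular.heckeAlgebra_moduleFinite M 2 (∅ : Set ℕ)
  obtain ⟨ξ, -, hξT, -⟩ := Galois.exists_eigenformCharacter (S := (∅ : Set ℕ)) hf
  obtain ⟨ρ, hatt, -, hch⟩ := exists_attached_charpoly_eq hattach hΔ (NeZero.ne M) hf
    (k := ZbarC ⧸ 𝔪) (Ideal.Quotient.mk 𝔪) ∅ fun q hq hqg hqM hqp _ => by
      obtain ⟨a, ha, hmem⟩ := hwit q hq hqg hqM hqp
      exact ⟨a, ha, by rw [Ideal.Quotient.eq.2 hmem, map_intCast]⟩
  -- the generators: a root of unity and roots of the quadratics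
  have hquad : ∀ b d : ℤ, ∃ z : ZbarC, z ^ 2 + (b : ZbarC) * z + (d : ZbarC) = 0 := fun b d => by
    have hdeg : ((X ^ 2 + C (b : ℂ) * X + C (d : ℂ)) : ℂ[X]).degree = 2 := by compute_degree!
    obtain ⟨z, hz⟩ := IsAlgClosed.exists_root _ (hdeg.trans_ne (by decide))
    have hz' : z ^ 2 + (b : ℂ) * z + (d : ℂ) = 0 := by simpa using hz
    refine ⟨⟨z, X ^ 2 + C b * X + C d, by monicity!, by rw [eval₂_add, eval₂_add, eval₂_mul, eval₂_X_pow, eval₂_X, eval₂_C, eval₂_C]; exact hz'⟩, Subtype.ext ?_⟩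
    simpa using hz'
  choose zr hzr using hquad
  have hζ := Complex.isPrimitiveRoot_exp p hpp.ne_zero
  let ζC : ZbarC := ⟨_, hζ.isIntegral hpp.pos⟩
  obtain ⟨s, hs⟩ := Module.finite_def.mp
    (inferInstance : Module.Finite ℤ ↥(CuspForm.heckeAlgebra M 2 (∅ : Set ℕ)))
  let G : Set ZbarC := insert ζC (ξ '' (s : Set _) ∪
    Set.range fun bd : Fin p × Fin p => zr ((bd.1 : ℕ) : ℤ) ((bd.2 : ℕ) : ℤ))
  have hG : G.Finite := ((s.finite_toSet.image ξ).union (Set.finite_range _)).insert ζC
  let B : Subalgebra ℤ ZbarC := Algebra.adjoin ℤ G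
  haveI : Module.Finite ℤ ↥B := Module.Finite.iff_fg.mpr
    (fg_adjoin_of_finite hG fun x _ => Algebra.IsIntegral.isIntegral x)
  have hξB : ∀ t, ξ t ∈ B := fun t => by
    have ht : t ∈ Submodule.span ℤ (s : Set ↥(CuspForm.heckeAlgebra M 2 (∅ : Set ℕ))) :=
      hs ▸ Submodule.mem_top
    induction ht using Submodule.span_induction with
    | mem x hx =>
      exact Algebra.subset_adjoin (Set.mem_insert_of_mem _ (Or.inl (Set.mem_image_of_mem ξ hx)))
    | zero => rw [map_zero]; exact zero_mem B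
    | add x y _ _ hx hy => rw [map_add]; exact add_mem hx hy
    | smul n x _ hx => rw [map_zsmul]; exact zsmul_mem hx n
  obtain ⟨O, _, _, _, _, _, _, hpO, χ, j, hj⟩ :=
    Galois.exists_padicPoint (T := ↥B) B.val.toRingHom hpp (Ideal.Quotient.mk 𝔪)
  haveI : CharP (ResidueField O) p := (CharP.charP_iff_prime_eq_zero hpp).mpr (by
    rw [← map_natCast (residue O), residue_eq_zero_iff]; exact hpO)
  refine ⟨O, inferInstance, inferInstance, inferInstance, inferInstance, inferInstance,
    inferInstance, hpO, ?_, fun b d => ?_, fun ι => ?_⟩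
  · let ζB : ↥B := ⟨ζC, Algebra.subset_adjoin (Set.mem_insert _ _)⟩
    let e : ↥B →+* ℂ := (integralClosure ℤ ℂ).toSubring.subtype.comp B.val.toRingHom
    have he : Function.Injective e := Subtype.val_injective.comp Subtype.val_injective
    refine ⟨χ ζB, ?_, fun h1 => ?_⟩
    · rw [← map_pow, ← map_one χ]
      exact congrArg χ (he (by rw [map_pow, map_one]; exact hζ.pow_eq_one))
    · have hsum : ∑ i ∈ Finset.range p, ζB ^ i = 0 :=
        he (by rw [map_sum, map_zero]; simp only [map_pow]; exact hζ.geom_sum_eq_zero hpp.one_lt)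
      have h := congrArg χ hsum
      rw [map_sum, map_zero] at h
      simp only [map_pow, h1, one_pow, Finset.sum_const, Finset.card_range, nsmul_eq_mul,
        mul_one] at h
      exact hpp.ne_zero (by exact_mod_cast h)
  · let ι₀ : ZMod p →+* ResidueField O := ZMod.castHom (dvd_refl p) _
    have hval : ∀ c : ℤ, (c : ResidueField O) = (((c : ZMod p).val : ℕ) : ResidueField O) :=
      fun c => by rw [← map_natCast ι₀, ZMod.natCast_zmod_val, map_intCast]
    let bd : Fin p × Fin p := (⟨(b : ZMod p).val, ZMod.val_lt _⟩, ⟨(d : ZMod p).val, ZMod.val_lt _⟩)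
    let zB : ↥B := ⟨zr ((bd.1 : ℕ) : ℤ) ((bd.2 : ℕ) : ℤ),
      Algebra.subset_adjoin (Set.mem_insert_of_mem _ (Or.inr ⟨bd, rfl⟩))⟩
    refine ⟨residue O (χ zB), ?_⟩
    have hzB : zB ^ 2 + ((bd.1 : ℕ) : ↥B) * zB + ((bd.2 : ℕ) : ↥B) = 0 :=
      Subtype.ext (by simpa [zB] using hzr ((bd.1 : ℕ) : ℤ) ((bd.2 : ℕ) : ℤ))
    have h := congrArg (fun x => residue O (χ x)) hzB
    simp only [map_add, map_mul, map_pow, map_natCast, map_zero] at h
    rw [hval b, hval d]
    exact h
  · let θ : ↥(CuspForm.heckeAlgebra M 2 (∅ : Set ℕ)) →+* ResidueField O :=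
      (residue O).comp (χ.comp (ξ.codRestrict B hξB))
    refine ⟨θ, fun ℓ hℓ hℓM hℓE hℓp A hA σ hσ => j.injective ?_⟩
    have hℓ0 : (ℓ : ZbarC ⧸ 𝔪) ≠ 0 := fun h0 => hℓp
      ((Nat.prime_dvd_prime_iff_eq hpp hℓ).1 ((CharP.cast_eq_zero_iff _ p _).1 h0)).symm
    obtain ⟨a, ha, hpoly⟩ := hatt ℓ hℓ hℓM hℓ0 A hA σ hσ
    have h1 := (Galois.trace_det_of_linearMap_charpoly_eq ρ.finrank_eq _ hpoly).1
    rw [(Galois.trace_det_of_linearMap_charpoly_eq ρ.finrank_eq _ (hch σ)).1] at h1
    have h2 : j (θ (CuspForm.heckeAlgebra.T hℓ hℓM hℓE)) = Ideal.Quotient.mk 𝔪 a :=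
      (hj _).trans (congrArg (Ideal.Quotient.mk 𝔪)
        (Subtype.ext ((hξT ℓ hℓ hℓM hℓE).trans ha.symm)))
    rw [h2, ← h1, trace_curveResidualRepExt]
    exact RingHom.congr_fun
      (RingHom.ext_zmod (j.comp ι) (ZMod.castHom (dvd_refl p) (ZbarC ⧸ 𝔪))) _

end FermatLib.MLT.Odd

end
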