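import Fermat.Agent.MLT.ResidualSemistable
import Fermat.Agent.MLT.ResidualMultFrob
import Fermat.Agent.MLT.ResidualIdentify
import Fermat.Agent.Basic.FrobeniusExists

/-!
# An element of determinant `-1` and nonzero trace at `p = 3`

The mod `3` representation of a semistable curve stays absolutely irreducible on the kernel of the
determinant, so it is not induced from there: some element of determinant `-1` has nonzero trace.
-/

set_option autoImplicit false

noncomputable section

namespace FermatLib.MLT.Odd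

open FermatLib.Galois

local notation "Γℚ" => (AlgebraicClosure ℚ ≃ₐ[ℚ] AlgebraicClosure ℚ)

theorem units_zmod_three : ∀ u : (ZMod 3)ˣ, u = 1 ∨ u = -1 := by decide

theorem zmod_three_facts : ((1 : (ZMod 3)ˣ) : ZMod 3) ≠ ((2 : ℕ) : ZMod 3) ∧
    (-1 : (ZMod 3)ˣ) ≠ 1 ∧ (-1 : (ZMod 3)ˣ) * -1 = 1 := by decide

variable (W : WeierstrassCurve ℤ) (hΔ : W.Δ ≠ 0)

theorem exists_det_neg_one_trace_ne_zero {p : ℕ} [Fact p.Prime] {k : Type} [Field k]
    (ι : ZMod p →+* k) (hW : W.IsSemistableModel) (hirr : W.ModRepIsIrreducible p) (hp3 : p = 3) :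
    ∃ σ : Γℚ, LinearMap.det ((curveResidualRepExt W hΔ p ι).ρ σ) = -1 ∧
      LinearMap.trace k _ ((curveResidualRepExt W hΔ p ι).ρ σ) ≠ 0 := by
  subst hp3
  let χ : Γℚ →* (ZMod 3)ˣ := ExtCitation.cycloChar 3
  have hunits := units_zmod_three
  obtain ⟨A, hA⟩ := FermatLib.Basic.exists_liesOverPrime Nat.prime_two
  obtain ⟨c, hc⟩ := FermatLib.Basic.exists_isFrobeniusAt Nat.prime_two A hA
  have hχc : χ c = -1 := by
    refine (hunits _).resolve_left fun h => ?_
    have h2 := cycloChar_of_isFrobeniusAt (p := 3) Nat.prime_two (by norm_num) hA hc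
    rw [show ExtCitation.cycloChar 3 c = χ c from rfl, h] at h2
    exact zmod_three_facts.1 h2
  have hmem : ∀ b, b ∈ χ.ker ↔ χ b = 1 := fun b => MonoidHom.mem_ker
  have hindex : χ.ker.index = 2 := Subgroup.index_eq_two_iff.mpr ⟨c, fun b => by
    rw [hmem, hmem, map_mul, hχc]
    rcases hunits (χ b) with h | h <;> rw [h]
    · exact Or.inr ⟨rfl, by rw [one_mul]; exact zmod_three_facts.2.1⟩
    · exact Or.inl ⟨zmod_three_facts.2.2, zmod_three_facts.2.1⟩⟩
  have hfull := curveResidualRep_hasFullSpan_index_two W hΔ 3 (by norm_num) hirr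
    (fun q hq hqp _ hB _ hσ => trace_curveMat_inertia_away W hΔ 3 hq hqp (hW q hq) hB hσ)
    (fun _ hB => curveMat_inertia_shape W hΔ 3 (by norm_num)
      ((em (((3 : ℕ) : ℤ) ∣ W.Δ)).elim (fun h => Or.inr (hW 3 Fact.out h)) Or.inl) hB)
    χ.ker hindex
  -- some element off the kernel has nonzero trace
  obtain ⟨g, hg⟩ : ∃ g : χ.ker, (curveMat W hΔ 3 (g * c)).trace ≠ 0 := by
    by_contra! h
    have h0 : ∀ X : Matrix (Fin 2) (Fin 2) (ZMod 3), (X * curveMat W hΔ 3 c).trace = 0 := by
      intro X
      have hX : X ∈ Submodule.span (ZMod 3) (Set.range ((curveMat W hΔ 3).comp χ.ker.subtype)) :=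
        hfull.span_range_eq_top ▸ Submodule.mem_top
      induction hX using Submodule.span_induction with
      | mem X hX =>
        obtain ⟨g, rfl⟩ := hX
        have := h g
        rwa [map_mul] at this
      | zero => simp
      | add X Y _ _ hx hy => rw [add_mul, Matrix.trace_add, hx, hy, add_zero]
      | smul a X _ hx => rw [smul_mul_assoc, Matrix.trace_smul, hx, smul_zero]
    have hzero : curveMat W hΔ 3 c = 0 := by
      ext i j
      have := h0 (Matrix.single j i 1)
      rw [Matrix.trace_single_mul, one_smul] at this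
      exact this
    have hdet := det_curveMat W hΔ 3 c
    rw [hzero, Matrix.det_zero] at hdet
    exact Units.ne_zero _ hdet.symm
  refine ⟨g * c, ?_, ?_⟩
  · rw [curveResidualRepExt_det, show ExtCitation.cycloChar 3 ((g : Γℚ) * c) = χ ((g : Γℚ) * c)
      from rfl, map_mul, (hmem g).mp g.2, one_mul, hχc, Units.val_neg, Units.val_one, map_neg,
      map_one]
  · rw [trace_curveResidualRepExt]
    refine fun h => hg (ι.injective ?_)
    rw [map_zero, ← h]
    congr 1
    show (repMatrix _ _ ((g : Γℚ) * c)).trace = _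
    rw [trace_repMatrix]
    rfl

end FermatLib.MLT.Odd

end
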