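import Fermat.Agent.MLT.Odd.EndgameSeed
import Fermat.Agent.MLT.ResidualSemistable
import Fermat.Agent.MLT.Odd.Generators
import Fermat.Agent.MLT.Odd.TraceOdd

/-!
# Seeds of a curve

`CurveSeed` packages a coefficient ring and a residual character of level `N` for a curve.
-/

set_option autoImplicit false
set_option linter.style.haveILetI false

noncomputable section

open IsLocalRing

namespace FermatLib.MLT.Odd

open CuspForm

local notation "Γℚ" => (AlgebraicClosure ℚ ≃ₐ[ℚ] AlgebraicClosure ℚ)

variable {W : WeierstrassCurve ℤ} {p N : ℕ} [Fact p.Prime]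

/-- A coefficient ring and a residual character of level `N` with the traces of `E[p]`. -/
structure CurveSeed (W : WeierstrassCurve ℤ) (hΔ : W.Δ ≠ 0) (p N : ℕ) [Fact p.Prime] [NeZero N] :
    Type 1 where
  O : Type
  [instCommRing : CommRing O]
  [instIsDomain : IsDomain O]
  [instDVR : IsDiscreteValuationRing O]
  [instComplete : IsAdicComplete (maximalIdeal O) O]
  [instFiniteResidue : Finite (ResidueField O)]
  [instCharZero : CharZero O]
  ι : ZMod p →+* ResidueField O
  mem_maximalIdeal : (p : O) ∈ maximalIdeal O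
  exists_root : ∃ ζ : O, ζ ^ p = 1 ∧ ζ ≠ 1
  even : letI : Algebra (ZMod p) (ResidueField O) := ι.toAlgebra
    2 ∣ Module.finrank (ZMod p) (ResidueField O)
  θ : heckeAlgebra N 2 (∅ : Set ℕ) →+* ResidueField O
  traces : HasResidualTraces p (curveResidualRepExt W hΔ p ι) θ
  unit_p : ∀ (hp : p.Prime) (hpN : p ∣ N) (hpE : p ∉ (∅ : Set ℕ)),
    θ (heckeAlgebra.U hp hpN hpE) ^ 2 = 1

attribute [instance] CurveSeed.instCommRing CurveSeed.instIsDomain CurveSeed.instDVR
  CurveSeed.instComplete CurveSeed.instFiniteResidue CurveSeed.instCharZero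

/-- The residual representation of a seed. -/
abbrev CurveSeed.ρbar {hΔ : W.Δ ≠ 0} [NeZero N] (D : CurveSeed W hΔ p N) :
    ResidualGaloisRep (ResidueField D.O) :=
  curveResidualRepExt W hΔ p D.ι

theorem nonempty_curveSeed (hattach : Galois.PadicAttachment) (hΔ : W.Δ ≠ 0) [NeZero N]
    (h : ResModularUnitAtP W p N) : Nonempty (CurveSeed W hΔ p N) := by
  obtain ⟨f, 𝔪, hf, hmax, hpm, hres, hu⟩ := h
  obtain ⟨O, _, _, _, _, _, _, ι, hpO, hζ, hk, θ, hθ, hθu⟩ :=
    exists_seedData hattach hΔ hf hmax hpm hres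
  exact ⟨{ O := O, ι := ι, mem_maximalIdeal := hpO, exists_root := hζ, even := hk, θ := θ
           traces := hθ, unit_p := fun hp hpN hpE => hθu hp hpN hpE (hu hpN) }⟩

/-- The global hypotheses on the residual representation of a seed. -/
theorem CurveSeed.oddResidual {hΔ : W.Δ ≠ 0} (hp2 : p ≠ 2) (hW : W.IsSemistableModel)
    (hirr : W.ModRepIsIrreducible p) [NeZero N] (D : CurveSeed W hΔ p N) :
    OddResidual p D.ρbar where
  absIrred := curveResidualRepExt_isAbsolutelyIrreducible W hΔ p D.ι hp2 hirr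
  det := curveResidualRepExt_detIsCyclotomic W hΔ p D.ι
  split σ := curveResidualRepExt_split W hΔ p D.ι D.even σ
  index_two K _ _ G hG V hV :=
    curveResidualRepExt_stable_of_semistable W hΔ p D.ι hp2 hW hirr K G hG V hV

end FermatLib.MLT.Odd
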