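import Fermat.Agent.MLT.Odd.EndgameSeed
import Fermat.Agent.MLT.ResidualMultFrob
import Fermat.Agent.Modular.LevelChangeEigen
import Fermat.Agent.Modular.Newforms.Newforms
import Fermat.Agent.MLT.SwitchChain

/-!
# The residual witness with `a_p = ± 1` from the curve of a switch

The eigensystem of a curve modular at its conductor, `p` a bad prime, is realised at that level
with `a_p = ± 1`: either the newform behind it is new at `p`, or `a_p = ± (p + 1)` by comparing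
Frobenius at `p` modulo infinitely many primes, and `± 1` is a root of the Hecke polynomial.
-/

set_option autoImplicit false
set_option linter.style.haveILetI false

noncomputable section

open Polynomial CongruenceSubgroup ModularFormClass

namespace FermatLib.MLT.Odd

open WeierstrassCurve WeierstrassCurve.Affine.Point
open scoped WeierstrassCurve.Affine

local notation "Ω" => AlgebraicClosure ℚ
local notation "ZbarC" => integralClosure ℤ ℂ

variable {W : WeierstrassCurve ℤ} {M q : ℕ}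

/-- An algebraic integer in maximal ideals of unbounded residual characteristic is zero. -/
theorem eq_zero_of_forall_mem_maximal (w : ZbarC)
    (h : ∀ B : ℕ, ∃ l : ℕ, B ≤ l ∧ l.Prime ∧
      ∃ 𝔪 : Ideal ZbarC, 𝔪.IsMaximal ∧ (l : ZbarC) ∈ 𝔪 ∧ w ∈ 𝔪) : w = 0 := by
  by_contra hw
  have hint : IsIntegral ℤ w := Algebra.IsIntegral.isIntegral w
  have hc : (minpoly ℤ w).coeff 0 ≠ 0 := fun hc => by
    obtain ⟨r, hr⟩ := X_dvd_iff.mpr hc
    have hu := ((minpoly.irreducible hint).isUnit_or_isUnit hr).resolve_left not_isUnit_X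
    have h0 := minpoly.aeval ℤ w
    rw [hr, map_mul, aeval_X] at h0
    exact hw ((IsUnit.mul_left_eq_zero (hu.map (aeval w))).mp h0)
  obtain ⟨l, hl, hlp, 𝔪, hmax, hlm, hwm⟩ := h ((minpoly ℤ w).coeff 0).natAbs.succ
  have hcm : (algebraMap ℤ ZbarC ((minpoly ℤ w).coeff 0)) ∈ 𝔪 := by
    have h0 := minpoly.aeval ℤ w
    rw [aeval_eq_sum_range, Finset.sum_range_succ'] at h0
    have hz : algebraMap ℤ ZbarC ((minpoly ℤ w).coeff 0) =
        -∑ i ∈ Finset.range (minpoly ℤ w).natDegree,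
          (minpoly ℤ w).coeff (i + 1) • w ^ (i + 1) := by
      rw [eq_neg_iff_add_eq_zero, add_comm]
      convert h0 using 2
      rw [pow_zero, Algebra.smul_def, mul_one]
    rw [hz]
    refine neg_mem (Ideal.sum_mem _ fun i _ => ?_)
    rw [Algebra.smul_def, pow_succ]
    exact 𝔪.mul_mem_left _ (𝔪.mul_mem_left _ hwm)
  have hdvd : (l : ℤ) ∣ (minpoly ℤ w).coeff 0 := by
    by_contra hn
    obtain ⟨a, b, hab⟩ :=
      ((Nat.prime_iff_prime_int.mp hlp).coprime_iff_not_dvd).mpr hn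
    refine hmax.ne_top ((Ideal.eq_top_iff_one 𝔪).mpr ?_)
    have h1 := congrArg (algebraMap ℤ ZbarC) hab
    rw [map_add, map_mul, map_mul, map_natCast, map_one] at h1
    rw [← h1]
    exact add_mem (𝔪.mul_mem_left _ hlm) (𝔪.mul_mem_left _ hcm)
  have := Nat.le_of_dvd (Int.natAbs_pos.mpr hc) (Int.natCast_dvd.mp hdvd)
  omega

/-- At an odd multiplicative prime not dividing its level, an eigenform with the eigenvalues of
`W` has `a_q ^ 2 = (q + 1) ^ 2`. -/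
theorem qCoeff_sq_of_multiplicative (hattach : Galois.PadicAttachment) (hΔ : W.Δ ≠ 0)
    (hq : q.Prime) (hq2 : q ≠ 2) (hqΔ : (q : ℤ) ∣ W.Δ) (hc₄ : ¬ (q : ℤ) ∣ W.c₄) (hM : M ≠ 0)
    {g : CuspForm (Gamma0 M) 2} (hg : g.IsNormalizedEigenform) (hqM : ¬ q ∣ M) (S₀ : Finset ℕ)
    (h : ∀ ℓ : ℕ, ℓ.Prime → W.IsGoodPrimeFor ℓ → ¬ ℓ ∣ M → ℓ ∉ S₀ →
      qCoeff ⇑g ℓ = (W.apOfModel ℓ : ℂ)) :
    qCoeff ⇑g q ^ 2 = ((q : ℂ) + 1) ^ 2 := by
  haveI : NeZero M := ⟨hM⟩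
  haveI := Modular.heckeAlgebra_moduleFinite M 2 (∅ : Set ℕ)
  obtain ⟨ξ, -, hξT, -⟩ := Galois.exists_eigenformCharacter (S := (∅ : Set ℕ)) hg
  set z : ZbarC := ξ (CuspForm.heckeAlgebra.T hq hqM (Set.notMem_empty q)) with hz
  suffices hw : z ^ 2 - ((q : ZbarC) + 1) ^ 2 = 0 by
    have h1 := congrArg (fun x : ZbarC => (x : ℂ)) hw
    push_cast at h1
    rw [hz, hξT q hq hqM] at h1
    exact sub_eq_zero.mp h1
  refine eq_zero_of_forall_mem_maximal _ fun B => ?_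
  obtain ⟨l, hl, hlp⟩ := Nat.exists_infinite_primes (B + q + 1)
  refine ⟨l, by omega, hlp, ?_⟩
  haveI : Fact l.Prime := ⟨hlp⟩
  have hql : q ≠ l := by omega
  obtain ⟨𝔪, hmax, hlm⟩ := FLTPrelim.exists_maximalIdeal_natCast_prime_mem hlp
  haveI := hmax
  letI : Field (ZbarC ⧸ 𝔪) := Ideal.Quotient.field 𝔪
  haveI : CharP (ZbarC ⧸ 𝔪) l := by
    refine (CharP.charP_iff_prime_eq_zero hlp).mpr ?_
    rw [← map_natCast (Ideal.Quotient.mk 𝔪), Ideal.Quotient.eq_zero_iff_mem]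
    exact hlm
  refine ⟨𝔪, hmax, hlm, ?_⟩
  obtain ⟨ρ, hatt, -, hch⟩ := exists_attached_charpoly_eq (W := W) (p := l) hattach hΔ hM hg
    (k := ZbarC ⧸ 𝔪) (Ideal.Quotient.mk 𝔪) S₀ fun ℓ hℓ hℓg hℓM _ hℓS =>
      ⟨(W.apOfModel ℓ : ZbarC), by simp [h ℓ hℓ hℓg hℓM hℓS], by simp⟩
  have hq0 : (q : ZbarC ⧸ 𝔪) ≠ 0 := fun h0 =>
    hql ((Nat.prime_dvd_prime_iff_eq hlp hq).1 ((CharP.cast_eq_zero_iff _ l _).1 h0)).symm
  obtain ⟨A, hA⟩ := Basic.exists_liesOverPrime hq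
  obtain ⟨σ, hσ⟩ := Basic.exists_isFrobeniusAt hq A hA
  obtain ⟨a, ha, hpoly⟩ := hatt q hq hqM hq0 A hA σ hσ
  have h1 := (Galois.trace_det_of_linearMap_charpoly_eq ρ.finrank_eq _ hpoly).1
  rw [(Galois.trace_det_of_linearMap_charpoly_eq ρ.finrank_eq _ (hch σ)).1] at h1
  obtain ⟨s, hs, htr, -⟩ := exists_sign_trace_curveMat_frobenius W hΔ l hq hq2 hql hqΔ hc₄ hA hσ
  rw [trace_curveMat_eq_galoisTrace hΔ] at htr
  have haz : a = z := Subtype.ext (ha.trans (hξT q hq hqM (Set.notMem_empty q)).symm)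
  rw [htr, haz, map_mul, map_add, map_one, map_natCast] at h1
  rw [← Ideal.Quotient.eq_zero_iff_mem, map_sub, map_pow, map_pow, map_add, map_natCast, map_one,
    ← h1]
  rcases hs with rfl | rfl <;> simp only [map_one, map_neg] <;> ring

/-- The eigensystem of a curve modular at its conductor, with `a_p = ± 1` at an odd bad prime. -/
theorem exists_eigenform_unit (hattach : Galois.PadicAttachment) (hΔ : W.Δ ≠ 0) {p N : ℕ}
    (hp : p.Prime) (hp2 : p ≠ 2) (hW : W.IsSemistableModel) (hsq : Squarefree N)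
    (hbad : ∀ r : ℕ, r.Prime → (r ∣ N ↔ (r : ℤ) ∣ W.Δ)) (hmod : W.IsModularModelOfLevel N)
    (hpN : p ∣ N) :
    ∃ h : CuspForm (Gamma0 N) 2, h.IsNormalizedEigenform ∧
      (∀ ℓ : ℕ, ℓ.Prime → ¬ ℓ ∣ N → qCoeff ⇑h ℓ = (W.apOfModel ℓ : ℂ)) ∧
      qCoeff ⇑h p ^ 2 = 1 := by
  classical
  obtain ⟨f, hf, hfc⟩ := hmod
  obtain ⟨M, g, hMN, hg, hgc⟩ := Modular.exists_newform_of_eigenform hsq.ne_zero hf
  have hM0 : M ≠ 0 := fun h0 => hsq.ne_zero (by simpa [h0] using hMN)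
  haveI : NeZero M := ⟨hM0⟩
  have hgood : ∀ ℓ : ℕ, ℓ.Prime → ¬ ℓ ∣ N → qCoeff ⇑g ℓ = (W.apOfModel ℓ : ℂ) :=
    fun ℓ hℓ hℓN =>
      (hgc ℓ hℓ hℓN).trans (hfc ℓ hℓ (fun hd => hℓN ((hbad ℓ hℓ).2 hd)) hℓN)
  choose α hα using fun ℓ : ℕ => Modular.exists_root_hecke_poly (qCoeff ⇑g ℓ) ℓ
  have key : ∃ β : ℂ, β ^ 2 = 1 ∧
      ((p ∣ M ∧ qCoeff ⇑g p = β) ∨ (¬ p ∣ M ∧ β ^ 2 - qCoeff ⇑g p * β + p = 0)) := by
    by_cases hpM : p ∣ M
    · refine ⟨qCoeff ⇑g p, ?_, Or.inl ⟨hpM, rfl⟩⟩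
      exact Modular.Newforms.qCoeff_sq_eq_one_of_isNewformAt hp (hg.isNewformAt hp hpM hM0)
        fun hd => hp.not_isUnit ((hsq.squarefree_of_dvd hMN) p (by rwa [← sq]))
    · have hpΔ := (hbad p hp).1 hpN
      have h2 := qCoeff_sq_of_multiplicative hattach hΔ hp hp2 hpΔ (hW p hp hpΔ) hM0
        hg.isNormalizedEigenform hpM N.primeFactors fun ℓ hℓ _ _ hℓS =>
          hgood ℓ hℓ fun hd => hℓS (Nat.mem_primeFactors.mpr ⟨hℓ, hd, hsq.ne_zero⟩)
      rcases sq_eq_sq_iff_eq_or_eq_neg.mp h2 with he | he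
      · exact ⟨1, one_pow 2, Or.inr ⟨hpM, by rw [he]; ring⟩⟩
      · exact ⟨-1, by ring, Or.inr ⟨hpM, by rw [he]; ring⟩⟩
  obtain ⟨β, hβ, hcase⟩ := key
  obtain ⟨h, hh, hhc⟩ := Modular.exists_eigenform_of_dvd_prescribed hsq.ne_zero hMN
    hg.isNormalizedEigenform (fun ℓ => if ℓ = p then β else α ℓ) fun ℓ _ _ hℓM => by
      by_cases hℓp : ℓ = p
      · subst hℓp
        rw [if_pos rfl]
        exact (hcase.resolve_left fun hc => hℓM hc.1).2
      · rw [if_neg hℓp]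
        exact hα ℓ
  refine ⟨h, hh, fun ℓ hℓ hℓN => ?_, ?_⟩
  · rw [hhc ℓ hℓ, if_neg fun hc => hℓN hc.1, hgood ℓ hℓ hℓN]
  · rw [hhc p hp]
    by_cases hpM : p ∣ M
    · rw [if_neg fun hc => hc.2 hpM, (hcase.resolve_right fun hc => hc.1 hpM).2, hβ]
    · rw [if_pos ⟨hpN, hpM⟩, if_pos rfl, hβ]

/-- **The unit seed along a congruence.** -/
theorem resModularUnitAtP_of_congruent (hattach : Galois.PadicAttachment) {p N : ℕ}
    (hp : p.Prime) (hp2 : p ≠ 2) {W W' : WeierstrassCurve ℤ} (hΔ' : W'.Δ ≠ 0)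
    (hW' : W'.IsSemistableModel) (hsq : Squarefree N)
    (hbad : ∀ q : ℕ, q.Prime → (q ∣ N ↔ (q : ℤ) ∣ W'.Δ)) (hmod : W'.IsModularModelOfLevel N)
    (hcong : CongruentTraces p W W') : ResModularUnitAtP W p N := by
  by_cases hpN : p ∣ N
  · obtain ⟨f, hf, hfc, hfp⟩ := exists_eigenform_unit hattach hΔ' hp hp2 hW' hsq hbad hmod hpN
    obtain ⟨𝔪, hmax, hpm⟩ := FLTPrelim.exists_maximalIdeal_natCast_prime_mem hp
    refine ⟨f, 𝔪, hf, hmax, hpm, fun ℓ hℓ hg hℓN hℓp => ?_, fun _ => ?_⟩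
    · refine ⟨(W'.apOfModel ℓ : ZbarC), by simp [hfc ℓ hℓ hℓN], ?_⟩
      obtain ⟨t, ht⟩ := hcong ℓ hℓ hg (fun hd => hℓN ((hbad ℓ hℓ).2 hd)) hℓp
      rw [← Int.cast_sub, ht, Int.cast_mul, Int.cast_natCast]
      exact 𝔪.mul_mem_right _ hpm
    · rcases sq_eq_one_iff.mp hfp with he | he
      · exact ⟨1, by simp [he], by simp⟩
      · exact ⟨-1, by simp [he], by simp⟩
  · exact resModularUnitAtP_of_not_dvd
      (FermatLib.Basic.isResiduallyModularOfLevel_of_congruent hp hbad hmod hcong) hpN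

end FermatLib.MLT.Odd

end
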