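import Fermat.Agent.MLT.Odd.LiftAssembly
import Fermat.Agent.MLT.Odd.EndgameMazur
import Fermat.Agent.MLT.Odd.LiftUnitWitness

/-!
# Lifting at 3 and 5 along a switch, without local-global compatibility at `p`

The switch gives the residual witness with `a_p = ± 1`, so the seed needs no input at `p`.
-/

set_option autoImplicit false
set_option linter.style.haveILetI false

noncomputable section

open IsLocalRing WeierstrassCurve CuspForm

namespace FermatLib.MLT.Odd

/-- Lifting at an odd prime from a residual witness which is a unit root at `p`. -/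
theorem isWeaklyModular_of_unitSeed (hattach : Galois.PadicAttachment) (hMazur : MazurNonScalar)
    {p : ℕ} [Fact p.Prime] (hp2 : p ≠ 2) {W : WeierstrassCurve ℤ} (hΔ : W.Δ ≠ 0)
    (hW : W.IsSemistableModel) (hirr : W.ModRepIsIrreducible p) {M₀ : ℕ} [NeZero M₀]
    (hsq : Squarefree M₀) (hpM : p ∣ M₀ ↔ (p : ℤ) ∣ W.Δ) (hres : ResModularUnitAtP W p M₀) :
    IsWeaklyModular W := by
  obtain ⟨D⟩ := nonempty_curveSeed hattach hΔ hres
  obtain ⟨φ, -⟩ := Galois.Attach.exists_padicIntHom D.O D.mem_maximalIdeal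
  have hodd := D.oddResidual hp2 hW hirr
  exact isWeaklyModular_of_isSystemOfLevel hΔ _ φ D.mem_maximalIdeal
    (isSystemOfLevel_of_target hp2 D.mem_maximalIdeal D.exists_root hodd _
      (hasSeed_curveOddPrimes_of_unit hattach hMazur hΔ φ D.mem_maximalIdeal D.ι hp2 hW hodd hirr hsq
        hpM D.θ D.traces fun hp h hE _ => D.unit_p hp h hE) _
      (pointRep_isTargetLift W hΔ φ D.mem_maximalIdeal D.ι hp2 hW M₀))

/-- One lifting step along a congruence. -/
theorem exactConductor_step_unit (hattach : Galois.PadicAttachment)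
    (h35 : NewformFrobeniusAtBadPrime) (hMazur : MazurNonScalar) {p : ℕ} (hp : p = 3 ∨ p = 5)
    {W W' : WeierstrassCurve ℤ} (hΔ : W.Δ ≠ 0) (hW : W.IsSemistableModel)
    (hirr : W.ModRepIsIrreducible p) (hΔ' : W'.Δ ≠ 0) (hW' : W'.IsSemistableModel)
    (hmod : Mlc1IsModularModelOfExactConductorLevel W') (hcong : CongruentTraces p W W')
    (hkeep : KeepsBadPrimes p W W') : Mlc1IsModularModelOfExactConductorLevel W := by
  obtain ⟨N, hN, hsq, hbad, hf⟩ := hmod
  have : NeZero N := ⟨hN.ne'⟩
  have hp2 : p ≠ 2 := by omega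
  haveI : Fact p.Prime := ⟨by rcases hp with rfl | rfl <;> norm_num⟩
  refine exactConductor_of_weaklyModular hattach h35 hΔ
    (isWeaklyModular_of_unitSeed hattach hMazur hp2 hΔ hW hirr hsq
      ⟨fun h => by_contra fun hn => hkeep.1 hn ((hbad p Fact.out).1 h),
        fun h => (hbad p Fact.out).2 (hkeep.2 p Fact.out hp2 h)⟩
      (resModularUnitAtP_of_congruent hattach Fact.out hp2 hΔ' hW' hsq hbad hf hcong))

section chain

variable (hattach : Galois.PadicAttachment) (h35 : NewformFrobeniusAtBadPrime)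
  (hMazur : MazurNonScalar) (hdih : DihedralModTwo) (htwo : MinimalLiftingAtTwo)
include hattach h35 hMazur hdih htwo

/-- Curves irreducible mod 5 are modular at their conductor. -/
theorem exactConductor_of_five_unit (hsw3 : ThreeSwitchToAnchor) (hsw5 : FiveSwitchAtTwo)
    {W : WeierstrassCurve ℤ} (hΔ : W.Δ ≠ 0) (hW : W.IsSemistableModel)
    (h5 : W.ModRepIsIrreducible 5) : Mlc1IsModularModelOfExactConductorLevel W := by
  obtain ⟨W', hΔ', hW', h3', h2', hcong, hkeep⟩ := hsw5 W hΔ hW h5
  obtain ⟨W'', hA, hcong', hkeep'⟩ := hsw3 W' hΔ' hW' h2'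
  exact exactConductor_step_unit hattach h35 hMazur (Or.inr rfl) hΔ hW h5 hΔ' hW'
    (exactConductor_step_unit hattach h35 hMazur (Or.inl rfl) hΔ' hW' h3' hA.Δ_neg.ne
      hA.semistable (exactConductor_of_anchor hdih htwo hA) hcong' hkeep') hcong hkeep

/-- All semistable curves are modular at their conductor. -/
theorem exactConductor_of_semistable_unit (hsw3 : ThreeSwitchToAnchor) (hsw5 : FiveSwitchAtTwo)
    (hsw35 : ThreeSwitchToFiveIrreducible)
    (h51 : ∀ W : WeierstrassCurve ℤ, W.Δ ≠ 0 → W.IsSemistableModel →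
      W.ModRepIsIrreducible 3 ∨ W.ModRepIsIrreducible 5)
    {W : WeierstrassCurve ℤ} (hΔ : W.Δ ≠ 0) (hW : W.IsSemistableModel) :
    Mlc1IsModularModelOfExactConductorLevel W := by
  rcases h51 W hΔ hW with h3 | h5
  · obtain ⟨W', hΔ', hW', h5', hcong, hkeep⟩ := hsw35 W hΔ hW h3
    exact exactConductor_step_unit hattach h35 hMazur (Or.inl rfl) hΔ hW h3 hΔ' hW'
      (exactConductor_of_five_unit hattach h35 hMazur hdih htwo hsw3 hsw5 hΔ' hW' h5') hcong hkeep
  · exact exactConductor_of_five_unit hattach h35 hMazur hdih htwo hsw3 hsw5 hΔ hW h5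

end chain

end FermatLib.MLT.Odd

end
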