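import Fermat.Agent.Galois.DeformLocal

/-!
Changes of coefficients compose; flatness at `p` passes to finite free coefficient rings.
-/

noncomputable section

namespace FermatLib.MLT.HeckeRep

open IsLocalRing FermatLib.Galois FermatLib.Galois.FlatModel
open scoped TensorProduct

variable {A B C : Type} [CommRing A] [IsLocalRing A] [CommRing B] [IsLocalRing B]
  [CommRing C] [IsLocalRing C]

theorem cancelBaseChange_baseChange {R S U : Type} [CommRing R] [CommRing S] [CommRing U]
    [Algebra R S] [Algebra S U] [Algebra R U] [IsScalarTower R S U] {V : Type} [AddCommGroup V]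
    [Module R V] (f : V →ₗ[R] V) (x : U ⊗[S] (S ⊗[R] V)) :
    TensorProduct.AlgebraTensorModule.cancelBaseChange R S U U V
        ((f.baseChange S).baseChange U x) =
      f.baseChange U (TensorProduct.AlgebraTensorModule.cancelBaseChange R S U U V x) := by
  induction x using TensorProduct.induction_on with
  | zero => simp
  | add x y hx hy => simp only [map_add, hx, hy]
  | tmul c y =>
    induction y using TensorProduct.induction_on with
    | zero => simp
    | add x y hx hy => simp only [TensorProduct.tmul_add, map_add, hx, hy]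
    | tmul b v => simp

/-- Two changes of coefficients compose. -/
theorem isEquiv_baseChange_comp (φ : A →+* B) (hφ : IsLocalHom φ) (ψ : B →+* C)
    (hψ : IsLocalHom ψ) (hψφ : IsLocalHom (ψ.comp φ)) (ρ : GaloisRepAdic A) :
    ((ρ.baseChangeAlong φ hφ).baseChangeAlong ψ hψ).IsEquiv
      (ρ.baseChangeAlong (ψ.comp φ) hψφ) := by
  let _ : Algebra A B := φ.toAlgebra
  let _ : Algebra B C := ψ.toAlgebra
  let _ : Algebra A C := (ψ.comp φ).toAlgebra
  have : IsScalarTower A B C := IsScalarTower.of_algebraMap_eq fun _ => rfl
  let e := TensorProduct.AlgebraTensorModule.cancelBaseChange A B C C ρ.V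
  exact ⟨⟨e, fun σ x => cancelBaseChange_baseChange (ρ.ρ σ) x⟩⟩

/-- Flatness at `p` passes to any coefficient ring with finite residue field. -/
theorem isFlatAt_baseChange_of_finite_residueField (φ : A →+* B) (hφ : IsLocalHom φ)
    [Finite (ResidueField B)] {ρ : GaloisRepAdic A} {p : ℕ} (h : ρ.IsFlatAt p) :
    (ρ.baseChangeAlong φ hφ).IsFlatAt p := by
  refine isFlatAt_of_forall_quotient _ fun I hI _ _ hq => ?_
  have hc : IsLocalHom ((Ideal.Quotient.mk I).comp φ) := RingHom.isLocalHom_comp _ _
  exact isFlatAt_of_isEquiv
    ⟨(isEquiv_baseChange_comp φ hφ (Ideal.Quotient.mk I) hq hc ρ).some.symm⟩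
    (isFlatAt_baseChange _ hc h)

end FermatLib.MLT.HeckeRep
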