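import Fermat.Prelude.Def_CuspForm_HeckeGaloisRepDatum
import Fermat.Prelude.Thm_IsLocalRing_isAdicComplete_of_module_finite
import Fermat.Agent.Galois.ResidualAttached
import Fermat.Agent.Galois.FlatModelEval
import Fermat.Agent.Modular.HeckeFinite
import Fermat.Agent.MLT.Odd.HeckeRepDescent
import Fermat.Agent.MLT.Odd.HeckeRepDet

/-!
A Hecke–Galois datum through a given point: all points with the same reduction, glued by trace
descent.  It makes the theorems on data available for the representation of a single point.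
-/

noncomputable section

namespace FermatLib.MLT.HeckeRep

open IsLocalRing FermatLib.Galois Polynomial CuspForm

local notation "Qbar" => AlgebraicClosure ℚ
local notation "Γℚ" => (AlgebraicClosure ℚ ≃ₐ[ℚ] AlgebraicClosure ℚ)

/-- A finite `ℤ`-algebra has finitely many homomorphisms to a domain of characteristic zero. -/
theorem finite_ringHom_domain {R : Type} [CommRing R] [Module.Finite ℤ R] (A : Type) [CommRing A]
    [IsDomain A] : Finite (R →+* A) := by
  have := FlatModel.finite_algHom_field (R := ℤ) (A := R) (K := FractionRing A)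
  exact Finite.of_injective
    (fun f : R →+* A => ({ (algebraMap A (FractionRing A)).comp f with
        commutes' := fun r => by simp } : R →ₐ[ℤ] FractionRing A)) fun f g h =>
    RingHom.ext fun x => IsFractionRing.injective A (FractionRing A) (AlgHom.congr_fun h x)

section Gluing

variable {R : Type} [CommRing R] {𝒪 : Type} [CommRing 𝒪] [IsLocalRing 𝒪] (χ₀ : R →+* 𝒪)

/-- The points with the reduction of `χ₀`. -/
abbrev CongruentPoints : Type := {χ : R →+* 𝒪 // ∀ t, residue 𝒪 (χ t) = residue 𝒪 (χ₀ t)}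

/-- The point `χ₀` among those congruent to it. -/
def basePoint : CongruentPoints χ₀ := ⟨χ₀, fun _ => rfl⟩

/-- The value of all congruent points at an element. -/
def pointsEval : R →+* (CongruentPoints χ₀ → 𝒪) := RingHom.pi fun χ => χ.1

/-- The algebra generated by the congruent points. -/
abbrev pointsAlgebra : Subalgebra 𝒪 (CongruentPoints χ₀ → 𝒪) :=
  Algebra.adjoin 𝒪 (Set.range (pointsEval χ₀))

/-- The map to the algebra of the congruent points. -/
def pointsMap : R →+* pointsAlgebra χ₀ :=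
  (pointsEval χ₀).codRestrict _ fun t => Algebra.subset_adjoin ⟨t, rfl⟩

theorem residue_pointsAlgebra (x : pointsAlgebra χ₀) (χ χ' : CongruentPoints χ₀) :
    residue 𝒪 (x.1 χ) = residue 𝒪 (x.1 χ') := by
  obtain ⟨x, hx⟩ := x
  induction hx using Algebra.adjoin_induction with
  | mem y hy =>
    obtain ⟨t, rfl⟩ := hy
    exact (χ.2 t).trans (χ'.2 t).symm
  | algebraMap r => rfl
  | add a b _ _ ha hb => simp only [Pi.add_apply, map_add, ha, hb]
  | mul a b _ _ ha hb => simp only [Pi.mul_apply, map_mul, ha, hb]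

theorem adjoin_range_pointsMap : Algebra.adjoin 𝒪 (Set.range (pointsMap χ₀)) = ⊤ := by
  rw [eq_top_iff]
  rintro x -
  have h : ∀ y (hy : y ∈ pointsAlgebra χ₀),
      (⟨y, hy⟩ : pointsAlgebra χ₀) ∈ Algebra.adjoin 𝒪 (Set.range (pointsMap χ₀)) := by
    intro y hy
    induction hy using Algebra.adjoin_induction with
    | mem y hy =>
      obtain ⟨t, rfl⟩ := hy
      exact Algebra.subset_adjoin ⟨t, rfl⟩
    | algebraMap r => exact Subalgebra.algebraMap_mem _ r
    | add a b _ _ ha hb => exact add_mem ha hb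
    | mul a b _ _ ha hb => exact mul_mem ha hb
  exact h x.1 x.2

variable [Finite (R →+* 𝒪)] [IsNoetherianRing 𝒪]

theorem finite_pointsAlgebra : Module.Finite 𝒪 (pointsAlgebra χ₀) :=
  Module.Finite.of_injective (pointsAlgebra χ₀).val.toLinearMap Subtype.val_injective

theorem isUnit_pointsAlgebra_iff (x : pointsAlgebra χ₀) :
    IsUnit x ↔ IsUnit (x.1 (basePoint χ₀)) := by
  refine ⟨fun h => (h.map (pointsAlgebra χ₀).val).map (Pi.evalRingHom _ _), fun h => ?_⟩
  have := finite_pointsAlgebra χ₀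
  have hint : (pointsAlgebra χ₀).val.toRingHom.IsIntegral := by
    have h' : ((pointsAlgebra χ₀).val.toRingHom.comp
        (algebraMap 𝒪 (pointsAlgebra χ₀))).IsIntegral := by
      rw [show (pointsAlgebra χ₀).val.toRingHom.comp
        (algebraMap 𝒪 (pointsAlgebra χ₀)) = algebraMap 𝒪 (CongruentPoints χ₀ → 𝒪) from rfl]
      exact algebraMap_isIntegral_iff.2 inferInstance
    exact RingHom.IsIntegral.tower_top _ _ h'
  have := hint.isLocalHom Subtype.val_injective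
  refine isUnit_of_map_unit (pointsAlgebra χ₀).val.toRingHom x ?_
  show IsUnit x.1
  rw [Pi.isUnit_iff]
  intro χ
  rw [← residue_ne_zero_iff_isUnit] at h ⊢
  show residue 𝒪 (x.1 χ) ≠ 0
  rwa [residue_pointsAlgebra χ₀ x χ (basePoint χ₀)]

theorem isLocalRing_pointsAlgebra : IsLocalRing (pointsAlgebra χ₀) := by
  have : Nonempty (CongruentPoints χ₀) := ⟨basePoint χ₀⟩
  refine IsLocalRing.of_nonunits_add fun a b ha hb => ?_
  rw [mem_nonunits_iff, isUnit_pointsAlgebra_iff] at ha hb ⊢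
  exact IsLocalRing.nonunits_add ha hb

theorem residue_eq_residue_base [IsLocalRing (pointsAlgebra χ₀)] (x : pointsAlgebra χ₀) :
    residue (pointsAlgebra χ₀) (algebraMap 𝒪 (pointsAlgebra χ₀) (x.1 (basePoint χ₀))) =
      residue (pointsAlgebra χ₀) x := by
  rw [← sub_eq_zero, ← map_sub, residue_eq_zero_iff, mem_maximalIdeal, mem_nonunits_iff,
    isUnit_pointsAlgebra_iff]
  show ¬ IsUnit (x.1 (basePoint χ₀) - x.1 (basePoint χ₀))
  simp

theorem residue_comp_algebraMap_surjective [IsLocalRing (pointsAlgebra χ₀)] :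
    Function.Surjective (residue (pointsAlgebra χ₀) ∘ algebraMap 𝒪 (pointsAlgebra χ₀)) := fun y => by
  obtain ⟨x, rfl⟩ := residue_surjective y
  exact ⟨_, residue_eq_residue_base χ₀ x⟩

end Gluing

variable {p : ℕ} {N : ℕ} [NeZero N] {S : Finset ℕ}
  {𝒪 : Type} [CommRing 𝒪] [IsDomain 𝒪] [IsDiscreteValuationRing 𝒪]
  [IsAdicComplete (maximalIdeal 𝒪) 𝒪] [Finite (ResidueField 𝒪)] [CharZero 𝒪]

set_option maxHeartbeats 800000 in
/-- **A datum through a point.** -/
theorem exists_datum_of_point (hattach : PadicAttachment) (hp : p.Prime) (hp2 : p ≠ 2)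
    (hp𝒪 : (p : 𝒪) ∈ maximalIdeal 𝒪) (hpS : p ∈ S) (hNS : ∀ q : ℕ, q.Prime → q ∣ N → q ∈ S)
    (χ₀ : heckeAlgebra N 2 (↑S : Set ℕ) →+* 𝒪)
    {O₀ : Type} [c₀ : CommRing O₀] [l₀ : IsLocalRing O₀] [a₀ : Algebra 𝒪 O₀]
    [f₀ : Module.Finite 𝒪 O₀]
    (ρ₀ : GaloisRepAdic O₀)
    (hρ₀ : ∀ (ℓ : ℕ) (hℓ : ℓ.Prime) (hℓN : ¬ ℓ ∣ N) (hℓS : ℓ ∉ (↑S : Set ℕ)),
      ∀ P : ValuationSubring Qbar, P.LiesOverPrime ℓ → ∀ σ : Γℚ, P.IsFrobeniusAt σ ℓ →
        LinearMap.charpoly (ρ₀.ρ σ) =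
          X ^ 2 - C (algebraMap 𝒪 O₀ (χ₀ (heckeAlgebra.T hℓ hℓN hℓS))) * X + C (ℓ : O₀))
    (hirr : ρ₀.residual.IsAbsolutelyIrreducible) :
    ∃ (T : Type) (_ : CommRing T) (_ : IsLocalRing T) (_ : IsNoetherianRing T)
      (_ : IsAdicComplete (maximalIdeal T) T) (_ : Algebra 𝒪 T)
      (_ : IsLocalHom (algebraMap 𝒪 T)) (_ : Module.Finite 𝒪 T) (_ : Module.Free 𝒪 T)
      (H : HeckeGaloisRepDatum N (↑S : Set ℕ) 𝒪 ((residue 𝒪).comp χ₀) T)
      (ψ : T →ₐ[𝒪] O₀) (hψ : IsLocalHom (ψ : T →+* O₀)),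
      (∀ t, ψ (H.π t) = algebraMap 𝒪 O₀ (χ₀ t)) ∧
      (H.ρ.baseChangeAlong (ψ : T →+* O₀) hψ).IsEquiv ρ₀ := by
  classical
  have : Fact p.Prime := ⟨hp⟩
  have : Module.Finite ℤ (heckeAlgebra N 2 (↑S : Set ℕ)) :=
    FermatLib.Modular.heckeAlgebra_moduleFinite N 2 _
  have : Finite (heckeAlgebra N 2 (↑S : Set ℕ) →+* 𝒪) := finite_ringHom_domain 𝒪
  have hfin := finite_pointsAlgebra χ₀
  have hlocT := isLocalRing_pointsAlgebra χ₀
  have hnoeth : IsNoetherianRing (pointsAlgebra χ₀) := IsNoetherianRing.of_finite 𝒪 _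
  have hTO : IsLocalHom (algebraMap 𝒪 (pointsAlgebra χ₀)) := ⟨fun a ha => by
    rw [isUnit_pointsAlgebra_iff] at ha
    exact ha⟩
  have hcomp : IsAdicComplete (maximalIdeal (pointsAlgebra χ₀)) (pointsAlgebra χ₀) :=
    IsLocalRing.isAdicComplete_of_module_finite (𝒪 := 𝒪)
  have hfree : Module.Free 𝒪 (pointsAlgebra χ₀) := by
    have : Module.IsTorsionFree 𝒪 (pointsAlgebra χ₀) :=
      Subtype.val_injective.moduleIsTorsionFree (fun x : pointsAlgebra χ₀ => x.1) fun _ _ => rfl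
    exact Module.free_of_finite_type_torsion_free'
  -- the representations of the congruent points
  choose O'' i1 i2 i3 i4 i5 i6 i7 i8 i9 hinj'' r hr hrunr using
    fun χ : CongruentPoints χ₀ => hattach p N S hpS hNS 𝒪 hp𝒪 χ.1
  -- the family: the congruent points and the given representation of `χ₀`
  let O : Option (CongruentPoints χ₀) → Type := fun i => i.elim O₀ O''
  let iR : ∀ i, CommRing (O i) := fun i =>
    Option.casesOn (motive := fun i => CommRing (O i)) i c₀ i1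
  let iL : ∀ i, IsLocalRing (O i) := fun i =>
    Option.casesOn (motive := fun i => IsLocalRing (O i)) i l₀
      fun χ => @IsDiscreteValuationRing.toIsLocalRing _ (i1 χ) (i2 χ) (i3 χ)
  let iA : ∀ i, Algebra 𝒪 (O i) := fun i =>
    Option.casesOn (motive := fun i => Algebra 𝒪 (O i)) i a₀ i7
  have : ∀ i, Module.Finite 𝒪 (O i) := fun i =>
    Option.casesOn (motive := fun i => Module.Finite 𝒪 (O i)) i f₀ i8
  let pr : CongruentPoints χ₀ → (pointsAlgebra χ₀ →ₐ[𝒪] 𝒪) := fun χ =>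
    (Pi.evalAlgHom 𝒪 (fun _ : CongruentPoints χ₀ => 𝒪) χ).comp (pointsAlgebra χ₀).val
  let χs : ∀ i, pointsAlgebra χ₀ →ₐ[𝒪] O i := fun i =>
    (Algebra.ofId 𝒪 (O i)).comp (pr (i.getD (basePoint χ₀)))
  let rs : ∀ i, GaloisRepAdic (O i) := fun i =>
    Option.casesOn (motive := fun i => GaloisRepAdic (O i)) i ρ₀ r
  let t : ℕ → pointsAlgebra χ₀ := fun ℓ =>
    if h : ℓ.Prime ∧ ¬ ℓ ∣ N ∧ ℓ ∉ (↑S : Set ℕ) then
      pointsMap χ₀ (heckeAlgebra.T h.1 h.2.1 h.2.2) else 0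
  have hfrob : ∀ (i : Option (CongruentPoints χ₀)) (ℓ : ℕ) (hℓ : ℓ.Prime) (hℓN : ¬ ℓ ∣ N)
      (hℓS : ℓ ∉ (↑S : Set ℕ)), ∀ P : ValuationSubring Qbar, P.LiesOverPrime ℓ →
        ∀ σ : Γℚ, P.IsFrobeniusAt σ ℓ →
          LinearMap.det ((rs i).ρ σ) = (ℓ : O i) ∧
            (rs i).trace σ = χs i (pointsMap χ₀ (heckeAlgebra.T hℓ hℓN hℓS)) := by
    rintro (_ | χ) ℓ hℓ hℓN hℓS P hP σ hσ
    · exact det_of_charpoly_eq ρ₀ (hρ₀ ℓ hℓ hℓN hℓS P hP σ hσ)
    · have := i2 χ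
      have := i3 χ
      exact det_of_charpoly_eq (r χ) (hr χ ℓ hℓ hℓN hℓS P hP σ hσ)
  have hNS' : ∀ ℓ, ℓ.Prime → ℓ ∉ S → ¬ ℓ ∣ N ∧ ℓ ∉ (↑S : Set ℕ) := fun ℓ hℓ hℓS =>
    ⟨fun h => hℓS (hNS ℓ hℓ h), hℓS⟩
  have hdet : ∀ i, (rs i).DetIsCyclotomic p := fun i => by
    have : IsNoetherianRing (O i) := IsNoetherianRing.of_finite 𝒪 (O i)
    have hpO : (p : O i) ∈ maximalIdeal (O i) := by
      rw [← map_natCast (algebraMap 𝒪 (O i))]
      exact maximalIdeal_map_le (Ideal.mem_map_of_mem _ hp𝒪)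
    exact detIsCyclotomic_of_frobenius hp hpO (rs i) S fun ℓ hℓ hℓS P hP σ hσ =>
      (hfrob i ℓ hℓ (hNS' ℓ hℓ hℓS).1 (hNS' ℓ hℓ hℓS).2 P hP σ hσ).1
  have hinjO : ∀ a, (∀ i, χs i a = 0) → a = 0 := fun a ha => Subtype.ext (_root_.funext fun χ => by
    have h := ha (some χ)
    exact hinj'' χ (h.trans (map_zero _).symm))
  obtain ⟨ρ, hρirr, -, hρeq, hρt⟩ := exists_galoisRepAdic_of_systems χs hinjO hp hp2 rs hdet S t
    (fun i ℓ hℓ hℓS P hP σ hσ => by
      obtain ⟨hℓN, hℓS'⟩ := hNS' ℓ hℓ hℓS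
      rw [(hfrob i ℓ hℓ hℓN hℓS' P hP σ hσ).2]
      simp only [t, dif_pos (And.intro hℓ (And.intro hℓN hℓS'))])
    none hirr
  let H : HeckeGaloisRepDatum N (↑S : Set ℕ) 𝒪 ((residue 𝒪).comp χ₀) (pointsAlgebra χ₀) :=
    { π := pointsMap χ₀
      residue_π := fun s => by
        refine (residue_eq_residue_base χ₀ (pointsMap χ₀ s)).symm.trans ?_
        exact (ResidueField.map_residue (algebraMap 𝒪 (pointsAlgebra χ₀)) (χ₀ s)).symm
      adjoin_range_π := adjoin_range_pointsMap χ₀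
      exists_point := fun χ hχ => ⟨pr ⟨χ, fun s => hχ s⟩, fun s => rfl⟩
      residue_surjective := residue_comp_algebraMap_surjective χ₀
      ρ := ρ
      charpoly_frob := fun ℓ hℓ hℓN hℓS P hP σ hσ => by
        rw [(hρt ℓ hℓ hℓS (fun h => hℓS (h ▸ hpS)) P hP σ hσ).2]
        simp only [t, dif_pos (And.intro hℓ (And.intro hℓN hℓS))]
      residual_absIrr := hρirr }
  exact ⟨pointsAlgebra χ₀, inferInstance, hlocT, hnoeth, hcomp, inferInstance, hTO, hfin, hfree,
    H, χs none, isLocalHom_of_finite (χs none), fun s => rfl, hρeq none⟩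

end FermatLib.MLT.HeckeRep
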