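import Fermat.Agent.Galois.FlatDatum
import Fermat.Agent.Galois.OrdinaryCondition
import Fermat.Agent.Galois.Ordinary.Assembly
import Fermat.Agent.Igusa.MonoTransferS34
import Fermat.Agent.MLT.Odd.HeckeRepBaseChange
import Fermat.Agent.MLT.Odd.HeckeRepDatum

/-!
Local conditions at the points of Hecke algebras of `Γ₀(N)`, from the inputs on `J₀(N)`.
-/

noncomputable section

namespace FermatLib.MLT.HeckeRep

open IsLocalRing FermatLib.Galois FermatLib.Galois.DeformLocal Polynomial CuspForm ModularCurve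

local notation "Qbar" => AlgebraicClosure ℚ
local notation "Γℚ" => (AlgebraicClosure ℚ ≃ₐ[ℚ] AlgebraicClosure ℚ)

variable {p N : ℕ} [NeZero N] {S : Finset ℕ}
  {𝒪 : Type} [CommRing 𝒪] [IsDomain 𝒪] [IsDiscreteValuationRing 𝒪]
  [IsAdicComplete (maximalIdeal 𝒪) 𝒪] [Finite (ResidueField 𝒪)] [CharZero 𝒪]
  {O₀ : Type} [CommRing O₀] [IsLocalRing O₀] [Algebra 𝒪 O₀] [Module.Finite 𝒪 O₀]

/-- `ρ₀` has the Frobenius characteristic polynomials of the point `χ₀`. -/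
def IsAttachedToPoint (χ₀ : heckeAlgebra N 2 (↑S : Set ℕ) →+* 𝒪) (ρ₀ : GaloisRepAdic O₀) : Prop :=
  ∀ (ℓ : ℕ) (hℓ : ℓ.Prime) (hℓN : ¬ ℓ ∣ N) (hℓS : ℓ ∉ (↑S : Set ℕ)),
    ∀ P : ValuationSubring Qbar, P.LiesOverPrime ℓ → ∀ σ : Γℚ, P.IsFrobeniusAt σ ℓ →
      LinearMap.charpoly (ρ₀.ρ σ) =
        X ^ 2 - C (algebraMap 𝒪 O₀ (χ₀ (heckeAlgebra.T hℓ hℓN hℓS))) * X + C (ℓ : O₀)

variable (hattach : PadicAttachment) (hp : p.Prime) (hp2 : p ≠ 2)
  (hp𝒪 : (p : 𝒪) ∈ maximalIdeal 𝒪) (hpS : p ∈ S) (hNS : ∀ q : ℕ, q.Prime → q ∣ N → q ∈ S)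
  {χ₀ : heckeAlgebra N 2 (↑S : Set ℕ) →+* 𝒪} {ρ₀ : GaloisRepAdic O₀}
  (hatt : IsAttachedToPoint χ₀ ρ₀)

include hp hp𝒪 hNS hatt in
omit [IsAdicComplete (maximalIdeal 𝒪) 𝒪] [Finite (ResidueField 𝒪)] [CharZero 𝒪] in
/-- The determinant at a point is cyclotomic. -/
theorem detIsCyclotomic_point : ρ₀.DetIsCyclotomic p := by
  have : IsNoetherianRing O₀ := IsNoetherianRing.of_finite 𝒪 O₀
  have hpO : (p : O₀) ∈ maximalIdeal O₀ := by
    rw [← map_natCast (algebraMap 𝒪 O₀)]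
    exact maximalIdeal_map_le (Ideal.mem_map_of_mem _ hp𝒪)
  exact detIsCyclotomic_of_frobenius hp hpO ρ₀ S fun ℓ hℓ hℓS P hP σ hσ =>
    (det_of_charpoly_eq ρ₀ (hatt ℓ hℓ (fun h => hℓS (hNS ℓ hℓ h)) hℓS P hP σ hσ)).1

variable (hirr : ρ₀.residual.IsAbsolutelyIrreducible)

include hattach hp hp2 hp𝒪 hpS hNS hatt hirr

/-- Flatness at a point of level prime to `p`. -/
theorem isFlatAt_point (hJ : TorsionGaloisInputs N p)
    (hmodel : ∀ k : ℕ, FlatModel.HasModelAt p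
      (Submodule.torsionBy ℤ (JZero N) ((p : ℤ) ^ k)).toAddSubgroup (FlatModel.torsionAct _)) :
    ρ₀.IsFlatAt p := by
  obtain ⟨T, _, _, _, _, _, _, _, _, H, ψ, hψ, -, e⟩ :=
    exists_datum_of_point hattach hp hp2 hp𝒪 hpS hNS χ₀ ρ₀ hatt hirr
  have : Finite (ResidueField O₀) := finite_residueField_of_finite (𝒪 := 𝒪)
  exact FlatModel.isFlatAt_of_isEquiv e (isFlatAt_baseChange_of_finite_residueField _ hψ
    (FlatModel.isFlatAt_datum hp hp𝒪 hpS hNS hJ hmodel H))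

/-- Unipotent inertia at a point. -/
theorem isUnipotentOnInertiaAt_point (hJ : TorsionGaloisInputs N p) {q : ℕ} (hq : q.Prime)
    (hqp : q ≠ p)
    (hmono : ∀ A : ValuationSubring Qbar, A.LiesOverPrime q → ∀ σ ∈ A.inertiaSubgroupIn ℚ,
      ∀ (k : ℕ) (x : JZero N), p ^ k • x = 0 → σ • (σ • x - x) = σ • x - x) :
    ρ₀.IsUnipotentOnInertiaAt q := by
  obtain ⟨T, _, _, _, _, _, _, _, _, H, ψ, hψ, -, e⟩ :=
    exists_datum_of_point hattach hp hp2 hp𝒪 hpS hNS χ₀ ρ₀ hatt hirr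
  exact isUnipotentOnInertiaAt_of_isEquiv e (isUnipotentOnInertiaAt_baseChange _ hψ
    (Igusa.Mono.datum_isUnipotentOnInertiaAt hp hp𝒪 hpS hNS hJ H hq hqp hmono))

/-- Ordinarity at a point which is residually ordinary. -/
theorem isOrdinaryAt_point (hJ : TorsionGaloisInputs N p) (hK : Ordinary.HasConnectedKernels N p)
    (hres : (GaloisRepAdic.ofResidualGaloisRep ρ₀.residual).IsOrdinaryAt p) :
    ρ₀.IsOrdinaryAt p := by
  obtain ⟨T, _, _, _, _, _, _, _, _, H, ψ, hψ, -, e⟩ :=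
    exists_datum_of_point hattach hp hp2 hp𝒪 hpS hNS χ₀ ρ₀ hatt hirr
  have hTp : (p : T) ∈ maximalIdeal T := natCast_mem_maximalIdeal_of_algebra hp𝒪
  have hdetT : H.ρ.DetIsCyclotomic p :=
    detIsCyclotomic_of_frobenius hp hTp H.ρ S fun ℓ hℓ hℓS P hP σ hσ =>
      Igusa.Mono.datum_det_frobenius hNS H ℓ hℓ hℓS P hP σ hσ
  have hr : IsLocalHom (residue T) := inferInstance
  have hr0 : IsLocalHom (residue O₀) := inferInstance
  let ι : ResidueField T →+* ResidueField O₀ := ResidueField.map (ψ : T →+* O₀)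
  have hι : IsLocalHom ι := inferInstance
  have hc : IsLocalHom (ι.comp (residue T)) := RingHom.isLocalHom_comp _ _
  have hresT : (H.ρ.baseChangeAlong (residue T) hr).IsOrdinaryAt p := by
    refine OrdinaryCondition.isOrdinaryAt_of_jointly_injective hp hp2 ι hι ι hι
      (fun a ha _ => ι.injective (ha.trans (map_zero ι).symm))
      (detIsCyclotomic_baseChange _ hr hdetT) ?_ ?_ <;>
    · refine OrdinaryCondition.isOrdinaryAt_of_isEquiv
        ⟨(isEquiv_baseChange_comp _ hr ι hι hc H.ρ).some.symm⟩ ?_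
      refine OrdinaryCondition.isOrdinaryAt_of_isEquiv
        (isEquiv_baseChange_comp _ hψ (residue O₀) hr0 hc H.ρ) ?_
      exact OrdinaryCondition.isOrdinaryAt_of_isEquiv
        ⟨(GaloisRepAdic.Equiv.baseChangeAlong (residue O₀) hr0 e.some).symm⟩ hres
  exact OrdinaryCondition.isOrdinaryAt_of_isEquiv e
    (OrdinaryCondition.isOrdinaryAt_baseChange hp hp2 _ hψ hdetT
      (Ordinary.isOrdinaryAt_datum hp hp2 hp𝒪 hpS hNS hJ hK H hresT))

end FermatLib.MLT.HeckeRep
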