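import Fermat.Agent.MLT.Odd.TameUnipotent
import Fermat.Agent.MLT.Odd.HeckeRepDescentPrep
import Mathlib.RingTheory.Ideal.Quotient.Index
import Mathlib.LinearAlgebra.Matrix.Charpoly.LinearMap

/-!
# The sign of unipotent inertia

If inertia at `q ≠ p` is unipotent and nontrivial and the determinant is cyclotomic, then every
Frobenius `φ` has trace `β (q + 1)` with `β ^ 2 = 1` and acts by `q β` on the image of `σ - 1`.  The
sign is pinned down by the residual trace if `q + 1` is a unit, and in general by a root of the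
characteristic polynomial which is congruent to the sign and is not `± q`.
-/

set_option autoImplicit false

noncomputable section

namespace FermatLib.MLT.HeckeRep

open IsLocalRing FermatLib.Galois Polynomial

local notation "Qbar" => AlgebraicClosure ℚ
local notation "Γℚ" => (AlgebraicClosure ℚ ≃ₐ[ℚ] AlgebraicClosure ℚ)

/-- Two by two matrices with `F N = q N F`, `tr N = 0`, `N ≠ 0` and `det F = q`. -/
theorem sign_of_matrix_relation {A : Type*} [CommRing A] [IsDomain A] (F N : Matrix (Fin 2) (Fin 2) A)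
    (q : A) (hq0 : q ≠ 0) (hq1 : q ≠ 1) (hqn : q + 1 ≠ 0) (hN0 : N ≠ 0) (hNt : N.trace = 0)
    (hdet : F.det = q) (hrel : F * N = q • (N * F)) :
    ∃ β : A, (β = 1 ∨ β = -1) ∧ F.trace = β * (q + 1) ∧ F * N = (q * β) • N := by
  have htr : (F * N).trace = 0 := by
    have h := congrArg Matrix.trace hrel
    rw [Matrix.trace_smul, Matrix.trace_mul_comm N F, smul_eq_mul] at h
    have h' : (q - 1) * (F * N).trace = 0 := by rw [sub_mul, one_mul, ← h, sub_self]
    exact (mul_eq_zero.1 h').resolve_left (sub_ne_zero.2 hq1)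
  have hid : F * N + N * F =
      F.trace • N + N.trace • F + ((F * N).trace - F.trace * N.trace) • 1 := by
    ext i j
    fin_cases i <;> fin_cases j <;>
      simp [Matrix.mul_apply, Matrix.trace_fin_two, Fin.sum_univ_two] <;> ring
  rw [hNt, htr, zero_smul, mul_zero, sub_zero, zero_smul, add_zero, add_zero, hrel] at hid
  have h1 : (q + 1) • (N * F) = F.trace • N := by rw [add_smul, one_smul, hid]
  have hF2 : F * F = F.trace • F - q • 1 := by
    rw [← hdet]
    ext i j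
    fin_cases i <;> fin_cases j <;>
      simp [Matrix.mul_apply, Matrix.trace_fin_two, Matrix.det_fin_two, Fin.sum_univ_two] <;> ring
  have h2 : (q + 1) • (N * F * F) = F.trace • (N * F) := by
    rw [← smul_mul_assoc, h1, smul_mul_assoc]
  rw [mul_assoc, hF2, mul_sub, mul_smul_comm, mul_smul_comm, mul_one, smul_sub] at h2
  have h3 := congrArg ((q + 1) • ·) h2
  simp only [smul_sub, smul_smul] at h3
  rw [show (q + 1) * ((q + 1) * F.trace) = ((q + 1) * F.trace) * (q + 1) by ring, ← smul_smul,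
    show (q + 1) * F.trace = F.trace * (q + 1) by ring, ← smul_smul F.trace (q + 1), h1,
    smul_smul, smul_smul, ← sub_smul, ← smul_smul F.trace (q + 1), h1, smul_smul] at h3
  have h4 : ((q + 1) * F.trace * F.trace - (q + 1) * ((q + 1) * q) - F.trace * F.trace) • N = 0 := by
    rw [sub_smul, sub_eq_zero]
    convert h3 using 2 <;> ring
  have h5 : F.trace * F.trace = (q + 1) * (q + 1) := by
    have h := (smul_eq_zero.1 h4).resolve_right hN0
    refine mul_left_cancel₀ hq0 ?_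
    linear_combination h
  obtain ⟨β, hβ, hβt⟩ : ∃ β : A, (β = 1 ∨ β = -1) ∧ F.trace = β * (q + 1) := by
    rcases mul_self_eq_mul_self_iff.1 h5 with h | h
    · exact ⟨1, Or.inl rfl, by rw [one_mul, h]⟩
    · exact ⟨-1, Or.inr rfl, by rw [neg_one_mul, h]⟩
  refine ⟨β, hβ, hβt, ?_⟩
  rw [hrel]
  have h6 : N * F = β • N := by
    refine smul_right_injective _ hqn ?_
    show (q + 1) • (N * F) = (q + 1) • β • N
    rw [h1, hβt, smul_smul, mul_comm]
  rw [h6, smul_smul]

variable {A : Type} [CommRing A] [IsDomain A] [IsLocalRing A] [IsNoetherianRing A]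
  [Finite (ResidueField A)] [CharZero A] {ρ : GaloisRepAdic A} {p q : ℕ}

/-- **Trivial, or of one sign.** -/
theorem exists_sign_of_unipotent (hp : p.Prime) (hdet : ρ.DetIsCyclotomic p) (hq : q.Prime)
    (hqp : q ≠ p) (hU : ρ.IsUnipotentOnInertiaAt q) {P : ValuationSubring Qbar}
    (hP : P.LiesOverPrime q) {φ : Γℚ} (hφ : P.IsFrobeniusAt φ q) :
    (∀ σ ∈ P.inertiaSubgroupIn ℚ, ρ.ρ σ = 1) ∨
      ∃ β : A, (β = 1 ∨ β = -1) ∧ ρ.trace φ = β * ((q : A) + 1) ∧
        ∀ σ ∈ P.inertiaSubgroupIn ℚ, ∀ v : ρ.V,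
          ρ.ρ φ (ρ.ρ σ v - v) = ((q : A) * β) • (ρ.ρ σ v - v) := by
  by_cases h1 : ∀ σ ∈ P.inertiaSubgroupIn ℚ, ρ.ρ σ = 1
  · exact Or.inl h1
  right
  let b := adicBasis ρ
  let e := LinearMap.toMatrixAlgEquiv b
  have hsq : ∀ σ ∈ P.inertiaSubgroupIn ℚ, (ρ.ρ σ - 1) * (ρ.ρ σ - 1) = 0 := fun σ hσ => by
    have h := LinearMap.aeval_self_charpoly (ρ.ρ σ)
    simpa [hU P hP σ hσ, sq] using h
  have htrN : ∀ σ ∈ P.inertiaSubgroupIn ℚ, (e (ρ.ρ σ - 1)).trace = 0 := fun σ hσ => by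
    have hn : IsNilpotent (e (ρ.ρ σ - 1)) := ⟨2, by rw [sq, ← map_mul, hsq σ hσ, map_zero]⟩
    exact (Matrix.isNilpotent_trace_of_isNilpotent hn).eq_zero
  have hfin : ∀ n : ℕ, Finite (A ⧸ maximalIdeal A ^ n) := fun n =>
    haveI : Finite (A ⧸ maximalIdeal A) := ‹Finite (ResidueField A)›
    Ideal.finite_quotient_pow (IsNoetherian.noetherian _) n
  have hrel : ∀ σ ∈ P.inertiaSubgroupIn ℚ,
      e (ρ.ρ φ) * e (ρ.ρ σ - 1) = (q : A) • (e (ρ.ρ σ - 1) * e (ρ.ρ φ)) := fun σ hσ => by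
    have hsub : ∀ g, Deform.matOf ρ b g - 1 = e (ρ.ρ g - 1) := fun g => by
      rw [map_sub, map_one]; rfl
    have key := FermatLib.MLT.Odd.matRep_conj_frobenius (Deform.matCont_matOf ρ b) hfin hp hq
      hqp.symm hdet.1 hP
      (fun g hg => by rw [hsub, ← map_mul, hsq g hg, map_zero]) hσ hφ
    have key' : ρ.ρ (φ * σ * φ⁻¹) = 1 + q • (ρ.ρ σ - 1) := by
      refine e.injective ?_
      rw [map_add, map_one, map_nsmul, ← hsub]
      exact key
    have h2 : ρ.ρ φ * ρ.ρ σ = ρ.ρ (φ * σ * φ⁻¹) * ρ.ρ φ := by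
      rw [← map_mul, ← map_mul, inv_mul_cancel_right]
    rw [← map_mul, ← map_mul, ← map_smul, mul_sub, mul_one, h2, key', add_mul, one_mul,
      add_sub_cancel_left, smul_mul_assoc, Nat.cast_smul_eq_nsmul]
  have hdetF : (e (ρ.ρ φ)).det = (q : A) := by
    rw [show (e (ρ.ρ φ)).det = LinearMap.det (ρ.ρ φ) from LinearMap.det_toMatrix b _]
    exact det_frobenius ρ hp hdet hq hqp hP hφ
  have hq0 : (q : A) ≠ 0 := Nat.cast_ne_zero.2 hq.ne_zero
  have hq1 : (q : A) ≠ 1 := by exact_mod_cast hq.one_lt.ne'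
  have hqn : (q : A) + 1 ≠ 0 := by exact_mod_cast Nat.succ_ne_zero q
  push Not at h1
  obtain ⟨σ₀, hσ₀, hne⟩ := h1
  have hN0 : e (ρ.ρ σ₀ - 1) ≠ 0 := fun h =>
    hne (sub_eq_zero.1 (e.injective (h.trans (map_zero e).symm)))
  obtain ⟨β, hβ, hβt, -⟩ := sign_of_matrix_relation _ _ _ hq0 hq1 hqn hN0 (htrN σ₀ hσ₀) hdetF
    (hrel σ₀ hσ₀)
  have htrF : (e (ρ.ρ φ)).trace = ρ.trace φ := (LinearMap.trace_eq_matrix_trace A b _).symm
  refine ⟨β, hβ, by rw [← htrF, hβt], fun σ hσ v => ?_⟩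
  suffices h : ρ.ρ φ * (ρ.ρ σ - 1) = ((q : A) * β) • (ρ.ρ σ - 1) by
    simpa using LinearMap.congr_fun h v
  refine e.injective ?_
  rw [map_mul, map_smul]
  by_cases hN : e (ρ.ρ σ - 1) = 0
  · rw [hN, mul_zero, smul_zero]
  obtain ⟨β', -, hβt', h'⟩ := sign_of_matrix_relation _ _ _ hq0 hq1 hqn hN (htrN σ hσ) hdetF
    (hrel σ hσ)
  rwa [mul_right_cancel₀ hqn (hβt'.symm.trans hβt)] at h'

omit [IsDomain A] [IsNoetherianRing A] [Finite (ResidueField A)] [CharZero A] in
/-- Signs congruent modulo the maximal ideal are equal. -/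
theorem sign_eq_of_sub_mem (hp2 : (2 : A) ∉ maximalIdeal A) {β γ : A} (hβ : β = 1 ∨ β = -1)
    (hγ : γ = 1 ∨ γ = -1) (h : β - γ ∈ maximalIdeal A) : β = γ := by
  rcases hβ with rfl | rfl <;> rcases hγ with rfl | rfl
  · rfl
  · exact absurd (by rwa [sub_neg_eq_add, one_add_one_eq_two] at h) hp2
  · exact absurd ((Ideal.neg_mem_iff _).1 (by convert h using 1; ring)) hp2
  · rfl

omit [IsDomain A] [IsNoetherianRing A] [Finite (ResidueField A)] [CharZero A] in
/-- `2` is a unit in residue characteristic `p ≠ 2`. -/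
theorem two_notMem_maximalIdeal (hp : p.Prime) (hp2 : p ≠ 2) (hpA : (p : A) ∈ maximalIdeal A) :
    (2 : A) ∉ maximalIdeal A := fun h2 => by
  obtain ⟨m, hm⟩ := hp.odd_of_ne_two hp2
  refine (maximalIdeal.isMaximal A).ne_top ((Ideal.eq_top_iff_one _).2 ?_)
  have h1 := sub_mem hpA (Ideal.mul_mem_right (m : A) _ h2)
  rwa [show (p : A) = 2 * (m : A) + 1 by exact_mod_cast congrArg (Nat.cast (R := A)) hm,
    add_sub_cancel_left] at h1

omit [IsDomain A] [IsNoetherianRing A] [Finite (ResidueField A)] [CharZero A] in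
/-- Integers in the maximal ideal are divisible by the residue characteristic. -/
theorem dvd_of_natCast_mem_maximalIdeal (hp : p.Prime) (hpA : (p : A) ∈ maximalIdeal A) {n : ℕ}
    (hn : (n : A) ∈ maximalIdeal A) : p ∣ n := by
  by_contra h
  obtain ⟨a, b, hab⟩ := Int.isCoprime_iff_gcd_eq_one.2
    (show Int.gcd (p : ℤ) n = 1 by
      rw [Int.gcd_natCast_natCast]; exact hp.coprime_iff_not_dvd.2 h)
  refine (maximalIdeal.isMaximal A).ne_top ((Ideal.eq_top_iff_one _).2 ?_)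
  have := congrArg (Int.cast (R := A)) hab
  push_cast at this
  rw [← this]
  exact add_mem (Ideal.mul_mem_left _ _ hpA) (Ideal.mul_mem_left _ _ hn)

/-- **The sign at `q`.** Either `q + 1` is a unit and the trace of Frobenius is congruent to
`ε (q + 1)`, or the characteristic polynomial of Frobenius has a root which is congruent to `ε` and
is not `± q`, whenever inertia is nontrivial. -/
theorem sign_relation_of_unipotent (hp : p.Prime) (hp2 : p ≠ 2) (hdet : ρ.DetIsCyclotomic p)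
    (hq : q.Prime) (hqp : q ≠ p) (hU : ρ.IsUnipotentOnInertiaAt q) {ε : ℤ}
    (hε : ε = 1 ∨ ε = -1) {P : ValuationSubring Qbar} (hP : P.LiesOverPrime q) {φ : Γℚ}
    (hφ : P.IsFrobeniusAt φ q)
    (hpin : (∀ σ ∈ P.inertiaSubgroupIn ℚ, ρ.ρ σ = 1) ∨
      (¬ p ∣ q + 1 ∧ ρ.trace φ - (ε : A) * ((q : A) + 1) ∈ maximalIdeal A) ∨
      ∃ u : A, u ^ 2 ≠ (q : A) ^ 2 ∧ u - (ε : A) ∈ maximalIdeal A ∧
        u ^ 2 - ρ.trace φ * u + (q : A) = 0) :
    ∀ σ ∈ P.inertiaSubgroupIn ℚ, ∀ v : ρ.V,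
      ρ.ρ φ (ρ.ρ σ v - v) = ((q : A) * (ε : A)) • (ρ.ρ σ v - v) := by
  intro σ hσ v
  rcases hpin with htriv | hpin
  · rw [htriv σ hσ]; simp
  rcases exists_sign_of_unipotent hp hdet hq hqp hU hP hφ with h | ⟨β, hβ, hβt, hβr⟩
  · rw [h σ hσ]; simp
  have h2 := two_notMem_maximalIdeal hp hp2 hdet.1
  have hεA : (ε : A) = 1 ∨ (ε : A) = -1 := by
    rcases hε with rfl | rfl <;> simp
  suffices h : β = (ε : A) by rw [← h]; exact hβr σ hσ v
  rcases hpin with ⟨hq1, ht⟩ | ⟨u, hu2, huε, hu⟩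
  · refine sign_eq_of_sub_mem h2 hβ hεA ?_
    rw [hβt, ← sub_mul] at ht
    refine ((maximalIdeal.isMaximal A).isPrime.mem_or_mem ht).resolve_right fun h => hq1 ?_
    exact dvd_of_natCast_mem_maximalIdeal hp hdet.1 (by simpa using h)
  · refine sign_eq_of_sub_mem h2 hβ hεA ?_
    have hβ1 : β * β = 1 := by rcases hβ with rfl | rfl <;> simp
    have h0 : (u - β) * (u - (q : A) * β) = 0 := by
      rw [hβt] at hu
      linear_combination hu + (q : A) * hβ1
    rcases mul_eq_zero.1 h0 with h | h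
    · rw [sub_eq_zero] at h
      rwa [← h]
    · refine absurd ?_ hu2
      rw [sub_eq_zero.1 h, mul_pow, sq β, hβ1, mul_one]

end FermatLib.MLT.HeckeRep
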