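import Fermat.Agent.MLT.Odd.HeckeRepFamily
import Fermat.Agent.MLT.Ordinary.Basic

/-!
# Strict ordinarity, tested on a closed family of coefficient changes
-/

set_option autoImplicit false

noncomputable section

namespace FermatLib.MLT.HeckeRep

open IsLocalRing FermatLib.Galois FermatLib.Galois.DeformLocal FermatLib.Galois.OrdinaryCondition
open scoped TensorProduct

local notation "Qbar" => AlgebraicClosure ℚ
local notation "Γℚ" => (AlgebraicClosure ℚ ≃ₐ[ℚ] AlgebraicClosure ℚ)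

variable {ι : Type*} {A : Type} [CommRing A] [IsLocalRing A] {B : ι → Type}
  [∀ i, CommRing (B i)] [∀ i, IsLocalRing (B i)] {φ : ∀ i, A →+* B i}
  (hφ : ∀ i, IsLocalHom (φ i)) {ρ : GaloisRepAdic A}

/-- For a strictly ordinary representation, the diagonal characters are read off any vector
fixed up to a unit multiple by the shifted normalising inertia element. -/
theorem strictOrdinary_char_eq {C : Type} [CommRing C] [IsLocalRing C] {r : GaloisRepAdic C}
    {p : ℕ} (h : r.IsStrictOrdinaryAt p) {P : ValuationSubring Qbar} (hP : P.LiesOverPrime p)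
    {σ₀ : Γℚ} (hσ₀ : σ₀ ∈ P.inertiaSubgroupIn ℚ) {u : C} (hu : IsUnit u)
    (b : Module.Basis (Fin 2) C r.V) (hb : r.ρ σ₀ (b 0) - b 0 = u • b 0)
    {σ : Γℚ} (hσ : σ ∈ P.decompositionSubgroup ℚ) {x z : C}
    (hx : r.ρ σ (b 0) = x • b 0) (hdet : LinearMap.det (r.ρ σ) = x * z)
    {n a : ℕ} (ha : ∀ μ : Qbar, μ ^ p ^ n = 1 → σ μ = μ ^ a) :
    x - (a : C) * z ∈ Ideal.span {((p ^ n : ℕ) : C)} := by
  obtain ⟨L, ⟨b', hb'⟩, -, hI, hc⟩ := h.2 P hP
  obtain ⟨x', z', hx', hz', hxz⟩ := hc σ hσ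
  have hmem : b 0 ∈ L := by
    have h1 := hI σ₀ hσ₀ (b 0)
    rw [hb] at h1
    obtain ⟨u, rfl⟩ := hu
    have h2 := L.smul_mem (↑u⁻¹ : C) h1
    rwa [smul_smul, Units.inv_mul, one_smul] at h2
  have hxx : x = x' := by
    have h1 := (hx' _ hmem).symm.trans hx
    have h2 := congrArg (fun v => b.repr v 0) h1
    simpa using h2.symm
  have hdet' : LinearMap.det (r.ρ σ) = x' * z' := by
    refine det_eq_mul_of_triangular b' (r.ρ σ) ?_ ?_
    · exact hx' _ (hb' ▸ Submodule.mem_span_singleton_self _)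
    · exact hb' ▸ hz' (b' 1)
  have hunit : IsUnit (x' * z') := by
    rw [← hdet']
    exact ((r.det σ).isUnit : IsUnit _)
  have hzz : z = z' := by
    refine (isUnit_of_mul_isUnit_left hunit).mul_left_cancel ?_
    rw [← hdet', hdet, hxx]
  rw [hxx, hzz]
  exact hxz n a ha

theorem isStrictOrdinaryAt_of_family [IsNoetherianRing A] (hc : IsClosedFamily φ) {p : ℕ}
    (hp : p.Prime) (hp2 : p ≠ 2) (hdet : ρ.DetIsCyclotomic p)
    (h : ∀ i, (ρ.baseChangeAlong (φ i) (hφ i)).IsStrictOrdinaryAt p) :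
    ρ.IsStrictOrdinaryAt p := by
  refine ⟨hdet.1, fun P hP => ?_⟩
  obtain ⟨σ₀, hσ₀, hu⟩ := exists_isUnit_detSubOne hp hp2 hdet hP
  obtain ⟨L, ⟨b, hb⟩, hD, hI⟩ := exists_line_of_equations _ hu
    (equations_of_family hφ hc fun i =>
      equations_of_isOrdinaryAt (h i).isOrdinaryAt hP hσ₀)
  have hb0 : b 0 ∈ L := hb ▸ Submodule.mem_span_singleton_self _
  refine ⟨L, ⟨b, hb⟩, hD, hI, fun σ hσ => ?_⟩
  have coef : ∀ v ∈ L, ∃ c : A, c • b 0 = v := fun v hv =>
    Submodule.mem_span_singleton.1 (hb ▸ hv)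
  obtain ⟨x, hx⟩ := coef _ (hD σ hσ _ hb0)
  set z : A := b.repr (ρ.ρ σ (b 1)) 1 with hz
  have hz1 : ρ.ρ σ (b 1) - z • b 1 ∈ L := by
    rw [hb, Submodule.mem_span_singleton]
    refine ⟨b.repr (ρ.ρ σ (b 1)) 0, eq_sub_of_add_eq ?_⟩
    conv_rhs => rw [← b.sum_repr (ρ.ρ σ (b 1)), Fin.sum_univ_two]
  have hdσ : LinearMap.det (ρ.ρ σ) = x * z :=
    det_eq_mul_of_triangular b (ρ.ρ σ) hx.symm (hb ▸ hz1)
  have hxL : ∀ w ∈ L, ρ.ρ σ w = x • w := fun w hw => by
    obtain ⟨c, rfl⟩ := coef w hw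
    rw [map_smul, ← hx, smul_comm]
  obtain ⟨y, hy⟩ := coef _ (hI σ₀ hσ₀ (b 0))
  have hdσ₀ : detSubOne ρ σ₀ = y := by
    have h0 : ρ.ρ σ₀ (b 0) = (1 + y) • b 0 := by rw [add_smul, one_smul, hy, add_sub_cancel]
    have h1 : ρ.ρ σ₀ (b 1) - (1 : A) • b 1 ∈ A ∙ b 0 := by
      rw [one_smul]
      exact hb ▸ hI σ₀ hσ₀ (b 1)
    rw [detSubOne, det_eq_mul_of_triangular b (ρ.ρ σ₀) h0 h1, mul_one, add_sub_cancel_left]
  refine ⟨x, z, hxL, fun v => ?_, fun n a ha => mem_of_forall_mem_sup_pow fun j => ?_⟩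
  · obtain ⟨c, d, rfl⟩ : ∃ c d : A, v = c • b 0 + d • b 1 :=
      ⟨b.repr v 0, b.repr v 1, by conv_lhs => rw [← b.sum_repr v, Fin.sum_univ_two]⟩
    have e : ρ.ρ σ (c • b 0 + d • b 1) - z • (c • b 0 + d • b 1) =
        (c * x - z * c) • b 0 + d • (ρ.ρ σ (b 1) - z • b 1) := by
      rw [map_add, map_smul, map_smul, ← hx]
      module
    rw [e]
    exact add_mem (L.smul_mem _ hb0) (L.smul_mem _ hz1)
  obtain ⟨m, hm⟩ := hc (j + 1)
  obtain ⟨a', ha'⟩ := exists_cyclotomic_exponent hp.ne_zero (max n m) σ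
  have h1 : x - (a' : A) * z ∈ maximalIdeal A ^ (j + 1) := by
    refine hm _ fun i => ?_
    let _ : Algebra A (B i) := (φ i).toAlgebra
    let bi : Module.Basis (Fin 2) (B i) (ρ.baseChangeAlong (φ i) (hφ i)).V :=
      Algebra.TensorProduct.basis (B i) b
    have ev : ∀ (τ : Γℚ) (c : A), ρ.ρ τ (b 0) = c • b 0 →
        (ρ.baseChangeAlong (φ i) (hφ i)).ρ τ (bi 0) = φ i c • bi 0 := by
      intro τ c hc
      show (ρ.ρ τ).baseChange (B i) (Algebra.TensorProduct.basis (B i) b 0) =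
        φ i c • Algebra.TensorProduct.basis (B i) b 0
      rw [Algebra.TensorProduct.basis_apply, LinearMap.baseChange_tmul, hc,
        TensorProduct.tmul_smul]
      exact (algebraMap_smul (B i) c _).symm
    have h0 : (ρ.baseChangeAlong (φ i) (hφ i)).ρ σ₀ (bi 0) - bi 0 = φ i y • bi 0 := by
      rw [ev σ₀ (1 + y) (by rw [add_smul, one_smul, hy, add_sub_cancel]), map_add, map_one,
        add_smul, one_smul, add_sub_cancel_left]
    have h2 := strictOrdinary_char_eq (h i) hP hσ₀ (u := φ i y)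
      ((hdσ₀ ▸ hu : IsUnit y).map (φ i)) bi h0 hσ (ev σ x hx.symm)
      (z := φ i z) (by rw [det_baseChange_apply, hdσ, map_mul]) ha'
    have hpB : (p : B i) ∈ maximalIdeal (B i) := (h i).1
    rw [map_sub, map_mul, map_natCast]
    refine (Ideal.span_singleton_le_iff_mem _).2 ?_ h2
    rw [Nat.cast_pow]
    exact Ideal.pow_le_pow_right (le_max_right n m) (Ideal.pow_mem_pow hpB _)
  have h3 := natCast_sub_mem_span_of_modEq (A := A)
    (exponent_modEq hp.ne_zero (le_max_left n m) ha ha')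
  rw [show x - (a : A) * z = (x - (a' : A) * z) + ((a' : A) - a) * z by ring, map_add,
    Ideal.Quotient.eq_zero_iff_mem.2 h1, zero_add]
  exact Ideal.mem_map_of_mem _ (Ideal.mul_mem_right _ _ h3)

end FermatLib.MLT.HeckeRep
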