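import Fermat.Agent.MLT.Odd.Levels
import Fermat.Agent.MLT.Odd.HeckeRepDescent
import Fermat.Agent.MLT.Odd.StrictOrdinaryFamily
import Fermat.Agent.Galois.Deform.Mat

/-!
# The ring of a level from a finite family of systems

For lifts `r i` of `ρbar` over finite extensions `O' i`, the level ring is the `O`-algebra
generated in `∏ i, O' i` by the tuples of traces.  It carries a lift with the local conditions
shared by the `r i`, and acts on every module whose eigen systems are among the `r i`.
-/

set_option autoImplicit false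
set_option linter.style.haveILetI false

noncomputable section

namespace FermatLib.MLT.Odd

open IsLocalRing FermatLib.Galois FermatLib.Galois.DeformLocal FermatLib.MLT.HeckeRep

local notation "Γℚ" => (AlgebraicClosure ℚ ≃ₐ[ℚ] AlgebraicClosure ℚ)

variable {O : Type} [CommRing O] [IsDomain O] [IsDiscreteValuationRing O] {p : ℕ}
  {ρbar : ResidualGaloisRep (ResidueField O)} {S : OddPrimes p ρbar} {Q : Finset ℕ}

/-- A lift with the conditions of level `Q` over a finite extension. -/
structure OddSystem (S : OddPrimes p ρbar) (Q : Finset ℕ) : Type 1 where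
  O' : Type
  [instCommRing : CommRing O']
  [instIsDomain : IsDomain O']
  [instDVR : IsDiscreteValuationRing O']
  [instComplete : IsAdicComplete (maximalIdeal O') O']
  [instFiniteResidue : Finite (ResidueField O')]
  [instCharZero : CharZero O']
  [instAlgebra : Algebra O O']
  [instModuleFinite : Module.Finite O O']
  [instLocalHom : IsLocalHom (algebraMap O O')]
  r : GaloisRepAdic O'
  lift : IsOddLift S Q r
  isLiftOf : IsLiftOf ρbar r

attribute [instance] OddSystem.instCommRing OddSystem.instIsDomain OddSystem.instDVR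
  OddSystem.instComplete OddSystem.instFiniteResidue OddSystem.instCharZero OddSystem.instAlgebra
  OddSystem.instModuleFinite OddSystem.instLocalHom

namespace OddSystem

/-- The residual trace. -/
theorem residue_trace (x : OddSystem S Q) (σ : Γℚ) :
    residue x.O' (x.r.trace σ) = ResidueField.map (algebraMap O x.O')
      (LinearMap.trace (ResidueField O) ρbar.V (ρbar.ρ σ)) := by
  obtain ⟨e⟩ := x.isLiftOf
  rw [← trace_residual]
  have hc : (ρbar.baseChangeAlong (ResidueField.map (algebraMap O x.O'))).ρ σ =
      e.toLinearEquiv.conj (x.r.residual.ρ σ) := by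
    refine LinearMap.ext fun y => ?_
    rw [LinearEquiv.conj_apply_apply, e.map_apply, LinearEquiv.apply_symm_apply]
  have h := LinearMap.trace_conj' (x.r.residual.ρ σ) e.toLinearEquiv
  rw [← hc] at h
  rw [← h]
  letI : Algebra (ResidueField O) (ResidueField x.O') :=
    (ResidueField.map (algebraMap O x.O')).toAlgebra
  exact LinearMap.trace_baseChange (ρbar.ρ σ) (ResidueField x.O')

theorem residual_irred (x : OddSystem S Q) (h : ρbar.IsAbsolutelyIrreducible) :
    x.r.residual.IsAbsolutelyIrreducible :=
  isAbsolutelyIrreducible_of_trace_eq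
    ((isAbsolutelyIrreducible_baseChangeAlong_iff
      (ResidueField.map (algebraMap O x.O')) ρbar).2 h)
    fun σ => by
      rw [trace_residual, residue_trace]
      letI : Algebra (ResidueField O) (ResidueField x.O') :=
        (ResidueField.map (algebraMap O x.O')).toAlgebra
      exact LinearMap.trace_baseChange (ρbar.ρ σ) (ResidueField x.O')

end OddSystem

variable {ι : Type} (x : ι → OddSystem S Q)

/-- The tuple of traces. -/
def sysTraces (σ : Γℚ) : ∀ i, (x i).O' := fun i => (x i).r.trace σ

/-- The algebra generated by the tuples of traces. -/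
def levelAlg : Subalgebra O (∀ i, (x i).O') := Algebra.adjoin O (Set.range (sysTraces x))

/-- The level ring. -/
abbrev LevelRing : Type := ↥(levelAlg x)

/-- The trace tuples in the level ring. -/
def levelTrace (σ : Γℚ) : LevelRing x := ⟨sysTraces x σ, Algebra.subset_adjoin ⟨σ, rfl⟩⟩

/-- The projection to a system. -/
def levelEval (i : ι) : LevelRing x →ₐ[O] (x i).O' :=
  (Pi.evalAlgHom O (fun i => (x i).O') i).comp (levelAlg x).val

theorem levelEval_levelTrace (i : ι) (σ : Γℚ) :
    levelEval x i (levelTrace x σ) = (x i).r.trace σ := rfl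

theorem levelEval_ext {a b : LevelRing x} (h : ∀ i, levelEval x i a = levelEval x i b) : a = b :=
  Subtype.ext (funext h)

theorem adjoin_levelTrace : Algebra.adjoin O (Set.range (levelTrace x)) = ⊤ := by
  refine Subalgebra.map_injective (f := (levelAlg x).val) Subtype.val_injective ?_
  rw [AlgHom.map_adjoin, ← Set.range_comp, Algebra.map_top, Subalgebra.range_val]
  rfl

theorem exists_residue_eq (a : LevelRing x) :
    ∃ c : O, ∀ i, residue (x i).O' (levelEval x i a) =
      ResidueField.map (algebraMap O (x i).O') (residue O c) := by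
  obtain ⟨a, ha⟩ := a
  induction ha using Algebra.adjoin_induction with
  | mem y hy =>
    obtain ⟨σ, rfl⟩ := hy
    obtain ⟨c, hc⟩ := residue_surjective (LinearMap.trace (ResidueField O) ρbar.V (ρbar.ρ σ))
    exact ⟨c, fun i => hc ▸ (x i).residue_trace σ⟩
  | algebraMap c =>
    exact ⟨c, fun i => (ResidueField.map_residue (algebraMap O (x i).O') c).symm⟩
  | add y z hy hz ihy ihz =>
    obtain ⟨c, hc⟩ := ihy
    obtain ⟨d, hd⟩ := ihz
    exact ⟨c + d, fun i => by
      rw [map_add (residue O), map_add (ResidueField.map _), ← hc, ← hd, ← map_add]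
      rfl⟩
  | mul y z hy hz ihy ihz =>
    obtain ⟨c, hc⟩ := ihy
    obtain ⟨d, hd⟩ := ihz
    exact ⟨c * d, fun i => by
      rw [map_mul (residue O), map_mul (ResidueField.map _), ← hc, ← hd, ← map_mul]
      rfl⟩

variable [Finite ι]

instance levelRing_finite : Module.Finite O (LevelRing x) :=
  Module.Finite.of_injective (levelAlg x).val.toLinearMap Subtype.val_injective

theorem levelRing_isUnit_iff [Nonempty ι] {a : LevelRing x} {c : O}
    (h : ∀ i, residue (x i).O' (levelEval x i a) =
      ResidueField.map (algebraMap O (x i).O') (residue O c)) :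
    IsUnit a ↔ IsUnit c := by
  constructor
  · intro ha
    obtain ⟨i⟩ := ‹Nonempty ι›
    have h1 := ((ha.map (levelEval x i)).map (residue (x i).O'))
    rw [h] at h1
    exact isUnit_of_map_unit (residue O) _ (isUnit_of_map_unit _ _ h1)
  · intro hc
    have : (levelAlg x).val.toRingHom.IsIntegral :=
      RingHom.IsIntegral.tower_top (algebraMap O (LevelRing x)) _
        (algebraMap_isIntegral_iff.2 (inferInstance : Algebra.IsIntegral O (∀ i, (x i).O')))
    have := this.isLocalHom Subtype.val_injective
    refine isUnit_of_map_unit (levelAlg x).val.toRingHom a (Pi.isUnit_iff.2 fun i => ?_)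
    have h1 : IsUnit (residue (x i).O' (levelEval x i a)) := by
      rw [h]
      exact (hc.map (residue O)).map _
    exact isUnit_of_map_unit (residue (x i).O') _ h1

instance levelRing_isLocalRing [Nonempty ι] : IsLocalRing (LevelRing x) := by
  have : Nontrivial (LevelRing x) := by
    obtain ⟨i⟩ := ‹Nonempty ι›
    exact (levelEval x i).toRingHom.domain_nontrivial
  refine IsLocalRing.of_nonunits_add fun a b ha hb => ?_
  obtain ⟨c, hc⟩ := exists_residue_eq x a
  obtain ⟨d, hd⟩ := exists_residue_eq x b
  rw [mem_nonunits_iff, levelRing_isUnit_iff x hc] at ha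
  rw [mem_nonunits_iff, levelRing_isUnit_iff x hd] at hb
  rw [mem_nonunits_iff, levelRing_isUnit_iff x (c := c + d) fun i => by
    rw [map_add, map_add, map_add, map_add, hc, hd]]
  exact IsLocalRing.nonunits_add ha hb

instance levelRing_isLocalHom [Nonempty ι] : IsLocalHom (algebraMap O (LevelRing x)) :=
  isLocalHom_of_finite (Algebra.ofId O (LevelRing x))

theorem levelEval_isLocalHom [Nonempty ι] (i : ι) :
    IsLocalHom (levelEval x i : LevelRing x →+* (x i).O') :=
  isLocalHom_of_finite (levelEval x i)

theorem levelRing_residue_surjective [Nonempty ι] :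
    Function.Surjective fun c : O => residue (LevelRing x) (algebraMap O (LevelRing x) c) := by
  intro y
  obtain ⟨a, rfl⟩ := residue_surjective y
  obtain ⟨c, hc⟩ := exists_residue_eq x a
  refine ⟨c, (Ideal.Quotient.eq.2 ?_).symm⟩
  rw [mem_maximalIdeal, mem_nonunits_iff, levelRing_isUnit_iff x (c := 0) fun i => by
    rw [map_sub, map_sub, AlgHom.commutes, hc, ResidueField.map_residue, sub_self, map_zero,
      map_zero]]
  exact not_isUnit_zero

theorem levelRing_isClosedFamily [Nonempty ι] :
    IsClosedFamily fun i => (levelEval x i : LevelRing x →+* (x i).O') :=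
  isClosedFamily_of_finite (levelEval x) fun _ ha =>
    levelEval_ext x fun i => (ha i).trans (map_zero _).symm

theorem levelRing_finite_residue [Nonempty ι] [Finite (ResidueField O)] :
    Finite (ResidueField (LevelRing x)) :=
  finite_residueField_of_finite (𝒪 := O)

/-- **The lift over the level ring.** -/
theorem exists_levelRep [Nonempty ι] [IsAdicComplete (maximalIdeal O) O]
    [Finite (ResidueField O)] (hp : p.Prime) (hp2 : p ≠ 2)
    (hirr : ρbar.IsAbsolutelyIrreducible) :
    ∃ ρ : GaloisRepAdic (LevelRing x), IsOddLift S Q ρ ∧ IsLiftOf ρbar ρ ∧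
      (∀ σ, ρ.trace σ = levelTrace x σ) ∧ Algebra.adjoin O (Set.range ρ.trace) = ⊤ ∧
      ∀ i, (ρ.baseChangeAlong (levelEval x i : LevelRing x →+* (x i).O')
        (levelEval_isLocalHom x i)).IsEquiv (x i).r := by
  obtain ⟨i₀⟩ := ‹Nonempty ι›
  have := fun i => IsNoetherianRing.of_finite O (x i).O'
  have := IsNoetherianRing.of_finite O (LevelRing x)
  have := levelRing_finite_residue x
  have hloc := levelEval_isLocalHom x
  have hc := levelRing_isClosedFamily x
  let f : LevelRing x →+* ∀ i, (x i).O' := (levelAlg x).val.toRingHom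
  have hτf : ∀ σ, f (levelTrace x σ) = (piMat (fun i => (x i).r) σ).trace := fun σ => by
    funext i
    show (x i).r.trace σ = _
    rw [GaloisRepAdic.trace, ← trace_repMatrix (adicBasis (x i).r)]
    simp [Matrix.trace, piMat, adicMat, Finset.sum_apply]
  have hdetc : (piMat (fun i => (x i).r) complexConjugation).det = -1 := by
    funext i
    refine ((Pi.evalRingHom (fun i => (x i).O') i).map_det
      (piMat (fun i => (x i).r) complexConjugation)).trans ?_
    show ((piMat (fun i => (x i).r) complexConjugation).map
      (Pi.evalRingHom (fun i => (x i).O') i)).det = _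
    rw [piMat_map_eval, adicMat, det_repMatrix,
      det_complexConjugation (x i).r hp.ne_zero (x i).lift.det]
    rfl
  have h2 : IsUnit (2 : LevelRing x) := by
    by_contra h2
    have hm2 : (2 : LevelRing x) ∈ maximalIdeal (LevelRing x) := h2
    have hpm : (p : LevelRing x) ∈ maximalIdeal (LevelRing x) :=
      FlatModel.natCast_mem_maximalIdeal_of_hom
        (levelEval x i₀ : LevelRing x →+* (x i₀).O') (x i₀).lift.det.1
    obtain ⟨m, hm⟩ := hp.odd_of_ne_two hp2
    refine (maximalIdeal.isMaximal (LevelRing x)).ne_top ((Ideal.eq_top_iff_one _).2 ?_)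
    have h1 := sub_mem hpm (Ideal.mul_mem_right (m : LevelRing x) _ hm2)
    have e : (p : LevelRing x) = 2 * (m : LevelRing x) + 1 :=
      (congrArg (fun n : ℕ => (n : LevelRing x)) hm).trans (by push_cast; rfl)
    rw [e, add_sub_cancel_left] at h1
    exact h1
  obtain ⟨g, hg⟩ := (hasFullSpan_adicMat_iff (x i₀).r).2 ((x i₀).residual_irred hirr)
  have hgram : IsUnit (Matrix.of fun a b => levelTrace x (g a * g b)).det := by
    have := hloc i₀
    refine isUnit_of_map_unit (levelEval x i₀ : LevelRing x →+* (x i₀).O') _ ?_
    rw [RingHom.map_det]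
    convert hg using 2
    ext a b
    show (x i₀).r.trace (g a * g b) = (adicMat (x i₀).r (g a) * adicMat (x i₀).r (g b)).trace
    rw [← map_mul, adicMat, trace_repMatrix]
    rfl
  have hcont : ∀ n : ℕ, ∃ L : IntermediateField ℚ (AlgebraicClosure ℚ), FiniteDimensional ℚ L ∧
      ∀ σ : Γℚ, (∀ z ∈ L, σ z = z) →
        ∀ y, levelTrace x (y * σ) - levelTrace x y ∈ maximalIdeal (LevelRing x) ^ n := by
    intro n
    obtain ⟨m, hm⟩ := hc n
    obtain ⟨L, hL, hLc⟩ := exists_level_trace_sub_mem (fun i => (x i).r) m
    refine ⟨L, hL, fun σ hσ y => hm _ fun i => ?_⟩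
    show levelEval x i _ ∈ _
    rw [map_sub]
    exact hLc σ hσ i y
  obtain ⟨ρ, hρirr, hρtr, -⟩ := exists_galoisRepAdic_descent f Subtype.val_injective h2
    (piMat fun i => (x i).r) (levelTrace x) hτf complexConjugation_mul_self hdetc g hgram hcont
  have hequiv : ∀ i, (ρ.baseChangeAlong (levelEval x i : LevelRing x →+* (x i).O')
      (hloc i)).IsEquiv (x i).r := fun i =>
    adic_isEquiv_of_trace_eq (residual_isAbsolutelyIrreducible_baseChange ρ _ _ hρirr) fun σ => by
      rw [trace_baseChangeAlong, hρtr]
      rfl
  have hsymm := fun i => (⟨(hequiv i).some.symm⟩ : (x i).r.IsEquiv _)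
  have hdet : ρ.DetIsCyclotomic p := detIsCyclotomic_of_family hloc hc hp.ne_zero fun i =>
    detIsCyclotomic_of_isEquiv (hsymm i) (x i).lift.det
  refine ⟨ρ, ⟨hdet, ?_, fun q hq hqp hqS => isUnramifiedAt_of_family hloc hc fun i =>
      isUnramifiedAt_of_isEquiv (hsymm i) ((x i).lift.unramified q hq hqp hqS),
    fun q hq => isUnipotentOnInertiaAt_of_family hloc hc fun i =>
      isUnipotentOnInertiaAt_of_isEquiv (hsymm i) ((x i).lift.unipotent q hq),
    fun q hq P hP φ hφ σ hσ v => ?_⟩, ?_, hρtr, ?_, hequiv⟩
  · have hpt : ∀ i, pCondition S.pCase (x i).r p := fun i => (x i).lift.at_p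
    revert hpt
    generalize S.pCase = c
    intro hpt
    cases c with
    | flat => exact isFlatAt_of_family hloc hc fun i => FlatModel.isFlatAt_of_isEquiv (hsymm i) (hpt i)
    | strictOnly =>
      exact isStrictOrdinaryAt_of_family hloc hc hp hp2 hdet fun i =>
        MLT.isStrictOrdinaryAt_of_equiv (hequiv i).some.symm (hpt i)
    | mixed =>
      exact isOrdinaryAt_of_family hloc hc hp hp2 hdet fun i =>
        MLT.isOrdinaryAt_of_equiv (hequiv i).some.symm (hpt i)
  · have key : ρ.ρ φ * (ρ.ρ σ - 1) - ((q : LevelRing x) * (S.ε q : LevelRing x)) •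
        (ρ.ρ σ - 1) = 0 := by
      refine end_eq_zero_of_family hloc hc fun i => ?_
      simp only [map_sub, map_mul, map_one, OrdinaryCondition.endBaseChange_smul,
        OrdinaryCondition.endBaseChange_rho, map_natCast, map_intCast]
      obtain ⟨e⟩ := hequiv i
      refine LinearMap.ext fun w => e.toLinearEquiv.injective ?_
      have h := (x i).lift.sign q hq P hP φ hφ σ hσ (e.toLinearEquiv w)
      simp only [LinearMap.sub_apply, Module.End.mul_apply, LinearMap.smul_apply,
        Module.End.one_apply, map_sub, map_smul, e.map_apply, LinearMap.zero_apply, map_zero]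
      rw [sub_eq_zero]
      simpa only [map_sub] using h
    have h := LinearMap.congr_fun key v
    simp only [LinearMap.sub_apply, Module.End.mul_apply, LinearMap.smul_apply,
      Module.End.one_apply, LinearMap.zero_apply, sub_eq_zero] at h
    exact h
  · refine residual_isEquiv_of_trace_eq hρirr fun σ => ?_
    obtain ⟨c, hc'⟩ := residue_surjective (LinearMap.trace (ResidueField O) ρbar.V (ρbar.ρ σ))
    have h1 : residue (LevelRing x) (levelTrace x σ) =
        ResidueField.map (algebraMap O (LevelRing x)) (residue O c) := by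
      rw [ResidueField.map_residue]
      refine Ideal.Quotient.eq.2 ?_
      rw [mem_maximalIdeal, mem_nonunits_iff, levelRing_isUnit_iff x (c := 0) fun i => by
        rw [map_sub, map_sub, AlgHom.commutes, levelEval_levelTrace, OddSystem.residue_trace,
          ← hc', ResidueField.map_residue, sub_self, map_zero, map_zero]]
      exact not_isUnit_zero
    rw [trace_residual, hρtr, h1, hc']
    letI : Algebra (ResidueField O) (ResidueField (LevelRing x)) :=
      (ResidueField.map (algebraMap O (LevelRing x))).toAlgebra
    exact (LinearMap.trace_baseChange (ρbar.ρ σ) (ResidueField (LevelRing x))).symm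
  · rw [show Set.range ρ.trace = Set.range (levelTrace x) from
      congrArg Set.range (funext hρtr), adjoin_levelTrace]

/-- The point of a system. -/
def levelPoint [Nonempty ι] (i : ι) : OddPoint O (LevelRing x) where
  O' := (x i).O'
  toHom := levelEval x i
  isLocalHom := levelEval_isLocalHom x i

/-- Elements vanishing where a property holds vanish at the systems having it. -/
theorem levelEval_eq_zero_of_vanishesWhere [Nonempty ι] {ρ : GaloisRepAdic (LevelRing x)}
    {P : ∀ (A : Type) [CommRing A] [IsLocalRing A], GaloisRepAdic A → Prop} {a : LevelRing x}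
    (h : VanishesWhere (O := O) ρ P a) {i : ι}
    (hi : P (levelPoint x i).O' ((levelPoint x i).rep ρ)) : levelEval x i a = 0 :=
  h (levelPoint x i) hi

omit [Finite ι] in
/-- **The action on a reduced Hecke algebra whose systems are among the family.** -/
theorem exists_levelAction {κ : Type} [Finite κ] (f : κ → ι) {T : Type} [CommRing T]
    [Algebra O T] (hp : p.Prime) (ev : ∀ j, T →ₐ[O] (x (f j)).O')
    (hev : ∀ a, (∀ j, ev j a = 0) → a = 0) (E : Finset ℕ) (t : ℕ → T)
    (htr : ∀ (j : κ) (ℓ : ℕ), ℓ.Prime → ℓ ∉ E → ∀ P : ValuationSubring (AlgebraicClosure ℚ),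
      P.LiesOverPrime ℓ → ∀ σ : Γℚ, P.IsFrobeniusAt σ ℓ →
        (x (f j)).r.trace σ = ev j (t ℓ)) :
    ∃ φ : LevelRing x →ₐ[O] T, ∀ a j, ev j (φ a) = levelEval x (f j) a := by
  classical
  have := fun j => IsNoetherianRing.of_finite O (x (f j)).O'
  have huniq : ∀ {y z : T}, (∀ j, ev j y = ev j z) → y = z := fun {y z} h =>
    sub_eq_zero.1 (hev _ fun j => by rw [map_sub, h j, sub_self])
  have htrace : ∀ σ, ∃ y : T, ∀ j, ev j y = levelEval x (f j) (levelTrace x σ) := fun σ =>
    exists_eq_of_approx ev (fun j => (x (f j)).r.trace σ) fun k =>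
      exists_trace_approx (fun j => (ev j : T →+* (x (f j)).O')) (fun j => (x (f j)).r)
        hp.ne_zero (fun j => (x (f j)).lift.det) E t htr k σ
  have hall : ∀ a : LevelRing x, ∃ y : T, ∀ j, ev j y = levelEval x (f j) a := by
    intro a
    have ha : a ∈ Algebra.adjoin O (Set.range (levelTrace x)) := by
      rw [adjoin_levelTrace]
      exact Algebra.mem_top
    induction ha using Algebra.adjoin_induction with
    | mem y hy => obtain ⟨σ, rfl⟩ := hy; exact htrace σ
    | algebraMap c => exact ⟨algebraMap O T c, fun j => by rw [AlgHom.commutes, AlgHom.commutes]⟩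
    | add y z _ _ ihy ihz =>
      obtain ⟨y', hy⟩ := ihy
      obtain ⟨z', hz⟩ := ihz
      exact ⟨y' + z', fun j => by rw [map_add, map_add, hy, hz]⟩
    | mul y z _ _ ihy ihz =>
      obtain ⟨y', hy⟩ := ihy
      obtain ⟨z', hz⟩ := ihz
      exact ⟨y' * z', fun j => by rw [map_mul, map_mul, hy, hz]⟩
  choose φ hφ using hall
  exact ⟨
    { toFun := φ
      map_one' := huniq fun j => by rw [hφ, map_one, map_one]
      map_mul' := fun a b => huniq fun j => by rw [hφ, map_mul, map_mul, hφ, hφ]
      map_zero' := huniq fun j => by rw [hφ, map_zero, map_zero]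
      map_add' := fun a b => huniq fun j => by rw [hφ, map_add, map_add, hφ, hφ]
      commutes' := fun c => huniq fun j => by rw [hφ, AlgHom.commutes, AlgHom.commutes] },
    hφ⟩

omit [Finite ι] in
/-- A prime which contains the common kernel of finitely many systems contains one kernel. -/
theorem exists_index_ker_le {κ : Type} [Finite κ] (f : κ → ι) {A : Type} [CommRing A]
    [IsDomain A] (y : LevelRing x →+* A)
    (hy : ∀ a, (∀ j, levelEval x (f j) a = 0) → y a = 0) :
    ∃ j, ∀ a, levelEval x (f j) a = 0 → y a = 0 := by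
  cases nonempty_fintype κ
  have := RingHom.ker_isPrime y
  obtain ⟨j, -, hj⟩ := (Ideal.IsPrime.inf_le' (inferInstance : (RingHom.ker y).IsPrime)).1
    (show Finset.univ.inf (fun j => RingHom.ker (levelEval x (f j))) ≤ RingHom.ker y from
      fun a ha => hy a fun j => (Submodule.mem_finsetInf.1 ha) j (Finset.mem_univ j))
  exact ⟨j, fun a ha => hj ha⟩

end FermatLib.MLT.Odd
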