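import Fermat.Agent.Galois.Ordinary.Kernels
import Fermat.Agent.Galois.FrobeniusCharpoly
import Fermat.Agent.MLT.Odd.HeckeRepPoint
import Fermat.Agent.MLT.Odd.HeckeRepSign
import Fermat.Agent.MLT.Odd.LevelRing

/-!
# The system of a point of a Hecke algebra

A point of the Hecke algebra of level `Γ₀(N)` which is congruent to `ρbar` has, over a finite
extension, a representation lifting `ρbar` with the local properties coming from `J₀(N)`.  It is a
system of level `Q` as soon as `N` is supported in the primes of `S` and `Q` and the two facts from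
local–global compatibility hold: strict ordinarity in the case `strictOnly` and the root congruent
to the sign at the primes `q ≡ -1 (mod p)` of `F` in the level.
-/

set_option autoImplicit false
set_option linter.style.haveILetI false

noncomputable section

namespace FermatLib.MLT.Odd

open IsLocalRing FermatLib.Galois FermatLib.Galois.DeformLocal FermatLib.MLT.HeckeRep CuspForm
  ModularCurve Polynomial

local notation "Qbar" => AlgebraicClosure ℚ
local notation "Γℚ" => (AlgebraicClosure ℚ ≃ₐ[ℚ] AlgebraicClosure ℚ)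

/-- The inputs on `J₀(N)` at the prime `p`. -/
structure PointInputs (p N : ℕ) [NeZero N] : Prop where
  torsion : TorsionGaloisInputs N p
  model : ¬ p ∣ N → ∀ k : ℕ, FlatModel.HasModelAt p
    (Submodule.torsionBy ℤ (JZero N) ((p : ℤ) ^ k)).toAddSubgroup (FlatModel.torsionAct _)
  kernels : ¬ p ^ 2 ∣ N → Ordinary.HasConnectedKernels N p
  monodromy : ∀ q : ℕ, q.Prime → q ≠ p → q ∣ N → ¬ q ^ 2 ∣ N →
    ∀ A : ValuationSubring Qbar, A.LiesOverPrime q → ∀ σ ∈ A.inertiaSubgroupIn ℚ,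
      ∀ (k : ℕ) (x : JZero N), p ^ k • x = 0 → σ • (σ • x - x) = σ • x - x

/-- The connected kernels when `p` does not divide the level. -/
theorem hasConnectedKernels_of_model {p N : ℕ} [NeZero N] (hp : p.Prime) (hp2 : p ≠ 2)
    (hJ : TorsionGaloisInputs N p)
    (hmodel : ∀ k : ℕ, FlatModel.HasModelAt p
      (Submodule.torsionBy ℤ (JZero N) ((p : ℤ) ^ k)).toAddSubgroup (FlatModel.torsionAct _)) :
    Ordinary.HasConnectedKernels N p :=
  Ordinary.hasConnectedKernels_of hp hp2 (by simpa using hJ.finite_torsion 1) hmodel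
    (AddMonoidHom.id _) (AddMonoidHom.id _) (fun _ _ => rfl) (fun _ _ => rfl) fun A _ =>
      ⟨⊤, fun _ _ _ _ => trivial, fun _ _ _ _ => trivial,
        fun _ _ _ hx _ _ _ _ _ _ _ => hx⟩

variable {O : Type} [CommRing O] [IsDomain O] [IsDiscreteValuationRing O] {p : ℕ}
  {ρbar : ResidualGaloisRep (ResidueField O)}

/-- The representation of a point with its properties. -/
structure PointLift (p : ℕ) (ρbar : ResidualGaloisRep (ResidueField O)) {N : ℕ} [NeZero N]
    {E : Finset ℕ} {O₁ : Type} [CommRing O₁] [Algebra O O₁]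
    (χ₀ : heckeAlgebra N 2 (E : Set ℕ) →+* O₁) : Type 1 where
  O' : Type
  [instCommRing : CommRing O']
  [instIsDomain : IsDomain O']
  [instDVR : IsDiscreteValuationRing O']
  [instComplete : IsAdicComplete (maximalIdeal O') O']
  [instFiniteResidue : Finite (ResidueField O')]
  [instCharZero : CharZero O']
  [instAlgebra : Algebra O O']
  [instModuleFinite : Module.Finite O O']
  [instLocalHom : IsLocalHom (algebraMap O O')]
  ι : O₁ →ₐ[O] O'
  ι_injective : Function.Injective ι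
  r : GaloisRepAdic O'
  isLiftOf : IsLiftOf ρbar r
  det : r.DetIsCyclotomic p
  charpoly_frob : ∀ (ℓ : ℕ) (hℓ : ℓ.Prime) (hℓN : ¬ ℓ ∣ N) (hℓE : ℓ ∉ (E : Set ℕ)),
    ∀ P : ValuationSubring Qbar, P.LiesOverPrime ℓ → ∀ σ : Γℚ, P.IsFrobeniusAt σ ℓ →
      LinearMap.charpoly (r.ρ σ) =
        X ^ 2 - C (ι (χ₀ (heckeAlgebra.T hℓ hℓN hℓE))) * X + C (ℓ : O')
  unramified : ∀ q : ℕ, q.Prime → ¬ q ∣ N → q ≠ p → r.IsUnramifiedAt q
  flat : ¬ p ∣ N → r.IsFlatAt p
  ordinary : ¬ p ^ 2 ∣ N → (GaloisRepAdic.ofResidualGaloisRep ρbar).IsOrdinaryAt p →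
    r.IsOrdinaryAt p
  unipotent : ∀ q : ℕ, q.Prime → q ≠ p → ¬ q ^ 2 ∣ N → r.IsUnipotentOnInertiaAt q

attribute [instance] PointLift.instCommRing PointLift.instIsDomain PointLift.instDVR
  PointLift.instComplete PointLift.instFiniteResidue PointLift.instCharZero PointLift.instAlgebra
  PointLift.instModuleFinite PointLift.instLocalHom

/-- The trace at a good Frobenius. -/
theorem PointLift.trace_frob {N : ℕ} [NeZero N] {E : Finset ℕ} {O₁ : Type} [CommRing O₁]
    [Algebra O O₁] {χ₀ : heckeAlgebra N 2 (E : Set ℕ) →+* O₁} (L : PointLift p ρbar χ₀) {ℓ : ℕ}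
    (hℓ : ℓ.Prime) (hℓN : ¬ ℓ ∣ N) (hℓE : ℓ ∉ (E : Set ℕ)) {P : ValuationSubring Qbar}
    (hP : P.LiesOverPrime ℓ) {σ : Γℚ} (hσ : P.IsFrobeniusAt σ ℓ) :
    L.r.trace σ = L.ι (χ₀ (heckeAlgebra.T hℓ hℓN hℓE)) :=
  (det_of_charpoly_eq L.r (L.charpoly_frob ℓ hℓ hℓN hℓE P hP σ hσ)).2

/-- Trivial inertia is unipotent. -/
theorem isUnipotentOnInertiaAt_of_isUnramifiedAt {A : Type} [CommRing A] [IsLocalRing A]
    {r : GaloisRepAdic A} {q : ℕ} (h : r.IsUnramifiedAt q) : r.IsUnipotentOnInertiaAt q :=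
  fun P hP σ hσ => by
    rw [h P hP σ hσ, LinearMap.charpoly_one, r.finrank_eq]

/-- **The representation of a point congruent to `ρbar`.** -/
theorem nonempty_pointLift [IsAdicComplete (maximalIdeal O) O] [Finite (ResidueField O)]
    (hattach : PadicAttachment) [Fact p.Prime] (hp2 : p ≠ 2) (hpO : (p : O) ∈ maximalIdeal O)
    (hirr : ρbar.IsAbsolutelyIrreducible)
    (hdetbar : (GaloisRepAdic.ofResidualGaloisRep ρbar).DetIsCyclotomic p)
    {N : ℕ} [NeZero N] {E : Finset ℕ} (hpE : p ∈ E) (hNE : ∀ q : ℕ, q.Prime → q ∣ N → q ∈ E)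
    (hJ : PointInputs p N) {O₁ : Type} [CommRing O₁] [IsDomain O₁] [IsDiscreteValuationRing O₁]
    [IsAdicComplete (maximalIdeal O₁) O₁] [Finite (ResidueField O₁)] [CharZero O₁] [Algebra O O₁]
    [Module.Finite O O₁] [IsLocalHom (algebraMap O O₁)]
    (χ₀ : heckeAlgebra N 2 (E : Set ℕ) →+* O₁)
    (hres : ∀ (ℓ : ℕ) (hℓ : ℓ.Prime) (hℓN : ¬ ℓ ∣ N) (hℓE : ℓ ∉ (E : Set ℕ)),
      ∀ P : ValuationSubring Qbar, P.LiesOverPrime ℓ → ∀ σ : Γℚ, P.IsFrobeniusAt σ ℓ →
        residue O₁ (χ₀ (heckeAlgebra.T hℓ hℓN hℓE)) = ResidueField.map (algebraMap O O₁)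
          (LinearMap.trace (ResidueField O) ρbar.V (ρbar.ρ σ))) :
    Nonempty (PointLift p ρbar χ₀) := by
  have hp : p.Prime := Fact.out
  have hpO₁ : (p : O₁) ∈ maximalIdeal O₁ := by
    rw [← map_natCast (algebraMap O O₁)]
    exact maximalIdeal_map_le (Ideal.mem_map_of_mem _ hpO)
  obtain ⟨O', _, _, _, _, _, _, _, _, _, hinj, r, hchar, hunr⟩ :=
    hattach p N E hpE hNE O₁ hpO₁ χ₀
  letI : Algebra O O' := ((algebraMap O₁ O').comp (algebraMap O O₁)).toAlgebra
  have : IsScalarTower O O₁ O' := IsScalarTower.of_algebraMap_eq fun _ => rfl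
  have : Module.Finite O O' := Module.Finite.trans O₁ O'
  have : IsLocalHom (algebraMap O O') := RingHom.isLocalHom_comp _ _
  have : IsNoetherianRing O' := inferInstance
  have hatt : IsAttachedToPoint χ₀ r := hchar
  have hdet : r.DetIsCyclotomic p := detIsCyclotomic_point hp hpO₁ hNE hatt
  let f : ResidueField O →+* ResidueField O' := ResidueField.map (algebraMap O O')
  have hfloc : IsLocalHom f := inferInstance
  have hresloc : IsLocalHom (residue O') := inferInstance
  let rb : GaloisRepAdic (ResidueField O') := GaloisRepAdic.ofResidualGaloisRep r.residual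
  let bb : GaloisRepAdic (ResidueField O') :=
    GaloisRepAdic.ofResidualGaloisRep (ρbar.baseChangeAlong f)
  have hrbdet : rb.DetIsCyclotomic p := detIsCyclotomic_baseChange _ hresloc hdet
  have hbbdet : bb.DetIsCyclotomic p := detIsCyclotomic_baseChange _ hfloc hdetbar
  have hEp : ∀ ℓ : ℕ, ℓ ∉ E → ℓ ≠ p := fun ℓ h h' => h (h' ▸ hpE)
  have htr : ∀ σ : Γℚ, LinearMap.charpoly (r.residual.ρ σ) =
      LinearMap.charpoly ((ρbar.baseChangeAlong f).ρ σ) := by
    refine residual_charpoly_eq_of_frobenius _ _ E fun ℓ hℓ hℓE P hP σ hσ => ?_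
    show LinearMap.charpoly (rb.ρ σ) = LinearMap.charpoly (bb.ρ σ)
    have hℓN : ¬ ℓ ∣ N := fun h => hℓE (hNE ℓ hℓ h)
    rw [adic_charpoly_eq, adic_charpoly_eq, det_frobenius rb hp hrbdet hℓ (hEp ℓ hℓE) hP hσ,
      det_frobenius bb hp hbbdet hℓ (hEp ℓ hℓE) hP hσ]
    congr 4
    have e1 : rb.trace σ = residue O' (r.trace σ) := trace_residual r σ
    have e2 : bb.trace σ = f (LinearMap.trace (ResidueField O) ρbar.V (ρbar.ρ σ)) := by
      letI : Algebra (ResidueField O) (ResidueField O') := f.toAlgebra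
      exact LinearMap.trace_baseChange (ρbar.ρ σ) (ResidueField O')
    rw [e1, e2, (det_of_charpoly_eq r (hchar ℓ hℓ hℓN hℓE P hP σ hσ)).2]
    show ResidueField.map (algebraMap O₁ O') (residue O₁ (χ₀ (heckeAlgebra.T hℓ hℓN hℓE))) = _
    rw [hres ℓ hℓ hℓN hℓE P hP σ hσ]
    exact ResidueField.map_map (algebraMap O O₁) (algebraMap O₁ O') _
  have hirr' : r.residual.IsAbsolutelyIrreducible :=
    isAbsolutelyIrreducible_of_trace_eq ((isAbsolutelyIrreducible_baseChangeAlong_iff f ρbar).2 hirr)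
      fun σ => trace_eq_of_charpoly_eq (htr σ).symm
  have hlift : IsLiftOf ρbar r := residual_isEquiv_of_charpoly_eq hirr' htr
  refine ⟨{
    O' := O'
    ι := IsScalarTower.toAlgHom O O₁ O'
    ι_injective := hinj
    r := r
    isLiftOf := hlift
    det := hdet
    charpoly_frob := hchar
    unramified := hunr
    flat := fun hN => isFlatAt_point hattach hp hp2 hpO₁ hpE hNE hatt hirr' hJ.torsion (hJ.model hN)
    ordinary := fun hN hord => ?_
    unipotent := fun q hq hqp hq2 => ?_ }⟩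
  · refine isOrdinaryAt_point hattach hp hp2 hpO₁ hpE hNE hatt hirr' hJ.torsion (hJ.kernels hN) ?_
    obtain ⟨e⟩ := hlift
    exact OrdinaryCondition.isOrdinaryAt_of_isEquiv
      (ρ := bb) ⟨⟨e.toLinearEquiv.symm, fun σ x => e.symm.map_apply σ x⟩⟩
      (OrdinaryCondition.isOrdinaryAt_baseChange hp hp2 f hfloc hdetbar hord)
  · by_cases hqN : q ∣ N
    · exact isUnipotentOnInertiaAt_point hattach hp hp2 hpO₁ hpE hNE hatt hirr' hJ.torsion hq hqp
        (hJ.monodromy q hq hqp hqN hq2)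
    · exact isUnipotentOnInertiaAt_of_isUnramifiedAt (hunr q hq hqN hqp)

variable {S : OddPrimes p ρbar} {Q : Finset ℕ} {N : ℕ} [NeZero N] {E : Finset ℕ} {O₁ : Type}
  [CommRing O₁] [Algebra O O₁] {χ₀ : heckeAlgebra N 2 (E : Set ℕ) →+* O₁}

/-- The residual trace of the representation of a point. -/
theorem PointLift.residue_trace (L : PointLift p ρbar χ₀) (σ : Γℚ) :
    residue L.O' (L.r.trace σ) = ResidueField.map (algebraMap O L.O')
      (LinearMap.trace (ResidueField O) ρbar.V (ρbar.ρ σ)) := by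
  obtain ⟨e⟩ := L.isLiftOf
  rw [← trace_residual]
  have hc : (ρbar.baseChangeAlong (ResidueField.map (algebraMap O L.O'))).ρ σ =
      e.toLinearEquiv.conj (L.r.residual.ρ σ) := by
    refine LinearMap.ext fun y => ?_
    rw [LinearEquiv.conj_apply_apply, e.map_apply, LinearEquiv.apply_symm_apply]
  have h := LinearMap.trace_conj' (L.r.residual.ρ σ) e.toLinearEquiv
  rw [← hc] at h
  rw [← h]
  letI : Algebra (ResidueField O) (ResidueField L.O') :=
    (ResidueField.map (algebraMap O L.O')).toAlgebra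
  exact LinearMap.trace_baseChange (ρbar.ρ σ) (ResidueField L.O')

/-- **The system of a point.** -/
theorem PointLift.exists_oddSystem (L : PointLift p ρbar χ₀) [Fact p.Prime] (hp2 : p ≠ 2)
    (hN : ∀ q : ℕ, q.Prime → q ∣ N → q ≠ p → q ∈ S.all ∪ Q)
    (hsq : ∀ q ∈ S.Smin ∪ S.F, ¬ q ^ 2 ∣ N) (hp2N : ¬ p ^ 2 ∣ N)
    (hflat : S.pCase = PCase.flat → ¬ p ∣ N)
    (hstrict : S.pCase = PCase.strictOnly → L.r.IsStrictOrdinaryAt p)
    (hsign : ∀ q ∈ S.F, q ∣ N → p ∣ q + 1 → ∀ P : ValuationSubring Qbar, P.LiesOverPrime q →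
      ∀ φ : Γℚ, P.IsFrobeniusAt φ q → ∃ u : L.O', u ^ 2 ≠ (q : L.O') ^ 2 ∧
        u - (S.ε q : L.O') ∈ maximalIdeal L.O' ∧ u ^ 2 - L.r.trace φ * u + (q : L.O') = 0) :
    ∃ (x : OddSystem S Q) (j : L.O' →ₐ[O] x.O'), Function.Injective j ∧
      ∀ σ : Γℚ, x.r.trace σ = j (L.r.trace σ) := by
  have hp : p.Prime := Fact.out
  have hmem : ∀ q ∈ S.Smin ∪ S.F, q.Prime ∧ q ≠ p := fun q hq => by
    have h : q ∈ S.Smin ∪ S.T ∪ S.F := by
      rcases Finset.mem_union.1 hq with h | h <;> simp [h]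
    exact ⟨S.prime_of_mem q h, S.ne_p q h⟩
  have hlift : IsOddLift S Q L.r := by
    refine ⟨L.det, ?_, fun q hq hqp hqS => L.unramified q hq (fun h => hqS (hN q hq h hqp)) hqp,
      fun q hq => L.unipotent q (hmem q hq).1 (hmem q hq).2 (hsq q hq), ?_⟩
    · cases hc : S.pCase with
      | flat => exact L.flat (hflat hc)
      | strictOnly => exact hstrict hc
      | mixed => exact L.ordinary hp2N (S.strict_p (by rw [hc]; decide)).isOrdinaryAt
    · intro q hq P hP φ hφ σ hσ v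
      obtain ⟨hqpr, hqp⟩ := hmem q (Finset.mem_union_right _ hq)
      refine sign_relation_of_unipotent hp hp2 L.det hqpr hqp
        (L.unipotent q hqpr hqp (hsq q (Finset.mem_union_right _ hq))) (S.sign_F q hq) hP hφ ?_
        σ hσ v
      by_cases hqN : q ∣ N
      · right
        by_cases h1 : p ∣ q + 1
        · exact Or.inr (hsign q hq hqN h1 P hP φ hφ)
        · refine Or.inl ⟨h1, ?_⟩
          rw [← residue_eq_zero_iff, map_sub, L.residue_trace, S.trace_F q hq P hP φ hφ]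
          simp
      · exact Or.inl (L.unramified q hqpr hqN hqp P hP)
  exact ⟨{ O' := L.O', r := L.r, lift := hlift, isLiftOf := L.isLiftOf }, AlgHom.id O L.O',
    Function.injective_id, fun σ => rfl⟩

end FermatLib.MLT.Odd
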