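/-
Strict ordinarity at `p` of the points of level `p M` which are new at `p`.
-/
import Fermat.Agent.Galois.Ordinary.Strict
import Fermat.Agent.Galois.AttachJZero
import Fermat.Agent.Galois.MazurP.DegeneracyHecke
import Fermat.Agent.Galois.MazurP.LevelMKill
import Fermat.Agent.MLT.Odd.HeckeRepSystem

/-!
# Local–global compatibility at `p`

A residually ordinary point of level `Γ₀(p M)`, `p ∤ M`, either factors through the Hecke algebra of
level `M`, and then is flat at `p`, or is strictly ordinary at `p`.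
-/

set_option autoImplicit false
set_option linter.style.haveILetI false

noncomputable section

open ModularCurve

namespace FermatLib.MLT.HeckeRep

open IsLocalRing FermatLib.Galois CuspForm
open scoped TensorProduct

local notation "Qbar" => AlgebraicClosure ℚ
local notation "Γℚ" => (AlgebraicClosure ℚ ≃ₐ[ℚ] AlgebraicClosure ℚ)

attribute [local instance] FermatLib.Modular.Corr.neZero_mul'

section Transfer

variable {N : ℕ} [NeZero N] {p : ℕ} {S : Finset ℕ}
  {𝒪 : Type} [CommRing 𝒪] [IsDomain 𝒪] [IsDiscreteValuationRing 𝒪]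
  [IsAdicComplete (maximalIdeal 𝒪) 𝒪]

/-- A Hecke polynomial times a group-algebra element killing `J₀(N)[p^k]` kills a datum modulo
`𝔪 ^ n`, for `k` large. -/
theorem exists_level_heckeSmul_repHom_mem
    {θ : CuspForm.heckeAlgebra N 2 (↑S : Set ℕ) →+* ResidueField 𝒪}
    {T : Type} [CommRing T] [IsLocalRing T] [IsNoetherianRing T]
    [IsAdicComplete (maximalIdeal T) T] [Algebra 𝒪 T] [IsLocalHom (algebraMap 𝒪 T)]
    [Module.Finite 𝒪 T] [Module.Free 𝒪 T]
    (hp : p.Prime) (hp𝒪 : (p : 𝒪) ∈ maximalIdeal 𝒪) (hpS : p ∈ S)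
    (hNS : ∀ q : ℕ, q.Prime → q ∣ N → q ∈ S) (hJ : TorsionGaloisInputs N p)
    (H : HeckeGaloisRepDatum N (↑S : Set ℕ) 𝒪 θ T) (n : ℕ) :
    ∃ k : ℕ, ∀ (t : awayHeckeAlg (↑S : Set ℕ)) (f : MonoidAlgebra ℤ Γℚ),
      (letI := heckeModuleBar N; ∀ x : JZero N, p ^ k • x = 0 →
        (t : HeckeAlg) • Ordinary.actHom Γℚ (JZero N) f x = 0) →
      ∀ v : H.ρ.V, datumEval H t • Ordinary.repHom H.ρ f v ∈
        maximalIdeal T ^ n • (⊤ : Submodule T H.ρ.V) := by
  obtain ⟨k, hk⟩ := exists_level_transfer hp hp𝒪 hpS hNS hJ H _ ⟨n, le_rfl⟩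
  refine ⟨k, fun t f hf v => ?_⟩
  let _ := heckeModuleBar N
  have h := hk (ι := f.coeff.support)
    (fun g => ((f.coeff g.1 : ℤ) : awayHeckeAlg (↑S : Set ℕ)) * t) (fun g => g.1) (fun x hx => by
      refine Eq.trans ?_ (hf x hx)
      rw [Ordinary.actHom_eq_sum, Finsupp.sum, Finset.smul_sum,
        ← Finset.sum_coe_sort f.coeff.support]
      refine Finset.sum_congr rfl fun g _ => ?_
      rw [Subalgebra.coe_mul, SubringClass.coe_intCast, mul_comm, mul_smul,
        Int.cast_smul_eq_zsmul]) v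
  rw [Ordinary.repHom_eq_sum, Finsupp.sum, Finset.smul_sum,
    ← Finset.sum_coe_sort f.coeff.support]
  convert h using 2 with g
  rw [map_mul, map_intCast, mul_comm, mul_smul, Int.cast_smul_eq_zsmul]

variable {O₀ : Type} [CommRing O₀] [IsLocalRing O₀]

theorem repHom_tmul {T : Type} [CommRing T] [IsLocalRing T] (ψ : T →+* O₀) (hψ : IsLocalHom ψ)
    (r : GaloisRepAdic T) (f : MonoidAlgebra ℤ Γℚ) (c : O₀) (w : r.V) :
    letI : Algebra T O₀ := ψ.toAlgebra
    Ordinary.repHom (r.baseChangeAlong ψ hψ) f (c ⊗ₜ[T] w : O₀ ⊗[T] r.V) =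
      (c ⊗ₜ[T] Ordinary.repHom r f w : O₀ ⊗[T] r.V) := by
  letI : Algebra T O₀ := ψ.toAlgebra
  induction f using MonoidAlgebra.induction_linear with
  | zero => rw [map_zero, map_zero]; exact (TensorProduct.tmul_zero r.V c).symm
  | add a b ha hb =>
    rw [map_add, map_add]
    exact (congrArg₂ (· + ·) ha hb).trans (TensorProduct.tmul_add c _ _).symm
  | single g m =>
    rw [Ordinary.repHom_single, Ordinary.repHom_single]
    exact (TensorProduct.tmul_smul m c (r.ρ g w)).symm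

/-- A congruence for a representation holds after a change of coefficients. -/
theorem smul_repHom_mem_baseChange {T : Type} [CommRing T] [IsLocalRing T] (ψ : T →+* O₀)
    (hψ : IsLocalHom ψ) (r : GaloisRepAdic T) (f : MonoidAlgebra ℤ Γℚ) (a : T) (n : ℕ)
    (h : ∀ w : r.V, a • Ordinary.repHom r f w ∈ maximalIdeal T ^ n • (⊤ : Submodule T r.V))
    (y : (r.baseChangeAlong ψ hψ).V) :
    ψ a • Ordinary.repHom (r.baseChangeAlong ψ hψ) f y ∈
      maximalIdeal O₀ ^ n • (⊤ : Submodule O₀ (r.baseChangeAlong ψ hψ).V) := by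
  letI : Algebra T O₀ := ψ.toAlgebra
  induction y using TensorProduct.induction_on with
  | zero =>
    rw [show (0 : O₀ ⊗[T] r.V) = (0 : (r.baseChangeAlong ψ hψ).V) from rfl, map_zero, smul_zero]
    exact zero_mem _
  | add u u' hu hu' =>
    exact Set.mem_of_eq_of_mem ((congrArg (ψ a • ·) (map_add (Ordinary.repHom
      (r.baseChangeAlong ψ hψ) f) u u')).trans (smul_add _ _ _)) (add_mem hu hu')
  | tmul c w =>
    rw [repHom_tmul]
    show algebraMap T O₀ a • (c ⊗ₜ[T] Ordinary.repHom r f w : O₀ ⊗[T] r.V) ∈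
      maximalIdeal O₀ ^ n • (⊤ : Submodule O₀ (O₀ ⊗[T] r.V))
    rw [algebraMap_smul, ← TensorProduct.tmul_smul]
    refine Submodule.smul_induction_on (p := fun u => (c ⊗ₜ[T] u : O₀ ⊗[T] r.V) ∈ _)
      (h w) (fun s hs u _ => ?_) (fun u u' hu hu' => ?_)
    · rw [TensorProduct.tmul_smul, ← algebraMap_smul O₀ s]
      refine Submodule.smul_mem_smul ?_ Submodule.mem_top
      have h1 : Ideal.map ψ (maximalIdeal T ^ n) ≤ maximalIdeal O₀ ^ n := by
        rw [Ideal.map_pow]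
        exact Ideal.pow_right_mono (((IsLocalRing.local_hom_TFAE ψ).out 0 2).mp hψ) n
      exact h1 (Ideal.mem_map_of_mem _ hs)
    · rw [TensorProduct.tmul_add]
      exact add_mem hu hu'

theorem repHom_equiv {ρ₁ ρ₂ : GaloisRepAdic O₀} (e : GaloisRepAdic.Equiv ρ₁ ρ₂)
    (f : MonoidAlgebra ℤ Γℚ) (w : ρ₁.V) :
    Ordinary.repHom ρ₂ f (e.toLinearEquiv w) = e.toLinearEquiv (Ordinary.repHom ρ₁ f w) := by
  induction f using MonoidAlgebra.induction_linear with
  | zero => simp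
  | add a b ha hb => simp [ha, hb]
  | single g m =>
    rw [Ordinary.repHom_single, Ordinary.repHom_single, LinearMap.smul_apply, LinearMap.smul_apply,
      map_zsmul, e.map_apply]

variable [Finite (ResidueField 𝒪)] [CharZero 𝒪] [Algebra 𝒪 O₀] [Module.Finite 𝒪 O₀]

/-- A Hecke polynomial times a group-algebra element killing `J₀(N)[p^k]` kills the representation
of a point modulo `𝔪 ^ n`, for `k` large. -/
theorem exists_level_point_mem (hattach : PadicAttachment) (hp : p.Prime) (hp2 : p ≠ 2)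
    (hp𝒪 : (p : 𝒪) ∈ maximalIdeal 𝒪) (hpS : p ∈ S) (hNS : ∀ q : ℕ, q.Prime → q ∣ N → q ∈ S)
    {χ₀ : heckeAlgebra N 2 (↑S : Set ℕ) →+* 𝒪} {ρ₀ : GaloisRepAdic O₀}
    (hatt : IsAttachedToPoint χ₀ ρ₀) (hirr : ρ₀.residual.IsAbsolutelyIrreducible)
    (hJ : TorsionGaloisInputs N p) (n : ℕ) :
    ∃ k : ℕ, ∀ (t : awayHeckeAlg (↑S : Set ℕ)) (f : MonoidAlgebra ℤ Γℚ),
      (letI := heckeModuleBar N; ∀ x : JZero N, p ^ k • x = 0 →
        (t : HeckeAlg) • Ordinary.actHom Γℚ (JZero N) f x = 0) →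
      ∀ v : ρ₀.V, algebraMap 𝒪 O₀ (χ₀ (awayHeckeEval N _ t)) • Ordinary.repHom ρ₀ f v ∈
        maximalIdeal O₀ ^ n • (⊤ : Submodule O₀ ρ₀.V) := by
  obtain ⟨T, _, _, _, _, _, _, _, _, H, ψ, hψ, hπ, ⟨e⟩⟩ :=
    exists_datum_of_point hattach hp hp2 hp𝒪 hpS hNS χ₀ ρ₀ hatt hirr
  obtain ⟨k, hk⟩ := exists_level_heckeSmul_repHom_mem hp hp𝒪 hpS hNS hJ H n
  refine ⟨k, fun t f hf v => ?_⟩
  obtain ⟨y, rfl⟩ := e.toLinearEquiv.surjective v
  rw [repHom_equiv e, ← map_smul]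
  have h : algebraMap 𝒪 O₀ (χ₀ (awayHeckeEval N _ t)) •
      Ordinary.repHom (H.ρ.baseChangeAlong (ψ : T →+* O₀) hψ) f y ∈
        maximalIdeal O₀ ^ n • (⊤ : Submodule O₀ _) := by
    rw [show algebraMap 𝒪 O₀ (χ₀ (awayHeckeEval N _ t)) = (ψ : T →+* O₀) (datumEval H t) from
      (hπ _).symm]
    exact smul_repHom_mem_baseChange _ hψ H.ρ f _ n (hk t f hf) y
  have h' := Submodule.mem_map_of_mem (f := e.toLinearEquiv.toLinearMap) h
  rw [Submodule.map_smul''] at h'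
  exact Submodule.smul_mono le_rfl le_top h'

end Transfer

section Pushes

open FermatLib.Modular.Corr

variable {p M : ℕ} [Fact p.Prime] [NeZero p] [NeZero M]

omit [Fact p.Prime] in
theorem pushAlpha_eq_degPush (h : M * 1 ∣ p * M) (x : JZero (p * M)) :
    pushAlpha p M x = MazurP.degPush 1 h x := by
  obtain ⟨D, rfl⟩ := AlgebraicCurve.Pic0.mk_surjective x
  rw [MazurP.degPush_mk]
  show AlgebraicCurve.Pic0.mk _ = _
  refine congrArg AlgebraicCurve.Pic0.mk (Subtype.ext ?_)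
  rw [coe_degZeroPush]
  exact congrFun (congrArg DFunLike.coe (pushforwardAlong_congr (MazurP.barBeta_one h).symm _ _)) _

/-- The push-forwards commute with Hecke polynomials away from the level. -/
theorem push_heckeSmul (hpM : ¬ p ∣ M) {S : Set ℕ} (hS : ∀ q : ℕ, q.Prime → q ∣ p * M → q ∈ S)
    {t : HeckeAlg} (ht : t ∈ awayHeckeAlg S) (x : JZero (p * M)) :
    pushAlpha p M (letI := heckeModuleBar (p * M); t • x) =
        (letI := heckeModuleBar M; t • pushAlpha p M x) ∧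
      pushBeta p M (letI := heckeModuleBar (p * M); t • x) =
        (letI := heckeModuleBar M; t • pushBeta p M x) := by
  have ht' : t ∈ awayHeckeAlg {r : ℕ | r ∣ p * M} :=
    awayHeckeAlg_le (fun ℓ hℓ => hS _ ℓ.2 hℓ) ht
  have h₁ : M * 1 ∣ p * M := by simp
  refine ⟨?_, MazurP.degPush_prime_hecke_smul hpM (dvd_of_eq (mul_comm M p)) ht' x⟩
  rw [pushAlpha_eq_degPush h₁, pushAlpha_eq_degPush h₁]
  exact MazurP.degPush_one_hecke_smul h₁ ht' x

end Pushes

section Point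

variable {p M : ℕ} [Fact p.Prime] [NeZero p] [NeZero M] {S : Finset ℕ}
  {𝒪 : Type} [CommRing 𝒪] [IsDomain 𝒪] [IsDiscreteValuationRing 𝒪]
  [IsAdicComplete (maximalIdeal 𝒪) 𝒪] [Finite (ResidueField 𝒪)] [CharZero 𝒪]
  {O₀ : Type} [CommRing O₀] [IsLocalRing O₀] [IsDomain O₀] [Algebra 𝒪 O₀] [Module.Finite 𝒪 O₀]

/-- The point does not factor through the Hecke algebra of level `M`. -/
def IsNewPointAt (p M : ℕ) [NeZero p] [NeZero M] {S : Finset ℕ} {R : Type} [CommRing R]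
    (χ₀ : heckeAlgebra (p * M) 2 (↑S : Set ℕ) →+* R) : Prop :=
  ∃ t : awayHeckeAlg (↑S : Set ℕ), formsHeckeEval M (t : HeckeAlg) = 0 ∧
    χ₀ (awayHeckeEval (p * M) _ t) ≠ 0

omit [Fact p.Prime] in
/-- A point which is not new at `p` factors through level `M`. -/
theorem exists_point_of_not_new {R : Type} [CommRing R]
    {χ₀ : heckeAlgebra (p * M) 2 (↑S : Set ℕ) →+* R} (h : ¬ IsNewPointAt p M χ₀) :
    ∃ χ₁ : heckeAlgebra M 2 (↑S : Set ℕ) →+* R,
      ∀ (ℓ : ℕ) (hℓ : ℓ.Prime) (hℓM : ¬ ℓ ∣ M) (hℓN : ¬ ℓ ∣ p * M) (hℓS : ℓ ∉ (↑S : Set ℕ)),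
        χ₁ (heckeAlgebra.T hℓ hℓM hℓS) = χ₀ (heckeAlgebra.T hℓ hℓN hℓS) := by
  have hker : RingHom.ker (awayHeckeEval M (↑S : Set ℕ)) ≤
      RingHom.ker (χ₀.comp (awayHeckeEval (p * M) (↑S : Set ℕ))) := by
    intro t ht
    by_contra hne
    refine h ⟨t, ?_, hne⟩
    rw [RingHom.mem_ker] at ht
    have h1 := coe_awayHeckeEval M (↑S : Set ℕ) t
    rw [ht, ZeroMemClass.coe_zero] at h1
    exact Subtype.ext h1.symm
  have hsurj := Attach.awayHeckeEval_surjective (N := M) (↑S : Set ℕ)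
  refine ⟨(awayHeckeEval M (↑S : Set ℕ)).liftOfSurjective hsurj ⟨_, hker⟩,
    fun ℓ hℓ hℓM hℓN hℓS => ?_⟩
  rw [← awayHeckeEval_awayHeckeGen M hℓ hℓM hℓS]
  refine (RingHom.liftOfRightInverse_comp_apply _ _ _ ⟨_, hker⟩ _).trans ?_
  exact congrArg χ₀ (awayHeckeEval_awayHeckeGen (p * M) hℓ hℓN hℓS)

variable (hattach : PadicAttachment) (hp2 : p ≠ 2) (hp𝒪 : (p : 𝒪) ∈ maximalIdeal 𝒪) (hpS : p ∈ S)
  (hNS : ∀ q : ℕ, q.Prime → q ∣ p * M → q ∈ S)
  {χ₀ : heckeAlgebra (p * M) 2 (↑S : Set ℕ) →+* 𝒪} {ρ₀ : GaloisRepAdic O₀}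
  (hatt : IsAttachedToPoint χ₀ ρ₀) (hirr : ρ₀.residual.IsAbsolutelyIrreducible)

include hattach hp2 hp𝒪 hpS hNS hatt hirr

/-- **A point which is new at `p` is strictly ordinary at `p`.** -/
theorem isStrictOrdinaryAt_point_new (hinj : Function.Injective (algebraMap 𝒪 O₀))
    (hpM : ¬ p ∣ M) (hJ : TorsionGaloisInputs (p * M) p)
    (hmodel : ∀ k : ℕ, FlatModel.HasModelAt p
      (Submodule.torsionBy ℤ (JZero M) ((p : ℤ) ^ k)).toAddSubgroup (FlatModel.torsionAct _))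
    (hR : Ordinary.HasStrictReductionKernel p M)
    (hres : (GaloisRepAdic.ofResidualGaloisRep ρ₀.residual).IsOrdinaryAt p)
    (hnew : IsNewPointAt p M χ₀) : ρ₀.IsStrictOrdinaryAt p := by
  have hp : p.Prime := Fact.out
  have : IsNoetherianRing O₀ := IsNoetherianRing.of_finite 𝒪 O₀
  refine Ordinary.isStrictOrdinaryAt_of_sq hp (detIsCyclotomic_point hp hp𝒪 hNS hatt)
    (isOrdinaryAt_point hattach hp hp2 hp𝒪 hpS hNS hatt hirr hJ
      (Ordinary.hasConnectedKernels_level hp hp2 hmodel hR.hasReductionKernel) hres)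
    fun P hP F hF b hD hI => ?_
  obtain ⟨τ, hτ, ζ, hζ, hτζ⟩ := Ordinary.exists_inertia_apply_root_ne hp hp2 hP
  obtain ⟨t, ht0, htχ⟩ := hnew
  set z := b.repr (ρ₀.ρ F (b 1)) 1 with hz
  set c := algebraMap 𝒪 O₀ (χ₀ (awayHeckeEval (p * M) _ t)) with hc
  have hc0 : c ≠ 0 := (map_ne_zero_iff _ hinj).mpr htχ
  suffices h : c * (z ^ 2 - 1) = 0 from sub_eq_zero.mp ((mul_eq_zero.mp h).resolve_left hc0)
  rw [← Ideal.mem_bot, ← Ideal.iInf_pow_eq_bot_of_isLocalRing (maximalIdeal O₀)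
    (maximalIdeal.isMaximal O₀).ne_top]
  refine Ideal.mem_iInf.mpr fun n => ?_
  obtain ⟨k, hk⟩ := exists_level_point_mem hattach hp hp2 hp𝒪 hpS hNS hatt hirr hJ n
  obtain ⟨m, hm, hkill⟩ := Ordinary.exists_kill_new hR (hJ.finite_torsion k) hP hF hτ hζ hτζ
  set f := (1 - (MonoidAlgebra.single τ (1 : ℤ) - 1) ^ m) * (MonoidAlgebra.single (F * F) 1 - 1)
    with hf
  have hzero : (letI := heckeModuleBar (p * M); ∀ x : JZero (p * M), p ^ k • x = 0 →
      (t : HeckeAlg) • Ordinary.actHom Γℚ (JZero (p * M)) f x = 0) := by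
    intro x hx
    letI := heckeModuleBar (p * M)
    have hcomm : ∀ (g : MonoidAlgebra ℤ Γℚ), (t : HeckeAlg) •
        Ordinary.actHom Γℚ (JZero (p * M)) g x =
          Ordinary.actHom Γℚ (JZero (p * M)) g ((t : HeckeAlg) • x) := by
      intro g
      rw [Ordinary.actHom_eq_sum, Ordinary.actHom_eq_sum, Finsupp.smul_sum]
      refine Finsupp.sum_congr fun σ _ => ?_
      rw [smul_comm, hJ.galoisCommute]
    rw [hcomm]
    have hpush := push_heckeSmul hpM (fun q hq hqN => Finset.mem_coe.mpr (hNS q hq hqN)) t.2 x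
    refine hkill _ ?_ (hpush.1.trans ?_) (hpush.2.trans ?_)
    · rw [smul_comm, hx]
      exact smul_zero (A := JZero (p * M)) (t : HeckeAlg)
    · exact MazurP.smul_eq_zero_of_formsHeckeEval_eq_zero ht0 (pow_ne_zero k hp.ne_zero)
        (by rw [← map_nsmul, hx, map_zero])
    · exact MazurP.smul_eq_zero_of_formsHeckeEval_eq_zero ht0 (pow_ne_zero k hp.ne_zero)
        (by rw [← map_nsmul, hx, map_zero])
  have hmem := hk t f hzero (b 1)
  -- the action on the quotient by the line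
  have hL : ∀ v ∈ O₀ ∙ b 0, b.repr v 1 = 0 := fun v hv => Ordinary.repr_one_eq_zero b hv
  have hτ1 : ∀ v, b.repr (Ordinary.repHom ρ₀ ((MonoidAlgebra.single τ (1 : ℤ) - 1) ^ m) v) 1 =
      0 := by
    intro v
    obtain ⟨m', rfl⟩ : ∃ m', m = m' + 1 := ⟨m - 1, by omega⟩
    rw [pow_succ', map_mul, Module.End.mul_apply, map_sub (Ordinary.repHom ρ₀),
      map_one (Ordinary.repHom ρ₀), Ordinary.repHom_single,
      one_zsmul, LinearMap.sub_apply, Module.End.one_apply]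
    exact hL _ (hI τ hτ _)
  have hFF : b.repr (ρ₀.ρ (F * F) (b 1)) 1 = z ^ 2 := by
    rw [Ordinary.repr_one_mul b F (hD F hF.mem_decompositionSubgroup), ← hz, sq]
  have hval : b.repr (Ordinary.repHom ρ₀ f (b 1)) 1 = z ^ 2 - 1 := by
    rw [hf, map_mul, Module.End.mul_apply, map_sub (Ordinary.repHom ρ₀) 1,
      map_one (Ordinary.repHom ρ₀), LinearMap.sub_apply, Module.End.one_apply, map_sub b.repr,
      Finsupp.sub_apply, hτ1, sub_zero, map_sub (Ordinary.repHom ρ₀),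
      map_one (Ordinary.repHom ρ₀), Ordinary.repHom_single, one_zsmul, LinearMap.sub_apply,
      Module.End.one_apply, map_sub b.repr, Finsupp.sub_apply, hFF, b.repr_self,
      Finsupp.single_eq_same]
  have hcoord : ∀ y ∈ maximalIdeal O₀ ^ n • (⊤ : Submodule O₀ ρ₀.V),
      b.repr y 1 ∈ maximalIdeal O₀ ^ n := fun y hy => by
    refine Submodule.smul_induction_on hy (fun r hr v _ => ?_) (fun u u' hu hu' => ?_)
    · rw [map_smul, Finsupp.smul_apply, smul_eq_mul]; exact Ideal.mul_mem_right _ _ hr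
    · rw [map_add, Finsupp.add_apply]; exact Ideal.add_mem _ hu hu'
  have h := hcoord _ hmem
  rwa [map_smul, Finsupp.smul_apply, smul_eq_mul, hval] at h

/-- **The two branches at `p`**: a residually ordinary point of level `p M` is flat or strictly
ordinary. -/
theorem isFlatAt_or_isStrictOrdinaryAt (hinj : Function.Injective (algebraMap 𝒪 O₀))
    (hpM : ¬ p ∣ M) (hJ : TorsionGaloisInputs (p * M) p) (hJM : TorsionGaloisInputs M p)
    (hmodel : ∀ k : ℕ, FlatModel.HasModelAt p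
      (Submodule.torsionBy ℤ (JZero M) ((p : ℤ) ^ k)).toAddSubgroup (FlatModel.torsionAct _))
    (hR : Ordinary.HasStrictReductionKernel p M)
    (hres : (GaloisRepAdic.ofResidualGaloisRep ρ₀.residual).IsOrdinaryAt p) :
    ρ₀.IsFlatAt p ∨ ρ₀.IsStrictOrdinaryAt p := by
  by_cases hnew : IsNewPointAt p M χ₀
  · exact Or.inr (isStrictOrdinaryAt_point_new hattach hp2 hp𝒪 hpS hNS hatt hirr hinj hpM hJ
      hmodel hR hres hnew)
  obtain ⟨χ₁, hχ₁⟩ := exists_point_of_not_new hnew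
  have hMS : ∀ q : ℕ, q.Prime → q ∣ M → q ∈ S := fun q hq h => hNS q hq (h.mul_left p)
  refine Or.inl (isFlatAt_point hattach Fact.out hp2 hp𝒪 hpS hMS (χ₀ := χ₁)
    (fun ℓ hℓ hℓM hℓS P hP σ hσ => ?_) hirr hJM hmodel)
  have hℓN : ¬ ℓ ∣ p * M := fun h => hℓS (Finset.mem_coe.mpr (hNS ℓ hℓ h))
  rw [hχ₁ ℓ hℓ hℓM hℓN hℓS]
  exact hatt ℓ hℓ hℓN hℓS P hP σ hσ

end Point

end FermatLib.MLT.HeckeRep

namespace FermatLib.MLT.Odd

open IsLocalRing FermatLib.Galois FermatLib.MLT.HeckeRep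

attribute [local instance] FermatLib.Modular.Corr.neZero_mul'

variable {O : Type} [CommRing O] [IsDomain O] [IsDiscreteValuationRing O] {p : ℕ}
  {ρbar : ResidualGaloisRep (ResidueField O)}

/-- **The two branches at `p`** for the representation of a point of level `p M`. -/
theorem PointLift.isFlatAt_or_isStrictOrdinaryAt [Fact p.Prime] (hattach : PadicAttachment)
    (hp2 : p ≠ 2) (hpO : (p : O) ∈ maximalIdeal O) (hirr : ρbar.IsAbsolutelyIrreducible)
    (hdetbar : (GaloisRepAdic.ofResidualGaloisRep ρbar).DetIsCyclotomic p)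
    (hord : (GaloisRepAdic.ofResidualGaloisRep ρbar).IsOrdinaryAt p)
    {M : ℕ} [NeZero p] [NeZero M] (hpM : ¬ p ∣ M) {E : Finset ℕ} (hpE : p ∈ E)
    (hNE : ∀ q : ℕ, q.Prime → q ∣ p * M → q ∈ E)
    {O₁ : Type} [CommRing O₁] [Algebra O O₁]
    {χ₀ : CuspForm.heckeAlgebra (p * M) 2 (E : Set ℕ) →+* O₁} (L : PointLift p ρbar χ₀)
    (hJ : TorsionGaloisInputs (p * M) p) (hJM : TorsionGaloisInputs M p)
    (hmodel : ∀ k : ℕ, FlatModel.HasModelAt p
      (Submodule.torsionBy ℤ (JZero M) ((p : ℤ) ^ k)).toAddSubgroup (FlatModel.torsionAct _))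
    (hR : Ordinary.HasStrictReductionKernel p M) :
    L.r.IsFlatAt p ∨ L.r.IsStrictOrdinaryAt p := by
  have hp : p.Prime := Fact.out
  have hp𝒪 : (p : L.O') ∈ maximalIdeal L.O' := by
    rw [← map_natCast (algebraMap O L.O')]
    exact map_nonunit _ _ hpO
  let f : ResidueField O →+* ResidueField L.O' := ResidueField.map (algebraMap O L.O')
  have hfloc : IsLocalHom f := inferInstance
  have hirr' : L.r.residual.IsAbsolutelyIrreducible :=
    isAbsolutelyIrreducible_of_trace_eq ((isAbsolutelyIrreducible_baseChangeAlong_iff f ρbar).2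
      hirr) fun σ => by
      rw [trace_residual, L.residue_trace]
      letI : Algebra (ResidueField O) (ResidueField L.O') := f.toAlgebra
      exact LinearMap.trace_baseChange (ρbar.ρ σ) (ResidueField L.O')
  obtain ⟨e⟩ := L.isLiftOf
  have hres : (GaloisRepAdic.ofResidualGaloisRep L.r.residual).IsOrdinaryAt p :=
    OrdinaryCondition.isOrdinaryAt_of_isEquiv
      (ρ := GaloisRepAdic.ofResidualGaloisRep (ρbar.baseChangeAlong f))
      ⟨⟨e.toLinearEquiv.symm, fun σ x => e.symm.map_apply σ x⟩⟩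
      (OrdinaryCondition.isOrdinaryAt_baseChange hp hp2 f hfloc hdetbar hord)
  exact HeckeRep.isFlatAt_or_isStrictOrdinaryAt (𝒪 := L.O') hattach hp2 hp𝒪 hpE hNE
    (χ₀ := L.ι.toRingHom.comp χ₀)
    (fun ℓ hℓ hℓN hℓS P hP σ hσ => L.charpoly_frob ℓ hℓ hℓN hℓS P hP σ hσ) hirr'
    Function.injective_id hpM hJ hJM hmodel hR hres

end FermatLib.MLT.Odd
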