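import Fermat.Agent.CFT.TWGroup
import Fermat.Agent.Galois.CyclotomicFrobenius
import Fermat.Agent.Galois.FrobeniusDensity
import Fermat.Agent.Galois.FrobeniusElement

/-!
# Auxiliary Taylor–Wiles primes for odd `p`

For `ρ̄ : G_ℚ →* GL₂(k)` with full span on every subgroup of index at most two and cyclotomic
determinant, any space of twisted adjoint cocycles which has dimension at most `r` modulo
coboundaries is detected by `r` primes `q ≡ 1 mod p ^ (n + 1)` outside a given finite set at which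
the Frobenius has two distinct eigenvalues: a class locally trivial at all of them is zero.

The statement is independent of the local conditions cutting out the space, so it serves the flat,
ordinary, framed and branch deformation problems alike.
-/

set_option autoImplicit false

open Matrix
open scoped Pointwise

namespace FermatLib.MLT.Odd

open FermatLib.Galois FermatLib.CFT.TW

local notation "Qbar" => AlgebraicClosure ℚ
local notation "Γℚ" => (AlgebraicClosure ℚ ≃ₐ[ℚ] AlgebraicClosure ℚ)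
local notation "M₂" R:max => Matrix (Fin 2) (Fin 2) R

variable {k : Type*} [Field k] (p : ℕ) (ρ : Γℚ →* M₂ k) (ω : Γℚ →* kˣ)

/-- The residual hypotheses under which auxiliary primes exist. -/
structure IsTWSetting : Prop where
  prime : p.Prime
  ne_two : p ≠ 2
  charP : CharP k p
  fullSpan : HasFullSpan ρ
  indexTwo : ∀ L : Subgroup Γℚ, L.index = 2 → HasFullSpan (ρ.comp L.subtype)
  det_eq : ∀ g, (ρ g).det = ω g
  cyclotomic : ∀ (g : Γℚ) (a : ℕ), (∀ ζ : Qbar, ζ ^ p = 1 → g ζ = ζ ^ a) → (ω g : k) = a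
  finiteLevel : ∃ F : IntermediateField ℚ Qbar, FiniteDimensional ℚ F ∧
    ∀ g ∈ F.fixingSubgroup, ρ g = 1
  unramified : ∃ S₀ : Finset ℕ, ∀ q : ℕ, q.Prime → q ∉ S₀ → ∀ A : ValuationSubring Qbar,
    A.LiesOverPrime q → ∀ g ∈ A.inertiaSubgroupIn ℚ, ρ g = 1

variable {p} in
/-- A cocycle function is constant on the cosets of an open subgroup. -/
def HasFiniteLevel (ψ : Γℚ → M₂ k) : Prop :=
  ∃ F : IntermediateField ℚ Qbar, FiniteDimensional ℚ F ∧
    ∀ g, ∀ h ∈ F.fixingSubgroup, ψ (g * h) = ψ g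

/-- Coboundaries of the `ω`-twisted trace zero adjoint representation. -/
def twistedCoboundaries : Submodule k (Γℚ → M₂ k) where
  carrier := {ψ | ∃ X : M₂ k, X.trace = 0 ∧ ∀ g, ψ g = (ω g : k) • (ρ g * X * ρ g⁻¹) - X}
  zero_mem' := ⟨0, by simp, fun g => by simp⟩
  add_mem' := by
    rintro ψ ψ' ⟨X, hX, h⟩ ⟨X', hX', h'⟩
    refine ⟨X + X', by simp [hX, hX'], fun g => ?_⟩
    rw [Pi.add_apply, h, h', mul_add, add_mul, smul_add]
    abel
  smul_mem' := by
    rintro c ψ ⟨X, hX, h⟩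
    refine ⟨c • X, by simp [hX], fun g => ?_⟩
    rw [Pi.smul_apply, h, Matrix.mul_smul, Matrix.smul_mul, smul_sub, smul_comm c]

/-- The local invariant `tr (ψ g ρ g)` as a linear form. -/
noncomputable def traceForm (g : Γℚ) : (Γℚ → M₂ k) →ₗ[k] k where
  toFun ψ := traceDeriv ρ ψ g
  map_add' ψ ψ' := by simp [traceDeriv, add_mul]
  map_smul' c ψ := by simp [traceDeriv]

/-- A Taylor–Wiles place: a Frobenius with two distinct eigenvalues over a prime `≡ 1 mod p^(n+1)`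
outside `S`. -/
structure IsTWPlace (n : ℕ) (S : Finset ℕ) (q : ℕ) (A : ValuationSubring Qbar) (σ : Γℚ) :
    Prop where
  prime : q.Prime
  notMem : q ∉ S
  dvd : p ^ (n + 1) ∣ q - 1
  liesOver : A.LiesOverPrime q
  frobenius : A.IsFrobeniusAt σ q
  omega_eq : ω σ = 1
  regular : ∀ (P : ValuationSubring Qbar), P.LiesOverPrime q → ∀ φ : Γℚ,
    P.IsFrobeniusAt φ q → (ρ φ).det = 1 ∧ (ρ φ).trace ^ 2 ≠ 4

variable {p ρ ω}

/-- A coboundary has vanishing local invariant at any element killed by `ω`. -/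
theorem traceForm_eq_zero_of_mem_coboundaries {ψ : Γℚ → M₂ k}
    (hψ : ψ ∈ twistedCoboundaries ρ ω) {g : Γℚ} (hg : ω g = 1) : traceForm ρ g ψ = 0 := by
  obtain ⟨X, -, hX⟩ := hψ
  show (ψ g * ρ g).trace = 0
  rw [hX g, hg, Units.val_one, one_smul, sub_mul, trace_sub, mul_assoc (ρ g * X), rep_inv_mul,
    mul_one, trace_mul_comm, sub_self]

lemma sq_eq_smul_sub_one {M : M₂ k} (hd : M.det = 1) : M * M = M.trace • M - 1 := by
  rw [det_fin_two] at hd
  ext i j
  fin_cases i <;> fin_cases j <;> simp [mul_apply, Fin.sum_univ_two, trace_fin_two] <;> grind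

lemma trace_pow_add_two {M : M₂ k} (hd : M.det = 1) (X : M₂ k) (m : ℕ) :
    (X * M ^ (m + 2)).trace = M.trace * (X * M ^ (m + 1)).trace - (X * M ^ m).trace := by
  rw [pow_add, pow_two, sq_eq_smul_sub_one hd, pow_succ, mul_sub, mul_sub, trace_sub, mul_one,
    Matrix.mul_smul, Matrix.mul_smul, trace_smul, smul_eq_mul]

lemma trace_sq_pow_eq_four {M : M₂ k} (h2 : (2 : k) ≠ 0) (hd : M.det = 1)
    (ht : M.trace ^ 2 = 4) (m : ℕ) : (M ^ m).trace ^ 2 = 4 := by
  obtain ⟨c, hc⟩ : ∃ c, M.trace = 2 * c := ⟨M.trace / 2, by field_simp⟩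
  have hc2 : c ^ 2 = 1 := by
    refine mul_left_cancel₀ (pow_ne_zero 2 h2) ?_
    rw [hc] at ht
    linear_combination ht
  have key : ∀ i, (M ^ i).trace = 2 * c ^ i ∧ (M ^ (i + 1)).trace = 2 * c ^ (i + 1) := by
    intro i
    induction i with
    | zero => simp [hc, trace_one]
    | succ i ih =>
      refine ⟨ih.2, ?_⟩
      have h := trace_pow_add_two hd 1 i
      simp only [one_mul] at h
      rw [h, ih.1, ih.2, hc]
      linear_combination (2 * c ^ i) * hc2
  rw [(key m).1, mul_pow, ← pow_mul, mul_comm m, pow_mul, hc2, one_pow]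
  norm_num

lemma trace_mul_pow_eq_zero {M X : M₂ k} (hd : M.det = 1) (hX : X.trace = 0)
    (hXM : (X * M).trace = 0) (j : ℕ) : (X * M ^ j).trace = 0 := by
  have key : ∀ i, (X * M ^ i).trace = 0 ∧ (X * M ^ (i + 1)).trace = 0 := by
    intro i
    induction i with
    | zero => simp [hX, hXM]
    | succ i ih =>
      exact ⟨ih.2, by rw [trace_pow_add_two hd, ih.1, ih.2]; simp⟩
  exact (key j).1

/-- Local triviality at a Frobenius passes to its powers. -/
theorem traceDeriv_pow_eq_zero {ψ : Γℚ → M₂ k} (hψ : IsTwistedCocycle ρ ω ψ) {σ : Γℚ}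
    (hω : ω σ = 1) (hd : (ρ σ).det = 1) (h0 : traceDeriv ρ ψ σ = 0) (b : ℕ) :
    traceDeriv ρ ψ (σ ^ b) = 0 := by
  suffices h : ∀ j, (ψ (σ ^ b) * ρ σ ^ j).trace = 0 by
    rw [traceDeriv, map_pow]; exact h b
  induction b with
  | zero => intro j; simp [hψ.map_one]
  | succ b ih =>
    intro j
    rw [pow_succ' σ, hψ.map_mul, hω, Units.val_one, one_smul, add_mul, trace_add,
      trace_mul_pow_eq_zero hd (hψ.trace_zero σ) h0, zero_add]
    have hcomm : ρ σ⁻¹ * ρ σ ^ j * ρ σ = ρ σ ^ j := by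
      rw [mul_assoc, (Commute.pow_self (ρ σ) j).eq, ← mul_assoc, rep_inv_mul, one_mul]
    rw [mul_assoc (ρ σ * ψ (σ ^ b)), mul_assoc, trace_mul_comm, mul_assoc, hcomm]
    exact ih j

namespace IsTWSetting

variable (hs : IsTWSetting p ρ ω) [Finite k]
include hs

omit [Finite k] in
private theorem omega_eq_one [NeZero p] {g : Γℚ} (hg : modCycloChar p g = 1) : ω g = 1 := by
  refine Units.ext ?_
  rw [hs.cyclotomic g 1 fun ζ hζ => by
    have := Fact.mk hs.prime.one_lt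
    have h' := apply_eq_pow_modCycloChar p g hζ
    rw [hg, Units.val_one] at h'
    simpa [ZMod.val_one] using h']
  simp

omit [Finite k] in
private theorem omega_surjective [NeZero p] (a : ℕ) (ha : ¬ p ∣ a) :
    ∃ g : Γℚ, (ω g : k) = a := by
  have hco : a.Coprime p := Nat.Coprime.symm ((hs.prime.coprime_iff_not_dvd).mpr ha)
  obtain ⟨g, hg⟩ := modCycloChar_surjective p (ZMod.unitOfCoprime a hco)
  refine ⟨g, hs.cyclotomic g a fun ζ hζ => ?_⟩
  rw [apply_eq_pow_modCycloChar p g hζ, hg, ZMod.coe_unitOfCoprime, ZMod.val_natCast]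
  conv_rhs => rw [← Nat.mod_add_div a p, pow_add, pow_mul, hζ, one_pow, mul_one]

omit [Finite k] in
/-- A regular element of `ker (mod p^(n+1))` is a power, at any finite level, of the Frobenius of
a Taylor–Wiles place. -/
theorem exists_twPlace_of_regular (n : ℕ) (S : Finset ℕ) {h : Γℚ}
    [NeZero (p ^ (n + 1))] (hcyc : modCycloChar (p ^ (n + 1)) h = 1)
    (hreg : (ρ h).trace ^ 2 ≠ 4) (L : IntermediateField ℚ Qbar) [FiniteDimensional ℚ L] :
    ∃ q A σ, IsTWPlace p ρ ω n S q A σ ∧ ∃ b : ℕ, (σ ^ b)⁻¹ * h ∈ L.fixingSubgroup := by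
  have := hs.charP
  have : Fact p.Prime := ⟨hs.prime⟩
  have : NeZero p := ⟨hs.prime.ne_zero⟩
  obtain ⟨F, hF, hFρ⟩ := hs.finiteLevel
  obtain ⟨C, hC, hCc⟩ := exists_finite_level_modCycloChar (p ^ (n + 1))
  obtain ⟨C', hC', hCc'⟩ := exists_finite_level_modCycloChar p
  obtain ⟨S₀, hS₀⟩ := hs.unramified
  obtain ⟨q, hq, hqS, A, hA, σ, hσ, a, b, ha, hb⟩ :=
    exists_isFrobeniusAt_agreeOn (L ⊔ F ⊔ C ⊔ C') h (S ∪ S₀ ∪ {p})
  simp only [Finset.mem_union, Finset.mem_singleton, not_or] at hqS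
  obtain ⟨⟨hqS, hqS₀⟩, hqp⟩ := hqS
  have fix_of : ∀ {g g' : Γℚ} {E : IntermediateField ℚ Qbar}, E ≤ L ⊔ F ⊔ C ⊔ C' →
      (∀ x ∈ L ⊔ F ⊔ C ⊔ C', g x = g' x) → g⁻¹ * g' ∈ E.fixingSubgroup := fun {g g' E} hE he =>
    (IntermediateField.mem_fixingSubgroup_iff _ _).mpr fun x hx => by
      rw [AlgEquiv.mul_apply, ← he x (hE hx), ← AlgEquiv.mul_apply, inv_mul_cancel,
        AlgEquiv.one_apply]
  have hFle : F ≤ L ⊔ F ⊔ C ⊔ C' := le_sup_right.trans (le_sup_left.trans le_sup_left)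
  have hCle : C ≤ L ⊔ F ⊔ C ⊔ C' := le_sup_right.trans le_sup_left
  have hb' : σ ^ b = h * (h⁻¹ * σ ^ b) := by group
  have hρb : ρ (σ ^ b) = ρ h := by
    rw [hb', map_mul, hFρ _ (fix_of hFle fun x hx => (hb x hx).symm), mul_one]
  have hcycσ : modCycloChar (p ^ (n + 1)) σ = 1 := by
    have e := hCc _ (fix_of hCle ha)
    rwa [map_mul, map_inv, map_pow, hcyc, one_pow, mul_one, inv_eq_one] at e
  have hndvd : ¬ q ∣ p ^ (n + 1) := fun hd =>
    hqp ((Nat.prime_dvd_prime_iff_eq hq hs.prime).mp (hq.dvd_of_dvd_pow hd))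
  have hq1 : (q : ZMod (p ^ (n + 1))) = 1 := by
    rw [← modCycloChar_frobenius hq hndvd hA hσ, hcycσ, Units.val_one]
  have hdvd : p ^ (n + 1) ∣ q - 1 := by
    rw [← ZMod.natCast_eq_zero_iff, Nat.cast_sub hq.one_le, hq1, Nat.cast_one, sub_self]
  have hωσ : ω σ = 1 := by
    refine hs.omega_eq_one (Units.ext ?_)
    rw [modCycloChar_frobenius hq (fun hd => hqp ((Nat.prime_dvd_prime_iff_eq hq hs.prime).mp hd))
      hA hσ, Units.val_one, ← Nat.cast_one, ZMod.natCast_eq_natCast_iff]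
    exact ((Nat.modEq_iff_dvd' hq.one_le).mpr
      ((dvd_pow_self p (Nat.succ_ne_zero n)).trans hdvd)).symm
  have hd : (ρ σ).det = 1 := by rw [hs.det_eq, hωσ, Units.val_one]
  have hregσ : (ρ σ).trace ^ 2 ≠ 4 := fun h4 => hreg (by
    rw [← hρb, map_pow]
    exact trace_sq_pow_eq_four (two_ne_zero_of_charP p hs.ne_two) hd h4 b)
  refine ⟨q, A, σ, ⟨hq, hqS, hdvd, hA, hσ, hωσ, ?_⟩, b,
    fix_of (le_sup_left.trans (le_sup_left.trans le_sup_left)) hb⟩
  intro P hP φ hφ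
  obtain ⟨g, rfl⟩ := exists_smul_place_eq hq hA hP
  have hin := hS₀ q hq hqS₀ _ hP _ (frobenius_inv_mul_mem_inertia (isFrobeniusAt_conj g hσ) hφ)
  have e : ρ φ = ρ g * ρ σ * ρ g⁻¹ := by
    calc ρ φ = ρ (g * σ * g⁻¹) * ρ ((g * σ * g⁻¹)⁻¹ * φ) := by rw [← map_mul, mul_inv_cancel_left]
      _ = _ := by rw [hin, mul_one, map_mul, map_mul]
  have hg : (ρ g).det * (ρ g⁻¹).det = 1 := by rw [← det_mul, rep_mul_inv, det_one]
  exact ⟨by rw [e, det_mul, det_mul, hd, mul_one, hg],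
    by rwa [e, trace_mul_cycle, rep_inv_mul, one_mul]⟩

omit [Finite k] in
/-- Taylor–Wiles places exist in abundance. -/
theorem exists_twPlace (n : ℕ) (S : Finset ℕ) :
    ∃ q A σ, IsTWPlace p ρ ω n S q A σ := by
  have := hs.charP
  have : Fact p.Prime := ⟨hs.prime⟩
  have : NeZero p := ⟨hs.prime.ne_zero⟩
  have : NeZero (p ^ (n + 1)) := ⟨pow_ne_zero _ hs.prime.ne_zero⟩
  set H := (modCycloChar (p ^ (n + 1))).ker ⊓ ω.ker
  obtain ⟨h, hh, hreg⟩ := exists_regular p hs.ne_two hs.fullSpan hs.indexTwo hs.det_eq H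
    (fun a b => by
      refine Subgroup.mem_inf.mpr ⟨?_, ?_⟩ <;>
        · rw [MonoidHom.mem_ker, map_mul, map_mul, map_mul, map_inv, map_inv, mul_comm _ (_ : _)]
          simp [mul_comm, mul_assoc])
    (fun h hh => MonoidHom.mem_ker.mp (Subgroup.mem_inf.mp hh).2)
  obtain ⟨q, A, σ, hq, -⟩ := hs.exists_twPlace_of_regular n S
    (MonoidHom.mem_ker.mp (Subgroup.mem_inf.mp hh).1) hreg ⊥
  exact ⟨q, A, σ, hq⟩

/-- A nonzero class is not locally trivial at some Taylor–Wiles place. -/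
theorem exists_twPlace_traceForm_ne_zero (n : ℕ) (S : Finset ℕ) {ψ : Γℚ → M₂ k}
    (hψ : IsTwistedCocycle ρ ω ψ) (hlev : HasFiniteLevel ψ)
    (hne : ψ ∉ twistedCoboundaries ρ ω) :
    ∃ q A σ, IsTWPlace p ρ ω n S q A σ ∧ traceForm ρ σ ψ ≠ 0 := by
  have := hs.charP
  have : Fact p.Prime := ⟨hs.prime⟩
  have : NeZero p := ⟨hs.prime.ne_zero⟩
  have : NeZero (p ^ (n + 1)) := ⟨pow_ne_zero _ hs.prime.ne_zero⟩
  set H := (modCycloChar (p ^ (n + 1))).ker ⊓ ω.ker
  have hωH : ∀ h ∈ H, ω h = 1 := fun h hh => MonoidHom.mem_ker.mp (Subgroup.mem_inf.mp hh).2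
  obtain ⟨h, hh, hreg, hne'⟩ : ∃ h ∈ H, (ρ h).trace ^ 2 ≠ 4 ∧ (ψ h * ρ h).trace ≠ 0 := by
    by_contra hall
    push Not at hall
    exact hne (eq_coboundary_of_regular_locally_trivial p hs.ne_two hs.fullSpan hs.indexTwo
      hs.det_eq hs.omega_surjective H (fun a b => by
        refine Subgroup.mem_inf.mpr ⟨?_, ?_⟩ <;>
          · rw [MonoidHom.mem_ker, map_mul, map_mul, map_mul, map_inv, map_inv]
            simp [mul_assoc]) hωH hψ hall)
  obtain ⟨F, hF, hFρ⟩ := hs.finiteLevel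
  obtain ⟨L, hL, hLψ⟩ := hlev
  obtain ⟨q, A, σ, hq, b, hb⟩ := hs.exists_twPlace_of_regular n S
    (MonoidHom.mem_ker.mp (Subgroup.mem_inf.mp hh).1) hreg (L ⊔ F)
  refine ⟨q, A, σ, hq, fun h0 => hne' ?_⟩
  have hu : σ ^ b * ((σ ^ b)⁻¹ * h) = h := by group
  have e1 : ψ h = ψ (σ ^ b) := by
    rw [← hu, hLψ _ _ (IntermediateField.fixingSubgroup_le le_sup_left hb)]
  have e2 : ρ h = ρ (σ ^ b) := by
    rw [← hu, map_mul, hFρ _ (IntermediateField.fixingSubgroup_le le_sup_right hb), mul_one]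
  rw [e1, e2]
  exact traceDeriv_pow_eq_zero hψ hq.omega_eq (by rw [hs.det_eq, hq.omega_eq, Units.val_one]) h0 b

/-- **Taylor–Wiles primes.** `r` auxiliary primes detect a space of classes of dimension `≤ r`. -/
theorem exists_twPlaces (n r : ℕ) (S : Finset ℕ) (V : Submodule k (Γℚ → M₂ k))
    (hV : ∀ ψ ∈ V, IsTwistedCocycle ρ ω ψ ∧ HasFiniteLevel ψ)
    [FiniteDimensional k (V.map (twistedCoboundaries ρ ω).mkQ)]
    (hr : Module.finrank k (V.map (twistedCoboundaries ρ ω).mkQ) ≤ r) :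
    ∃ (qv : Fin r → ℕ) (Av : Fin r → ValuationSubring Qbar) (σv : Fin r → Γℚ),
      Function.Injective qv ∧ (∀ i, IsTWPlace p ρ ω n S (qv i) (Av i) (σv i)) ∧
      ∀ ψ ∈ V, (∀ i, traceForm ρ (σv i) ψ = 0) → ψ ∈ twistedCoboundaries ρ ω := by
  induction r generalizing S V with
  | zero =>
    refine ⟨Fin.elim0, Fin.elim0, Fin.elim0, fun i => i.elim0, fun i => i.elim0, fun ψ hψ _ => ?_⟩
    have h0 : V.map (twistedCoboundaries ρ ω).mkQ = ⊥ :=
      Submodule.finrank_eq_zero.mp (Nat.le_zero.mp hr)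
    have hmem : (twistedCoboundaries ρ ω).mkQ ψ ∈ V.map (twistedCoboundaries ρ ω).mkQ :=
      Submodule.mem_map_of_mem hψ
    rwa [h0, Submodule.mem_bot, Submodule.mkQ_apply, Submodule.Quotient.mk_eq_zero] at hmem
  | succ r ih =>
    obtain ⟨q₀, A₀, σ₀, hp₀, hstep⟩ : ∃ q A σ, IsTWPlace p ρ ω n S q A σ ∧
        Module.finrank k
          ((V ⊓ LinearMap.ker (traceForm ρ σ)).map (twistedCoboundaries ρ ω).mkQ) ≤ r := by
      by_cases hVB : V ≤ twistedCoboundaries ρ ω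
      · obtain ⟨q, A, σ, hq⟩ := hs.exists_twPlace n S
        refine ⟨q, A, σ, hq, ?_⟩
        have hbot : (V ⊓ LinearMap.ker (traceForm ρ σ)).map (twistedCoboundaries ρ ω).mkQ = ⊥ := by
          rw [Submodule.eq_bot_iff]
          rintro x ⟨ψ, hψ, rfl⟩
          rw [Submodule.mkQ_apply, Submodule.Quotient.mk_eq_zero]
          exact hVB (Submodule.mem_inf.mp hψ).1
        rw [hbot]
        simp
      · obtain ⟨ψ, hψV, hψB⟩ := SetLike.not_le_iff_exists.mp hVB
        obtain ⟨q, A, σ, hq, hne⟩ :=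
          hs.exists_twPlace_traceForm_ne_zero n S (hV ψ hψV).1 (hV ψ hψV).2 hψB
        refine ⟨q, A, σ, hq, Nat.le_of_lt_succ (lt_of_lt_of_le ?_ hr)⟩
        refine Submodule.finrank_lt_finrank_of_lt (lt_of_le_of_ne (Submodule.map_mono inf_le_left) ?_)
        intro heq
        have hmem : (twistedCoboundaries ρ ω).mkQ ψ ∈ V.map (twistedCoboundaries ρ ω).mkQ :=
          Submodule.mem_map_of_mem hψV
        rw [← heq] at hmem
        obtain ⟨v, hv, hvψ⟩ := hmem
        rw [Submodule.mkQ_apply, Submodule.mkQ_apply, Submodule.Quotient.eq] at hvψ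
        have := traceForm_eq_zero_of_mem_coboundaries hvψ hq.omega_eq
        rw [map_sub, LinearMap.mem_ker.mp (Submodule.mem_inf.mp hv).2, zero_sub,
          neg_eq_zero] at this
        exact hne this
    have : FiniteDimensional k
        ((V ⊓ LinearMap.ker (traceForm ρ σ₀)).map (twistedCoboundaries ρ ω).mkQ) :=
      Submodule.finiteDimensional_of_le (Submodule.map_mono inf_le_left)
    obtain ⟨qv, Av, σv, hinj, hqv, hkill⟩ := ih (insert q₀ S) (V ⊓ LinearMap.ker (traceForm ρ σ₀))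
      (fun ψ hψ => hV ψ (Submodule.mem_inf.mp hψ).1) hstep
    refine ⟨Fin.cons q₀ qv, Fin.cons A₀ Av, Fin.cons σ₀ σv, ?_, ?_, ?_⟩
    · rw [Fin.cons_injective_iff]
      exact ⟨fun ⟨i, hi⟩ => (hqv i).notMem (hi ▸ Finset.mem_insert_self _ _), hinj⟩
    · refine Fin.cases (by simpa using hp₀) fun i => ?_
      simp only [Fin.cons_succ]
      exact { hqv i with notMem := fun h => (hqv i).notMem (Finset.mem_insert_of_mem h) }
    · intro ψ hψ h0
      refine hkill ψ (Submodule.mem_inf.mpr ⟨hψ, LinearMap.mem_ker.mpr ?_⟩) fun i => ?_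
      · simpa using h0 0
      · simpa using h0 i.succ

end IsTWSetting

end FermatLib.MLT.Odd
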