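import Fermat.Agent.MLT.ResidualIdentify
import Fermat.Agent.MLT.Odd.TWPrimes
import Fermat.Agent.MLT.LevelBookkeeping
import Fermat.Agent.Basic.FreyLevelLowering

/-!
# Avoidance: the minimal situation and its residual data

`AvoidanceMinimal` states avoidance only where the residual problem is minimal outside `T`:
every prime of the level is bad for `W`, those outside `T` are ramified in `E[p]`, and
`p ∣ v_p(Δ)`.  It gives `AvoidanceLowering` for the Frey curve, and `AvoidanceData` records all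
residual hypotheses that follow from it.
-/

set_option autoImplicit false
set_option linter.style.haveILetI false

noncomputable section

open WeierstrassCurve WeierstrassCurve.Affine WeierstrassCurve.Affine.Point Polynomial
open scoped WeierstrassCurve.Affine

namespace FermatLib.MLT.Odd

local notation "Qbar" => AlgebraicClosure ℚ
local notation "Γℚ" => (AlgebraicClosure ℚ ≃ₐ[ℚ] AlgebraicClosure ℚ)

/-- Avoidance in the minimal situation. -/
def AvoidanceMinimal : Prop :=
  ∀ (W : WeierstrassCurve ℤ), W.Δ ≠ 0 → W.IsSemistableModel → ∀ (p : ℕ), p.Prime → 5 ≤ p →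
    W.ModRepIsIrreducible p → p ∣ padicValInt p W.Δ →
    ∀ (M : ℕ) (T : Finset ℕ), Squarefree M → ¬ p ∣ M →
    (∀ q ∈ T, q.Prime ∧ q ∣ M ∧ q ≠ 2 ∧ (q : ℤ) ∣ W.Δ ∧ q ≡ 1 [MOD p] ∧
      p ∣ padicValInt q W.Δ) →
    (∀ q : ℕ, q.Prime → q ∣ M → q ∉ T → ¬ p ∣ padicValInt q W.Δ) →
    W.IsResiduallyModularOfLevel p M → W.IsResiduallyModularOfLevel p (M / ∏ q ∈ T, q)

/-- Avoidance in the minimal situation gives avoidance for the Frey curve. -/
theorem avoidanceLowering_of_minimal (h : AvoidanceMinimal) :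
    FermatLib.Basic.AvoidanceLowering := by
  intro P hirr M hcond hall hmod
  haveI : Fact P.p.Prime := ⟨P.pp⟩
  have hp5 := P.hp5
  set T := M.primeFactors.filter (fun q => q ≠ 2) with hT
  have hmem : ∀ q ∈ T, q.Prime ∧ q ∣ M ∧ q ≠ 2 := fun q hq => by
    rw [hT, Finset.mem_filter, Nat.mem_primeFactors] at hq
    exact ⟨hq.1.1, hq.1.2.1, hq.2⟩
  have hpM : ¬ P.p ∣ M := fun hpM => by
    have h1 := (hall P.p P.pp hpM (by omega)).1
    rw [Nat.ModEq, Nat.mod_self, Nat.mod_eq_of_lt (by omega)] at h1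
    exact absurd h1 (by omega)
  have hsplit : (∏ q ∈ T, q) * ∏ q ∈ M.primeFactors.filter (fun q => ¬ q ≠ 2), q = M := by
    rw [hT, Finset.prod_filter_mul_prod_filter_not]
    exact Nat.prod_primeFactors_of_squarefree hcond.squarefree
  have hpos : 0 < ∏ q ∈ T, q := Finset.prod_pos fun q hq => (hmem q hq).1.pos
  have hdiv : M / ∏ q ∈ T, q = ∏ q ∈ M.primeFactors.filter (fun q => ¬ q ≠ 2), q := by
    conv_lhs => arg 1; rw [← hsplit]
    exact Nat.mul_div_cancel_left _ hpos
  refine ⟨M / ∏ q ∈ T, q, Nat.div_dvd_of_dvd ⟨_, hsplit.symm⟩, ?_,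
    h P.freyCurveInt (FermatLib.Basic.Frey.freyCurveInt_Δ_ne_zero P)
      (FermatLib.Basic.Frey.freyCurveInt_isSemistableModel P) P.p P.pp P.hp5 hirr
      (dvd_padicValInt_freyCurveInt P P.pp (freyPackage_p_ne_two P)) M T hcond.squarefree hpM
      (fun q hq => ?_) (fun q hq hqM hqT => ?_) hmod⟩
  · rw [hdiv]
    have hsub : M.primeFactors.filter (fun q => ¬ q ≠ 2) ⊆ {2} := fun q hq => by
      simpa using (Finset.mem_filter.1 hq).2
    exact (Finset.prod_dvd_prod_of_subset _ _ _ hsub).trans (by simp)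
  · obtain ⟨hqp, hqM, hq2⟩ := hmem q hq
    exact ⟨hqp, hqM, hq2, (dvd_Δ_of_isConductorLevel P hcond hqp hqM hq2).1,
      (hall q hqp hqM hq2).1, dvd_padicValInt_freyCurveInt P hqp hq2⟩
  · have hq2 : q = 2 := by
      by_contra hne
      exact hqT (by rw [hT, Finset.mem_filter, Nat.mem_primeFactors]
                    exact ⟨⟨hq, hqM, hcond.pos.ne'⟩, hne⟩)
    subst hq2
    intro hv
    refine freyResidualRep_not_isUnramifiedAt_two P (RingHom.id (ZMod P.p)) ?_
    exact (curveResidualRepExt_isUnramifiedAt_iff _ _ _ _ 2).mpr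
      ((curveResidualRep_isUnramifiedAt_iff P.freyCurveInt
        (FermatLib.Basic.Frey.freyCurveInt_Δ_ne_zero P) P.p Nat.prime_two
        (freyPackage_p_ne_two P).symm
        (FermatLib.Basic.Frey.freyCurveInt_isSemistableModel P 2 Nat.prime_two)).mpr hv)

variable (W : WeierstrassCurve ℤ) (hΔ : W.Δ ≠ 0) (p : ℕ) [Fact p.Prime]
  {k : Type} [Field k] (ι : ZMod p →+* k)

/-- The residual hypotheses available in the minimal avoidance situation. -/
structure AvoidanceData (M : ℕ) (T : Finset ℕ) : Prop where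
  absIrr : (curveResidualRepExt W hΔ p ι).IsAbsolutelyIrreducible
  det : (GaloisRepAdic.ofResidualGaloisRep (curveResidualRepExt W hΔ p ι)).DetIsCyclotomic p
  odd : (curveResidualRepExt W hΔ p ι).IsOdd
  indexTwo : ∀ (K : Type) [Field K] [Algebra k K] (G : Subgroup Γℚ), G.index = 2 →
    ∀ V : Submodule K ((curveResidualRepExt W hΔ p ι).baseChange K).V,
      (∀ σ ∈ G, ∀ x ∈ V, ((curveResidualRepExt W hΔ p ι).baseChange K).ρ σ x ∈ V) → V = ⊥ ∨ V = ⊤
  twSetting : IsTWSetting p (FermatLib.Galois.repMap ι (curveMat W hΔ p))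
    ((Units.map ι.toMonoidHom).comp (ExtCitation.cycloChar p))
  flat : (GaloisRepAdic.ofResidualGaloisRep (curveResidualRepExt W hΔ p ι)).IsFlatAt p
  unramified : ∀ q : ℕ, q.Prime → q ≠ p → ¬ (q ∣ M ∧ q ∉ T) →
    (curveResidualRepExt W hΔ p ι).IsUnramifiedAt q
  ramified : ∀ q : ℕ, q.Prime → q ∣ M → q ∉ T → ¬ (curveResidualRepExt W hΔ p ι).IsUnramifiedAt q
  unipotent : ∀ q : ℕ, q.Prime → q ≠ p →
    ∀ A : ValuationSubring Qbar, A.LiesOverPrime q → ∀ σ ∈ A.inertiaSubgroupIn ℚ,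
      (curveMat W hΔ p σ).trace = 2
  frobenius : ∀ q ∈ T, ∀ A : ValuationSubring Qbar, A.LiesOverPrime q →
    ∀ σ : Γℚ, A.IsFrobeniusAt σ q → ∃ s : ZMod p, (s = 1 ∨ s = -1) ∧
      (curveMat W hΔ p σ).trace = s * (1 + 1) ∧ (curveMat W hΔ p σ).det = 1 ∧
      (curveMat W hΔ p σ - s • 1) * (curveMat W hΔ p σ - s • 1) = 0
  nonEisenstein : ∀ S : Finset ℕ, ∃ ℓ : ℕ, ℓ.Prime ∧ ℓ ∉ S ∧ ℓ ≠ p ∧ W.IsGoodPrimeFor ℓ ∧
    ¬ (p : ℤ) ∣ W.apOfModel ℓ - ((ℓ : ℤ) + 1)

/-- The residual data of the minimal avoidance situation. -/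
theorem avoidanceData (hattach : FermatLib.Galois.PadicAttachment) [Finite k]
    (hW : W.IsSemistableModel) (hp5 : 5 ≤ p) (hirr : W.ModRepIsIrreducible p)
    (hv : p ∣ padicValInt p W.Δ) {M : ℕ} {T : Finset ℕ} (hM : M ≠ 0) (hpM : ¬ p ∣ M)
    (hT : ∀ q ∈ T, q.Prime ∧ q ∣ M ∧ q ≠ 2 ∧ (q : ℤ) ∣ W.Δ ∧ q ≡ 1 [MOD p] ∧
      p ∣ padicValInt q W.Δ)
    (hout : ∀ q : ℕ, q.Prime → q ∣ M → q ∉ T → ¬ p ∣ padicValInt q W.Δ)
    (hres : W.IsResiduallyModularOfLevel p M) : AvoidanceData W hΔ p ι M T := by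
  have hp2 : p ≠ 2 := by omega
  have hunr : ∀ q : ℕ, q.Prime → q ≠ p → ¬ (q ∣ M ∧ q ∉ T) →
      (curveResidualRep W hΔ p).IsUnramifiedAt q := by
    intro q hq hqp hn
    by_contra hr
    refine hn ⟨dvd_level_of_not_isUnramifiedAt hattach hΔ hp2 hirr hM hres hq hqp hr, fun hqT =>
      hr ?_⟩
    exact (curveResidualRep_isUnramifiedAt_iff W hΔ p hq hqp (hW q hq)).mpr (hT q hqT).2.2.2.2.2
  refine
    { absIrr := curveResidualRepExt_isAbsolutelyIrreducible W hΔ p ι hp2 hirr
      det := curveResidualRepExt_detIsCyclotomic W hΔ p ι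
      odd := curveResidualRepExt_isOdd W hΔ p ι
      indexTwo := fun K _ _ G hG V hV =>
        curveResidualRepExt_stable_of_semistable W hΔ p ι hp2 hW hirr K G hG V hV
      twSetting := ?_
      flat := curveResidualRepExt_isFlatAt W hΔ p ι hp2 (hW p Fact.out) hv
      unramified := fun q hq hqp hn =>
        (curveResidualRepExt_isUnramifiedAt_iff W hΔ p ι q).mpr (hunr q hq hqp hn)
      ramified := fun q hq hqM hqT h => hout q hq hqM hqT
        ((curveResidualRep_isUnramifiedAt_iff W hΔ p hq (fun e => hpM (e ▸ hqM)) (hW q hq)).mp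
          ((curveResidualRepExt_isUnramifiedAt_iff W hΔ p ι q).mp h))
      unipotent := fun q hq hqp A hA σ hσ =>
        trace_curveMat_inertia_away W hΔ p hq hqp (hW q hq) hA hσ
      frobenius := fun q hq A hA σ hσ => ?_
      nonEisenstein := exists_apOfModel_ne_succ hΔ hp2 hirr }
  · have hc := curveResidualRep_hasFullSpan_index_two W hΔ p hp2 hirr
      (fun q hq hqp _ hA _ hσ => trace_curveMat_inertia_away W hΔ p hq hqp (hW q hq) hA hσ)
      (fun _ hA => curveMat_inertia_shape W hΔ p hp2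
        ((em ((p : ℤ) ∣ W.Δ)).elim (fun h => Or.inr (hW p Fact.out h)) Or.inl) hA)
    refine ⟨Fact.out, hp2, charP_of_injective_ringHom ι.injective p, ?_, fun L hL => ?_, fun g => ?_,
      fun g a ha => ?_, ?_, ⟨insert p M.primeFactors, fun q hq hqS A hA g hg => ?_⟩⟩
    · exact ((FermatLib.Galois.isAbsolutelyIrreducible_iff_hasFullSpan _).mp
        (curveResidualRep_isAbsolutelyIrreducible W hΔ p hp2 hirr)).repMap ι
    · exact (hc L hL).repMap ι
    · show ((curveMat W hΔ p g).map ι).det = ι ((ExtCitation.cycloChar p g : (ZMod p)ˣ) : ZMod p)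
      rw [← det_curveMat W hΔ p g]
      exact (RingHom.map_det ι _).symm
    · obtain ⟨ζ, hζ⟩ := FermatLib.Mazur.exists_isPrimitiveRoot_qbar p
      show ι ((ExtCitation.cycloChar p g : (ZMod p)ˣ) : ZMod p) = a
      rw [FermatLib.Mazur.cycloChar_eq_of_apply_eq p hζ g (ha ζ hζ.pow_eq_one), map_natCast]
    · obtain ⟨F, hF, hfix⟩ := (curveResidualRep W hΔ p).factorsThroughFiniteLevel
      refine ⟨F, hF, fun g hg => ?_⟩
      have h1 : curveMat W hΔ p g = 1 := by
        show FermatLib.Galois.repMatrix _ _ g = 1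
        rw [FermatLib.Galois.repMatrix_apply,
          hfix g ((IntermediateField.mem_fixingSubgroup_iff _ g).mp hg)]
        exact LinearMap.toMatrix_one _
      show (curveMat W hΔ p g).map ι = 1
      rw [h1, Matrix.map_one _ (map_zero ι) (map_one ι)]
    · simp only [Finset.mem_insert, Nat.mem_primeFactors, not_or] at hqS
      have h1 : curveMat W hΔ p g = 1 := by
        show FermatLib.Galois.repMatrix _ _ g = 1
        rw [FermatLib.Galois.repMatrix_apply,
          hunr q hq hqS.1 (fun h => hqS.2 ⟨hq, h.1, hM⟩) A hA g hg]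
        exact LinearMap.toMatrix_one _
      show (curveMat W hΔ p g).map ι = 1
      rw [h1, Matrix.map_one _ (map_zero ι) (map_one ι)]
  · obtain ⟨hqP, hqM, hq2, hd, hq1, -⟩ := hT q hq
    have hqp : q ≠ p := fun e => hpM (e ▸ hqM)
    obtain ⟨s, hs, ht, hdet⟩ := exists_sign_trace_curveMat_frobenius W hΔ p hqP hq2 hqp hd
      (hW q hqP hd) hA hσ
    have hq' : (q : ZMod p) = 1 := by
      rw [← Nat.cast_one, ZMod.natCast_eq_natCast_iff]; exact hq1
    refine ⟨s, hs, ?_, ?_, ((frobenius_shape_of_trace p hs ht hdet).2 hq1).1⟩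
    · rw [ht, hq']
    · rw [hdet, hq']

end FermatLib.MLT.Odd
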