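import Fermat.Agent.MLT.Odd.AvoidBridge
import Fermat.Agent.MLT.Odd.AvoidanceData
import Fermat.Agent.MLT.Odd.Generators
import Fermat.Agent.MLT.Odd.TraceOdd

/-!
# Avoidance from Mazur's principle and the minimal seed

`avoidanceMinimal_of_minimalSeed`: the primes of `T` with non-scalar residual Frobenius leave the
level by `MazurNonScalar`, the others all at once by `MinimalSeedPrinciple`, the shape of
`hasMinimalSeed_of_seed`.
-/

set_option autoImplicit false
set_option linter.style.haveILetI false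

noncomputable section

open IsLocalRing Polynomial WeierstrassCurve
open scoped WeierstrassCurve.Affine

namespace FermatLib.MLT.Odd

local notation "Qbar" => AlgebraicClosure ℚ
local notation "Γℚ" => (AlgebraicClosure ℚ ≃ₐ[ℚ] AlgebraicClosure ℚ)

/-- The shape of `hasMinimalSeed_of_seed`. -/
def MinimalSeedPrinciple : Prop :=
  ∀ (O : Type) [CommRing O] [IsDomain O] [IsDiscreteValuationRing O]
    [IsAdicComplete (maximalIdeal O) O] [Finite (ResidueField O)] [CharZero O]
    (p : ℕ) [Fact p.Prime] (ρbar : ResidualGaloisRep (ResidueField O)),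
    p ≠ 2 → (p : O) ∈ maximalIdeal O → (∃ ζ : O, ζ ^ p = 1 ∧ ζ ≠ 1) → OddResidual p ρbar →
    ∀ S : OddPrimes p ρbar, S.pCase = PCase.flat → S.F = ∅ → HasSeed S → HasMinimalSeed S

/-- Enlarging the excluded set keeps the residual traces. -/
theorem HasResidualTraces.mono {k : Type} [Field k] {p : ℕ} {ρbar : ResidualGaloisRep k}
    {N : ℕ} [NeZero N] {E E' : Set ℕ} (h : E ⊆ E')
    {θ : ↥(CuspForm.heckeAlgebra N 2 E) →+* k} (hθ : HasResidualTraces p ρbar θ) :
    HasResidualTraces p ρbar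
      (θ.comp (Subalgebra.inclusion (CuspForm.heckeAlgebra_mono h)).toRingHom) :=
  fun ℓ hℓ hℓN hℓE hℓp A hA σ hσ => hθ ℓ hℓ hℓN (fun he => hℓE (h he)) hℓp A hA σ hσ

variable (W : WeierstrassCurve ℤ) (hΔ : W.Δ ≠ 0) (p : ℕ) [Fact p.Prime]
  {k : Type} [Field k] (ι : ZMod p →+* k)

/-- Scalar on decomposition groups: over `k` if and only if over `𝔽_p`. -/
theorem isScalarAt_curveResidualRepExt_iff (q : ℕ) :
    IsScalarAt (curveResidualRepExt W hΔ p ι) q ↔ IsScalarAt (curveResidualRep W hΔ p) q := by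
  letI : Algebra (ZMod p) k := ι.toAlgebra
  refine forall_congr' fun A => forall_congr' fun _ => forall_congr' fun σ => forall_congr' fun _ => ?_
  let b := FermatLib.Galois.residualBasis (curveResidualRep W hΔ p)
  obtain ⟨f, hf⟩ : ∃ f, f = (curveResidualRep W hΔ p).ρ σ := ⟨_, rfl⟩
  rw [← hf]
  constructor
  · rintro ⟨c, hc⟩
    have hc' : f.baseChange k = c • (1 : Module.End k _) := by rw [hf]; exact hc
    have h' : (LinearMap.toMatrix b b f).map (algebraMap (ZMod p) k) = c • 1 := by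
      rw [← LinearMap.toMatrix_baseChange, hc', map_smul,
        show (1 : Module.End k (TensorProduct (ZMod p) k _)) = LinearMap.id from rfl,
        LinearMap.toMatrix_id]
    refine ⟨LinearMap.toMatrix b b f 0 0, (LinearMap.toMatrix b b).injective ?_⟩
    rw [map_smul, show (1 : Module.End (ZMod p) _) = LinearMap.id from rfl, LinearMap.toMatrix_id]
    have h00 : algebraMap (ZMod p) k (LinearMap.toMatrix b b f 0 0) = c := by
      simpa using congrFun (congrFun h' 0) 0
    apply Matrix.map_injective (algebraMap (ZMod p) k).injective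
    dsimp only
    rw [h', Matrix.map_smul' _ _ _ (map_mul _), Matrix.map_one _ (map_zero _) (map_one _), h00]
  · rintro ⟨a, ha⟩
    refine ⟨ι a, ?_⟩
    show ((curveResidualRep W hΔ p).ρ σ).baseChange k = ι a • (1 : Module.End k _)
    rw [← hf, ha, LinearMap.baseChange_smul, LinearMap.baseChange_one]
    exact algebra_compatible_smul k a _

/-- Residual eigenvalues lie in a field where all integral quadratics split. -/
theorem curveResidualRepExt_split_of_forall
    (hroot : ∀ b d : ℤ, ∃ r : k, r ^ 2 + (b : k) * r + (d : k) = 0) (σ : Γℚ) :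
    ∃ α β : k, LinearMap.charpoly ((curveResidualRepExt W hΔ p ι).ρ σ) =
      (X - C α) * (X - C β) := by
  obtain ⟨r, hr⟩ := hroot (-((curveMat W hΔ p σ).trace.val : ℤ))
    (((curveMat W hΔ p σ).det.val : ℕ) : ℤ)
  have hval : ∀ a : ZMod p, ((a.val : ℕ) : k) = ι a := fun a => by
    rw [← map_natCast ι, ZMod.natCast_zmod_val]
  simp only [Int.cast_neg, Int.cast_natCast, hval] at hr
  refine ⟨r, ι (curveMat W hΔ p σ).trace - r, ?_⟩
  rw [curveResidualRepExt_charpoly, ← FermatLib.Galois.charpoly_repMatrix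
    (FermatLib.Galois.residualBasis _) _ σ, Matrix.charpoly_fin_two]
  change (X ^ 2 - C (curveMat W hΔ p σ).trace * X + C (curveMat W hΔ p σ).det).map ι = _
  simp only [Polynomial.map_add, Polynomial.map_sub, Polynomial.map_mul, Polynomial.map_pow,
    map_X, map_C, map_sub]
  have hr' : C (r ^ 2 + -ι (curveMat W hΔ p σ).trace * r + ι (curveMat W hΔ p σ).det) =
      (0 : k[X]) := by rw [hr, map_zero]
  simp only [map_add, map_mul, map_pow, map_neg] at hr'
  linear_combination hr'

/-- Inertia at a semistable `q ≠ p` acts unipotently on the extended residual representation. -/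
theorem curveResidualRepExt_isUnipotentOnInertiaAt {q : ℕ} (hq : q.Prime) (hqp : q ≠ p)
    (hss : (q : ℤ) ∣ W.Δ → ¬ (q : ℤ) ∣ W.c₄) :
    (GaloisRepAdic.ofResidualGaloisRep (curveResidualRepExt W hΔ p ι)).IsUnipotentOnInertiaAt q := by
  intro A hA σ hσ
  have ht := trace_curveMat_inertia_away W hΔ p hq hqp hss hA hσ
  have hd : (curveMat W hΔ p σ).det = 1 := by
    rw [det_curveMat, FermatLib.Mazur.cycloChar_eq_one_of_mem_inertia p hq hqp hA hσ]
    simp
  show LinearMap.charpoly ((curveResidualRepExt W hΔ p ι).ρ σ) = _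
  rw [curveResidualRepExt_charpoly, ← FermatLib.Galois.charpoly_repMatrix
    (FermatLib.Galois.residualBasis _) _ σ, Matrix.charpoly_fin_two]
  change (X ^ 2 - C (curveMat _ _ _ σ).trace * X + C (curveMat _ _ _ σ).det).map ι = _
  rw [ht, hd]
  simp only [Polynomial.map_add, Polynomial.map_sub, Polynomial.map_mul, Polynomial.map_pow,
    map_X, map_ofNat, map_one, Polynomial.map_ofNat, Polynomial.map_one]
  ring

variable {W p}

/-- A residually unramified prime leaves the level unless it is `1` mod `p` with scalar Frobenius. -/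
theorem isResiduallyModularOfLevel_div_of_mazurNonScalar (hattach : Galois.PadicAttachment)
    (hMazur : MazurNonScalar) (hp2 : p ≠ 2) (hW : W.IsSemistableModel)
    (hirr : W.ModRepIsIrreducible p) {M q : ℕ}
    (hsq : Squarefree M) (hq : q.Prime) (hqM : q ∣ M) (hqp : q ≠ p)
    (hunr : (curveResidualRep W hΔ p).IsUnramifiedAt q)
    (hns : ¬ (q ≡ 1 [MOD p] ∧ IsScalarAt (curveResidualRep W hΔ p) q))
    (hres : W.IsResiduallyModularOfLevel p M) : W.IsResiduallyModularOfLevel p (M / q) := by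
  haveI : NeZero M := ⟨hsq.ne_zero⟩
  haveI : NeZero (M / q) := ⟨(Nat.div_pos (Nat.le_of_dvd hsq.ne_zero.bot_lt hqM) hq.pos).ne'⟩
  obtain ⟨O, _, _, _, _, _, _, hpO, -, -, hθ⟩ := exists_residualCharacter hattach hΔ hres
  haveI : CharP (ResidueField O) p := (CharP.charP_iff_prime_eq_zero Fact.out).mpr (by
    rw [← map_natCast (residue O), residue_eq_zero_iff]; exact hpO)
  let ι₀ : ZMod p →+* ResidueField O := ZMod.castHom (dvd_refl p) _
  obtain ⟨θ, hθ⟩ := hθ ι₀
  obtain ⟨θ', hT, -⟩ := hMazur p hp2 (ResidueField O) (curveResidualRepExt W hΔ p ι₀)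
    (curveResidualRepExt_isAbsolutelyIrreducible W hΔ p ι₀ hp2 hirr)
    (curveResidualRepExt_detIsCyclotomic W hΔ p ι₀)
    (exists_det_neg_one_trace_ne_zero W hΔ ι₀ hW hirr) M q hsq hq hqM hqp
    ((curveResidualRepExt_isUnramifiedAt_iff W hΔ p ι₀ q).mpr hunr)
    (fun h => hns ⟨h.1, (isScalarAt_curveResidualRepExt_iff W hΔ p ι₀ q).mp h.2⟩)
    ∅ _ (hθ.mono (E' := ((∅ : Finset ℕ) : Set ℕ)) (Set.empty_subset _))
  refine isResiduallyModularOfLevel_of_hasResidualTraces hattach hΔ ι₀
    ((Finset.finite_toSet _).insert q) θ' fun ℓ hℓ h' hE' hℓp A hA σ hσ => ?_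
  have hℓM : ¬ ℓ ∣ M := fun hd => by
    rw [← Nat.mul_div_cancel' hqM] at hd
    rcases hℓ.dvd_mul.mp hd with h | h
    · exact hE' (Set.mem_insert_iff.mpr (Or.inl ((Nat.prime_dvd_prime_iff_eq hℓ hq).mp h)))
    · exact h' h
  have hℓE : ℓ ∉ ((∅ : Finset ℕ) : Set ℕ) := by simp
  rw [hT ℓ hℓ h' hE' hℓM hℓE]
  exact hθ ℓ hℓ hℓM (Set.notMem_empty ℓ) hℓp A hA σ hσ

/-- Removing a set of prime divisors of a squarefree level. -/
theorem div_prod_eq_prod_sdiff {M : ℕ} (hsq : Squarefree M) {V : Finset ℕ}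
    (hV : V ⊆ M.primeFactors) : M / ∏ q ∈ V, q = ∏ q ∈ M.primeFactors \ V, q := by
  conv_lhs => arg 1; rw [← Nat.prod_primeFactors_of_squarefree hsq,
    ← Finset.prod_sdiff hV]
  exact Nat.mul_div_cancel _
    (Finset.prod_pos fun q hq => (Nat.prime_of_mem_primeFactors (hV hq)).pos)

theorem primeFactors_div_prod {M : ℕ} (hsq : Squarefree M) {V : Finset ℕ}
    (hV : V ⊆ M.primeFactors) : (M / ∏ q ∈ V, q).primeFactors = M.primeFactors \ V := by
  rw [div_prod_eq_prod_sdiff hsq hV]
  exact Nat.primeFactors_prod fun q hq =>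
    Nat.prime_of_mem_primeFactors (Finset.sdiff_subset hq)

/-- **Avoidance in the minimal situation.** -/
theorem avoidanceMinimal_of_minimalSeed (hattach : Galois.PadicAttachment)
    (hMazur : MazurNonScalar) (hmin : MinimalSeedPrinciple) : AvoidanceMinimal := by
  classical
  intro W hΔ hW p hp hp5 hirr hv M T hsq hpM hT hout hres
  haveI : Fact p.Prime := ⟨hp⟩
  have hp2 : p ≠ 2 := by omega
  have hM : M ≠ 0 := hsq.ne_zero
  have hTsub : T ⊆ M.primeFactors := fun q hq =>
    Nat.mem_primeFactors.mpr ⟨(hT q hq).1, (hT q hq).2.1, hM⟩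
  have hTp : ∀ q ∈ T, q ≠ p := fun q hq e => hpM (e ▸ (hT q hq).2.1)
  have hTunr : ∀ q ∈ T, (curveResidualRep W hΔ p).IsUnramifiedAt q := fun q hq =>
    (curveResidualRep_isUnramifiedAt_iff W hΔ p (hT q hq).1 (hTp q hq) (hW q (hT q hq).1)).mpr
      (hT q hq).2.2.2.2.2
  -- the non-scalar primes
  set U := T.filter (fun q => ¬ IsScalarAt (curveResidualRep W hΔ p) q) with hU
  have hUT : U ⊆ T := Finset.filter_subset _ _
  have hstep : ∀ V : Finset ℕ, V ⊆ U → W.IsResiduallyModularOfLevel p (M / ∏ q ∈ V, q) := by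
    intro V
    induction V using Finset.induction_on with
    | empty => intro _; rwa [Finset.prod_empty, Nat.div_one]
    | insert q V hqV ih =>
      intro hsub
      rw [Finset.insert_subset_iff] at hsub
      have hV : V ⊆ M.primeFactors := hsub.2.trans (hUT.trans hTsub)
      have hqT := hUT hsub.1
      have hmem : q ∈ (M / ∏ r ∈ V, r).primeFactors := by
        rw [primeFactors_div_prod hsq hV]
        exact Finset.mem_sdiff.mpr ⟨hTsub hqT, hqV⟩
      obtain ⟨hq, hqd, -⟩ := Nat.mem_primeFactors.mp hmem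
      have hsq' : Squarefree (M / ∏ r ∈ V, r) := hsq.squarefree_of_dvd (Nat.div_dvd_of_dvd <| by
        conv_rhs => rw [← Nat.prod_primeFactors_of_squarefree hsq]
        exact Finset.prod_dvd_prod_of_subset _ _ _ hV)
      have := isResiduallyModularOfLevel_div_of_mazurNonScalar hΔ hattach hMazur hp2 hW hirr hsq' hq
        hqd (hTp q hqT) (hTunr q hqT) (fun h => (Finset.mem_filter.mp hsub.1).2 h.2) (ih hsub.2)
      rwa [Nat.div_div_eq_div_mul, mul_comm, ← Finset.prod_insert (f := fun r => r) hqV] at this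
  have hUM : U ⊆ M.primeFactors := hUT.trans hTsub
  set M₁ := M / ∏ q ∈ U, q with hM₁
  have hpf₁ : M₁.primeFactors = M.primeFactors \ U := primeFactors_div_prod hsq hUM
  have hM₁d : M₁ ∣ M := Nat.div_dvd_of_dvd (by
    conv_rhs => rw [← Nat.prod_primeFactors_of_squarefree hsq]
    exact Finset.prod_dvd_prod_of_subset _ _ _ hUM)
  have hsq₁ : Squarefree M₁ := hsq.squarefree_of_dvd hM₁d
  haveI : NeZero M₁ := ⟨hsq₁.ne_zero⟩
  obtain ⟨O, _, _, _, _, _, _, hpO, hζ, hroot, hθ⟩ :=
    exists_residualCharacter hattach hΔ (hstep U subset_rfl)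
  haveI : CharP (ResidueField O) p := (CharP.charP_iff_prime_eq_zero hp).mpr (by
    rw [← map_natCast (residue O), residue_eq_zero_iff]; exact hpO)
  let ι₀ : ZMod p →+* ResidueField O := ZMod.castHom (dvd_refl p) _
  obtain ⟨θ, hθ⟩ := hθ ι₀
  have D := avoidanceData W hΔ p ι₀ hattach hW hp5 hirr hv hM hpM hT hout hres
  let T₁ := T.filter (fun q => IsScalarAt (curveResidualRep W hΔ p) q)
  have hT₁ : T₁ ⊆ T := Finset.filter_subset _ _
  have hSmin : ∀ q ∈ M.primeFactors \ T, q.Prime ∧ q ≠ p ∧ q ∣ M ∧ q ∉ T := fun q hq => by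
    obtain ⟨h1, h2⟩ := Finset.mem_sdiff.mp hq
    obtain ⟨hqP, hqM, -⟩ := Nat.mem_primeFactors.mp h1
    exact ⟨hqP, fun e => hpM (e ▸ hqM), hqM, h2⟩
  have hmemU : ∀ q, q ∈ (M.primeFactors \ T) ∪ T₁ ∪ ∅ → q.Prime ∧ q ≠ p := fun q hq => by
    simp only [Finset.union_empty, Finset.mem_union] at hq
    exact hq.elim (fun h => ⟨(hSmin q h).1, (hSmin q h).2.1⟩)
      fun h => ⟨(hT q (hT₁ h)).1, hTp q (hT₁ h)⟩
  let S : OddPrimes p (curveResidualRepExt W hΔ p ι₀) :=
    { Smin := M.primeFactors \ T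
      T := T₁
      F := ∅
      ε := fun _ => 1
      pCase := PCase.flat
      prime_of_mem := fun q hq => (hmemU q hq).1
      ne_p := fun q hq => (hmemU q hq).2
      disjoint_min_T := Finset.disjoint_left.mpr fun q hq hq' =>
        (Finset.mem_sdiff.mp hq).2 (hT₁ hq')
      disjoint_min_F := Finset.disjoint_empty_right _
      disjoint_T_F := Finset.disjoint_empty_right _
      ramified_min := fun q hq => D.ramified q (hSmin q hq).1 (hSmin q hq).2.2.1 (hSmin q hq).2.2.2
      unipotent_min := fun q hq => curveResidualRepExt_isUnipotentOnInertiaAt W hΔ p ι₀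
        (hSmin q hq).1 (hSmin q hq).2.1 (hW q (hSmin q hq).1)
      unramified_T := fun q hq => D.unramified q (hT q (hT₁ hq)).1 (hTp q (hT₁ hq))
        fun h => h.2 (hT₁ hq)
      one_mod_T := fun q hq => (hT q (hT₁ hq)).2.2.2.2.1
      scalar_T := fun q hq =>
        (isScalarAt_curveResidualRepExt_iff W hΔ p ι₀ q).mpr (Finset.mem_filter.mp hq).2
      unramified_F := fun q hq => absurd hq (Finset.notMem_empty q)
      not_scalar_F := fun q hq => absurd hq (Finset.notMem_empty q)
      sign_F := fun q hq => absurd hq (Finset.notMem_empty q)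
      trace_F := fun q hq => absurd hq (Finset.notMem_empty q)
      unramified_out := fun q hq hqp hout' => D.unramified q hq hqp fun h => hout' (by
        simp only [Finset.union_empty, Finset.mem_union, Finset.mem_sdiff, Nat.mem_primeFactors]
        exact Or.inl ⟨⟨hq, h.1, hM⟩, h.2⟩)
      flat_p := fun _ => D.flat
      not_flat_p := fun h => nomatch h
      strict_p := fun h => absurd rfl h }
  have hresid : OddResidual p (curveResidualRepExt W hΔ p ι₀) :=
    ⟨D.absIrr, D.det, curveResidualRepExt_split_of_forall W hΔ p ι₀ hroot, D.indexTwo⟩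
  have hexcl : S.seedExcluded = insert p (S.all : Set ℕ) := if_neg (fun h => nomatch h)
  have hseed : HasSeed S := by
    refine ⟨M₁, inferInstance, hsq₁, fun q hq hqM₁ => Or.inl ?_,
      θ.comp (Subalgebra.inclusion (CuspForm.heckeAlgebra_mono (Set.empty_subset _))).toRingHom,
      hθ.mono (Set.empty_subset _), fun _ hpE => absurd (by rw [hexcl]; exact Set.mem_insert _ _) hpE⟩
    have h1 : q ∈ M.primeFactors \ U := hpf₁ ▸ Nat.mem_primeFactors.mpr ⟨hq, hqM₁, hsq₁.ne_zero⟩
    rw [Finset.mem_sdiff] at h1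
    show q ∈ (M.primeFactors \ T) ∪ T₁
    rw [Finset.mem_union]
    by_cases hqT : q ∈ T
    · exact Or.inr (Finset.mem_filter.mpr
        ⟨hqT, not_not.mp fun hn => h1.2 (Finset.mem_filter.mpr ⟨hqT, hn⟩)⟩)
    · exact Or.inl (Finset.mem_sdiff.mpr ⟨h1.1, hqT⟩)
  obtain ⟨N, _, hNsq, hNpr, θ', hθ', -⟩ :=
    hmin O p _ hp2 hpO hζ hresid S rfl rfl hseed
  have hE : S.seedExcluded.Finite := hexcl ▸ (Finset.finite_toSet _).insert p
  have hresN : W.IsResiduallyModularOfLevel p N :=
    isResiduallyModularOfLevel_of_hasResidualTraces hattach hΔ ι₀ hE θ' hθ'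
  have hNpf : N.primeFactors = M.primeFactors \ T := by
    refine Finset.Subset.antisymm (fun q hq => ?_) (fun q hq => ?_)
    · obtain ⟨hqP, hqN, -⟩ := Nat.mem_primeFactors.mp hq
      rcases hNpr q hqP hqN with h | ⟨-, h⟩
      · simpa only [Finset.union_empty] using h
      · exact absurd rfl h
    · refine Nat.mem_primeFactors.mpr ⟨(hSmin q hq).1, dvd_level_of_not_isUnramifiedAt hattach hΔ hp2
        hirr (NeZero.ne N) hresN (hSmin q hq).1 (hSmin q hq).2.1 fun h => ?_, NeZero.ne N⟩
      exact D.ramified q (hSmin q hq).1 (hSmin q hq).2.2.1 (hSmin q hq).2.2.2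
        ((curveResidualRepExt_isUnramifiedAt_iff W hΔ p ι₀ q).mpr h)
  rw [div_prod_eq_prod_sdiff hsq hTsub, ← hNpf, Nat.prod_primeFactors_of_squarefree hNsq]
  exact hresN

end FermatLib.MLT.Odd

end
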