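import Fermat.Agent.MLT.Odd.PatchBranchAlg
import Fermat.Agent.MLT.Odd.PatchBuild
import Fermat.Agent.MLT.SupportLift

/-!
# The branches at the primes of the patched supports

At every level the framed coordinates at `T` satisfy the unipotent relations on the standard module
and the principal series relations on the twisted one; `z l` at `F` and `z e` at `p` kill the
standard module. Passing to the limit gives the branches.
-/

set_option autoImplicit false

noncomputable section

namespace FermatLib.MLT.Odd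

open IsLocalRing Filter FermatLib.Galois.Deform

variable {O : Type} [CommRing O] [IsDomain O] [IsDiscreteValuationRing O]
  [IsAdicComplete (maximalIdeal O) O] [Finite (ResidueField O)]
  {p : ℕ} {ρbar : ResidualGaloisRep (ResidueField O)} {S : OddPrimes p ρbar}
  {d : OddVariant → ℕ} {tp : S.TamePairs} {ζ : ℕ → O} {L₀ : OddLevel S ∅ 0 1 d tp ζ} {r g : ℕ}
  {F : OddFamily L₀ r g} (P : OddPatch F)

namespace OddPatch

/-- A limit of elements killing the levels is in the annihilator. -/
theorem mem_annih_of_isULim {v : OddVariant} {c : ℕ → CoordRing S g} {z : CoordRing S g}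
    (hc : IsULim c z) (h : ∀ n, ∀ x : ((P.sys v).level n).N, c n • x = 0) : z ∈ (P.sys v).annih :=
  RingHom.mem_ker.mpr (Matrix.ext fun i j => (Submodule.mem_bot _).mp
    ((P.sys v).rho_mem hc (fun k => Eventually.of_forall fun n x => by rw [h n x]; exact zero_mem _)
      i j))

/-- An element killing every level through constants. -/
theorem mem_annih_of_eval_mem {v : OddVariant} {z : CoordRing S g}
    (h : ∀ n, P.eval n z ∈
      (Module.annihilator (F.level n).R ((F.level n).M v)).map MvPowerSeries.C) :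
    z ∈ (P.sys v).annih :=
  P.mem_annih_of_isULim (IsULim.const z) fun n x => P.smul_eq_zero v n z x (h n)

theorem eval_natCast (n k : ℕ) :
    P.eval n (k : CoordRing S g) = (k : MvPowerSeries (FrameVar S.T) (F.level n).R) :=
  map_natCast (P.eval n) k

theorem eval_nCoord (n : ℕ) (q : S.T) (j : Fin 3) :
    P.eval n (nCoord S g q j) = tracelessCoord (frameMat q
      (matOf (F.level n).ρ (P.basis n) (tp.atT q).gen)) j := by
  rw [nCoord, P.coord_T, framedCoord, Fin.addCases_left]
  rfl

theorem eval_pCoord (n : ℕ) (q : S.T) (j : Fin 3) :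
    P.eval n (pCoord S g q j) = tracelessCoord (frameMat q
      (matOf (F.level n).ρ (P.basis n) (tp.atT q).frob)) j := by
  rw [pCoord, P.coord_T, framedCoord, Fin.addCases_right]
  rfl

end OddPatch

variable [hp : Fact p.Prime] (hp2 : p ≠ 2) (hpO : (p : O) ∈ maximalIdeal O)

include hp2 hpO in
omit [IsAdicComplete (maximalIdeal O) O] [Finite (ResidueField O)] in
theorem isUnit_two_of_odd : IsUnit (2 : O) := by
  obtain ⟨m, hm⟩ := hp.out.odd_of_ne_two hp2
  by_contra h
  have h2 : (2 : O) ∈ maximalIdeal O := h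
  refine (Ideal.ne_top_iff_one _).mp (maximalIdeal.isMaximal O).ne_top ?_
  have := sub_mem hpO (Ideal.mul_mem_right (m : O) _ h2)
  rwa [hm, show ((2 * m + 1 : ℕ) : O) - 2 * (m : O) = 1 by push_cast; ring] at this

include hp2 hpO in
omit [IsAdicComplete (maximalIdeal O) O] [Finite (ResidueField O)] in
theorem isUnit_two_coordRing : IsUnit (2 : CoordRing S g) := by
  have := (isUnit_two_of_odd hp2 hpO).map (MvPowerSeries.C : O →+* CoordRing S g)
  rwa [map_ofNat] at this

section Frame

variable {R A : Type} [CommRing R] [CommRing A] {T : Finset ℕ}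
  (f : MvPowerSeries (FrameVar T) R →+* A)

/-- The relations of a unipotent frame matrix. -/
theorem frame_unipotent_relations (h2 : IsUnit (2 : R)) (q : T) {G Φ : Matrix (Fin 2) (Fin 2) R}
    (hdet : G.det = 1) (htame : Φ * G = G ^ (q : ℕ) * Φ)
    (htr : f (MvPowerSeries.C (G.trace - 2)) = 0) :
    LocQ.quad (f (tracelessCoord (frameMat q G) 0)) (f (tracelessCoord (frameMat q G) 1))
        (f (tracelessCoord (frameMat q G) 2)) = 0 ∧
      ∀ i, LocQ.stEntry ((q : ℕ) : A) (f (frameScalar T Φ))
        (f (tracelessCoord (frameMat q Φ) 0)) (f (tracelessCoord (frameMat q Φ) 1))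
        (f (tracelessCoord (frameMat q Φ) 2)) (f (tracelessCoord (frameMat q G) 0))
        (f (tracelessCoord (frameMat q G) 1)) (f (tracelessCoord (frameMat q G) 2)) i = 0 := by
  have h2f : IsUnit (2 : A) := by
    simpa only [RingHom.coe_comp, Function.comp_apply, map_ofNat] using
      h2.map (f.comp MvPowerSeries.C)
  have htame' := map_tame_frameMat f q htame
  have hdet' := map_det_frameMat f q G
  have htr' := map_trace_frameMat f q G
  rw [map_frameMat f h2, map_frameMat f h2] at htame'
  rw [map_frameMat f h2, hdet, map_one, map_one] at hdet'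
  rw [map_frameMat f h2] at htr'
  rw [map_sub, map_sub, map_ofNat, map_ofNat, sub_eq_zero] at htr
  exact LocQ.unipotent_relations h2f hdet' (htr'.trans htr) htame'

/-- The relations of a frame matrix with eigenvalues `z`, `z'`. -/
theorem frame_theta_relations {O : Type} [CommRing O] [IsDomain O] [Algebra O A]
    (h2 : IsUnit (2 : R)) (q : T) {z z' : O} (hmul : z * z' = 1) (hne : z ≠ z')
    (hz : z ^ (q : ℕ) = z) (hz' : z' ^ (q : ℕ) = z') {G Φ : Matrix (Fin 2) (Fin 2) R}
    (hdet : G.det = 1) (htame : Φ * G = G ^ (q : ℕ) * Φ)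
    (htr : f (MvPowerSeries.C G.trace) = algebraMap O A (z + z')) :
    (∀ i k, f (tracelessCoord (frameMat q G) i) * f (tracelessCoord (frameMat q Φ) k) -
        f (tracelessCoord (frameMat q G) k) * f (tracelessCoord (frameMat q Φ) i) = 0) ∧
      4 * LocQ.quad (f (tracelessCoord (frameMat q G) 0)) (f (tracelessCoord (frameMat q G) 1))
        (f (tracelessCoord (frameMat q G) 2)) = algebraMap O A ((z - z') ^ 2) := by
  have h2f : IsUnit (2 : A) := by
    simpa only [RingHom.coe_comp, Function.comp_apply, map_ofNat] using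
      h2.map (f.comp MvPowerSeries.C)
  have htame' := map_tame_frameMat f q htame
  have hdet' := map_det_frameMat f q G
  have htr' := map_trace_frameMat f q G
  rw [map_frameMat f h2, map_frameMat f h2] at htame'
  rw [map_frameMat f h2, hdet, map_one, map_one] at hdet'
  rw [map_frameMat f h2] at htr'
  obtain ⟨⟨m01, m02, m12⟩, hquad⟩ := LocQ.theta_relations h2f hmul hne hz hz' hdet'
    (htr'.trans htr) htame'
  refine ⟨fun i k => ?_, hquad⟩
  fin_cases i <;> fin_cases k <;> dsimp only [Fin.zero_eta, Fin.mk_one, Fin.reduceFinMk]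
  · ring
  · linear_combination m01
  · linear_combination m02
  · linear_combination -m01
  · ring
  · linear_combination m12
  · linear_combination -m02
  · linear_combination -m12
  · ring

end Frame

namespace OddPatch

variable (hdet : (GaloisRepAdic.ofResidualGaloisRep ρbar).DetIsCyclotomic p)

include hp2 hpO hdet in
/-- The facts at one level at a prime of `T`. -/
theorem level_atT (n : ℕ) (q : S.T) :
    ∃ h : CoordRing S g, h - MvPowerSeries.C (frobSign tp q) ∈ maximalIdeal (CoordRing S g) ∧
      (∀ v, ∀ x : ((P.sys v).level n).N,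
        (h ^ 2 - qForm (pCoord S g q) - (q.1 : CoordRing S g)) • x = 0) ∧
      (∀ x : ((P.sys .std).level n).N, qForm (nCoord S g q) • x = 0) ∧
      ∀ i, ∀ x : ((P.sys .std).level n).N, LocQ.stEntry (q.1 : CoordRing S g) h (pCoord S g q 0)
        (pCoord S g q 1) (pCoord S g q 2) (nCoord S g q 0) (nCoord S g q 1) (nCoord S g q 2) i •
          x = 0 := by
  set L := F.level n
  have : IsNoetherianRing L.R := IsNoetherianRing.of_finite O L.R
  have : Finite (ResidueField L.R) := HeckeRep.finite_residueField_of_finite (𝒪 := O)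
  obtain ⟨hdG, hdΦ, htame, hG, hΦ⟩ := matOf_atT hp.out hpO hdet L.residue_surjective L.isLiftOf
    L.lift.det (P.basis n) tp q
  set G := matOf L.ρ (P.basis n) (tp.atT q).gen
  set Φ := matOf L.ρ (P.basis n) (tp.atT q).frob
  have h2O := isUnit_two_of_odd hp2 hpO
  have h2 : IsUnit (2 : L.R) := by simpa only [map_ofNat] using h2O.map (algebraMap O L.R)
  obtain ⟨h, hh⟩ := P.eval_surjective n (frameScalar S.T Φ)
  have hsign : Ring.inverse 2 * Φ.trace - algebraMap O L.R (frobSign tp q) ∈ maximalIdeal L.R := by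
    have h0 := add_mem (hΦ 0 0) (hΦ 1 1)
    simp only [Matrix.sub_apply, Matrix.smul_apply, Matrix.one_apply_eq, smul_eq_mul, mul_one] at h0
    have := Ideal.mul_mem_left _ (Ring.inverse 2) h0
    convert this using 1
    rw [Matrix.trace_fin_two]
    linear_combination (algebraMap O L.R (frobSign tp q)) * Ring.inverse_mul_cancel _ h2
  refine ⟨h, ?_, fun v x => P.smul_eq_zero v n _ x ?_, fun x => P.smul_eq_zero .std n _ x ?_,
    fun i x => P.smul_eq_zero .std n _ x ?_⟩
  · intro hu
    have := hu.map (P.eval n)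
    rw [map_sub, hh, P.eval_algebraMap, ← map_sub, MvPowerSeries.isUnit_iff_constantCoeff,
      MvPowerSeries.constantCoeff_C] at this
    exact hsign this
  · have h0 : P.eval n (h ^ 2 - qForm (pCoord S g q) - (q.1 : CoordRing S g)) = 0 := by
      rw [map_sub, map_sub, map_pow, hh, map_qForm, P.eval_natCast, P.eval_pCoord, P.eval_pCoord,
        P.eval_pCoord]
      have h1 := sq_sub_quad_frameMat (RingHom.id (MvPowerSeries (FrameVar S.T) L.R)) h2 q hdΦ
      simp only [RingHom.id_apply] at h1
      exact h1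
    rw [h0]
    exact zero_mem _
  all_goals
    have hrel := frame_unipotent_relations
      (Ideal.Quotient.mk ((Module.annihilator L.R (L.M .std)).map MvPowerSeries.C)) h2 q hdG htame
      (Ideal.Quotient.eq_zero_iff_mem.mpr (Ideal.mem_map_of_mem _ (Module.mem_annihilator.mpr (by
        have : G.trace = L.ρ.trace (tp.atT q).gen :=
          (LinearMap.trace_eq_matrix_trace L.R (P.basis n) _).symm
        rw [this]
        exact L.std_T q))))
  · rw [← Ideal.Quotient.eq_zero_iff_mem, map_qForm, P.eval_nCoord, P.eval_nCoord, P.eval_nCoord]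
    rw [LocQ.quad, map_add, map_pow, map_mul]
    exact hrel.1
  · rw [← Ideal.Quotient.eq_zero_iff_mem, map_stEntry, map_stEntry, hh, P.eval_natCast,
      map_natCast, P.eval_nCoord, P.eval_nCoord, P.eval_nCoord, P.eval_pCoord, P.eval_pCoord,
      P.eval_pCoord]
    exact hrel.2 i

include hp2 hpO hdet in
/-- `Q(N) = 0` on the standard module. -/
theorem qForm_n_mem_annih_std (q : S.T) : qForm (nCoord S g q) ∈ (P.sys .std).annih := by
  choose h _ _ hq _ using fun n => P.level_atT hp2 hpO hdet n q
  exact P.mem_annih_of_isULim (IsULim.const _) hq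

include hp2 hpO hdet in
/-- The scalar part of Frobenius in the limit. -/
theorem exists_frobScalar (q : S.T) :
    ∃ h : CoordRing S g, h - MvPowerSeries.C (frobSign tp q) ∈ maximalIdeal (CoordRing S g) ∧
      (∀ v, h ^ 2 - qForm (pCoord S g q) - (q.1 : CoordRing S g) ∈ (P.sys v).annih) ∧
      ∀ i, LocQ.stEntry (q.1 : CoordRing S g) h (pCoord S g q 0) (pCoord S g q 1) (pCoord S g q 2)
        (nCoord S g q 0) (nCoord S g q 1) (nCoord S g q 2) i ∈ (P.sys .std).annih := by
  choose c hm hd _ hst using fun n => P.level_atT hp2 hpO hdet n q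
  refine ⟨ulim c, ?_, fun v => ?_, fun i => ?_⟩
  · have hsub : IsULim (fun n => c n - MvPowerSeries.C (frobSign tp q))
        (ulim c - MvPowerSeries.C (frobSign tp q)) := by
      simpa [sub_eq_add_neg] using (isULim_ulim c).add (IsULim.const (-MvPowerSeries.C (frobSign tp q)))
    exact hsub.mem_of_eventually fun k => Eventually.of_forall fun n => Ideal.mem_sup_left (hm n)
  · refine P.mem_annih_of_isULim (c := fun n => c n ^ 2 - qForm (pCoord S g q) -
      (q.1 : CoordRing S g)) ?_ fun n => hd n v
    simpa [pow_two, sub_eq_add_neg] using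
      (((isULim_ulim c).mul (isULim_ulim c)).add (IsULim.const (-qForm (pCoord S g q)))).add
        (IsULim.const (-(q.1 : CoordRing S g)))
  · refine P.mem_annih_of_isULim ?_ fun n => hst n i
    rw [stEntry_affine]
    refine ((IsULim.const _).add ((isULim_ulim c).mul (IsULim.const _))).congr fun k =>
      Eventually.of_forall fun n => ?_
    rw [← stEntry_affine, sub_self]
    exact zero_mem _

omit hp in
/-- `z l` kills the standard module at the primes of `F`. -/
theorem zVarF_mul_lVarF_mem_annih (q : S.F) :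
    zVarF S g q * lVarF S g q ∈ (P.sys .std).annih := by
  refine P.mem_annih_of_eval_mem fun n => ?_
  obtain ⟨l, hl, hvan⟩ := P.coord_l n q
  rw [map_mul, zVarF, lVarF, P.coord_z, hl, ← map_mul]
  refine Ideal.mem_map_of_mem _ (Module.mem_annihilator.mpr fun m => ?_)
  obtain ⟨v, hv⟩ := (F.level n).coker_F q m
  rw [mul_comm, mul_smul, ← hv, ← map_smul,
    show l • v = 0 from funext fun a => (F.level n).old_F q q.2 l hvan (v a), map_zero]

omit hp in
/-- `z e` kills the standard module at `p`. -/
theorem zVarP_mul_eVarP_mem_annih (i : Fin S.pIdx) :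
    zVarP S g i * eVarP S g i ∈ (P.sys .std).annih := by
  have hm : S.pCase = PCase.mixed := by
    by_contra h
    have := i.pos
    simp [OddPrimes.pIdx, h] at this
  refine P.mem_annih_of_eval_mem fun n => ?_
  obtain ⟨z, hz, hzv⟩ := P.coord_pz n i
  obtain ⟨e, he, hev⟩ := P.coord_pe n i
  rw [map_mul, zVarP, eVarP, hz, he, ← map_mul]
  refine Ideal.mem_map_of_mem _ (Module.mem_annihilator.mpr fun m => ?_)
  rw [(F.level n).branch_p hm z e hzv hev, zero_smul]

variable [CharZero O] {ϖ : O} (hϖ : maximalIdeal O = Ideal.span {ϖ})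

include hp2 hpO hdet hϖ in
/-- **The branches of the whole space** at the primes of the standard support away from `ϖ`. -/
theorem exists_branchIdeal₁_le {Q₁ : Ideal (CoordRing S g)} [Q₁.IsPrime]
    (hann : (P.sys .std).annih ≤ Q₁) (hϖQ : MvPowerSeries.C ϖ ∉ Q₁) (j : BranchIdx S) :
    ∃ b, branchIdeal₁ tp j b ≤ Q₁ := by
  rcases j with _ | q | q | i
  · exact ⟨true, bot_le⟩
  · obtain ⟨h, hmh, hd, hst⟩ := P.exists_frobScalar hp2 hpO hdet q
    have hqm := natCast_sub_one_mem hpO (S.prime_of_mem q (by simp)) (S.one_mod_T q q.2)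
    have hCmem : ∀ c ∈ maximalIdeal O, MvPowerSeries.C c ∈ maximalIdeal (CoordRing S g) :=
      fun c hc => by simpa [MvPowerSeries.isUnit_iff_constantCoeff] using hc
    have hunit : ∀ x : CoordRing S g, IsUnit x → x ∉ Q₁ := fun x hx hm =>
      ‹Q₁.IsPrime›.ne_top (Ideal.eq_top_of_isUnit_mem _ hm hx)
    have hirr : Irreducible ϖ := (IsDiscreteValuationRing.irreducible_iff_uniformizer ϖ).mpr hϖ
    have hq1 : (q.1 : CoordRing S g) - 1 ∉ Q₁ := fun hmem => by
      have hne : (q.1 : O) - 1 ≠ 0 := sub_ne_zero.mpr fun h => by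
        have : q.1 = 1 := Nat.cast_eq_one.mp h
        exact (S.prime_of_mem q (by simp)).ne_one this
      obtain ⟨m, u, hu⟩ := IsDiscreteValuationRing.eq_unit_mul_pow_irreducible hne hirr
      rw [← map_natCast (MvPowerSeries.C : O →+* CoordRing S g),
        ← map_one (MvPowerSeries.C : O →+* CoordRing S g), ← map_sub, hu, map_mul,
        map_pow] at hmem
      exact hϖQ (‹Q₁.IsPrime›.mem_of_pow_mem m
        ((‹Q₁.IsPrime›.mem_or_mem hmem).resolve_left (hunit _ (u.isUnit.map _))))
    have hBq : ((q.1 : CoordRing S g) - 1) ∈ maximalIdeal (CoordRing S g) := by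
      simpa using hCmem _ hqm
    have h2 := isUnit_two_coordRing (S := S) (g := g) hp2 hpO
    have hclose : ∀ x : CoordRing S g, x - 1 ∈ maximalIdeal _ → IsUnit x := fun x hx => by
      by_contra hx'
      exact (Ideal.ne_top_iff_one (maximalIdeal (CoordRing S g))).mp (maximalIdeal.isMaximal _).ne_top
        (by simpa using sub_mem (show x ∈ maximalIdeal (CoordRing S g) from hx') hx)
    have hqu : IsUnit (q.1 : CoordRing S g) := hclose _ hBq
    rcases LocQ.mem_or_stIdeal_le (P := Q₁) (hunit _ h2) (hunit _ hqu) hq1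
      (hann (hd .std)) (hann (P.qForm_n_mem_annih_std hp2 hpO hdet q))
      (fun i => hann (hst i)) with ⟨a0, a1, a2⟩ | hle
    · refine ⟨true, Ideal.span_le.mpr ?_⟩
      rintro _ ⟨k, rfl⟩
      fin_cases k <;> assumption
    refine ⟨false, Ideal.span_le.mpr ?_⟩
    rintro _ ⟨k, rfl⟩
    set s : CoordRing S g := MvPowerSeries.C (frobSign tp q)
    set H : CoordRing S g := MvPowerSeries.C (Ring.inverse 2)
    have hs : s ^ 2 = 1 := by rw [← map_pow, frobSign_sq, map_one]
    have hH : 2 * H = 1 := by
      rw [← map_ofNat MvPowerSeries.C 2, ← map_mul,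
        Ring.mul_inverse_cancel _ (isUnit_two_of_odd hp2 hpO), map_one]
    have hplus : 2 * h + s * ((q.1 : CoordRing S g) + 1) ∉ Q₁ := by
      refine hunit _ ?_
      have h4 : IsUnit (4 * s) := by
        refine IsUnit.mul ?_ ⟨⟨s, s, by rw [← pow_two, hs], by rw [← pow_two, hs]⟩, rfl⟩
        rw [show (4 : CoordRing S g) = 2 * 2 by norm_num]
        exact h2.mul h2
      by_contra hx
      refine (mem_maximalIdeal (4 * s)).mp ?_ h4
      have := sub_mem (show 2 * h + s * ((q.1 : CoordRing S g) + 1) ∈ maximalIdeal _ from hx)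
        (add_mem (Ideal.mul_mem_left _ 2 hmh) (Ideal.mul_mem_left _ s hBq))
      convert this using 1
      ring
    have hminus : 2 * h - s * ((q.1 : CoordRing S g) + 1) ∈ Q₁ := by
      refine (‹Q₁.IsPrime›.mem_or_mem ?_).resolve_right hplus
      have := add_mem (Ideal.mul_mem_left _ 4 (hann (hd .std))) ((LocQ.stIdeal_le_iff.mp hle).2.2)
      convert this using 1
      rw [qForm, LocQ.quad]
      linear_combination -((q.1 : CoordRing S g) + 1) ^ 2 * hs
    refine stLiftGen_mem_of_stEntry (q := (q.1 : CoordRing S g)) (h := h) (u := s * H) hq1 ?_ ?_ ?_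
      ?_ hle k
    · refine hunit _ ?_
      by_contra hx
      refine (mem_maximalIdeal (2 : CoordRing S g)).mp ?_ h2
      have := sub_mem (show (q.1 : CoordRing S g) + 1 ∈ maximalIdeal _ from hx) hBq
      convert this using 1
      ring
    · have := Ideal.mul_mem_left _ H hminus
      convert this using 1
      linear_combination -h * hH
    · rw [frobShift, map_mul, map_mul, map_sub, map_natCast, map_one, sub_self]
      exact zero_mem _
    · have : 4 * (s * H) ^ 2 - 1 = 0 := by
        linear_combination (2 * H) ^ 2 * hs + (2 * H + 1) * hH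
      rw [this]
      exact zero_mem _
  · rcases ‹Q₁.IsPrime›.mem_or_mem (hann (P.zVarF_mul_lVarF_mem_annih q)) with h | h
    · exact ⟨false, (Ideal.span_singleton_le_iff_mem _).mpr h⟩
    · exact ⟨true, (Ideal.span_singleton_le_iff_mem _).mpr h⟩
  · rcases ‹Q₁.IsPrime›.mem_or_mem (hann (P.zVarP_mul_eVarP_mem_annih i)) with h | h
    · exact ⟨false, (Ideal.span_singleton_le_iff_mem _).mpr h⟩
    · exact ⟨true, (Ideal.span_singleton_le_iff_mem _).mpr h⟩

include hp2 hpO hdet hϖ in
omit [CharZero O] in
/-- **The branches of the special fibre.** -/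
theorem exists_branch_le {Q : Ideal (CoordRing S g)} [Q.IsPrime]
    (hann : (P.sys .std).annih ≤ Q) (hϖQ : MvPowerSeries.C ϖ ∈ Q) (j : BranchIdx S) :
    ∃ b, (oddBranches S g ϖ hϖ).br j b ≤ Q := by
  rcases j with _ | q | q | i
  · exact ⟨true, (Ideal.span_singleton_le_iff_mem _).mpr hϖQ⟩
  · obtain ⟨h, -, -, hst⟩ := P.exists_frobScalar hp2 hpO hdet q
    have hqm := natCast_sub_one_mem hpO (S.prime_of_mem q (by simp)) (S.one_mod_T q q.2)
    have hqQ : (q.1 : CoordRing S g) - 1 ∈ Q := by
      rw [hϖ] at hqm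
      obtain ⟨c, hc⟩ := Ideal.mem_span_singleton.mp hqm
      rw [← map_natCast (MvPowerSeries.C : O →+* CoordRing S g),
        ← map_one (MvPowerSeries.C : O →+* CoordRing S g), ← map_sub, hc, map_mul]
      exact Ideal.mul_mem_right _ _ hϖQ
    obtain ⟨m01, m02, m12⟩ := LocQ.minors_mem_of_stEntry (I := Q)
      (isUnit_two_coordRing hp2 hpO) hqQ fun k => hann (hst k)
    have hmin : ∀ i k, nCoord S g q i * pCoord S g q k - nCoord S g q k * pCoord S g q i ∈ Q := by
      intro i k
      fin_cases i <;> fin_cases k <;>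
        first
          | (rw [sub_self]; exact zero_mem _)
          | exact m01
          | exact m02
          | exact m12
          | (rw [← neg_sub]; exact neg_mem m01)
          | (rw [← neg_sub]; exact neg_mem m02)
          | (rw [← neg_sub]; exact neg_mem m12)
    exact (quadUnr_le_or_quadSt_le (hann (P.qForm_n_mem_annih_std hp2 hpO hdet q)) hmin).elim
      (fun h => ⟨true, h⟩) fun h => ⟨false, h⟩
  · rcases ‹Q.IsPrime›.mem_or_mem (hann (P.zVarF_mul_lVarF_mem_annih q)) with h | h
    · exact ⟨false, (Ideal.span_singleton_le_iff_mem _).mpr h⟩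
    · exact ⟨true, (Ideal.span_singleton_le_iff_mem _).mpr h⟩
  · rcases ‹Q.IsPrime›.mem_or_mem (hann (P.zVarP_mul_eVarP_mem_annih i)) with h | h
    · exact ⟨false, (Ideal.span_singleton_le_iff_mem _).mpr h⟩
    · exact ⟨true, (Ideal.span_singleton_le_iff_mem _).mpr h⟩

omit [CharZero O] in
include hp2 hpO hdet in
/-- The twisted module: commuting matrices and `4 Q(N) = (ζ - ζ⁻¹) ^ 2`. -/
theorem chi_relations (hζ : ∀ q ∈ S.T, ζ q ^ p = 1 ∧ ζ q ≠ 1) (q : S.T) :
    (∀ i k, nCoord S g q i * pCoord S g q k - nCoord S g q k * pCoord S g q i ∈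
      (P.sys .chi).annih) ∧
    4 * qForm (nCoord S g q) - MvPowerSeries.C ((ζ q - Ring.inverse (ζ q)) ^ 2) ∈
      (P.sys .chi).annih := by
  obtain ⟨hz, hz1⟩ := hζ q q.2
  have hzu : IsUnit (ζ q) := IsUnit.of_pow_eq_one hz hp.out.ne_zero
  set z := ζ q
  set z' := Ring.inverse z
  have hmul : z * z' = 1 := Ring.mul_inverse_cancel _ hzu
  have hz' : z' ^ p = 1 := by
    calc z' ^ p = (z * z') ^ p := by rw [mul_pow, hz, one_mul]
      _ = 1 := by rw [hmul, one_pow]
  have hne : z ≠ z' := fun he => by
    obtain ⟨m, hm⟩ := hp.out.odd_of_ne_two hp2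
    refine hz1 ?_
    have hsq : z ^ 2 = 1 := by rw [pow_two]; nth_rw 2 [he]; exact hmul
    rwa [hm, pow_succ, pow_mul, hsq, one_pow, one_mul] at hz
  have hqp : ∀ x : O, x ^ p = 1 → x ^ q.1 = x := fun x hx => by
    obtain ⟨m, hm⟩ := (Nat.modEq_iff_dvd' (S.prime_of_mem q (by simp)).one_le).mp
      (S.one_mod_T q q.2).symm
    have : q.1 = p * m + 1 := by have := (S.prime_of_mem q (by simp)).one_le; omega
    rw [this, pow_succ, pow_mul, hx, one_pow, one_mul]
  have key : ∀ n, (∀ i k, P.eval n (nCoord S g q i * pCoord S g q k -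
      nCoord S g q k * pCoord S g q i) ∈
        (Module.annihilator (F.level n).R ((F.level n).M .chi)).map MvPowerSeries.C) ∧
      P.eval n (4 * qForm (nCoord S g q) - MvPowerSeries.C ((z - z') ^ 2)) ∈
        (Module.annihilator (F.level n).R ((F.level n).M .chi)).map MvPowerSeries.C := by
    intro n
    set L := F.level n
    have : IsNoetherianRing L.R := IsNoetherianRing.of_finite O L.R
    have : Finite (ResidueField L.R) := HeckeRep.finite_residueField_of_finite (𝒪 := O)
    obtain ⟨hdG, -, htame, -, -⟩ := matOf_atT hp.out hpO hdet L.residue_surjective L.isLiftOf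
      L.lift.det (P.basis n) tp q
    set G := matOf L.ρ (P.basis n) (tp.atT q).gen
    set Φ := matOf L.ρ (P.basis n) (tp.atT q).frob
    have h2 : IsUnit (2 : L.R) := by
      simpa only [map_ofNat] using (isUnit_two_of_odd hp2 hpO).map (algebraMap O L.R)
    set I : Ideal (MvPowerSeries (FrameVar S.T) L.R) :=
      (Module.annihilator L.R (L.M .chi)).map MvPowerSeries.C
    let f := Ideal.Quotient.mk I
    have halg : ∀ c : O, algebraMap O (MvPowerSeries (FrameVar S.T) L.R ⧸ I) c =
        f (MvPowerSeries.C (algebraMap O L.R c)) := fun c => by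
      rw [← Ideal.Quotient.mk_algebraMap, MvPowerSeries.algebraMap_apply]
    have htr : G.trace - algebraMap O L.R (z + z') ∈ Module.annihilator L.R (L.M .chi) :=
      Module.mem_annihilator.mpr (by
        have : G.trace = L.ρ.trace (tp.atT q).gen :=
          (LinearMap.trace_eq_matrix_trace L.R (P.basis n) _).symm
        rw [this]
        exact L.chi_T q)
    have hrel := frame_theta_relations f h2 q hmul hne (hqp z hz) (hqp z' hz') hdG htame (by
      rw [halg]
      refine Ideal.Quotient.eq.mpr ?_
      rw [← map_sub]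
      exact Ideal.mem_map_of_mem _ htr)
    refine ⟨fun i k => ?_, ?_⟩
    · rw [← Ideal.Quotient.eq_zero_iff_mem]
      simp only [map_sub, map_mul, P.eval_nCoord, P.eval_pCoord]
      exact hrel.1 i k
    · rw [← Ideal.Quotient.eq_zero_iff_mem, map_sub, map_sub, P.eval_algebraMap, ← halg]
      simp only [map_mul, map_ofNat, map_qForm, P.eval_nCoord]
      rw [sub_eq_zero, ← hrel.2]
      simp only [LocQ.quad, map_add, map_mul, map_pow]
      rfl
  exact ⟨fun i k => P.mem_annih_of_eval_mem fun n => (key n).1 i k,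
    P.mem_annih_of_eval_mem fun n => (key n).2⟩

include hp2 hpO hdet hϖ in
omit [CharZero O] in
/-- `Q(N)` is a unit times a power of `ϖ` on the twisted module. -/
theorem exists_qForm_n_sub_mem_annih_chi (hζ : ∀ q ∈ S.T, ζ q ^ p = 1 ∧ ζ q ≠ 1) (q : S.T) :
    ∃ (e : ℕ) (u : CoordRing S g), IsUnit u ∧
      qForm (nCoord S g q) - MvPowerSeries.C ϖ ^ e * u ∈ (P.sys .chi).annih := by
  obtain ⟨hz, hz1⟩ := hζ q q.2
  have h2 := isUnit_two_of_odd hp2 hpO
  have hne : (Ring.inverse (2 : O)) ^ 2 * (ζ q - Ring.inverse (ζ q)) ^ 2 ≠ 0 := by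
    refine mul_ne_zero (pow_ne_zero 2 (IsUnit.ne_zero h2.ringInverse)) (pow_ne_zero 2 ?_)
    refine sub_ne_zero.mpr fun he => ?_
    obtain ⟨m, hm⟩ := hp.out.odd_of_ne_two hp2
    refine hz1 ?_
    have hsq : ζ q ^ 2 = 1 := by
      rw [pow_two]
      nth_rw 2 [he]
      exact Ring.mul_inverse_cancel _ (IsUnit.of_pow_eq_one hz hp.out.ne_zero)
    have hz2 : ζ q ^ (2 * m + 1) = 1 := hm ▸ hz
    rwa [pow_succ, pow_mul, hsq, one_pow, one_mul] at hz2
  obtain ⟨e, u, hu⟩ := IsDiscreteValuationRing.eq_unit_mul_pow_irreducible hne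
    ((IsDiscreteValuationRing.irreducible_iff_uniformizer ϖ).mpr hϖ)
  refine ⟨e, MvPowerSeries.C (u : O), u.isUnit.map _, ?_⟩
  have := Ideal.mul_mem_left _ (MvPowerSeries.C (Ring.inverse (2 : O) ^ 2) : CoordRing S g)
    (P.chi_relations hp2 hpO hdet hζ q).2
  rw [mul_sub, ← map_mul, hu, map_mul MvPowerSeries.C (u : O), map_pow] at this
  convert this using 1
  rw [map_pow, ← map_pow MvPowerSeries.C ϖ, map_pow MvPowerSeries.C ϖ]
  have hH : (MvPowerSeries.C (Ring.inverse (2 : O)) : CoordRing S g) * 2 = 1 := by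
    rw [← map_ofNat MvPowerSeries.C 2, ← map_mul, Ring.inverse_mul_cancel _ h2, map_one]
  linear_combination -qForm (nCoord S g q) *
    (MvPowerSeries.C (Ring.inverse (2 : O)) * 2 + 1) * hH

end OddPatch

end FermatLib.MLT.Odd

end
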