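import Fermat.Agent.MLT.Odd.PatchPattern
import Fermat.Agent.MLT.Odd.PatchBranchFacts

/-!
# Components of the patched module with a prescribed pattern
-/

set_option autoImplicit false

noncomputable section

namespace FermatLib.MLT.Odd

open IsLocalRing

variable {O : Type} [CommRing O] [IsDomain O] [IsDiscreteValuationRing O]
  [IsAdicComplete (maximalIdeal O) O] [Finite (ResidueField O)] [CharZero O]
  {p : ℕ} [Fact p.Prime] {ρbar : ResidualGaloisRep (ResidueField O)}
  {S : OddPrimes p ρbar} {d : OddVariant → ℕ} {tp : S.TamePairs} {ζ : ℕ → O}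
  {L₀ : OddLevel S ∅ 0 1 d tp ζ} {r g : ℕ} {F : OddFamily L₀ r g}

namespace OddPatch

variable (P : OddPatch F) {ϖ : O}

/-- **A component of the patched `std` module with any wanted pattern.** -/
theorem exists_patched_component_of_pattern (hp2 : p ≠ 2) (hpO : (p : O) ∈ maximalIdeal O)
    (hdet : (GaloisRepAdic.ofResidualGaloisRep ρbar).DetIsCyclotomic p)
    (hϖ : maximalIdeal O = Ideal.span {ϖ}) (hζ : ∀ q ∈ S.T, ζ q ^ p = 1 ∧ ζ q ≠ 1)
    (hcount : g + S.F.card + S.pIdx = r + S.T.card) (hd : 0 < d .std)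
    (hdp : S.pCase = PCase.mixed → S.kap p * d (.old p) < d .std)
    (τ : BranchIdx S → Bool) (hτF : ∀ q : S.F, τ (some (Sum.inr (Sum.inl q))) = false)
    (hτp : ∀ i : Fin S.pIdx, τ (some (Sum.inr (Sum.inr i))) = false) :
    ∃ Q₁ ∈ associatedPrimes (CoordRing S g) (P.sys .std).Patched,
      (P.sys .std).annih ≤ Q₁ ∧ MvPowerSeries.C ϖ ∉ Q₁ ∧
      ringKrullDim (CoordRing S g ⧸ Q₁) = ringKrullDim (DiamondFrameRing O r S.T) ∧
      ∀ j, branchIdeal₁ tp j (τ j) ≤ Q₁ := by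
  have := isDomain_diamondFrameFibre hϖ r S.T
  have hdimS := ringKrullDim_diamondFrameFibre_eq_dim (S := S) (g := g) hϖ hcount
  have hϖ0 : ϖ ≠ 0 := fun h =>
    IsDiscreteValuationRing.not_isField O ((isField_iff_maximalIdeal_eq).mpr (by simp [hϖ, h]))
  have hC : (MvPowerSeries.C ϖ : DiamondFrameRing O r S.T) ≠ 0 := fun h => hϖ0 (by
    simpa using congrArg MvPowerSeries.constantCoeff h)
  have hphi : (P.sys .std).phi (MvPowerSeries.C ϖ) = MvPowerSeries.C ϖ := P.phi_C _ _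
  obtain ⟨Q, hQ, hτ⟩ := P.exists_component_of_pattern hϖ hϖ0 hdimS (fun Q hQ j => by
      have := hQ.isPrime
      obtain ⟨hann, hmem⟩ := (P.sys .std).annih_le_of_mem_associatedPrimes_fibre _ hQ
      exact P.exists_branch_le hp2 hpO hdet hϖ hann (hphi ▸ hmem) j)
    (fun q => (P.chi_relations hp2 hpO hdet hζ q).1)
    (fun q => P.exists_qForm_n_sub_mem_annih_chi hp2 hpO hdet hϖ hζ q) hd hdp τ hτF hτp
  obtain ⟨Q₁, hQ₁, -, hnot, hdim, hbr⟩ := (P.sys .std).exists_assocPrime_lift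
    (oddBranches S g ϖ hϖ) (MvPowerSeries.C ϖ) (br₁ := branchIdeal₁ tp) hC
    (fun Q₁ hQ₁ hann hnot j => by
      have := hQ₁
      exact P.exists_branchIdeal₁_le hp2 hpO hdet hϖ hann (hphi ▸ hnot) j)
    (fun j b => by rw [hphi]; exact branchIdeal_le_sup hϖ hpO tp j b)
    (fun j b b' h => branchIdeal₁_congr ϖ tp j b b' h) hdimS hQ hτ
  have hann : (P.sys .std).annih ≤ Q₁ := by
    have h := IsAssociatedPrime.annihilator_le hQ₁
    rwa [Submodule.annihilator_top, (P.sys .std).annihilator_patched] at h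
  exact ⟨Q₁, hQ₁, hann, hphi ▸ hnot, hdim, hbr⟩

end OddPatch

end FermatLib.MLT.Odd
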