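import Fermat.Agent.MLT.Hecke.GammaHRing
import Fermat.Agent.MLT.PatchDiamond
import Fermat.Agent.MLT.LocQUniversal

/-!
# Dimensions of `O⟦X⟧⟦Y⟧` and of its special fibre
-/

set_option autoImplicit false

noncomputable section

namespace FermatLib.MLT.Odd

open IsLocalRing MvPowerSeries RingTheory.Sequence

/-- `dim A⟦Y_1..Y_F⟧ = dim A + F`. -/
theorem ringKrullDim_mvPowerSeries_add (A : Type) [CommRing A] [IsLocalRing A] [IsNoetherianRing A]
    (F : ℕ) : ringKrullDim (MvPowerSeries (Fin F) A) = ringKrullDim A + F := by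
  set L := List.ofFn (MvPowerSeries.X : Fin F → MvPowerSeries (Fin F) A)
  have hker : Ideal.ofList L = RingHom.ker (constantCoeff : MvPowerSeries (Fin F) A →+* A) := by
    ext f
    rw [Basic.mem_ofList_X_iff, RingHom.mem_ker]
  have hreg : IsRegular (MvPowerSeries (Fin F) A) L := by
    refine ⟨Basic.isWeaklyRegular_ofFn_X, fun h => ?_⟩
    rw [smul_eq_mul, Ideal.mul_top, hker] at h
    exact (RingHom.ker_ne_top _) h.symm
  rw [← ringKrullDim_add_length_eq_ringKrullDim_of_isRegular _ hreg, List.length_ofFn,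
    ringKrullDim_eq_of_ringEquiv ((Ideal.quotEquivOfEq hker).trans
      (RingHom.quotientKerEquivOfSurjective fun a => ⟨C a, constantCoeff_C a⟩))]

/-- Coefficientwise divisibility. -/
theorem ker_map_eq_span {σ A K : Type} [CommRing A] [CommRing K] (f : A →+* K) (ϖ : A)
    (hf : RingHom.ker f = Ideal.span {ϖ}) :
    RingHom.ker (MvPowerSeries.map f : MvPowerSeries σ A →+* MvPowerSeries σ K) =
      Ideal.span {C ϖ} := by
  ext x
  rw [RingHom.mem_ker, Ideal.mem_span_singleton']
  constructor
  · intro hx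
    have h : ∀ e, ∃ a, a * ϖ = coeff e x := fun e => by
      rw [← Ideal.mem_span_singleton', ← hf, RingHom.mem_ker, ← coeff_map, hx, map_zero]
    choose a ha using h
    refine ⟨(a : MvPowerSeries σ A), MvPowerSeries.ext fun e => ?_⟩
    exact (coeff_mul_C e (a : MvPowerSeries σ A) ϖ).trans (ha e)
  · rintro ⟨a, rfl⟩
    rw [map_mul, map_C, RingHom.mem_ker.mp (hf.ge (Ideal.mem_span_singleton_self ϖ)), map_zero,
      mul_zero]

theorem map_surjective_of_surjective {σ A K : Type} [CommRing A] [CommRing K] {f : A →+* K}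
    (hf : Function.Surjective f) :
    Function.Surjective (MvPowerSeries.map f : MvPowerSeries σ A →+* MvPowerSeries σ K) := fun g =>
  ⟨fun e => (hf (coeff e g)).choose, MvPowerSeries.ext fun e => (hf (coeff e g)).choose_spec⟩

end FermatLib.MLT.Odd

end
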