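import Fermat.Agent.MLT.Odd.PatchBranchAlg
import Fermat.Agent.MLT.LocQSteinbergUnique
import Fermat.Agent.MLT.Odd.PatchBaseDim

/-!
# The components of the whole space through a point

A component of full dimension with a given pattern passes through every point of that pattern
whose inertia is non-trivial at the Steinberg primes.
-/

set_option autoImplicit false

noncomputable section

namespace FermatLib.MLT.Odd

open IsLocalRing

variable {O : Type} [CommRing O] [IsDomain O] [IsDiscreteValuationRing O] {p : ℕ}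
  {ρbar : ResidualGaloisRep (ResidueField O)} {S : OddPrimes p ρbar} {g r : ℕ}

theorem ringKrullDim_diamondFrameRing (T : Finset ℕ) :
    ringKrullDim (DiamondFrameRing O r T) = (r + 4 * T.card + 1 : ℕ) := by
  rw [ringKrullDim_mvPowerSeries]
  congr 1
  simp [Fintype.card_sum, Fintype.card_prod, mul_comm]

/-- A full component of the whole space with a given pattern passes through every point of that
pattern with non-trivial inertia on the Steinberg part. -/
theorem le_ker_of_branchIdeal₁ [IsAdicComplete (maximalIdeal O) O] {tp : S.TamePairs}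
    (hpO : (p : O) ∈ maximalIdeal O) {ϖ : O} (hϖ : maximalIdeal O = Ideal.span {ϖ})
    (hcount : g + S.F.card + S.pIdx = r + S.T.card) (τ : BranchIdx S → Bool)
    (hτF : ∀ q : S.F, τ (some (Sum.inr (Sum.inl q))) = false)
    (hτp : ∀ i : Fin S.pIdx, τ (some (Sum.inr (Sum.inr i))) = false)
    {Q : Ideal (CoordRing S g)} [Q.IsPrime] (hϖQ : MvPowerSeries.C ϖ ∉ Q)
    (hdim : ringKrullDim (CoordRing S g ⧸ Q) = ringKrullDim (DiamondFrameRing O r S.T))
    (hQ : ∀ j, branchIdeal₁ tp j (τ j) ≤ Q)
    (y : CoordRing S g →+* O) (hyC : ∀ c, y (MvPowerSeries.C c) = c)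
    (hy : ∀ j, branchIdeal₁ tp j (τ j) ≤ RingHom.ker y)
    (hn : ∀ q : S.T, τ (some (Sum.inl q)) = false → ∃ j, y (nCoord S g q j) ≠ 0) :
    Q ≤ RingHom.ker y := by
  classical
  -- the Steinberg primes and their variables
  let T' : Type := {q : S.T // τ (some (Sum.inl q)) = false}
  let U : Type := {q : S.T // τ (some (Sum.inl q)) = true}
  let v : T' × Fin 6 → Fin (Fintype.card (CoordVar S g)) := fun a =>
    Fintype.equivFin _ (Sum.inl (Sum.inl (a.1.1, a.2)))
  have hv : Function.Injective v := fun a b h => by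
    have h' := (Fintype.equivFin _).injective h
    simp only [Sum.inl.injEq, Prod.mk.injEq] at h'
    exact Prod.ext (Subtype.ext h'.1) h'.2
  -- the variables which vanish
  let w : (U × Fin 3) ⊕ (S.F ⊕ Fin S.pIdx) → CoordVar S g :=
    Sum.elim (fun a => Sum.inl (Sum.inl (a.1.1, Fin.castAdd 3 a.2)))
      (Sum.elim (fun q => Sum.inl (Sum.inr (q, 0))) fun i => Sum.inr (Sum.inl (i, 0)))
  have hw : Function.Injective w := by
    rintro (⟨⟨a, ha⟩, i⟩ | q | i) (⟨⟨b, hb⟩, j⟩ | q' | j) h <;> simp [w] at h ⊢
    · exact ⟨Subtype.ext h.1, Fin.castAdd_injective _ _ h.2⟩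
    all_goals exact h
  let Z : Finset (Fin (Fintype.card (CoordVar S g))) :=
    Finset.univ.image fun a => Fintype.equivFin _ (w a)
  have hZv : ∀ z ∈ Z, z ∉ Set.range v := by
    intro z hz
    obtain ⟨a, -, rfl⟩ := Finset.mem_image.mp hz
    rintro ⟨⟨⟨b, hb⟩, k⟩, h⟩
    have h' := (Fintype.equivFin _).injective h
    rcases a with ⟨⟨a, ha⟩, i⟩ | q | i <;> simp [w] at h'
    rw [h'.1] at hb
    exact Bool.false_ne_true (hb.symm.trans ha)
  let e : T' → O := fun q => frobShift tp q.1
  have he : ∀ q, e q ∈ maximalIdeal O := fun q => Ideal.mul_mem_left _ _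
    (natCast_sub_one_mem hpO (S.prime_of_mem q.1.1 (by simp)) (S.one_mod_T q.1.1 q.1.2))
  -- the relations of the pattern
  have hle : ∀ I : Ideal (CoordRing S g), (∀ j, branchIdeal₁ tp j (τ j) ≤ I) →
      LocQ.stLiftIdeal v e Z ≤ I := by
    intro I hI
    refine Ideal.span_le.mpr ?_
    rintro _ (⟨⟨⟨q, hq⟩, i⟩, rfl⟩ | ⟨z, hz, rfl⟩)
    · have h := hI (some (Sum.inl q))
      rw [hq] at h
      exact h (Ideal.subset_span ⟨i, rfl⟩)
    · obtain ⟨a, -, rfl⟩ := Finset.mem_image.mp hz
      rcases a with ⟨⟨q, hq⟩, i⟩ | q | i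
      · have h := hI (some (Sum.inl q))
        rw [hq] at h
        exact h (Ideal.subset_span ⟨i, rfl⟩)
      · have h := hI (some (Sum.inr (Sum.inl q)))
        rw [hτF] at h
        exact h (Ideal.mem_span_singleton_self _)
      · have h := hI (some (Sum.inr (Sum.inr i)))
        rw [hτp] at h
        exact h (Ideal.mem_span_singleton_self _)
  -- the count
  have hTU : Fintype.card T' + Fintype.card U = S.T.card := by
    rw [← Fintype.card_coe S.T, ← Fintype.card_sum]
    exact Fintype.card_congr
      ((Equiv.sumCongr (Equiv.refl T') (Equiv.subtypeEquivRight (by simp))).trans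
        (Equiv.sumCompl fun q : S.T => τ (some (Sum.inl q)) = false))
  have hZ : Z.card = 3 * Fintype.card U + (S.F.card + S.pIdx) := by
    rw [show Z = Finset.univ.image (Fintype.equivFin _ ∘ w) from rfl,
      Finset.card_image_of_injective _ ((Fintype.equivFin _).injective.comp hw),
      Finset.card_univ]
    simp [mul_comm]
  refine LocQ.le_ker_of_stLift v hv e he Z hZv (hle Q hQ) hϖ hϖQ ?_ y hyC (hle _ hy)
    fun q => hn q.1 q.2
  rw [hdim, ringKrullDim_diamondFrameRing, Fintype.card_fin, hZ]
  refine Nat.cast_le.mpr ?_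
  simp only [Fintype.card_sum, Fintype.card_prod, Fintype.card_coe, Fintype.card_fin]
  omega

end FermatLib.MLT.Odd

end
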