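import Fermat.Agent.MLT.Odd.PatchPoint
import Fermat.Agent.MLT.Odd.PatchPatternLift
import Fermat.Agent.MLT.Odd.PatchTargetComponent
import Fermat.Agent.MLT.Odd.Producer

/-!
# Modularity lifting at an odd prime

The target `ρ` is a point of level zero; the pattern it prescribes is that of a component of the
patched module, which has to pass through that point.
-/

set_option autoImplicit false

noncomputable section

namespace FermatLib.MLT.Odd

open IsLocalRing

local notation "Γℚ" => (AlgebraicClosure ℚ ≃ₐ[ℚ] AlgebraicClosure ℚ)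

variable {O : Type} [CommRing O] [IsDomain O] [IsDiscreteValuationRing O]
  [IsAdicComplete (maximalIdeal O) O] [Finite (ResidueField O)] [CharZero O]
  {p : ℕ} [Fact p.Prime] {ρbar : ResidualGaloisRep (ResidueField O)}
  {S : OddPrimes p ρbar} {d : OddVariant → ℕ} {tp : S.TamePairs} {ζ : ℕ → O}
  {L₀ : OddLevel S ∅ 0 1 d tp ζ} {r g : ℕ} {F : OddFamily L₀ r g}

/-- A point of level zero with the traces of a target supports the module of level zero. -/
theorem OddPatch.annihilator_le_ker (P : OddPatch F) (hp2 : p ≠ 2)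
    (hpO : (p : O) ∈ maximalIdeal O) (hres : OddResidual p ρbar)
    (hζ : ∀ q ∈ S.T, ζ q ^ p = 1 ∧ ζ q ≠ 1) (hd : 0 < d .std)
    (hdp : S.pCase = PCase.mixed → S.kap p * d (.old p) < d .std)
    (hcount : g + S.F.card + S.pIdx = r + S.T.card) {ρ : GaloisRepAdic O}
    (hρ : IsTargetLift S ρ) (x₀ : L₀.R →ₐ[O] O)
    (hx : ∀ σ, x₀ (L₀.ρ.trace σ) = ρ.trace σ) :
    Module.annihilator L₀.R (L₀.M .std) ≤ RingHom.ker (x₀ : L₀.R →+* O) := by
  classical
  have : IsNoetherianRing L₀.R := IsNoetherianRing.of_finite O L₀.R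
  have : IsAdicComplete (maximalIdeal L₀.R) L₀.R := PatchBuild.isAdicComplete_level L₀
  have : Finite (ResidueField L₀.R) := HeckeRep.finite_residueField_of_finite (𝒪 := O)
  obtain ⟨ϖ, hϖi⟩ := IsDiscreteValuationRing.exists_irreducible O
  have hϖ := hϖi.maximalIdeal_eq
  set y := P.pointHom x₀
  let τ : BranchIdx S → Bool := fun j => match j with
    | some (Sum.inl q) => decide (∀ k, y (nCoord S g q k) = 0)
    | _ => false
  obtain ⟨Q, hQ, hann, hϖQ, hdim, hbr⟩ := P.exists_patched_component_of_pattern hp2 hpO hres.det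
    hϖ hζ hcount hd hdp τ (fun _ => rfl) (fun _ => rfl)
  have := hQ.isPrime
  have : (RingHom.ker (x₀ : L₀.R →+* O)).IsPrime := RingHom.ker_isPrime _
  refine (P.sys .std).annihilator_le_of_annih_le_comap (hann.trans ?_)
  refine le_ker_of_branchIdeal₁ (y := y) hpO hϖ hcount τ (fun _ => rfl) (fun _ => rfl) hϖQ hdim
    hbr (P.pointHom_C x₀) (fun j => ?_) (fun q hq => by simpa [τ] using hq)
  rcases j with _ | q | q | i
  · exact bot_le
  · cases hb : τ (some (Sum.inl q))
    · exact P.pointHom_steinberg x₀ hρ hx hp2 hpO hres q (by simpa [τ] using hb)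
    · have hn : ∀ k, y (nCoord S g q k) = 0 := by simpa [τ] using hb
      exact Ideal.span_le.mpr (Set.range_subset_iff.mpr hn)
  · exact (Ideal.span_singleton_le_iff_mem _).mpr (P.pointHom_zVarF x₀ hρ hx q)
  · exact (Ideal.span_singleton_le_iff_mem _).mpr (P.pointHom_zVarP x₀ hρ hx hres i)

/-- **Modularity lifting at an odd prime.** -/
theorem isSystemOfLevel_of_seed_of_target (hp2 : p ≠ 2) (hpO : (p : O) ∈ maximalIdeal O)
    (hζ : ∃ ζ : O, ζ ^ p = 1 ∧ ζ ≠ 1) (hres : OddResidual p ρbar) (S : OddPrimes p ρbar)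
    (hseed : HasSeed S) (ρ : GaloisRepAdic O) (hρ : IsTargetLift S ρ) :
    IsSystemOfLevel S ρ := by
  classical
  let tp : S.TamePairs := fun q => (exists_tamePair (Fact.out : p.Prime)
    (S.prime_of_mem q.1 (by
      have := q.2
      simp only [Finset.mem_union] at this ⊢
      tauto))
    (S.ne_p q.1 (by
      have := q.2
      simp only [Finset.mem_union] at this ⊢
      tauto))).some
  obtain ⟨r, g, hcount, hgen⟩ := exists_twPrimes_generators hp2 hpO hres S tp
  obtain ⟨d, ζ, avoid, hζT, hd, hdp, L₀, x, hx, hsys, hlev⟩ :=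
    exists_oddLevels hp2 hpO hζ hres S tp hseed (m := 1) (fun _ => ρ)
      fun _ => ⟨hρ.lift, hρ.isLiftOf⟩
  choose qv hqv hqa hg using fun n => hgen n avoid
  choose L hhom _hkill using fun n => hlev n (qv n) (hqv n) (hqa n)
  let F : OddFamily L₀ r g :=
    { qv := qv
      level := L
      hom := fun n => (hhom n).some
      gen := fun n => hg n (L n).R (L n).residue_surjective (L n).ρ (L n).lift (L n).isLiftOf
        (L n).generated }
  obtain ⟨P⟩ := nonempty_oddPatch hpO F
  have hann := P.annihilator_le_ker hp2 hpO hres hζT hd hdp hcount hρ (x 0) (hx 0)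
  let y : OddPoint O L₀.R :=
    { O' := O
      toHom := x 0
      isLocalHom := IsLocalHom.of_surjective (x 0 : L₀.R →+* O)
        fun c => ⟨algebraMap O _ c, (x 0).commutes c⟩ }
  obtain ⟨θ, hθ⟩ := hsys y fun a ha => hann ha
  refine ⟨θ, fun ℓ hℓ hℓN hℓE B hB σ hσ => ?_⟩
  have h := hθ ℓ hℓ hℓN hℓE B hB σ hσ
  rw [OddPoint.rep, trace_baseChangeAlong_apply] at h
  rw [← hx 0 σ]
  exact h

end FermatLib.MLT.Odd

end
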