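import Fermat.Agent.MLT.Odd.Producer
import Fermat.Agent.MLT.Odd.PatchMinimal
import Fermat.Agent.MLT.Odd.PatchLifting

/-!
# Patching at an odd prime: modularity lifting and Ihara avoidance
-/

set_option autoImplicit false

namespace FermatLib.MLT.Odd

open IsLocalRing

variable {O : Type} [CommRing O] [IsDomain O] [IsDiscreteValuationRing O]
  [IsAdicComplete (maximalIdeal O) O] [Finite (ResidueField O)] [CharZero O]
  {p : ℕ} [Fact p.Prime] {ρbar : ResidualGaloisRep (ResidueField O)}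

/-- **Modularity lifting at an odd prime.** -/
theorem isSystemOfLevel_of_target (hp2 : p ≠ 2) (hpO : (p : O) ∈ maximalIdeal O)
    (hζ : ∃ ζ : O, ζ ^ p = 1 ∧ ζ ≠ 1) (hres : OddResidual p ρbar) (S : OddPrimes p ρbar)
    (hseed : HasSeed S) (ρ : GaloisRepAdic O) (hρ : IsTargetLift S ρ) :
    IsSystemOfLevel S ρ :=
  isSystemOfLevel_of_seed_of_target hp2 hpO hζ hres S hseed ρ hρ

/-- **Ihara avoidance.** -/
theorem hasMinimalSeed_of_seed (hp2 : p ≠ 2) (hpO : (p : O) ∈ maximalIdeal O)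
    (hζ : ∃ ζ : O, ζ ^ p = 1 ∧ ζ ≠ 1) (hres : OddResidual p ρbar) (S : OddPrimes p ρbar)
    (hflat : S.pCase = PCase.flat) (hF : S.F = ∅) (hseed : HasSeed S) : HasMinimalSeed S := by
  exact hasMinimalSeed_of_hasSeed hp2 hpO hζ hres S hflat hF hseed

end FermatLib.MLT.Odd
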