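import Fermat.Agent.MLT.Odd.AvoidAssembly
import Fermat.Agent.MLT.Odd.Patching

/-!
# Avoidance for the Frey curve from Mazur's principle
-/

set_option autoImplicit false

namespace FermatLib.MLT.Odd

/-- Ihara avoidance in the shape used by the assembly. -/
theorem minimalSeedPrinciple : MinimalSeedPrinciple :=
  fun _ _ _ _ _ _ _ _ _ _ hp2 hpO hζ hres S hflat hF hseed =>
    hasMinimalSeed_of_seed hp2 hpO hζ hres S hflat hF hseed

/-- Avoidance in the minimal situation from attachment and Mazur's principle. -/
theorem avoidanceMinimal_of_mazur (hattach : FermatLib.Galois.PadicAttachment)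
    (hMazur : MazurNonScalar) : AvoidanceMinimal :=
  avoidanceMinimal_of_minimalSeed hattach hMazur minimalSeedPrinciple

end FermatLib.MLT.Odd
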