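import Fermat.Agent.MLT.BettiResidual
import Fermat.Agent.MLT.BettiBaseChange
import Mathlib.RingTheory.Support
import Mathlib.RingTheory.Nakayama
import Mathlib.LinearAlgebra.Dual.Lemmas
import Mathlib.LinearAlgebra.TensorProduct.Basis

/-!
# Eigenclasses of the points of a localised Betti module

A point of the Hecke polynomials killing the annihilator of a finite free localised module is
realised by a nonzero eigenclass in the cohomology with coefficients in the field of the point.
-/

set_option autoImplicit false

noncomputable section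

open scoped TensorProduct
open CongruenceSubgroup

namespace FermatLib.MLT

/-- A point killing the annihilator of a finite module has a nonzero equivariant functional. -/
theorem exists_functional_of_point {R M : Type} [CommRing R] [AddCommGroup M] [Module R M]
    [Module.Finite R M] {K : Type} [Field K] (c : R →+* K)
    (hker : Module.annihilator R M ≤ RingHom.ker c) :
    ∃ φ : M →+ K, φ ≠ 0 ∧ ∀ r m, φ (r • m) = c r * φ m := by
  classical
  let P : Ideal R := RingHom.ker c
  have hP : P.IsPrime := RingHom.ker_isPrime c
  let Rp := Localization.AtPrime P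
  let Mp := LocalizedModule P.primeCompl M
  have : Nontrivial Mp :=
    (Module.mem_support_iff (p := (⟨P, hP⟩ : PrimeSpectrum R))).mp
      (Module.mem_support_iff_of_finite.mpr hker)
  let m : Ideal Rp := IsLocalRing.maximalIdeal Rp
  have hlt : (m • ⊤ : Submodule Rp Mp) ≠ ⊤ := fun h => by
    have := Submodule.eq_bot_of_le_smul_of_le_jacobson_bot m (⊤ : Submodule Rp Mp)
      (Module.Finite.fg_top) h.ge (IsLocalRing.maximalIdeal_le_jacobson _)
    exact top_ne_bot this
  let _ : Field (Rp ⧸ m) := Ideal.Quotient.field m
  have : Nontrivial (Mp ⧸ (m • ⊤ : Submodule Rp Mp)) := Submodule.Quotient.nontrivial_iff.mpr hlt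
  let b := Module.Basis.ofVectorSpace (Rp ⧸ m) (Mp ⧸ (m • ⊤ : Submodule Rp Mp))
  obtain ⟨i⟩ := b.index_nonempty
  have hunit : ∀ y : P.primeCompl, IsUnit (c (y : R)) := fun y => Ne.isUnit y.2
  let cR : Rp →+* K := IsLocalization.lift hunit
  have hm : ∀ a ∈ m, cR a = 0 := by
    intro a ha
    obtain ⟨⟨x, y⟩, rfl⟩ := IsLocalization.mk'_surjective P.primeCompl a
    rw [IsLocalization.lift_mk'_spec, mul_zero]
    exact (IsLocalization.AtPrime.mk'_mem_maximal_iff Rp P x y).mp ha
  let c' : Rp ⧸ m →+* K := Ideal.Quotient.lift m cR hm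
  refine ⟨AddMonoidHom.mk' (fun x => c' (b.coord i (Submodule.Quotient.mk
      (LocalizedModule.mkLinearMap P.primeCompl M x))))
    (fun x y => by simp only [map_add, Submodule.Quotient.mk_add]), fun h0 => ?_, fun r x => ?_⟩
  · obtain ⟨z, hz⟩ := Submodule.Quotient.mk_surjective (m • ⊤ : Submodule Rp Mp) (b i)
    induction z using LocalizedModule.induction_on with
    | h x s =>
      have h1 : b.coord i (b i) = 1 := by simp
      have h2 : (LocalizedModule.mk x s : Mp) =
          IsLocalization.mk' Rp (1 : R) s • LocalizedModule.mkLinearMap P.primeCompl M x := by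
        rw [LocalizedModule.mkLinearMap_apply, ← Localization.mk_eq_mk', LocalizedModule.mk_smul_mk,
          one_smul, mul_one]
      rw [← hz, h2] at h1
      have h3 := congrArg c' h1
      rw [Submodule.Quotient.mk_smul, ← algebraMap_smul (Rp ⧸ m), map_smul, smul_eq_mul,
        map_mul, map_one] at h3
      have h4 : c' (b.coord i (Submodule.Quotient.mk
          (LocalizedModule.mkLinearMap P.primeCompl M x))) = 0 := DFunLike.congr_fun h0 x
      rw [h4, mul_zero] at h3
      exact zero_ne_one h3
  · show c' (b.coord i (Submodule.Quotient.mk _)) = _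
    rw [map_smul, ← algebraMap_smul Rp, Submodule.Quotient.mk_smul, ← algebraMap_smul (Rp ⧸ m),
      map_smul, smul_eq_mul, map_mul]
    congr 1
    show c' (Ideal.Quotient.mk m (algebraMap R Rp r)) = c r
    rw [Ideal.Quotient.lift_mk, IsLocalization.lift_eq]

/-- A point of commuting operators on a finite free module is realised by an eigenvector after
the base change to its values. -/
theorem exists_eigen_baseChange {A R M B : Type} [CommRing A] [CommRing R] [Algebra A R]
    [AddCommGroup M] [Module A M] [Module R M] [IsScalarTower A R M] [Module.Free A M]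
    [Module.Finite A M] [CommRing B] [IsDomain B] [Algebra A B] (c : R →ₐ[A] B)
    (hker : ∀ r, (∀ x : M, r • x = 0) → c r = 0) :
    ∃ w : M ⊗[A] B, w ≠ 0 ∧ ∀ r, (Algebra.lsmul A A M r).rTensor B w =
      (LinearMap.mulLeft A (c r)).lTensor M w := by
  classical
  have : Nontrivial A := (algebraMap A B).domain_nontrivial
  let ρd : R →+* Module.End A (Module.Dual A M) :=
    { toFun := fun r => LinearMap.dualMap (Algebra.lsmul A A M r)
      map_one' := by ext; simp
      map_mul' := fun r s => by
        ext f x
        simp [smul_comm r s x]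
      map_zero' := by ext; simp
      map_add' := fun r s => by ext f x; simp }
  let _ : Module R (Module.Dual A M) := Module.compHom _ ρd
  have hsm : ∀ (r : R) (f : Module.Dual A M) (x : M), (r • f) x = f (r • x) := fun r f x => rfl
  have : IsScalarTower A R (Module.Dual A M) := IsScalarTower.of_algebraMap_smul fun a f =>
    LinearMap.ext fun x => by rw [hsm, algebraMap_smul, map_smul, LinearMap.smul_apply]
  have : Module.Finite R (Module.Dual A M) := Module.Finite.of_restrictScalars_finite A R _
  let cK : R →+* FractionRing B := (algebraMap B (FractionRing B)).comp c.toRingHom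
  obtain ⟨φ, hφ, hφr⟩ := exists_functional_of_point (M := Module.Dual A M) cK fun r hr => by
    have h : c r = 0 := hker r fun x => (Module.forall_dual_apply_eq_zero_iff A _).mp fun f => by
      have h' := DFunLike.congr_fun (Module.mem_annihilator.mp hr f) x
      rwa [hsm] at h'
    rw [RingHom.mem_ker, RingHom.comp_apply]
    show algebraMap B (FractionRing B) (c r) = 0
    rw [h, map_zero]
  let e := Module.Free.chooseBasis A M
  obtain ⟨⟨d, hd⟩, hint⟩ := IsLocalization.exist_integer_multiples_of_finite (nonZeroDivisors B)
    (fun i => φ (e.coord i))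
  choose b hb using hint
  have hinj : Function.Injective (algebraMap B (FractionRing B)) :=
    IsFractionRing.injective B (FractionRing B)
  have hd0 : algebraMap B (FractionRing B) d ≠ 0 := by
    rw [map_ne_zero_iff _ hinj]
    exact nonZeroDivisors.ne_zero hd
  have hb' : ∀ i, algebraMap B (FractionRing B) (b i) =
      algebraMap B (FractionRing B) d * φ (e.coord i) := fun i =>
    (hb i).trans (Algebra.smul_def _ _)
  have hφa : ∀ (a : A) (f : Module.Dual A M),
      φ (a • f) = algebraMap B (FractionRing B) (algebraMap A B a) * φ f := fun a f => by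
    rw [← algebraMap_smul R, hφr]
    show algebraMap B (FractionRing B) (c (algebraMap A R a)) * _ = _
    rw [c.commutes]
  refine ⟨∑ i, e i ⊗ₜ b i, fun h0 => hφ (AddMonoidHom.ext fun f => ?_), fun r => ?_⟩
  · have hbi : ∀ i, φ (e.coord i) = 0 := fun i => by
      have h1 := congrArg (fun w => TensorProduct.equivFinsuppOfBasisLeft e w i) h0
      simp only [map_sum, TensorProduct.equivFinsuppOfBasisLeft_apply_tmul, Finsupp.coe_finsetSum,
        Finset.sum_apply, Finsupp.mapRange_apply, e.repr_self, map_zero, Finsupp.coe_zero,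
        Pi.zero_apply] at h1
      rw [Finset.sum_eq_single i (fun k _ hk => by simp [Finsupp.single_eq_of_ne hk.symm])
        (fun h => absurd (Finset.mem_univ i) h)] at h1
      have h2 : algebraMap B (FractionRing B) (b i) = 0 := by
        simp only [Finsupp.single_eq_same, one_smul] at h1
        rw [h1, map_zero]
      rw [hb'] at h2
      exact (mul_eq_zero.mp h2).resolve_left hd0
    rw [← e.sum_dual_apply_smul_coord f, map_sum, AddMonoidHom.zero_apply]
    exact Finset.sum_eq_zero fun i _ => by rw [hφa, hbi, mul_zero]
  · simp only [map_sum, LinearMap.rTensor_tmul, LinearMap.lTensor_tmul, Algebra.lsmul_coe,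
      LinearMap.mulLeft_apply]
    calc ∑ i, (r • e i) ⊗ₜ[A] b i = ∑ i, ∑ k, e k ⊗ₜ[A] (e.coord k (r • e i) • b i) :=
          Finset.sum_congr rfl fun i _ => by
            conv_lhs => rw [← e.sum_repr (r • e i)]
            rw [TensorProduct.sum_tmul]
            exact Finset.sum_congr rfl fun k _ => by
              rw [TensorProduct.smul_tmul, Module.Basis.coord_apply]
      _ = ∑ k, e k ⊗ₜ[A] (c r * b k) := by
          rw [Finset.sum_comm]
          refine Finset.sum_congr rfl fun k _ => ?_
          rw [← TensorProduct.tmul_sum]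
          congr 1
          refine hinj ?_
          have hk : r • e.coord k = ∑ i, e.coord k (r • e i) • e.coord i := by
            conv_lhs => rw [← e.sum_dual_apply_smul_coord (r • e.coord k)]
            rfl
          have h1 : φ (r • e.coord k) =
              ∑ i, algebraMap B (FractionRing B) (algebraMap A B (e.coord k (r • e i))) *
                φ (e.coord i) := by
            rw [hk, map_sum]
            exact Finset.sum_congr rfl fun i _ => hφa _ _
          rw [map_sum, map_mul, hb' k, mul_left_comm, show algebraMap B (FractionRing B) (c r) *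
            φ (e.coord k) = φ (r • e.coord k) from (hφr r _).symm, h1, Finset.mul_sum]
          refine Finset.sum_congr rfl fun i _ => ?_
          rw [Algebra.smul_def, map_mul, hb' i]
          ring

variable {A : Type} [CommRing A] {L : ℕ} {χ : (ZMod L)ˣ →* Aˣ}
  {S : Submonoid (BettiHeckeAlg A)} {V W : Type} [AddCommGroup V] [Module A V]
  [AddCommGroup W] [Module A W]

theorem BettiLoc.map_smul_hecke (f : V →ₗ[A] W) (P : BettiHeckeAlg A) (x : BettiLoc L χ V S) :
    BettiLoc.map S f (P • x) = P • BettiLoc.map S f x := by
  induction x using LocalizedModule.induction_on with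
  | h m s =>
    rw [LocalizedModule.smul'_mk, BettiLoc.map_mk, BettiLoc.map_mk, LocalizedModule.smul'_mk,
      map_smul]

theorem BettiMod.map_map {U : Type} [AddCommGroup U] [Module A U] (g : V →ₗ[A] W) (f : U →ₗ[A] V)
    (x : BettiMod L χ U) : BettiMod.map g (BettiMod.map f x) = BettiMod.map (g.comp f) x := by
  obtain ⟨c, rfl⟩ := BettiMod.mk_surjective x
  rfl

/-- A point killing the annihilator of the localised module has an eigenclass there. -/
theorem exists_bettiLoc_eigen [IsNoetherianRing A] (hχ : χ (-1) = 1) (hR : BettiRightExact L χ S)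
    [Module.Free A (BettiLoc L χ A S)] [Module.Finite A (BettiLoc L χ A S)]
    {B : Type} [CommRing B] [IsDomain B] [Algebra A B] [Module.Finite A B]
    (c : BettiHeckeAlg A →ₐ[A] B)
    (hker : ∀ P, (∀ x : BettiLoc L χ A S, P • x = 0) → c P = 0) :
    ∃ x : BettiLoc L χ B S, x ≠ 0 ∧
      ∀ P, P • x = BettiLoc.map S (LinearMap.mulLeft A (c P)) x := by
  obtain ⟨w, hw0, hw⟩ := exists_eigen_baseChange c hker
  refine ⟨bettiTensorMap L χ B S w, fun h => hw0 ((bettiTensorMap_bijective hχ hR).1
    (by rw [h, map_zero])), fun P => ?_⟩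
  rw [← bettiTensorMap_lTensor, ← hw P]
  clear hw hw0
  induction w using TensorProduct.induction_on with
  | zero => simp
  | tmul m b =>
    rw [LinearMap.rTensor_tmul, bettiTensorMap_tmul, bettiTensorMap_tmul, Algebra.lsmul_coe,
      BettiLoc.map_smul_hecke]
  | add x y hx hy => rw [map_add, smul_add, hx, hy, map_add, map_add]

/-- **The eigenclass of a point.** -/
theorem exists_eigenclass_of_point [IsNoetherianRing A] [NeZero L] (hχ : χ (-1) = 1)
    (hR : BettiRightExact L χ S) (hE : BettiNonEisenstein L χ S)
    [Module.Free A (BettiLoc L χ A S)] [Module.Finite A (BettiLoc L χ A S)]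
    {B : Type} [CommRing B] [IsDomain B] [Algebra A B] [Module.Finite A B]
    (c : BettiHeckeAlg A →ₐ[A] B)
    (hker : ∀ P, (∀ x : BettiLoc L χ A S, P • x = 0) → c P = 0)
    {K : Type} [Field K] (j : B →+* K) (hj : Function.Injective j)
    (χK : (ZMod L)ˣ →* Kˣ) (hχK : ∀ d, (χK d : K) = j (algebraMap A B (χ d))) :
    ∃ x : bettiH1 (Gamma0 L) (nebenChar χK) K, x ≠ 0 ∧
      ∀ l : Nat.Primes, bettiHeckeOp L K χK l x = j (c (MvPolynomial.X l)) • x := by
  classical
  obtain ⟨z₀, hz₀, heig₀⟩ := exists_bettiLoc_eigen hχ hR c hker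
  -- an integral representative
  obtain ⟨⟨m, s⟩, rfl⟩ : ∃ z : BettiMod L χ B × S, LocalizedModule.mk z.1 z.2 = z₀ := by
    induction z₀ using LocalizedModule.induction_on with
    | h m s => exact ⟨(m, s), rfl⟩
  dsimp only at hz₀ heig₀
  set mk := LocalizedModule.mkLinearMap S (BettiMod L χ B) with hmk
  have hs : mk m = (s : BettiHeckeAlg A) • LocalizedModule.mk m s := by
    rw [hmk, LocalizedModule.mkLinearMap_apply, LocalizedModule.smul'_mk]
    exact (LocalizedModule.mk_cancel s m).symm
  have hz : mk m ≠ 0 := fun h => hz₀ (IsLocalizedModule.smul_injective mk s (by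
    show (s : BettiHeckeAlg A) • _ = (s : BettiHeckeAlg A) • (0 : LocalizedModule S (BettiMod L χ B))
    rw [← hs, h, smul_zero]))
  have heig : ∀ P, mk (P • m - BettiMod.map (LinearMap.mulLeft A (c P)) m) = 0 := fun P => by
    have h1 : mk (BettiMod.map (LinearMap.mulLeft A (c P)) m) =
        BettiLoc.map S (LinearMap.mulLeft A (c P)) (mk m) := by
      rw [hmk, LocalizedModule.mkLinearMap_apply, LocalizedModule.mkLinearMap_apply,
        BettiLoc.map_mk]
    rw [map_sub, map_smul, h1, hs, BettiLoc.map_smul_hecke, ← heig₀ P, smul_comm, sub_self]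
  -- a uniform denominator
  let N : Submodule A (BettiMod L χ B) := (LinearMap.ker mk).restrictScalars A
  have : IsNoetherian A (BettiMod L χ B) := by
    have : Module.Finite A (BettiMod L χ B) := bettiH1_gamma0_finite (A := A) (V := B) L _
    exact isNoetherian_of_isNoetherianRing_of_finite A _
  obtain ⟨T, hT⟩ := IsNoetherian.noetherian N
  have hu : ∀ g ∈ T, ∃ u : S, u • g = 0 := fun g hg => by
    have hg' : g ∈ N := hT ▸ Submodule.subset_span hg
    exact (IsLocalizedModule.eq_zero_iff S mk).mp hg'
  choose! u hu using hu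
  let U : S := ∏ g ∈ T, u g
  have hU : ∀ y, mk y = 0 → (U : BettiHeckeAlg A) • y = 0 := fun y hy => by
    have hy' : y ∈ Submodule.span A (T : Set (BettiMod L χ B)) := hT.symm ▸ hy
    clear hy
    induction hy' using Submodule.span_induction with
    | mem g hg =>
      show ((∏ g ∈ T, u g : S) : BettiHeckeAlg A) • g = 0
      rw [← Finset.mul_prod_erase T u hg, mul_comm, Submonoid.coe_mul, mul_smul]
      have := hu g hg
      rw [Submonoid.smul_def] at this
      rw [this, smul_zero]
    | zero => exact smul_zero _
    | add a b _ _ ha hb => rw [smul_add, ha, hb, add_zero]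
    | smul a y _ h => rw [smul_comm, h, smul_zero]
  set m' := (U : BettiHeckeAlg A) • m with hm'
  have heig' : ∀ P, P • m' = BettiMod.map (LinearMap.mulLeft A (c P)) m' := fun P => by
    rw [hm', map_smul, ← sub_eq_zero, smul_comm, ← smul_sub]
    exact hU _ (heig P)
  have hm'0 : mk m' ≠ 0 := fun h => hz (IsLocalizedModule.smul_injective mk U (by
    show (U : BettiHeckeAlg A) • _ = (U : BettiHeckeAlg A) • (0 : LocalizedModule S (BettiMod L χ B))
    rw [smul_zero, ← map_smul]
    exact h))
  -- coefficients in `K`
  let _ : Algebra A K := (j.comp (algebraMap A B)).toAlgebra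
  let ι : B →ₗ[A] K :=
    { toFun := j
      map_add' := map_add j
      map_smul' := fun a b => by
        rw [RingHom.id_apply, Algebra.smul_def, Algebra.smul_def, map_mul]
        rfl }
  set x := BettiMod.map ι m' with hx
  have hx0 : x ≠ 0 := fun h => hm'0 (BettiLoc.map_injective hE (f := ι) hj (by
    rw [hmk, LocalizedModule.mkLinearMap_apply, BettiLoc.map_mk, ← hx, h, map_zero,
      LocalizedModule.zero_mk]))
  have hχK' : bettiBaseChar K χ = χK := MonoidHom.ext fun d => Units.ext (hχK d).symm
  subst hχK'
  refine ⟨bettiBaseEquiv (B := K) χ K x, fun h => hx0 ((bettiBaseEquiv (B := K) χ K).injective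
    (h.trans (map_zero _).symm)), fun l => ?_⟩
  have h1 : (MvPolynomial.X l : BettiHeckeAlg A) • x =
      BettiMod.map (LinearMap.mulLeft A (j (c (MvPolynomial.X l)))) x := by
    rw [hx, ← map_smul, heig', BettiMod.map_map, BettiMod.map_map]
    exact congrArg (fun f => BettiMod.map f m') (LinearMap.ext fun b => map_mul j _ b)
  have h2 := congrArg (bettiBaseEquiv (B := K) χ K) h1
  rw [bettiBaseEquiv_smul, MvPolynomial.map_X, BettiMod.X_smul] at h2
  rw [show bettiHeckeOp L K (bettiBaseChar K χ) l (bettiBaseEquiv χ K x) = _ from h2]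
  obtain ⟨cc, hcc⟩ := BettiMod.mk_surjective x
  rw [← hcc]
  rfl

end FermatLib.MLT

end
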