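import Mathlib.LinearAlgebra.Span.Basic
import Mathlib.Algebra.Module.Submodule.Range
import Mathlib.Algebra.BigOperators.Fin
import Mathlib.Tactic.Module
import Mathlib.Tactic.LinearCombination

/-!
# The element `t_q = a² - c (q + 1)²` and the old part

At one prime `q`: `a` is the trace of Frobenius, `c` the character, `q c` the determinant.
`t_q` kills the kernel of the two traces as soon as `U` is there a root of the characteristic
polynomial of Frobenius with `U² = c`, and it is up to sign the Gram determinant of the two
degeneracy maps. So `t_q²` maps the new level into the old part, without any integrality of the
cokernel, and a product of such squares kills the top of a chain of levels whose bottom is zero.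
-/

set_option autoImplicit false

namespace FermatLib.MLT

variable {B : Type*} [CommRing B] {N N' : Type*} [AddCommGroup N] [Module B N] [AddCommGroup N']
  [Module B N']

/-- `t_q`. -/
def avoidT (q a c : B) : B := a ^ 2 - c * (q + 1) ^ 2

end FermatLib.MLT
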