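import Fermat.Agent.MLT.Odd.Inputs
import Fermat.Agent.MLT.ResidualIdentify
import Fermat.Agent.MLT.ModTransfer.Residual
import Fermat.Agent.Galois.PadicPoint
import Fermat.Agent.Galois.EigenformCharacter
import Fermat.Agent.Modular.HeckeFinite
import Fermat.Agent.Modular.IntStruct
import Fermat.Agent.Modular.Newforms.CharacterLift
import Mathlib.RingTheory.RootsOfUnity.AlgebraicallyClosed
import Mathlib.RingTheory.RootsOfUnity.Complex

/-!
# Residual modularity as a seed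

`exists_seedData` turns residual modularity of a curve at level `N` into a coefficient ring with
`ζ_p`, whose residue field splits all quadratics over `𝔽_p`, and a residual character of the full
Hecke algebra with the traces of `E[p]`; the value at `p` is kept up to the embedding.
-/

set_option autoImplicit false
set_option linter.style.haveILetI false

noncomputable section

open Polynomial IsLocalRing

namespace FermatLib.MLT.Odd

open WeierstrassCurve WeierstrassCurve.Affine.Point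
open scoped WeierstrassCurve.Affine

local notation "Ω" => AlgebraicClosure ℚ
local notation "Γℚ" => (AlgebraicClosure ℚ ≃ₐ[ℚ] AlgebraicClosure ℚ)
local notation "ZbarC" => integralClosure ℤ ℂ

variable {W : WeierstrassCurve ℤ} {p N : ℕ}

/-- `W` has a residual witness at level `N` whose value at `p` squares to one if `p ∣ N`. -/
def ResModularUnitAtP (W : WeierstrassCurve ℤ) (p N : ℕ) : Prop :=
  ∃ (f : CuspForm (CongruenceSubgroup.Gamma0 N) 2) (𝔪 : Ideal ZbarC),
    f.IsNormalizedEigenform ∧ 𝔪.IsMaximal ∧ (p : ZbarC) ∈ 𝔪 ∧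
    (∀ ℓ : ℕ, ℓ.Prime → W.IsGoodPrimeFor ℓ → ¬ ℓ ∣ N → ℓ ≠ p →
      ∃ a : ZbarC, (a : ℂ) = ModularFormClass.qCoeff f ℓ ∧
        a - ((W.apOfModel ℓ : ℤ) : ZbarC) ∈ 𝔪) ∧
    (p ∣ N → ∃ a : ZbarC, (a : ℂ) = ModularFormClass.qCoeff f p ∧ a ^ 2 - 1 ∈ 𝔪)

theorem ResModularUnitAtP.residual (h : ResModularUnitAtP W p N) :
    W.IsResiduallyModularOfLevel p N := by
  obtain ⟨f, 𝔪, hf, hmax, hp, ha, -⟩ := h
  exact ⟨f, 𝔪, hf, hmax, hp, ha⟩

theorem resModularUnitAtP_of_not_dvd (h : W.IsResiduallyModularOfLevel p N) (hpN : ¬ p ∣ N) :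
    ResModularUnitAtP W p N := by
  obtain ⟨f, 𝔪, hf, hmax, hp, ha⟩ := h
  exact ⟨f, 𝔪, hf, hmax, hp, ha, fun hd => absurd hd hpN⟩

/-- An element of multiplicative order `p² - 1` forces even degree over `𝔽_p`. -/
theorem two_dvd_finrank_of_primitiveRoot [Fact p.Prime] {k : Type} [Field k] [Finite k]
    [Algebra (ZMod p) k] {r : k} (hr : IsPrimitiveRoot r (p ^ 2 - 1)) :
    2 ∣ Module.finrank (ZMod p) k := by
  have hp := (Fact.out : p.Prime).two_le
  set f := Module.finrank (ZMod p) k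
  have hcard : Nat.card k = p ^ f := by
    rw [Module.natCard_eq_pow_finrank (K := ZMod p), Nat.card_zmod]
  have hdvd : p ^ 2 - 1 ∣ p ^ f - 1 := by
    rw [hr.eq_orderOf, ← hcard]
    cases nonempty_fintype k
    rw [Nat.card_eq_fintype_card]
    refine orderOf_dvd_of_pow_eq_one (FiniteField.pow_card_sub_one_eq_one r fun h0 => ?_)
    rw [h0] at hr
    have := hr.eq_orderOf
    rw [orderOf_zero] at this
    have : 4 ≤ p ^ 2 := by nlinarith
    omega
  by_contra h2
  obtain ⟨m, hm⟩ : ∃ m, f = 2 * m + 1 := ⟨f / 2, by omega⟩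
  have hpos : 1 ≤ p ^ 2 := Nat.one_le_pow _ _ (by omega)
  have hmodf : p ^ f ≡ p [MOD p ^ 2 - 1] := by
    have h1 : p ^ 2 ≡ 1 [MOD p ^ 2 - 1] := ((Nat.modEq_iff_dvd' hpos).mpr dvd_rfl).symm
    rw [hm, pow_succ p (2 * m), pow_mul]
    simpa using (h1.pow m).mul_right p
  have hmod1 : p ^ f ≡ 1 [MOD p ^ 2 - 1] :=
    ((Nat.modEq_iff_dvd' (Nat.one_le_pow _ _ (by omega))).mpr hdvd).symm
  have h := hmodf.symm.trans hmod1
  have hlt : p < p ^ 2 - 1 := by
    have : 2 * p ≤ p ^ 2 := by nlinarith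
    rcases Nat.lt_or_ge p 3 with h3 | h3
    · obtain rfl : p = 2 := by omega
      norm_num
    · omega
  have := Nat.ModEq.eq_of_lt_of_lt h hlt (by omega)
  omega

/-- **Residual modularity gives seed data.** -/
theorem exists_seedData (hattach : Galois.PadicAttachment) [Fact p.Prime] (hΔ : W.Δ ≠ 0) [NeZero N]
    {f : CuspForm (CongruenceSubgroup.Gamma0 N) 2} {𝔪 : Ideal ZbarC}
    (hf : f.IsNormalizedEigenform) (hmax : 𝔪.IsMaximal) (hpm : (p : ZbarC) ∈ 𝔪)
    (h : ∀ ℓ : ℕ, ℓ.Prime → W.IsGoodPrimeFor ℓ → ¬ ℓ ∣ N → ℓ ≠ p →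
      ∃ a : ZbarC, (a : ℂ) = ModularFormClass.qCoeff f ℓ ∧
        a - ((W.apOfModel ℓ : ℤ) : ZbarC) ∈ 𝔪) :
    ∃ (O : Type) (_ : CommRing O) (_ : IsDomain O) (_ : IsDiscreteValuationRing O)
      (_ : IsAdicComplete (maximalIdeal O) O) (_ : Finite (ResidueField O)) (_ : CharZero O)
      (ι : ZMod p →+* ResidueField O),
      (p : O) ∈ maximalIdeal O ∧ (∃ ζ : O, ζ ^ p = 1 ∧ ζ ≠ 1) ∧
      (letI : Algebra (ZMod p) (ResidueField O) := ι.toAlgebra;
        2 ∣ Module.finrank (ZMod p) (ResidueField O)) ∧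
      ∃ θ : CuspForm.heckeAlgebra N 2 (∅ : Set ℕ) →+* ResidueField O,
        HasResidualTraces p (curveResidualRepExt W hΔ p ι) θ ∧
        ∀ (hp : p.Prime) (hpN : p ∣ N) (hpE : p ∉ (∅ : Set ℕ)),
          (∃ a : ZbarC, (a : ℂ) = ModularFormClass.qCoeff f p ∧ a ^ 2 - 1 ∈ 𝔪) →
            θ (CuspForm.heckeAlgebra.U hp hpN hpE) ^ 2 = 1 := by
  classical
  have hp : p.Prime := Fact.out
  haveI := hmax
  let k := ZbarC ⧸ 𝔪
  let : Field k := Ideal.Quotient.field 𝔪
  haveI : CharP k p := by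
    refine (CharP.charP_iff_prime_eq_zero hp).mpr ?_
    rw [← map_natCast (Ideal.Quotient.mk 𝔪), Ideal.Quotient.eq_zero_iff_mem]
    exact hpm
  haveI : IsAlgClosed k := Galois.isAlgClosed_quotient_integralClosure 𝔪
  obtain ⟨ρ, hatt, -, hch⟩ := exists_attached_charpoly_eq (W := W) (p := p) hattach hΔ
    (NeZero.ne N) hf (Ideal.Quotient.mk 𝔪) ∅ (fun ℓ hℓ hg hℓN hℓp _ => by
      obtain ⟨a, ha, hm⟩ := h ℓ hℓ hg hℓN hℓp
      exact ⟨a, ha, by rw [Ideal.Quotient.eq.2 hm, map_intCast]⟩)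
  -- the coefficient algebra
  haveI hfinT : Module.Finite ℤ ↥(CuspForm.heckeAlgebra N 2 (∅ : Set ℕ)) :=
    Modular.heckeAlgebra_moduleFinite N 2 _
  obtain ⟨ξ, -, hξT, hξU⟩ := Galois.exists_eigenformCharacter (S := (∅ : Set ℕ)) hf
  obtain ⟨s, hs⟩ := hfinT.fg_top
  obtain ⟨ζ₀, hζ₀⟩ : ∃ z : ℂ, IsPrimitiveRoot z p := ⟨_, Complex.isPrimitiveRoot_exp p hp.ne_zero⟩
  have hne : ((p ^ 2 - 1 : ℕ) : k) ≠ 0 := by
    intro h0
    have h1 := (CharP.cast_eq_zero_iff k p _).1 h0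
    have h2 : p ∣ p ^ 2 := dvd_pow_self p two_ne_zero
    have := Nat.dvd_sub h2 h1
    rw [Nat.sub_sub_self (Nat.one_le_pow _ _ hp.pos)] at this
    exact hp.not_dvd_one this
  haveI : NeZero ((p ^ 2 - 1 : ℕ) : k) := ⟨hne⟩
  obtain ⟨r₀, hr₀⟩ := HasEnoughRootsOfUnity.exists_primitiveRoot k (p ^ 2 - 1)
  obtain ⟨η, rfl⟩ := Ideal.Quotient.mk_surjective r₀
  let ζ : ZbarC := ⟨ζ₀, hζ₀.isIntegral hp.pos⟩
  let G : Set ZbarC := ξ '' (s : Set _) ∪ {ζ, η}
  have hG : G.Finite := (s.finite_toSet.image _).union (Set.toFinite _)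
  haveI : Module.Finite ℤ ↥(Algebra.adjoin ℤ G) :=
    Algebra.finite_adjoin_of_finite_of_isIntegral hG fun x _ => Algebra.IsIntegral.isIntegral x
  have hξG : ∀ t, ξ t ∈ Algebra.adjoin ℤ G := fun t => by
    have ht : t ∈ Submodule.span ℤ (s : Set ↥(CuspForm.heckeAlgebra N 2 (∅ : Set ℕ))) :=
      hs ▸ Submodule.mem_top
    induction ht using Submodule.span_induction with
    | mem x hx => exact Algebra.subset_adjoin (Or.inl ⟨x, hx, rfl⟩)
    | zero => rw [_root_.map_zero]; exact zero_mem _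
    | add x y _ _ hx hy => rw [map_add]; exact add_mem hx hy
    | smul n x _ hx => rw [map_zsmul]; exact zsmul_mem hx n
  obtain ⟨O, _, _, _, _, _, _, hpO, χ, j, hj⟩ :=
    Galois.exists_padicPoint (Algebra.adjoin ℤ G).val.toRingHom hp (Ideal.Quotient.mk 𝔪)
  let ξ' := ξ.codRestrict (Algebra.adjoin ℤ G) hξG
  haveI : CharP (ResidueField O) p := 
    (RingHom.charP_iff j j.injective p).mpr inferInstance
  let ι : ZMod p →+* ResidueField O := ZMod.castHom (dvd_refl p) _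
  have hjι : ∀ z, j (ι z) = ZMod.castHom (dvd_refl p) k z := fun z => by
    rw [← RingHom.comp_apply]
    exact RingHom.congr_fun (RingHom.ext_zmod (j.comp ι) (ZMod.castHom (dvd_refl p) k)) z
  refine ⟨O, inferInstance, inferInstance, inferInstance, inferInstance, inferInstance, inferInstance,
    ι, hpO, ?_, ?_, ?_⟩
  · let z : Algebra.adjoin ℤ G := ⟨ζ, Algebra.subset_adjoin (Or.inr (Or.inl rfl))⟩
    refine ⟨χ z, ?_, fun h1 => ?_⟩
    · rw [← map_pow, show z ^ p = 1 from Subtype.ext (Subtype.ext hζ₀.pow_eq_one), map_one]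
    · have hsum : (∑ i ∈ Finset.range p, z ^ i) = 0 := by
        refine Subtype.ext (Subtype.ext ?_)
        push_cast
        exact hζ₀.geom_sum_eq_zero hp.one_lt
      have := congrArg χ hsum
      simp only [map_sum, map_pow, h1, one_pow, Finset.sum_const, Finset.card_range, nsmul_one,
        _root_.map_zero, Nat.cast_eq_zero] at this
      exact hp.ne_zero this
  · letI : Algebra (ZMod p) (ResidueField O) := ι.toAlgebra
    let y : Algebra.adjoin ℤ G := ⟨η, Algebra.subset_adjoin (Or.inr (Or.inr rfl))⟩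
    refine two_dvd_finrank_of_primitiveRoot (r := residue O (χ y)) (IsPrimitiveRoot.of_map_of_injective
      (f := j) ?_ j.injective)
    rw [hj]
    exact hr₀
  · refine ⟨(residue O).comp (χ.comp ξ'), fun ℓ hℓ hℓN hℓE hℓp A hA σ hσ => j.injective ?_,
      fun hpp hpN hpE hu => j.injective ?_⟩
    · have hℓk : (ℓ : k) ≠ 0 := fun h0 => hℓp
        ((Nat.prime_dvd_prime_iff_eq hp hℓ).1 ((CharP.cast_eq_zero_iff k p _).1 h0)).symm
      obtain ⟨a, ha, hc⟩ := hatt ℓ hℓ hℓN hℓk A hA σ hσ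
      have h1 := congrArg (fun P : k[X] => P.coeff 1) (hc.symm.trans (hch σ))
      simp [coeff_X_pow] at h1
      rw [trace_curveResidualRepExt, hjι, RingHom.comp_apply, RingHom.comp_apply, hj,
        show (Algebra.adjoin ℤ G).val.toRingHom (ξ' (CuspForm.heckeAlgebra.T hℓ hℓN hℓE)) = a from
          Subtype.ext ((hξT ℓ hℓ hℓN hℓE).trans ha.symm)]
      exact h1.symm
    · obtain ⟨a, ha, hm⟩ := hu
      rw [map_pow, map_one, RingHom.comp_apply, RingHom.comp_apply, hj,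
        show (Algebra.adjoin ℤ G).val.toRingHom (ξ' (CuspForm.heckeAlgebra.U hpp hpN hpE)) = a from
          Subtype.ext ((hξU p hpp hpN hpE).trans ha.symm), ← map_pow, ← map_one
          (Ideal.Quotient.mk 𝔪)]
      exact Ideal.Quotient.eq.2 hm

end FermatLib.MLT.Odd
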