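import Fermat.Agent.MLT.FrameRing
import Fermat.Agent.MLT.Odd.Defs

/-!
# Dual points of the framed ring with four variables at each prime

With all four variables at each `q ∈ T`, the dual points killing a family which detects the framed
lifts form a space of dimension at most `dim S + Σ_q dim Z_q`.
-/

set_option autoImplicit false

noncomputable section

open IsLocalRing

namespace FermatLib.MLT.Odd

open FermatLib.Galois.Deform

attribute [local instance] FermatLib.Galois.Deform.dualAlgebra

variable {𝒪 : Type} [CommRing 𝒪] [IsLocalRing 𝒪] {R : Type} [CommRing R] [IsLocalRing R]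
  [Algebra 𝒪 R] (π : R →ₐ[𝒪] ResidueField 𝒪) (T : Finset ℕ)

/-- The residue map of the framed ring. -/
def fullFrameRes : MvPowerSeries (FrameVar T) R →ₐ[𝒪] ResidueField 𝒪 :=
  { (π.toRingHom).comp (MvPowerSeries.constantCoeff : MvPowerSeries (FrameVar T) R →+* R) with
    commutes' := fun c => by simp [MvPowerSeries.algebraMap_apply] }

/-- Constants, as a map of algebras. -/
def fullConstHom : R →ₐ[𝒪] MvPowerSeries (FrameVar T) R :=
  { (MvPowerSeries.C : R →+* MvPowerSeries (FrameVar T) R) with
    commutes' := fun c => by simp [MvPowerSeries.algebraMap_apply] }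

variable {T}

include π in
/-- Two points agreeing on constants and variables agree. -/
theorem fullFrame_point_ext {φ φ' : DualPoint 𝒪 (MvPowerSeries (FrameVar T) R)}
    (hC : ∀ r, φ (MvPowerSeries.C r) = φ' (MvPowerSeries.C r))
    (hX : ∀ v, φ (MvPowerSeries.X v) = φ' (MvPowerSeries.X v)) : φ = φ' := by
  refine AlgHom.ext fun f => ?_
  have hspan : ∀ x ∈ Ideal.span (Set.range (MvPowerSeries.X : _ → MvPowerSeries (FrameVar T) R)),
      φ x = φ' x ∧ (φ x).fst = 0 := by
    intro x hx
    induction hx using Submodule.span_induction with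
    | mem y hy =>
      obtain ⟨n, rfl⟩ := hy
      refine ⟨hX n, ?_⟩
      rw [fst_dualPoint (fullFrameRes π T)]
      simp [fullFrameRes]
    | zero => simp
    | add y z _ _ hy hz =>
      rw [map_add, map_add, hy.1, hz.1]
      refine ⟨rfl, ?_⟩
      rw [TrivSqZeroExt.fst_add, ← hy.1, ← hz.1, hy.2, hz.2, add_zero]
    | smul c y _ hy =>
      rw [smul_eq_mul, map_mul, map_mul, ← hy.1]
      refine ⟨TrivSqZeroExt.ext ?_ ?_, ?_⟩
      · simp [hy.2]
      · simp [hy.2, fst_dualPoint (fullFrameRes π T)]
      · simp [hy.2]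
  have hf : f - MvPowerSeries.C (MvPowerSeries.constantCoeff f) ∈
      Ideal.span (Set.range (MvPowerSeries.X : _ → MvPowerSeries (FrameVar T) R)) :=
    LocQ.mem_span_X_of_constantCoeff (by simp)
  have := (hspan _ hf).1
  rw [map_sub, map_sub, hC] at this
  exact sub_left_injective this

omit [IsLocalRing R] in
lemma isUnit_frameChange (q : T) : IsUnit (frameChange (R := R) q) := by
  rw [Matrix.isUnit_iff_isUnit_det, MvPowerSeries.isUnit_iff_constantCoeff, RingHom.map_det]
  have : MvPowerSeries.constantCoeff.mapMatrix (frameChange (R := R) q) = 1 := by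
    rw [frameChange, map_add, map_one]
    convert add_zero (1 : Matrix (Fin 2) (Fin 2) R)
    ext i j
    simp
  rw [this, Matrix.det_one]
  exact isUnit_one

lemma frameMat_map_res (q : T) (M : Matrix (Fin 2) (Fin 2) R) :
    (frameMat q M).map (fullFrameRes π T) = M.map π := by
  have hP : (frameChange (R := R) q).map (fullFrameRes π T) = 1 := by
    ext i j
    rw [frameChange, Matrix.map_apply, Matrix.add_apply, map_add]
    simp [fullFrameRes, Matrix.one_apply]
  have hu := (Matrix.isUnit_iff_isUnit_det _).mp (isUnit_frameChange (R := R) q)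
  have hI : ((frameChange (R := R) q)⁻¹).map (fullFrameRes π T) = 1 := by
    have h := congrArg (fun A => A.map (fullFrameRes π T)) (Matrix.mul_nonsing_inv _ hu)
    simp only [Matrix.map_mul, hP, one_mul] at h
    rw [h, Matrix.map_one _ (map_zero _) (map_one _)]
  rw [frameMat, Matrix.map_mul, Matrix.map_mul, hP, hI, one_mul, mul_one]
  ext i j
  simp [fullFrameRes]

/-- The `ε`-part of a matrix in the frame at `q`. -/
theorem map_dualSnd_frameMat (φ : DualPoint 𝒪 (MvPowerSeries (FrameVar T) R)) (q : T)
    (M : Matrix (Fin 2) (Fin 2) R) :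
    (frameMat q M).map (dualSnd φ) =
      (Matrix.of fun i j => dualSnd φ (MvPowerSeries.X (q, i, j))) * M.map π
        + M.map (dualSnd φ ∘ MvPowerSeries.C)
        - M.map π * (Matrix.of fun i j => dualSnd φ (MvPowerSeries.X (q, i, j))) := by
  set π' := fullFrameRes π T
  have hu := (Matrix.isUnit_iff_isUnit_det _).mp (isUnit_frameChange (R := R) q)
  have hPπ : (frameChange (R := R) q).map π' = 1 := by
    ext i j
    rw [frameChange, Matrix.map_apply, Matrix.add_apply, map_add]
    simp [π', fullFrameRes, Matrix.one_apply]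
  have hPs : (frameChange (R := R) q).map (dualSnd φ) =
      Matrix.of fun i j => dualSnd φ (MvPowerSeries.X (q, i, j)) := by
    ext i j
    rw [frameChange, Matrix.map_apply, Matrix.add_apply]
    rcases eq_or_ne i j with h | h <;> simp [dualSnd, Matrix.one_apply, h]
  have hinv : (frameChange (R := R) q) * (frameChange (R := R) q)⁻¹ = 1 :=
    Matrix.mul_nonsing_inv _ hu
  have hIπ : ((frameChange (R := R) q)⁻¹).map π' = 1 := by
    have h := congrArg (fun A => A.map π') hinv
    simp only [Matrix.map_mul, hPπ, one_mul] at h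
    rw [h, Matrix.map_one _ (map_zero _) (map_one _)]
  have hIs : ((frameChange (R := R) q)⁻¹).map (dualSnd φ) =
      -Matrix.of fun i j => dualSnd φ (MvPowerSeries.X (q, i, j)) := by
    have h := congrArg (fun A => A.map (dualSnd φ)) hinv
    simp only [Frame.map_dualSnd_mul π', hPπ, hIπ, hPs, mul_one, one_mul] at h
    have h1 : (1 : Matrix (Fin 2) (Fin 2) (MvPowerSeries (FrameVar T) R)).map (dualSnd φ) = 0 := by
      ext i j
      rcases eq_or_ne i j with h | h <;> simp [dualSnd, h]
    rw [h1] at h
    exact eq_neg_of_add_eq_zero_right h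
  have hCπ : (M.map MvPowerSeries.C).map π' = M.map π := by
    ext i j
    simp [π', fullFrameRes]
  have hCs : (M.map MvPowerSeries.C).map (dualSnd φ) = M.map (dualSnd φ ∘ MvPowerSeries.C) := rfl
  rw [frameMat, Frame.map_dualSnd_mul π', Frame.map_dualSnd_mul π', Matrix.map_mul, hPπ, hIπ, hIs,
    hPs, hCπ, hCs]
  noncomm_ring

variable {G : Type*} [Group G] {H : T → Type*} (loc : ∀ q, H q → G)
  (M : G →* Matrix (Fin 2) (Fin 2) R) {κ : Type} (aR : κ → R)

/-- **The count of framed dual points.** -/
theorem finrank_tangentSpace_fullFrame_le {ι : Type} (a : ι → MvPowerSeries (FrameVar T) R)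
    (haR : ∀ k, ∃ i, a i = MvPowerSeries.C (aR k))
    (hloc : ∀ φ : DualPoint 𝒪 (MvPowerSeries (FrameVar T) R),
      (∀ i, φ (a i) = TrivSqZeroExt.inl (fullFrameRes π T (a i))) →
      ∀ q h, (frameMat q (M (loc q h))).map (dualSnd φ) = 0)
    [FiniteDimensional (ResidueField 𝒪) (Frame.locallyTrivial π loc M aR)] :
    FiniteDimensional (ResidueField 𝒪) (tangentSpace (fullFrameRes π T) a) ∧
    Module.finrank (ResidueField 𝒪) (tangentSpace (fullFrameRes π T) a) ≤
      Module.finrank (ResidueField 𝒪) (Frame.locallyTrivial π loc M aR) +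
        ∑ q, Module.finrank (ResidueField 𝒪) (Frame.localCentralizer π loc M q) := by
  classical
  set k := ResidueField 𝒪
  set V := tangentSpace (fullFrameRes π T) a
  let res : V →ₗ[k] (R → k) :=
    (LinearMap.funLeft k k (MvPowerSeries.C : R → MvPowerSeries (FrameVar T) R)).comp V.subtype
  let frame : (MvPowerSeries (FrameVar T) R → k) →ₗ[k] (T → Matrix (Fin 2) (Fin 2) k) :=
    { toFun := fun l q => Matrix.of fun i j => l (MvPowerSeries.X (q, i, j))
      map_add' := fun _ _ => rfl
      map_smul' := fun _ _ => rfl }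
  have hres : ∀ v : V, res v ∈ Frame.locallyTrivial π loc M aR := by
    rintro ⟨l, φ, hφ, rfl⟩
    refine ⟨⟨φ.comp (fullConstHom T), fun j => ?_, rfl⟩, fun q => ?_⟩
    · obtain ⟨i, hi⟩ := haR j
      show φ (MvPowerSeries.C (aR j)) = _
      rw [← hi, hφ, hi]
      simp [fullFrameRes]
    · refine ⟨frame (dualSnd φ) q, fun h => ?_⟩
      have h0 := hloc φ hφ q h
      rw [map_dualSnd_frameMat π] at h0
      show (M (loc q h)).map (dualSnd φ ∘ MvPowerSeries.C) =
        (M (loc q h)).map π * (Matrix.of fun i j => dualSnd φ (MvPowerSeries.X (q, i, j))) -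
          (Matrix.of fun i j => dualSnd φ (MvPowerSeries.X (q, i, j))) * (M (loc q h)).map π
      rw [eq_sub_iff_add_eq', ← sub_eq_zero]
      exact h0
  let res' : V →ₗ[k] Frame.locallyTrivial π loc M aR := res.codRestrict _ hres
  have hinj : Function.Injective (res'.prod (frame.comp V.subtype)) := by
    rintro ⟨l, φ, hφ, rfl⟩ ⟨l', φ', hφ', rfl⟩ he
    obtain ⟨he1, he2⟩ := Prod.ext_iff.mp he
    have : φ = φ' := by
      refine fullFrame_point_ext π (fun r => TrivSqZeroExt.ext ?_ ?_)
        fun v => TrivSqZeroExt.ext ?_ ?_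
      · rw [fst_dualPoint (fullFrameRes π T), fst_dualPoint (fullFrameRes π T)]
      · exact congrFun (congrArg Subtype.val he1) r
      · rw [fst_dualPoint (fullFrameRes π T), fst_dualPoint (fullFrameRes π T)]
      · exact congrFun (congrFun (congrFun he2 v.1) v.2.1) v.2.2
    subst this
    rfl
  have hfin : FiniteDimensional k V := FiniteDimensional.of_injective _ hinj
  refine ⟨hfin, ?_⟩
  let e : (Submodule.pi Set.univ (Frame.localCentralizer π loc M) :
      Submodule k (T → Matrix (Fin 2) (Fin 2) k)) ≃ₗ[k] (Π q, Frame.localCentralizer π loc M q) :=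
    { toFun := fun w q => ⟨w.1 q, w.2 q trivial⟩
      invFun := fun w => ⟨fun q => (w q).1, fun q _ => (w q).2⟩
      map_add' := fun _ _ => rfl
      map_smul' := fun _ _ => rfl }
  have hkerW : ∀ v : LinearMap.ker res',
      frame v.1.1 ∈ Submodule.pi Set.univ (Frame.localCentralizer π loc M) := by
    rintro ⟨⟨l, φ, hφ, rfl⟩, hv⟩ q - h
    have h0 := hloc φ hφ q h
    rw [map_dualSnd_frameMat π] at h0
    have hz : (M (loc q h)).map (dualSnd φ ∘ MvPowerSeries.C) = 0 := by
      ext i j
      exact congrFun (congrArg Subtype.val (LinearMap.mem_ker.mp hv)) _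
    rw [hz, add_zero] at h0
    exact sub_eq_zero.mp h0
  let kerMap : LinearMap.ker res' →ₗ[k] (Π q, Frame.localCentralizer π loc M q) :=
    e.toLinearMap.comp
      ((frame.comp (V.subtype.comp (LinearMap.ker res').subtype)).codRestrict _ hkerW)
  have hkinj : Function.Injective kerMap := fun u v huv => by
    refine Subtype.ext (hinj (Prod.ext ?_ ?_))
    · show res' u.1 = res' v.1
      rw [LinearMap.mem_ker.mp u.2, LinearMap.mem_ker.mp v.2]
    · exact congrArg Subtype.val (e.injective huv)
  have h1 := LinearMap.finrank_range_add_finrank_ker res'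
  have h2 := Submodule.finrank_le (LinearMap.range res')
  have h3 := LinearMap.finrank_le_finrank_of_injective hkinj
  rw [Module.finrank_pi_fintype] at h3
  change Module.finrank k V ≤ Module.finrank k (Frame.locallyTrivial π loc M aR) +
    ∑ q, Module.finrank k (Frame.localCentralizer π loc M q)
  omega

end FermatLib.MLT.Odd

end
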