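import Fermat.Agent.MLT.Ad.Continuous
import Fermat.Agent.MLT.Odd.Defs

/-!
# Tangent vectors at the primes away from `p`: matrix level

At a residually unramified prime with non-scalar Frobenius and sign condition, a tangent vector
killing the trace at Frobenius and one entry at the tame generator is a coboundary on the
decomposition group. At a residually ramified prime with unipotent lifts every tangent vector is a
coboundary on inertia.
-/

set_option autoImplicit false

noncomputable section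

open IsLocalRing

namespace FermatLib.MLT.Odd.GenLocal

open FermatLib.Galois.Deform

attribute [local instance] FermatLib.Galois.Deform.dualAlgebra

local notation "Γℚ" => (AlgebraicClosure ℚ ≃ₐ[ℚ] AlgebraicClosure ℚ)

section LinearAlgebra

variable {k : Type} [Field k]

/-- `F` is not a scalar matrix. -/
def IsNonScalar (F : Matrix (Fin 2) (Fin 2) k) : Prop := F 0 1 ≠ 0 ∨ F 1 0 ≠ 0 ∨ F 0 0 ≠ F 1 1

theorem isNonScalar_of_ne_smul_one {F : Matrix (Fin 2) (Fin 2) k}
    (h : ∀ c : k, F ≠ c • 1) : IsNonScalar F := by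
  by_contra hn
  simp only [IsNonScalar, not_or, not_not] at hn
  exact h (F 0 0) (by ext i j; fin_cases i <;> fin_cases j <;> simp [hn.1, hn.2.1, hn.2.2.symm])

/-- The image of `X ↦ F X - X F` is cut out by two traces. -/
theorem exists_commutator {F N : Matrix (Fin 2) (Fin 2) k} (hF : IsNonScalar F)
    (h1 : N.trace = 0) (h2 : (F * N).trace = 0) : ∃ X, N = F * X - X * F := by
  have h11 : N 1 1 = -N 0 0 := by rw [Matrix.trace_fin_two] at h1; linear_combination h1
  simp only [Matrix.trace_fin_two, Matrix.mul_apply, Fin.sum_univ_two, h11] at h2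
  by_cases hb : F 0 1 = 0
  · by_cases hc : F 1 0 = 0
    · have hd : F 0 0 - F 1 1 ≠ 0 := by
        rcases hF with h | h | h
        exacts [absurd hb h, absurd hc h, sub_ne_zero.mpr h]
      have h00 : N 0 0 = 0 := by
        rw [hb, hc] at h2
        exact (mul_eq_zero.mp (show (F 0 0 - F 1 1) * N 0 0 = 0 by linear_combination h2)).resolve_left hd
      refine ⟨!![0, N 0 1 / (F 0 0 - F 1 1); -(N 1 0 / (F 0 0 - F 1 1)), 0], ?_⟩
      ext i j
      fin_cases i <;> fin_cases j <;>
        simp [Matrix.mul_apply, Matrix.vecMul, dotProduct, Fin.sum_univ_two, hb, hc, h00, h11]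
      all_goals field_simp
      all_goals ring
    · refine ⟨!![N 1 0 / F 1 0, -(N 0 0 / F 1 0); 0, 0], ?_⟩
      ext i j
      fin_cases i <;> fin_cases j <;>
        simp [Matrix.mul_apply, Matrix.vecMul, dotProduct, Fin.sum_univ_two, h11, hb]
      all_goals field_simp
      all_goals first
        | ring1
        | linear_combination -h2 + N 1 0 * hb
        | linear_combination h2 - N 1 0 * hb
  · refine ⟨!![0, 0; N 0 0 / F 0 1, N 0 1 / F 0 1], ?_⟩
    ext i j
    fin_cases i <;> fin_cases j <;>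
      simp [Matrix.mul_apply, Matrix.vecMul, dotProduct, Fin.sum_univ_two, h11]
    all_goals field_simp
    all_goals first
      | ring1
      | linear_combination -h2
      | linear_combination h2

/-- For non-scalar `F`, trace zero matrices killed by `F - e` on the left are detected by one
entry. -/
theorem exists_entry {F : Matrix (Fin 2) (Fin 2) k} (hF : IsNonScalar F) (e : k) :
    ∃ i j : Fin 2, ∀ N : Matrix (Fin 2) (Fin 2) k, N.trace = 0 → F * N = e • N → N i j = 0 →
      N = 0 := by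
  by_cases h01 : F 0 1 = 0
  · by_cases h00 : F 0 0 = e
    · by_cases h10 : F 1 0 = 0
      · refine ⟨0, 1, fun N htr hN hz => ?_⟩
        rw [Matrix.trace_fin_two] at htr
        have e00 := congrFun (congrFun hN 1) 0
        have e01 := congrFun (congrFun hN 1) 1
        have hd : F 1 1 ≠ e := fun h => by
          rcases hF with g | g | g
          exacts [g h01, g h10, g (h00.trans h.symm)]
        simp [Matrix.mul_apply, Fin.sum_univ_two, hz, h10] at e00 e01
        have n11 : N 1 1 = 0 := e01.resolve_left hd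
        have n10 : N 1 0 = 0 := e00.resolve_left hd
        have n00 : N 0 0 = 0 := by linear_combination htr - n11
        ext i j; fin_cases i <;> fin_cases j <;> simp [n00, n11, hz, n10]
      · refine ⟨1, 0, fun N htr hN hz => ?_⟩
        rw [Matrix.trace_fin_two] at htr
        have e00 := congrFun (congrFun hN 1) 0
        have e01 := congrFun (congrFun hN 1) 1
        simp [Matrix.mul_apply, Fin.sum_univ_two, hz] at e00 e01
        have n00 : N 0 0 = 0 := e00.resolve_left h10
        have n11 : N 1 1 = 0 := by linear_combination htr - n00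
        have n01 : N 0 1 = 0 := by
          rw [n11] at e01
          exact (mul_eq_zero.mp (show F 1 0 * N 0 1 = 0 by linear_combination e01)).resolve_left h10
        ext i j; fin_cases i <;> fin_cases j <;> simp [n00, n11, hz, n01]
    · refine ⟨1, 0, fun N htr hN hz => ?_⟩
      rw [Matrix.trace_fin_two] at htr
      have a00 := congrFun (congrFun hN 0) 0
      have a01 := congrFun (congrFun hN 0) 1
      simp [Matrix.mul_apply, Fin.sum_univ_two, h01] at a00 a01
      have n00 : N 0 0 = 0 := a00.resolve_left h00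
      have n01 : N 0 1 = 0 := a01.resolve_left h00
      have n11 : N 1 1 = 0 := by linear_combination htr - n00
      ext i j; fin_cases i <;> fin_cases j <;> simp [n00, n11, hz, n01]
  · refine ⟨0, 1, fun N htr hN hz => ?_⟩
    rw [Matrix.trace_fin_two] at htr
    have a01 := congrFun (congrFun hN 0) 1
    have a00 := congrFun (congrFun hN 0) 0
    simp [Matrix.mul_apply, Fin.sum_univ_two, hz] at a00 a01
    have n11 : N 1 1 = 0 := a01.resolve_left h01
    have n00 : N 0 0 = 0 := by linear_combination htr - n11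
    have n10 : N 1 0 = 0 := by
      rw [n00] at a00
      exact (mul_eq_zero.mp (show F 0 1 * N 1 0 = 0 by linear_combination a00)).resolve_left h01
    ext i j; fin_cases i <;> fin_cases j <;> simp [n00, n11, hz, n10]

/-- A nonzero nilpotent matrix is not scalar. -/
theorem isNonScalar_of_mul_self {n : Matrix (Fin 2) (Fin 2) k} (h : n * n = 0) (hn : n ≠ 0) :
    IsNonScalar n := by
  refine isNonScalar_of_ne_smul_one fun c hc => hn ?_
  have h00 := congrFun (congrFun h 0) 0
  simp [hc, Matrix.mul_apply, Fin.sum_univ_two] at h00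
  rw [hc, h00, zero_smul]

end LinearAlgebra

section Tangent

variable {𝒪 : Type} [CommRing 𝒪] [IsLocalRing 𝒪] {R : Type} [CommRing R] [IsLocalRing R]
  [Algebra 𝒪 R] (π : R →ₐ[𝒪] ResidueField 𝒪)
  (M : Γℚ →* Matrix (Fin 2) (Fin 2) R)
  (ρ : Γℚ →* Matrix (Fin 2) (Fin 2) (ResidueField 𝒪)) (hρ : ∀ g, (M g).map π = ρ g)
  (χ : Γℚ → 𝒪) (hdet : ∀ g, (M g).det = algebraMap 𝒪 R (χ g))
  {κ : Type} (aR : κ → R)

/-- The derivative at `g` is the coboundary of `X`. -/
def DerivEq (l : R → ResidueField 𝒪) (X : Matrix (Fin 2) (Fin 2) (ResidueField 𝒪)) (g : Γℚ) :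
    Prop :=
  (M g).map l = ρ g * X - X * ρ g

variable {l : R → ResidueField 𝒪} (hl : l ∈ tangentSpace π aR)

include hl in
theorem map_l_one : (1 : Matrix (Fin 2) (Fin 2) R).map l = 0 := by
  obtain ⟨φ, -, rfl⟩ := hl
  ext i j
  rcases eq_or_ne i j with h | h <;> simp [h, dualSnd]

include hl hρ in
theorem derivEq_mul {X : Matrix (Fin 2) (Fin 2) (ResidueField 𝒪)} {a b : Γℚ}
    (ha : DerivEq M ρ l X a) (hb : DerivEq M ρ l X b) : DerivEq M ρ l X (a * b) := by
  simp only [DerivEq] at ha hb ⊢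
  rw [map_mul, Ad.map_tangent_mul π aR hl, hρ, hρ, ha, hb, map_mul, sub_mul, mul_sub,
    ← mul_assoc X, ← mul_assoc (ρ a) (ρ b), mul_assoc (ρ a) X, ← mul_assoc (ρ a) X]
  abel

include hl hρ in
theorem derivEq_inv {X : Matrix (Fin 2) (Fin 2) (ResidueField 𝒪)} {a : Γℚ}
    (ha : DerivEq M ρ l X a) : DerivEq M ρ l X a⁻¹ := by
  simp only [DerivEq] at ha ⊢
  have hone := map_l_one π aR hl
  have h := Ad.map_tangent_mul π aR hl (M a) (M a⁻¹)
  rw [← map_mul, mul_inv_cancel, map_one, hone, hρ, hρ, ha] at h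
  have e1 : ρ a⁻¹ * ρ a = 1 := Ad.rho_inv_mul ρ a
  calc (M a⁻¹).map l = ρ a⁻¹ * (ρ a * (M a⁻¹).map l) := by rw [← mul_assoc, e1, one_mul]
    _ = ρ a⁻¹ * -((ρ a * X - X * ρ a) * ρ a⁻¹) := by
        rw [eq_neg_of_add_eq_zero_right h.symm]
    _ = _ := by
        rw [mul_neg, sub_mul, mul_sub, mul_assoc X, Ad.rho_mul_inv ρ a, mul_one, ← mul_assoc,
          ← mul_assoc, e1, one_mul, neg_sub]

/-- The lift over the dual numbers, as units. -/
def dualUnits (φ : DualPoint 𝒪 R) :
    Γℚ →* (Matrix (Fin 2) (Fin 2) (DualNumber (ResidueField 𝒪)))ˣ :=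
  ((φ : R →+* DualNumber (ResidueField 𝒪)).mapMatrix.toMonoidHom.comp M).toHomUnits

theorem coe_dualUnits (φ : DualPoint 𝒪 R) (g : Γℚ) :
    ((dualUnits M φ g : _) : Matrix (Fin 2) (Fin 2) (DualNumber (ResidueField 𝒪))) =
      (M g).map φ := rfl

include hρ in
theorem derivEq_of_dualUnits_eq_one {φ : DualPoint 𝒪 R}
    {X : Matrix (Fin 2) (Fin 2) (ResidueField 𝒪)} {g : Γℚ} (h : dualUnits M φ g = 1) :
    DerivEq M ρ (dualSnd φ) X g := by
  have h' : (M g).map φ = 1 := congrArg Units.val h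
  have hfst : ρ g = 1 := by
    rw [← hρ]
    ext i j
    have := congrArg TrivSqZeroExt.fst (congrFun (congrFun h' i) j)
    rw [Matrix.map_apply, fst_dualPoint π] at this
    rw [Matrix.map_apply, this]
    rcases eq_or_ne i j with e | e <;> simp [e, Matrix.one_apply]
  rw [DerivEq, hfst, one_mul, mul_one, sub_self]
  ext i j
  have := congrArg TrivSqZeroExt.snd (congrFun (congrFun h' i) j)
  rw [Matrix.map_apply] at this
  show dualSnd φ (M g i j) = 0
  rw [dualSnd, this]
  rcases eq_or_ne i j with e | e <;> simp [e, Matrix.one_apply]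

include hρ in
/-- A coboundary on generators is one on everything they generate in the finite quotient. -/
theorem derivEq_of_closure {φ : DualPoint 𝒪 R} (hφ : ∀ i, φ (aR i) = TrivSqZeroExt.inl (π (aR i)))
    {X : Matrix (Fin 2) (Fin 2) (ResidueField 𝒪)} {s : Set Γℚ}
    (hs : ∀ g ∈ s, DerivEq M ρ (dualSnd φ) X g) {h : Γℚ}
    (hh : dualUnits M φ h ∈ Subgroup.closure (dualUnits M φ '' s)) :
    DerivEq M ρ (dualSnd φ) X h := by
  have hl : dualSnd φ ∈ tangentSpace π aR := ⟨φ, hφ, rfl⟩
  let K : Subgroup Γℚ :=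
    { carrier := {g | DerivEq M ρ (dualSnd φ) X g}
      one_mem' := derivEq_of_dualUnits_eq_one π M ρ hρ (map_one _)
      mul_mem' := fun ha hb => derivEq_mul π M ρ hρ aR hl ha hb
      inv_mem' := fun ha => derivEq_inv π M ρ hρ aR hl ha }
  rw [← MonoidHom.map_closure] at hh
  obtain ⟨g, hg, e⟩ := hh
  have hgK : g ∈ K := (Subgroup.closure_le K).mpr hs hg
  have hk : g⁻¹ * h ∈ K := derivEq_of_dualUnits_eq_one π M ρ hρ (by
    rw [map_mul, map_inv, ← e, inv_mul_cancel])
  have h' := K.mul_mem hgK hk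
  rwa [mul_inv_cancel_left] at h'

include hρ in
theorem dualUnits_pow_eq_one {p : ℕ} (hp : p.Prime) (hpk : (p : ResidueField 𝒪) = 0)
    (φ : DualPoint 𝒪 R) {g : Γℚ} (h : (ρ g - 1) * (ρ g - 1) = 0) :
    dualUnits M φ g ^ p ^ 2 = 1 := by
  have hpD : (p : DualNumber (ResidueField 𝒪)) = 0 := by
    rw [← map_natCast (TrivSqZeroExt.inlHom (ResidueField 𝒪) (ResidueField 𝒪)), hpk, map_zero]
  haveI : Fact p.Prime := ⟨hp⟩
  haveI : CharP (Matrix (Fin 2) (Fin 2) (DualNumber (ResidueField 𝒪))) p := by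
    haveI : CharP (DualNumber (ResidueField 𝒪)) p :=
      (CharP.charP_iff_prime_eq_zero hp).mpr hpD
    infer_instance
  set E := (M g).map φ - 1 with hE
  have hfst : ∀ i j, TrivSqZeroExt.fst (E i j) = (ρ g - 1) i j := fun i j => by
    rw [hE, Matrix.sub_apply, Matrix.sub_apply, TrivSqZeroExt.fst_sub, Matrix.map_apply,
      fst_dualPoint π, ← hρ, Matrix.map_apply]
    rcases eq_or_ne i j with e | e <;> simp [e, Matrix.one_apply]
  have hsq : ∀ i j, TrivSqZeroExt.fst ((E * E) i j) = 0 := fun i j => by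
    have := congrFun (congrFun h i) j
    rw [Matrix.mul_apply] at this
    simp only [Matrix.mul_apply, Fin.sum_univ_two, TrivSqZeroExt.fst_add, TrivSqZeroExt.fst_mul,
      hfst] at this ⊢
    exact this
  have h4 : (E * E) * (E * E) = 0 := by
    ext i j : 1
    rw [Matrix.mul_apply, Matrix.zero_apply]
    refine Finset.sum_eq_zero fun m _ => TrivSqZeroExt.ext ?_ ?_
    · simp [hsq]
    · simp [hsq]
  have hle : 4 ≤ p ^ 2 := by nlinarith [hp.two_le]
  have hEp : E ^ (p ^ 2) = 0 := pow_eq_zero_of_le hle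
    (by rw [show (4 : ℕ) = 2 * 2 from rfl, pow_mul, pow_two, pow_two]; exact h4)
  refine Units.ext ?_
  rw [Units.val_pow_eq_pow_val, coe_dualUnits, Units.val_one,
    show (M g).map φ = E + 1 from (sub_add_cancel _ _).symm,
    add_pow_char_pow_of_commute p 2 (Commute.one_right E), hEp, one_pow, zero_add]

include hρ in
theorem galoisFactors_dualUnits (hM : MatCont M) (φ : DualPoint 𝒪 R) :
    GaloisFactorsThroughFiniteLevel (dualUnits M φ) := by
  obtain ⟨L, hL, hLM⟩ := hM 2
  refine ⟨L, hL, fun g hg => Units.ext (Matrix.ext fun i j => ?_)⟩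
  rw [coe_dualUnits, Units.val_one, Matrix.map_apply]
  have hm := hLM g hg i j
  rw [Matrix.sub_apply] at hm
  have hz : φ (M g i j - (1 : Matrix (Fin 2) (Fin 2) R) i j) = 0 := by
    refine TrivSqZeroExt.ext ?_ ?_
    · rw [fst_dualPoint π, (res_eq_zero_iff π _).mpr (Ideal.pow_le_self two_ne_zero hm)]; rfl
    · have := (Ad.tangent_one_and_sq π (κ := Empty) Empty.elim
        (l := dualSnd φ) ⟨φ, fun e => e.elim, rfl⟩).2 _ hm 0
      simpa [dualSnd] using this
  rw [map_sub, sub_eq_zero] at hz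
  rw [hz]
  rcases eq_or_ne i j with e | e <;> simp [e, Matrix.one_apply]

include hρ hdet in
theorem trace_map_l_mul_inv (hl : l ∈ tangentSpace π aR) (g : Γℚ) :
    ((M g).map l * ρ g⁻¹).trace = 0 :=
  Ad.trace_deriv π M ρ hρ χ hdet aR hl g

variable [Finite (ResidueField 𝒪)] {p : ℕ} (hp : p.Prime) (hpk : (p : ResidueField 𝒪) = 0)
  (hM : MatCont M) {r : ℕ} (t : TamePair p r)

include hρ hdet hp hpk hM in
/-- **At a prime of `F`**: killing the trace at Frobenius and the entry at the generator gives a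
coboundary on the decomposition group. -/
theorem exists_entry_decomposition
    (hF : IsNonScalar (ρ t.frob)) (c : ResidueField 𝒪)
    (hur : ∀ σ ∈ t.A.inertiaSubgroupIn ℚ, ρ σ = 1)
    (c' : R) (hc' : π c' = c) (hsign : M t.frob * (M t.gen - 1) = c' • (M t.gen - 1)) :
    ∃ i j : Fin 2, ∀ (κ' : Type) (b : κ' → R), ∀ l ∈ tangentSpace π b,
      l (M t.frob).trace = 0 → l ((M t.gen - 1) i j) = 0 →
        ∃ X, ∀ g ∈ t.A.decompositionSubgroup ℚ, DerivEq M ρ l X g := by
  obtain ⟨i, j, hij⟩ := exists_entry hF c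
  refine ⟨i, j, fun κ' b l hl hz hij0 => ?_⟩
  obtain ⟨φ, hφ, rfl⟩ := id hl
  have hgen1 : ρ t.gen = 1 := hur _ t.gen_mem
  have hsub : ∀ A B : Matrix (Fin 2) (Fin 2) R,
      (A - B).map (dualSnd φ) = A.map (dualSnd φ) - B.map (dualSnd φ) := fun A B => by
    ext a b; simp [dualSnd]
  have hg1 : (M t.gen - 1).map (dualSnd φ) = (M t.gen).map (dualSnd φ) := by
    rw [hsub, map_l_one π b hl, sub_zero]
  set N := (M t.gen).map (dualSnd φ) with hN
  have hπ0 : (M t.gen - 1).map π = 0 := by
    ext a b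
    have := congrFun (congrFun ((hρ t.gen).trans hgen1) a) b
    rw [Matrix.map_apply, Matrix.sub_apply, map_sub, ← Matrix.map_apply (f := π) (M := M t.gen), this]
    rcases eq_or_ne a b with e | e <;> simp [e, Matrix.one_apply]
  have hFN : ρ t.frob * N = c • N := by
    have h := congrArg (fun A : Matrix (Fin 2) (Fin 2) R => A.map (dualSnd φ)) hsign
    beta_reduce at h
    rw [Ad.map_tangent_mul π b hl, hπ0, mul_zero, zero_add, hρ, hg1] at h
    rw [h]
    ext a a'
    have h0 := congrFun (congrFun hπ0 a) a'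
    have h1 := congrFun (congrFun hg1 a) a'
    simp only [Matrix.map_apply, Matrix.zero_apply] at h0 h1
    simp only [Matrix.map_apply, Matrix.smul_apply, smul_eq_mul, dualSnd, map_mul]
    rw [TrivSqZeroExt.snd_mul, fst_dualPoint π, fst_dualPoint π, h0]
    simp only [MulOpposite.op_zero, zero_smul, add_zero, smul_eq_mul, hc']
    exact congrArg (c * ·) h1
  have hNtr : N.trace = 0 := by
    have h := trace_map_l_mul_inv π M ρ hρ χ hdet b hl t.gen
    have hinv : ρ t.gen⁻¹ = 1 := by simpa [hgen1] using Ad.rho_mul_inv ρ t.gen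
    rwa [hinv, mul_one] at h
  have hN0 : N = 0 := hij N hNtr hFN (by
    rw [← hg1, Matrix.map_apply]; exact hij0)
  obtain ⟨Y, hY⟩ := exists_commutator hF (trace_map_l_mul_inv π M ρ hρ χ hdet b hl t.frob) (by
    rw [Matrix.trace_mul_comm, mul_assoc, Ad.rho_inv_mul ρ, mul_one]
    show ((M t.frob).map (dualSnd φ)).trace = 0
    rw [Matrix.trace_fin_two] at hz ⊢
    simpa [dualSnd] using hz)
  refine ⟨Y * ρ t.frob, fun g hg => ?_⟩
  haveI : Finite (DualNumber (ResidueField 𝒪)) :=
    Finite.of_equiv (ResidueField 𝒪 × ResidueField 𝒪)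
      { toFun := fun x => TrivSqZeroExt.inl x.1 + TrivSqZeroExt.inr x.2
        invFun := fun x => (x.fst, x.snd)
        left_inv := fun x => by simp
        right_inv := fun x => TrivSqZeroExt.inl_fst_add_inr_snd_eq x }
  haveI : Finite (Matrix (Fin 2) (Fin 2) (DualNumber (ResidueField 𝒪))) :=
    inferInstanceAs (Finite (Fin 2 → Fin 2 → DualNumber (ResidueField 𝒪)))
  obtain ⟨-, h2, -⟩ := t.tame _ (dualUnits M φ) (galoisFactors_dualUnits π M ρ hρ hM φ)
    fun σ hσ => ⟨2, dualUnits_pow_eq_one π M ρ hρ hp hpk φ (by rw [hur σ hσ, sub_self, zero_mul])⟩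
  refine derivEq_of_closure π M ρ hρ b hφ (s := {t.gen, t.frob}) (fun x hx => ?_)
    (by rw [Set.image_pair]; exact h2 g hg)
  rcases hx with rfl | rfl
  · rw [DerivEq, hgen1, one_mul, mul_one, sub_self]
    exact hN0
  · show (M t.frob).map (dualSnd φ) = _
    calc (M t.frob).map (dualSnd φ)
        = (M t.frob).map (dualSnd φ) * ρ t.frob⁻¹ * ρ t.frob := by
          rw [mul_assoc, Ad.rho_inv_mul ρ, mul_one]
      _ = _ := by rw [hY, sub_mul, mul_assoc, mul_assoc]

include hρ hdet hp hpk hM in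
/-- **At a prime of `Smin`**: unipotent lifts give coboundaries on inertia. -/
theorem exists_coboundary_inertia (h2 : (2 : ResidueField 𝒪) ≠ 0)
    (hsq : ∀ σ ∈ t.A.inertiaSubgroupIn ℚ, (M σ - 1) * (M σ - 1) = 0)
    (hram : ∃ σ ∈ t.A.inertiaSubgroupIn ℚ, ρ σ ≠ 1) (hl : l ∈ tangentSpace π aR) :
    ∃ X, ∀ g ∈ t.A.inertiaSubgroupIn ℚ, DerivEq M ρ l X g := by
  obtain ⟨φ, hφ, rfl⟩ := id hl
  haveI : Finite (DualNumber (ResidueField 𝒪)) :=
    Finite.of_equiv (ResidueField 𝒪 × ResidueField 𝒪)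
      { toFun := fun x => TrivSqZeroExt.inl x.1 + TrivSqZeroExt.inr x.2
        invFun := fun x => (x.fst, x.snd)
        left_inv := fun x => by simp
        right_inv := fun x => TrivSqZeroExt.inl_fst_add_inr_snd_eq x }
  haveI : Finite (Matrix (Fin 2) (Fin 2) (DualNumber (ResidueField 𝒪))) :=
    inferInstanceAs (Finite (Fin 2 → Fin 2 → DualNumber (ResidueField 𝒪)))
  have hmap : ∀ σ, (M σ - 1).map π = ρ σ - 1 := fun σ => by
    rw [← hρ]
    ext a b
    rcases eq_or_ne a b with e | e <;> simp [e]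
  have hρsq : ∀ σ ∈ t.A.inertiaSubgroupIn ℚ, (ρ σ - 1) * (ρ σ - 1) = 0 := fun σ hσ => by
    rw [← hmap, ← Matrix.map_mul, hsq σ hσ, Matrix.map_zero _ (map_zero _)]
  obtain ⟨h1, -, -⟩ := t.tame _ (dualUnits M φ) (galoisFactors_dualUnits π M ρ hρ hM φ)
    fun σ hσ => ⟨2, dualUnits_pow_eq_one π M ρ hρ hp hpk φ (hρsq σ hσ)⟩
  set n := ρ t.gen - 1 with hn
  have hnn : n * n = 0 := hρsq _ t.gen_mem
  have hn0 : n ≠ 0 := by
    intro h0
    obtain ⟨σ, hσ, hne⟩ := hram
    apply hne
    obtain ⟨m, hm⟩ := h1 σ hσ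
    have hgen1 : ρ t.gen = 1 := sub_eq_zero.mp h0
    let K : Subgroup Γℚ := ρ.ker
    have hk : t.gen ^ m ∈ K := K.zpow_mem hgen1 m
    have h' : dualUnits M φ ((t.gen ^ m)⁻¹ * σ) = 1 := by
      have hm' : dualUnits M φ t.gen ^ m = dualUnits M φ σ := hm
      rw [map_mul, map_inv, map_zpow, hm', inv_mul_cancel]
    have hσ1 : (t.gen ^ m)⁻¹ * σ ∈ K := by
      have e : (M ((t.gen ^ m)⁻¹ * σ)).map φ = 1 := congrArg Units.val h'
      show ρ _ = 1
      rw [← hρ]
      ext a b
      have := congrArg TrivSqZeroExt.fst (congrFun (congrFun e a) b)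
      rw [Matrix.map_apply, fst_dualPoint π] at this
      rw [Matrix.map_apply, this]
      rcases eq_or_ne a b with e | e <;> simp [e, Matrix.one_apply]
    have h'' : (t.gen ^ m * ((t.gen ^ m)⁻¹ * σ)) ∈ K := K.mul_mem hk hσ1
    rw [mul_inv_cancel_left] at h''
    exact h''
  set D := (M t.gen).map (dualSnd φ) with hD
  have hsub : (M t.gen - 1).map (dualSnd φ) = D := by
    rw [hD]
    ext a b
    rcases eq_or_ne a b with e | e <;> simp [e, dualSnd]
  have hrel : D * n + n * D = 0 := by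
    have h := congrArg (fun A : Matrix (Fin 2) (Fin 2) R => A.map (dualSnd φ))
      (hsq _ t.gen_mem)
    beta_reduce at h
    rw [Ad.map_tangent_mul π aR hl, hsub, hmap] at h
    rw [hn, h]
    ext a b; simp [dualSnd]
  have hnD : (n * D).trace = 0 := by
    have h := congrArg Matrix.trace hrel
    rw [Matrix.trace_add, Matrix.trace_mul_comm, Matrix.trace_zero] at h
    exact (mul_eq_zero.mp (show (2 : ResidueField 𝒪) * (n * D).trace = 0 by
      linear_combination h)).resolve_left h2
  have hDtr : D.trace = 0 := by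
    have h := trace_map_l_mul_inv π M ρ hρ χ hdet aR hl t.gen
    have hinv : ρ t.gen⁻¹ = 1 - n := by
      have e : ρ t.gen * (1 - n) = 1 := by
        rw [show ρ t.gen = 1 + n by rw [hn, add_sub_cancel], mul_sub, mul_one, add_mul, one_mul,
          hnn, add_zero, add_sub_cancel_right]
      calc ρ t.gen⁻¹ = ρ t.gen⁻¹ * (ρ t.gen * (1 - n)) := by rw [e, mul_one]
        _ = 1 - n := by rw [← mul_assoc, Ad.rho_inv_mul ρ, one_mul]
    rw [hinv, mul_sub, mul_one, Matrix.trace_sub, ← hD, Matrix.trace_mul_comm, hnD, sub_zero] at h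
    exact h
  obtain ⟨X, hX⟩ := exists_commutator (isNonScalar_of_mul_self hnn hn0) hDtr hnD
  refine ⟨X, fun g hg => derivEq_of_closure π M ρ hρ aR hφ (s := {t.gen}) ?_ ?_⟩
  · rintro x rfl
    show D = _
    rw [hX, hn, sub_mul, mul_sub, one_mul, mul_one]
    abel
  · rw [Set.image_singleton, ← Subgroup.zpowers_eq_closure]
    exact h1 g hg

end Tangent

end FermatLib.MLT.Odd.GenLocal

end
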