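import Fermat.Agent.MLT.Odd.Levels
import Fermat.Agent.Galois.RepAdic
import Fermat.Agent.Galois.Deform.Residual
import Fermat.Agent.Galois.FrobeniusElement
import Fermat.Agent.Galois.MazurP.AwayResidual

/-!
# The residual matrices of a lift

In any basis the reduction of a lift is a conjugate of the residual matrices; consequences at
unramified primes: the reduction is trivial on inertia and a power of Frobenius on the
decomposition group.
-/

set_option autoImplicit false

noncomputable section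

open IsLocalRing Module

set_option linter.style.haveILetI false

namespace FermatLib.MLT.Odd.GenLocal

open FermatLib.Galois FermatLib.Galois.Deform

local notation "Γℚ" => (AlgebraicClosure ℚ ≃ₐ[ℚ] AlgebraicClosure ℚ)

variable {O : Type} [CommRing O] [IsLocalRing O] {R : Type} [CommRing R] [IsLocalRing R]
  [Algebra O R] [IsLocalHom (algebraMap O R)] {ρbar : ResidualGaloisRep (ResidueField O)}
  (π : R →ₐ[O] ResidueField O) {ρ : GaloisRepAdic R} (b : Basis (Fin 2) R ρ.V)

/-- In any basis the reduction of a lift is conjugate to the residual matrices. -/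
theorem exists_residual_conj (h : IsLiftOf ρbar ρ) :
    ∃ U : (M2 (ResidueField O))ˣ, ∀ σ, (matOf ρ b σ).map π =
      (U : M2 (ResidueField O)) * residualMat ρbar σ * ((U⁻¹ : (M2 (ResidueField O))ˣ) : M2 _) := by
  obtain ⟨e⟩ := h
  set ψ := ResidueField.map (algebraMap O R)
  have hψπ : ∀ x, ψ (π x) = residue R x := fun x => (map_residue_eq_map_map π x).symm
  have hψs : Function.Surjective ψ := fun y => by
    obtain ⟨x, rfl⟩ := residue_surjective y
    exact ⟨π x, hψπ x⟩
  let ψe : ResidueField O ≃+* ResidueField R := RingEquiv.ofBijective ψ ⟨ψ.injective, hψs⟩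
  letI : Algebra (ResidueField O) (ResidueField R) := ψ.toAlgebra
  let bA : Basis (Fin 2) (ResidueField R) ρ.residual.V :=
    Algebra.TensorProduct.basis (ResidueField R) b
  let bR : Basis (Fin 2) (ResidueField R) (ρbar.baseChangeAlong ψ).V :=
    Algebra.TensorProduct.basis (ResidueField R) (residualBasis ρbar)
  have hA : ∀ σ, LinearMap.toMatrix bA bA (ρ.residual.ρ σ) = (matOf ρ b σ).map (residue R) :=
    fun σ => LinearMap.toMatrix_baseChange (ResidueField R) (ρ.ρ σ) b b
  have hR : ∀ σ, LinearMap.toMatrix bR bR ((ρbar.baseChangeAlong ψ).ρ σ) =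
      (residualMat ρbar σ).map ψ :=
    fun σ => LinearMap.toMatrix_baseChange (ResidueField R) (ρbar.ρ σ) (residualBasis ρbar)
      (residualBasis ρbar)
  set P := LinearMap.toMatrix bA bR e.toLinearEquiv.toLinearMap with hP
  set P' := LinearMap.toMatrix bR bA e.toLinearEquiv.symm.toLinearMap with hP'
  have h1 : P' * P = 1 := by
    rw [hP, hP', ← LinearMap.toMatrix_comp]
    simp
  have h2 : P * P' = 1 := mul_eq_one_comm.mp h1
  have hcomm : ∀ σ, P * (matOf ρ b σ).map (residue R) = (residualMat ρbar σ).map ψ * P :=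
    fun σ => by
    rw [hP, ← hA, ← hR, ← LinearMap.toMatrix_comp, ← LinearMap.toMatrix_comp]
    congr 1
    exact LinearMap.ext fun x => e.map_apply σ x
  let g : M2 (ResidueField R) →+* M2 (ResidueField O) := (ψe.symm : _ →+* _).mapMatrix
  refine ⟨⟨g P', g P, by rw [← map_mul, h1, map_one], by rw [← map_mul, h2, map_one]⟩,
    fun σ => ?_⟩
  have hM : g ((matOf ρ b σ).map (residue R)) = (matOf ρ b σ).map π := by
    ext i j
    show ψe.symm (residue R _) = π _
    rw [RingEquiv.symm_apply_eq]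
    exact (hψπ _).symm
  have hS : g ((residualMat ρbar σ).map ψ) = residualMat ρbar σ := by
    ext i j
    exact ψe.symm_apply_apply _
  show _ = g P' * _ * g P
  rw [← hM, mul_assoc, ← hS, ← map_mul g, ← map_mul g, ← hcomm, ← mul_assoc, h1, one_mul]

/-- The reduction is scalar exactly where the residual representation is. -/
theorem map_matOf_eq_smul_one_iff (h : IsLiftOf ρbar ρ) (σ : Γℚ) (c : ResidueField O) :
    (matOf ρ b σ).map π = c • 1 ↔ ρbar.ρ σ = c • 1 := by
  obtain ⟨U, hU⟩ := exists_residual_conj π b h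
  have he : residualMat ρbar σ = c • 1 ↔ ρbar.ρ σ = c • 1 := by
    refine ⟨fun e => (LinearMap.toMatrixAlgEquiv (residualBasis ρbar)).injective ?_, fun e => ?_⟩
    · rw [map_smul, map_one]; exact e
    · show LinearMap.toMatrixAlgEquiv (residualBasis ρbar) (ρbar.ρ σ) = _
      rw [e, map_smul, map_one]
  rw [← he, hU]
  refine ⟨fun e => ?_, fun e => ?_⟩
  · have := congrArg (fun X => ((U⁻¹ : (M2 (ResidueField O))ˣ) : M2 _) * X *
      (U : M2 (ResidueField O))) e
    simpa [mul_assoc] using this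
  · rw [e, mul_smul_comm, mul_one, smul_mul_assoc, Units.mul_inv]

/-- The reduction is trivial exactly where the residual representation is. -/
theorem map_matOf_eq_one_iff (h : IsLiftOf ρbar ρ) (σ : Γℚ) :
    (matOf ρ b σ).map π = 1 ↔ ρbar.ρ σ = 1 := by
  simpa using map_matOf_eq_smul_one_iff π b h σ 1

/-- The trace reduces to the residual trace. -/
theorem map_trace (h : IsLiftOf ρbar ρ) (σ : Γℚ) :
    π (ρ.trace σ) = LinearMap.trace (ResidueField O) ρbar.V (ρbar.ρ σ) := by
  let b : Basis (Fin 2) R ρ.V := Module.finBasisOfFinrankEq R ρ.V ρ.finrank_eq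
  obtain ⟨U, hU⟩ := exists_residual_conj π b h
  have e := congrArg Matrix.trace (hU σ)
  rw [Matrix.trace_mul_cycle, Units.inv_mul, one_mul, residualMat, trace_repMatrix] at e
  rw [← e, GaloisRepAdic.trace, LinearMap.trace_eq_matrix_trace R b, matOf_apply,
    Matrix.trace_fin_two, Matrix.trace_fin_two, map_add]
  rfl

variable (ρ₀ : Γℚ →* M2 (ResidueField O)) (hρ₀ : ∀ g, (matOf ρ b g).map π = ρ₀ g)

include hρ₀ in
/-- At a residually unramified prime the reduction is trivial on inertia. -/
theorem residual_inertia (h : IsLiftOf ρbar ρ) {q : ℕ} (hq : ρbar.IsUnramifiedAt q)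
    {A : ValuationSubring (AlgebraicClosure ℚ)} (hA : A.LiesOverPrime q) {σ : Γℚ}
    (hσ : σ ∈ A.inertiaSubgroupIn ℚ) : ρ₀ σ = 1 := by
  rw [← hρ₀, map_matOf_eq_one_iff π b h]
  exact hq A hA σ hσ

include hρ₀ in
/-- At a residually unramified prime the reduction is a power of Frobenius on the decomposition
group. -/
theorem exists_residual_eq_pow (h : IsLiftOf ρbar ρ) {q : ℕ} (hqp : q.Prime)
    (hq : ρbar.IsUnramifiedAt q) {A : ValuationSubring (AlgebraicClosure ℚ)}
    (hA : A.LiesOverPrime q) {F : Γℚ} (hF : A.IsFrobeniusAt F q) {σ : Γℚ}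
    (hσ : σ ∈ A.decompositionSubgroup ℚ) : ∃ n : ℕ, ρ₀ σ = ρ₀ F ^ n := by
  obtain ⟨L, hL, hL1⟩ := ρbar.factorsThroughFiniteLevel
  obtain ⟨n, τ, hτ, hστ⟩ :=
    FermatLib.Galois.exists_frobenius_pow_mul_inertia hqp hA L hF hσ
  refine ⟨n, ?_⟩
  have hfix : ρ₀ ((F ^ n * τ)⁻¹ * σ) = 1 := by
    rw [← hρ₀, map_matOf_eq_one_iff π b h]
    exact hL1 _ fun x hx => by
      rw [AlgEquiv.mul_apply, hστ x hx, ← AlgEquiv.mul_apply, inv_mul_cancel, AlgEquiv.one_apply]
  calc ρ₀ σ = ρ₀ (F ^ n * τ) * ρ₀ ((F ^ n * τ)⁻¹ * σ) := by rw [← map_mul, mul_inv_cancel_left]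
    _ = ρ₀ F ^ n := by
      rw [hfix, mul_one, map_mul, map_pow, residual_inertia π b ρ₀ hρ₀ h hq hA hτ, mul_one]

end FermatLib.MLT.Odd.GenLocal

end
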