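import Fermat.Agent.MLT.Odd.GenLocalAlg
import Fermat.Agent.CFT.GWDescent
import Fermat.Agent.CFT.GWUnrDim

/-!
# Tangent classes at the primes away from `p`

A coboundary on a decomposition group gives a trivial local class, a coboundary on inertia an
unramified one; unramified classes are at most as many as the local invariants, also when the
module is ramified.
-/

set_option autoImplicit false

noncomputable section

open IsLocalRing CategoryTheory groupCohomology ExtCitation

namespace FermatLib.MLT.Odd.GenLocal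

open FermatLib.Galois.Deform

attribute [local instance] FermatLib.Galois.Deform.dualAlgebra

local notation "Γℚ" => (AlgebraicClosure ℚ ≃ₐ[ℚ] AlgebraicClosure ℚ)

section Unramified

open FermatLib.CFT FermatLib.CFT.GWUnr

variable {p : ℕ} [Fact p.Prime] (N : Rep (ZMod p) Γℚ) [FiniteDimensional (ZMod p) N]
  (hsm : ∀ m : N, ∃ F : IntermediateField ℚ (AlgebraicClosure ℚ), FiniteDimensional ℚ F ∧
    ∀ s ∈ F.fixingSubgroup, N.ρ s m = m) (q : Nat.Primes)

include hsm in
/-- Unramified classes are at most as many as the invariants. -/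
theorem finrank_unramifiedSub_le :
    Module.finrank (ZMod p) (unramifiedSub q N) ≤
      Module.finrank (ZMod p) (Rep.res (primeLocalToGlobal q) N).ρ.invariants := by
  classical
  obtain ⟨g₀, hg₀⟩ := exists_localFrobenius (q := q)
  obtain ⟨F', hF', hF'm⟩ := exists_level N hsm
  have := hF'
  set I : Set (primeLocalGaloisGroup q) :=
    {g | primeLocalToGlobal q g ∈ (primeLocalPlace q).inertiaSubgroupIn ℚ}
  -- vectors fixed by inertia
  let NI : Submodule (ZMod p) N :=
    { carrier := {m | ∀ g ∈ I, actAt N q g m = m}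
      zero_mem' := fun g _ => map_zero _
      add_mem' := fun ha hb g hg => by rw [map_add, ha g hg, hb g hg]
      smul_mem' := fun c x hx g hg => by rw [map_smul, hx g hg] }
  -- the cocycles
  let Z : Submodule (ZMod p) (cocycles₁ (Rep.res (primeLocalToGlobal q) N)) :=
    { carrier := {c | IsLevelConstant₁ (primeLocalToGlobal q) c ∧ ∀ g ∈ I, c g = 0}
      zero_mem' := ⟨isLevelConstant₁_const (r := primeLocalToGlobal q) (0 : N), fun _ _ => rfl⟩
      add_mem' := fun {a b} ⟨ha, ha'⟩ ⟨hb, hb'⟩ => ⟨ha.add hb, fun g hg => by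
        show a g + b g = 0
        rw [ha' g hg, hb' g hg, add_zero]⟩
      smul_mem' := fun r a ⟨ha, ha'⟩ => ⟨ha.comp (r • ·), fun g hg => by
        show r • a g = 0
        rw [ha' g hg, smul_zero]⟩ }
  let ev : Z →ₗ[ZMod p] N :=
    { toFun := fun c => c.1 (locEquiv q g₀)
      map_add' := fun _ _ => rfl
      map_smul' := fun _ _ => rfl }
  -- a cocycle in `Z` is determined by its value at Frobenius
  have hinj : Function.Injective ev := by
    rw [injective_iff_map_eq_zero]
    rintro ⟨c, ⟨F, hF, hFc⟩, hI⟩ (hv : c (locEquiv q g₀) = 0)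
    have := hF
    have hc1 : c 1 = 0 := cocycles₁_map_one c
    refine Subtype.ext (cocycles₁_ext fun g => ?_)
    obtain ⟨k, t, s, ht, hs, rfl⟩ := exists_decomp hg₀ (F ⊔ F') g
    have hs0 : c s = 0 := by
      have h := hFc 1 s (IntermediateField.fixingSubgroup_antitone le_sup_left hs)
      rwa [one_mul, hc1] at h
    have hk : c (locEquiv q (g₀ ^ k)) = 0 := by
      induction k with
      | zero => rw [pow_zero, map_one, hc1]
      | succ k ih => rw [pow_succ', map_mul, cocycle_mul, ih, hv, map_zero, zero_add]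
    show c _ = (0 : N)
    rw [cocycle_mul, hs0, map_zero, zero_add, map_mul, cocycle_mul, hI _ (mem_inertia_of_isInertial ht),
      map_zero, zero_add, hk]
  -- the values are fixed by inertia
  have hval : ∀ c : Z, ev c ∈ NI := by
    rintro ⟨c, -, hI⟩ g hg
    show actAt N q g (c (locEquiv q g₀)) = c (locEquiv q g₀)
    have hconj : (locEquiv q g₀)⁻¹ * g * locEquiv q g₀ ∈ I := by
      have hd : primeLocalToGlobal q (locEquiv q g₀) ∈
          (primeLocalPlace q).decompositionSubgroup ℚ :=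
        localGaloisToGlobal_mem_decompositionSubgroup (q : ℕ) g₀
      show primeLocalToGlobal q ((locEquiv q g₀)⁻¹ * g * locEquiv q g₀) ∈
        (primeLocalPlace q).inertiaSubgroupIn ℚ
      rw [map_mul, map_mul, map_inv]
      have hc := FermatLib.Galois.conj_mem_inertia_of_mem_decomposition (K := ℚ)
        (A := primeLocalPlace q) (inv_mem hd) (τ := primeLocalToGlobal q g) hg
      rwa [inv_inv] at hc
    have h1 := cocycle_mul N q c g (locEquiv q g₀)
    rw [hI g hg, add_zero] at h1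
    have h2 := cocycle_mul N q c (locEquiv q g₀) ((locEquiv q g₀)⁻¹ * g * locEquiv q g₀)
    rw [hI _ hconj, map_zero, zero_add] at h2
    rw [← h1, ← h2]
    congr 1
    group
  let cls : Z →ₗ[ZMod p] unramifiedSub q N :=
    ((H1π (Rep.res (primeLocalToGlobal q) N)).hom.comp Z.subtype).codRestrict _
      fun c => ⟨c.1, c.2.1, c.2.2, rfl⟩
  have hsurj : Function.Surjective cls := by
    rintro ⟨x, c, hc, hI, rfl⟩
    exact ⟨⟨c, hc, hI⟩, rfl⟩
  -- coboundaries of inertia-fixed vectors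
  let T : N →ₗ[ZMod p] N := actAt N q (locEquiv q g₀) - 1
  have : FiniteDimensional (ZMod p) Z := FiniteDimensional.of_injective ev hinj
  let d : NI →ₗ[ZMod p] Z :=
    ((d₀₁ (Rep.res (primeLocalToGlobal q) N)).hom.comp NI.subtype |>.codRestrict _
      fun a => d₀₁_apply_mem_cocycles₁ (A := Rep.res (primeLocalToGlobal q) N) a.1) |>.codRestrict Z fun a => ⟨⟨F', hF', fun g s hs => by
        show actAt N q (g * s) a.1 - a.1 = actAt N q g a.1 - a.1
        rw [actAt, map_mul, map_mul, Module.End.mul_apply, hF'm _ hs]⟩,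
      fun g hg => by
        show actAt N q g a.1 - a.1 = 0
        rw [a.2 g hg, sub_self]⟩
  have hd : LinearMap.range d ≤ LinearMap.ker cls := by
    rintro _ ⟨a, rfl⟩
    exact Subtype.ext ((H1π_eq_zero_iff _).mpr ⟨a.1, rfl⟩)
  have hker : ∀ a : NI, d a = 0 → a.1 ∈ (Rep.res (primeLocalToGlobal q) N).ρ.invariants := by
    intro a ha g
    have := congrFun (congrArg (fun c : Z => (c.1 : primeLocalGaloisGroup q → N)) ha) g
    exact sub_eq_zero.mp this
  let k₀ : LinearMap.ker d →ₗ[ZMod p] (Rep.res (primeLocalToGlobal q) N).ρ.invariants :=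
    (NI.subtype.comp (LinearMap.ker d).subtype).codRestrict _ fun a => hker a.1 a.2
  have hk₀ : Function.Injective k₀ := fun a b h => by
    have := congrArg Subtype.val h
    exact Subtype.ext (Subtype.ext this)
  have e1 := LinearMap.finrank_range_add_finrank_ker cls
  rw [LinearMap.range_eq_top.mpr hsurj, finrank_top] at e1
  have e2 : Module.finrank (ZMod p) Z ≤ Module.finrank (ZMod p) NI :=
    LinearMap.finrank_le_finrank_of_injective (f := ev.codRestrict NI hval)
      fun a b h => hinj (congrArg Subtype.val h)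
  have e3 := LinearMap.finrank_range_add_finrank_ker d
  have e4 := Submodule.finrank_mono hd
  have : FiniteDimensional (ZMod p) (Rep.res (primeLocalToGlobal q) N).ρ.invariants :=
    inferInstanceAs (FiniteDimensional (ZMod p)
      ((Rep.res (primeLocalToGlobal q) N).ρ.invariants : Submodule (ZMod p) N))
  have e5 := LinearMap.finrank_le_finrank_of_injective hk₀
  omega

end Unramified

section Classes

variable {𝒪 : Type} [CommRing 𝒪] [IsLocalRing 𝒪] {R : Type} [CommRing R] [IsLocalRing R]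
  [Algebra 𝒪 R] (π : R →ₐ[𝒪] ResidueField 𝒪)
  (M : GQ →* M2 R) (ρ : GQ →* M2 (ResidueField 𝒪)) (hρ : ∀ g, (M g).map π = ρ g)
  (χ : GQ → 𝒪) (hdet : ∀ g, (M g).det = algebraMap 𝒪 R (χ g))
  {κ : Type} (aR : κ → R) (p : ℕ) [Fact p.Prime] [Algebra (ZMod p) (ResidueField 𝒪)]

include hρ in
/-- Transport of a coboundary to a conjugate. -/
theorem derivEq_conj {l : R → ResidueField 𝒪} (hl : l ∈ tangentSpace π aR)
    {X : M2 (ResidueField 𝒪)} (g : GQ) {σ : GQ} (h : DerivEq M ρ l X (g * σ * g⁻¹)) :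
    DerivEq M ρ l (ρ g⁻¹ * X * ρ g + ρ g⁻¹ * (M g).map l) σ := by
  simp only [DerivEq] at h ⊢
  rw [map_mul, map_mul, Ad.map_tangent_mul π aR hl, Ad.map_tangent_mul π aR hl,
    Matrix.map_mul, hρ, hρ, hρ, map_mul, map_mul] at h
  have e0 : (M g).map l * ρ g⁻¹ + ρ g * (M g⁻¹).map l = 0 := by
    have h' := Ad.map_tangent_mul π aR hl (M g) (M g⁻¹)
    rw [← map_mul, mul_inv_cancel, map_one, map_l_one π aR hl, hρ, hρ] at h'
    exact h'.symm
  have e1 : ρ g⁻¹ * ρ g = 1 := Ad.rho_inv_mul ρ g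
  have e2 : ρ g * ρ g⁻¹ = 1 := Ad.rho_mul_inv ρ g
  have hginv : (M g⁻¹).map l = -(ρ g⁻¹ * (M g).map l * ρ g⁻¹) := by
    calc (M g⁻¹).map l = ρ g⁻¹ * (ρ g * (M g⁻¹).map l) := by rw [← mul_assoc, e1, one_mul]
      _ = _ := by rw [eq_neg_of_add_eq_zero_right e0, mul_neg, ← mul_assoc]
  rw [hginv] at h
  set D := (M g).map l
  set E := (M σ).map l
  set G := ρ g
  set G' := ρ g⁻¹
  set S := ρ σ
  -- multiply on both sides by `G'` and `G`
  have h' := congrArg (fun Y => G' * Y * G) h
  simp only [add_mul, mul_add, sub_mul, mul_sub, mul_neg, neg_mul, mul_assoc] at h' ⊢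
  simp only [← mul_assoc G' G, e1, one_mul, mul_one] at h'
  rw [← sub_eq_zero] at h' ⊢
  rw [← h']
  abel

variable [Finite (ResidueField 𝒪)]

/-- **A coboundary on one decomposition group kills the local class.** -/
theorem resAt_classMap_eq_zero (h2 : (2 : ResidueField 𝒪) ≠ 0) (q : Nat.Primes)
    {A : ValuationSubring (AlgebraicClosure ℚ)} (hA : A.LiesOverPrime (q : ℕ))
    (l : tangentSpace π aR)
    (h : ∃ X, ∀ g ∈ A.decompositionSubgroup ℚ, DerivEq M ρ l.1 X g) :
    CFT.resAt q (Ad.adRep ρ p) (Ad.classMap π M ρ hρ χ hdet aR p l) = 0 := by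
  obtain ⟨X, hX⟩ := h
  obtain ⟨g, rfl⟩ := CFT.exists_smul_padicPlace_eq (q := q) A hA
  refine (Ad.map_classMap_eq_zero_iff π M ρ hρ χ hdet aR p h2 (primeLocalToGlobal q) l).mpr
    ⟨_, fun t => derivEq_conj π M ρ hρ aR l.2 g (σ := primeLocalToGlobal q t) (hX _ ?_)⟩
  rw [Galois.mem_decompositionSubgroup_smul, show g⁻¹ * (g * primeLocalToGlobal q t * g⁻¹) * g =
    primeLocalToGlobal q t by group, CFT.decompositionSubgroup_padicPlace]
  exact ⟨t, rfl⟩

/-- **A coboundary on inertia gives an unramified class.** -/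
theorem resAt_classMap_mem_unramifiedSub (h2 : (2 : ResidueField 𝒪) ≠ 0) (hM : MatCont M)
    (q : Nat.Primes) {A : ValuationSubring (AlgebraicClosure ℚ)} (hA : A.LiesOverPrime (q : ℕ))
    (l : tangentSpace π aR)
    (h : ∃ X, ∀ g ∈ A.inertiaSubgroupIn ℚ, DerivEq M ρ l.1 X g) :
    CFT.resAt q (Ad.adRep ρ p) (Ad.classMap π M ρ hρ χ hdet aR p l) ∈
      CFT.unramifiedSub q (Ad.adRep ρ p) := by
  obtain ⟨X₀, hX₀⟩ := h
  obtain ⟨g, rfl⟩ := CFT.exists_smul_padicPlace_eq (q := q) A hA
  set X := ρ g⁻¹ * X₀ * ρ g + ρ g⁻¹ * (M g).map l.1 with hX'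
  have hX : ∀ σ ∈ (padicPlace (q : ℕ)).inertiaSubgroupIn ℚ, DerivEq M ρ l.1 X σ := fun σ hσ =>
    derivEq_conj π M ρ hρ aR l.2 g (hX₀ _ (by
      rw [Galois.mem_inertiaSubgroupIn_smul, show g⁻¹ * (g * σ * g⁻¹) * g = σ by group]
      exact hσ))
  let Y : Ad.adRep ρ p := (⟨X - (X.trace / 2) • 1, Ad.mem_traceZero.mpr (by
    rw [Matrix.trace_sub, Matrix.trace_smul, Matrix.trace_one, Fintype.card_fin, smul_eq_mul]
    push_cast
    field_simp
    ring)⟩ : Ad.traceZero (ResidueField 𝒪))
  set c := Ad.toCocycle π M ρ hρ χ hdet aR p l with hc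
  let c' : cocycles₁ (Rep.res (primeLocalToGlobal q) (Ad.adRep ρ p)) :=
    mapCocycles₁ (primeLocalToGlobal q) (𝟙 (Rep.res (primeLocalToGlobal q) (Ad.adRep ρ p))) c -
      ⟨(d₀₁ (Rep.res (primeLocalToGlobal q) (Ad.adRep ρ p))).hom Y, d₀₁_apply_mem_cocycles₁ (A := Rep.res (primeLocalToGlobal q) (Ad.adRep ρ p)) Y⟩
  have hclass : (H1π _).hom c' =
      CFT.resAt q (Ad.adRep ρ p) (Ad.classMap π M ρ hρ χ hdet aR p l) := by
    rw [Ad.classMap, LinearMap.comp_apply, ← hc, CFT.resAt_H1π]
    refine (map_sub (H1π (Rep.res (primeLocalToGlobal q) (Ad.adRep ρ p))).hom _ _).trans ?_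
    rw [sub_eq_self]
    exact (H1π_eq_zero_iff _).mpr ⟨Y, rfl⟩
  have hval : ∀ t, DerivEq M ρ l.1 X (primeLocalToGlobal q t) → c' t = 0 := by
    intro t ht
    refine Subtype.ext ?_
    show (M (primeLocalToGlobal q t)).map l.1 * ρ (primeLocalToGlobal q t)⁻¹ -
      (ρ (primeLocalToGlobal q t) * (X - (X.trace / 2) • 1) * ρ (primeLocalToGlobal q t)⁻¹ -
        (X - (X.trace / 2) • 1)) = 0
    rw [show (M (primeLocalToGlobal q t)).map l.1 = _ from ht, mul_sub, sub_mul, sub_mul,
      mul_smul_comm, mul_one, smul_mul_assoc, Ad.rho_mul_inv, mul_assoc X, Ad.rho_mul_inv, mul_one]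
    abel
  obtain ⟨φ, hφ, hφl⟩ := l.2
  obtain ⟨L, hL, hLM⟩ := galoisFactors_dualUnits π M ρ hρ hM φ
  refine ⟨c', ⟨L, hL, fun t s hs => ?_⟩, fun t ht => hval t (hX _ ht), hclass⟩
  have hs0 : c' s = 0 := hval s (by
    rw [← hφl]
    exact derivEq_of_dualUnits_eq_one π M ρ hρ
      (hLM _ ((IntermediateField.mem_fixingSubgroup_iff L _).mp hs)))
  rw [show c' (t * s) = _ from (mem_cocycles₁_iff (c' : _ → _)).mp c'.2 t s, hs0, map_zero,
    zero_add]

end Classes

end FermatLib.MLT.Odd.GenLocal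

end
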