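import Fermat.Agent.MLT.Odd.GenLocalCohom
import Fermat.Agent.MLT.Odd.GenLocalBridge
import Fermat.Agent.MLT.Odd.TamePair

/-!
# Local conditions at the primes of `F` and `Smin`

At `r ∈ F` one entry `l` of `M gen - 1` and `z` cut out the classes trivial at `r`; the local
invariants have dimension at least `f = [k : 𝔽_p]`. At `Smin` every tangent class is unramified,
and unramified classes are at most as many as the invariants.
-/

set_option autoImplicit false
set_option linter.style.haveILetI false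

noncomputable section

open IsLocalRing CategoryTheory groupCohomology ExtCitation Module

namespace FermatLib.MLT.Odd.GenLocal

open FermatLib.Galois FermatLib.Galois.Deform

attribute [local instance] FermatLib.Galois.Deform.dualAlgebra

local notation "Γℚ" => (AlgebraicClosure ℚ ≃ₐ[ℚ] AlgebraicClosure ℚ)

variable {O : Type} [CommRing O] [IsLocalRing O] {R : Type} [CommRing R] [IsLocalRing R]
  [Algebra O R] [IsLocalHom (algebraMap O R)] {p : ℕ} [Fact p.Prime]
  [Algebra (ZMod p) (ResidueField O)]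
  {ρbar : ResidualGaloisRep (ResidueField O)} (π : R →ₐ[O] ResidueField O)
  {S : OddPrimes p ρbar} {Q : Finset ℕ}
  {ρ : GaloisRepAdic R} (hlift : IsOddLift S Q ρ) (hlo : IsLiftOf ρbar ρ)
  (b : Basis (Fin 2) R ρ.V)
  (ρ₀ : Γℚ →* M2 (ResidueField O)) (hρ₀ : ∀ g, (matOf ρ b g).map π = ρ₀ g)

omit [IsLocalHom (algebraMap O R)] [Fact p.Prime] [Algebra (ZMod p) (ResidueField O)] in
/-- A tangent vector kills the constants. -/
theorem tangent_sub_algebraMap {κ : Type} (aR : κ → R) {l : R → ResidueField O}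
    (hl : l ∈ tangentSpace π aR) (x : R) (c : O) : l (x - algebraMap O R c) = l x := by
  obtain ⟨φ, -, rfl⟩ := hl
  show TrivSqZeroExt.snd (φ (x - algebraMap O R c)) = TrivSqZeroExt.snd (φ x)
  rw [map_sub, AlgHom.commutes, TrivSqZeroExt.snd_sub]
  show _ - TrivSqZeroExt.snd (TrivSqZeroExt.inl (residue O c)) = _
  rw [TrivSqZeroExt.snd_inl, sub_zero]

omit [IsLocalHom (algebraMap O R)] [Fact p.Prime] [Algebra (ZMod p) (ResidueField O)] in
/-- The coordinate `z` is the trace up to a constant. -/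
theorem zCoord_eq {r : ℕ} (t : TamePair p r) :
    zCoord S t ρ = ρ.trace t.frob - algebraMap O R ((S.ε r : O) * ((r : O) + 1)) := by
  rw [zCoord]; simp

section AtF

variable {q : Nat.Primes} (hq : (q : ℕ) ∈ S.F) (t : TamePair p q)

include π hlo hq in
omit [Fact p.Prime] [Algebra (ZMod p) (ResidueField O)] in
/-- `z` is in the maximal ideal. -/
theorem zCoord_mem_maximalIdeal : zCoord S t ρ ∈ maximalIdeal R := by
  rw [← res_eq_zero_iff π, zCoord, map_sub, map_trace π hlo,
    S.trace_F q hq t.A t.liesOver t.frob t.frob_spec]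
  simp

include hlo hρ₀ hq in
/-- The residual Frobenius at a prime of `F` is not scalar. -/
theorem isNonScalar_frob (hdet : (GaloisRepAdic.ofResidualGaloisRep ρbar).DetIsCyclotomic p) :
    IsNonScalar (ρ₀ t.frob) := by
  haveI : CharP (ResidueField O) p :=
    charP_of_injective_algebraMap (algebraMap (ZMod p) (ResidueField O)).injective p
  refine isNonScalar_of_ne_smul_one fun c hc => ?_
  rw [← hρ₀, map_matOf_eq_smul_one_iff π b hlo] at hc
  have hsc := FermatLib.MazurP.isScalarAt_of_frobenius q.2 t.liesOver (S.unramified_F q hq)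
    t.frob_spec hc
  refine S.not_scalar_F q hq ?_ hsc
  have hd := FermatLib.MazurP.det_residual_frobenius (Fact.out : p.Prime) hdet q.2
    (S.ne_p q (Finset.mem_union_right _ hq)) t.liesOver t.frob_spec
  rw [hc, LinearMap.det_smul, ρbar.finrank_eq, map_one, mul_one] at hd
  have ht := S.trace_F q hq t.A t.liesOver t.frob t.frob_spec
  rw [hc, map_smul, LinearMap.trace_one, ρbar.finrank_eq, smul_eq_mul, Nat.cast_ofNat] at ht
  have hε : ((S.ε q : ℤ) : ResidueField O) ^ 2 = 1 := by
    rcases S.sign_F q hq with h | h <;> simp [h]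
  have h0 : (((q : ℕ) : ResidueField O) - 1) * (((q : ℕ) : ResidueField O) - 1) = 0 := by
    linear_combination 4 * hd - congrArg (fun x => x ^ 2) ht -
      (((q : ℕ) : ResidueField O) + 1) ^ 2 * hε
  refine (CharP.natCast_eq_natCast (ResidueField O) p).mp ?_
  rw [Nat.cast_one]
  exact sub_eq_zero.mp (mul_self_eq_zero.mp h0)

include hlift hq in
omit [Algebra O R] [IsLocalHom (algebraMap O R)] [Fact p.Prime]
  [Algebra (ZMod p) (ResidueField O)] in
/-- The sign relation in matrices. -/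
theorem frob_mul_sub_one :
    matOf ρ b t.frob * (matOf ρ b t.gen - 1) =
      (((q : ℕ) : R) * (S.ε q : R)) • (matOf ρ b t.gen - 1) := by
  have h : ρ.ρ t.frob * (ρ.ρ t.gen - 1) = (((q : ℕ) : R) * (S.ε q : R)) • (ρ.ρ t.gen - 1) :=
    LinearMap.ext fun v => hlift.sign q hq t.A t.liesOver t.frob t.frob_spec t.gen t.gen_mem v
  have := congrArg (LinearMap.toMatrixAlgEquiv b) h
  rw [map_mul, map_smul, map_sub, map_one] at this
  exact this

include hlo hρ₀ hq in
omit [Fact p.Prime] [Algebra (ZMod p) (ResidueField O)] in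
/-- The entries of `M gen - 1` are in the maximal ideal. -/
theorem entry_mem_maximalIdeal (i j : Fin 2) : (matOf ρ b t.gen - 1) i j ∈ maximalIdeal R := by
  have h := residual_inertia π b ρ₀ hρ₀ hlo (S.unramified_F q hq) t.liesOver t.gen_mem
  rw [← hρ₀] at h
  rw [← res_eq_zero_iff π, Matrix.sub_apply, map_sub, ← Matrix.map_apply (f := π), h]
  rcases eq_or_ne i j with e | e <;> simp [e, Matrix.one_apply]

omit [IsLocalHom (algebraMap O R)] [Fact p.Prime] [Algebra (ZMod p) (ResidueField O)] in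
/-- The entries of `M gen - 1` vanish where the representation is unramified. -/
theorem vanishesWhere_entry {O' : Type} [CommRing O'] [IsDomain O'] [IsDiscreteValuationRing O']
    [Algebra O' R] (i j : Fin 2) :
    VanishesWhere (O := O') ρ (fun _ _ _ ρx => ρx.IsUnramifiedAt q)
      ((matOf ρ b t.gen - 1) i j) := by
  intro x hx
  have hσ : (x.rep ρ).ρ t.gen = 1 := hx t.A t.liesOver t.gen t.gen_mem
  letI : Algebra R x.O' := (x.toHom : R →+* x.O').toAlgebra
  have h1 : LinearMap.toMatrix (Algebra.TensorProduct.basis x.O' b)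
      (Algebra.TensorProduct.basis x.O' b) ((ρ.ρ t.gen).baseChange x.O') =
      (matOf ρ b t.gen).map (algebraMap R x.O') := LinearMap.toMatrix_baseChange _ _ b b
  have hσ' : (ρ.ρ t.gen).baseChange x.O' = 1 := hσ
  rw [hσ', LinearMap.toMatrix_one] at h1
  rw [Matrix.sub_apply, map_sub, sub_eq_zero]
  have h2 := congrFun (congrFun h1 i) j
  rw [Matrix.map_apply] at h2
  refine h2.symm.trans ?_
  rcases eq_or_ne i j with e | e <;> simp [e, Matrix.one_apply]

variable [Finite (ResidueField O)] (h2 : (2 : ResidueField O) ≠ 0)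
  (χ : Γℚ → O) (hdetM : ∀ g, (matOf ρ b g).det = algebraMap O R (χ g))

include hlift hlo hq h2 in
/-- **The coordinates at a prime of `F`**: one entry `l` of `M gen - 1` vanishes on the unramified
points, and a tangent vector killing `z` and `l` has trivial class at the prime. -/
theorem exists_coord_F (hdet : (GaloisRepAdic.ofResidualGaloisRep ρbar).DetIsCyclotomic p) :
    ∃ i j : Fin 2, ∀ (κ : Type) (aR : κ → R) (l : tangentSpace π aR),
      l.1 (zCoord S t ρ) = 0 → l.1 ((matOf ρ b t.gen - 1) i j) = 0 →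
        CFT.resAt q (Ad.adRep ρ₀ p)
          (Ad.classMap π (matOf ρ b) ρ₀ hρ₀ χ hdetM aR p l) = 0 := by
  have hpk : (p : ResidueField O) = 0 := by
    rw [← map_natCast (algebraMap (ZMod p) (ResidueField O)), ZMod.natCast_self, map_zero]
  obtain ⟨i, j, hij⟩ := exists_entry_decomposition π (matOf ρ b) ρ₀ hρ₀ χ hdetM
    (Fact.out : p.Prime) hpk (matCont_matOf ρ b) t (isNonScalar_frob π hlo b ρ₀ hρ₀ hq t hdet)
    (π (((q : ℕ) : R) * (S.ε q : R)))
    (fun σ hσ => residual_inertia π b ρ₀ hρ₀ hlo (S.unramified_F q hq) t.liesOver hσ)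
    _ rfl (frob_mul_sub_one hlift b hq t)
  refine ⟨i, j, fun κ aR l hz he => ?_⟩
  refine resAt_classMap_eq_zero π (matOf ρ b) ρ₀ hρ₀ χ hdetM aR p h2 q t.liesOver l
    (hij κ aR l.1 l.2 ?_ he)
  rw [zCoord_eq, tangent_sub_algebraMap π aR l.2, GaloisRepAdic.trace,
    LinearMap.trace_eq_matrix_trace R b, ← matOf_apply] at hz
  exact hz

include hlo hρ₀ hq t h2 in
/-- The local invariants at a prime of `F` have dimension at least `f`. -/
theorem finrank_le_invariants_F (hdet : (GaloisRepAdic.ofResidualGaloisRep ρbar).DetIsCyclotomic p) :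
    finrank (ZMod p) (ResidueField O) ≤
      finrank (ZMod p) (Rep.res (primeLocalToGlobal q) (Ad.adRep ρ₀ p)).ρ.invariants := by
  obtain ⟨g, hg⟩ := CFT.exists_smul_padicPlace_eq (q := q) t.A t.liesOver
  set F := ρ₀ t.frob
  -- the conjugate of the traceless part of Frobenius
  set N := F - (F.trace / 2) • 1 with hN
  have hN0 : N ≠ 0 := fun h0 => by
    have hF := sub_eq_zero.mp (hN ▸ h0)
    rcases isNonScalar_frob π hlo b ρ₀ hρ₀ hq t hdet with h | h | h <;>
      exact h (by rw [show ρ₀ t.frob = _ from hF]; simp)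
  set Z := ρ₀ g⁻¹ * N * ρ₀ g with hZ
  have hgg : ρ₀ g * ρ₀ g⁻¹ = 1 := Ad.rho_mul_inv ρ₀ g
  have hgg' : ρ₀ g⁻¹ * ρ₀ g = 1 := Ad.rho_inv_mul ρ₀ g
  have hZtr : Z.trace = 0 := by
    rw [hZ, Matrix.trace_mul_cycle, hgg, one_mul, hN, Matrix.trace_sub, Matrix.trace_smul,
      Matrix.trace_one, Fintype.card_fin, smul_eq_mul]
    push_cast
    field_simp
    ring
  have hcomm : ∀ s, ρ₀ (primeLocalToGlobal q s) * Z = Z * ρ₀ (primeLocalToGlobal q s) := by
    intro s
    set σ := primeLocalToGlobal q s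
    have hσ : g * σ * g⁻¹ ∈ t.A.decompositionSubgroup ℚ := by
      rw [← hg, Galois.mem_decompositionSubgroup_smul, show g⁻¹ * (g * σ * g⁻¹) * g = σ by group,
        CFT.decompositionSubgroup_padicPlace]
      exact ⟨s, rfl⟩
    obtain ⟨n, hn⟩ := exists_residual_eq_pow π b ρ₀ hρ₀ hlo q.2 (S.unramified_F q hq) t.liesOver
      t.frob_spec hσ
    have hc : Commute (F ^ n) N := by
      rw [hN]
      exact (Commute.refl F).pow_left n |>.sub_right ((Commute.one_right _).smul_right _)
    rw [map_mul, map_mul] at hn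
    have hσ' : ρ₀ σ = ρ₀ g⁻¹ * F ^ n * ρ₀ g := by
      rw [← hn]
      simp only [mul_assoc, hgg', mul_one]
      rw [← mul_assoc, hgg', one_mul]
    rw [hσ', hZ]
    simp only [mul_assoc]
    rw [← mul_assoc (ρ₀ g) (ρ₀ g⁻¹), hgg, one_mul, ← mul_assoc (ρ₀ g) (ρ₀ g⁻¹), hgg, one_mul,
      ← mul_assoc (F ^ n), hc.eq, mul_assoc]
  have hZ0 : Z ≠ 0 := fun h0 => hN0 (by
    calc N = ρ₀ g * Z * ρ₀ g⁻¹ := by
          rw [hZ]
          simp only [mul_assoc]
          rw [hgg, mul_one, ← mul_assoc, hgg, one_mul]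
      _ = 0 := by rw [h0, mul_zero, zero_mul])
  let I : Submodule (ZMod p) (Ad.traceZero (ResidueField O)) :=
    (Rep.res (primeLocalToGlobal q) (Ad.adRep ρ₀ p)).ρ.invariants
  let Zc : ResidueField O →ₗ[ZMod p] Ad.traceZero (ResidueField O) :=
    (LinearMap.toSpanSingleton (ResidueField O) _
      (⟨Z, hZtr⟩ : Ad.traceZero (ResidueField O))).restrictScalars (ZMod p)
  have hmem : ∀ c, Zc c ∈ I := fun c s => by
    refine Subtype.ext ?_
    show ρ₀ (primeLocalToGlobal q s) * (c • Z) * ρ₀ (primeLocalToGlobal q s)⁻¹ = c • Z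
    rw [mul_smul_comm, hcomm, smul_mul_assoc, mul_assoc, Ad.rho_mul_inv, mul_one]
  have hinj : Function.Injective Zc := fun a c h => by
    have h' : a • Z = c • Z := congrArg Subtype.val h
    exact smul_left_injective (ResidueField O) hZ0 h'
  have : FiniteDimensional (ZMod p) (Ad.traceZero (ResidueField O)) :=
    inferInstanceAs (FiniteDimensional (ZMod p) (Ad.adRep ρ₀ p))
  exact LinearMap.finrank_le_finrank_of_injective (f := Zc.codRestrict I hmem)
    fun a c h => hinj (congrArg Subtype.val h)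

end AtF

section AtSmin

variable {q : Nat.Primes} (hq : (q : ℕ) ∈ S.Smin) [Finite (ResidueField O)]
  (h2 : (2 : ResidueField O) ≠ 0)
  (χ : Γℚ → O) (hdetM : ∀ g, (matOf ρ b g).det = algebraMap O R (χ g))

omit [Algebra O R] [IsLocalHom (algebraMap O R)] [Fact p.Prime]
  [Algebra (ZMod p) (ResidueField O)] [Finite (ResidueField O)] in
include hlift hq in
/-- The lifts are unipotent on inertia at `Smin`. -/
theorem sub_one_sq {A : ValuationSubring (AlgebraicClosure ℚ)} (hA : A.LiesOverPrime (q : ℕ))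
    {σ : Γℚ} (hσ : σ ∈ A.inertiaSubgroupIn ℚ) :
    (matOf ρ b σ - 1) * (matOf ρ b σ - 1) = 0 := by
  have h := hlift.unipotent q (Finset.mem_union_left _ hq) A hA σ hσ
  have hc := LinearMap.aeval_self_charpoly (ρ.ρ σ)
  rw [h] at hc
  have := congrArg (LinearMap.toMatrixAlgEquiv b) hc
  simp only [map_sub, Polynomial.aeval_X, map_one, map_zero, pow_two, map_mul] at this
  exact this

include hlift hlo hq h2 in
/-- **At a residually ramified prime every tangent class is unramified.** -/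
theorem resAt_classMap_mem_Smin {κ : Type} (aR : κ → R) (l : tangentSpace π aR) :
    CFT.resAt q (Ad.adRep ρ₀ p) (Ad.classMap π (matOf ρ b) ρ₀ hρ₀ χ hdetM aR p l) ∈
      CFT.unramifiedSub q (Ad.adRep ρ₀ p) := by
  have hpk : (p : ResidueField O) = 0 := by
    rw [← map_natCast (algebraMap (ZMod p) (ResidueField O)), ZMod.natCast_self, map_zero]
  have hqp : (q : ℕ) ≠ p := S.ne_p q (Finset.mem_union_left _ (Finset.mem_union_left _ hq))
  obtain ⟨t⟩ := nonempty_tamePair (Fact.out : p.Prime) q.2 hqp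
  have hram : ∃ σ ∈ t.A.inertiaSubgroupIn ℚ, ρ₀ σ ≠ 1 := by
    by_contra! hall
    refine S.ramified_min q hq fun A hA σ hσ => ?_
    obtain ⟨g, rfl⟩ := FermatLib.Galois.exists_smul_place_eq q.2 t.liesOver hA
    have h1 := hall _ (Galois.mem_inertiaSubgroupIn_smul.mp hσ)
    rw [map_mul, map_mul] at h1
    rw [← map_matOf_eq_one_iff π b hlo, hρ₀]
    calc ρ₀ σ = ρ₀ g * (ρ₀ g⁻¹ * ρ₀ σ * ρ₀ g) * ρ₀ g⁻¹ := by
          rw [← map_mul, ← map_mul, ← map_mul, ← map_mul]; group
      _ = 1 := by rw [h1, mul_one, Ad.rho_mul_inv]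
  exact resAt_classMap_mem_unramifiedSub π (matOf ρ b) ρ₀ hρ₀ χ hdetM aR p h2
    (matCont_matOf ρ b) q t.liesOver l
    (exists_coboundary_inertia π (matOf ρ b) ρ₀ hρ₀ χ hdetM aR (Fact.out : p.Prime) hpk
      (matCont_matOf ρ b) t h2 (fun σ hσ => sub_one_sq hlift b hq t.liesOver hσ) hram l.2)

omit [IsLocalHom (algebraMap O R)] [Finite (ResidueField O)] in
include hρ₀ in
/-- The adjoint module of the reduction is smooth. -/
theorem adRep_smooth (m : Ad.adRep ρ₀ p) :
    ∃ F : IntermediateField ℚ (AlgebraicClosure ℚ), FiniteDimensional ℚ F ∧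
      ∀ s ∈ F.fixingSubgroup, (Ad.adRep ρ₀ p).ρ s m = m := by
  obtain ⟨L, hL, hLM⟩ := matCont_matOf ρ b 1
  refine ⟨L, hL, fun s hs => ?_⟩
  have h1 : ρ₀ s = 1 := by
    rw [← hρ₀]
    ext i j
    have hm := hLM s ((IntermediateField.mem_fixingSubgroup_iff _ _).mp hs) i j
    rw [pow_one, Matrix.sub_apply, ← res_eq_zero_iff π, map_sub, sub_eq_zero] at hm
    rw [Matrix.map_apply, hm]
    rcases eq_or_ne i j with e | e <;> simp [e, Matrix.one_apply]
  rw [Ad.adRep_eq_one_of_eq_one ρ₀ p h1]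
  rfl

omit [IsLocalHom (algebraMap O R)] in
include hρ₀ in
/-- Unramified classes are at most as many as the invariants. -/
theorem finrank_unramifiedSub_adRep_le (q : Nat.Primes) :
    finrank (ZMod p) (CFT.unramifiedSub q (Ad.adRep ρ₀ p)) ≤
      finrank (ZMod p) (Rep.res (primeLocalToGlobal q) (Ad.adRep ρ₀ p)).ρ.invariants :=
  finrank_unramifiedSub_le (Ad.adRep ρ₀ p) (adRep_smooth π b ρ₀ hρ₀) q

end AtSmin

end FermatLib.MLT.Odd.GenLocal

end
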