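import Fermat.Agent.MLT.Odd.Levels
import Mathlib.RingTheory.MvPowerSeries.Inverse
import Mathlib.FieldTheory.IsAlgClosed.AlgebraicClosure

/-!
# Generators of the framed rings: definitions
-/

set_option autoImplicit false

namespace FermatLib.MLT.Odd

open IsLocalRing Polynomial

local notation "Γℚ" => (AlgebraicClosure ℚ ≃ₐ[ℚ] AlgebraicClosure ℚ)

/-- The hypotheses on the residual representation. -/
structure OddResidual {O : Type} [CommRing O] [IsLocalRing O] (p : ℕ)
    (ρbar : ResidualGaloisRep (ResidueField O)) : Prop where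
  absIrred : ρbar.IsAbsolutelyIrreducible
  det : (GaloisRepAdic.ofResidualGaloisRep ρbar).DetIsCyclotomic p
  split : ∀ σ : Γℚ, ∃ α β : ResidueField O,
    LinearMap.charpoly (ρbar.ρ σ) = (X - C α) * (X - C β)
  index_two : ∀ (K : Type) [Field K] [Algebra (ResidueField O) K] (G : Subgroup Γℚ), G.index = 2 →
    ∀ V : Submodule K (ρbar.baseChange K).V,
      (∀ σ ∈ G, ∀ x ∈ V, (ρbar.baseChange K).ρ σ x ∈ V) → V = ⊥ ∨ V = ⊤

variable {O : Type} [CommRing O] [IsDomain O] [IsDiscreteValuationRing O]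
  [IsAdicComplete (maximalIdeal O) O] [Finite (ResidueField O)] [CharZero O]
  {p : ℕ} [Fact p.Prime] {ρbar : ResidualGaloisRep (ResidueField O)}

/-- Auxiliary primes of level `n`. -/
structure IsTWFamily (S : OddPrimes p ρbar) (n : ℕ) {r : ℕ} (qv : Fin r → ℕ) : Prop where
  injective : Function.Injective qv
  prime : ∀ i, (qv i).Prime
  notMem : ∀ i, qv i ∉ insert p S.all
  dvd : ∀ i, p ^ (n + 1) ∣ qv i - 1
  distinct : ∀ i, ∀ P : ValuationSubring (AlgebraicClosure ℚ), P.LiesOverPrime (qv i) →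
    ∀ φ : Γℚ, P.IsFrobeniusAt φ (qv i) →
      ∃ α β : ResidueField O, α ≠ β ∧ LinearMap.charpoly (ρbar.ρ φ) = (X - C α) * (X - C β)

/-- The framed ring is generated by the local coordinates and `g` further elements. -/
def HasGenerators (S : OddPrimes p ρbar) (tp : S.TamePairs) (g : ℕ) {R : Type} [CommRing R]
    [IsLocalRing R] [Algebra O R] (ρ : GaloisRepAdic R) : Prop :=
  ∀ b : Module.Basis (Fin 2) R ρ.V, ∃ (l : ℕ → R) (e z : R),
    (∀ r ∈ S.F, l r ∈ maximalIdeal R ∧
      VanishesWhere (O := O) ρ (fun _ _ _ ρx => ρx.IsUnramifiedAt r) (l r)) ∧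
    (e ∈ maximalIdeal R ∧ z ∈ maximalIdeal R ∧ (S.pCase = PCase.mixed →
      VanishesWhere (O := O) ρ (fun _ _ _ ρx => ¬ ρx.IsStrictOrdinaryAt p) e ∧
      VanishesWhere (O := O) ρ (fun _ _ _ ρx => ρx.IsStrictOrdinaryAt p) z)) ∧
    ∃ v : Fin g → MvPowerSeries (FrameVar S.T) R,
      (∀ i, v i ∈ maximalIdeal (MvPowerSeries (FrameVar S.T) R)) ∧
      maximalIdeal (MvPowerSeries (FrameVar S.T) R) =
        (maximalIdeal O).map (algebraMap O (MvPowerSeries (FrameVar S.T) R)) ⊔
          Ideal.span (Set.range (framedCoord ρ b tp.atT)) ⊔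
          Ideal.span (Set.range (fun r : S.F => MvPowerSeries.C (zCoord S (tp.atF r) ρ)) ∪
            (fun r => MvPowerSeries.C (l r)) '' (S.F : Set ℕ)) ⊔
          (if S.pCase = PCase.mixed then Ideal.span {MvPowerSeries.C e, MvPowerSeries.C z}
            else ⊥) ⊔
          Ideal.span (Set.range v)

end FermatLib.MLT.Odd
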