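import Fermat.Agent.MLT.Odd.TWCount

/-!
# Auxiliary primes good for all local conditions

When `r` bounds the whole cohomology of the dual adjoint module, the same auxiliary primes serve
every choice of local conditions.
-/

set_option autoImplicit false

noncomputable section

open CategoryTheory Module groupCohomology ExtCitation
open scoped Pointwise

namespace FermatLib.MLT.Odd

open FermatLib.MLT.Ad FermatLib.CFT.TW

local notation "Qbar" => AlgebraicClosure ℚ
local notation "Γℚ" => (AlgebraicClosure ℚ ≃ₐ[ℚ] AlgebraicClosure ℚ)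
local notation "M₂" R:max => Matrix (Fin 2) (Fin 2) R

variable {p : ℕ} [Fact p.Prime]
  {k : Type} [Field k] [Finite k] [Algebra (ZMod p) k] {ρ : Γℚ →* M₂ k}
  (hs : IsTWSetting p ρ (cycloUnits p k))

include hs in
/-- **Selmer count with auxiliary primes, for all local conditions at once.** -/
theorem exists_twPrimes_count_all (S : Finset Nat.Primes) (hpS : pPrime p ∈ S)
    (hur : ∀ q : Nat.Primes, q ∉ S → ∀ A : ValuationSubring Qbar, A.LiesOverPrime (q : ℕ) →
      ∀ g ∈ A.inertiaSubgroupIn ℚ, ρ g = 1)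
    (avoid : Finset ℕ) (n r : ℕ)
    (hr : finrank (ZMod p)
      (dualAdSelmer (CFT.tateFin (adRep ρ p)) (CFT.tateInf (adRep ρ p)) S (fun _ => ⊥)) ≤ r) :
    ∃ qv : Fin r → Nat.Primes, Function.Injective qv ∧ (∀ i, qv i ∉ S) ∧
      (∀ i, ∃ A σ, IsTWPlace p ρ (cycloUnits p k) n
        (S.image Subtype.val ∪ avoid) (qv i) A σ) ∧
      ∀ (L : ∀ v : extArithIndex S,
          Submodule (ZMod p) (H1 (Rep.res (extArithLoc S v) (adRep ρ p)))),
        (∀ v, L v ≤ continuousH1 (extArithLoc S v) (Rep.res (extArithLoc S v) (adRep ρ p))) →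
      ∀ T : Finset Nat.Primes, T = S ∪ Finset.univ.image qv →
        FiniteDimensional (ZMod p)
          (selmerAdm (extArithLoc T) (adRep ρ p) (twConditions ρ T L)
            (continuousH1S T (adRep ρ p))) ∧
        finrank (ZMod p)
            (selmerAdm (extArithLoc T) (adRep ρ p) (twConditions ρ T L)
              (continuousH1S T (adRep ρ p))) +
            ∑ v, finrank (ZMod p) (Rep.res (extArithLoc S v) (adRep ρ p)).ρ.invariants =
          ∑ v, finrank (ZMod p) (L v) + r * finrank (ZMod p) k := by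
  classical
  have hsm := adRep_finiteLevel hs
  have hurM : CFT.GWUnramifiedOutside (adRep ρ p) S := fun q hq A hA g hg =>
    adRep_eq_one_of_eq_one ρ p (hur q hq A hA g hg)
  have := finiteDimensional_dualAdSelmer S (fun _ => ⊥) hsm hpS hurM fun _ => bot_le
  obtain ⟨qv, hinj, hnot, hpl, hzero⟩ := exists_twPrimes_dualAdSelmer hs (CFT.tateFin (adRep ρ p))
    (CFT.tateFin_perfect (adRep ρ p) hsm) (CFT.tateInf (adRep ρ p)) S hpS hurM (fun _ => ⊥) avoid n r hr
  refine ⟨qv, hinj, hnot, hpl, fun L hL T hT => ?_⟩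
  have hST : S ⊆ T := hT ▸ Finset.subset_union_left
  have hsd : T \ S = Finset.univ.image qv := by
    rw [hT, Finset.union_sdiff_left, Finset.sdiff_eq_self_iff_disjoint,
      Finset.disjoint_left]
    intro q hq hqS
    obtain ⟨i, -, rfl⟩ := Finset.mem_image.1 hq
    exact hnot i hqS
  have hQ : ∀ q ∈ T, q ∉ S → ∃ i, qv i = q := fun q hq hqS => by
    have : q ∈ T \ S := Finset.mem_sdiff.2 ⟨hq, hqS⟩
    rw [hsd] at this
    obtain ⟨i, -, rfl⟩ := Finset.mem_image.1 this
    exact ⟨i, rfl⟩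
  have hmem : ∀ i, qv i ∈ T := fun i =>
    hT ▸ Finset.mem_union_right _ (Finset.mem_image_of_mem _ (Finset.mem_univ i))
  have hcont : ∀ i, continuousH1 (primeLocalToGlobal (qv i))
      (Rep.res (primeLocalToGlobal (qv i)) (adRep ρ p)) ≤
        twConditions ρ T L (Sum.inr ⟨qv i, hmem i⟩) := fun i => by
    rw [twConditions_inr_not_mem L ⟨qv i, hmem i⟩ (hnot i)]
  have hdual := hzero T (twConditions ρ T L) hST hQ (fun _ => bot_le) (fun _ => bot_le) fun i => ⟨hmem i, hcont i⟩
  obtain ⟨hfin, -, -, hGW⟩ := CFT.greenbergWiles_tate (adRep ρ p) hsm T (hST hpS) (hurM.mono hST)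
    (twConditions ρ T L) (twConditions_le L hL)
  rw [show selmerAdm (extArithLoc T) ((adRep ρ p).dualTwist (cycloChar p))
      (dualConditions (extArithLoc T) (adRep ρ p) ((adRep ρ p).dualTwist (cycloChar p))
        (CFT.gwPairing (adRep ρ p) (CFT.tateFin (adRep ρ p)) (CFT.tateInf (adRep ρ p)) T) (twConditions ρ T L))
      (continuousH1S T ((adRep ρ p).dualTwist (cycloChar p))) = ⊥ from hdual,
    adRep_invariants_eq_bot hs,
    show ((adRep ρ p).dualTwist (cycloChar p)).ρ.invariants = ⊥ from adDual_invariants_eq_bot hs,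
    finrank_bot, finrank_bot, finrank_bot] at hGW
  let d₁ : Nat.Primes → ℕ := fun q => finrank (ZMod p)
    (continuousH1 (primeLocalToGlobal q) (Rep.res (primeLocalToGlobal q) (adRep ρ p)))
  let d₂ : Nat.Primes → ℕ := fun q =>
    finrank (ZMod p) (Rep.res (primeLocalToGlobal q) (adRep ρ p)).ρ.invariants
  have a1 : ∑ v, finrank (ZMod p) (twConditions ρ T L v) =
      ∑ v, finrank (ZMod p) (L v) + ∑ q ∈ T \ S, d₁ q :=
    CFT.sum_extArithIndex hST _ _ d₁ (fun _ => rfl)
      (fun q hqT hqS => by rw [twConditions_inr_mem L ⟨q, hqT⟩ hqS]; rfl)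
      (fun q hqT hqS => by rw [twConditions_inr_not_mem L ⟨q, hqT⟩ hqS]; rfl)
  have a2 : ∑ v, finrank (ZMod p) (Rep.res (extArithLoc T v) (adRep ρ p)).ρ.invariants =
      ∑ v, finrank (ZMod p) (Rep.res (extArithLoc S v) (adRep ρ p)).ρ.invariants + ∑ q ∈ T \ S, d₂ q :=
    CFT.sum_extArithIndex hST _ _ d₂ (fun _ => rfl) (fun _ _ _ => rfl) (fun _ _ _ => rfl)
  have hloc : ∀ i, ∀ g, primeLocalToGlobal (qv i) g ∈
      (primeLocalPlace (qv i)).inertiaSubgroupIn ℚ → ρ (primeLocalToGlobal (qv i) g) = 1 :=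
    fun i g hg => hur _ (hnot i) _ (CFT.padicPlace_liesOverPrime (qv i)) _ hg
  have b1 : ∑ q ∈ T \ S, d₁ q = r * (2 * finrank (ZMod p) k) := by
    rw [hsd, Finset.sum_image (fun i _ j _ h => hinj h), Finset.sum_congr rfl fun i _ => (by
      obtain ⟨A, σ, h⟩ := hpl i
      exact h.finrank_continuousH1 hs (hloc i) : d₁ (qv i) = 2 * finrank (ZMod p) k),
      Finset.sum_const, Finset.card_univ, Fintype.card_fin, smul_eq_mul]
  have b2 : ∑ q ∈ T \ S, d₂ q = r * finrank (ZMod p) k := by
    rw [hsd, Finset.sum_image (fun i _ j _ h => hinj h), Finset.sum_congr rfl fun i _ => (by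
      obtain ⟨A, σ, h⟩ := hpl i
      exact h.finrank_invariants hs (hloc i) : d₂ (qv i) = finrank (ZMod p) k),
      Finset.sum_const, Finset.card_univ, Fintype.card_fin, smul_eq_mul]
  have b3 : r * (2 * finrank (ZMod p) k) = 2 * (r * finrank (ZMod p) k) := by ring
  refine ⟨hfin, ?_⟩
  omega

end FermatLib.MLT.Odd
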