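import Fermat.Agent.CFT.GWUnramified
import Fermat.Agent.MLT.Ad.Basic
import Fermat.Agent.MLT.Odd.TWPrimes
import Mathlib.RingTheory.Trace.Basic

/-!
# Taylor–Wiles primes kill dual adjoint classes

The dual twist of the trace zero adjoint module is the `ω`-twisted adjoint module, through the
pairing `(X, Y) ↦ Tr_{k/𝔽_p} tr (X Y)`.  So `r` auxiliary primes detect any `r`-dimensional space
of continuous classes of the dual, in particular a dual Selmer group.
-/

set_option autoImplicit false

noncomputable section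

open CategoryTheory Module groupCohomology ExtCitation
open scoped Pointwise

namespace FermatLib.MLT.Odd

open FermatLib.MLT.Ad FermatLib.CFT.TW

local notation "Qbar" => AlgebraicClosure ℚ
local notation "Γℚ" => (AlgebraicClosure ℚ ≃ₐ[ℚ] AlgebraicClosure ℚ)
local notation "M₂" R:max => Matrix (Fin 2) (Fin 2) R

variable (p : ℕ) [Fact p.Prime] {k : Type} [Field k] [Finite k] [Algebra (ZMod p) k]

variable (k) in
/-- The mod `p` cyclotomic character with values in `k`. -/
def cycloUnits : Γℚ →* kˣ :=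
  (Units.map (algebraMap (ZMod p) k).toMonoidHom).comp (cycloChar p)

omit [Finite k] in
lemma cycloUnits_coe (g : Γℚ) :
    (cycloUnits p k g : k) = algebraMap (ZMod p) k (cycloChar p g : ZMod p) := rfl

variable (k) in
/-- The pairing `(X, Y) ↦ Tr tr (X Y)` on trace zero matrices. -/
def adPairing : traceZero k →ₗ[ZMod p] Module.Dual (ZMod p) (traceZero k) :=
  LinearMap.mk₂ (ZMod p) (fun Y X : traceZero k => Algebra.trace (ZMod p) k (X.1 * Y.1).trace)
    (fun Y Y' X => by simp [mul_add])
    (fun c Y X => by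
      rw [SetLike.val_smul_of_tower, Matrix.mul_smul, Matrix.trace_smul, map_smul])
    (fun Y X X' => by simp [add_mul])
    (fun c Y X => by
      rw [SetLike.val_smul_of_tower, Matrix.smul_mul, Matrix.trace_smul, map_smul])

omit [Finite k] in
lemma adPairing_apply (Y X : traceZero k) :
    adPairing p k Y X = Algebra.trace (ZMod p) k (X.1 * Y.1).trace := rfl

theorem adPairing_injective (hp2 : p ≠ 2) : Function.Injective (adPairing p k) := by
  rw [injective_iff_map_eq_zero]
  intro Y hY
  have : CharP k p := charP_of_injective_algebraMap (algebraMap (ZMod p) k).injective p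
  have h2 : (2 : k) ≠ 0 := two_ne_zero_of_charP p hp2
  have : FiniteDimensional (ZMod p) k := Module.Finite.of_finite
  have key : ∀ X : traceZero k, (X.1 * Y.1).trace = 0 := fun X => by
    refine (traceForm_nondegenerate (ZMod p) k).1 _ fun c => ?_
    have := LinearMap.congr_fun hY (c • X)
    rw [adPairing_apply, Submodule.coe_smul, Matrix.smul_mul, Matrix.trace_smul] at this
    rw [Algebra.traceForm_apply, mul_comm]
    simpa using this
  have e01 := key ⟨!![0, 1; 0, 0], by simp [mem_traceZero, Matrix.trace_fin_two]⟩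
  have e10 := key ⟨!![0, 0; 1, 0], by simp [mem_traceZero, Matrix.trace_fin_two]⟩
  have e00 := key ⟨!![1, 0; 0, -1], by simp [mem_traceZero, Matrix.trace_fin_two]⟩
  have ht : Y.1 0 0 + Y.1 1 1 = 0 := by rw [← Matrix.trace_fin_two]; exact Y.2
  rw [Matrix.eta_fin_two Y.1] at e01 e10 e00
  simp [Matrix.trace_fin_two] at e01 e10 e00
  have h00 : Y.1 0 0 = 0 := by
    have : (2 : k) * Y.1 0 0 = 0 := by linear_combination e00 + ht
    exact (mul_eq_zero.mp this).resolve_left h2
  have h11 : Y.1 1 1 = 0 := by linear_combination ht - h00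
  refine Subtype.ext (Matrix.ext fun i j => ?_)
  fin_cases i <;> fin_cases j <;> simp [h00, h11, e01, e10]

variable (hp2 : p ≠ 2)

variable (k) in
/-- Trace zero matrices are their own dual. -/
def adDualEquiv (hp2 : p ≠ 2) : traceZero k ≃ₗ[ZMod p] Module.Dual (ZMod p) (traceZero k) :=
  haveI : FiniteDimensional (ZMod p) (traceZero k) :=
    haveI : Finite (traceZero k) := Finite.of_injective _ (traceZeroEquiv k).injective
    Module.Finite.of_finite
  LinearEquiv.ofBijective (adPairing p k)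
    ⟨adPairing_injective p hp2,
      (LinearMap.injective_iff_surjective_of_finrank_eq_finrank
        Subspace.dual_finrank_eq.symm).mp (adPairing_injective p hp2)⟩

variable (ρ : Γℚ →* M₂ k)

/-- The dual twist, with its action. -/
abbrev adDual : Rep (ZMod p) Γℚ := (adRep ρ p).dualTwist (cycloChar p)

/-- The twisted conjugate of a trace zero matrix. -/
def twistConj (g : Γℚ) (Y : traceZero k) : traceZero k :=
  (cycloUnits p k g : k) • adFun ρ g Y

lemma adDual_rho_adDualEquiv (g : Γℚ) (Y : traceZero k) :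
    (adDual p ρ).ρ g (adDualEquiv p k hp2 Y) = adDualEquiv p k hp2 (twistConj p ρ g Y) := by
  refine LinearMap.ext fun (X : traceZero k) => ?_
  show (cycloChar p g : ZMod p) • adPairing p k Y (adFun ρ g⁻¹ X) =
    adPairing p k (twistConj p ρ g Y) X
  rw [adPairing_apply, adPairing_apply, ← map_smul]
  congr 1
  show _ = (X.1 * ((cycloUnits p k g : k) • (ρ g * Y.1 * ρ g⁻¹))).trace
  rw [Matrix.mul_smul, Matrix.trace_smul, smul_eq_mul, cycloUnits_coe, Algebra.smul_def]
  congr 1
  show (ρ g⁻¹ * X.1 * ρ g⁻¹⁻¹ * Y.1).trace = _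
  rw [inv_inv, mul_assoc (ρ g⁻¹ * X.1), mul_assoc, Matrix.trace_mul_comm]
  simp only [mul_assoc]

/-- The matrices of a dual cocycle. -/
def cocycleMat : cocycles₁ (adDual p ρ) →ₗ[ZMod p] (Γℚ → M₂ k) where
  toFun c g := ((adDualEquiv p k hp2).symm (c g)).1
  map_add' c d := funext fun g => by
    show ((adDualEquiv p k hp2).symm (c g + d g)).1 = _
    rw [map_add]; rfl
  map_smul' a c := funext fun g => by
    show ((adDualEquiv p k hp2).symm (a • c g)).1 = _
    rw [map_smul]; rfl

theorem isTwistedCocycle_cocycleMat (c : cocycles₁ (adDual p ρ)) :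
    IsTwistedCocycle ρ (cycloUnits p k) (cocycleMat p hp2 ρ c) := by
  refine ⟨fun g => ((adDualEquiv p k hp2).symm (c g)).2, fun g h => ?_⟩
  have hc := (mem_cocycles₁_iff c.1).mp c.2 g h
  show ((adDualEquiv p k hp2).symm (c (g * h))).1 = ((adDualEquiv p k hp2).symm (c g)).1 +
    (twistConj p ρ g ((adDualEquiv p k hp2).symm (c h))).1
  rw [← Submodule.coe_add]
  congr 1
  rw [LinearEquiv.symm_apply_eq, map_add, ← adDual_rho_adDualEquiv, LinearEquiv.apply_symm_apply,
    LinearEquiv.apply_symm_apply, add_comm]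
  exact hc

theorem eq_zero_of_cocycleMat_mem (c : cocycles₁ (adDual p ρ))
    (h : cocycleMat p hp2 ρ c ∈ twistedCoboundaries ρ (cycloUnits p k)) :
    (H1π (adDual p ρ)).hom c = 0 := by
  obtain ⟨X, hX, hXg⟩ := h
  rw [H1π_eq_zero_iff]
  refine ⟨adDualEquiv p k hp2 ⟨X, hX⟩, funext fun g => ?_⟩
  rw [d₀₁_hom_apply, adDual_rho_adDualEquiv]
  refine (adDualEquiv p k hp2).symm.injective (Subtype.ext ?_)
  rw [map_sub, LinearEquiv.symm_apply_apply, LinearEquiv.symm_apply_apply]
  exact (hXg g).symm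

omit [Finite k] in
lemma isTwistedCocycle_of_mem_span {s : Set (Γℚ → M₂ k)}
    (hs : ∀ ψ ∈ s, IsTwistedCocycle ρ (cycloUnits p k) ψ ∧ HasFiniteLevel ψ) {ψ : Γℚ → M₂ k}
    (hψ : ψ ∈ Submodule.span k s) :
    IsTwistedCocycle ρ (cycloUnits p k) ψ ∧ HasFiniteLevel ψ := by
  induction hψ using Submodule.span_induction with
  | mem x hx => exact hs x hx
  | zero => exact ⟨⟨fun _ => by simp, fun _ _ => by simp⟩, ⊥, inferInstance, fun _ _ _ => rfl⟩
  | add a b _ _ ha hb =>
    obtain ⟨ha, E, hE, hEa⟩ := ha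
    obtain ⟨hb, E', hE', hEb⟩ := hb
    refine ⟨⟨fun g => ?_, fun g h => ?_⟩, E ⊔ E', inferInstance, fun g h hh => ?_⟩
    · simp [ha.trace_zero g, hb.trace_zero g]
    · simp only [Pi.add_apply, ha.map_mul g h, hb.map_mul g h, mul_add, add_mul, smul_add]
      abel
    · simp only [Pi.add_apply, hEa g h (IntermediateField.fixingSubgroup_le le_sup_left hh),
        hEb g h (IntermediateField.fixingSubgroup_le le_sup_right hh)]
  | smul c a _ ha =>
    obtain ⟨ha, E, hE, hEa⟩ := ha
    refine ⟨⟨fun g => ?_, fun g h => ?_⟩, E, hE, fun g h hh => ?_⟩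
    · simp [ha.trace_zero g]
    · simp only [Pi.smul_apply, ha.map_mul g h, smul_add, Matrix.mul_smul, Matrix.smul_mul,
        smul_comm c]
    · simp only [Pi.smul_apply, hEa g h hh]

include hp2

/-- A class locally trivial at `q` has vanishing local invariant at the Frobenius. -/
theorem traceForm_eq_zero_of_resAt {n : ℕ} {S : Finset ℕ} {q : Nat.Primes}
    {A : ValuationSubring Qbar} {σ : Γℚ} (hσ : IsTWPlace p ρ (cycloUnits p k) n S q A σ)
    (c : cocycles₁ (adDual p ρ))
    (hc : CFT.resAt q (adDual p ρ) ((H1π (adDual p ρ)).hom c) = 0) :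
    traceForm ρ σ (cocycleMat p hp2 ρ c) = 0 := by
  obtain ⟨g, rfl⟩ := CFT.exists_smul_padicPlace_eq A hσ.liesOver
  have hfr := Galois.isFrobeniusAt_smul_iff.mp hσ.frobenius
  have hd := hfr.mem_decompositionSubgroup
  rw [CFT.decompositionSubgroup_padicPlace] at hd
  obtain ⟨t, ht⟩ := hd
  rw [CFT.resAt_H1π, H1π_eq_zero_iff] at hc
  obtain ⟨a, ha⟩ := hc
  have hat := congrFun ha t
  change (adDual p ρ).ρ (primeLocalToGlobal q t) a - a = c (primeLocalToGlobal q t) at hat
  rw [show primeLocalToGlobal q t = g⁻¹ * σ * g from ht] at hat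
  set σ' := g⁻¹ * σ * g with hσ'
  have hω : cycloUnits p k σ' = 1 := by simp [hσ', hσ.omega_eq]
  obtain ⟨Y, rfl⟩ := (adDualEquiv p k hp2).surjective a
  rw [adDual_rho_adDualEquiv, ← map_sub] at hat
  have e : cocycleMat p hp2 ρ c σ' = (twistConj p ρ σ' Y - Y).1 := by
    show ((adDualEquiv p k hp2).symm (c σ')).1 = _
    rw [← hat, LinearEquiv.symm_apply_apply]
  have h' : traceDeriv ρ (cocycleMat p hp2 ρ c) σ' = 0 := by
    have := traceForm_eq_zero_of_mem_coboundaries (ρ := ρ) (ω := cycloUnits p k)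
      (ψ := fun h => (twistConj p ρ h Y - Y).1) ⟨Y.1, Y.2, fun h => rfl⟩ hω
    show (cocycleMat p hp2 ρ c σ' * ρ σ').trace = 0
    rw [e]
    exact this
  have hconj := traceDeriv_conj (isTwistedCocycle_cocycleMat p hp2 ρ c) g hω
  rw [show g * σ' * g⁻¹ = σ by rw [hσ']; group, h', mul_zero] at hconj
  exact hconj

variable {ρ}

/-- **Taylor–Wiles primes for dual classes.** -/
theorem exists_twPrimes_classes (hs : IsTWSetting p ρ (cycloUnits p k))
    (W : Submodule (ZMod p) (H1 (adDual p ρ)))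
    (hW : W ≤ continuousH1 (MonoidHom.id Γℚ) (adDual p ρ))
    [FiniteDimensional (ZMod p) W] (n r : ℕ) (hr : Module.finrank (ZMod p) W ≤ r) (S : Finset ℕ) :
    ∃ qv : Fin r → Nat.Primes, Function.Injective qv ∧
      (∀ i, ∃ A σ, IsTWPlace p ρ (cycloUnits p k) n S (qv i) A σ) ∧
      ∀ x ∈ W, (∀ i, CFT.resAt (qv i) (adDual p ρ) x = 0) → x = 0 := by
  let b := Module.finBasis (ZMod p) W
  have hlift : ∀ j, ∃ c : cocycles₁ (adDual p ρ), IsLevelConstant₁ (MonoidHom.id Γℚ) c ∧
      (H1π (adDual p ρ)).hom c = (b j : H1 (adDual p ρ)) := fun j =>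
    (mem_continuousH1_iff _ _ _).mp (hW (b j).2)
  choose c hc hcb using hlift
  set V := Submodule.span k (Set.range fun j => cocycleMat p hp2 ρ (c j)) with hV
  have hVmem : ∀ ψ ∈ V, IsTwistedCocycle ρ (cycloUnits p k) ψ ∧ HasFiniteLevel ψ := fun ψ hψ =>
    isTwistedCocycle_of_mem_span p ρ (by
      rintro _ ⟨j, rfl⟩
      obtain ⟨F, hF, hFc⟩ := hc j
      refine ⟨isTwistedCocycle_cocycleMat p hp2 ρ (c j), F, hF, fun g h hh => ?_⟩
      show ((adDualEquiv p k hp2).symm (c j (g * h))).1 =
        ((adDualEquiv p k hp2).symm (c j g)).1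
      rw [hFc g h hh]) hψ
  have hmap : V.map (twistedCoboundaries ρ (cycloUnits p k)).mkQ = Submodule.span k (Set.range
      fun j => (twistedCoboundaries ρ (cycloUnits p k)).mkQ (cocycleMat p hp2 ρ (c j))) := by
    rw [hV, Submodule.map_span, ← Set.range_comp]
    rfl
  have : FiniteDimensional k (V.map (twistedCoboundaries ρ (cycloUnits p k)).mkQ) := by
    rw [hmap]; exact FiniteDimensional.span_of_finite k (Set.finite_range _)
  have hrk : Module.finrank k (V.map (twistedCoboundaries ρ (cycloUnits p k)).mkQ) ≤ r := by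
    rw [hmap]
    exact ((finrank_range_le_card _).trans_eq (Fintype.card_fin _)).trans hr
  obtain ⟨qv, Av, σv, hinj, hpl, hkill⟩ := hs.exists_twPlaces n r S V hVmem hrk
  refine ⟨fun i => ⟨qv i, (hpl i).prime⟩, fun i j hij => hinj (congrArg Subtype.val hij),
    fun i => ⟨Av i, σv i, hpl i⟩, fun x hx hres => ?_⟩
  set a := b.repr ⟨x, hx⟩
  set C := ∑ j, a j • c j with hC
  have hCx : (H1π (adDual p ρ)).hom C = x := by
    have hsum := congrArg Subtype.val (b.sum_repr ⟨x, hx⟩)
    simp only [Submodule.coe_sum, Submodule.coe_smul] at hsum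
    rw [hC, map_sum]
    simp only [map_smul, hcb]
    exact hsum
  rw [← hCx]
  refine eq_zero_of_cocycleMat_mem p hp2 ρ C (hkill _ ?_ fun i => ?_)
  · rw [hC, map_sum]
    refine Submodule.sum_mem _ fun j _ => ?_
    rw [map_smul]
    exact Submodule.smul_of_tower_mem _ _ (Submodule.subset_span ⟨j, rfl⟩)
  · exact traceForm_eq_zero_of_resAt p hp2 ρ (hpl i) C (by rw [hCx]; exact hres i)

end FermatLib.MLT.Odd
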