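import Fermat.Agent.CFT.GWDescent
import Fermat.Agent.MLT.Odd.TWDual

/-!
# Auxiliary primes annihilate the dual adjoint Selmer group

If the dual Selmer group of the adjoint module for local conditions `L` at `S` has dimension at
most `r`, then there are `r` auxiliary primes `Q` such that the dual Selmer group for the
conditions `L` at `S` and no condition at `Q` is zero.
-/

set_option autoImplicit false

noncomputable section

open CategoryTheory Module groupCohomology ExtCitation
open scoped Pointwise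

namespace FermatLib.MLT.Odd

open FermatLib.MLT.Ad FermatLib.CFT.TW

local notation "Qbar" => AlgebraicClosure ℚ
local notation "Γℚ" => (AlgebraicClosure ℚ ≃ₐ[ℚ] AlgebraicClosure ℚ)
local notation "M₂" R:max => Matrix (Fin 2) (Fin 2) R

variable {p : ℕ} [Fact p.Prime]
  {k : Type} [Field k] [Finite k] [Algebra (ZMod p) k] {ρ : Γℚ →* M₂ k}

/-- The dual Selmer group of the adjoint module for local conditions `L` at `S`. -/
abbrev dualAdSelmer (Bfin : ∀ q : Nat.Primes, CFT.LocalPairing (adRep ρ p) (primeLocalToGlobal q))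
    (Binf : CFT.LocalPairing (adRep ρ p) archimedeanLoc) (S : Finset Nat.Primes)
    (L : ∀ v : extArithIndex S, Submodule (ZMod p) (H1 (Rep.res (extArithLoc S v) (adRep ρ p)))) :
    Submodule (ZMod p) (H1 (adDual p ρ)) :=
  selmerAdm (extArithLoc S) (adDual p ρ)
    (dualConditions (extArithLoc S) (adRep ρ p) (adDual p ρ)
      (CFT.gwPairing (adRep ρ p) Bfin Binf S) L)
    (continuousH1S S (adDual p ρ))

/-- **Auxiliary primes annihilate the dual Selmer group.** -/
theorem exists_twPrimes_dualAdSelmer (hs : IsTWSetting p ρ (cycloUnits p k))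
    (Bfin : ∀ q : Nat.Primes, CFT.LocalPairing (adRep ρ p) (primeLocalToGlobal q))
    (hperf : ∀ q, CFT.IsPerfectOnContinuous (adRep ρ p) (Bfin q))
    (Binf : CFT.LocalPairing (adRep ρ p) archimedeanLoc)
    (S : Finset Nat.Primes) (hpS : pPrime p ∈ S)
    (hur : CFT.GWUnramifiedOutside (adRep ρ p) S)
    (L : ∀ v : extArithIndex S, Submodule (ZMod p) (H1 (Rep.res (extArithLoc S v) (adRep ρ p))))
    [FiniteDimensional (ZMod p) (dualAdSelmer Bfin Binf S L)]
    (avoid : Finset ℕ) (n r : ℕ) (hr : finrank (ZMod p) (dualAdSelmer Bfin Binf S L) ≤ r) :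
    ∃ qv : Fin r → Nat.Primes, Function.Injective qv ∧ (∀ i, qv i ∉ S) ∧
      (∀ i, ∃ A σ, IsTWPlace p ρ (cycloUnits p k) n (S.image Subtype.val ∪ avoid) (qv i) A σ) ∧
      ∀ (T : Finset Nat.Primes)
        (L' : ∀ v : extArithIndex T, Submodule (ZMod p) (H1 (Rep.res (extArithLoc T v) (adRep ρ p))))
        (hST : S ⊆ T),
        (∀ q ∈ T, q ∉ S → ∃ i, qv i = q) →
        (∀ u, L (Sum.inl u) ≤ L' (Sum.inl u)) →
        (∀ q : ↥S, L (Sum.inr q) ≤ L' (Sum.inr ⟨q.1, hST q.2⟩)) →
        (∀ i, ∃ h : qv i ∈ T, continuousH1 (primeLocalToGlobal (qv i))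
            (Rep.res (primeLocalToGlobal (qv i)) (adRep ρ p)) ≤ L' (Sum.inr ⟨qv i, h⟩)) →
        dualAdSelmer Bfin Binf T L' = ⊥ := by
  obtain ⟨qv, hinj, hpl, hkill⟩ := exists_twPrimes_classes p hs.ne_two hs
    (dualAdSelmer Bfin Binf S L)
    ((selmerAdm_le_adm _ _ _ _).trans (continuousH1S_le_continuousH1 _ _))
    n r hr (S.image Subtype.val ∪ avoid)
  refine ⟨qv, hinj, fun i hi => ?_, hpl, fun T L' hST hT hinl hinr hQ => ?_⟩
  · obtain ⟨A, σ, h⟩ := hpl i
    exact h.notMem (Finset.mem_union_left _ (Finset.mem_image_of_mem Subtype.val hi))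
  rw [eq_bot_iff]
  intro x hx
  rw [Submodule.mem_bot]
  simp only [dualAdSelmer, mem_selmerAdm_iff, dualConditions, mem_orthogonal_iff] at hx
  obtain ⟨hloc, hxT⟩ := hx
  have hres : ∀ i, CFT.resAt (qv i) (adDual p ρ) x = 0 := fun i => by
    obtain ⟨h, hle⟩ := hQ i
    refine (hperf (qv i)).right _
      (CFT.locRes_mem_continuousH1 _ T (Sum.inr ⟨qv i, h⟩) hxT) fun z hz => ?_
    exact hloc (Sum.inr ⟨qv i, h⟩) z (hle hz)
  have hxS : x ∈ continuousH1S S (adDual p ρ) :=
    CFT.mem_continuousH1S_of_unramified (CFT.dualTwist_unramified hur hpS) hxT fun q hqT hqS => by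
      obtain ⟨i, rfl⟩ := hT q hqT hqS
      rw [hres i]
      exact zero_mem _
  refine hkill x ?_ hres
  simp only [dualAdSelmer, mem_selmerAdm_iff, dualConditions, mem_orthogonal_iff]
  refine ⟨?_, hxS⟩
  rintro (u | q) z hz
  · exact hloc (Sum.inl u) z (hinl u hz)
  · exact hloc (Sum.inr ⟨q.1, hST q.2⟩) z (hinr q hz)

end FermatLib.MLT.Odd
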