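import Fermat.Agent.MLT.Odd.TWLocal
import Fermat.Agent.MLT.Odd.TWSelmer

/-!
# The Selmer count with auxiliary primes

With `r` auxiliary primes, where `r` bounds the dual Selmer group, and no condition there, the
adjoint Selmer group satisfies

`dim Sel_T + Σ_{v ∈ T} h⁰_v = Σ_{v ∈ S} dim L_v + 2 r f`,  `f = [k : 𝔽_p]`.
-/

set_option autoImplicit false

noncomputable section

open CategoryTheory Module groupCohomology ExtCitation
open scoped Pointwise

namespace FermatLib.MLT.Odd

open FermatLib.MLT.Ad FermatLib.CFT.TW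

local notation "Qbar" => AlgebraicClosure ℚ
local notation "Γℚ" => (AlgebraicClosure ℚ ≃ₐ[ℚ] AlgebraicClosure ℚ)
local notation "M₂" R:max => Matrix (Fin 2) (Fin 2) R

variable {p : ℕ} [Fact p.Prime]
  {k : Type} [Field k] [Algebra (ZMod p) k] {ρ : Γℚ →* M₂ k}

variable (ρ) in
/-- The conditions `L` at `S` and no condition elsewhere. -/
def twConditions {S : Finset Nat.Primes} (T : Finset Nat.Primes)
    (L : ∀ v : extArithIndex S, Submodule (ZMod p) (H1 (Rep.res (extArithLoc S v) (adRep ρ p)))) :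
    ∀ v : extArithIndex T, Submodule (ZMod p) (H1 (Rep.res (extArithLoc T v) (adRep ρ p)))
  | Sum.inl u => L (Sum.inl u)
  | Sum.inr q => if h : q.1 ∈ S then L (Sum.inr ⟨q.1, h⟩)
      else continuousH1 (primeLocalToGlobal q.1) (Rep.res (primeLocalToGlobal q.1) (adRep ρ p))

variable {S T : Finset Nat.Primes}
  (L : ∀ v : extArithIndex S, Submodule (ZMod p) (H1 (Rep.res (extArithLoc S v) (adRep ρ p))))

theorem twConditions_inr_mem (q : ↥T) (h : q.1 ∈ S) :
    twConditions ρ T L (Sum.inr q) = L (Sum.inr ⟨q.1, h⟩) := dif_pos h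

theorem twConditions_inr_not_mem (q : ↥T) (h : q.1 ∉ S) :
    twConditions ρ T L (Sum.inr q) = continuousH1 (primeLocalToGlobal q.1)
      (Rep.res (primeLocalToGlobal q.1) (adRep ρ p)) := dif_neg h

theorem twConditions_le
    (hL : ∀ v, L v ≤ continuousH1 (extArithLoc S v) (Rep.res (extArithLoc S v) (adRep ρ p))) :
    ∀ v : extArithIndex T, twConditions ρ T L v ≤
      continuousH1 (extArithLoc T v) (Rep.res (extArithLoc T v) (adRep ρ p))
  | Sum.inl u => hL (Sum.inl u)
  | Sum.inr q => by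
    by_cases h : q.1 ∈ S
    · rw [twConditions_inr_mem L q h]
      exact hL (Sum.inr ⟨q.1, h⟩)
    · rw [twConditions_inr_not_mem L q h]
      exact le_rfl

variable (hs : IsTWSetting p ρ (cycloUnits p k))

include hs in
/-- On the kernel of the cyclotomic character only scalars commute with the image. -/
theorem eq_zero_of_commute_ker (X : traceZero k)
    (hX : ∀ g, cycloUnits p k g = 1 → adFun ρ g X = X) : X = 0 := by
  have := hs.charP
  have hspan := hasFullSpan_of_normal ρ hs.fullSpan hs.indexTwo (cycloUnits p k).ker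
    fun a b => by simp [MonoidHom.mem_ker]
  have hsc := hspan.eq_scalar_of_commute (P := X.1) fun g => by
    have e : ρ g.1 * X.1 * ρ g.1⁻¹ = X.1 :=
      congrArg Subtype.val (hX g.1 (MonoidHom.mem_ker.1 g.2))
    show X.1 * ρ g.1 = ρ g.1 * X.1
    calc X.1 * ρ g.1 = ρ g.1 * X.1 * ρ g.1⁻¹ * ρ g.1 := by rw [e]
      _ = _ := by rw [mul_assoc, rho_inv_mul, mul_one]
  have ht : X.1.trace = 0 := X.2
  rw [hsc] at ht
  simp [two_ne_zero_of_charP p hs.ne_two] at ht
  refine Subtype.ext ?_
  rw [hsc, ht, map_zero]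
  rfl

include hs in
/-- The adjoint module has no global invariants. -/
theorem adRep_invariants_eq_bot : (adRep ρ p).ρ.invariants = ⊥ := by
  rw [eq_bot_iff]
  intro X hX
  rw [Submodule.mem_bot]
  exact eq_zero_of_commute_ker hs X fun g _ => hX g

variable [Finite k]

include hs in
/-- The dual has no global invariants. -/
theorem adDual_invariants_eq_bot : (adDual p ρ).ρ.invariants = ⊥ := by
  rw [eq_bot_iff]
  intro f hf
  obtain ⟨Y, rfl⟩ := (adDualEquiv p k hs.ne_two).surjective f
  rw [Submodule.mem_bot, eq_zero_of_commute_ker hs Y fun g hg => ?_, map_zero]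
  have e := hf g
  rw [adDual_rho_adDualEquiv, EquivLike.apply_eq_iff_eq, twistConj, hg, Units.val_one, one_smul]
    at e
  exact e

variable (S) in
/-- The finiteness of the dual Selmer group and Greenberg–Wiles at `S`. -/
theorem finiteDimensional_dualAdSelmer (hsm : ∀ m : adRep ρ p, ∃ F : IntermediateField ℚ Qbar,
      FiniteDimensional ℚ F ∧ ∀ s ∈ F.fixingSubgroup, (adRep ρ p).ρ s m = m)
    (hpS : pPrime p ∈ S) (hur : CFT.GWUnramifiedOutside (adRep ρ p) S)
    (hL : ∀ v, L v ≤ continuousH1 (extArithLoc S v) (Rep.res (extArithLoc S v) (adRep ρ p))) :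
    FiniteDimensional (ZMod p)
      (dualAdSelmer (CFT.tateFin (adRep ρ p)) (CFT.tateInf (adRep ρ p)) S L) :=
  (CFT.greenbergWiles_tate (adRep ρ p) hsm S hpS hur L hL).2.1

include hs in
/-- The count at places with no condition at the auxiliary primes, once the dual group is zero. -/
theorem selmer_count_of_dual_eq_bot (S : Finset Nat.Primes) (hpS : pPrime p ∈ S)
    (hur : ∀ q : Nat.Primes, q ∉ S → ∀ A : ValuationSubring Qbar, A.LiesOverPrime (q : ℕ) →
      ∀ g ∈ A.inertiaSubgroupIn ℚ, ρ g = 1)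
    (L : ∀ v : extArithIndex S, Submodule (ZMod p) (H1 (Rep.res (extArithLoc S v) (adRep ρ p))))
    (hL : ∀ v, L v ≤ continuousH1 (extArithLoc S v) (Rep.res (extArithLoc S v) (adRep ρ p)))
    {n r : ℕ} {Sℕ : Finset ℕ} {qv : Fin r → Nat.Primes} (hinj : Function.Injective qv)
    (hnot : ∀ i, qv i ∉ S)
    (hpl : ∀ i, ∃ A σ, IsTWPlace p ρ (cycloUnits p k) n Sℕ (qv i) A σ)
    {T : Finset Nat.Primes} (hST : S ⊆ T) (hsd : T \ S = Finset.univ.image qv)
    (hdual : dualAdSelmer (CFT.tateFin (adRep ρ p)) (CFT.tateInf (adRep ρ p)) T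
      (twConditions ρ T L) = ⊥) :
    FiniteDimensional (ZMod p)
        (selmerAdm (extArithLoc T) (adRep ρ p) (twConditions ρ T L)
          (continuousH1S T (adRep ρ p))) ∧
      finrank (ZMod p)
          (selmerAdm (extArithLoc T) (adRep ρ p) (twConditions ρ T L)
            (continuousH1S T (adRep ρ p))) +
          ∑ v, finrank (ZMod p) (Rep.res (extArithLoc T v) (adRep ρ p)).ρ.invariants =
        ∑ v, finrank (ZMod p) (L v) + r * (2 * finrank (ZMod p) k) ∧
      finrank (ZMod p)
          (selmerAdm (extArithLoc T) (adRep ρ p) (twConditions ρ T L)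
            (continuousH1S T (adRep ρ p))) +
          ∑ v, finrank (ZMod p) (Rep.res (extArithLoc S v) (adRep ρ p)).ρ.invariants =
        ∑ v, finrank (ZMod p) (L v) + r * finrank (ZMod p) k := by
  classical
  have hsm := adRep_finiteLevel hs
  have hurM : CFT.GWUnramifiedOutside (adRep ρ p) S := fun q hq A hA g hg =>
    adRep_eq_one_of_eq_one ρ p (hur q hq A hA g hg)
  obtain ⟨hfin, -, -, hGW⟩ := CFT.greenbergWiles_tate (adRep ρ p) hsm T (hST hpS) (hurM.mono hST)
    (twConditions ρ T L) (twConditions_le L hL)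
  rw [show selmerAdm (extArithLoc T) ((adRep ρ p).dualTwist (cycloChar p))
      (dualConditions (extArithLoc T) (adRep ρ p) ((adRep ρ p).dualTwist (cycloChar p))
        (CFT.gwPairing (adRep ρ p) (CFT.tateFin (adRep ρ p)) (CFT.tateInf (adRep ρ p)) T) (twConditions ρ T L))
      (continuousH1S T ((adRep ρ p).dualTwist (cycloChar p))) = ⊥ from hdual,
    adRep_invariants_eq_bot hs,
    show ((adRep ρ p).dualTwist (cycloChar p)).ρ.invariants = ⊥ from adDual_invariants_eq_bot hs,
    finrank_bot, finrank_bot, finrank_bot] at hGW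
  let d₁ : Nat.Primes → ℕ := fun q => finrank (ZMod p)
    (continuousH1 (primeLocalToGlobal q) (Rep.res (primeLocalToGlobal q) (adRep ρ p)))
  let d₂ : Nat.Primes → ℕ := fun q =>
    finrank (ZMod p) (Rep.res (primeLocalToGlobal q) (adRep ρ p)).ρ.invariants
  have a1 : ∑ v, finrank (ZMod p) (twConditions ρ T L v) =
      ∑ v, finrank (ZMod p) (L v) + ∑ q ∈ T \ S, d₁ q :=
    CFT.sum_extArithIndex hST _ _ d₁ (fun _ => rfl)
      (fun q hqT hqS => by rw [twConditions_inr_mem L ⟨q, hqT⟩ hqS]; rfl)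
      (fun q hqT hqS => by rw [twConditions_inr_not_mem L ⟨q, hqT⟩ hqS]; rfl)
  have a2 : ∑ v, finrank (ZMod p) (Rep.res (extArithLoc T v) (adRep ρ p)).ρ.invariants =
      ∑ v, finrank (ZMod p) (Rep.res (extArithLoc S v) (adRep ρ p)).ρ.invariants + ∑ q ∈ T \ S, d₂ q :=
    CFT.sum_extArithIndex hST _ _ d₂ (fun _ => rfl) (fun _ _ _ => rfl) (fun _ _ _ => rfl)
  have hloc : ∀ i, ∀ g, primeLocalToGlobal (qv i) g ∈
      (primeLocalPlace (qv i)).inertiaSubgroupIn ℚ → ρ (primeLocalToGlobal (qv i) g) = 1 :=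
    fun i g hg => hur _ (hnot i) _ (CFT.padicPlace_liesOverPrime (qv i)) _ hg
  have b1 : ∑ q ∈ T \ S, d₁ q = r * (2 * finrank (ZMod p) k) := by
    rw [hsd, Finset.sum_image (fun i _ j _ h => hinj h), Finset.sum_congr rfl fun i _ => (by
      obtain ⟨A, σ, h⟩ := hpl i
      exact h.finrank_continuousH1 hs (hloc i) : d₁ (qv i) = 2 * finrank (ZMod p) k),
      Finset.sum_const, Finset.card_univ, Fintype.card_fin, smul_eq_mul]
  have b2 : ∑ q ∈ T \ S, d₂ q = r * finrank (ZMod p) k := by
    rw [hsd, Finset.sum_image (fun i _ j _ h => hinj h), Finset.sum_congr rfl fun i _ => (by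
      obtain ⟨A, σ, h⟩ := hpl i
      exact h.finrank_invariants hs (hloc i) : d₂ (qv i) = finrank (ZMod p) k),
      Finset.sum_const, Finset.card_univ, Fintype.card_fin, smul_eq_mul]
  have b3 : r * (2 * finrank (ZMod p) k) = 2 * (r * finrank (ZMod p) k) := by ring
  refine ⟨hfin, ?_, ?_⟩ <;> omega

end FermatLib.MLT.Odd
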