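import Fermat.Agent.Galois.RepAdic
import Fermat.Agent.Mazur.GunitCyclo
import Fermat.Agent.MLT.Odd.TWCount
import Fermat.Prelude.Def_GaloisRep_LocalConditions

/-!
# Residual representations allowing auxiliary primes

An absolutely irreducible residual representation with cyclotomic determinant which stays
irreducible on every subgroup of index two satisfies the hypotheses for auxiliary primes, and at an
auxiliary place its Frobenius has two distinct eigenvalues.
-/

set_option autoImplicit false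

noncomputable section

open Polynomial Module IsLocalRing groupCohomology ExtCitation

namespace FermatLib.MLT.Odd

local notation "Qbar" => AlgebraicClosure ℚ
local notation "Γℚ" => (AlgebraicClosure ℚ ≃ₐ[ℚ] AlgebraicClosure ℚ)

open FermatLib.Galois

variable {k : Type} [Field k] {p : ℕ} [Fact p.Prime] [Algebra (ZMod p) k]
  {ρbar : ResidualGaloisRep k}

/-- The determinant is the cyclotomic character. -/
theorem det_residualMat (hdet : (GaloisRepAdic.ofResidualGaloisRep ρbar).DetIsCyclotomic p)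
    (g : Γℚ) : (residualMat ρbar g).det = cycloUnits p k g := by
  have : CharP k p := charP_of_injective_algebraMap (algebraMap (ZMod p) k).injective p
  obtain ⟨ζ, hζ⟩ := FermatLib.Mazur.exists_isPrimitiveRoot_qbar p
  obtain ⟨a, -, ha⟩ := hζ.eq_pow_of_pow_eq_one (ξ := g ζ)
    (by rw [← map_pow, hζ.pow_eq_one, map_one])
  rw [residualMat, det_repMatrix, cycloUnits_coe,
    FermatLib.Mazur.cycloChar_eq_of_apply_eq p hζ g ha.symm, map_natCast]
  have hμ : ∀ μ : Qbar, μ ^ p ^ 1 = 1 → g μ = μ ^ a := fun μ hμ => by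
    rw [pow_one] at hμ
    obtain ⟨i, -, rfl⟩ := hζ.eq_pow_of_pow_eq_one hμ
    rw [map_pow, ← ha, ← pow_mul, ← pow_mul, mul_comm]
  have h := hdet.2 1 g a hμ
  rw [pow_one, CharP.cast_eq_zero k p, Ideal.span_singleton_eq_bot.mpr rfl, Ideal.mem_bot,
    sub_eq_zero] at h
  exact h

/-- The residual matrices are trivial where the representation is. -/
theorem residualMat_eq_one_of_isUnramifiedAt {q : ℕ} (h : ρbar.IsUnramifiedAt q)
    {A : ValuationSubring Qbar} (hA : A.LiesOverPrime q) {g : Γℚ}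
    (hg : g ∈ A.inertiaSubgroupIn ℚ) : residualMat ρbar g = 1 := by
  rw [residualMat, repMatrix_apply, h A hA g hg, LinearMap.toMatrix_one]

/-- The residual matrices satisfy the hypotheses for auxiliary primes. -/
theorem isTWSetting_residualMat (hp2 : p ≠ 2) (habs : ρbar.IsAbsolutelyIrreducible)
    (hdet : (GaloisRepAdic.ofResidualGaloisRep ρbar).DetIsCyclotomic p)
    (hTW : ∀ (K : Type) [Field K] [Algebra k K] (G : Subgroup Γℚ), G.index = 2 →
      ∀ V : Submodule K (ρbar.baseChange K).V,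
        (∀ σ ∈ G, ∀ x ∈ V, (ρbar.baseChange K).ρ σ x ∈ V) → V = ⊥ ∨ V = ⊤)
    (hur : ∃ S₀ : Finset ℕ, ∀ q : ℕ, q.Prime → q ∉ S₀ → ρbar.IsUnramifiedAt q) :
    IsTWSetting p (residualMat ρbar) (cycloUnits p k) := by
  have hchar : CharP k p := charP_of_injective_algebraMap (algebraMap (ZMod p) k).injective p
  obtain ⟨ζ, hζ⟩ := FermatLib.Mazur.exists_isPrimitiveRoot_qbar p
  obtain ⟨S₀, hS₀⟩ := hur
  refine ⟨Fact.out, hp2, hchar,
    (isAbsolutelyIrreducible_iff_hasFullSpan ρbar).mp habs, fun L hL => ?_, det_residualMat hdet,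
    fun g a ha => ?_, ?_, ⟨S₀, fun q hq hqS A hA g hg =>
      residualMat_eq_one_of_isUnramifiedAt (hS₀ q hq hqS) hA hg⟩⟩
  · rw [hasFullSpan_iff_noStableLine_map (algebraMap k (AlgebraicClosure k))]
    have e : repMap (algebraMap k (AlgebraicClosure k)) ((residualMat ρbar).comp L.subtype) =
        repMatrix (Algebra.TensorProduct.basis (AlgebraicClosure k) (residualBasis ρbar))
          ((ρbar.baseChange (AlgebraicClosure k)).ρ.comp L.subtype) :=
      (repMatrix_eq_repMap (residualBasis ρbar) (ρbar.ρ.comp L.subtype) _ fun _ => rfl).symm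
    rw [e, noStableLine_repMatrix_iff]
    exact fun W hW => hTW _ L hL W fun σ hσ => hW ⟨σ, hσ⟩
  · rw [cycloUnits_coe, FermatLib.Mazur.cycloChar_eq_of_apply_eq p hζ g (ha ζ hζ.pow_eq_one),
      map_natCast]
  · obtain ⟨E, hE, hEρ⟩ := ρbar.factorsThroughFiniteLevel
    refine ⟨E, hE, fun g hg => ?_⟩
    rw [residualMat, repMatrix_apply, hEρ g ((IntermediateField.mem_fixingSubgroup_iff E g).1 hg),
      LinearMap.toMatrix_one]

/-- At an auxiliary place the split Frobenius has two distinct eigenvalues. -/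
theorem IsTWPlace.exists_distinct_roots {n : ℕ} {S : Finset ℕ} {q : ℕ} {A : ValuationSubring Qbar}
    {σ : Γℚ} (h : IsTWPlace p (residualMat ρbar) (cycloUnits p k) n S q A σ)
    (hsplit : ∀ σ : Γℚ, ∃ α β : k,
      LinearMap.charpoly (ρbar.ρ σ) = (X - C α) * (X - C β))
    {P : ValuationSubring Qbar} (hP : P.LiesOverPrime q) {φ : Γℚ} (hφ : P.IsFrobeniusAt φ q) :
    ∃ α β : k, α ≠ β ∧ LinearMap.charpoly (ρbar.ρ φ) = (X - C α) * (X - C β) := by
  obtain ⟨hd, ht⟩ := h.regular P hP φ hφ
  obtain ⟨α, β, hαβ⟩ := hsplit φ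
  refine ⟨α, β, fun e => ht ?_, hαβ⟩
  have hcp : (residualMat ρbar φ).charpoly = (X - C α) * (X - C β) := by
    rw [residualMat, charpoly_repMatrix, hαβ]
  rw [Matrix.charpoly_fin_two, ← e] at hcp
  have h0 := congrArg (Polynomial.eval 0) hcp
  have h1 := congrArg (Polynomial.eval 1) hcp
  simp at h0 h1
  linear_combination ((residualMat ρbar φ).trace + 2 * α) * (h0 - h1) + 4 * hd - 4 * h0

end FermatLib.MLT.Odd
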