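import Fermat.Agent.MLT.Odd.GeneratorsDefs
import Fermat.Agent.MLT.Odd.TWResidual

/-!
# Auxiliary families for the lifting data

The residual matrices of the lifting data satisfy the hypotheses for auxiliary primes, and
auxiliary places outside `p` and the bad primes form a family in the sense of `IsTWFamily`.
-/

set_option autoImplicit false

noncomputable section

open IsLocalRing Polynomial Module groupCohomology ExtCitation

namespace FermatLib.MLT.Odd

local notation "Qbar" => AlgebraicClosure ℚ
local notation "Γℚ" => (AlgebraicClosure ℚ ≃ₐ[ℚ] AlgebraicClosure ℚ)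
local notation "M₂" R:max => Matrix (Fin 2) (Fin 2) R

open FermatLib.Galois

variable {O : Type} [CommRing O] [IsDomain O] [IsDiscreteValuationRing O]
  {p : ℕ} [Fact p.Prime] [Algebra (ZMod p) (ResidueField O)]
  {ρbar : ResidualGaloisRep (ResidueField O)}

/-- The residual matrices satisfy the hypotheses for auxiliary primes. -/
theorem OddResidual.isTWSetting (hres : OddResidual p ρbar) (hp2 : p ≠ 2) (S : OddPrimes p ρbar) :
    IsTWSetting p (residualMat ρbar) (cycloUnits p (ResidueField O)) :=
  isTWSetting_residualMat hp2 hres.absIrred hres.det hres.index_two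
    ⟨insert p S.all, fun q hq hqS => by
      rw [Finset.mem_insert, not_or] at hqS
      exact S.unramified_out q hq hqS.1 hqS.2⟩

/-- Auxiliary places give an auxiliary family. -/
theorem isTWFamily_of_places (hres : OddResidual p ρbar) (S : OddPrimes p ρbar) {n r : ℕ}
    {Sℕ : Finset ℕ} (hS : insert p S.all ⊆ Sℕ) {qv : Fin r → ℕ} (hinj : Function.Injective qv)
    (hpl : ∀ i, ∃ A σ, IsTWPlace p (residualMat ρbar) (cycloUnits p (ResidueField O)) n Sℕ (qv i)
      A σ) :
    IsTWFamily S n qv := by
  refine ⟨hinj, fun i => ?_, fun i hi => ?_, fun i => ?_, fun i P hP φ hφ => ?_⟩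
  · obtain ⟨A, σ, h⟩ := hpl i
    exact h.prime
  · obtain ⟨A, σ, h⟩ := hpl i
    exact h.notMem (hS hi)
  · obtain ⟨A, σ, h⟩ := hpl i
    exact h.dvd
  · obtain ⟨A, σ, h⟩ := hpl i
    exact h.exists_distinct_roots hres.split hP hφ

/-- The places of the Selmer groups of the lifting data: `p` and the bad primes. -/
def OddPrimes.selmerSet (S : OddPrimes p ρbar) : Finset Nat.Primes :=
  (insert p S.all).subtype Nat.Prime

omit [Algebra (ZMod p) (ResidueField O)] in
lemma OddPrimes.pPrime_mem_selmerSet (S : OddPrimes p ρbar) : pPrime p ∈ S.selmerSet :=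
  Finset.mem_subtype.mpr (Finset.mem_insert_self _ _)

omit [Fact p.Prime] [Algebra (ZMod p) (ResidueField O)] in
/-- Outside the Selmer set the residual matrices are unramified. -/
theorem OddPrimes.residualMat_inertia (S : OddPrimes p ρbar) (q : Nat.Primes)
    (hq : q ∉ S.selmerSet) (A : ValuationSubring Qbar) (hA : A.LiesOverPrime (q : ℕ)) (g : Γℚ)
    (hg : g ∈ A.inertiaSubgroupIn ℚ) : residualMat ρbar g = 1 := by
  have hq' : (q : ℕ) ∉ insert p S.all := fun h => hq (Finset.mem_subtype.mpr h)
  rw [Finset.mem_insert, not_or] at hq'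
  rw [residualMat, repMatrix_apply, S.unramified_out q q.2 hq'.1 hq'.2 A hA g hg,
    LinearMap.toMatrix_one]

end FermatLib.MLT.Odd
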