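import Fermat.Agent.MLT.Odd.GeneratorsProofP
import Fermat.Agent.MLT.Odd.GeneratorsProofSelmer
import Fermat.Agent.MLT.Odd.TWFamily

/-!
# The count of tangent classes for the framed ring

Tangent vectors which are trivial at `T` and `F` and lie in the space left at `p` give at most
`r f - f (3 #T + #F + pIdx)` dimensions.
-/

set_option autoImplicit false
set_option linter.style.haveILetI false
set_option linter.unusedSectionVars false

noncomputable section

open IsLocalRing CategoryTheory Module groupCohomology ExtCitation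

namespace FermatLib.MLT.Odd

open FermatLib.Galois FermatLib.Galois.Deform

attribute [local instance] FermatLib.Galois.Deform.dualAlgebra

local notation "Qbar" => AlgebraicClosure ℚ

variable {O : Type} [CommRing O] [IsDomain O] [IsDiscreteValuationRing O]
  [Finite (ResidueField O)] {p : ℕ} [Fact p.Prime] [Algebra (ZMod p) (ResidueField O)]
  {ρbar : ResidualGaloisRep (ResidueField O)}
  {R : Type} [CommRing R] [IsLocalRing R] [Algebra O R]

/-- If the traces generate, a tangent vector killing them is zero. -/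
theorem eq_zero_of_trace_of_adjoin {ρ : GaloisRepAdic R} (π : R →ₐ[O] ResidueField O)
    (b : Basis (Fin 2) R ρ.V) (hgen : Algebra.adjoin O (Set.range ρ.trace) = ⊤) {κ : Type}
    (aR : κ → R) :
    ∀ l ∈ tangentSpace π aR, (∀ g, l (matOf ρ b g).trace = 0) → l = 0 := by
  rintro l ⟨φ, -, rfl⟩ htr
  have h : φ = dualZero π := AlgHom.ext_of_adjoin_eq_top hgen (by
    rintro _ ⟨g, rfl⟩
    refine TrivSqZeroExt.ext ?_ ?_
    · rw [fst_dualPoint π, fst_dualPoint π]
    · have e : ρ.trace g = (matOf ρ b g).trace := by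
        rw [GaloisRepAdic.trace, LinearMap.trace_eq_matrix_trace R b, matOf_apply]
      rw [e]
      exact (htr g).trans (TrivSqZeroExt.snd_inl _ (π (matOf ρ b g).trace)).symm)
  rw [h]
  exact funext fun r => TrivSqZeroExt.snd_inl _ (π r)

/-- Coboundaries do not depend on the basis. -/
theorem exists_coboundary_basis_change {ρ : GaloisRepAdic R} (π : R →ₐ[O] ResidueField O)
    (b e : Basis (Fin 2) R ρ.V) {κ : Type} {aR : κ → R} {l : R → ResidueField O}
    (hl : l ∈ tangentSpace π aR) (D : Set GQ)
    (h : ∃ X : M2 (ResidueField O), ∀ g ∈ D, (matOf ρ b g).map l =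
      (matOf ρ b g).map π * X - X * (matOf ρ b g).map π) :
    ∃ X : M2 (ResidueField O), ∀ g ∈ D, (matOf ρ e g).map l =
      (matOf ρ e g).map π * X - X * (matOf ρ e g).map π := by
  obtain ⟨X, hX⟩ := h
  set P : M2 R := b.toMatrix e with hP
  set Q : M2 R := e.toMatrix b with hQ
  have hQP : Q * P = 1 := Basis.toMatrix_mul_toMatrix_flip _ _
  have hPQ : P * Q = 1 := Basis.toMatrix_mul_toMatrix_flip _ _
  have hPQ' : P.map π * Q.map π = 1 := by
    rw [← Matrix.map_mul, hPQ, Matrix.map_one _ (map_zero π) (map_one π)]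
  have hQl : Q.map l = -(Q.map π * P.map l * Q.map π) := by
    have h1 := Ad.map_tangent_mul π aR hl Q P
    rw [hQP, map_tangent_one π hl] at h1
    calc Q.map l = Q.map l * (P.map π * Q.map π) := by rw [hPQ', mul_one]
      _ = _ := by rw [← mul_assoc, eq_neg_of_add_eq_zero_left h1.symm, neg_mul]
  refine ⟨Q.map π * X * P.map π + Q.map π * P.map l, fun g hg => ?_⟩
  have he : matOf ρ e g = Q * matOf ρ b g * P := by
    rw [hP, hQ, matOf_apply, matOf_apply,
      basis_toMatrix_mul_linearMap_toMatrix_mul_basis_toMatrix]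
  rw [he, Ad.map_tangent_mul π aR hl, Ad.map_tangent_mul π aR hl, Matrix.map_mul, hX g hg, hQl,
    Matrix.map_mul, Matrix.map_mul]
  set A := (matOf ρ b g).map π
  set P' := P.map π
  set Q' := Q.map π
  set E := P.map l
  simp only [mul_add, add_mul, mul_sub, sub_mul, neg_mul, mul_assoc]
  simp only [← mul_assoc P' Q', hPQ', one_mul]
  abel

variable (S : OddPrimes p ρbar)

section Conditions

variable (Lp : Submodule (ZMod p)
  (H1 (Rep.res (primeLocalToGlobal (pPrime p)) (Ad.adRep (residualMat ρbar) p))))

open scoped Classical in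
/-- The condition at a prime: `Lp` at `p`, unramified at `Smin`, zero at `T` and `F`. -/
def primeCond (q : Nat.Primes) :
    Submodule (ZMod p) (H1 (Rep.res (primeLocalToGlobal q) (Ad.adRep (residualMat ρbar) p))) :=
  if h : q = pPrime p then h ▸ Lp
  else if (q : ℕ) ∈ S.Smin then CFT.unramifiedSub q (Ad.adRep (residualMat ρbar) p) else ⊥

/-- The local conditions. -/
def genConds : ∀ v : extArithIndex S.selmerSet,
    Submodule (ZMod p) (H1 (Rep.res (extArithLoc S.selmerSet v) (Ad.adRep (residualMat ρbar) p)))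
  | Sum.inl _ => ⊥
  | Sum.inr q => primeCond S Lp q.1

lemma primeCond_self : primeCond S Lp (pPrime p) = Lp := dif_pos rfl

open scoped Classical in
lemma primeCond_of_ne {q : Nat.Primes} (h : q ≠ pPrime p) : primeCond S Lp q =
    if (q : ℕ) ∈ S.Smin then CFT.unramifiedSub q (Ad.adRep (residualMat ρbar) p) else ⊥ :=
  dif_neg h

theorem genConds_le (hLp : Lp ≤ continuousH1 (primeLocalToGlobal (pPrime p))
      (Rep.res (primeLocalToGlobal (pPrime p)) (Ad.adRep (residualMat ρbar) p))) :
    ∀ v, genConds S Lp v ≤ continuousH1 (extArithLoc S.selmerSet v)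
      (Rep.res (extArithLoc S.selmerSet v) (Ad.adRep (residualMat ρbar) p))
  | Sum.inl _ => bot_le
  | Sum.inr q => by
    show primeCond S Lp q.1 ≤ _
    by_cases h : q.1 = pPrime p
    · obtain ⟨q, hq⟩ := q
      obtain rfl : q = pPrime p := h
      rw [primeCond_self]
      exact hLp
    · rw [primeCond_of_ne S Lp h]
      split_ifs
      · exact CFT.unramifiedSub_le_continuousH1 _ _
      · exact bot_le

end Conditions

/-- What a prime costs in the count. -/
def primeCost (x : ℕ) : ℕ :=
  (if x ∈ S.T then 3 else 0) + (if x ∈ S.F then 1 else 0) + (if x = p then S.pIdx else 0)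

/-- The total cost. -/
theorem sum_primeCost (hp : p.Prime) :
    ∑ q : ↥S.selmerSet, primeCost S (q.1 : ℕ) = 3 * S.T.card + S.F.card + S.pIdx := by
  classical
  have hT : S.T ⊆ insert p S.all := fun x hx =>
    Finset.mem_insert_of_mem (Finset.mem_union_left _ (Finset.mem_union_right _ hx))
  have hF : S.F ⊆ insert p S.all := fun x hx =>
    Finset.mem_insert_of_mem (Finset.mem_union_right _ hx)
  have hprime : ∀ x ∈ insert p S.all, x.Prime := fun x hx => by
    rcases Finset.mem_insert.1 hx with rfl | hx
    · exact hp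
    · exact S.prime_of_mem x hx
  rw [Finset.sum_coe_sort S.selmerSet (fun q : Nat.Primes => primeCost S (q : ℕ)),
    show (∑ q ∈ S.selmerSet, primeCost S (q : ℕ)) = ∑ x ∈ insert p S.all, primeCost S x from
      (Finset.sum_subtype_eq_sum_filter (p := Nat.Prime) (s := insert p S.all) (primeCost S)).trans
        (by rw [Finset.filter_true_of_mem hprime])]
  simp only [primeCost, Finset.sum_add_distrib, Finset.sum_ite_mem, Finset.sum_ite_eq',
    Finset.mem_insert_self, if_true, Finset.inter_eq_right.mpr hT, Finset.inter_eq_right.mpr hF,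
    Finset.sum_const, smul_eq_mul, mul_one]
  ring

variable {ρ : GaloisRepAdic R} {Q : Finset ℕ} [IsLocalHom (algebraMap O R)]
  (π : R →ₐ[O] ResidueField O) (b : Basis (Fin 2) R ρ.V)
  (hρ₀ : ∀ g, (matOf ρ b g).map π = residualMat ρbar g)
  (χ : GQ → O) (hdetM : ∀ g, (matOf ρ b g).det = algebraMap O R (χ g))

/-- **The count.** -/
theorem finrank_add_le_of_selmer (hp2 : p ≠ 2) (hres : OddResidual p ρbar) (tp : S.TamePairs)
    (hlift : IsOddLift S Q ρ) (hlo : IsLiftOf ρbar ρ)
    (hgen : Algebra.adjoin O (Set.range ρ.trace) = ⊤) {r : ℕ} (qv : Fin r → Nat.Primes)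
    (hQ : Q = Finset.univ.image fun i => (qv i : ℕ))
    (hcount : ∀ (L : ∀ v : extArithIndex S.selmerSet, Submodule (ZMod p)
        (H1 (Rep.res (extArithLoc S.selmerSet v) (Ad.adRep (residualMat ρbar) p)))),
      (∀ v, L v ≤ continuousH1 (extArithLoc S.selmerSet v)
        (Rep.res (extArithLoc S.selmerSet v) (Ad.adRep (residualMat ρbar) p))) →
      ∀ T : Finset Nat.Primes, T = S.selmerSet ∪ Finset.univ.image qv →
        FiniteDimensional (ZMod p)
          (selmerAdm (extArithLoc T) (Ad.adRep (residualMat ρbar) p)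
            (twConditions (residualMat ρbar) T L)
            (continuousH1S T (Ad.adRep (residualMat ρbar) p))) ∧
        finrank (ZMod p)
            (selmerAdm (extArithLoc T) (Ad.adRep (residualMat ρbar) p)
              (twConditions (residualMat ρbar) T L)
              (continuousH1S T (Ad.adRep (residualMat ρbar) p))) +
            ∑ v, finrank (ZMod p)
              (Rep.res (extArithLoc S.selmerSet v) (Ad.adRep (residualMat ρbar) p)).ρ.invariants =
          ∑ v, finrank (ZMod p) (L v) + r * finrank (ZMod p) (ResidueField O))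
    (Lp : Submodule (ZMod p)
      (H1 (Rep.res (primeLocalToGlobal (pPrime p)) (Ad.adRep (residualMat ρbar) p))))
    (hLp : Lp ≤ continuousH1 (primeLocalToGlobal (pPrime p))
      (Rep.res (primeLocalToGlobal (pPrime p)) (Ad.adRep (residualMat ρbar) p)))
    (hLpf : finrank (ZMod p) Lp + S.pIdx * finrank (ZMod p) (ResidueField O) ≤
      finrank (ZMod p)
          (Rep.res (primeLocalToGlobal (pPrime p)) (Ad.adRep (residualMat ρbar) p)).ρ.invariants +
        finrank (ZMod p) (ResidueField O))
    (W : Submodule (ZMod p) (tangentSpace π (Empty.elim : Empty → R)))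
    (hWp : ∀ l ∈ W, tangentRes π b (residualMat ρbar) hρ₀ χ hdetM (pPrime p) l ∈ Lp)
    (hW0 : ∀ l ∈ W, ∀ q : Nat.Primes, (q : ℕ) ∈ S.T ∪ S.F →
      tangentRes (p := p) π b (residualMat ρbar) hρ₀ χ hdetM q l = 0) :
    FiniteDimensional (ZMod p) W ∧
      finrank (ZMod p) W + finrank (ZMod p) (ResidueField O) *
        (3 * S.T.card + S.F.card + S.pIdx) ≤ r * finrank (ZMod p) (ResidueField O) := by
  classical
  have hch : CharP (ResidueField O) p :=
    charP_of_injective_algebraMap (algebraMap (ZMod p) (ResidueField O)).injective p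
  have h2 : (2 : ResidueField O) ≠ 0 := CFT.TW.two_ne_zero_of_charP p hp2
  set f := finrank (ZMod p) (ResidueField O)
  let N := Ad.adRep (residualMat ρbar) p
  let T := S.selmerSet ∪ Finset.univ.image qv
  have hT : T = S.selmerSet ∪ Finset.univ.image qv := rfl
  obtain ⟨hfin, hcnt⟩ := hcount (genConds S Lp) (genConds_le S Lp hLp) T rfl
  have hmemS : ∀ {q : Nat.Primes}, q ∈ S.selmerSet ↔ (q : ℕ) = p ∨ (q : ℕ) ∈ S.all := by
    intro q
    exact Finset.mem_subtype.trans Finset.mem_insert
  have hMur : ∀ q : Nat.Primes, q ∉ T → ∀ A : ValuationSubring Qbar, A.LiesOverPrime (q : ℕ) →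
      ∀ g ∈ A.inertiaSubgroupIn ℚ, matOf ρ b g = 1 := fun q hq A hA g hg => by
    rw [hT, Finset.mem_union, not_or, hmemS, not_or] at hq
    have hqQ : (q : ℕ) ∉ S.all ∪ Q := by
      rw [Finset.mem_union, not_or, hQ]
      refine ⟨hq.1.2, fun h => hq.2 ?_⟩
      obtain ⟨i, -, hi⟩ := Finset.mem_image.1 h
      exact Finset.mem_image.2 ⟨i, Finset.mem_univ i, Subtype.ext hi⟩
    rw [matOf_apply, hlift.unramified q q.2 hq.1.1 hqQ A hA g hg, LinearMap.toMatrix_one]
  let cl := Ad.classMap π (matOf ρ b) (residualMat ρbar) hρ₀ χ hdetM (Empty.elim : Empty → R) p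
  have hcl : ∀ l, cl l ∈ continuousH1S T N := Ad.classMap_mem_continuousH1S π (matOf ρ b)
    (residualMat ρbar) hρ₀ χ hdetM _ p (matCont_matOf ρ b) T hMur
  have hmem : ∀ l : W, cl l.1 ∈ selmerAdm (extArithLoc T) N
      (twConditions (residualMat ρbar) T (genConds S Lp)) (continuousH1S T N) := by
    intro l
    refine (mem_selmerAdm_iff _ _ _ _ _).mpr ⟨?_, hcl l.1⟩
    rintro (u | q)
    · show (groupCohomology.map archimedeanLoc (𝟙 (Rep.res archimedeanLoc
          (Ad.adRep (residualMat ρbar) p))) 1).hom (cl l.1) ∈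
        (⊥ : Submodule (ZMod p) (H1 (Rep.res archimedeanLoc (Ad.adRep (residualMat ρbar) p))))
      exact (Submodule.mem_bot (ZMod p)).2 (archimedean_eq_zero hp2 _ _)
    · by_cases hqS : q.1 ∈ S.selmerSet
      · rw [twConditions_inr_mem (genConds S Lp) q hqS]
        show CFT.resAt q.1 N (cl l.1) ∈ primeCond S Lp q.1
        obtain ⟨q, hqT⟩ := q
        by_cases hqp : q = pPrime p
        · subst hqp
          rw [primeCond_self]
          exact hWp l.1 l.2
        · rw [primeCond_of_ne S Lp hqp]
          split_ifs with hmin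
          · exact GenLocal.resAt_classMap_mem_Smin π hlift hlo b (residualMat ρbar) hρ₀ hmin h2 χ
              hdetM Empty.elim l.1
          · have hall : (q : ℕ) ∈ S.all :=
              (hmemS.1 hqS).resolve_left fun h => hqp (Subtype.ext h)
            have hTF : (q : ℕ) ∈ S.T ∪ S.F := by
              rcases Finset.mem_union.1 hall with h | h
              · exact Finset.mem_union_left _ ((Finset.mem_union.1 h).resolve_left hmin)
              · exact Finset.mem_union_right _ h
            exact (Submodule.mem_bot (ZMod p)).2 (hW0 l.1 l.2 q hTF)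
      · rw [twConditions_inr_not_mem (genConds S Lp) q hqS]
        exact CFT.locRes_mem_continuousH1 _ T (Sum.inr q) (hcl l.1)
  let Φ := (cl.comp W.subtype).codRestrict _ hmem
  have hΦ : Function.Injective Φ := fun x y h => Subtype.ext
    (Ad.classMap_injective π (matOf ρ b) (residualMat ρbar) hρ₀ χ hdetM _ p
      (eq_zero_of_trace_of_adjoin π b hgen _) (congrArg Subtype.val h))
  refine ⟨FiniteDimensional.of_injective Φ hΦ, ?_⟩
  have hle := LinearMap.finrank_le_finrank_of_injective (f := Φ) hΦ
  -- the local terms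
  let i₀ : Nat.Primes → ℕ := fun q =>
    finrank (ZMod p) (Rep.res (primeLocalToGlobal q) N).ρ.invariants
  have hq : ∀ q : ↥S.selmerSet, finrank (ZMod p) (primeCond S Lp q.1) + f * primeCost S (q.1 : ℕ) ≤
      i₀ q.1 + if q = ⟨pPrime p, S.pPrime_mem_selmerSet⟩ then f else 0 := by
    rintro ⟨q, hqS⟩
    by_cases hqp : q = pPrime p
    · subst hqp
      have hnT : p ∉ S.T := fun h => S.ne_p p (Finset.mem_union_left _ (Finset.mem_union_right _ h)) rfl
      have hnF : p ∉ S.F := fun h => S.ne_p p (Finset.mem_union_right _ h) rfl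
      rw [primeCond_self, if_pos rfl, primeCost]
      show _ + f * ((if p ∈ S.T then 3 else 0) + (if p ∈ S.F then 1 else 0) +
        (if p = p then S.pIdx else 0)) ≤ i₀ (pPrime p) + f
      rw [if_neg hnT, if_neg hnF, if_pos rfl, zero_add, zero_add, mul_comm]
      exact hLpf
    · have hne : (q : ℕ) ≠ p := fun h => hqp (Subtype.ext h)
      rw [primeCond_of_ne S Lp hqp, if_neg fun h => hqp (congrArg Subtype.val h), add_zero,
        primeCost, if_neg hne, add_zero]
      rcases Finset.mem_union.1 ((hmemS.1 hqS).resolve_left hne) with h | h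
      · rcases Finset.mem_union.1 h with hmin | hT'
        · rw [if_pos hmin, if_neg (Finset.disjoint_left.1 S.disjoint_min_T hmin),
            if_neg (Finset.disjoint_left.1 S.disjoint_min_F hmin), add_zero, mul_zero, add_zero]
          exact GenLocal.finrank_unramifiedSub_adRep_le π b (residualMat ρbar) hρ₀ q
        · rw [if_neg (Finset.disjoint_right.1 S.disjoint_min_T hT'), if_pos hT',
            if_neg (Finset.disjoint_left.1 S.disjoint_T_F hT'), add_zero, finrank_bot, zero_add,
            mul_comm]
          refine (finrank_invariants_of_scalar (residualMat ρbar) (primeLocalToGlobal q)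
            fun h => residualMat_scalar (S.scalar_T q hT') (CFT.padicPlace_liesOverPrime q) ?_).ge
          rw [CFT.decompositionSubgroup_padicPlace]
          exact ⟨h, rfl⟩
      · rw [if_neg (Finset.disjoint_right.1 S.disjoint_min_F h),
          if_neg (Finset.disjoint_right.1 S.disjoint_T_F h), if_pos h, zero_add, finrank_bot,
          zero_add, mul_one]
        exact GenLocal.finrank_le_invariants_F π hlo b (residualMat ρbar) hρ₀ h (tp.atF ⟨q, h⟩) h2
          hres.det
  have hsum : ∑ q : ↥S.selmerSet, finrank (ZMod p) (primeCond S Lp q.1) +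
      f * (3 * S.T.card + S.F.card + S.pIdx) ≤ ∑ q : ↥S.selmerSet, i₀ q.1 + f := by
    have h := Finset.sum_le_sum (s := Finset.univ) fun q _ => hq q
    rw [Finset.sum_add_distrib, Finset.sum_add_distrib, ← Finset.mul_sum,
      sum_primeCost S Fact.out, Finset.sum_ite_eq', if_pos (Finset.mem_univ _)] at h
    exact h
  have hinf : f ≤ finrank (ZMod p) (Rep.res archimedeanLoc N).ρ.invariants :=
    finrank_le_invariants_archimedean hp2 hres.det
  have e1 : ∑ v, finrank (ZMod p) (genConds S Lp v) =
      ∑ q : ↥S.selmerSet, finrank (ZMod p) (primeCond S Lp q.1) := by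
    show ∑ v : Unit ⊕ ↥S.selmerSet, _ = _
    rw [Fintype.sum_sum_type, Finset.univ_unique, Finset.sum_singleton]
    show finrank (ZMod p) (⊥ : Submodule (ZMod p) (H1 (Rep.res archimedeanLoc N))) + _ = _
    rw [finrank_bot, zero_add]
    rfl
  have e2 : ∑ v, finrank (ZMod p) (Rep.res (extArithLoc S.selmerSet v) N).ρ.invariants =
      finrank (ZMod p) (Rep.res archimedeanLoc N).ρ.invariants + ∑ q : ↥S.selmerSet, i₀ q.1 := by
    show ∑ v : Unit ⊕ ↥S.selmerSet, _ = _
    rw [Fintype.sum_sum_type, Finset.univ_unique, Finset.sum_singleton]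
    rfl
  rw [e1, e2] at hcnt
  have hle' : finrank (ZMod p) W ≤ finrank (ZMod p)
      (selmerAdm (extArithLoc T) (Ad.adRep (residualMat ρbar) p)
        (twConditions (residualMat ρbar) T (genConds S Lp))
        (continuousH1S T (Ad.adRep (residualMat ρbar) p))) := hle
  omega

end FermatLib.MLT.Odd

end
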