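import Fermat.Agent.MLT.Odd.Defs
import Fermat.Agent.Galois.CyclotomicFrobenius
import Fermat.Agent.Galois.RepAdic
import Fermat.Agent.Galois.Deform.Residual

/-!
# The residual setting of the generator count

Frames of a lift which reduce exactly to the residual matrices, and the determinant with values
in `O`.
-/

set_option autoImplicit false

noncomputable section

open IsLocalRing

namespace FermatLib.MLT.Odd

open FermatLib.Galois FermatLib.Galois.Deform

local notation "Qbar" => AlgebraicClosure ℚ

section Lift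

variable {O : Type} [CommRing O] [IsLocalRing O]
  {R : Type} [CommRing R] [IsLocalRing R] [Algebra O R] [IsLocalHom (algebraMap O R)]
  {ρbar : ResidualGaloisRep (ResidueField O)} {ρ : GaloisRepAdic R}

/-- A frame in which `ρ` reduces exactly to the residual matrices. -/
theorem exists_frame (hsurj : Function.Surjective fun c : O => residue R (algebraMap O R c))
    (h : IsLiftOf ρbar ρ) : ∃ (π : R →ₐ[O] ResidueField O) (e : Module.Basis (Fin 2) R ρ.V),
      ∀ g, (matOf ρ e g).map π = residualMat ρbar g := by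
  set ψ : ResidueField O →+* ResidueField R := ResidueField.map (algebraMap O R)
  have hψ : Function.Bijective ψ := ⟨ψ.injective, fun x => by
    obtain ⟨c, hc⟩ := hsurj x
    exact ⟨residue O c, by rw [ResidueField.map_residue]; exact hc⟩⟩
  let eψ := RingEquiv.ofBijective ψ hψ
  let π : R →ₐ[O] ResidueField O :=
    { (eψ.symm : ResidueField R →+* ResidueField O).comp (residue R) with
      commutes' := fun c => by
        show eψ.symm (residue R (algebraMap O R c)) = _
        rw [RingEquiv.symm_apply_eq]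
        exact (ResidueField.map_residue _ c).symm }
  obtain ⟨M, hM, ⟨E⟩, hMres⟩ := exists_matRep ψ ρbar (residualBasis ρbar) ρ h
  refine ⟨π, (stdBasis M hM).map E.toLinearEquiv.symm, fun g => ?_⟩
  have hmat : matOf ρ ((stdBasis M hM).map E.toLinearEquiv.symm) g = M g := by
    rw [matOf_apply, ← toMatrix_toAdic M hM g]
    ext i j
    rw [LinearMap.toMatrix_apply, LinearMap.toMatrix_apply]
    simp only [Module.Basis.map_apply, Module.Basis.map_repr, LinearEquiv.symm_symm,
      LinearEquiv.trans_apply]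
    rw [E.map_apply, LinearEquiv.apply_symm_apply]
  rw [hmat]
  ext i j
  have h1 : residue R (M g i j) = ψ (residualMat ρbar g i j) :=
    congrFun (congrFun (hMres g) i) j
  show eψ.symm (residue R (M g i j)) = _
  rw [h1]
  exact eψ.symm_apply_apply _

/-- The determinant of a lift takes values in `O`. -/
theorem exists_det_eq_algebraMap [IsAdicComplete (maximalIdeal O) O] [IsNoetherianRing R] {p : ℕ}
    [Fact p.Prime] (hpO : (p : O) ∈ maximalIdeal O) (hdet : ρ.DetIsCyclotomic p) :
    ∃ χ : GQ → O, ∀ g (e : Module.Basis (Fin 2) R ρ.V),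
      (matOf ρ e g).det = algebraMap O R (χ g) := by
  suffices h : ∀ g, ∃ x : O, LinearMap.det (ρ.ρ g) = algebraMap O R x by
    choose χ hχ using h
    exact ⟨χ, fun g e => by rw [matOf_apply, LinearMap.det_toMatrix, hχ]⟩
  intro g
  have hne : ∀ n, NeZero (p ^ n) := fun n => ⟨pow_ne_zero _ (Fact.out : p.Prime).ne_zero⟩
  let a : ℕ → ℕ := fun n => haveI := hne n; ((modCycloChar (p ^ n) g : ZMod (p ^ n))).val
  have hspec : ∀ n (μ : Qbar), μ ^ p ^ n = 1 → g μ = μ ^ a n := fun n μ hμ =>
    haveI := hne n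
    apply_eq_pow_modCycloChar (p ^ n) g hμ
  have hcong : ∀ {m n}, m ≤ n → a m ≡ a n [MOD p ^ m] := by
    intro m n hmn
    have := hne m
    obtain ⟨ζ, hζ⟩ := HasEnoughRootsOfUnity.exists_primitiveRoot Qbar (p ^ m)
    obtain ⟨d, hd⟩ := pow_dvd_pow p hmn
    have h1 := hspec m ζ hζ.pow_eq_one
    rw [hspec n ζ (by rw [hd, pow_mul, hζ.pow_eq_one, one_pow])] at h1
    have hof : IsOfFinOrder ζ := isOfFinOrder_iff_pow_eq_one.mpr
      ⟨p ^ m, Nat.pos_of_ne_zero (NeZero.ne _), hζ.pow_eq_one⟩
    have h2 := hof.pow_eq_pow_iff_modEq.mp h1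
    rw [← hζ.eq_orderOf] at h2
    exact h2.symm
  obtain ⟨x, hx⟩ := IsPrecomplete.prec (I := maximalIdeal O) inferInstance
    (f := fun n => (a n : O)) fun {m n} hmn => by
    rw [SModEq.sub_mem, smul_eq_mul, Ideal.mul_top]
    obtain ⟨z, hz⟩ := (Nat.modEq_iff_dvd.mp (hcong hmn).symm)
    have e : (a m : O) - (a n : O) = ((p : O) ^ m) * ((z : ℤ) : O) := by
      have := congrArg (fun w : ℤ => (w : O)) hz
      push_cast at this
      exact this
    rw [e]
    exact Ideal.mul_mem_right _ _ (Ideal.pow_mem_pow hpO m)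
  refine ⟨x, sub_eq_zero.mp ?_⟩
  rw [← Submodule.mem_bot R, ← Ideal.iInf_pow_eq_bot_of_isLocalRing (maximalIdeal R)
    (Ideal.IsPrime.ne_top inferInstance), Submodule.mem_iInf]
  intro n
  have h1 : LinearMap.det (ρ.ρ g) - (a n : R) ∈ maximalIdeal R ^ n := by
    refine (Ideal.span_singleton_le_iff_mem _).2 ?_ (hdet.2 n g (a n) (hspec n))
    rw [Nat.cast_pow]
    exact Ideal.pow_mem_pow hdet.1 _
  have h2 : (a n : R) - algebraMap O R x ∈ maximalIdeal R ^ n := by
    have h := hx n
    rw [SModEq.sub_mem, smul_eq_mul, Ideal.mul_top] at h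
    have h' := Ideal.mem_map_of_mem (algebraMap O R) h
    rw [map_sub, map_natCast, Ideal.map_pow] at h'
    exact Ideal.pow_right_mono
      (Ideal.map_le_iff_le_comap.mpr fun c hc =>
        Ideal.mem_comap.mpr (map_nonunit (algebraMap O R) c hc)) n h'
  have := Ideal.add_mem _ h1 h2
  rwa [sub_add_sub_cancel] at this

end Lift

end FermatLib.MLT.Odd
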