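import Fermat.Agent.MLT.Odd.GenLocalCohom
import Fermat.Agent.MLT.Odd.HeckeRepDescentPrep
import Fermat.Agent.MLT.Odd.TWResidual
import Fermat.Agent.MLT.Odd.GeneratorsProofSetting

/-!
# Residual local dimensions for the generator count

The invariants of the adjoint module at infinity and at the framed and branch primes, the vanishing
of the classes at infinity, and the residual facts at the branch primes.
-/

set_option autoImplicit false

noncomputable section

open IsLocalRing CategoryTheory Module groupCohomology ExtCitation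
open scoped Pointwise

namespace FermatLib.MLT.Odd

open FermatLib.Galois FermatLib.Galois.Deform FermatLib.MLT.Ad

local notation "Qbar" => AlgebraicClosure ℚ

section Invariants

variable {k : Type} [Field k] {p : ℕ} [Fact p.Prime] [Algebra (ZMod p) k]
  (ρ : GQ →* M2 k) {H : Type} [Group H] (f : H →* GQ)

/-- A non-scalar matrix commuting with the image gives a line of invariants. -/
theorem finrank_le_invariants_of_commute [Finite k] (h2 : (2 : k) ≠ 0) (X : M2 k)
    (hX : ∀ c : k, X ≠ c • 1) (hcomm : ∀ h, ρ (f h) * X = X * ρ (f h)) :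
    finrank (ZMod p) k ≤ finrank (ZMod p) (Rep.res f (adRep ρ p)).ρ.invariants := by
  let Y : M2 k := X - (X.trace / 2) • 1
  have hY : Y ∈ traceZero k := by
    rw [mem_traceZero, Matrix.trace_sub, Matrix.trace_smul, Matrix.trace_one, Fintype.card_fin,
      smul_eq_mul]
    push_cast
    field_simp
    ring
  have hY0 : Y ≠ 0 := fun h => hX _ (sub_eq_zero.mp h)
  let I : Submodule (ZMod p) (traceZero k) := (Rep.res f (adRep ρ p)).ρ.invariants
  have hmem : ∀ c : k, (c • (⟨Y, hY⟩ : traceZero k)) ∈ I := by
    intro c h
    refine Subtype.ext ?_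
    show ρ (f h) * (c • Y) * ρ (f h)⁻¹ = c • Y
    have hc : ρ (f h) * Y = Y * ρ (f h) := by
      rw [mul_sub, sub_mul, hcomm, mul_smul_comm, mul_one, smul_mul_assoc, one_mul]
    rw [mul_smul_comm, smul_mul_assoc, hc, mul_assoc, rho_mul_inv, mul_one]
  let φ : k →ₗ[ZMod p] I :=
    { toFun := fun c => ⟨_, hmem c⟩
      map_add' := fun c d => Subtype.ext (add_smul c d _)
      map_smul' := fun a c => Subtype.ext (smul_assoc a c (⟨Y, hY⟩ : traceZero k)) }
  have hφ : Function.Injective φ := fun c d h => by
    have hv : c • (⟨Y, hY⟩ : traceZero k) = d • ⟨Y, hY⟩ := congrArg (fun u : I => (u.1 : traceZero k)) h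
    have hne : (⟨Y, hY⟩ : traceZero k) ≠ 0 := fun h0 => hY0 (congrArg Subtype.val h0)
    exact smul_left_injective k hne hv
  have : FiniteDimensional (ZMod p) (traceZero k) :=
    inferInstanceAs (FiniteDimensional (ZMod p) (adRep ρ p))
  exact LinearMap.finrank_le_finrank_of_injective hφ

/-- Everything is invariant where the residual image is scalar. -/
theorem finrank_invariants_of_scalar [Finite k]
    (hs : ∀ h, ∃ c : k, ρ (f h) = c • 1) :
    finrank (ZMod p) (Rep.res f (adRep ρ p)).ρ.invariants = 3 * finrank (ZMod p) k := by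
  have htop : (Rep.res f (adRep ρ p)).ρ.invariants = ⊤ := by
    refine eq_top_iff.mpr fun X _ h => Subtype.ext ?_
    obtain ⟨c, hc⟩ := hs h
    show ρ (f h) * (X : traceZero k).1 * ρ (f h)⁻¹ = (X : traceZero k).1
    rw [show ρ (f h) * (X : traceZero k).1 = (X : traceZero k).1 * ρ (f h) by
      rw [hc, smul_mul_assoc, one_mul, mul_smul_comm, mul_one], mul_assoc, rho_mul_inv, mul_one]
  rw [htop, finrank_top]
  show finrank (ZMod p) (traceZero k) = _
  rw [← Module.finrank_mul_finrank (ZMod p) k (traceZero k), finrank_traceZero, mul_comm]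

end Invariants

section Infinity

variable {p : ℕ} [Fact p.Prime]

/-- For odd `p` every class at infinity vanishes. -/
theorem archimedean_eq_zero (hp2 : p ≠ 2) (N : Rep (ZMod p) GQ)
    (x : H1 (Rep.res archimedeanLoc N)) : x = 0 := by
  have hgen : ∀ g : archimedeanDecomposition, g = 1 ∨ g = archimedeanGen := by
    intro g
    obtain ⟨m, hm⟩ := Subgroup.mem_zpowers_iff.mp g.2
    rcases Int.even_or_odd' m with ⟨j, rfl | rfl⟩
    · refine Or.inl (Subtype.ext ?_)
      rw [← hm, zpow_mul, zpow_two, complexConjugation_mul_self, one_zpow]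
      rfl
    · refine Or.inr (Subtype.ext ?_)
      rw [← hm, zpow_add, zpow_mul, zpow_two, complexConjugation_mul_self, one_zpow, one_mul,
        zpow_one]
      rfl
  induction x using H1_induction_on with
  | h c =>
    rw [H1π_eq_zero_iff]
    have h := (mem_cocycles₁_iff c).1 c.2 archimedeanGen archimedeanGen
    rw [show archimedeanGen * archimedeanGen = 1 from Subtype.ext complexConjugation_mul_self,
      cocycles₁_map_one] at h
    have h' : N.ρ complexConjugation (c archimedeanGen) = -c archimedeanGen :=
      eq_neg_of_add_eq_zero_left h.symm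
    have htwo : (2 : ZMod p) ≠ 0 := CFT.TW.two_ne_zero_of_charP (k := ZMod p) p hp2
    refine ⟨(-(2 : ZMod p)⁻¹) • c archimedeanGen, funext fun g => ?_⟩
    rw [d₀₁_hom_apply]
    rcases hgen g with rfl | rfl
    · rw [cocycles₁_map_one, map_one, Module.End.one_apply, sub_self]
    · show N.ρ complexConjugation _ - _ = _
      rw [map_smul, h', smul_neg, ← neg_smul, ← sub_smul, neg_neg, sub_neg_eq_add, ← two_mul,
        mul_inv_cancel₀ htwo, one_smul]

variable {k : Type} [Field k] [Finite k] [Algebra (ZMod p) k] {ρbar : ResidualGaloisRep k}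

/-- At infinity the invariants are at least a line. -/
theorem finrank_le_invariants_archimedean (hp2 : p ≠ 2)
    (hdet : (GaloisRepAdic.ofResidualGaloisRep ρbar).DetIsCyclotomic p) :
    finrank (ZMod p) k ≤
      finrank (ZMod p) (Rep.res archimedeanLoc (adRep (residualMat ρbar) p)).ρ.invariants := by
  have := charP_of_injective_algebraMap (algebraMap (ZMod p) k).injective p
  have h2 : (2 : k) ≠ 0 := CFT.TW.two_ne_zero_of_charP p hp2
  refine finrank_le_invariants_of_commute _ _ h2 (residualMat ρbar complexConjugation)
    (fun a ha => ?_) fun h => ?_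
  · have hd : (residualMat ρbar complexConjugation).det = -1 := by
      rw [residualMat, det_repMatrix]
      exact HeckeRep.det_complexConjugation (GaloisRepAdic.ofResidualGaloisRep ρbar)
        (Fact.out : p.Prime).ne_zero hdet
    have hsq : residualMat ρbar complexConjugation * residualMat ρbar complexConjugation = 1 := by
      rw [← map_mul, complexConjugation_mul_self, map_one]
    rw [ha, Matrix.det_smul, Matrix.det_one, Fintype.card_fin, mul_one] at hd
    rw [ha, smul_mul_assoc, one_mul, smul_smul] at hsq
    have h11 := congrFun (congrFun hsq 0) 0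
    simp at h11
    exact h2 (by linear_combination hd - h11)
  · obtain ⟨m, hm⟩ := Subgroup.mem_zpowers_iff.mp (show archimedeanLoc h ∈
      Subgroup.zpowers complexConjugation from h.2)
    rw [← hm, ← map_mul, ← map_mul, (Commute.zpow_self complexConjugation m).eq]

end Infinity

section Places

variable {k : Type} [Field k] {p : ℕ} {ρbar : ResidualGaloisRep k}

/-- Residual scalarity at a prime in matrices. -/
theorem residualMat_scalar {q : ℕ} (h : IsScalarAt ρbar q) {A : ValuationSubring Qbar}
    (hA : A.LiesOverPrime q) {σ : GQ} (hσ : σ ∈ A.decompositionSubgroup ℚ) :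
    ∃ c : k, residualMat ρbar σ = c • 1 := by
  obtain ⟨c, hc⟩ := h A hA σ hσ
  refine ⟨c, ?_⟩
  rw [residualMat, repMatrix_apply, hc, map_smul, LinearMap.toMatrix_one]

end Places

end FermatLib.MLT.Odd
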