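import Fermat.Agent.MLT.Odd.FrameCount
import Fermat.Agent.MLT.Ad.Tangent
import Fermat.Agent.Galois.FrobeniusElement
import Fermat.Agent.Galois.Deform.Mat
import Mathlib.Algebra.CharP.Lemmas

/-!
# Detection of local triviality at tame places

The elements at which the derivative along a tangent vector is the coboundary of a given matrix
form a subgroup; at a tame pair it contains the decomposition group as soon as it contains the
two generators.
-/

set_option autoImplicit false

noncomputable section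

open IsLocalRing

namespace FermatLib.MLT.Odd

open FermatLib.Galois.Deform FermatLib.MLT.Ad

attribute [local instance] FermatLib.Galois.Deform.dualAlgebra

variable {O : Type} [CommRing O] [IsLocalRing O] {R : Type} [CommRing R] [IsLocalRing R]
  [Algebra O R] (π : R →ₐ[O] ResidueField O)
  (M : GQ →* M2 R) (ρ₀ : GQ →* M2 (ResidueField O)) (hρ : ∀ g, (M g).map π = ρ₀ g)
  {κ : Type} {aR : κ → R} {l : R → ResidueField O} (hl : l ∈ tangentSpace π aR)

include hl in
lemma map_tangent_one : (1 : M2 R).map l = 0 := by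
  have h := map_tangent_mul π aR hl 1 1
  rw [one_mul, Matrix.map_one _ (map_zero π) (map_one π), mul_one, one_mul] at h
  exact left_eq_add.mp h

include hρ hl in
lemma map_tangent_inv (g : GQ) :
    (M g⁻¹).map l = -(ρ₀ g⁻¹ * (M g).map l * ρ₀ g⁻¹) := by
  have h := map_tangent_mul π aR hl (M g⁻¹) (M g)
  rw [← map_mul, inv_mul_cancel, map_one, map_tangent_one π hl, hρ, hρ] at h
  have h' := congrArg (fun A => A * ρ₀ g⁻¹) h
  simp only [zero_mul, add_mul, mul_assoc, rho_mul_inv, mul_one] at h'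
  rw [mul_assoc]
  exact eq_neg_of_add_eq_zero_left h'.symm

/-- Where the derivative along `l` is the coboundary of `X`. -/
def trivialAt (X : M2 (ResidueField O)) : Subgroup GQ where
  carrier := {g | (M g).map l = ρ₀ g * X - X * ρ₀ g}
  one_mem' := by
    show (M 1).map l = _
    rw [map_one, map_one, map_tangent_one π hl, one_mul, mul_one, sub_self]
  mul_mem' := fun {a b} (ha : _ = _) (hb : _ = _) => by
    show (M (a * b)).map l = _
    rw [map_mul M, map_tangent_mul π aR hl, hρ, hρ, ha, hb, map_mul]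
    noncomm_ring
  inv_mem' := fun {a} (ha : _ = _) => by
    show (M a⁻¹).map l = _
    rw [map_tangent_inv π M ρ₀ hρ hl, ha, mul_sub, sub_mul, ← mul_assoc, rho_inv_mul, one_mul,
      ← mul_assoc (ρ₀ a⁻¹) X, mul_assoc (ρ₀ a⁻¹ * X), rho_mul_inv, mul_one, neg_sub]

lemma mem_trivialAt {X : M2 (ResidueField O)} {g : GQ} :
    g ∈ trivialAt π M ρ₀ hρ hl X ↔ (M g).map l = ρ₀ g * X - X * ρ₀ g := Iff.rfl

include hρ hl in
/-- The derivative of a power of an element with trivial residual matrix. -/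
theorem map_tangent_pow_of_eq_one (x : GQ) (hx : ρ₀ x = 1) (n : ℕ) :
    (M (x ^ n)).map l = n • (M x).map l := by
  induction n with
  | zero => rw [pow_zero, map_one, map_tangent_one π hl, zero_smul]
  | succ n ih =>
    rw [pow_succ, map_mul, map_tangent_mul π aR hl, hρ, hρ, map_pow ρ₀, hx, one_pow, ih, mul_one,
      one_mul, succ_nsmul]

include hl in
/-- A tangent vector along a continuous representation has finite level. -/
theorem exists_level_tangent (hM : MatCont M) :
    ∃ F : IntermediateField ℚ (AlgebraicClosure ℚ), FiniteDimensional ℚ F ∧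
      ∀ g ∈ F.fixingSubgroup, (M g).map π = 1 ∧ (M g).map l = 0 := by
  obtain ⟨F, hF, h⟩ := hM 2
  obtain ⟨φ, -, hφ⟩ := hl
  refine ⟨F, hF, fun g hg => ?_⟩
  have hm := h g ((IntermediateField.mem_fixingSubgroup_iff _ _).mp hg)
  have hsq : ∀ x ∈ maximalIdeal R ^ 2, φ x = 0 := by
    intro x hx
    rw [pow_two] at hx
    refine Submodule.mul_induction_on hx ?_ fun u v hu hv => by rw [map_add, hu, hv, add_zero]
    intro u hu v hv
    have hu' := (res_eq_zero_iff π u).mpr hu
    have hv' := (res_eq_zero_iff π v).mpr hv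
    rw [map_mul]
    refine TrivSqZeroExt.ext ?_ ?_ <;>
      simp [fst_dualPoint π, hu', hv']
  have key : (M g).map φ = 1 := by
    refine Matrix.ext fun i j => ?_
    have h0 := hsq _ (hm i j)
    rw [Matrix.sub_apply, map_sub, sub_eq_zero] at h0
    rw [Matrix.map_apply, h0, Matrix.one_apply, Matrix.one_apply]
    split_ifs <;> simp
  constructor
  · ext i j
    have := congrArg TrivSqZeroExt.fst (congrFun (congrFun key i) j)
    rw [Matrix.map_apply, fst_dualPoint π] at this
    rw [Matrix.map_apply, this, Matrix.one_apply, Matrix.one_apply]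
    split_ifs <;> simp
  · ext i j
    have := congrArg TrivSqZeroExt.snd (congrFun (congrFun key i) j)
    rw [Matrix.map_apply] at this
    rw [← hφ, Matrix.map_apply, dualSnd, this, Matrix.one_apply]
    split_ifs <;> simp

section Tame

variable {p : ℕ} [CharP (ResidueField O) p] [Finite (ResidueField O)] {q : ℕ}
  (t : TamePair p q)

include hρ hl

/-- **Generation at a tame pair.** -/
theorem tamePair_generation
    (hlev : ∃ F : IntermediateField ℚ (AlgebraicClosure ℚ), FiniteDimensional ℚ F ∧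
      ∀ g ∈ F.fixingSubgroup, ρ₀ g = 1 ∧ (M g).map l = 0)
    (hp : ∀ σ ∈ t.A.inertiaSubgroupIn ℚ, ∃ m : ℕ, ρ₀ σ ^ p ^ m = 1) :
    (∀ σ ∈ t.A.inertiaSubgroupIn ℚ, ∃ σ' ∈ Subgroup.zpowers t.gen,
      ρ₀ σ' = ρ₀ σ ∧ (M σ').map l = (M σ).map l) ∧
    (∀ σ ∈ t.A.decompositionSubgroup ℚ, ∃ σ' ∈ Subgroup.closure {t.gen, t.frob},
      ρ₀ σ' = ρ₀ σ ∧ (M σ').map l = (M σ).map l) ∧
    ρ₀ (t.frob * t.gen * t.frob⁻¹) = ρ₀ (t.gen ^ q) ∧
      (M (t.frob * t.gen * t.frob⁻¹)).map l = (M (t.gen ^ q)).map l := by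
  obtain ⟨φ, hφa, hφ⟩ := hl
  let D := Matrix (Fin 2) (Fin 2) (DualNumber (ResidueField O))
  have : Finite (DualNumber (ResidueField O)) :=
    inferInstanceAs (Finite (ResidueField O × ResidueField O))
  have : CharP (DualNumber (ResidueField O)) p :=
    charP_of_injective_ringHom (f := TrivSqZeroExt.inlHom (ResidueField O) (ResidueField O))
      TrivSqZeroExt.inl_injective p
  have : Finite D := inferInstanceAs (Finite (Fin 2 → Fin 2 → DualNumber (ResidueField O)))
  have : Finite Dˣ := Finite.of_injective _ Units.val_injective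
  let ψ : GQ →* Dˣ := ((φ : R →+* DualNumber (ResidueField O)).mapMatrix.toMonoidHom.comp M).toHomUnits
  have hψval : ∀ g, (ψ g : D) = (M g).map φ := fun g => rfl
  have hfst : ∀ g i j, ((M g).map φ i j).fst = ρ₀ g i j := fun g i j => by
    rw [Matrix.map_apply, fst_dualPoint π, ← Matrix.map_apply (f := π), hρ]
  have hsnd : ∀ g i j, ((M g).map φ i j).snd = (M g).map l i j := fun g i j => by
    rw [← hφ]; rfl
  have hval : ∀ a b, ψ a = ψ b → ρ₀ a = ρ₀ b ∧ (M a).map l = (M b).map l := fun a b hab => by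
    have e := congrArg Units.val hab
    rw [hψval, hψval] at e
    constructor <;> ext i j
    · rw [← hfst, ← hfst, e]
    · rw [← hsnd, ← hsnd, e]
  have hext : ∀ g, ρ₀ g = 1 → ∀ i j, ((M g).map φ i j) =
      (1 : D) i j + TrivSqZeroExt.inr ((M g).map l i j) := fun g hg i j => by
    refine TrivSqZeroExt.ext ?_ ?_
    · rw [hfst, hg, TrivSqZeroExt.fst_add, TrivSqZeroExt.fst_inr, add_zero, Matrix.one_apply,
        Matrix.one_apply]
      split_ifs <;> simp
    · rw [hsnd, TrivSqZeroExt.snd_add, TrivSqZeroExt.snd_inr, Matrix.one_apply]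
      split_ifs <;> simp
  have hfin : GaloisFactorsThroughFiniteLevel ψ := by
    obtain ⟨F, hF, h⟩ := hlev
    refine ⟨F, hF, fun σ hσ => Units.ext (Matrix.ext fun i j => ?_)⟩
    obtain ⟨h1, h2⟩ := h σ ((IntermediateField.mem_fixingSubgroup_iff _ _).mpr hσ)
    rw [hψval, hext σ h1, h2, Matrix.zero_apply, TrivSqZeroExt.inr_zero, add_zero]
    rfl
  have hpow : ∀ σ ∈ t.A.inertiaSubgroupIn ℚ, ∃ m : ℕ, ψ σ ^ p ^ m = 1 := by
    intro σ hσ
    obtain ⟨m, hm⟩ := hp σ hσ
    refine ⟨m + 1, ?_⟩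
    rw [pow_succ, pow_mul, ← map_pow, ← map_pow]
    have hm' : ρ₀ (σ ^ p ^ m) = 1 := by rw [map_pow, hm]
    have hl' : l ∈ tangentSpace π aR := ⟨φ, hφa, hφ⟩
    refine Units.ext (Matrix.ext fun i j => ?_)
    rw [hψval, hext _ (by rw [map_pow, hm', one_pow]),
      map_tangent_pow_of_eq_one π M ρ₀ hρ hl' _ hm' p, Matrix.smul_apply,
      ← Nat.cast_smul_eq_nsmul (ResidueField O), CharP.cast_eq_zero, zero_smul,
      TrivSqZeroExt.inr_zero, add_zero]
    rfl
  obtain ⟨h1, h2, h3⟩ := t.tame Dˣ ψ hfin hpow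
  refine ⟨fun σ hσ => ?_, fun σ hσ => ?_, ?_⟩
  · obtain ⟨i, hi⟩ := Subgroup.mem_zpowers_iff.mp (h1 σ hσ)
    exact ⟨t.gen ^ i, Subgroup.zpow_mem _ (Subgroup.mem_zpowers _) i,
      hval _ _ (by rw [map_zpow, hi])⟩
  · have h := h2 σ hσ
    rw [show ({ψ t.gen, ψ t.frob} : Set Dˣ) = ψ '' {t.gen, t.frob} by rw [Set.image_pair],
      ← MonoidHom.map_closure] at h
    obtain ⟨σ', hσ', he⟩ := h
    exact ⟨σ', hσ', hval _ _ he⟩
  · exact hval _ _ (by rw [h3, map_pow])

/-- The decomposition group of a tame pair is in `trivialAt` if the generators are. -/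
theorem decomposition_le_trivialAt
    (hlev : ∃ F : IntermediateField ℚ (AlgebraicClosure ℚ), FiniteDimensional ℚ F ∧
      ∀ g ∈ F.fixingSubgroup, ρ₀ g = 1 ∧ (M g).map l = 0)
    (hp : ∀ σ ∈ t.A.inertiaSubgroupIn ℚ, ∃ m : ℕ, ρ₀ σ ^ p ^ m = 1) {X : M2 (ResidueField O)}
    (hg : t.gen ∈ trivialAt π M ρ₀ hρ hl X) (hf : t.frob ∈ trivialAt π M ρ₀ hρ hl X) :
    t.A.decompositionSubgroup ℚ ≤ trivialAt π M ρ₀ hρ hl X := by
  intro σ hσ
  obtain ⟨σ', hσ', h1, h2⟩ := (tamePair_generation π M ρ₀ hρ hl t hlev hp).2.1 σ hσ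
  have h := (Subgroup.closure_le _).mpr (by
    rintro x (rfl | rfl)
    exacts [hg, hf]) hσ'
  rw [mem_trivialAt] at h ⊢
  rwa [h1, h2] at h

end Tame

section Derivation

include hl in
lemma tangent_sub_zero_one : l 0 = 0 ∧ l 1 = 0 ∧ (∀ x y, l (x - y) = l x - l y) ∧
    (∀ x y, l (x + y) = l x + l y) ∧ (∀ x y, l (x * y) = l x * π y + π x * l y) := by
  obtain ⟨φ, -, rfl⟩ := hl
  refine ⟨by simp [dualSnd], by simp [dualSnd], fun x y => by simp [dualSnd],
    fun x y => by simp [dualSnd], fun x y => ?_⟩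
  simp [dualSnd, fst_dualPoint π, add_comm, mul_comm]

end Derivation

section Frame

variable {p : ℕ} [CharP (ResidueField O) p] [Finite (ResidueField O)] {T : Finset ℕ}

/-- The universal change of frame as a unit. -/
def frameUnit (q : T) : (M2 (MvPowerSeries (FrameVar T) R))ˣ :=
  Matrix.nonsingInvUnit (frameChange (R := R) q)
    ((Matrix.isUnit_iff_isUnit_det _).mp (isUnit_frameChange (R := R) q))

/-- A representation in the universal frame at `q`. -/
def frameRep (q : T) : GQ →* M2 (MvPowerSeries (FrameVar T) R) :=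
  conjRep (frameUnit q) (mapRep (MvPowerSeries.C : R →+* MvPowerSeries (FrameVar T) R) M)

omit [IsLocalRing R] in
lemma frameRep_apply (q : T) (g : GQ) : frameRep M q g = frameMat q (M g) := rfl

include hρ in
/-- **Detection at a framed prime.** -/
theorem map_dualSnd_frameMat_eq_zero (q : T) (t : TamePair p q.1) (hM : MatCont M)
    (h2 : (2 : ResidueField O) ≠ 0) (φ : DualPoint O (MvPowerSeries (FrameVar T) R))
    (hscal : ∀ σ ∈ t.A.decompositionSubgroup ℚ, ∃ a : ResidueField O, ρ₀ σ = a • 1)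
    (hI : ∀ σ ∈ t.A.inertiaSubgroupIn ℚ, ρ₀ σ = 1)
    (hdet : ∀ g, dualSnd φ (MvPowerSeries.C (M g).det) = 0)
    (hgen : ∀ i, dualSnd φ (tracelessCoord (frameMat q (M t.gen)) i) = 0)
    (hfrob : ∀ i, dualSnd φ (tracelessCoord (frameMat q (M t.frob)) i) = 0) :
    ∀ g ∈ t.A.decompositionSubgroup ℚ, (frameMat q (M g)).map (dualSnd φ) = 0 := by
  set π' := fullFrameRes π T
  have hl' : dualSnd φ ∈ tangentSpace π' (Empty.elim : Empty → MvPowerSeries (FrameVar T) R) :=
    ⟨φ, fun i => i.elim, rfl⟩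
  have hρ' : ∀ g, (frameRep M q g).map π' = ρ₀ g := fun g => by
    rw [frameRep_apply, frameMat_map_res, hρ]
  obtain ⟨h0, h1, hsub, hadd, hmul⟩ := tangent_sub_zero_one π' hl'
  have hlev : ∃ F : IntermediateField ℚ (AlgebraicClosure ℚ), FiniteDimensional ℚ F ∧
      ∀ g ∈ F.fixingSubgroup, ρ₀ g = 1 ∧ (frameRep M q g).map (dualSnd φ) = 0 := by
    have hl : (fun r => dualSnd φ (MvPowerSeries.C r)) ∈
        tangentSpace π (Empty.elim : Empty → R) := ⟨φ.comp (fullConstHom T), fun i => i.elim, rfl⟩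
    obtain ⟨F, hF, hFl⟩ := exists_level_tangent π M hl hM
    refine ⟨F, hF, fun g hg => ⟨by rw [← hρ, (hFl g hg).1], ?_⟩⟩
    rw [frameRep_apply, map_dualSnd_frameMat π, (hFl g hg).1, mul_one, one_mul]
    show _ + (M g).map (fun r => dualSnd φ (MvPowerSeries.C r)) - _ = 0
    rw [(hFl g hg).2, add_zero, sub_self]
  have key : ∀ g ∈ t.A.decompositionSubgroup ℚ,
      (∀ i, dualSnd φ (tracelessCoord (frameMat q (M g)) i) = 0) →
        g ∈ trivialAt π' (frameRep M q) ρ₀ hρ' hl' (0 : M2 (ResidueField O)) := by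
    intro g hg hcoord
    rw [mem_trivialAt, mul_zero, zero_mul, sub_zero, frameRep_apply]
    obtain ⟨a, ha⟩ := hscal g hg
    have ha0 : a ≠ 0 := fun h => by
      have := congrArg Matrix.det (rho_mul_inv ρ₀ g)
      rw [Matrix.det_mul, ha, h, zero_smul, Matrix.det_zero, zero_mul, Matrix.det_one] at this
      exact zero_ne_one this
    set N := frameMat q (M g)
    have hπ : ∀ i j, π' (N i j) = (a • (1 : M2 (ResidueField O))) i j := fun i j => by
      rw [← ha, ← hρ' g]; rfl
    have hb : dualSnd φ (N 0 1) = 0 := hcoord 1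
    have hc : dualSnd φ (N 1 0) = 0 := hcoord 2
    have hinv : π' (Ring.inverse (2 : MvPowerSeries (FrameVar T) R)) * 2 = 1 := by
      have hu : IsUnit (2 : MvPowerSeries (FrameVar T) R) := by
        by_contra h
        have h' := (res_eq_zero_iff π' (2 : MvPowerSeries (FrameVar T) R)).mpr
          ((mem_maximalIdeal _).mpr h)
        rw [map_ofNat] at h'
        exact h2 h'
      have := congrArg π' (Ring.inverse_mul_cancel _ hu)
      rwa [map_mul, map_ofNat, map_one] at this
    have had : dualSnd φ (N 0 0) = dualSnd φ (N 1 1) := by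
      have h : dualSnd φ (Ring.inverse (2 : MvPowerSeries (FrameVar T) R) * (N 0 0 - N 1 1)) = 0 :=
        hcoord 0
      rw [hmul, map_sub, hπ, hπ, hsub] at h
      simp at h
      rcases h with h | h
      · rw [h, zero_mul] at hinv
        exact absurd hinv zero_ne_one
      · exact sub_eq_zero.mp h
    have hd : dualSnd φ (N.det) = 0 := by
      have : N.det = MvPowerSeries.C (M g).det := by
        show (frameRep M q g).det = _
        rw [frameRep, conjRep_apply, Matrix.det_units_conj, mapRep_apply]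
        exact (RingHom.map_det _ _).symm
      rw [this]
      exact hdet g
    rw [Matrix.det_fin_two, hsub, hmul, hmul, hπ, hπ, hπ, hπ, ← had, hb, hc] at hd
    simp at hd
    have hzero : dualSnd φ (N 0 0) = 0 := by
      have : (2 * a) * dualSnd φ (N 0 0) = 0 := by linear_combination hd
      exact (mul_eq_zero.mp this).resolve_left (mul_ne_zero h2 ha0)
    ext i j
    fin_cases i <;> fin_cases j
    exacts [hzero, hb, hc, had.symm.trans hzero]
  intro g hg
  have hgd : t.gen ∈ t.A.decompositionSubgroup ℚ :=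
    FermatLib.Galois.inertiaSubgroupIn_le_decompositionSubgroup t.gen_mem
  have hle := decomposition_le_trivialAt π' (frameRep M q) ρ₀ hρ' hl' t hlev
    (fun σ hσ => ⟨0, by rw [hI σ hσ, one_pow]⟩) (key _ hgd hgen)
    (key _ t.frob_spec.mem_decompositionSubgroup hfrob) hg
  rwa [mem_trivialAt, mul_zero, zero_mul, sub_zero, frameRep_apply] at hle

end Frame

end FermatLib.MLT.Odd
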