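import Fermat.Agent.MLT.Odd.LocalPProof
import Fermat.Agent.Galois.FrobeniusElement

/-!
# Strictness from `u ^ 2 = 1`, and the split residual case
-/

set_option autoImplicit false

noncomputable section

open IsLocalRing ExtCitation FermatLib.CFT IntermediateField

namespace FermatLib.MLT.Odd.LocP

variable {p : ℕ} [Fact p.Prime] {R : Type} [CommRing R] [IsLocalRing R]
  {ρ : GaloisRepAdic R} {b : Module.Basis (Fin 2) R ρ.V} (hb : IsTriangle (p := p) ρ b)
  {g₀ : Gloc (pPrime p)}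
  (hg₀ : ∀ x, ‖x‖ ≤ 1 → ‖g₀ x - x ^ ((pPrime p : Nat.Primes) : ℕ)‖ < 1)

include hg₀ in
theorem isFrobeniusAt_glb :
    (primeLocalPlace (pPrime p)).IsFrobeniusAt (glb g₀) ((pPrime p : Nat.Primes) : ℕ) := by
  refine Galois.isFrobeniusAt_iff_forall_mem.2 ⟨mem_decomposition g₀, fun x hx => ?_⟩
  rw [GWUnr.mem_nonunits_primeLocalPlace_iff, map_sub, map_pow, glb, GWUnr.emb_locToGlobal]
  exact hg₀ _ (GWUnr.mem_primeLocalPlace_iff.1 hx)

include hb hg₀ in
/-- On the whole decomposition group the quotient character is a power of `ν(Frob)`. -/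
theorem exists_repr_sub_pow_mem (n : ℕ) {σ : AlgebraicClosure ℚ ≃ₐ[ℚ] AlgebraicClosure ℚ}
    (hσ : σ ∈ (primeLocalPlace (pPrime p)).decompositionSubgroup ℚ) :
    ∃ k : ℕ, b.repr (ρ.ρ σ (b 1)) 1 - qc hb g₀ ^ k ∈ maximalIdeal R ^ n := by
  obtain ⟨L, hL, hρ⟩ := ρ.isAdicContinuous n
  obtain ⟨k, τ, hτ, hστ⟩ := Galois.exists_frobenius_pow_mul_inertia (pPrime p).2
    (primeLocalPlace_liesOverPrime (pPrime p)) L (isFrobeniusAt_glb hg₀) hσ
  refine ⟨k, ?_⟩
  have h1 := hρ ((glb g₀ ^ k * τ)⁻¹ * σ) (fun x hx => by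
    rw [AlgEquiv.mul_apply, hστ x hx]
    exact (glb g₀ ^ k * τ).symm_apply_apply x) (b 1)
  have key : ∀ v ∈ (maximalIdeal R ^ n) • (⊤ : Submodule R ρ.V),
      b.repr (ρ.ρ (glb g₀ ^ k * τ) v) 1 ∈ maximalIdeal R ^ n := fun v hv => by
    refine Submodule.smul_induction_on hv (fun r hr w _ => ?_) (fun x y hx hy => ?_)
    · rw [map_smul, map_smul, Finsupp.smul_apply, smul_eq_mul]
      exact Ideal.mul_mem_right _ _ hr
    · rw [map_add, map_add, Finsupp.add_apply]
      exact add_mem hx hy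
  have h2 := key _ h1
  rw [map_sub, ← Module.End.mul_apply, ← map_mul ρ.ρ, mul_inv_cancel_left, map_sub,
    Finsupp.sub_apply] at h2
  obtain ⟨c, hc⟩ := Submodule.mem_span_singleton.1 (hb.unip τ hτ (b 1))
  have hpow : glb g₀ ^ k = glb (g₀ ^ k) := by rw [glb, glb, map_pow, map_pow]
  have h3 : b.repr (ρ.ρ (glb g₀ ^ k * τ) (b 1)) 1 = qc hb g₀ ^ k := by
    rw [map_mul, Module.End.mul_apply, eq_add_of_sub_eq hc.symm, map_add, map_smul, hpow,
      apply_fst hb, apply_snd hb, map_pow (qc hb)]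
    simp [Finsupp.single_eq_of_ne (show (1 : Fin 2) ≠ 0 by decide)]
  rwa [h3] at h2

/-- Strictness may be tested at one place. -/
theorem isStrictOrdinaryAt_of_place {A : Type} [CommRing A] [IsLocalRing A] (r : GaloisRepAdic A)
    (hpA : (p : A) ∈ maximalIdeal A) (b : Module.Basis (Fin 2) A r.V)
    (hI : ∀ σ ∈ (primeLocalPlace (pPrime p)).inertiaSubgroupIn ℚ,
      ∀ v : r.V, r.ρ σ v - v ∈ A ∙ b 0)
    (hD : ∀ σ ∈ (primeLocalPlace (pPrime p)).decompositionSubgroup ℚ, ∃ x z : A,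
      r.ρ σ (b 0) = x • b 0 ∧ r.ρ σ (b 1) - z • b 1 ∈ A ∙ b 0 ∧
      ∀ (n a : ℕ), (∀ μ : AlgebraicClosure ℚ, μ ^ p ^ n = 1 → σ μ = μ ^ a) →
        x - (a : A) * z ∈ Ideal.span {((p ^ n : ℕ) : A)}) :
    r.IsStrictOrdinaryAt p := by
  refine ⟨hpA, fun P hP => ?_⟩
  obtain ⟨g, rfl⟩ := Galois.exists_smul_padicPlace_eq
    (q := ((pPrime p : Nat.Primes) : ℕ)) (A := P) hP
  let E : r.V ≃ₗ[A] r.V := LinearEquiv.ofLinearMap (r.ρ g) (r.ρ g⁻¹)
    (by rw [← Module.End.mul_eq_comp, ← map_mul, mul_inv_cancel, map_one]; rfl)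
    (by rw [← Module.End.mul_eq_comp, ← map_mul, inv_mul_cancel, map_one]; rfl)
  have hE : ∀ v, E v = r.ρ g v := fun v => rfl
  have hconj : ∀ (σ : AlgebraicClosure ℚ ≃ₐ[ℚ] AlgebraicClosure ℚ) (v : r.V),
      r.ρ σ (E v) = E (r.ρ (g⁻¹ * σ * g) v) := fun σ v => by
    rw [hE, hE, ← Module.End.mul_apply, ← Module.End.mul_apply, ← map_mul, ← map_mul, mul_assoc,
      mul_inv_cancel_left]
  have hmem : ∀ v, E v ∈ (A ∙ E (b 0)) ↔ v ∈ (A ∙ b 0) := fun v => by
    rw [Submodule.mem_span_singleton, Submodule.mem_span_singleton]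
    exact exists_congr fun c => by rw [← map_smul, E.injective.eq_iff]
  refine ⟨A ∙ E (b 0), ⟨b.map E, by rw [Module.Basis.map_apply]⟩, fun σ hσ v hv => ?_,
    fun σ hσ v => ?_, fun σ hσ => ?_⟩
  · obtain ⟨x, z, hx, -⟩ := hD _ (Galois.mem_decompositionSubgroup_smul.1 hσ)
    obtain ⟨c, rfl⟩ := Submodule.mem_span_singleton.1 hv
    rw [map_smul, hconj, hx, map_smul]
    exact Submodule.smul_mem _ _ (Submodule.smul_mem _ _ (Submodule.mem_span_singleton_self _))
  · obtain ⟨v, rfl⟩ := E.surjective v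
    rw [hconj, ← map_sub, hmem]
    exact hI _ (Galois.mem_inertiaSubgroupIn_smul.1 hσ) v
  · obtain ⟨x, z, hx, hz, hexp⟩ := hD _ (Galois.mem_decompositionSubgroup_smul.1 hσ)
    refine ⟨x, z, fun w hw => ?_, fun v => ?_, fun n a ha => hexp n a fun μ hμ => ?_⟩
    · obtain ⟨c, rfl⟩ := Submodule.mem_span_singleton.1 hw
      rw [map_smul, hconj, hx, map_smul, smul_comm]
    · obtain ⟨v, rfl⟩ := E.surjective v
      rw [hconj, ← map_smul, ← map_sub, hmem, ← b.sum_repr v, Fin.sum_univ_two]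
      simp only [map_add, map_smul, smul_add, hx]
      obtain ⟨c, hc⟩ := Submodule.mem_span_singleton.1 hz
      rw [eq_add_of_sub_eq hc.symm]
      refine Submodule.mem_span_singleton.2
        ⟨b.repr v 0 * x - z * b.repr v 0 + b.repr v 1 * c, ?_⟩
      simp only [sub_smul, add_smul, mul_smul, smul_add, smul_comm z (b.repr v 1)]
      abel
    · rw [AlgEquiv.mul_apply, AlgEquiv.mul_apply, ha (g μ) (by rw [← map_pow, hμ, map_one]),
        map_pow]
      congr 1
      exact g.symm_apply_apply μ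

include hb hg₀ in
/-- `φ u ^ 2 = 1` gives strictness. -/
theorem isStrictOrdinaryAt_of_qc_sq (hdet : ρ.DetIsCyclotomic p) (A : Type) [CommRing A]
    [IsLocalRing A] [IsNoetherianRing A] (φ : R →+* A) (hφ : IsLocalHom φ)
    (hu : φ (qc hb g₀) ^ 2 = 1) : (ρ.baseChangeAlong φ hφ).IsStrictOrdinaryAt p := by
  let : Algebra R A := φ.toAlgebra
  have hm : ∀ n, ∀ x ∈ maximalIdeal R ^ n, φ x ∈ maximalIdeal A ^ n := fun n x hx => by
    have h : (maximalIdeal R ^ n).map φ ≤ maximalIdeal A ^ n := by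
      rw [Ideal.map_pow]
      exact Ideal.pow_right_mono (Ideal.map_le_iff_le_comap.2 fun a ha =>
        Ideal.mem_comap.2 (haveI := hφ; map_nonunit φ a ha)) n
    exact h (Ideal.mem_map_of_mem φ hx)
  have hpA : (p : A) ∈ maximalIdeal A := by
    have h := hm 1 _ (by rw [pow_one]; exact hdet.1)
    rwa [pow_one, map_natCast] at h
  let bA : Module.Basis (Fin 2) A (TensorProduct R A ρ.V) := Algebra.TensorProduct.basis A b
  have hbA : ∀ i, bA i = (1 : A) ⊗ₜ[R] b i := Algebra.TensorProduct.basis_apply b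
  have hsmul : ∀ (r : R) (v : ρ.V),
      (1 : A) ⊗ₜ[R] (r • v) = φ r • ((1 : A) ⊗ₜ[R] v) := fun r v => by
    rw [TensorProduct.tmul_smul]
    exact (algebraMap_smul A r _).symm
  have hline : ∀ v ∈ (R ∙ b 0), (1 : A) ⊗ₜ[R] v ∈ A ∙ bA 0 := fun v hv => by
    obtain ⟨c, rfl⟩ := Submodule.mem_span_singleton.1 hv
    exact Submodule.mem_span_singleton.2 ⟨φ c, by rw [hbA]; exact (hsmul c _).symm⟩
  have hunip : ∀ σ ∈ (primeLocalPlace (pPrime p)).inertiaSubgroupIn ℚ,
      ∀ v : TensorProduct R A ρ.V, (ρ.ρ σ).baseChange A v - v ∈ A ∙ bA 0 := fun σ hσ v => by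
    induction v using TensorProduct.induction_on with
    | zero => rw [LinearMap.map_zero, sub_zero]; exact zero_mem _
    | tmul a w =>
      rw [LinearMap.baseChange_tmul, ← TensorProduct.tmul_sub]
      have h := Submodule.smul_mem _ a (hline _ (hb.unip σ hσ w))
      rwa [TensorProduct.smul_tmul', smul_eq_mul, mul_one] at h
    | add x y hx hy => rw [map_add, add_sub_add_comm]; exact add_mem hx hy
  refine isStrictOrdinaryAt_of_place (ρ.baseChangeAlong φ hφ) hpA bA hunip fun σ hσ => ?_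
  obtain ⟨x, hx⟩ := Submodule.mem_span_singleton.1 (hb.stable σ hσ)
  set z := b.repr (ρ.ρ σ (b 1)) 1 with hz
  have hz1 : ρ.ρ σ (b 1) - z • b 1 ∈ R ∙ b 0 := by
    refine Submodule.mem_span_singleton.2 ⟨b.repr (ρ.ρ σ (b 1)) 0, eq_sub_of_add_eq ?_⟩
    conv_rhs => rw [← b.sum_repr (ρ.ρ σ (b 1)), Fin.sum_univ_two]
  have hdσ : LinearMap.det (ρ.ρ σ) = x * z := by
    obtain ⟨c, hc⟩ := Submodule.mem_span_singleton.1 hz1
    rw [← LinearMap.det_toMatrix b, Matrix.det_fin_two]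
    simp [LinearMap.toMatrix_apply, ← hx, hz]
  have hzsq : φ z ^ 2 = 1 := eq_of_forall_sub_mem fun n => by
    obtain ⟨k, hk⟩ := exists_repr_sub_pow_mem hb hg₀ n hσ
    have h := hm n _ hk
    rw [map_sub, map_pow] at h
    have h2 := Ideal.mul_mem_left _ (φ z + φ (qc hb g₀) ^ k) h
    convert h2 using 1
    have hk1 : (φ (qc hb g₀) ^ k) ^ 2 = 1 := by rw [← pow_mul, mul_comm, pow_mul, hu, one_pow]
    rw [← hz]
    linear_combination hk1
  refine ⟨φ x, φ z, ?_, ?_, fun n a ha => ?_⟩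
  · show (ρ.ρ σ).baseChange A (bA 0) = φ x • bA 0
    rw [hbA, LinearMap.baseChange_tmul, ← hx, hsmul]
  · show (ρ.ρ σ).baseChange A (bA 1) - φ z • bA 1 ∈ A ∙ bA 0
    rw [hbA 1, LinearMap.baseChange_tmul, ← hsmul, ← TensorProduct.tmul_sub]
    exact hline _ hz1
  · have h := Ideal.mem_map_of_mem φ (hdet.2 n σ a ha)
    rw [Ideal.map_span, Set.image_singleton, map_natCast, map_sub, map_natCast, hdσ, map_mul] at h
    have h2 := Ideal.mul_mem_left _ (φ z) h
    convert h2 using 1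
    linear_combination -φ x * hzsq

include hb hg₀ in
/-- With both coordinates in the maximal ideal the residual representation is split. -/
theorem exists_commute_nonscalar [IsNoetherianRing R] (hp2 : p ≠ 2)
    (hdet : ρ.DetIsCyclotomic p) (hu : qc hb g₀ ^ 2 - 1 ∈ maximalIdeal R)
    {τ₁ τ₂ : Gloc (pPrime p)} (hτ₁ : τ₁ ∈ rootFixer (pPrime p) 1)
    (hτ₁' : ∀ y : PadicAlgCl ((pPrime p : Nat.Primes) : ℕ),
      y ^ ((pPrime p : Nat.Primes) : ℕ) = 1 + ((pPrime p : Nat.Primes) : ℕ) → τ₁ y ≠ y)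
    (hτ₂ : IsValGen τ₂) (h1 : cl hb τ₁ ∈ maximalIdeal R) (h2 : cl hb τ₂ ∈ maximalIdeal R)
    (k : Type) [Field k] [Finite k] (π : R →+* k) (hπ : ∀ x ∈ maximalIdeal R, π x = 0)
    (e : Module.Basis (Fin 2) R ρ.V) :
    ∃ X : Matrix (Fin 2) (Fin 2) k, (∀ r : k, X ≠ r • 1) ∧ ∀ g : Gloc (pPrime p),
      (lmat ρ e g).map π * X = X * (lmat ρ e g).map π := by
  have hk : ((p : ℕ) : k) = 0 := by rw [← map_natCast π]; exact hπ _ hdet.1
  have hν : ∀ g, π (qc hb g) * π (qc hb g) = 1 := fun g => by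
    obtain ⟨j, t', s, -, -, -, hj⟩ := exists_qc_sub_pow_mem hb hg₀ 1 ⊥ g
    have hπj := hπ _ (by simpa using hj)
    rw [map_sub, sub_eq_zero] at hπj
    have h := hπ _ hu
    rw [map_sub, map_pow, map_one, sub_eq_zero] at h
    rw [hπj, map_pow, ← sq, ← pow_mul, mul_comm, pow_mul, h, one_pow]
  have hνinv : ∀ g, π (qc hb g⁻¹) = π (qc hb g) := fun g => by
    have h := congrArg π (qc_mul_inv hb g)
    rw [map_mul, map_one] at h
    exact mul_left_cancel₀ (fun h0 => by simp [h0] at h) (h.trans (hν g).symm)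
  set ec : Gloc (pPrime p) → k := fun g => π (LinearMap.det (ρ.ρ (glb g))) with hec
  have hπsc : ∀ g, π (sc hb g) = ec g * π (qc hb g) := fun g => by
    simp only [hec, ← sc_mul_qc hb g, map_mul, mul_assoc, hν, mul_one]
  have hπtw : ∀ g, π (tw hb g) = ec g := fun g => by
    rw [tw, map_mul, hπsc, hνinv, mul_assoc, hν, mul_one]
  obtain ⟨E, hfd, hn, hE⟩ := exists_local_level (p := p) ρ b 1
  obtain ⟨s, hs⟩ := exists_eq_sub_one_mul (q := pPrime p) (by simpa using hp2)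
    (k := k) (by simpa using hk) ec (fun σ a ha => by
      have h := hπ _ (by simpa using det_sub_mem hdet (n := 1) ha)
      rwa [map_sub, map_natCast, sub_eq_zero] at h)
    hτ₁ hτ₁' hτ₂ (fun σ => π (cl hb σ)) (fun σ τ => by rw [cl_mul, map_add, map_mul, hπtw])
    E (fun σ hσ => by
      have h := fun i j => hπ _ (by simpa using hE σ hσ i j)
      refine ⟨?_, ?_⟩
      · have h01 := h 0 1
        rw [Matrix.one_apply_ne (by decide), sub_zero] at h01
        rw [cl, map_mul, h01, zero_mul]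
      · have h00 := h 0 0
        have h11 := h 1 1
        rw [Matrix.one_apply_eq, map_sub, map_one, sub_eq_zero] at h00 h11
        simp only [hec, ← sc_mul_qc hb σ, map_mul]
        exact (congrArg₂ (· * ·) h00 h11).trans (mul_one 1))
    (hπ _ h1) (hπ _ h2)
  set X₀ : Matrix (Fin 2) (Fin 2) k := !![1, s; 0, 0] with hX₀
  have hX : ∀ g : Gloc (pPrime p), (lmat ρ b g).map π * X₀ = X₀ * (lmat ρ b g).map π := fun g => by
    have hB : lmat ρ b g 0 1 = cl hb g * qc hb g := by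
      rw [cl, mul_assoc, mul_comm (qc hb g⁻¹), qc_mul_inv, mul_one]
    have h01 : π (lmat ρ b g 0 1) = s * (π (sc hb g) - π (qc hb g)) := by
      have hsg : π (cl hb g) = (ec g - 1) * s := hs g
      rw [hB, map_mul, hsg, hπsc]; ring
    have h10 : lmat ρ b g 1 0 = 0 := hb.lower g
    have h01' : π (lmat ρ b g 0 1) = s * (π (lmat ρ b g 0 0) - π (lmat ρ b g 1 1)) := h01
    ext i j
    rw [Matrix.mul_apply, Matrix.mul_apply, Fin.sum_univ_two, Fin.sum_univ_two]
    fin_cases i <;> fin_cases j <;> simp [hX₀, h10, h01']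
    ring
  set C := (e.toMatrix b).map π
  set C' := (b.toMatrix e).map π
  have h12 : C * C' = 1 := by
    rw [← Matrix.map_mul, e.toMatrix_mul_toMatrix_flip, Matrix.map_one _ π.map_zero π.map_one]
  have h21 : C' * C = 1 := by
    rw [← Matrix.map_mul, b.toMatrix_mul_toMatrix_flip, Matrix.map_one _ π.map_zero π.map_one]
  refine ⟨C * X₀ * C', fun r hr => ?_, fun g => ?_⟩
  · have h := congrArg (fun M => C' * M * C) hr
    simp only [← mul_assoc, h21, one_mul, Matrix.mul_smul, Matrix.smul_mul, mul_one] at h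
    rw [mul_assoc, h21, mul_one] at h
    have h00 := congrFun (congrFun h 0) 0
    have h11 := congrFun (congrFun h 1) 1
    simp [hX₀] at h00 h11
    rw [← h11] at h00
    exact one_ne_zero h00
  · have he : (lmat ρ e g).map π = C * (lmat ρ b g).map π * C' := by
      rw [lmat, lmat, locMatrix, locMatrix,
        ← basis_toMatrix_mul_linearMap_toMatrix_mul_basis_toMatrix e b e b
          (ρ.ρ (primeLocalToGlobal (pPrime p) (GWUnr.locEquiv (pPrime p) g))),
        Matrix.map_mul, Matrix.map_mul]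
    have hcancel : ∀ M : Matrix (Fin 2) (Fin 2) k, C' * (C * M) = M := fun M => by
      rw [← mul_assoc, h21, one_mul]
    rw [he]
    simp only [mul_assoc, hcancel]
    rw [← mul_assoc _ X₀ C', hX g, mul_assoc]

end FermatLib.MLT.Odd.LocP

end
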