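import Fermat.Agent.MLT.Odd.LocalPDefs
import Fermat.Agent.MLT.Odd.LocalPExtra
import Fermat.Agent.MLT.LocQUniversal

/-!
# The versal ordinary ring at `p` with the old branch

For an ordinary `ρ` over `R` with cyclotomic determinant and residually strict ordinary there are
coordinates `u, c₁, c₂` with `(u ^ 2 - 1) c₂ = 0`, detecting local tangent vectors.
-/

set_option autoImplicit false

noncomputable section

open IsLocalRing ExtCitation FermatLib.CFT

namespace FermatLib.MLT.Odd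

variable {p : ℕ} [Fact p.Prime] {R : Type} [CommRing R] [IsLocalRing R]

/-- **Coordinates at `p`.** -/
theorem exists_localPCoords [IsNoetherianRing R] [Finite (ResidueField R)] (hp2 : p ≠ 2)
    (ρ : GaloisRepAdic R) (hdet : ρ.DetIsCyclotomic p) (hord : ρ.IsOrdinaryAt p)
    (hres : ∀ hφ : IsLocalHom (residue R),
      (ρ.baseChangeAlong (residue R) hφ).IsStrictOrdinaryAt p) :
    ∃ u c₁ c₂ : R, IsLocalPCoords p ρ u c₁ c₂ := by
  obtain ⟨b, hb⟩ := LocP.exists_isTriangle hord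
  obtain ⟨g₀, hg₀⟩ := GWUnr.exists_localFrobenius (q := pPrime p)
  have hp2' : ((pPrime p : Nat.Primes) : ℕ) ≠ 2 := hp2
  obtain ⟨τ₁, hτ₁, hτ₁'⟩ := LocP.exists_unitGen hp2'
  obtain ⟨τ₂, hτ₂⟩ := LocP.exists_isValGen hp2'
  have hu : LocP.qc hb g₀ ^ 2 - 1 ∈ maximalIdeal R := by
    have hφ : IsLocalHom (residue R) := inferInstance
    have h := LocP.qc_sq_eq_one_of_strict hb hp2 hdet g₀ (ResidueField R) (residue R) hφ (hres hφ)
    rw [← residue_eq_zero_iff, map_sub, map_pow, map_one, h, sub_self]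
  refine ⟨LocP.qc hb g₀, LocP.cl hb τ₁, LocP.cl hb τ₂, ⟨LocP.isUnit_qc hb g₀, hu,
    LocP.qc_sq_sub_one_mul hb hdet hτ₂ g₀, fun g hg => ?_,
    fun A _ _ _ φ hφ h => LocP.qc_sq_eq_one_of_strict hb hp2 hdet g₀ A φ hφ h,
    fun A _ _ _ φ hφ h => LocP.isStrictOrdinaryAt_of_qc_sq hb hg₀ hdet A φ hφ h, ?_, ?_⟩⟩
  · obtain ⟨g, rfl⟩ := (GWUnr.locEquiv (pPrime p)).surjective g
    rw [LocP.trace_eq hb g, ← LocP.sc_mul_qc hb g, LocP.qc_eq_of_isFrobeniusLocP hb hg₀ hg]
    ring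
  · intro h1 h2 k _ _ π hπ e
    obtain ⟨X, hX, hcomm⟩ := LocP.exists_commute_nonscalar hb hg₀ hp2 hdet hu hτ₁ hτ₁' hτ₂ h1 h2
      k π hπ e
    refine ⟨X, hX, fun g => ?_⟩
    obtain ⟨g, rfl⟩ := (GWUnr.locEquiv (pPrime p)).surjective g
    exact hcomm g
  · intro k _ _ π l hπ hl hlu ht e
    obtain ⟨t, h1, h2⟩ := ht
    obtain ⟨X, hX⟩ := LocP.exists_commutator hb hg₀ hp2 hdet hu hτ₁ hτ₁' hτ₂ k π l hπ hl hlu t
      h1 h2
    obtain ⟨Y, hY⟩ := LocP.exists_commutator_change π l hl e b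
      (fun g : Gloc (pPrime p) => ρ.ρ (LocP.glb g)) (X := X) hX
    refine ⟨Y, fun g => ?_⟩
    obtain ⟨g, rfl⟩ := (GWUnr.locEquiv (pPrime p)).surjective g
    exact hY g

namespace IsLocalPCoords

variable {ρ : GaloisRepAdic R} {u c₁ c₂ : R} (h : IsLocalPCoords p ρ u c₁ c₂)

include h in
/-- A domain valued point is on the old or on the semistable branch. -/
theorem old_or_semistable {A : Type} [CommRing A] [IsDomain A] (φ : R →+* A) :
    φ c₂ = 0 ∨ φ u ^ 2 = 1 := by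
  have h0 := congrArg φ h.mul_eq_zero
  rw [map_mul, map_zero, _root_.mul_eq_zero, map_sub, map_pow, map_one, sub_eq_zero] at h0
  exact h0.symm

include h in
/-- A très ramifié class has only the semistable branch. -/
theorem sq_eq_one_of_isUnit (hc : IsUnit c₂) : u ^ 2 = 1 :=
  sub_eq_zero.mp (hc.mul_left_eq_zero.mp h.mul_eq_zero)

end IsLocalPCoords

end FermatLib.MLT.Odd

end
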