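import Fermat.Agent.MLT.Odd.Levels
import Fermat.Agent.MLT.Odd.LocalP
import Fermat.Agent.MLT.Odd.GeneratorsProofTame
import Fermat.Agent.MLT.Odd.GeneratorsProofLocal
import Fermat.Agent.MLT.Odd.GenLocalF
import Fermat.Agent.MLT.Ordinary.Basic
import Fermat.Agent.MLT.TW56.LocalP

/-!
# The coordinates at `p` and the bound for the classes they leave

In the mixed case two elements `e`, `z` vanishing on the two branches cut out classes at `p` of
dimension at most `h⁰`.
-/

set_option autoImplicit false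
set_option linter.style.haveILetI false

noncomputable section

open IsLocalRing CategoryTheory Module groupCohomology ExtCitation

namespace FermatLib.MLT.Odd

open FermatLib.Galois FermatLib.Galois.Deform

attribute [local instance] FermatLib.Galois.Deform.dualAlgebra

local notation "Γℚ" => (AlgebraicClosure ℚ ≃ₐ[ℚ] AlgebraicClosure ℚ)

variable {O : Type} [CommRing O] [IsLocalRing O] {R : Type} [CommRing R] [IsLocalRing R]
  [Algebra O R] {p : ℕ} [Fact p.Prime] [Algebra (ZMod p) (ResidueField O)]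
  (π : R →ₐ[O] ResidueField O) {ρ : GaloisRepAdic R} (b : Basis (Fin 2) R ρ.V)
  (ρ₀ : GQ →* M2 (ResidueField O)) (hρ₀ : ∀ g, (matOf ρ b g).map π = ρ₀ g)
  (χ : GQ → O) (hdetM : ∀ g, (matOf ρ b g).det = algebraMap O R (χ g))

/-- The localisation of the class of a tangent vector. -/
def tangentRes (q : Nat.Primes) :
    tangentSpace π (Empty.elim : Empty → R) →ₗ[ZMod p]
      H1 (Rep.res (primeLocalToGlobal q) (Ad.adRep ρ₀ p)) :=
  (CFT.resAt q (Ad.adRep ρ₀ p)).comp
    (Ad.classMap π (matOf ρ b) ρ₀ hρ₀ χ hdetM Empty.elim p)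

/-- Localised tangent classes are continuous. -/
theorem tangentRes_mem_continuousH1 (q : Nat.Primes)
    (l : tangentSpace π (Empty.elim : Empty → R)) :
    tangentRes π b ρ₀ hρ₀ χ hdetM q l ∈ continuousH1 (primeLocalToGlobal q)
      (Rep.res (primeLocalToGlobal q) (Ad.adRep ρ₀ p)) := by
  obtain ⟨F, hF, hFl⟩ := exists_level_tangent π (matOf ρ b) l.2 (matCont_matOf ρ b)
  show CFT.resAt q (Ad.adRep ρ₀ p)
    ((H1π (Ad.adRep ρ₀ p)).hom (Ad.toCocycle π (matOf ρ b) ρ₀ hρ₀ χ hdetM Empty.elim p l)) ∈ _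
  rw [CFT.resAt_H1π]
  refine H1π_mem_continuousH1 _ _ ⟨F, hF, fun g s hs => Subtype.ext ?_⟩
  show (matOf ρ b (primeLocalToGlobal q (g * s))).map l.1 * ρ₀ (primeLocalToGlobal q (g * s))⁻¹ =
    (matOf ρ b (primeLocalToGlobal q g)).map l.1 * ρ₀ (primeLocalToGlobal q g)⁻¹
  obtain ⟨h1, h2⟩ := hFl _ hs
  have h1' : ρ₀ (primeLocalToGlobal q s) = 1 := by rw [← hρ₀]; exact h1
  have h1'' : ρ₀ (primeLocalToGlobal q s)⁻¹ = 1 := by
    have h := Ad.rho_mul_inv ρ₀ (primeLocalToGlobal q s)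
    rwa [h1', one_mul] at h
  rw [map_mul, map_mul, Ad.map_tangent_mul π Empty.elim l.2, h2, h1, mul_zero, add_zero, mul_one,
    mul_inv_rev, map_mul, h1'', one_mul]

/-- The tangent vectors killing `e` and `z`. -/
def killedSub (e z : R) : Submodule (ZMod p) (tangentSpace π (Empty.elim : Empty → R)) where
  carrier := {l | l.1 e = 0 ∧ l.1 z = 0}
  add_mem' ha hb := ⟨by simp [ha.1, hb.1], by simp [ha.2, hb.2]⟩
  zero_mem' := ⟨rfl, rfl⟩
  smul_mem' c _ h := ⟨by simp [h.1], by simp [h.2]⟩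

/-- The bound at `p` for the classes left by two coordinates. -/
def PBound (e z : R) : Prop :=
  finrank (ZMod p)
      ((killedSub (p := p) π e z).map (tangentRes π b ρ₀ hρ₀ χ hdetM (pPrime p))) ≤
    finrank (ZMod p) (Rep.res (primeLocalToGlobal (pPrime p)) (Ad.adRep ρ₀ p)).ρ.invariants

omit [IsLocalRing R] in
/-- A map whose kernel contains that of a functional with values in `k` has small image. -/
theorem finrank_range_le_of_ker_le {k W H : Type} [Field k] [Finite k] [Algebra (ZMod p) k]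
    [AddCommGroup W] [Module (ZMod p) W] [AddCommGroup H] [Module (ZMod p) H]
    (ev : W →ₗ[ZMod p] k) (g : W →ₗ[ZMod p] H) (h : LinearMap.ker ev ≤ LinearMap.ker g) :
    finrank (ZMod p) (LinearMap.range g) ≤ finrank (ZMod p) k := by
  have : Module.Finite (ZMod p) k := Module.Finite.of_finite
  have : Module.Finite (ZMod p) (W ⧸ LinearMap.ker ev) :=
    Module.Finite.equiv (LinearMap.quotKerEquivRange ev).symm
  rw [← Submodule.range_liftQ _ g h]
  refine (LinearMap.finrank_range_le _).trans ?_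
  rw [(LinearMap.quotKerEquivRange ev).finrank_eq]
  exact Submodule.finrank_le _

variable [Finite (ResidueField O)] [IsLocalHom (algebraMap O R)]

/-- **The mixed case**: the coordinates at `p`. -/
theorem exists_pCoords_mixed [IsNoetherianRing R] {O' : Type} [CommRing O'] [IsDomain O']
    [IsDiscreteValuationRing O'] [Algebra O' R] (hp2 : p ≠ 2)
    (hsurj : Function.Surjective fun c : O => residue R (algebraMap O R c))
    (hdet : ρ.DetIsCyclotomic p) (hord : ρ.IsOrdinaryAt p)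
    {ρbar : ResidualGaloisRep (ResidueField O)} (hlo : IsLiftOf ρbar ρ)
    (hstrict : (GaloisRepAdic.ofResidualGaloisRep ρbar).IsStrictOrdinaryAt p) :
    ∃ e z : R, e ∈ maximalIdeal R ∧ z ∈ maximalIdeal R ∧
      VanishesWhere (O := O') ρ
        (fun _ _ _ ρx => ¬ ρx.IsStrictOrdinaryAt p) e ∧
      VanishesWhere (O := O') ρ (fun _ _ _ ρx => ρx.IsStrictOrdinaryAt p) z ∧
      ∀ (π : R →ₐ[O] ResidueField O) (b : Basis (Fin 2) R ρ.V)
        (ρ₀ : GQ →* M2 (ResidueField O)) (hρ₀ : ∀ g, (matOf ρ b g).map π = ρ₀ g)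
        (χ : GQ → O) (hdetM : ∀ g, (matOf ρ b g).det = algebraMap O R (χ g)),
        PBound π b ρ₀ hρ₀ χ hdetM (p := p) e z := by
  classical
  have : Finite (ResidueField R) := Finite.of_surjective
    (ResidueField.map (algebraMap O R)) fun x => by
      obtain ⟨c, hc⟩ := hsurj x
      exact ⟨residue O c, by rw [ResidueField.map_residue]; exact hc⟩
  have hres : ∀ hφ : IsLocalHom (residue R),
      (ρ.baseChangeAlong (residue R) hφ).IsStrictOrdinaryAt p := by
    intro hφ
    let ψ := ResidueField.map (algebraMap O R)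
    have hψ : IsLocalHom ψ := inferInstance
    obtain ⟨e⟩ := hlo
    have e₁ : GaloisRepAdic.Equiv (ρ.baseChangeAlong (residue R) hφ)
        ((GaloisRepAdic.ofResidualGaloisRep ρbar).baseChangeAlong ψ hψ) :=
      ⟨e.toLinearEquiv, e.map_apply⟩
    exact isStrictOrdinaryAt_of_equiv e₁.symm (isStrictOrdinaryAt_baseChangeAlong ψ hψ hstrict)
  obtain ⟨u, c₁, c₂, h⟩ := exists_localPCoords hp2 ρ hdet hord hres
  set z₀ := u ^ 2 - 1
  have hstrict_z : VanishesWhere (O := O') ρ (fun _ _ _ ρx => ρx.IsStrictOrdinaryAt p) z₀ := by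
    intro x hx
    rw [map_sub, map_pow, map_one, sub_eq_zero]
    exact h.sq_eq_one_of_strict x.O' (x.toHom : R →+* x.O') x.isLocalHom hx
  -- tangent vectors killing the coordinates are trivial at `p`
  have key : ∀ (π : R →ₐ[O] ResidueField O) (b : Basis (Fin 2) R ρ.V)
      (ρ₀ : GQ →* M2 (ResidueField O)) (hρ₀ : ∀ g, (matOf ρ b g).map π = ρ₀ g)
      (χ : GQ → O) (hdetM : ∀ g, (matOf ρ b g).det = algebraMap O R (χ g))
      (l : tangentSpace π (Empty.elim : Empty → R)), l.1 z₀ = 0 →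
      (∃ t, l.1 c₁ = t * π c₁ ∧ l.1 c₂ = t * π c₂) →
      tangentRes (p := p) π b ρ₀ hρ₀ χ hdetM (pPrime p) l = 0 := by
    intro π b ρ₀ hρ₀ χ hdetM l hz ht
    have h2 : (2 : ResidueField O) ≠ 0 :=
      have := charP_of_injective_algebraMap (algebraMap (ZMod p) (ResidueField O)).injective p
      CFT.TW.two_ne_zero_of_charP p hp2
    obtain ⟨hl0, -, -, hadd, hmul⟩ := tangent_sub_zero_one π l.2
    obtain ⟨X, hX⟩ := h.tangent (ResidueField O) (π : R →+* ResidueField O)
      ⟨⟨l.1, hl0⟩, hadd⟩ (fun x hx => (res_eq_zero_iff π x).mpr hx) hmul hz ht b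
    refine (Ad.map_classMap_eq_zero_iff π (matOf ρ b) ρ₀ hρ₀ χ hdetM Empty.elim p h2
      (primeLocalToGlobal (pPrime p)) l).mpr ⟨X, fun g => ?_⟩
    rw [← hρ₀]
    exact hX g
  by_cases hc2 : IsUnit c₂
  · -- only the semistable branch
    obtain ⟨w, hw⟩ := hc2.exists_left_inv
    obtain ⟨a, ha⟩ := hsurj (residue R (c₁ * w))
    refine ⟨c₁ * w - algebraMap O R a, 0, ?_, zero_mem _, fun x hx => ?_,
      fun x _ => map_zero _, fun π b ρ₀ hρ₀ χ hdetM => ?_⟩
    · rw [← residue_eq_zero_iff, map_sub, ← ha, sub_self]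
    · refine absurd (h.strict_of_sq_eq_one x.O' (x.toHom : R →+* x.O') x.isLocalHom ?_) hx
      rw [← map_pow, h.sq_eq_one_of_isUnit hc2, map_one]
    · have hbot : (killedSub (p := p) π (c₁ * w - algebraMap O R a) 0).map
          (tangentRes π b ρ₀ hρ₀ χ hdetM (pPrime p)) = ⊥ := by
        rw [Submodule.eq_bot_iff]
        rintro _ ⟨l, ⟨hle, -⟩, rfl⟩
        obtain ⟨hl0, -, -, -, hmul⟩ := tangent_sub_zero_one π l.2
        rw [GenLocal.tangent_sub_algebraMap π _ l.2] at hle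
        refine key π b ρ₀ hρ₀ χ hdetM l ?_ ⟨l.1 c₂ * π w, ?_, ?_⟩
        · show l.1 (u ^ 2 - 1) = 0
          rw [h.sq_eq_one_of_isUnit hc2, sub_self, hl0]
        · have e : c₁ = (c₁ * w) * c₂ := by rw [mul_assoc, hw, mul_one]
          conv_lhs => rw [e, hmul, hle, zero_mul, zero_add, map_mul]
          ring
        · rw [mul_assoc, ← map_mul, hw, map_one, mul_one]
      rw [PBound, hbot, finrank_bot]
      exact Nat.zero_le _
  have hc2' : c₂ ∈ maximalIdeal R := (mem_maximalIdeal _).mpr hc2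
  refine ⟨c₂, z₀, hc2', h.sq_sub_one_mem, fun x hx => ?_, hstrict_z,
    fun π b ρ₀ hρ₀ χ hdetM => ?_⟩
  · refine ((IsLocalPCoords.old_or_semistable h (x.toHom : R →+* x.O')).resolve_right fun hu => hx ?_)
    exact h.strict_of_sq_eq_one x.O' (x.toHom : R →+* x.O') x.isLocalHom hu
  have hπ2 : π c₂ = 0 := (res_eq_zero_iff π _).mpr hc2'
  by_cases hc1 : IsUnit c₁
  · obtain ⟨w, hw⟩ := hc1.exists_left_inv
    have hbot : (killedSub (p := p) π c₂ z₀).map
        (tangentRes π b ρ₀ hρ₀ χ hdetM (pPrime p)) = ⊥ := by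
      rw [Submodule.eq_bot_iff]
      rintro _ ⟨l, ⟨hle, hlz⟩, rfl⟩
      refine key π b ρ₀ hρ₀ χ hdetM l hlz ⟨l.1 c₁ * π w, ?_, by rw [hle, hπ2, mul_zero]⟩
      rw [mul_assoc, ← map_mul, hw, map_one, mul_one]
    rw [PBound, hbot, finrank_bot]
    exact Nat.zero_le _
  -- the residual class is zero
  have hc1' : c₁ ∈ maximalIdeal R := (mem_maximalIdeal _).mpr hc1
  have h2 : (2 : ResidueField O) ≠ 0 :=
    have := charP_of_injective_algebraMap (algebraMap (ZMod p) (ResidueField O)).injective p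
    CFT.TW.two_ne_zero_of_charP p hp2
  obtain ⟨X, hX, hcomm⟩ := h.split hc1' hc2' (ResidueField O) (π : R →+* ResidueField O)
    (fun x hx => (res_eq_zero_iff π x).mpr hx) b
  have hinv : finrank (ZMod p) (ResidueField O) ≤ finrank (ZMod p)
      (Rep.res (primeLocalToGlobal (pPrime p)) (Ad.adRep ρ₀ p)).ρ.invariants := by
    refine finrank_le_invariants_of_commute ρ₀ _ h2 X hX fun g => ?_
    rw [← hρ₀]
    exact hcomm g
  refine le_trans ?_ hinv
  let ev : killedSub (p := p) π c₂ z₀ →ₗ[ZMod p] ResidueField O :=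
    { toFun := fun l => l.1.1 c₁
      map_add' := fun _ _ => rfl
      map_smul' := fun _ _ => rfl }
  rw [← LinearMap.range_domRestrict]
  refine finrank_range_le_of_ker_le ev _ fun l hl => ?_
  rw [LinearMap.mem_ker] at hl ⊢
  exact key π b ρ₀ hρ₀ χ hdetM l.1 l.2.2 ⟨0, by rw [zero_mul]; exact hl,
    by rw [zero_mul]; exact l.2.1⟩

/-- **The coordinates and the classes at `p`**, in all three cases. -/
theorem exists_pCoords [IsNoetherianRing R] {O' : Type} [CommRing O'] [IsDomain O']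
    [IsDiscreteValuationRing O'] [Algebra O' R] (hp2 : p ≠ 2)
    (hsurj : Function.Surjective fun c : O => residue R (algebraMap O R c))
    {ρbar : ResidualGaloisRep (ResidueField O)} {S : OddPrimes p ρbar} {Q : Finset ℕ}
    (hlift : IsOddLift S Q ρ) (hlo : IsLiftOf ρbar ρ) :
    ∃ e z : R, e ∈ maximalIdeal R ∧ z ∈ maximalIdeal R ∧
      (S.pCase = PCase.mixed →
        VanishesWhere (O := O') ρ
          (fun _ _ _ ρx => ¬ ρx.IsStrictOrdinaryAt p) e ∧
        VanishesWhere (O := O') ρ (fun _ _ _ ρx => ρx.IsStrictOrdinaryAt p) z) ∧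
      ∀ (π : R →ₐ[O] ResidueField O) (b : Basis (Fin 2) R ρ.V)
        (ρ₀ : GQ →* M2 (ResidueField O)) (hρ₀ : ∀ g, (matOf ρ b g).map π = ρ₀ g)
        (χ : GQ → O) (hdetM : ∀ g, (matOf ρ b g).det = algebraMap O R (χ g)),
        ∃ L : Submodule (ZMod p) (H1 (Rep.res (primeLocalToGlobal (pPrime p)) (Ad.adRep ρ₀ p))),
          L ≤ continuousH1 (primeLocalToGlobal (pPrime p))
              (Rep.res (primeLocalToGlobal (pPrime p)) (Ad.adRep ρ₀ p)) ∧
          finrank (ZMod p) L + S.pIdx * finrank (ZMod p) (ResidueField O) ≤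
            finrank (ZMod p)
                (Rep.res (primeLocalToGlobal (pPrime p)) (Ad.adRep ρ₀ p)).ρ.invariants +
              finrank (ZMod p) (ResidueField O) ∧
          ∀ l : tangentSpace π (Empty.elim : Empty → R),
            (S.pCase = PCase.mixed → l.1 e = 0 ∧ l.1 z = 0) →
              tangentRes π b ρ₀ hρ₀ χ hdetM (pPrime p) l ∈ L := by
  have hat := hlift.at_p
  by_cases hm : S.pCase = PCase.mixed
  · have hat : ρ.IsOrdinaryAt p := by rw [hm] at hat; exact hat
    obtain ⟨e, z, he, hz, hve, hvz, hb⟩ := exists_pCoords_mixed (O' := O') hp2 hsurj hlift.det hat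
      hlo (S.strict_p (by rw [hm]; decide))
    refine ⟨e, z, he, hz, fun _ => ⟨hve, hvz⟩, fun π b ρ₀ hρ₀ χ hdetM =>
      ⟨(killedSub (p := p) π e z).map (tangentRes π b ρ₀ hρ₀ χ hdetM (pPrime p)), ?_, ?_,
        fun l hl => Submodule.mem_map_of_mem (hl hm)⟩⟩
    · rintro _ ⟨l, -, rfl⟩
      exact tangentRes_mem_continuousH1 π b ρ₀ hρ₀ χ hdetM _ l
    · rw [OddPrimes.pIdx, if_pos hm, one_mul]
      exact Nat.add_le_add_right (hb π b ρ₀ hρ₀ χ hdetM) _
  refine ⟨0, 0, zero_mem _, zero_mem _, fun h => absurd h hm, fun π b ρ₀ hρ₀ χ hdetM => ?_⟩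
  rw [OddPrimes.pIdx, if_neg hm, zero_mul]
  simp only [add_zero]
  have heq : ρ.IsEquiv (toAdic (matOf ρ b) (matCont_matOf ρ b)) := by
    refine isEquiv_of_toMatrix_eq b (stdBasis _ _) fun σ => ?_
    rw [toMatrix_toAdic, matOf_apply]
  have hcyc := Galois.DeformLocal.detIsCyclotomic_of_isEquiv heq hlift.det
  rcases hc : S.pCase with _ | _ | _
  · have hat : ρ.IsFlatAt p := by rw [hc] at hat; exact hat
    obtain ⟨L, h1, h2, h3⟩ := TW56.exists_flat_bound π (matOf ρ b) (matCont_matOf ρ b) ρ₀ hρ₀ χ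
      hdetM p (Empty.elim : Empty → R) hp2 hcyc (Galois.FlatModel.isFlatAt_of_isEquiv heq hat)
    exact ⟨L, h1, h2, fun l _ => h3 l⟩
  · have hat : ρ.IsStrictOrdinaryAt p := by rw [hc] at hat; exact hat
    obtain ⟨L, h1, h2, h3⟩ := TW56.exists_strictOrdinary_bound π (matOf ρ b) (matCont_matOf ρ b)
      ρ₀ hρ₀ χ hdetM p (Empty.elim : Empty → R) hp2 hcyc (isStrictOrdinaryAt_of_equiv heq.some hat)
    exact ⟨L, h1, h2, fun l _ => h3 l⟩
  · exact absurd hc hm

end FermatLib.MLT.Odd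

end
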