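import Fermat.Agent.MLT.BettiResidual
import Fermat.Prelude.Def_FLTPrelim_ModularRep
import Mathlib.RingTheory.LocalRing.ResidueField.Basic
import Fermat.Agent.MLT.BettiLevelIdent
import Fermat.Agent.Modular.HeckeDuality

/-!
# Classes of points of the Hecke algebra in Betti cohomology
-/

set_option autoImplicit false

noncomputable section

open scoped MatrixGroups
open CongruenceSubgroup IsLocalRing

namespace FermatLib.MLT

variable {L : ℕ} {A : Type} [CommRing A] {V : Type} [AddCommGroup V] [Module A V]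

theorem glueNebenChar_one_apply (γ : Gamma0 L) :
    (nebenChar (1 : (ZMod L)ˣ →* Aˣ) γ : A) = 1 := by
  rw [nebenChar_one]
  simp

/-- A homomorphism killing `-1` as a cocycle for the trivial character. -/
def glueCocycle (φ : Additive (Gamma0 L) →+ V)
    (hφ : ∀ γ : Gamma0 L, (γ : SL(2, ℤ)) = -1 → φ (Additive.ofMul γ) = 0) :
    bettiCocycles (Gamma0 L) (nebenChar (1 : (ZMod L)ˣ →* Aˣ)) V :=
  ⟨fun γ => φ (Additive.ofMul γ), fun γ δ => by
    simp only [ofMul_mul, map_add, glueNebenChar_one_apply, one_smul], hφ⟩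

@[simp]
theorem glueCocycle_apply (φ : Additive (Gamma0 L) →+ V) (hφ) (γ : Gamma0 L) :
    (glueCocycle (A := A) φ hφ : Gamma0 L → V) γ = φ (Additive.ofMul γ) := rfl

/-- A cocycle for the trivial character as a homomorphism. -/
def glueHom (c : bettiCocycles (Gamma0 L) (nebenChar (1 : (ZMod L)ˣ →* Aˣ)) V) :
    Additive (Gamma0 L) →+ V where
  toFun g := (c : Gamma0 L → V) (Additive.toMul g)
  map_zero' := bettiCocycles.map_one c
  map_add' g h := by
    rw [toMul_add, bettiCocycles.map_mul, glueNebenChar_one_apply, one_smul]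

@[simp]
theorem glueHom_apply (c : bettiCocycles (Gamma0 L) (nebenChar (1 : (ZMod L)ˣ →* Aˣ)) V)
    (γ : Gamma0 L) : glueHom c (Additive.ofMul γ) = (c : Gamma0 L → V) γ := rfl

theorem glueHom_neg_one (c : bettiCocycles (Gamma0 L) (nebenChar (1 : (ZMod L)ˣ →* Aˣ)) V)
    (γ : Gamma0 L) (h : (γ : SL(2, ℤ)) = -1) : glueHom c (Additive.ofMul γ) = 0 :=
  bettiCocycles.map_neg_one c h

/-- With trivial character there are no coboundaries. -/
theorem bettiModMk_one_eq_zero
    (c : bettiCocycles (Gamma0 L) (nebenChar (1 : (ZMod L)ˣ →* Aˣ)) V) :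
    BettiMod.mk c = 0 ↔ c = 0 := by
  refine ⟨fun h => ?_, fun h => by rw [h, map_zero]⟩
  obtain ⟨v, hv⟩ := BettiMod.mk_eq_zero.1 h
  refine Subtype.ext (funext fun γ => ?_)
  rw [← hv γ, glueNebenChar_one_apply, one_smul, sub_self]
  rfl

theorem elt_bettiHeckeSystem (p : Nat.Primes) (γ : Gamma0 L) (i : Modular.HeckeIdx L p) :
    (bettiHeckeSystem L p).elt γ i = (Modular.heckeSystem L p).elt γ i :=
  ((bettiHeckeSystem L p).next_elt_eq_of_eq ((Modular.heckeSystem L p).rep_mul γ i)).2

theorem heckeWeight_one (p : Nat.Primes) (x : Modular.HeckeIdx L p) :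
    heckeWeight (1 : (ZMod L)ˣ →* Aˣ) p x = 1 := by
  simp [heckeWeight]

/-- The Hecke operators agree on homomorphisms and on classes. -/
theorem X_smul_mk_eq (p : Nat.Primes)
    (c c' : bettiCocycles (Gamma0 L) (nebenChar (1 : (ZMod L)ˣ →* Aˣ)) V)
    (h : glueHom c' = Modular.heckeHomOp L A V p (glueHom c)) :
    (MvPolynomial.X p : BettiHeckeAlg A) • BettiMod.mk c = BettiMod.mk c' := by
  rw [BettiMod.X_smul_mk]
  refine congrArg BettiMod.mk (Subtype.ext (funext fun γ => ?_))
  rw [← glueHom_apply c', h, Modular.heckeHomOp_apply, CosetSystem.transferCocycles_apply]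
  refine Finset.sum_congr rfl fun i _ => ?_
  rw [elt_bettiHeckeSystem, heckeWeight_one, one_smul, glueHom_apply]

theorem cuspidalHom_neg_one {φ : Additive (Gamma0 L) →+ V} (hφ : Modular.IsCuspidalHom φ)
    (γ : Gamma0 L) (h : (γ : SL(2, ℤ)) = -1) : φ (Additive.ofMul γ) = 0 :=
  hφ γ (by rw [h]; simp)

variable [NeZero L]

/-- A point of the Hecke algebra in a domain of characteristic zero has a nonzero cuspidal
eigen-homomorphism with values in that domain. -/
theorem exists_cuspidalHom_eigen [IsDomain A] [CharZero A]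
    (c : ↥(CuspForm.heckeAlgebra L 2 (∅ : Set ℕ)) →+* A) :
    ∃ ψ : Modular.cuspidalHoms A (Gamma0 L) A, ψ ≠ 0 ∧
      ∀ t, Modular.heckeCuspAct L A A t ψ = c t • ψ := by
  classical
  let K := FractionRing A
  let e : A →+ K := (algebraMap A K).toAddMonoidHom
  have hinj : Function.Injective (algebraMap A K) := IsFractionRing.injective A K
  haveI : CharZero K := charZero_of_injective_ringHom hinj
  let χ : ↥(CuspForm.heckeAlgebra L 2 (∅ : Set ℕ)) →+* K := (algebraMap A K).comp c
  obtain ⟨φ, hφ⟩ : ∃ φ : Modular.heckeEigenspace L K χ, φ ≠ 0 := by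
    refine ⟨(Modular.heckeEigenspaceEquiv L K χ).symm 1, fun h => ?_⟩
    have := congrArg (Modular.heckeEigenspaceEquiv L K χ) h
    rw [LinearEquiv.apply_symm_apply, map_zero] at this
    exact one_ne_zero (congrFun this 0)
  obtain ⟨⟨d, hd⟩, hint⟩ := IsLocalization.exist_integer_multiples_of_finite (nonZeroDivisors A)
    (fun j => φ.1.1 (Additive.ofMul (Modular.cuspBasisElt L j)))
  choose a ha using hint
  set ψ := (Modular.cuspidalHomsEquiv L A A).symm a with hψ
  have hval : ∀ j, ψ.1 (Additive.ofMul (Modular.cuspBasisElt L j)) = a j := fun j => by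
    rw [← Modular.cuspidalHomsEquiv_apply L A A ψ j, hψ, LinearEquiv.apply_symm_apply]
  have hcomp : e.comp ψ.1 = algebraMap A K d • φ.1.1 := AddMonoidHom.ext fun g => by
    obtain ⟨γ, rfl⟩ := Additive.ofMul.surjective g
    show algebraMap A K (ψ.1 (Additive.ofMul γ)) = algebraMap A K d * φ.1.1 (Additive.ofMul γ)
    rw [Modular.IsCuspidalHom.eq_sum ψ.2, Modular.IsCuspidalHom.eq_sum φ.1.2, map_sum,
      Finset.mul_sum]
    refine Finset.sum_congr rfl fun j _ => ?_
    rw [map_zsmul, hval, ha j, mul_smul_comm, ← Algebra.smul_def]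
  refine ⟨ψ, ?_, fun t => ?_⟩
  · intro h0
    refine hφ (Subtype.ext (Subtype.ext (AddMonoidHom.ext fun g => ?_)))
    have h := DFunLike.congr_fun hcomp g
    rw [h0] at h
    simp only [ZeroMemClass.coe_zero, AddMonoidHom.comp_zero, AddMonoidHom.zero_apply,
      AddMonoidHom.smul_apply, smul_eq_mul] at h
    exact (mul_eq_zero.1 h.symm).resolve_left
      ((map_ne_zero_iff _ hinj).2 (nonZeroDivisors.ne_zero hd))
  · refine Subtype.ext (AddMonoidHom.ext fun g => hinj ?_)
    have h1 : e.comp (Modular.heckeCuspAct L A A t ψ).1 =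
        (Modular.heckeCuspAct L K K t (algebraMap A K d • φ.1)).1 := by
      rw [Modular.coe_heckeCuspAct_eq_int, ← Modular.coe_heckeCuspAct_comp,
        Modular.coe_heckeCuspAct_eq_int (R := K)]
      congr 3
    have h2 := DFunLike.congr_fun h1 g
    rw [map_smul, (Modular.mem_heckeEigenspace L K χ).1 φ.2 t] at h2
    have h3 := DFunLike.congr_fun hcomp g
    simp only [AddMonoidHom.comp_apply, e, RingHom.toAddMonoidHom_eq_coe, AddMonoidHom.coe_coe,
      SetLike.val_smul, AddMonoidHom.smul_apply, smul_eq_mul] at h2 h3 ⊢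
    rw [h2, map_mul, h3, RingHom.comp_apply]
    ring

end FermatLib.MLT

end
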