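import Fermat.Agent.MLT.Odd.GlueClass
import Fermat.Agent.MLT.ModTransfer.Residual
import Fermat.Agent.Modular.TwistSystemCusp
import Fermat.Agent.Modular.Newforms.CharacterLift
import Fermat.Agent.Modular.LevelRaising.NonEisenstein
import Fermat.Agent.Basic.EigenChar

/-!
# Points of the Betti Hecke algebra are modular
-/

set_option autoImplicit false
set_option linter.style.haveILetI false

noncomputable section

open scoped MatrixGroups
open CongruenceSubgroup MvPolynomial

namespace FermatLib.MLT

section change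

variable {L : ℕ} {A Ω : Type} [CommRing A] [CommRing Ω]

theorem glueHom_transferCocycles
    (c : bettiCocycles (Gamma0 L) (nebenChar (1 : (ZMod L)ˣ →* Aˣ)) A) (p : Nat.Primes) :
    glueHom ((bettiHeckeSystem L p).transferCocycles A (isWeight_heckeWeight 1 p) c) =
      Modular.heckeHomOp L A A p (glueHom c) := by
  refine AddMonoidHom.ext fun g => ?_
  obtain ⟨γ, rfl⟩ := Additive.ofMul.surjective g
  rw [glueHom_apply, Modular.heckeHomOp_apply, CosetSystem.transferCocycles_apply]
  refine Finset.sum_congr rfl fun i _ => ?_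
  rw [elt_bettiHeckeSystem, heckeWeight_one, one_smul, glueHom_apply]

/-- Change of coefficients on cocycles for the trivial character. -/
def mapCocycle (f : A →+* Ω) (c : bettiCocycles (Gamma0 L) (nebenChar (1 : (ZMod L)ˣ →* Aˣ)) A) :
    bettiCocycles (Gamma0 L) (nebenChar (1 : (ZMod L)ˣ →* Ωˣ)) Ω :=
  glueCocycle (f.toAddMonoidHom.comp (glueHom c)) fun γ h => by
    rw [AddMonoidHom.comp_apply, glueHom_neg_one c γ h, map_zero]

@[simp]
theorem mapCocycle_apply (f : A →+* Ω)
    (c : bettiCocycles (Gamma0 L) (nebenChar (1 : (ZMod L)ˣ →* Aˣ)) A) (γ : Gamma0 L) :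
    (mapCocycle f c : Gamma0 L → Ω) γ = f ((c : Gamma0 L → A) γ) := rfl

end change

end FermatLib.MLT

end
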