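import Fermat.Agent.MLT.Odd.HeckeRepBaseChange
import Mathlib.RingTheory.Filtration

/-!
Flatness at `p` descends along injective finite maps of coefficient rings.
-/

set_option autoImplicit false
set_option linter.style.haveILetI false

noncomputable section

namespace FermatLib.MLT.HeckeRep

open IsLocalRing FermatLib.Galois FermatLib.Galois.FlatModel

variable {A B : Type} [CommRing A] [CommRing B] [Algebra A B]

/-- The quotient of a finite algebra by an extended ideal of finite index is finite. -/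
theorem finite_quotient_map_of_finite [Module.Finite A B] (P : Ideal A) [Finite (A ⧸ P)] :
    Finite (B ⧸ P.map (algebraMap A B)) := by
  obtain ⟨d, g, hg⟩ := Module.Finite.exists_fin (R := A) (M := B)
  choose r hr using Ideal.Quotient.mk_surjective (I := P)
  refine Finite.of_surjective (fun c : Fin d → A ⧸ P =>
    Ideal.Quotient.mk (P.map (algebraMap A B)) (∑ l, r (c l) • g l)) fun y => ?_
  obtain ⟨y, rfl⟩ := Ideal.Quotient.mk_surjective y
  obtain ⟨c, rfl⟩ := (Submodule.mem_span_range_iff_exists_fun A).mp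
    (hg ▸ Submodule.mem_top : y ∈ Submodule.span A (Set.range g))
  refine ⟨fun l => Ideal.Quotient.mk _ (c l), Ideal.Quotient.eq.mpr ?_⟩
  rw [← Finset.sum_sub_distrib]
  refine Ideal.sum_mem _ fun l _ => ?_
  rw [← sub_smul, Algebra.smul_def]
  exact Ideal.mul_mem_right _ _ (Ideal.mem_map_of_mem _ (Ideal.Quotient.eq.mp (hr _)))

/-- A high power of an ideal of the subring meets the subring in a given power. -/
theorem exists_comap_map_pow_le [IsNoetherianRing A] [Module.Finite A B]
    (hinj : Function.Injective (algebraMap A B)) (I : Ideal A) (n : ℕ) :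
    ∃ i : ℕ, ((I ^ i).map (algebraMap A B)).comap (algebraMap A B) ≤ I ^ n := by
  set N : Submodule A B := LinearMap.range (Algebra.linearMap A B) with hN
  obtain ⟨k, hk⟩ := I.exists_pow_inf_eq_pow_smul N
  refine ⟨k + n, fun a ha => ?_⟩
  have h1 : algebraMap A B a ∈ I ^ (k + n) • (⊤ : Submodule A B) := by
    rw [Ideal.smul_top_eq_map]
    exact ha
  have h2 : algebraMap A B a ∈ I ^ n • N := by
    have h3 : algebraMap A B a ∈ I ^ (k + n - k) • (I ^ k • (⊤ : Submodule A B) ⊓ N) :=
      hk (k + n) (Nat.le_add_right k n) ▸ ⟨h1, ⟨a, rfl⟩⟩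
    rw [Nat.add_sub_cancel_left] at h3
    exact Submodule.smul_mono le_rfl inf_le_right h3
  rw [hN, LinearMap.range_eq_map, ← Submodule.map_smul'', Submodule.mem_map] at h2
  obtain ⟨b, hb, hab⟩ := h2
  rw [smul_eq_mul, Ideal.mul_top] at hb
  exact hinj hab ▸ hb

/-- **Flatness descends along an injective finite map of coefficients.** -/
theorem isFlatAt_of_baseChange_finite_injective [IsLocalRing A] [IsLocalRing B]
    [IsNoetherianRing A] [Finite (ResidueField A)] [Module.Finite A B]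
    (hinj : Function.Injective (algebraMap A B)) (hloc : IsLocalHom (algebraMap A B))
    {ρ : GaloisRepAdic A} {p : ℕ} (h : (ρ.baseChangeAlong (algebraMap A B) hloc).IsFlatAt p) :
    ρ.IsFlatAt p := by
  refine isFlatAt_of_forall_quotient _ fun I hI hI0 _ hq => ?_
  obtain ⟨n, hn⟩ := IsLocalRing.finite_quotient_iff.1 hI
  obtain ⟨i, hi⟩ := exists_comap_map_pow_le hinj (maximalIdeal A) n
  set J := ((maximalIdeal A) ^ i).map (algebraMap A B) with hJ
  set J₀ := J.comap (algebraMap A B) with hJ₀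
  have hJ₀I : J₀ ≤ I := hi.trans hn
  have : Finite (A ⧸ maximalIdeal A ^ i) := IsLocalRing.finite_quotient_iff.2 ⟨i, le_rfl⟩
  have : Finite (B ⧸ J) := finite_quotient_map_of_finite _
  have hJ₀top : J₀ ≠ ⊤ := fun e => hI0 (top_le_iff.1 (e ▸ hJ₀I))
  have : Nontrivial (A ⧸ J₀) := Ideal.Quotient.nontrivial_iff.mpr hJ₀top
  have : IsLocalRing (A ⧸ J₀) :=
    IsLocalRing.of_surjective' (Ideal.Quotient.mk J₀) Ideal.Quotient.mk_surjective
  have : Nontrivial (B ⧸ J) := Ideal.Quotient.nontrivial_iff.mpr fun e =>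
    hJ₀top (by rw [hJ₀, e, Ideal.comap_top])
  have : IsLocalRing (B ⧸ J) :=
    IsLocalRing.of_surjective' (Ideal.Quotient.mk J) Ideal.Quotient.mk_surjective
  have hJq := IsLocalHom.of_surjective (Ideal.Quotient.mk J) Ideal.Quotient.mk_surjective
  have hJ₀q := IsLocalHom.of_surjective (Ideal.Quotient.mk J₀) Ideal.Quotient.mk_surjective
  let ψ : A ⧸ J₀ →+* B ⧸ J := Ideal.quotientMap J (algebraMap A B) le_rfl
  have hψi : Function.Injective ψ := Ideal.quotientMap_injective
  have hcomp : ψ.comp (Ideal.Quotient.mk J₀) = (Ideal.Quotient.mk J).comp (algebraMap A B) := rfl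
  have hc : IsLocalHom (ψ.comp (Ideal.Quotient.mk J₀)) := by
    rw [hcomp]; exact RingHom.isLocalHom_comp _ _
  have hψ : IsLocalHom ψ :=
    ⟨fun a ha => by
      obtain ⟨a, rfl⟩ := Ideal.Quotient.mk_surjective a
      exact (isUnit_of_map_unit (ψ.comp (Ideal.Quotient.mk J₀)) a ha).map _⟩
  have : Finite (A ⧸ J₀) := Finite.of_injective ψ hψi
  have h1 : ((ρ.baseChangeAlong (algebraMap A B) hloc).baseChangeAlong (Ideal.Quotient.mk J)
      hJq).IsFlatAt p := isFlatAt_baseChange _ hJq h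
  have h2 : ((ρ.baseChangeAlong (Ideal.Quotient.mk J₀) hJ₀q).baseChangeAlong ψ hψ).IsFlatAt p := by
    obtain ⟨e1⟩ := isEquiv_baseChange_comp (algebraMap A B) hloc (Ideal.Quotient.mk J) hJq hc ρ
    obtain ⟨e2⟩ := isEquiv_baseChange_comp (Ideal.Quotient.mk J₀) hJ₀q ψ hψ hc ρ
    exact isFlatAt_of_isEquiv ⟨e2.symm⟩ (isFlatAt_of_isEquiv ⟨e1⟩ h1)
  have h3 : (ρ.baseChangeAlong (Ideal.Quotient.mk J₀) hJ₀q).IsFlatAt p :=
    isFlatAt_of_baseChange_injective ψ hψ hψi h2
  have hf := IsLocalHom.of_surjective (Ideal.Quotient.factor hJ₀I)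
    (Ideal.Quotient.factor_surjective hJ₀I)
  have hcq : IsLocalHom ((Ideal.Quotient.factor hJ₀I).comp (Ideal.Quotient.mk J₀)) :=
    RingHom.isLocalHom_comp _ _
  obtain ⟨e⟩ := isEquiv_baseChange_comp (Ideal.Quotient.mk J₀) hJ₀q _ hf hcq ρ
  exact isFlatAt_of_isEquiv ⟨e⟩ (isFlatAt_baseChange _ hf h3)

end FermatLib.MLT.HeckeRep
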