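import Fermat.Agent.MLT.LGC.Main
import Fermat.Agent.MLT.Two.Sys.InertiaLGCTwist
import Fermat.Agent.MLT.Two.Sys.TwistAdic
import Fermat.Agent.MLT.Odd.HeckeRepNonEisenstein
import Fermat.Agent.MLT.Odd.HeckeRepDescentPrep
import Fermat.Agent.Basic.FrobeniusExists

/-!
# Inertia at a prime through which the nebentype ramifies

The nebentype is `ψ⁻²`, `ψ` a product of components of odd `p`-power order at primes exactly
dividing the level; `ρ` is the representation of the eigenclass twisted by `ψ`.  Twisting away all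
components but the one at `q`, local-global compatibility gives the eigenvalues `ψ_q`, `ψ_q⁻¹` of
inertia at `q` and `U q` as a root of the characteristic polynomial of Frobenius.
-/

set_option autoImplicit false
set_option linter.style.haveILetI false

noncomputable section

open CongruenceSubgroup Polynomial

namespace FermatLib.MLT.Odd

open IsLocalRing FermatLib.Galois FermatLib.Modular.Twist FermatLib.MLT.HeckeRep

local notation "Qbar" => AlgebraicClosure ℚ
local notation "Γℚ" => (AlgebraicClosure ℚ ≃ₐ[ℚ] AlgebraicClosure ℚ)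

/-- A character at a natural number prime to the modulus. -/
theorem ofUnitHom_natCast_unit {R : Type} [CommRing R] {q n : ℕ} (hn : n.Coprime q)
    (ψ : (ZMod q)ˣ →* Rˣ) :
    MulChar.ofUnitHom ψ (n : ZMod q) = (ψ (ZMod.unitOfCoprime n hn) : R) := by
  rw [← MulChar.ofUnitHom_coe, ZMod.coe_unitOfCoprime]

/-- A character at a natural number congruent to `1`. -/
theorem ofUnitHom_natCast_unit_one {R : Type} [CommRing R] {q n : ℕ} (hn : (n : ZMod q) = 1)
    (ψ : (ZMod q)ˣ →* Rˣ) : MulChar.ofUnitHom ψ (n : ZMod q) = 1 := by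
  rw [hn, map_one]

section component

variable {A : Type} [CommRing A] [IsDomain A] [IsDiscreteValuationRing A]
  [IsAdicComplete (maximalIdeal A) A] [Finite (ResidueField A)] [CharZero A]
  {K : Type} [Field K] [IsAlgClosed K] [CharZero K] [Algebra A K]
  {p q L : ℕ} [Fact p.Prime] [Fact q.Prime] [NeZero L]

/-- The character `σ ↦ ψ(χ_q σ)⁻¹`. -/
def componentTwist (ψ : (ZMod q)ˣ →* Aˣ) : Γℚ →* Aˣ := ψ⁻¹.comp (modCycloChar q)

omit [IsDomain A] [IsDiscreteValuationRing A] [IsAdicComplete (maximalIdeal A) A]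
  [Finite (ResidueField A)] [CharZero A] in
theorem componentTwist_apply (ψ : (ZMod q)ˣ →* Aˣ) (σ : Γℚ) :
    componentTwist ψ σ = (ψ (modCycloChar q σ))⁻¹ := rfl

omit [IsDomain A] [IsDiscreteValuationRing A] [IsAdicComplete (maximalIdeal A) A]
  [Finite (ResidueField A)] [CharZero A] in
theorem componentTwist_level (ψ : (ZMod q)ˣ →* Aˣ) :
    ∃ F : IntermediateField ℚ Qbar, FiniteDimensional ℚ F ∧
      ∀ σ ∈ F.fixingSubgroup, componentTwist ψ σ = 1 := by
  obtain ⟨F, hF, hfix⟩ := exists_finite_level_modCycloChar q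
  exact ⟨F, hF, fun σ hσ => by rw [componentTwist_apply, hfix σ hσ, map_one, inv_one]⟩

variable (hj : Function.Injective (algebraMap A K)) (hp2 : p ≠ 2)
  (hpA : (p : A) ∈ maximalIdeal A) (hqp : q ≠ p)
  (Qs : Finset ℕ) (hQs : ∀ r ∈ Qs, r.Prime ∧ r ∣ L ∧ ¬ r ^ 2 ∣ L)
  (ψ : (r : ℕ) → (ZMod r)ˣ →* Aˣ) (e : ℕ) (hψp : ∀ r ∈ Qs, ψ r ^ p ^ e = 1)
  (χ : (ZMod L)ˣ →* Kˣ)
  (hχ : ∀ (n : ℕ) (hn : n.Coprime L), (χ (ZMod.unitOfCoprime n hn) : K) *
    algebraMap A K (∏ r ∈ Qs, MulChar.ofUnitHom (ψ r) (n : ZMod r)) ^ 2 = 1)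
  (hq : q ∈ Qs) (hψq : ψ q ≠ 1)
  {x : bettiH1 (Gamma0 L) (nebenChar χ) K} (hx : x ≠ 0) (lam : Nat.Primes → K)
  (heig : ∀ l : Nat.Primes, ¬ (l : ℕ) ∣ p * L → bettiHeckeOp L K χ l x = lam l • x)
  (ρ : GaloisRepAdic A) (hirr : ρ.residual.IsAbsolutelyIrreducible) (hdet : ρ.DetIsCyclotomic p)
  (htr : ∀ l : Nat.Primes, ¬ (l : ℕ) ∣ p * L → ∀ P : ValuationSubring Qbar,
    P.LiesOverPrime (l : ℕ) → ∀ σ : Γℚ, P.IsFrobeniusAt σ (l : ℕ) →
      algebraMap A K (ρ.trace σ) =
        algebraMap A K (∏ r ∈ Qs, MulChar.ofUnitHom (ψ r) ((l : ℕ) : ZMod r)) * lam l)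
  (hell : IsUnit (3 : A) ∨ ∃ l : Nat.Primes, ¬ (l : ℕ) ∣ p * L ∧ (l : ℕ) % 3 = 2 ∧
    ∀ P : ValuationSubring Qbar, P.LiesOverPrime (l : ℕ) → ∀ σ : Γℚ,
      P.IsFrobeniusAt σ (l : ℕ) → IsUnit (ρ.trace σ))

include hj hp2 hpA hQs hψp hχ hq hψq hx heig hirr hdet htr hell in
/-- The system with nebentype only at `q`. -/
theorem exists_lgcSystem_component :
    ∃ (M : ℕ) (_ : NeZero M) (lam₂ : Nat.Primes → A)
      (y : bettiH1 (Gamma0 (q * M)) (nebenChar ((Units.map (algebraMap A K).toMonoidHom).comp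
        (((ψ q ^ 2)⁻¹).comp (ZMod.unitsMap (dvd_mul_right q M))))) K),
      LGC.IsLgcSystem p q M (ψ q ^ 2)⁻¹ K lam₂ y
        (Two.twistAdic ρ (componentTwist (ψ q)) (componentTwist_level (ψ q))) ∧
      ∀ μ : K, bettiHeckeOp L K χ ⟨q, Fact.out⟩ x = μ • x →
        bettiHeckeOp (q * M) K ((Units.map (algebraMap A K).toMonoidHom).comp
          (((ψ q ^ 2)⁻¹).comp (ZMod.unitsMap (dvd_mul_right q M)))) ⟨q, Fact.out⟩ y =
          (algebraMap A K (∏ r ∈ Qs.erase q, MulChar.ofUnitHom (ψ r) (q : ZMod r)) * μ) • y := by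
  classical
  have hqpr : q.Prime := Fact.out
  have hp : p.Prime := Fact.out
  set j : A →+* K := algebraMap A K with hjdef
  let ψK : (r : ℕ) → (ZMod r)ˣ →* Kˣ := fun r => (Units.map j.toMonoidHom).comp (ψ r)
  -- the components twisted away
  let Q : Finset ℕ := (Qs.erase q).filter fun r => ψ r ≠ 1
  have hQsub : ∀ r ∈ Q, r ∈ Qs ∧ r ≠ q ∧ ψ r ≠ 1 := fun r hr => by
    simp only [Q, Finset.mem_filter, Finset.mem_erase] at hr
    exact ⟨hr.1.2, hr.1.1, hr.2⟩
  have hqQ : q ∉ Q := fun h => (hQsub q h).2.1 rfl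
  obtain ⟨R, hR⟩ := (hQs q hq).2.1
  have hqR : ¬ q ∣ R := fun h => (hQs q hq).2.2 (by
    rw [hR, pow_two]; exact mul_dvd_mul_left q h)
  let M : ℕ := R * ∏ r ∈ Q, r
  have hqM : q * M = L * ∏ r ∈ Q, r := by rw [hR, mul_assoc]
  have hqndM : ¬ q ∣ M := by
    intro h
    rcases hqpr.dvd_mul.mp h with h | h
    · exact hqR h
    · obtain ⟨r, hr, hd⟩ := (hqpr.prime.dvd_finsetProd_iff _).mp h
      exact hqQ ((Nat.prime_dvd_prime_iff_eq hqpr (hQs r (hQsub r hr).1).1).mp hd ▸ hr)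
  have hM0 : M ≠ 0 := fun h => hqndM (h ▸ dvd_zero q)
  haveI : NeZero M := ⟨hM0⟩
  haveI : NeZero (q * M) := ⟨mul_ne_zero hqpr.ne_zero hM0⟩
  have hgood : ∀ l : Nat.Primes, l ∈ LGC.goodPrimes q M p → ¬ (l : ℕ) ∣ p * L := fun l hl h => by
    refine hl (h.trans ?_)
    rw [mul_comm, hqM]
    exact mul_dvd_mul_right (dvd_mul_right L _) p
  have hval : ∀ n : ℕ, n.Coprime L → j (∏ r ∈ Qs, MulChar.ofUnitHom (ψ r) (n : ZMod r)) =
      j (MulChar.ofUnitHom (ψ q) (n : ZMod q)) * twistFactor Q ψK n := by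
    intro n hn
    rw [← Finset.mul_prod_erase _ _ hq, map_mul, map_prod, twistFactor]
    refine congrArg (_ * ·) ?_
    refine (Finset.prod_subset (Finset.filter_subset _ _) fun r hr hrQ => ?_).symm.trans
      (Finset.prod_congr rfl fun r hr => ?_)
    · have h1 : ψ r = 1 := by
        by_contra h1
        exact hrQ (Finset.mem_filter.mpr ⟨hr, h1⟩)
      have hnr := hn.coprime_dvd_right (hQs r (Finset.mem_of_mem_erase hr)).2.1
      rw [ofUnitHom_natCast_unit hnr, h1, MonoidHom.one_apply, Units.val_one, map_one]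
    · have hnr := hn.coprime_dvd_right (hQs r (hQsub r hr).1).2.1
      rw [ofUnitHom_natCast_unit hnr, ofUnitHom_natCast hnr]
      rfl
  -- a witness that each component is nontrivial
  have hwit : ∀ r ∈ Q, ∃ (n : ℕ) (hn : n.Coprime L),
      (∀ m, m ∣ q * M → m.Coprime r → (n : ZMod m) = 1) ∧ χ (ZMod.unitOfCoprime n hn) ≠ 1 := by
    intro r hr
    obtain ⟨hrs, hrq, hr1⟩ := hQsub r hr
    have hrp : r.Prime := (hQs r hrs).1
    obtain ⟨u, hu⟩ : ∃ u, ψ r u ^ 2 ≠ 1 := by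
      by_contra! hall
      obtain ⟨k, hk⟩ := (hp.odd_of_ne_two hp2).pow (n := e)
      refine hr1 (MonoidHom.ext fun u => ?_)
      have h1 := DFunLike.congr_fun (hψp r hrs) u
      rw [MonoidHom.pow_apply, MonoidHom.one_apply, hk, pow_succ, pow_mul, hall u, one_pow,
        one_mul] at h1
      exact h1
    obtain ⟨R₁, hR₁⟩ := (hQs r hrs).2.1
    have hrR₁ : ¬ r ∣ R₁ := fun h => (hQs r hrs).2.2 (by
      rw [hR₁, pow_two]; exact mul_dvd_mul_left r h)
    let R' : ℕ := R₁ * ∏ s ∈ Q.erase r, s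
    have hcop : r.Coprime R' :=
      (hrp.coprime_iff_not_dvd.mpr hrR₁).mul_right (Nat.Coprime.prod_right fun s hs =>
        (Nat.coprime_primes hrp (hQs s (hQsub s (Finset.mem_of_mem_erase hs)).1).1).2
          (Finset.ne_of_mem_erase hs).symm)
    have hN : q * M = r * r * R' := by
      rw [hqM, ← Finset.mul_prod_erase Q _ hr, hR₁]
      ring
    obtain ⟨n, hn1, hn2⟩ := Nat.chineseRemainder hcop (u : ZMod r).val 1
    haveI : NeZero r := ⟨hrp.ne_zero⟩
    have hnu : (n : ZMod r) = u := by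
      rw [(ZMod.natCast_eq_natCast_iff _ _ _).2 hn1, ZMod.natCast_zmod_val]
    have hnR : (n : ZMod R') = 1 := by
      rw [(ZMod.natCast_eq_natCast_iff _ _ _).2 hn2, Nat.cast_one]
    have hone : ∀ d, d ∣ q * M → d.Coprime r → (n : ZMod d) = 1 := fun d hd hdc => by
      have hdR : d ∣ R' := Nat.Coprime.dvd_of_dvd_mul_left (hdc.mul_right hdc) (hN ▸ hd)
      have := congrArg (ZMod.castHom hdR (ZMod d)) hnR
      rwa [map_natCast, map_one] at this
    have hnr : n.Coprime r := by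
      rw [← ZMod.isUnit_iff_coprime, hnu]
      exact u.isUnit
    have hnL : n.Coprime L := by
      rw [hR₁]
      refine hnr.mul_right ?_
      rw [← ZMod.isUnit_iff_coprime, hone R₁ (hN ▸ (dvd_mul_right R₁ _).mul_left (r * r))
        (hrp.coprime_iff_not_dvd.mpr hrR₁).symm]
      exact isUnit_one
    refine ⟨n, hnL, hone, fun h => hu (Units.ext (hj ?_))⟩
    have h' := hχ n hnL
    rw [h, Units.val_one, one_mul, Finset.prod_eq_single r (fun s hs hsr => ?_)
      (fun h => absurd hrs h), ofUnitHom_natCast_unit hnr,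
      show ZMod.unitOfCoprime n hnr = u from Units.ext hnu, ← map_pow] at h'
    · rw [Units.val_pow_eq_pow_val, Units.val_one, map_one]
      exact h'
    · exact ofUnitHom_natCast_unit_one (hone s
        (hqM ▸ (hQs s hs).2.1.mul_right _)
        ((Nat.coprime_primes (hQs s hs).1 hrp).2 hsr)) _
  set χ' : (ZMod (q * M))ˣ →* Kˣ := (Units.map j.toMonoidHom).comp
    (((ψ q ^ 2)⁻¹).comp (ZMod.unitsMap (dvd_mul_right q M))) with hχ'def
  obtain ⟨Φ, hΦi, hΦl⟩ := Two.exists_partialTwist Q L χ ψK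
    (fun r hr => hQs r (hQsub r hr).1)
    (fun r hr h => (hQsub r hr).2.2 (MonoidHom.ext fun u => Units.ext (hj (by
      have := congrArg Units.val (DFunLike.congr_fun h u)
      simpa [ψK] using this))))
    (q * M) hqM hwit χ'
    (fun n hn hn' => by
      have hnq : n.Coprime q := hn.coprime_dvd_right (dvd_mul_right q M)
      have h1 := hχ n hn'
      rw [hval n hn', ofUnitHom_natCast_unit hnq, mul_pow, ← mul_assoc, mul_right_comm, ← map_pow,
        ← Units.val_pow_eq_pow_val] at h1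
      rw [hχ'def, MonoidHom.comp_apply, MonoidHom.comp_apply, Two.unitsMap_unitOfCoprime,
        MonoidHom.inv_apply, MonoidHom.pow_apply]
      show j ((((ψ q _) ^ 2)⁻¹ : Aˣ) : A) = _
      refine left_inv_eq_right_inv ?_ ((mul_comm _ _).trans h1)
      rw [← map_mul, Units.inv_mul, map_one])
  -- values at good primes
  let φ := componentTwist (ψ q)
  let ρ₂ := Two.twistAdic ρ φ (componentTwist_level (ψ q))
  let target : Nat.Primes → K := fun l => twistFactor Q ψK (l : ℕ) * lam l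
  let lam₂ : Nat.Primes → A := fun l => if h : ∃ a, j a = target l then h.choose else 0
  have hfrob : ∀ l : Nat.Primes, l ∈ LGC.goodPrimes q M p → ∀ hlq : Nat.Coprime (l : ℕ) q,
      ∀ P : ValuationSubring Qbar, P.LiesOverPrime (l : ℕ) → ∀ σ : Γℚ, P.IsFrobeniusAt σ (l : ℕ) →
        j (ρ₂.trace σ) = target l ∧
          LinearMap.det (ρ₂.ρ σ) = ((ψ q ^ 2)⁻¹ (ZMod.unitOfCoprime (l : ℕ) hlq) : A) * (l : A) ∧
          φ σ = (ψ q (ZMod.unitOfCoprime (l : ℕ) hlq))⁻¹ := by
    intro l hl hlq P hP σ hσ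
    have hlpL := hgood l hl
    have hlL : (l : ℕ).Coprime L := l.2.coprime_iff_not_dvd.2 fun h => hlpL (h.mul_left p)
    have hlp : (l : ℕ) ≠ p := fun h => hlpL (h ▸ dvd_mul_right p L)
    have hu : modCycloChar q σ = ZMod.unitOfCoprime (l : ℕ) hlq := Units.ext
      (modCycloChar_frobenius l.2 (fun h => hlpL ((h.trans (hQs q hq).2.1).mul_left p)) hP hσ)
    have hφ : φ σ = (ψ q (ZMod.unitOfCoprime (l : ℕ) hlq))⁻¹ := by
      show componentTwist (ψ q) σ = _
      rw [componentTwist_apply, hu]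
    refine ⟨?_, ?_, hφ⟩
    · show j ((Two.twistAdic ρ φ _).trace σ) = _
      rw [Two.trace_twistAdic, map_mul, htr l hlpL P hP σ hσ, hval _ hlL, hφ,
        ofUnitHom_natCast_unit hlq, ← mul_assoc, ← mul_assoc, ← map_mul, Units.inv_mul, map_one, one_mul]
    · show LinearMap.det ((Two.twistAdic ρ φ _).ρ σ) = _
      rw [Two.det_twistAdic, det_frobenius ρ hp hdet l.2 hlp hP hσ, hφ, MonoidHom.inv_apply,
        MonoidHom.pow_apply, ← Units.val_pow_eq_pow_val, inv_pow]
  have hlam₂ : ∀ l : Nat.Primes, l ∈ LGC.goodPrimes q M p → ∀ P : ValuationSubring Qbar,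
      P.LiesOverPrime (l : ℕ) → ∀ σ : Γℚ, P.IsFrobeniusAt σ (l : ℕ) → lam₂ l = ρ₂.trace σ := by
    intro l hl P hP σ hσ
    have hlq : Nat.Coprime (l : ℕ) q := l.2.coprime_iff_not_dvd.2 fun h =>
      hgood l hl ((h.trans (hQs q hq).2.1).mul_left p)
    have h := (hfrob l hl hlq P hP σ hσ).1
    have hex : ∃ a, j a = target l := ⟨_, h⟩
    refine hj (Eq.trans ?_ h.symm)
    simp only [lam₂, dif_pos hex]
    exact hex.choose_spec
  have hfrobEx : ∀ l : Nat.Primes, ∃ (P : ValuationSubring Qbar) (σ : Γℚ),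
      P.LiesOverPrime (l : ℕ) ∧ P.IsFrobeniusAt σ (l : ℕ) := fun l => by
    haveI : Fact (l : ℕ).Prime := ⟨l.2⟩
    obtain ⟨σ, hσ⟩ := FermatLib.Basic.exists_isFrobeniusAt l.2 _
      (FermatLib.Galois.padicPlace_liesOverPrime (l : ℕ))
    exact ⟨_, σ, FermatLib.Galois.padicPlace_liesOverPrime (l : ℕ), hσ⟩
  have h2A : IsUnit (2 : A) := by
    rw [← IsLocalRing.notMem_maximalIdeal]
    intro h2
    obtain ⟨k, hk⟩ := hp.odd_of_ne_two hp2
    refine (maximalIdeal A).ne_top_iff_one.mp (maximalIdeal.isMaximal A).ne_top ?_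
    have := Ideal.sub_mem _ hpA (Ideal.mul_mem_right (k : A) _ h2)
    rwa [hk, Nat.cast_add, Nat.cast_mul, Nat.cast_ofNat, Nat.cast_one, add_sub_cancel_left] at this
  refine ⟨M, ⟨hM0⟩, lam₂, Φ x, ?_, fun μ hμ => ?_⟩
  · refine
    { not_dvd := hqndM
      mem_maximal := hpA
      ne_one := fun h => ?_
      pow_eq_one := ⟨e, fun u => by
        rw [MonoidHom.inv_apply, MonoidHom.pow_apply, inv_pow, ← pow_mul, mul_comm, pow_mul,
          ← MonoidHom.pow_apply, hψp q hq, MonoidHom.one_apply, one_pow, inv_one]⟩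
      exists_sqrt := ⟨(ψ q)⁻¹, fun u => by
        rw [MonoidHom.inv_apply, MonoidHom.inv_apply, MonoidHom.pow_apply, inv_pow]⟩
      ne_zero := fun h => hx (hΦi (by rw [h, map_zero]))
      eigen := fun l hl => ?_
      nonEisenstein := ?_
      elliptic := ?_
      charpoly_frob := fun l hl hlq P hP σ hσ => by
        rw [adic_charpoly_eq, (hfrob l hl hlq P hP σ hσ).2.1, hlam₂ l hl P hP σ hσ]
      residual_irreducible := Two.isAbsolutelyIrreducible_twistAdic _ _ _ hirr }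
    · obtain ⟨k, hk⟩ := (hp.odd_of_ne_two hp2).pow (n := e)
      refine hψq (MonoidHom.ext fun u => ?_)
      have h2 := DFunLike.congr_fun h u
      rw [MonoidHom.inv_apply, MonoidHom.one_apply, inv_eq_one, MonoidHom.pow_apply] at h2
      have h1 := DFunLike.congr_fun (hψp q hq) u
      rw [MonoidHom.pow_apply, MonoidHom.one_apply, hk, pow_succ, pow_mul, h2, one_pow,
        one_mul] at h1
      exact h1
    · have hlQ : (l : ℕ) ∉ Q := fun h =>
        hgood l hl (((hQs _ (hQsub _ h).1).2.1).mul_left p)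
      obtain ⟨P, σ, hP, hσ⟩ := hfrobEx l
      have hlq : Nat.Coprime (l : ℕ) q := l.2.coprime_iff_not_dvd.2 fun h =>
        hgood l hl ((h.trans (hQs q hq).2.1).mul_left p)
      rw [hlam₂ l hl P hP σ hσ, (hfrob l hl hlq P hP σ hσ).1, hΦl l hlQ,
        heig l (hgood l hl), map_smul, smul_smul]
    · haveI : NeZero (q ^ 2 * M) := ⟨mul_ne_zero (pow_ne_zero 2 hqpr.ne_zero) hM0⟩
      have hdr : (GaloisRepAdic.ofResidualGaloisRep ρ.residual).DetIsCyclotomic p :=
        DeformLocal.detIsCyclotomic_baseChange (residue A) inferInstance hdet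
      obtain ⟨l, hl, hlT, -, -, hl1, P, hP, σ, hσ, hne⟩ :=
        exists_frobenius_trace_ne hirr hp hdr (q ^ 2 * M) (q * M * p).primeFactors
      have hlg : (⟨l, hl⟩ : Nat.Primes) ∈ LGC.goodPrimes q M p := fun h => hlT
        (Nat.mem_primeFactors.mpr ⟨hl, h,
          mul_ne_zero (mul_ne_zero hqpr.ne_zero hM0) hp.ne_zero⟩)
      refine ⟨⟨l, hl⟩, hlg, hl1, ?_⟩
      have hlq : Nat.Coprime l q := hl.coprime_iff_not_dvd.2 fun h =>
        hgood ⟨l, hl⟩ hlg ((h.trans (hQs q hq).2.1).mul_left p)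
      have hu1 : ZMod.unitOfCoprime l hlq = 1 := Units.ext (by
        have := congrArg (ZMod.castHom ((dvd_pow_self q two_ne_zero).mul_right M) (ZMod q)) hl1
        rwa [map_natCast, map_one] at this)
      rw [hlam₂ ⟨l, hl⟩ hlg P hP σ hσ]
      show residue A ((Two.twistAdic ρ φ _).trace σ) ≠ _
      rw [Two.trace_twistAdic, (hfrob ⟨l, hl⟩ hlg hlq P hP σ hσ).2.2, hu1, map_one, inv_one,
        Units.val_one, one_mul, ← trace_residual]
      exact hne
    · rcases hell with h3 | ⟨l, hlpL, hl3, hunit⟩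
      · exact Or.inl ⟨Or.inl h2A, Or.inl h3⟩
      · have hlg : l ∈ LGC.goodPrimes q M p := fun h => by
          rw [hqM] at h
          rcases l.2.dvd_mul.mp h with h | h
          · rcases l.2.dvd_mul.mp h with h | h
            · exact hlpL (h.mul_left p)
            · obtain ⟨r, hr, hd⟩ := (l.2.prime.dvd_finsetProd_iff _).mp h
              exact hlpL ((hd.trans (hQs r (hQsub r hr).1).2.1).mul_left p)
          · exact hlpL (h.mul_right L)
        obtain ⟨P, σ, hP, hσ⟩ := hfrobEx l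
        refine Or.inr (Or.inl ⟨Or.inl h2A, l, hlg, hl3, ?_⟩)
        show residue A (MvPolynomial.eval lam₂ (MvPolynomial.X l)) ≠ 0
        rw [MvPolynomial.eval_X, hlam₂ l hlg P hP σ hσ]
        show residue A ((Two.twistAdic ρ φ _).trace σ) ≠ 0
        rw [Two.trace_twistAdic]
        exact (IsLocalRing.residue_ne_zero_iff_isUnit _).mpr
          ((φ σ).isUnit.mul (hunit P hP σ hσ))
  · rw [hΦl ⟨q, Fact.out⟩ hqQ, hμ, map_smul, smul_smul]
    refine congrArg (· • _) (congrArg (· * μ) ?_)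
    rw [map_prod, twistFactor]
    refine (Finset.prod_congr rfl fun r hr => ?_).trans
      (Finset.prod_subset (Finset.filter_subset _ _) fun r hr hrQ => ?_)
    · have hqr : q.Coprime r := (Nat.coprime_primes hqpr (hQs r (hQsub r hr).1).1).2
        (hQsub r hr).2.1.symm
      rw [ofUnitHom_natCast hqr, ofUnitHom_natCast_unit hqr]
      rfl
    · have h1 : ψ r = 1 := by
        by_contra h1
        exact hrQ (Finset.mem_filter.mpr ⟨hr, h1⟩)
      rw [ofUnitHom_natCast_unit ((Nat.coprime_primes hqpr (hQs r (Finset.mem_of_mem_erase hr)).1).2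
        (Finset.ne_of_mem_erase hr).symm), h1, MonoidHom.one_apply, Units.val_one, map_one]

include hj hp2 hpA hqp hQs hψp hχ hq hψq hx heig hirr hdet htr hell in
/-- **Inertia at `q`**: the eigenvalues are `ψ_q` and `ψ_q⁻¹`. -/
theorem trace_inertia_component {P : ValuationSubring Qbar} (hP : P.LiesOverPrime q) {τ : Γℚ}
    (hτ : τ ∈ P.inertiaSubgroupIn ℚ) :
    ρ.trace τ = (ψ q (modCycloChar q τ) : A) + ((ψ q (modCycloChar q τ))⁻¹ : Aˣ) := by
  obtain ⟨M, hM, lam₂, y, hsys, -⟩ := exists_lgcSystem_component (K := K) hj hp2 hpA Qs hQs ψ e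
    hψp χ hχ hq hψq hx lam heig ρ hirr hdet htr hell
  haveI := hM
  set u := modCycloChar q τ with hu
  have h := LGC.charpoly_inertia hj hqp hsys hP hτ fun ζ hζ => apply_eq_pow_modCycloChar q τ hζ
  rw [Two.charpoly_twistAdic, componentTwist_apply, ← hu,
    show (X - 1) * (X - C (((ψ q ^ 2)⁻¹ u : Aˣ) : A)) =
      X ^ 2 - C (1 + (((ψ q ^ 2)⁻¹ u : Aˣ) : A)) * X + C (((ψ q ^ 2)⁻¹ u : Aˣ) : A) by
        rw [map_add, map_one]; ring] at h
  have ht := (Two.eq_of_quadratic_eq h).1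
  refine (Units.isUnit (ψ q u)⁻¹).mul_left_cancel ?_
  rw [ht, MonoidHom.inv_apply, MonoidHom.pow_apply, mul_add, Units.inv_mul, ← inv_pow,
    Units.val_pow_eq_pow_val, pow_two]

end component

end FermatLib.MLT.Odd

end
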