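import Fermat.Agent.Modular.TwistSystemEigen

/-!
# Twisting a nebentype of odd `p`-power order away

A character of `p`-power order, `p` odd, which factors through the primes of `Qs` is `ψ⁻²` for
characters `ψ` with values in the coefficients; at each point of the coefficients only the primes
where `ψ` is nontrivial are twisted.
-/

set_option autoImplicit false

noncomputable section

namespace FermatLib.MLT.Odd

open FermatLib.Modular.Twist

/-- A nebentype of `p`-power order through primes exactly dividing the level. -/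
structure TwistData (A : Type) [CommRing A] (p L : ℕ) (χ : (ZMod L)ˣ →* Aˣ) : Type where
  Qs : Finset ℕ
  exactly : ∀ q ∈ Qs, q.Prime ∧ q ∣ L ∧ ¬ q ^ 2 ∣ L
  e : ℕ
  c : (q : ℕ) → (ZMod q)ˣ →* Aˣ
  pow_eq_one : ∀ q ∈ Qs, c q ^ p ^ e = 1
  chi_eq : ∀ (n : ℕ) (hn : n.Coprime L),
    (χ (ZMod.unitOfCoprime n hn) : A) = ∏ q ∈ Qs, MulChar.ofUnitHom (c q) (n : ZMod q)

namespace TwistData

variable {A : Type} [CommRing A] {p L : ℕ} {χ : (ZMod L)ˣ →* Aˣ} (D : TwistData A p L χ)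

/-- The square root of the inverse of the component at `q`. -/
def psi (q : ℕ) : (ZMod q)ˣ →* Aˣ := D.c q ^ ((p ^ D.e - 1) / 2)

/-- The twisting factor at `n`. -/
def val (n : ℕ) : A := ∏ q ∈ D.Qs, MulChar.ofUnitHom (D.psi q) (n : ZMod q)

theorem coprime_of_mem {q n : ℕ} (hq : q ∈ D.Qs) (hn : n.Coprime L) : n.Coprime q :=
  hn.coprime_dvd_right (D.exactly q hq).2.1

theorem ofUnitHom_apply_natCast {q n : ℕ} (hn : n.Coprime q) (ψ : (ZMod q)ˣ →* Aˣ) :
    MulChar.ofUnitHom ψ (n : ZMod q) = (ψ (ZMod.unitOfCoprime n hn) : A) := by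
  rw [← MulChar.ofUnitHom_coe, ZMod.coe_unitOfCoprime]

theorem val_eq {n : ℕ} (hn : n.Coprime L) : D.val n = ∏ q : D.Qs,
    (D.psi q (ZMod.unitOfCoprime n (D.coprime_of_mem q.2 hn)) : A) := by
  rw [val, ← Finset.prod_coe_sort]
  exact Finset.prod_congr rfl fun q _ => ofUnitHom_apply_natCast _ _

theorem psi_pow {q : ℕ} (hq : q ∈ D.Qs) : D.psi q ^ p ^ D.e = 1 := by
  refine MonoidHom.ext fun u => ?_
  rw [psi, MonoidHom.pow_apply, MonoidHom.pow_apply, ← pow_mul, mul_comm, pow_mul,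
    ← MonoidHom.pow_apply, D.pow_eq_one q hq, MonoidHom.one_apply, one_pow]

theorem val_pow {n : ℕ} (hn : n.Coprime L) : D.val n ^ p ^ D.e = 1 := by
  rw [D.val_eq hn, ← Finset.prod_pow]
  refine Finset.prod_eq_one fun q _ => ?_
  rw [← Units.val_pow_eq_pow_val, ← MonoidHom.pow_apply, D.psi_pow q.2]
  rfl

theorem isUnit_val (hp : p ≠ 0) {n : ℕ} (hn : n.Coprime L) : IsUnit (D.val n) :=
  IsUnit.of_pow_eq_one (D.val_pow hn) (pow_ne_zero _ hp)

theorem chi_mul_val_sq (hp : Odd p) {n : ℕ} (hn : n.Coprime L) :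
    (χ (ZMod.unitOfCoprime n hn) : A) * D.val n ^ 2 = 1 := by
  rw [D.chi_eq n hn, D.val_eq hn, ← Finset.prod_coe_sort, ← Finset.prod_pow,
    ← Finset.prod_mul_distrib]
  refine Finset.prod_eq_one fun q _ => ?_
  obtain ⟨k, hk⟩ := hp.pow (n := D.e)
  rw [ofUnitHom_apply_natCast (D.coprime_of_mem q.2 hn), ← Units.val_pow_eq_pow_val,
    ← Units.val_mul, psi, MonoidHom.pow_apply, ← pow_mul, ← pow_succ',
    show (p ^ D.e - 1) / 2 * 2 + 1 = p ^ D.e by omega, ← MonoidHom.pow_apply,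
    D.pow_eq_one q q.2]
  rfl

section point

variable {K : Type} [Field K] (σ : A →+* K)

/-- The twisting characters at a point. -/
def psiAt (q : ℕ) : (ZMod q)ˣ →* Kˣ := (Units.map (σ : A →* K)).comp (D.psi q)

open Classical in
/-- The primes twisted at a point. -/
def primesAt : Finset ℕ := D.Qs.filter fun q => D.psiAt σ q ≠ 1

theorem primesAt_subset : D.primesAt σ ⊆ D.Qs := by
  classical
  exact Finset.filter_subset _ _

theorem exactly_primesAt : ∀ q ∈ D.primesAt σ, q.Prime ∧ q ∣ L ∧ ¬ q ^ 2 ∣ L :=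
  fun q hq => D.exactly q (D.primesAt_subset σ hq)

theorem psiAt_pow {q : ℕ} (hq : q ∈ D.Qs) : D.psiAt σ q ^ p ^ D.e = 1 := by
  refine MonoidHom.ext fun u => ?_
  rw [MonoidHom.pow_apply, psiAt, MonoidHom.comp_apply, ← map_pow, ← MonoidHom.pow_apply,
    D.psi_pow hq, MonoidHom.one_apply, map_one, MonoidHom.one_apply]

theorem psiAt_sq_ne_one (hp : Odd p) : ∀ q ∈ D.primesAt σ, D.psiAt σ q ^ 2 ≠ 1 := by
  classical
  intro q hq h
  obtain ⟨hq, hne⟩ := Finset.mem_filter.1 hq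
  obtain ⟨k, hk⟩ := hp.pow (n := D.e)
  have h1 := D.psiAt_pow σ hq
  refine hne (MonoidHom.ext fun u => ?_)
  have h1u := DFunLike.congr_fun h1 u
  have hu := DFunLike.congr_fun h u
  rw [MonoidHom.pow_apply, MonoidHom.one_apply] at h1u hu
  rw [hk, pow_succ, pow_mul, hu, one_pow, one_mul] at h1u
  exact h1u

theorem twistFactor_primesAt {n : ℕ} (hn : n.Coprime L) :
    twistFactor (D.primesAt σ) (D.psiAt σ) n = σ (D.val n) := by
  classical
  have h : ∀ q ∈ D.Qs, MulChar.ofUnitHom (D.psiAt σ q) (n : ZMod q) =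
      σ (MulChar.ofUnitHom (D.psi q) (n : ZMod q)) := fun q hq => by
    rw [ofUnitHom_natCast (D.coprime_of_mem hq hn), ofUnitHom_apply_natCast (D.coprime_of_mem hq hn)]
    rfl
  rw [val, map_prod, ← Finset.prod_congr rfl h, twistFactor]
  refine Finset.prod_subset (D.primesAt_subset σ) fun q hq hq' => ?_
  rw [ofUnitHom_natCast (D.coprime_of_mem hq hn)]
  have h1 : D.psiAt σ q = 1 := by
    by_contra h
    exact hq' (Finset.mem_filter.2 ⟨hq, h⟩)
  rw [h1, MonoidHom.one_apply, Units.val_one]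

theorem chi_mul_twistFactor_sq (hp : Odd p) (n : ℕ) (hn : n.Coprime L) :
    (((Units.map (σ : A →* K)).comp χ) (ZMod.unitOfCoprime n hn) : K) *
      twistFactor (D.primesAt σ) (D.psiAt σ) n ^ 2 = 1 := by
  rw [D.twistFactor_primesAt σ hn]
  show σ (χ (ZMod.unitOfCoprime n hn) : A) * σ (D.val n) ^ 2 = 1
  rw [← map_pow, ← map_mul, D.chi_mul_val_sq hp hn, map_one]

theorem modEq_one_primesAt {n : ℕ} (hn : (n : ZMod (L * ∏ q ∈ D.Qs, q)) = 1) :
    (n : ZMod (L * ∏ q ∈ D.primesAt σ, q)) = 1 := by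
  have hdvd : L * ∏ q ∈ D.primesAt σ, q ∣ L * ∏ q ∈ D.Qs, q :=
    Nat.mul_dvd_mul_left L (Finset.prod_dvd_prod_of_subset _ _ _ (D.primesAt_subset σ))
  have h := congrArg (ZMod.castHom hdvd (ZMod (L * ∏ q ∈ D.primesAt σ, q))) hn
  rwa [map_natCast, map_one] at h

end point

end TwistData

end FermatLib.MLT.Odd

end
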