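import Fermat.Agent.MLT.Odd.HeckeRepSystem

/-!
# The systems at `p`: flat when the level is prime to `p`

A system whose traces at almost all Frobenius elements are those of a point of a Hecke algebra of
level prime to `p` is flat at `p`.  This gives the field `old_p` of the data of a level.
-/

set_option autoImplicit false
set_option linter.style.haveILetI false

noncomputable section

namespace FermatLib.MLT.Odd

open IsLocalRing FermatLib.Galois FermatLib.Galois.DeformLocal FermatLib.MLT.HeckeRep CuspForm
  ModularCurve Polynomial

local notation "Qbar" => AlgebraicClosure ℚ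
local notation "Γℚ" => (AlgebraicClosure ℚ ≃ₐ[ℚ] AlgebraicClosure ℚ)

/-- The trace of a change of coefficients. -/
theorem trace_baseChangeAlong_apply {A B : Type} [CommRing A] [IsLocalRing A] [CommRing B]
    [IsLocalRing B] (φ : A →+* B) (hφ : IsLocalHom φ) (ρ : GaloisRepAdic A) (σ : Γℚ) :
    (ρ.baseChangeAlong φ hφ).trace σ = φ (ρ.trace σ) := by
  letI : Algebra A B := φ.toAlgebra
  exact LinearMap.trace_baseChange (ρ.ρ σ) B

variable {O : Type} [CommRing O] [IsDomain O] [IsDiscreteValuationRing O] {p : ℕ}
  {ρbar : ResidualGaloisRep (ResidueField O)} {S : OddPrimes p ρbar} {Q : Finset ℕ}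

variable {N : ℕ} [NeZero N] {E : Finset ℕ} {O₁ : Type} [CommRing O₁] [Algebra O O₁]
  {χ₀ : heckeAlgebra N 2 (E : Set ℕ) →+* O₁}

omit [IsDomain O] [IsDiscreteValuationRing O] in
/-- An injective map of finite extensions of `O` is local. -/
theorem isLocalHom_of_injective_algHom {A B : Type} [CommRing A] [CommRing B] [Algebra O A]
    [Algebra O B] [Module.Finite O B] (j : A →ₐ[O] B) (hj : Function.Injective j) :
    IsLocalHom j.toRingHom := by
  have hint : j.toRingHom.IsIntegral := RingHom.IsIntegral.tower_top (algebraMap O A) _ (by
    rw [show j.toRingHom.comp (algebraMap O A) = algebraMap O B from RingHom.ext j.commutes]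
    exact (Algebra.IsIntegral.of_finite O B).1)
  exact hint.isLocalHom hj

end FermatLib.MLT.Odd
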