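import Fermat.Agent.MLT.Odd.HeckeRepSystem
import Fermat.Agent.Galois.Ordinary.Level
import Fermat.Agent.Igusa.MonoTransferS34
import Fermat.Agent.Modular.KummerHecke
import Fermat.Agent.S19
import Fermat.Agent.S37

/-!
# The inputs on `J₀(N)` at `p`

The congruence relation (S37) and the models of the torsion at level prime to `p` (S19) give
`PointInputs`, up to the reduction kernel at levels exactly divisible by `p`.
-/

set_option autoImplicit false
set_option linter.style.haveILetI false

noncomputable section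

namespace FermatLib.MLT.Odd

open FermatLib.Galois ModularCurve

/-- Models of `J₀(N)[p^k]` over `ℤ_(p)` for `p ∤ N`. -/
theorem hasModelAt_pointLevel (N p : ℕ) [NeZero N] [Fact p.Prime] (hpN : ¬ p ∣ N) (k : ℕ) :
    FlatModel.HasModelAt p
      (Submodule.torsionBy ℤ (JZero N) ((p : ℤ) ^ k)).toAddSubgroup (FlatModel.torsionAct _) :=
  FlatModel.hasModelAt_torsion_of_model _ (Fermat.Agent.S19.result N p hpN k)

/-- The congruence relation on `J₀(N)`. -/
theorem specializationInput_level (N p : ℕ) [NeZero N] : Attach.SpecializationInput N p :=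
  Fermat.Agent.S37.result N p (FermatLib.Modular.heckeOperatorsCommuteBar N)

/-- The inputs on the torsion of `J₀(N)`. -/
theorem torsionGaloisInputs_level (N p : ℕ) [NeZero N] [Fact p.Prime] :
    TorsionGaloisInputs N p :=
  Ordinary.torsionGaloisInputs_of_specialization Fact.out (specializationInput_level N p)

attribute [local instance] FermatLib.Modular.Corr.neZero_mul'

/-- The connected kernels from the reduction kernel. -/
theorem hasConnectedKernels_pointLevel {p N : ℕ} [NeZero N] [Fact p.Prime] (hp2 : p ≠ 2)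
    (hN : ¬ p ^ 2 ∣ N)
    (hR : ∀ (M : ℕ) [NeZero p] [NeZero M], N = p * M → ¬ p ∣ M →
      Ordinary.HasReductionKernel p M) :
    Ordinary.HasConnectedKernels N p := by
  have hp : p.Prime := Fact.out
  by_cases hpN : p ∣ N
  · obtain ⟨M, rfl⟩ := hpN
    haveI : NeZero p := ⟨hp.ne_zero⟩
    haveI : NeZero M := ⟨fun h => NeZero.ne (p * M) (by rw [h, mul_zero])⟩
    have hpM : ¬ p ∣ M := fun h => hN (by rw [pow_two]; exact mul_dvd_mul_left p h)
    exact Ordinary.hasConnectedKernels_level hp hp2 (hasModelAt_pointLevel M p hpM)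
      (hR M rfl hpM)
  · exact hasConnectedKernels_of_model hp hp2 (torsionGaloisInputs_level N p)
      (hasModelAt_pointLevel N p hpN)

/-- Inertia is unipotent on the torsion at a prime exactly dividing the level. -/
theorem monodromy_pointLevel {p N : ℕ} [NeZero N] [Fact p.Prime] {q : ℕ} (hq : q.Prime)
    (hqp : q ≠ p) (hqN : q ∣ N) (hq2 : ¬ q ^ 2 ∣ N)
    (A : ValuationSubring (AlgebraicClosure ℚ)) (hA : A.LiesOverPrime q)
    {σ : AlgebraicClosure ℚ ≃ₐ[ℚ] AlgebraicClosure ℚ} (hσ : σ ∈ A.inertiaSubgroupIn ℚ)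
    (k : ℕ) (x : JZero N) (hx : p ^ k • x = 0) : σ • (σ • x - x) = σ • x - x := by
  have hp : p.Prime := Fact.out
  obtain ⟨M, rfl⟩ := hqN
  have : Fact q.Prime := ⟨hq⟩
  have : NeZero M := ⟨fun h => NeZero.ne (q * M) (by rw [h, mul_zero])⟩
  have hqM : ¬ q ∣ M := fun h => hq2 (by rw [pow_two]; exact Nat.mul_dvd_mul_left q h)
  exact FermatLib.Igusa.Mono.inertia_smul_smul_sub_eq hqM A hA hσ hσ (d := p ^ k)
    (Nat.one_le_pow _ _ hp.pos)
    (fun h => hqp ((Nat.prime_dvd_prime_iff_eq hq hp).mp (hq.dvd_of_dvd_pow h))) x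
    (by rw [natCast_zsmul]; exact hx)

/-- **The inputs at a level**, given the reduction kernel at levels exactly divisible by `p`. -/
theorem pointInputs_level {p : ℕ} (N : ℕ) [NeZero N] [Fact p.Prime] (hp2 : p ≠ 2)
    (hR : ∀ (M : ℕ) [NeZero p] [NeZero M], N = p * M → ¬ p ∣ M →
      Ordinary.HasReductionKernel p M) :
    PointInputs p N where
  torsion := torsionGaloisInputs_level N p
  model := hasModelAt_pointLevel N p
  kernels hN := hasConnectedKernels_pointLevel hp2 hN hR
  monodromy _ hq hqp hqN hq2 A hA _ hσ k x hx := monodromy_pointLevel hq hqp hqN hq2 A hA hσ k x hx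

end FermatLib.MLT.Odd
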