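/-
The two branches at `p` for systems of level exactly divisible by `p`.
-/
import Fermat.Agent.MLT.Odd.HeckeRepStrict
import Fermat.Agent.MLT.Odd.SystemLocalP
import Fermat.Agent.MLT.Odd.SystemLocalPInputs
import Fermat.Agent.MLT.Odd.HeckeRepFlatDescent

/-!
# The systems at `p`: flat or strictly ordinary

With the inputs on `J₀(N)` supplied by S19 and S37, the only hypothesis is the strict reduction kernel.
-/

set_option autoImplicit false
set_option linter.style.haveILetI false

noncomputable section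

namespace FermatLib.MLT.Odd

open IsLocalRing FermatLib.Galois FermatLib.MLT.HeckeRep CuspForm ModularCurve

local notation "Qbar" => AlgebraicClosure ℚ
local notation "Γℚ" => (AlgebraicClosure ℚ ≃ₐ[ℚ] AlgebraicClosure ℚ)

variable {O : Type} [CommRing O] [IsDomain O] [IsDiscreteValuationRing O] {p : ℕ}
  {ρbar : ResidualGaloisRep (ResidueField O)} {S : OddPrimes p ρbar} {Q : Finset ℕ}
  {N : ℕ} [NeZero N] {E : Finset ℕ} {O₁ : Type} [CommRing O₁] [Algebra O O₁]
  {χ₀ : heckeAlgebra N 2 (E : Set ℕ) →+* O₁}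

/-- A point of level exactly divisible by `p` is flat or strictly ordinary at `p`. -/
theorem PointLift.isFlatAt_or_isStrictOrdinaryAt_level [Fact p.Prime] (hattach : PadicAttachment)
    (hp2 : p ≠ 2) (hpO : (p : O) ∈ maximalIdeal O) (hirr : ρbar.IsAbsolutelyIrreducible)
    (hdetbar : (GaloisRepAdic.ofResidualGaloisRep ρbar).DetIsCyclotomic p)
    (hord : (GaloisRepAdic.ofResidualGaloisRep ρbar).IsOrdinaryAt p)
    (hpE : p ∈ E) (hNE : ∀ q : ℕ, q.Prime → q ∣ N → q ∈ E) (hp2N : ¬ p ^ 2 ∣ N)
    (hR : ∀ (M : ℕ) [NeZero p] [NeZero M], N = p * M → ¬ p ∣ M →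
      Ordinary.HasStrictReductionKernel p M)
    (L : PointLift p ρbar χ₀) : L.r.IsFlatAt p ∨ L.r.IsStrictOrdinaryAt p := by
  by_cases hpN : p ∣ N
  swap
  · exact Or.inl (L.flat hpN)
  obtain ⟨M, rfl⟩ := hpN
  have hp : p.Prime := Fact.out
  haveI : NeZero p := ⟨hp.ne_zero⟩
  haveI : NeZero M := ⟨fun h => NeZero.ne (p * M) (by rw [h, mul_zero])⟩
  have hpM : ¬ p ∣ M := fun h => hp2N (by rw [sq]; exact mul_dvd_mul_left p h)
  exact L.isFlatAt_or_isStrictOrdinaryAt hattach hp2 hpO hirr hdetbar hord hpM hpE hNE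
    (torsionGaloisInputs_level (p * M) p) (torsionGaloisInputs_level M p)
    (hasModelAt_pointLevel M p hpM) (hR M rfl hpM)

/-- A lift which is flat at `p` makes the residual representation flat at `p`. -/
theorem PointLift.isFlatAt_residual [Finite (ResidueField O)] [Fact p.Prime]
    (L : PointLift p ρbar χ₀) (h : L.r.IsFlatAt p) :
    (GaloisRepAdic.ofResidualGaloisRep ρbar).IsFlatAt p := by
  let f : ResidueField O →+* ResidueField L.O' := ResidueField.map (algebraMap O L.O')
  letI : Algebra (ResidueField O) (ResidueField L.O') := f.toAlgebra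
  haveI : Module.Finite (ResidueField O) (ResidueField L.O') := Module.Finite.of_finite
  have hfloc : IsLocalHom f := inferInstance
  have hr : IsLocalHom (residue L.O') := inferInstance
  have h1 : (L.r.baseChangeAlong (residue L.O') hr).IsFlatAt p := FlatModel.isFlatAt_baseChange _ hr h
  obtain ⟨e⟩ := L.isLiftOf
  have h2 : ((GaloisRepAdic.ofResidualGaloisRep ρbar).baseChangeAlong f hfloc).IsFlatAt p :=
    FlatModel.isFlatAt_of_isEquiv ⟨⟨e.toLinearEquiv, fun σ x => e.map_apply σ x⟩⟩ h1
  haveI : Finite (ResidueField (ResidueField O)) :=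
    Finite.of_surjective (residue (ResidueField O)) residue_surjective
  exact isFlatAt_of_baseChange_finite_injective f.injective hfloc h2

/-- **Residually not flat: strictly ordinary** (the case `strictOnly`). -/
theorem PointLift.isStrictOrdinaryAt_of_not_flat [Finite (ResidueField O)] [Fact p.Prime]
    (hattach : PadicAttachment) (hp2 : p ≠ 2) (hpO : (p : O) ∈ maximalIdeal O)
    (hirr : ρbar.IsAbsolutelyIrreducible)
    (hdetbar : (GaloisRepAdic.ofResidualGaloisRep ρbar).DetIsCyclotomic p)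
    (hord : (GaloisRepAdic.ofResidualGaloisRep ρbar).IsOrdinaryAt p)
    (hnf : ¬ (GaloisRepAdic.ofResidualGaloisRep ρbar).IsFlatAt p)
    (hpE : p ∈ E) (hNE : ∀ q : ℕ, q.Prime → q ∣ N → q ∈ E) (hp2N : ¬ p ^ 2 ∣ N)
    (hR : ∀ (M : ℕ) [NeZero p] [NeZero M], N = p * M → ¬ p ∣ M →
      Ordinary.HasStrictReductionKernel p M)
    (L : PointLift p ρbar χ₀) : L.r.IsStrictOrdinaryAt p :=
  (L.isFlatAt_or_isStrictOrdinaryAt_level hattach hp2 hpO hirr hdetbar hord hpE hNE hp2N
    hR).resolve_left fun h => hnf (L.isFlatAt_residual h)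

end FermatLib.MLT.Odd
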