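import Fermat.Agent.MLT.Odd.HeckeRepSystem
import Fermat.Agent.MLT.Odd.SystemLocalPStrict
import Fermat.Agent.MLT.Odd.SystemFamilyTwist
import Fermat.Agent.Igusa.MonoModularDatum
import Fermat.Agent.Igusa.MonoStrictKernel
import Fermat.Agent.Galois.Ordinary.FromSheets

/-!
# Inputs of the point step of the levels

The kernels of reduction from the modular two-sheet datum; the representation of a point whose
residual congruence is known outside a larger finite set; twisting factors at primes off the
twisted ones; generators of the values of finite algebras.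
-/

set_option autoImplicit false
set_option linter.style.haveILetI false

noncomputable section

namespace FermatLib.MLT.Odd

open IsLocalRing FermatLib.Galois FermatLib.Galois.DeformLocal FermatLib.MLT.HeckeRep CuspForm
  ModularCurve Polynomial

local notation "Qbar" => AlgebraicClosure ℚ
local notation "Γℚ" => (AlgebraicClosure ℚ ≃ₐ[ℚ] AlgebraicClosure ℚ)

/-- The strict reduction kernel at every level exactly divisible by `p`. -/
theorem hasStrictReductionKernel_holds {p M : ℕ} [Fact p.Prime] [NeZero p] [NeZero M]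
    (hpM : ¬ p ∣ M) : Ordinary.HasStrictReductionKernel p M :=
  Igusa.Mono.hasStrictReductionKernel_of_sheets hpM fun _ hA =>
    Igusa.Mono.exists_monoDatum_sheets' hpM hA

/-- The reduction kernel at every level exactly divisible by `p`. -/
theorem hasReductionKernel_holds {p M : ℕ} [Fact p.Prime] [NeZero p] [NeZero M]
    (hpM : ¬ p ∣ M) : Ordinary.HasReductionKernel p M :=
  Ordinary.hasReductionKernel_of_sheets hpM fun _ hA => by
    obtain ⟨D, h1, h2, h3, -⟩ := Igusa.Mono.exists_monoDatum_sheets' hpM hA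
    exact ⟨D, h1, h2, h3⟩

/-- The inputs on `J₀(N)` at `p`. -/
theorem pointInputs_holds {p : ℕ} (N : ℕ) [NeZero N] [Fact p.Prime] (hp2 : p ≠ 2) :
    PointInputs p N :=
  pointInputs_level N hp2 fun M _ _ _ hpM => hasReductionKernel_holds hpM

variable {O : Type} [CommRing O] [IsDomain O] [IsDiscreteValuationRing O] {p : ℕ}
  {ρbar : ResidualGaloisRep (ResidueField O)}

/-- **The representation of a point congruent to `ρbar` outside a finite set of primes.** -/
theorem nonempty_pointLift_outside [IsAdicComplete (maximalIdeal O) O] [Finite (ResidueField O)]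
    (hattach : PadicAttachment) [Fact p.Prime] (hp2 : p ≠ 2) (hpO : (p : O) ∈ maximalIdeal O)
    (hirr : ρbar.IsAbsolutelyIrreducible)
    (hdetbar : (GaloisRepAdic.ofResidualGaloisRep ρbar).DetIsCyclotomic p)
    {N : ℕ} [NeZero N] {E : Finset ℕ} (hpE : p ∈ E) (hNE : ∀ q : ℕ, q.Prime → q ∣ N → q ∈ E)
    (hJ : PointInputs p N) {O₁ : Type} [CommRing O₁] [IsDomain O₁] [IsDiscreteValuationRing O₁]
    [IsAdicComplete (maximalIdeal O₁) O₁] [Finite (ResidueField O₁)] [CharZero O₁] [Algebra O O₁]
    [Module.Finite O O₁] [IsLocalHom (algebraMap O O₁)]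
    (χ₀ : heckeAlgebra N 2 (E : Set ℕ) →+* O₁) (E₀ : Finset ℕ)
    (hres : ∀ (ℓ : ℕ) (hℓ : ℓ.Prime) (hℓN : ¬ ℓ ∣ N) (hℓE : ℓ ∉ (E : Set ℕ)), ℓ ∉ E₀ →
      ∀ P : ValuationSubring Qbar, P.LiesOverPrime ℓ → ∀ σ : Γℚ, P.IsFrobeniusAt σ ℓ →
        residue O₁ (χ₀ (heckeAlgebra.T hℓ hℓN hℓE)) = ResidueField.map (algebraMap O O₁)
          (LinearMap.trace (ResidueField O) ρbar.V (ρbar.ρ σ))) :
    Nonempty (PointLift p ρbar χ₀) := by
  classical
  have hp : p.Prime := Fact.out
  have hpO₁ : (p : O₁) ∈ maximalIdeal O₁ := by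
    rw [← map_natCast (algebraMap O O₁)]
    exact maximalIdeal_map_le (Ideal.mem_map_of_mem _ hpO)
  obtain ⟨O', _, _, _, _, _, _, _, _, _, hinj, r, hchar, hunr⟩ :=
    hattach p N E hpE hNE O₁ hpO₁ χ₀
  letI : Algebra O O' := ((algebraMap O₁ O').comp (algebraMap O O₁)).toAlgebra
  have : IsScalarTower O O₁ O' := IsScalarTower.of_algebraMap_eq fun _ => rfl
  have : Module.Finite O O' := Module.Finite.trans O₁ O'
  have : IsLocalHom (algebraMap O O') := RingHom.isLocalHom_comp _ _
  have : IsNoetherianRing O' := inferInstance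
  have hatt : IsAttachedToPoint χ₀ r := hchar
  have hdet : r.DetIsCyclotomic p := detIsCyclotomic_point hp hpO₁ hNE hatt
  let f : ResidueField O →+* ResidueField O' := ResidueField.map (algebraMap O O')
  have hfloc : IsLocalHom f := inferInstance
  have hresloc : IsLocalHom (residue O') := inferInstance
  let rb : GaloisRepAdic (ResidueField O') := GaloisRepAdic.ofResidualGaloisRep r.residual
  let bb : GaloisRepAdic (ResidueField O') :=
    GaloisRepAdic.ofResidualGaloisRep (ρbar.baseChangeAlong f)
  have hrbdet : rb.DetIsCyclotomic p := detIsCyclotomic_baseChange _ hresloc hdet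
  have hbbdet : bb.DetIsCyclotomic p := detIsCyclotomic_baseChange _ hfloc hdetbar
  have htr : ∀ σ : Γℚ, LinearMap.charpoly (r.residual.ρ σ) =
      LinearMap.charpoly ((ρbar.baseChangeAlong f).ρ σ) := by
    refine residual_charpoly_eq_of_frobenius _ _ (E ∪ E₀) fun ℓ hℓ hℓE P hP σ hσ => ?_
    rw [Finset.mem_union, not_or] at hℓE
    obtain ⟨hℓE, hℓE₀⟩ := hℓE
    have hℓp : ℓ ≠ p := fun h => hℓE (h ▸ hpE)
    show LinearMap.charpoly (rb.ρ σ) = LinearMap.charpoly (bb.ρ σ)
    have hℓN : ¬ ℓ ∣ N := fun h => hℓE (hNE ℓ hℓ h)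
    rw [adic_charpoly_eq, adic_charpoly_eq, det_frobenius rb hp hrbdet hℓ hℓp hP hσ,
      det_frobenius bb hp hbbdet hℓ hℓp hP hσ]
    congr 4
    have e1 : rb.trace σ = residue O' (r.trace σ) := trace_residual r σ
    have e2 : bb.trace σ = f (LinearMap.trace (ResidueField O) ρbar.V (ρbar.ρ σ)) := by
      letI : Algebra (ResidueField O) (ResidueField O') := f.toAlgebra
      exact LinearMap.trace_baseChange (ρbar.ρ σ) (ResidueField O')
    rw [e1, e2, (det_of_charpoly_eq r (hchar ℓ hℓ hℓN hℓE P hP σ hσ)).2]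
    show ResidueField.map (algebraMap O₁ O') (residue O₁ (χ₀ (heckeAlgebra.T hℓ hℓN hℓE))) = _
    rw [hres ℓ hℓ hℓN hℓE hℓE₀ P hP σ hσ]
    exact ResidueField.map_map (algebraMap O O₁) (algebraMap O₁ O') _
  have hirr' : r.residual.IsAbsolutelyIrreducible :=
    isAbsolutelyIrreducible_of_trace_eq ((isAbsolutelyIrreducible_baseChangeAlong_iff f ρbar).2 hirr)
      fun σ => trace_eq_of_charpoly_eq (htr σ).symm
  have hlift : IsLiftOf ρbar r := residual_isEquiv_of_charpoly_eq hirr' htr
  refine ⟨{
    O' := O'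
    ι := IsScalarTower.toAlgHom O O₁ O'
    ι_injective := hinj
    r := r
    isLiftOf := hlift
    det := hdet
    charpoly_frob := hchar
    unramified := hunr
    flat := fun hN => isFlatAt_point hattach hp hp2 hpO₁ hpE hNE hatt hirr' hJ.torsion (hJ.model hN)
    ordinary := fun hN hord => ?_
    unipotent := fun q hq hqp hq2 => ?_ }⟩
  · refine isOrdinaryAt_point hattach hp hp2 hpO₁ hpE hNE hatt hirr' hJ.torsion (hJ.kernels hN) ?_
    obtain ⟨e⟩ := hlift
    exact OrdinaryCondition.isOrdinaryAt_of_isEquiv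
      (ρ := bb) ⟨⟨e.toLinearEquiv.symm, fun σ x => e.symm.map_apply σ x⟩⟩
      (OrdinaryCondition.isOrdinaryAt_baseChange hp hp2 f hfloc hdetbar hord)
  · by_cases hqN : q ∣ N
    · exact isUnipotentOnInertiaAt_point hattach hp hp2 hpO₁ hpE hNE hatt hirr' hJ.torsion hq hqp
        (hJ.monodromy q hq hqp hqN hq2)
    · exact isUnipotentOnInertiaAt_of_isUnramifiedAt (hunr q hq hqN hqp)

/-- Finitely many integral generators for the values of a finite algebra. -/
theorem exists_value_generators {R B K : Type} [CommRing R] [CommRing B] [Field K] [Algebra R B]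
    [Module.Finite R B] [Algebra R K] (f : B →ₐ[R] K) :
    ∃ s : Set K, s.Finite ∧ (∀ x ∈ s, IsIntegral R x) ∧
      ∀ R' : Subring K, (∀ a, algebraMap R K a ∈ R') → s ⊆ R' → ∀ b, f b ∈ R' := by
  obtain ⟨g, hg⟩ := (Module.Finite.fg_top : (⊤ : Submodule R B).FG)
  refine ⟨f '' g, g.finite_toSet.image _, ?_, fun R' hR hs b => ?_⟩
  · rintro _ ⟨b, -, rfl⟩
    exact (Algebra.IsIntegral.isIntegral (R := R) b).map f
  · have hb : b ∈ Submodule.span R (g : Set B) := hg ▸ Submodule.mem_top
    induction hb using Submodule.span_induction with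
    | mem x hx => exact hs ⟨x, hx, rfl⟩
    | zero => rw [map_zero]; exact zero_mem R'
    | add x y _ _ hx hy => rw [map_add]; exact add_mem hx hy
    | smul a x _ hx => rw [map_smul, Algebra.smul_def]; exact mul_mem (hR a) hx

/-- A ring map with values in the range of an injective one lifts. -/
theorem exists_ringHom_of_mem_range {B R K : Type} [CommRing B] [CommRing R] [Field K]
    (j : R →+* K) (hj : Function.Injective j) (f : B →+* K) (h : ∀ b, f b ∈ j.range) :
    ∃ g : B →+* R, ∀ b, j (g b) = f b := by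
  choose g hg using fun b => RingHom.mem_range.1 (h b)
  exact ⟨
    { toFun := g
      map_one' := hj (by rw [hg, map_one, map_one])
      map_mul' := fun a b => hj (by rw [hg, map_mul, map_mul, hg, hg])
      map_zero' := hj (by rw [hg, map_zero, map_zero])
      map_add' := fun a b => hj (by rw [hg, map_add, map_add, hg, hg]) }, hg⟩

namespace TwistData

variable {A : Type} [CommRing A] {L : ℕ} {χ : (ZMod L)ˣ →* Aˣ} (D : TwistData A p L χ)

/-- The twisting factor has `p`-power order at every integer prime to the twisted primes. -/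
theorem val_pow_of_coprime {n : ℕ} (hn : ∀ q ∈ D.Qs, n.Coprime q) : D.val n ^ p ^ D.e = 1 := by
  rw [TwistData.val, ← Finset.prod_pow]
  refine Finset.prod_eq_one fun q hq => ?_
  rw [TwistData.ofUnitHom_apply_natCast (hn q hq), ← Units.val_pow_eq_pow_val,
    ← MonoidHom.pow_apply, D.psi_pow hq]
  rfl

open FermatLib.Modular.Twist in
/-- The twisting factor at a point at every integer prime to the twisted primes. -/
theorem twistFactor_primesAt_of_coprime {K : Type} [Field K] (σ : A →+* K) {n : ℕ}
    (hn : ∀ q ∈ D.Qs, n.Coprime q) :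
    twistFactor (D.primesAt σ) (D.psiAt σ) n = σ (D.val n) := by
  classical
  have h : ∀ q ∈ D.Qs, MulChar.ofUnitHom (D.psiAt σ q) (n : ZMod q) =
      σ (MulChar.ofUnitHom (D.psi q) (n : ZMod q)) := fun q hq => by
    rw [TwistData.ofUnitHom_apply_natCast (hn q hq), TwistData.ofUnitHom_apply_natCast (hn q hq)]
    rfl
  rw [TwistData.val, map_prod, ← Finset.prod_congr rfl h, twistFactor]
  refine Finset.prod_subset (D.primesAt_subset σ) fun q hq hq' => ?_
  rw [TwistData.ofUnitHom_apply_natCast (hn q hq)]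
  have h1 : D.psiAt σ q = 1 := by
    by_contra h
    exact hq' (Finset.mem_filter.2 ⟨hq, h⟩)
  rw [h1, MonoidHom.one_apply, Units.val_one]

end TwistData

end FermatLib.MLT.Odd

end
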