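import Fermat.Agent.MLT.Odd.InertiaComponent
import Fermat.Agent.MLT.Odd.SupplyPointInputs
import Fermat.Agent.MLT.Odd.SystemLocalP
import Fermat.Agent.Galois.AttachmentProved

/-!
# Inertia at a prime of the level through which the nebentype does not ramify

`q` divides the level exactly once and the component of the nebentype at `q` is trivial: twisted to
trivial character the eigenclass is a point of a level in which `q` occurs once, so inertia at `q`
is unipotent.  A unipotent inertia element does not change the trace of a Frobenius element.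
-/

set_option autoImplicit false
set_option linter.style.haveILetI false
set_option linter.unusedSectionVars false

noncomputable section

open CongruenceSubgroup Polynomial

namespace FermatLib.MLT.Odd

open IsLocalRing CuspForm FermatLib.Galois FermatLib.Galois.DeformLocal FermatLib.Modular.Twist
  FermatLib.MLT.HeckeRep

local notation "Qbar" => AlgebraicClosure ℚ
local notation "Γℚ" => (AlgebraicClosure ℚ ≃ₐ[ℚ] AlgebraicClosure ℚ)

section algebra

variable {A : Type} [CommRing A] [IsDomain A] [IsLocalRing A] (ρ : GaloisRepAdic A)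

/-- Cayley–Hamilton. -/
theorem sq_sub_trace_smul (σ : Γℚ) :
    ρ.ρ σ * ρ.ρ σ = ρ.trace σ • ρ.ρ σ - LinearMap.det (ρ.ρ σ) • (1 : Module.End A ρ.V) := by
  have h := LinearMap.aeval_self_charpoly (ρ.ρ σ)
  rw [adic_charpoly_eq, map_add, map_sub, map_mul, map_pow, aeval_X, aeval_C, aeval_C, pow_two,
    Algebra.algebraMap_eq_smul_one, Algebra.algebraMap_eq_smul_one, smul_mul_assoc, one_mul] at h
  exact eq_sub_of_add_eq (sub_eq_zero.1 (by rw [← h]; abel))

/-- An element of determinant one and trace two leaves the trace of `φ` unchanged when its product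
with its conjugate under `φ` has trace two. -/
theorem trace_mul_of_unipotent {τ φ : Γℚ} (hd : LinearMap.det (ρ.ρ τ) = 1)
    (ht : ρ.trace τ = 2) (h2 : ρ.trace (τ * (φ⁻¹ * (τ * φ))) = 2) :
    ρ.trace (τ * φ) = ρ.trace φ := by
  set T := ρ.ρ τ with hT
  set F := ρ.ρ φ with hF
  set G := ρ.ρ φ⁻¹ with hG
  set t := ρ.trace φ with ht'
  set s := ρ.trace (τ * φ) with hs
  set D := LinearMap.det F with hD
  have hGF : G * F = 1 := by rw [hG, hF, ← map_mul, inv_mul_cancel, map_one]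
  have hDG : D • G = t • (1 : Module.End A ρ.V) - F := by
    have h := congrArg (G * ·) (sq_sub_trace_smul ρ φ)
    simp only [← hF, ← ht', ← hD, mul_sub, ← mul_assoc, hGF, mul_smul_comm, one_mul, mul_one] at h
    exact eq_sub_of_add_eq (by rw [h]; abel)
  have hTT : T * T = (2 : A) • T - (1 : Module.End A ρ.V) := by
    rw [hT, sq_sub_trace_smul, ht, hd, one_smul]
  have h1 : LinearMap.trace A ρ.V (1 : Module.End A ρ.V) = 2 := by
    rw [LinearMap.trace_one, ρ.finrank_eq, Nat.cast_ofNat]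
  have hTF : LinearMap.trace A ρ.V (T * F * (T * F)) = s * s - 2 * D := by
    rw [show T * F = ρ.ρ (τ * φ) by rw [map_mul], sq_sub_trace_smul, map_sub, map_smul, map_smul,
      h1, map_mul ρ.ρ, ← hT, ← hF, map_mul LinearMap.det, hd, one_mul, smul_eq_mul, smul_eq_mul,
      mul_comm 2 D]
    rw [show LinearMap.trace A ρ.V (T * F) = s by rw [hs, hT, hF, ← map_mul]; rfl]
  have hT2F : LinearMap.trace A ρ.V (T * (T * F)) = 2 * s - t := by
    rw [← mul_assoc, hTT, sub_mul, smul_mul_assoc, one_mul, map_sub, map_smul, smul_eq_mul,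
      show LinearMap.trace A ρ.V (T * F) = s by rw [hs, hT, hF, ← map_mul]; rfl]
    rfl
  have key : D * 2 = t * (2 * s - t) - (s * s - 2 * D) := by
    rw [← hT2F, ← hTF, ← h2, show ρ.trace (τ * (φ⁻¹ * (τ * φ))) =
        LinearMap.trace A ρ.V (T * (G * (T * F))) by rw [hT, hG, hF, ← map_mul, ← map_mul, ← map_mul]; rfl,
      ← smul_eq_mul, ← map_smul, ← mul_smul_comm, ← smul_mul_assoc, hDG, sub_mul, smul_mul_assoc,
      one_mul, mul_sub, mul_smul_comm, map_sub, map_smul, smul_eq_mul]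
    simp only [← mul_assoc, LinearMap.trace_mul_comm A (T * F * T) F]
  have h0 : (s - t) ^ 2 = 0 := by linear_combination key
  exact sub_eq_zero.1 (pow_eq_zero_iff two_ne_zero |>.1 h0)

end algebra

variable {A : Type} [CommRing A] [IsDomain A] [IsDiscreteValuationRing A]
  [IsAdicComplete (maximalIdeal A) A] [Finite (ResidueField A)] [CharZero A]
  {K : Type} [Field K] [IsAlgClosed K] [CharZero K] [Algebra A K]
  {p q L : ℕ} [Fact p.Prime] [Fact q.Prime] [NeZero L]
  (hj : Function.Injective (algebraMap A K)) (hp2 : p ≠ 2)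
  (hpA : (p : A) ∈ maximalIdeal A) (hqp : q ≠ p)
  (Qs : Finset ℕ) (hQs : ∀ r ∈ Qs, r.Prime ∧ r ∣ L ∧ ¬ r ^ 2 ∣ L)
  (ψ : (r : ℕ) → (ZMod r)ˣ →* Aˣ) (e : ℕ) (hψp : ∀ r ∈ Qs, ψ r ^ p ^ e = 1)
  (χ : (ZMod L)ˣ →* Kˣ)
  (hχ : ∀ (n : ℕ) (hn : n.Coprime L), (χ (ZMod.unitOfCoprime n hn) : K) *
    algebraMap A K (∏ r ∈ Qs, MulChar.ofUnitHom (ψ r) (n : ZMod r)) ^ 2 = 1)
  (hq : q ∈ Qs) (hψq : ψ q = 1)
  {x : bettiH1 (Gamma0 L) (nebenChar χ) K} (hx : x ≠ 0) (lam : Nat.Primes → K)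
  (heig : ∀ l : Nat.Primes, bettiHeckeOp L K χ l x = lam l • x)
  (ρ : GaloisRepAdic A) (hirr : ρ.residual.IsAbsolutelyIrreducible) (hdet : ρ.DetIsCyclotomic p)
  (htr : ∀ l : Nat.Primes, ¬ (l : ℕ) ∣ p * L → ∀ P : ValuationSubring Qbar,
    P.LiesOverPrime (l : ℕ) → ∀ σ : Γℚ, P.IsFrobeniusAt σ (l : ℕ) →
      algebraMap A K (ρ.trace σ) =
        algebraMap A K (∏ r ∈ Qs, MulChar.ofUnitHom (ψ r) ((l : ℕ) : ZMod r)) * lam l)

include hj hp2 hpA hqp hQs hψp hχ hq hψq hx heig hirr hdet htr in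
/-- **Inertia is unipotent at a prime with trivial component.** -/
theorem isUnipotentOnInertiaAt_component : ρ.IsUnipotentOnInertiaAt q := by
  classical
  have hqpr : q.Prime := Fact.out
  have hp : p.Prime := Fact.out
  have hodd := hp.odd_of_ne_two hp2
  set j : A →+* K := algebraMap A K with hjdef
  let ψK : (r : ℕ) → (ZMod r)ˣ →* Kˣ := fun r => (Units.map j.toMonoidHom).comp (ψ r)
  let Q : Finset ℕ := Qs.filter fun r => ψ r ≠ 1
  have hQsub : ∀ r ∈ Q, r ∈ Qs ∧ ψ r ≠ 1 := fun r hr => Finset.mem_filter.1 hr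
  haveI : NeZero (L * ∏ r ∈ Q, r) := ⟨mul_ne_zero (NeZero.ne L)
    (Finset.prod_ne_zero_iff.2 fun r hr => (hQs r (hQsub r hr).1).1.ne_zero)⟩
  set N := L * ∏ r ∈ Q, r with hN
  have hLN : L ∣ N := dvd_mul_right _ _
  have hNL : ∀ r : ℕ, r.Prime → r ∣ N → r ∣ L := fun r hr h => by
    rcases hr.dvd_mul.1 h with h | h
    · exact h
    · obtain ⟨s, hs, hrs⟩ := (Prime.dvd_finsetProd_iff hr.prime _).1 h
      rw [(Nat.prime_dvd_prime_iff_eq hr (hQs s (hQsub s hs).1).1).1 hrs]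
      exact (hQs s (hQsub s hs).1).2.1
  have hqN : ¬ q ^ 2 ∣ N := fun h => (hQs q hq).2.2 <|
    (Nat.Coprime.prod_right fun s hs => Nat.Coprime.pow_left 2
      ((Nat.coprime_primes hqpr (hQs s (hQsub s hs).1).1).2
        fun he => (hQsub s hs).2 (he ▸ hψq))).dvd_of_dvd_mul_right h
  have hval : ∀ n : ℕ, n.Coprime L →
      twistFactor Q ψK n = j (∏ r ∈ Qs, MulChar.ofUnitHom (ψ r) (n : ZMod r)) := by
    intro n hn
    rw [map_prod, twistFactor]
    refine (Finset.prod_congr rfl fun r hr => ?_).trans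
      (Finset.prod_subset (Finset.filter_subset _ _) fun r hr hrQ => ?_)
    · have hnr := hn.coprime_dvd_right (hQs r (hQsub r hr).1).2.1
      rw [ofUnitHom_natCast hnr, ofUnitHom_natCast_unit hnr]
      rfl
    · have h1 : ψ r = 1 := by
        by_contra h1
        exact hrQ (Finset.mem_filter.2 ⟨hr, h1⟩)
      rw [ofUnitHom_natCast_unit (hn.coprime_dvd_right (hQs r hr).2.1), h1, MonoidHom.one_apply,
        Units.val_one, map_one]
  have hdr : (GaloisRepAdic.ofResidualGaloisRep ρ.residual).DetIsCyclotomic p :=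
    detIsCyclotomic_baseChange (residue A) inferInstance hdet
  -- a prime which is not Eisenstein
  obtain ⟨l, hl, hlT, hlN, -, hl1, P, hP, σ, hσ, hne⟩ :=
    exists_frobenius_trace_ne hirr hp hdr N (p * L).primeFactors
  have hlpL : ¬ l ∣ p * L := fun h =>
    hlT (Nat.mem_primeFactors.2 ⟨hl, h, mul_ne_zero hp.ne_zero (NeZero.ne L)⟩)
  obtain ⟨θ, hθT, -, -⟩ := exists_twist_point (Q := Q) (ψ := ψK) (χ := χ)
    (fun r hr => hQs r (hQsub r hr).1)
    (fun r hr h => by
      obtain ⟨k, hk⟩ := hodd.pow (n := e)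
      refine (hQsub r hr).2 (MonoidHom.ext fun u => Units.ext (hj ?_))
      have h1 : ψK r u ^ 2 = 1 := DFunLike.congr_fun h u
      have h2 : ψ r u ^ p ^ e = 1 := DFunLike.congr_fun (hψp r (hQsub r hr).1) u
      have h3 : (Units.map j.toMonoidHom) (ψ r u) ^ (2 * k + 1) = 1 := by
        rw [← hk, ← map_pow, h2, map_one]
      rw [pow_succ, pow_mul, show (Units.map j.toMonoidHom) (ψ r u) ^ 2 = 1 from h1, one_pow,
        one_mul] at h3
      rw [MonoidHom.one_apply, Units.val_one, map_one]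
      exact congrArg Units.val h3)
    (fun n hn => by rw [hval n hn]; exact hχ n hn)
    (x := x) hx lam (fun l _ => heig l)
    ⟨⟨l, hl⟩, hl1, fun he => hne (by
      have hone : ∀ r ∈ Qs, (l : ZMod r) = 1 := fun r hr => by
        have := congrArg (ZMod.castHom ((hQs r hr).2.1.trans hLN) (ZMod r)) hl1
        rwa [map_natCast, map_one] at this
      have h := htr ⟨l, hl⟩ hlpL P hP σ hσ
      rw [Finset.prod_eq_one fun r hr => ofUnitHom_natCast_unit_one (hone r hr) _, map_one,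
        one_mul, he] at h
      have h2 : ρ.trace σ = (l : A) + 1 := hj (by rw [h, map_add, map_natCast, map_one])
      rw [trace_residual, h2, map_add, map_natCast, map_one])⟩
  -- the point in the coefficients
  let E : Finset ℕ := (p * L).primeFactors
  have hpE : p ∈ E := Nat.mem_primeFactors.2
    ⟨hp, dvd_mul_right _ _, mul_ne_zero hp.ne_zero (NeZero.ne L)⟩
  have hNE : ∀ r : ℕ, r.Prime → r ∣ N → r ∈ E := fun r hr h => Nat.mem_primeFactors.2
    ⟨hr, (hNL r hr h).mul_left p, mul_ne_zero hp.ne_zero (NeZero.ne L)⟩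
  let incl : heckeAlgebra N 2 (E : Set ℕ) →+* K := θ.comp
    (Subalgebra.inclusion (CuspForm.heckeAlgebra_mono (Set.empty_subset (E : Set ℕ)))).toRingHom
  have hT : ∀ (ℓ : ℕ) (hℓ : ℓ.Prime) (hℓN : ¬ ℓ ∣ N) (hℓE : ℓ ∉ (E : Set ℕ)),
      ∀ B : ValuationSubring Qbar, B.LiesOverPrime ℓ → ∀ τ : Γℚ, B.IsFrobeniusAt τ ℓ →
        incl (heckeAlgebra.T hℓ hℓN hℓE) = j (ρ.trace τ) := fun ℓ hℓ hℓN hℓE B hB τ hτ => by
    have hℓpL : ¬ ℓ ∣ p * L := fun h => hℓE
      (Nat.mem_primeFactors.2 ⟨hℓ, h, mul_ne_zero hp.ne_zero (NeZero.ne L)⟩)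
    show θ (heckeAlgebra.T hℓ hℓN (Set.notMem_empty ℓ)) = _
    rw [hθT, hval ℓ (hℓ.coprime_iff_not_dvd.2 fun h => hℓpL (h.mul_left p)),
      htr ⟨ℓ, hℓ⟩ hℓpL B hB τ hτ]
  have hmem : ∀ a, incl a ∈ j.range := by
    rintro ⟨a, ha⟩
    induction ha using Algebra.adjoin_induction with
    | mem a ha =>
      rcases ha with ⟨ℓ, hℓ, hℓN, hℓE, rfl⟩ | ⟨r, hrN, hr, hrE, rfl⟩
      · obtain ⟨B, hB⟩ := Basic.exists_liesOverPrime hℓ
        obtain ⟨τ, hτ⟩ := Basic.exists_isFrobeniusAt hℓ B hB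
        exact ⟨_, (hT ℓ hℓ hℓN hℓE B hB τ hτ).symm⟩
      · exact absurd (hNE r hr hrN) (by exact_mod_cast hrE)
    | algebraMap c =>
      refine ⟨(c : A), ?_⟩
      rw [map_intCast]
      exact (map_intCast incl c).symm
    | add a b _ _ iha ihb =>
      have h := add_mem iha ihb
      rwa [← map_add] at h
    | mul a b _ _ iha ihb =>
      have h := mul_mem iha ihb
      rwa [← map_mul] at h
  obtain ⟨χ₀, hχ₀⟩ := exists_ringHom_of_mem_range j hj incl hmem
  have htr₀ : ∀ (ℓ : ℕ) (hℓ : ℓ.Prime) (hℓN : ¬ ℓ ∣ N) (hℓE : ℓ ∉ (E : Set ℕ)),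
      ∀ B : ValuationSubring Qbar, B.LiesOverPrime ℓ → ∀ τ : Γℚ, B.IsFrobeniusAt τ ℓ →
        χ₀ (heckeAlgebra.T hℓ hℓN hℓE) = ρ.trace τ := fun ℓ hℓ hℓN hℓE B hB τ hτ =>
    hj ((hχ₀ _).trans (hT ℓ hℓ hℓN hℓE B hB τ hτ))
  obtain ⟨Lf⟩ := nonempty_pointLift (ρbar := ρ.residual) padicAttachment hp2 hpA hirr hdr hpE hNE
    (pointInputs_holds N hp2) χ₀ fun ℓ hℓ hℓN hℓE B hB τ hτ => by
      rw [htr₀ ℓ hℓ hℓN hℓE B hB τ hτ, ← trace_residual]
      exact (IsLocalRing.ResidueField.map_id_apply _).symm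
  set f := Lf.ι.toRingHom with hfdef
  have hloc : IsLocalHom f := isLocalHom_of_injective_algHom Lf.ι Lf.ι_injective
  have hirr₂ : (ρ.baseChangeAlong f hloc).residual.IsAbsolutelyIrreducible :=
    residual_isAbsolutelyIrreducible_baseChange ρ f hloc hirr
  have he : (ρ.baseChangeAlong f hloc).IsEquiv Lf.r := by
    refine adic_isEquiv_of_charpoly_eq hirr₂
      (adic_charpoly_eq_of_frobenius _ _ E fun ℓ hℓ hℓE B hB τ hτ => ?_)
    have hℓN : ¬ ℓ ∣ N := fun h => hℓE (hNE ℓ hℓ h)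
    have hℓp : ℓ ≠ p := fun h => hℓE (h ▸ hpE)
    rw [adic_charpoly_eq, adic_charpoly_eq, det_frobenius _ hp Lf.det hℓ hℓp hB hτ,
      det_frobenius _ hp (detIsCyclotomic_baseChange _ hloc hdet) hℓ hℓp hB hτ,
      trace_baseChangeAlong_apply, Lf.trace_frob hℓ hℓN (by exact_mod_cast hℓE) hB hτ,
      htr₀ ℓ hℓ hℓN (by exact_mod_cast hℓE) B hB τ hτ]
    rfl
  have h : (ρ.baseChangeAlong f hloc).IsUnipotentOnInertiaAt q := fun B hB τ hτ => by
    obtain ⟨e'⟩ := he
    rw [DeformLocal.charpoly_eq_of_equiv e'.symm τ, Lf.unipotent q hqpr hqp hqN B hB τ hτ]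
  exact isUnipotentOnInertiaAt_of_jointly_injective f hloc f hloc
    (fun a ha _ => Lf.ι_injective (ha.trans (map_zero _).symm)) h h

end FermatLib.MLT.Odd

end
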