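import Fermat.Agent.MLT.Odd.LevelData
import Fermat.Agent.Galois.FlatBaseChange

/-!
# An `OddLevel` from the data of a level
-/

set_option autoImplicit false
set_option linter.style.haveILetI false

noncomputable section

namespace FermatLib.MLT.Odd

open IsLocalRing FermatLib.Galois FermatLib.Galois.DeformLocal

variable {O : Type} [CommRing O] [IsDomain O] [IsDiscreteValuationRing O] {p : ℕ} [Fact p.Prime]
  {ρbar : ResidualGaloisRep (ResidueField O)} {S : OddPrimes p ρbar} {Q Q₀ : Finset ℕ}
  {ι ι₀ : Type} [Finite ι] [Nonempty ι] [Finite ι₀] [Nonempty ι₀]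

/-- A representation over the level ring inducing the systems. -/
structure LevelRep (x : ι → OddSystem S Q) : Type 1 where
  ρ : GaloisRepAdic (LevelRing x)
  lift : IsOddLift S Q ρ
  isLiftOf : IsLiftOf ρbar ρ
  trace_eq : ∀ σ, ρ.trace σ = levelTrace x σ
  generated : Algebra.adjoin O (Set.range ρ.trace) = ⊤
  equiv : ∀ i, (ρ.baseChangeAlong (levelEval x i : LevelRing x →+* (x i).O')
    (levelEval_isLocalHom x i)).IsEquiv (x i).r

theorem nonempty_levelRep [IsAdicComplete (maximalIdeal O) O] [Finite (ResidueField O)]
    (hp2 : p ≠ 2) (hirr : ρbar.IsAbsolutelyIrreducible) (x : ι → OddSystem S Q) :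
    Nonempty (LevelRep x) := by
  obtain ⟨ρ, h1, h2, h3, h4, h5⟩ := exists_levelRep x (Fact.out : p.Prime) hp2 hirr
  exact ⟨⟨ρ, h1, h2, h3, h4, h5⟩⟩

variable {x : ι → OddSystem S Q} {x₀ : ι₀ → OddSystem S Q₀} {nQ N N₀ : ℕ} {d : OddVariant → ℕ}
  {tp : S.TamePairs} {ζ : ℕ → O}

namespace LevelData

variable (D : LevelData S x nQ N d tp ζ)

theorem map_diamAug (v : OddVariant) :
    ((maximalIdeal O).map (algebraMap O (LevelRing x)) ⊔
        Ideal.span (Set.range fun i => D.δ i - 1)).map (D.mods v).action.toRingHom =
      (D.mods v).diamAug D.δ := by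
  rw [Ideal.map_sup, Ideal.map_map, Ideal.map_span, ← Set.range_comp, SystemModule.diamAug,
    show (D.mods v).action.toRingHom.comp (algebraMap O (LevelRing x)) =
      algebraMap O (D.mods v).T from (D.mods v).action.comp_algebraMap]
  congr 2
  exact congrArg Set.range (funext fun i => by
    show (D.mods v).action (D.δ i - 1) = _
    rw [map_sub, map_one])

theorem mem_mod_iff (v : OddVariant) (m : (D.mods v).M) :
    (letI := (D.mods v).moduleLevel; m ∈ (maximalIdeal O).map (algebraMap O (LevelRing x)) •
      (⊤ : Submodule (LevelRing x) (D.mods v).M)) ↔ m ∈ (D.mods v).modVarpi := by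
  refine (mem_smul_top_compHom (D.mods v).action.toRingHom _ m).trans ?_
  rw [Ideal.map_map, show (D.mods v).action.toRingHom.comp (algebraMap O (LevelRing x)) =
      algebraMap O (D.mods v).T from (D.mods v).action.comp_algebraMap]
  exact Iff.rfl

/-- The identification modulo `𝔪` over the level ring. -/
def θLevel :
    letI := (D.mods .std).moduleLevel
    letI := (D.mods .chi).moduleLevel
    ((D.mods .std).M ⧸ (maximalIdeal O).map (algebraMap O (LevelRing x)) •
        (⊤ : Submodule (LevelRing x) (D.mods .std).M)) ≃ₗ[LevelRing x]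
      ((D.mods .chi).M ⧸ (maximalIdeal O).map (algebraMap O (LevelRing x)) •
        (⊤ : Submodule (LevelRing x) (D.mods .chi).M)) :=
  letI := (D.mods .std).moduleLevel
  letI := (D.mods .chi).moduleLevel
  let e₁ := QuotientAddGroup.quotientAddEquivOfEq
    (AddSubgroup.ext (D.mem_mod_iff .std) :
      ((maximalIdeal O).map (algebraMap O (LevelRing x)) •
        (⊤ : Submodule (LevelRing x) (D.mods .std).M)).toAddSubgroup =
          (D.mods .std).modVarpi.toAddSubgroup)
  let e₂ := QuotientAddGroup.quotientAddEquivOfEq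
    (AddSubgroup.ext (D.mem_mod_iff .chi) :
      ((maximalIdeal O).map (algebraMap O (LevelRing x)) •
        (⊤ : Submodule (LevelRing x) (D.mods .chi).M)).toAddSubgroup =
          (D.mods .chi).modVarpi.toAddSubgroup)
  let e : ((D.mods .std).M ⧸ (maximalIdeal O).map (algebraMap O (LevelRing x)) •
        (⊤ : Submodule (LevelRing x) (D.mods .std).M)) ≃+
      ((D.mods .chi).M ⧸ (maximalIdeal O).map (algebraMap O (LevelRing x)) •
        (⊤ : Submodule (LevelRing x) (D.mods .chi).M)) := e₁.trans (D.θ.trans e₂.symm)
  e.toLinearEquiv fun a y => by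
    obtain ⟨m, rfl⟩ := Submodule.Quotient.mk_surjective _ y
    refine e₂.injective ?_
    show e₂ (e₂.symm (D.θ (e₁ (Submodule.Quotient.mk (a • m))))) = _
    rw [AddEquiv.apply_symm_apply]
    obtain ⟨n, hn⟩ := Submodule.Quotient.mk_surjective _ (e (Submodule.Quotient.mk m))
    rw [← hn]
    refine (D.θ_trace.map_action_self a (Submodule.Quotient.mk m)).trans ?_
    have h := congrArg e₂ hn
    rw [show e (Submodule.Quotient.mk m) = e₂.symm (D.θ (e₁ (Submodule.Quotient.mk m))) from rfl,
      AddEquiv.apply_symm_apply] at h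
    exact congrArg (fun z : (D.mods .chi).red.M => (D.mods .chi).red.action a • z) h.symm

variable [IsAdicComplete (maximalIdeal O) O] [Finite (ResidueField O)]

/-- **The level.** -/
def toLevel (ρ : LevelRep x) : OddLevel S Q nQ N d tp ζ :=
  letI : ∀ v, Module (LevelRing x) (D.mods v).M := fun v => (D.mods v).moduleLevel
  { R := LevelRing x
    residue_surjective := levelRing_residue_surjective x
    ρ := ρ.ρ
    lift := ρ.lift
    isLiftOf := ρ.isLiftOf
    generated := ρ.generated
    δ := D.δ
    δ_pow := fun i => levelEval_ext x fun j => by rw [map_pow, map_one, D.δ_pow]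
    δ_residue := fun i => by
      rw [mem_maximalIdeal, mem_nonunits_iff, levelRing_isUnit_iff x (c := 0) fun j => by
        rw [map_sub, map_sub, map_one, map_one, D.δ_residue, sub_self, map_zero, map_zero]]
      exact not_isUnit_zero
    M := fun v => (D.mods v).M
    free := fun v => by
      obtain ⟨b, hb⟩ := D.free v
      refine ⟨b, ?_⟩
      convert hb using 1
      funext c
      refine Finset.sum_congr rfl fun j _ => Finset.sum_congr rfl fun a _ => ?_
      show (D.mods v).action (algebraMap O (LevelRing x) (c j a) *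
        ∏ i, D.δ i ^ (a i : ℕ)) • b j = _
      rw [map_mul, AlgHom.commutes, map_prod]
      simp only [map_pow]
    std_T := fun q m => by
      show (D.mods .std).action (ρ.ρ.trace (tp.atT q).gen - 2) • m = 0
      rw [(D.mods .std).action_eq (b := 0) fun j => by
        rw [map_zero, map_sub, map_ofNat, ρ.trace_eq, levelEval_levelTrace, D.std_T, sub_self],
        zero_smul]
    chi_T := fun q m => by
      show (D.mods .chi).action (ρ.ρ.trace (tp.atT q).gen -
        algebraMap O (LevelRing x) (ζ q + Ring.inverse (ζ q))) • m = 0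
      rw [(D.mods .chi).action_eq (b := 0) fun j => by
        rw [map_zero, map_sub, AlgHom.commutes, ρ.trace_eq, levelEval_levelTrace, D.chi_T,
          sub_self], zero_smul]
    θ := D.θLevel
    up := fun r =>
      { toFun := D.up r
        map_add' := map_add (D.up r)
        map_smul' := fun a v => (D.up_trace r).map_action_self a v }
    up_injective_mod := fun r hr v hv a => by
      rw [mem_smul_top_compHom, D.map_diamAug]
      refine D.up_injective_mod r hr v ?_ a
      rw [← D.map_diamAug, ← mem_smul_top_compHom]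
      exact hv
    down := fun r =>
      { toFun := D.down r
        map_add' := map_add (D.down r)
        map_smul' := fun a m => (D.down_trace r).map_action_self a m }
    down_surjective := fun r hr => D.down_surjective r hr
    G := D.G
    down_up := fun r hr v a => D.down_up r hr v a
    det_G := fun r => by
      rw [zCoord, ρ.trace_eq]
      exact D.det_G r
    coker_F := fun r m => by
      obtain ⟨v, hv⟩ := D.coker_F r m
      refine ⟨v, hv.trans ?_⟩
      show _ = (D.mods .std).action (zCoord S (tp.atF r) ρ.ρ) • m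
      rw [zCoord, ρ.trace_eq]
    old_F := fun r hr a ha m => by
      show (D.mods (.old r)).action a • m = 0
      rw [(D.mods (.old r)).action_eq (b := 0) fun j => by
        rw [map_zero, levelEval_eq_zero_of_vanishesWhere x ha
          (isUnramifiedAt_of_isEquiv ⟨(ρ.equiv _).some.symm⟩ (D.old_F r hr j))], zero_smul]
    coker_p := fun hc a ha m => by
      obtain ⟨v, hv⟩ := D.coker_p hc ((D.mods .std).action a) (fun j hj => by
        rw [SystemModule.ev_action]
        exact levelEval_eq_zero_of_vanishesWhere x ha
          (MLT.isStrictOrdinaryAt_of_equiv (ρ.equiv _).some.symm hj)) m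
      exact ⟨v, hv⟩
    branch_p := fun _ a b ha hb => levelEval_ext x fun j => by
      rw [map_mul, map_zero]
      by_cases h : ((levelPoint x j).rep ρ.ρ).IsStrictOrdinaryAt p
      · rw [levelEval_eq_zero_of_vanishesWhere x ha h, zero_mul]
      · rw [levelEval_eq_zero_of_vanishesWhere x hb h, mul_zero] }

end LevelData

theorem LevelDataHom.mem_ker {D : LevelData S x nQ N d tp ζ} {D₀ : LevelData S x₀ 0 N₀ d tp ζ}
    (h : LevelDataHom D D₀) (v : OddVariant) (m : (D.mods v).M) (hm : h.πM v m = 0) :
    letI := (D.mods v).moduleLevel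
    m ∈ Ideal.span (Set.range fun i => D.δ i - 1) • (⊤ : Submodule (LevelRing x) (D.mods v).M) := by
  refine (mem_smul_top_compHom (D.mods v).action.toRingHom _ m).2 ?_
  rw [Ideal.map_span, ← Set.range_comp]
  convert h.ker_πM v m hm using 5
  rename_i i
  show (D.mods v).action (D.δ i - 1) = _
  rw [map_sub, map_one]

variable [IsAdicComplete (maximalIdeal O) O] [Finite (ResidueField O)]

/-- The map of levels. -/
def LevelDataHom.toLevelHom {D : LevelData S x nQ N d tp ζ} {D₀ : LevelData S x₀ 0 N₀ d tp ζ}
    (h : LevelDataHom D D₀) (ρ : LevelRep x) (ρ₀ : LevelRep x₀) :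
    OddLevelHom (D.toLevel ρ) (D₀.toLevel ρ₀) where
  π := h.π
  π_surjective := (AlgHom.range_eq_top h.π).1 <| by
    rw [eq_top_iff, ← adjoin_levelTrace x₀, Algebra.adjoin_le_iff]
    rintro _ ⟨σ, rfl⟩
    exact ⟨levelTrace x σ, h.π_trace σ⟩
  π_trace σ := by
    show h.π (ρ.ρ.trace σ) = ρ₀.ρ.trace σ
    rw [ρ.trace_eq, ρ₀.trace_eq, h.π_trace]
  π_δ := h.π_δ
  πM := h.πM
  πM_smul v a m := (h.πM_trace v).map_action h.subset h.π h.π_trace a m
  πM_surjective := h.πM_surjective
  ker_πM v m hm := h.mem_ker v m hm

end FermatLib.MLT.Odd
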