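import Fermat.Agent.MLT.Odd.Defs
import Mathlib.RingTheory.Finiteness.Basic
import Mathlib.RingTheory.DiscreteValuationRing.Basic
import Mathlib.RingTheory.AdicCompletion.Basic

/-!
# The levels fed into patching

An `OddLevel` is one Taylor–Wiles level: a ring `R` generated by traces of a lift, the diamond
elements, and the Hecke modules with their relations.  An `OddLevelHom` maps it to level zero.
The modules are produced from cohomology; the patching argument only uses these fields.
-/

set_option autoImplicit false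

namespace FermatLib.MLT.Odd

open IsLocalRing

local notation "Γℚ" => (AlgebraicClosure ℚ ≃ₐ[ℚ] AlgebraicClosure ℚ)

/-- The modules of a level: the full one, the twisted one at `T`, and the old ones at `r`. -/
inductive OddVariant : Type
  | std
  | chi
  | old (r : ℕ)

variable {O : Type} [CommRing O] [IsDomain O] [IsDiscreteValuationRing O] {p : ℕ}
  {ρbar : ResidualGaloisRep (ResidueField O)}

/-- The primes at which an old module is used. -/
def OddPrimes.HasOld (S : OddPrimes p ρbar) (r : ℕ) : Prop :=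
  r ∈ S.F ∨ (r = p ∧ S.pCase = PCase.mixed)

/-- A point of `R` with values in a finite extension. -/
structure OddPoint (O : Type) [CommRing O] [IsLocalRing O] (R : Type) [CommRing R] [IsLocalRing R]
    [Algebra O R] : Type 1 where
  O' : Type
  [instCommRing : CommRing O']
  [instIsDomain : IsDomain O']
  [instDVR : IsDiscreteValuationRing O']
  [instComplete : IsAdicComplete (maximalIdeal O') O']
  [instFiniteResidue : Finite (ResidueField O')]
  [instCharZero : CharZero O']
  [instAlgebra : Algebra O O']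
  [instModuleFinite : Module.Finite O O']
  toHom : R →ₐ[O] O'
  isLocalHom : IsLocalHom (toHom : R →+* O')

attribute [instance] OddPoint.instCommRing OddPoint.instIsDomain OddPoint.instDVR
  OddPoint.instComplete OddPoint.instFiniteResidue OddPoint.instCharZero OddPoint.instAlgebra
  OddPoint.instModuleFinite

/-- The representation at a point. -/
noncomputable def OddPoint.rep {R : Type} [CommRing R] [IsLocalRing R] [Algebra O R]
    (x : OddPoint O R) (ρ : GaloisRepAdic R) : GaloisRepAdic x.O' :=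
  ρ.baseChangeAlong (x.toHom : R →+* x.O') x.isLocalHom

/-- `a` vanishes at all points whose representation has the property `P`. -/
def VanishesWhere {R : Type} [CommRing R] [IsLocalRing R] [Algebra O R] (ρ : GaloisRepAdic R)
    (P : ∀ (A : Type) [CommRing A] [IsLocalRing A], GaloisRepAdic A → Prop) (a : R) : Prop :=
  ∀ x : OddPoint O R, P x.O' (x.rep ρ) → x.toHom a = 0

/-- `M` is free of rank `d` over the diamond group algebra. -/
def IsFreeOverDiamonds {R : Type} [CommRing R] [Algebra O R] {r : ℕ} (δ : Fin r → R) (N d : ℕ)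
    (M : Type) [AddCommGroup M] [Module R M] : Prop :=
  ∃ b : Fin d → M, Function.Bijective fun c : Fin d → (Fin r → Fin N) → O =>
    ∑ j, ∑ a : Fin r → Fin N, (algebraMap O R (c j a) * ∏ i, δ i ^ (a i : ℕ)) • b j

/-- One level. `N` is the order of the diamond group in each of the `nQ` directions. -/
structure OddLevel (S : OddPrimes p ρbar) (Q : Finset ℕ) (nQ N : ℕ) (d : OddVariant → ℕ)
    (tp : S.TamePairs) (ζ : ℕ → O) : Type 1 where
  R : Type
  [instCommRing : CommRing R]
  [instLocal : IsLocalRing R]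
  [instAlgebra : Algebra O R]
  [instLocalHom : IsLocalHom (algebraMap O R)]
  [instFinite : Module.Finite O R]
  residue_surjective : Function.Surjective fun c : O => residue R (algebraMap O R c)
  ρ : GaloisRepAdic R
  lift : IsOddLift S Q ρ
  isLiftOf : IsLiftOf ρbar ρ
  generated : Algebra.adjoin O (Set.range ρ.trace) = ⊤
  δ : Fin nQ → R
  δ_pow : ∀ i, δ i ^ N = 1
  δ_residue : ∀ i, δ i - 1 ∈ maximalIdeal R
  M : OddVariant → Type
  [instAddCommGroup : ∀ v, AddCommGroup (M v)]
  [instModule : ∀ v, Module R (M v)]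
  free : ∀ v, IsFreeOverDiamonds (O := O) δ N (d v) (M v)
  std_T : ∀ q : S.T, ∀ m : M .std, (ρ.trace (tp.atT q).gen - 2) • m = 0
  chi_T : ∀ q : S.T, ∀ m : M .chi,
    (ρ.trace (tp.atT q).gen - algebraMap O R (ζ q + Ring.inverse (ζ q))) • m = 0
  θ : (M .std ⧸ (((maximalIdeal O).map (algebraMap O R)) • (⊤ : Submodule R (M .std)))) ≃ₗ[R]
    (M .chi ⧸ (((maximalIdeal O).map (algebraMap O R)) • (⊤ : Submodule R (M .chi))))
  up : ∀ r : ℕ, (Fin (S.kap r) → M (.old r)) →ₗ[R] M .std
  up_injective_mod : ∀ r, S.HasOld r → ∀ v,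
    up r v ∈ ((maximalIdeal O).map (algebraMap O R) ⊔ Ideal.span (Set.range fun i => δ i - 1)) •
        (⊤ : Submodule R (M .std)) →
      ∀ a, v a ∈ ((maximalIdeal O).map (algebraMap O R) ⊔
        Ideal.span (Set.range fun i => δ i - 1)) • (⊤ : Submodule R (M (.old r)))
  down : ∀ r : ℕ, M .std →ₗ[R] (Fin (S.kap r) → M (.old r))
  down_surjective : ∀ r ∈ S.F, Function.Surjective (down r)
  G : ∀ r : ℕ, Matrix (Fin (S.kap r)) (Fin (S.kap r)) R
  down_up : ∀ r ∈ S.F, ∀ v a, down r (up r v) a = ∑ b, G r a b • v b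
  det_G : ∀ r : S.F, zCoord S (tp.atF r) ρ ∣ (G r).det
  coker_F : ∀ r : S.F, ∀ m : M .std, zCoord S (tp.atF r) ρ • m ∈ LinearMap.range (up r)
  old_F : ∀ r ∈ S.F, ∀ a, VanishesWhere (O := O) ρ (fun _ _ _ ρx => ρx.IsUnramifiedAt r) a →
    ∀ m : M (.old r), a • m = 0
  coker_p : S.pCase = PCase.mixed → ∀ a,
    VanishesWhere (O := O) ρ (fun _ _ _ ρx => ρx.IsStrictOrdinaryAt p) a →
      ∀ m : M .std, a • m ∈ LinearMap.range (up p)
  branch_p : S.pCase = PCase.mixed → ∀ a b,
    VanishesWhere (O := O) ρ (fun _ _ _ ρx => ρx.IsStrictOrdinaryAt p) a →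
      VanishesWhere (O := O) ρ (fun _ _ _ ρx => ¬ ρx.IsStrictOrdinaryAt p) b → a * b = 0

attribute [instance] OddLevel.instCommRing OddLevel.instLocal OddLevel.instAlgebra
  OddLevel.instLocalHom OddLevel.instFinite OddLevel.instAddCommGroup OddLevel.instModule

variable {S : OddPrimes p ρbar} {Q Q₀ : Finset ℕ} {nQ N N₀ : ℕ} {d : OddVariant → ℕ}
  {tp : S.TamePairs} {ζ : ℕ → O}

/-- The map from a level to level zero. -/
structure OddLevelHom (L : OddLevel S Q nQ N d tp ζ) (L₀ : OddLevel S Q₀ 0 N₀ d tp ζ) : Type where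
  π : L.R →ₐ[O] L₀.R
  π_surjective : Function.Surjective π
  π_trace : ∀ σ, π (L.ρ.trace σ) = L₀.ρ.trace σ
  π_δ : ∀ i, π (L.δ i) = 1
  πM : ∀ v, L.M v →+ L₀.M v
  πM_smul : ∀ v (a : L.R) (m : L.M v), πM v (a • m) = π a • πM v m
  πM_surjective : ∀ v, Function.Surjective (πM v)
  ker_πM : ∀ v (m : L.M v), πM v m = 0 →
    m ∈ Ideal.span (Set.range fun i => L.δ i - 1) • (⊤ : Submodule L.R (L.M v))

end FermatLib.MLT.Odd
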