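import Fermat.Agent.MLT.Odd.SystemModule
import Fermat.Agent.MLT.Odd.Levels

/-!
# The data of a level, per system

Everything an `OddLevel` needs, stated on modules with reduced algebras and on their systems.
-/

set_option autoImplicit false

noncomputable section

namespace FermatLib.MLT.Odd

open IsLocalRing

variable {O : Type} [CommRing O] [IsDomain O] [IsDiscreteValuationRing O] {p : ℕ} [Fact p.Prime]
  {ρbar : ResidualGaloisRep (ResidueField O)} {S : OddPrimes p ρbar} {Q Q₀ : Finset ℕ}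
  {ι ι₀ : Type}

namespace SystemModule

variable {x : ι → OddSystem S Q} {nQ : ℕ}

/-- The ideal generated by `𝔪` and the augmentation of the diamonds. -/
def diamAug (A : SystemModule x) (δ : Fin nQ → LevelRing x) : Ideal A.T :=
  (maximalIdeal O).map (algebraMap O A.T) ⊔ Ideal.span (Set.range fun i => A.action (δ i) - 1)

end SystemModule

/-- The data of one level. -/
structure LevelData (S : OddPrimes p ρbar) {Q : Finset ℕ} (x : ι → OddSystem S Q) (nQ N : ℕ)
    (d : OddVariant → ℕ) (tp : S.TamePairs) (ζ : ℕ → O) : Type 1 where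
  /-- The diamonds, with their values at the systems. -/
  δ : Fin nQ → LevelRing x
  δ_pow : ∀ i j, levelEval x j (δ i) ^ N = 1
  δ_residue : ∀ i j, residue (x j).O' (levelEval x j (δ i)) = 1
  mods : OddVariant → SystemModule x
  free : ∀ v, IsFreeOverDiamonds (O := O) (fun i => (mods v).action (δ i)) N (d v) (mods v).M
  std_T : ∀ (q : S.T) j, (x ((mods .std).sys j)).r.trace (tp.atT q).gen = 2
  chi_T : ∀ (q : S.T) j, (x ((mods .chi).sys j)).r.trace (tp.atT q).gen =
    algebraMap O _ (ζ q + Ring.inverse (ζ q))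
  θ : (mods .std).red.M ≃+ (mods .chi).red.M
  θ_trace : SystemModule.IsTraceMap (mods .std).red (mods .chi).red θ.toAddMonoidHom
  up : ∀ r, ((mods (.old r)).pow (S.kap r)).M →+ (mods .std).M
  up_trace : ∀ r, SystemModule.IsTraceMap ((mods (.old r)).pow (S.kap r)) (mods .std) (up r)
  up_injective_mod : ∀ r, S.HasOld r → ∀ v : Fin (S.kap r) → (mods (.old r)).M,
    up r v ∈ (mods .std).diamAug δ • (⊤ : Submodule (mods .std).T (mods .std).M) →
      ∀ a, v a ∈ (mods (.old r)).diamAug δ • (⊤ : Submodule (mods (.old r)).T (mods (.old r)).M)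
  down : ∀ r, (mods .std).M →+ ((mods (.old r)).pow (S.kap r)).M
  down_trace : ∀ r, SystemModule.IsTraceMap (mods .std) ((mods (.old r)).pow (S.kap r)) (down r)
  down_surjective : ∀ r ∈ S.F, Function.Surjective (down r)
  G : ∀ r, Matrix (Fin (S.kap r)) (Fin (S.kap r)) (LevelRing x)
  down_up : ∀ r ∈ S.F, ∀ (v : Fin (S.kap r) → (mods (.old r)).M) (a : Fin (S.kap r)),
    (down r (up r v) : Fin (S.kap r) → (mods (.old r)).M) a =
      ∑ b, (mods (.old r)).action (G r a b) • v b
  det_G : ∀ r : S.F,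
    levelTrace x (tp.atF r).frob - (S.ε r : LevelRing x) * (((r : ℕ) : LevelRing x) + 1) ∣
      (G r).det
  coker_F : ∀ (r : S.F) (m : (mods .std).M),
    (mods .std).action
      (levelTrace x (tp.atF r).frob - (S.ε r : LevelRing x) * (((r : ℕ) : LevelRing x) + 1)) • m ∈
        (up r).range
  old_F : ∀ r ∈ S.F, ∀ j, (x ((mods (.old r)).sys j)).r.IsUnramifiedAt r
  coker_p : S.pCase = PCase.mixed → ∀ a : (mods .std).T,
    (∀ j, (x ((mods .std).sys j)).r.IsStrictOrdinaryAt p → (mods .std).ev j a = 0) →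
      ∀ m : (mods .std).M, a • m ∈ (up p).range

/-- A map of the data of a level to the data of level zero. -/
structure LevelDataHom {x : ι → OddSystem S Q} {x₀ : ι₀ → OddSystem S Q₀} {nQ N N₀ : ℕ}
    {d : OddVariant → ℕ} {tp : S.TamePairs} {ζ : ℕ → O} (D : LevelData S x nQ N d tp ζ)
    (D₀ : LevelData S x₀ 0 N₀ d tp ζ) : Type where
  subset : Q₀ ⊆ Q
  π : LevelRing x →ₐ[O] LevelRing x₀
  π_trace : ∀ σ, π (levelTrace x σ) = levelTrace x₀ σ
  π_δ : ∀ i, π (D.δ i) = 1
  πM : ∀ v, (D.mods v).M →+ (D₀.mods v).M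
  πM_trace : ∀ v, SystemModule.IsTraceMap (D.mods v) (D₀.mods v) (πM v)
  πM_surjective : ∀ v, Function.Surjective (πM v)
  ker_πM : ∀ v (m : (D.mods v).M), πM v m = 0 →
    m ∈ Ideal.span (Set.range fun i => (D.mods v).action (D.δ i) - 1) •
      (⊤ : Submodule (D.mods v).T (D.mods v).M)

end FermatLib.MLT.Odd
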