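import Fermat.Agent.MLT.Odd.LevelRing
import Fermat.Prelude.Thm_IsLocalRing_isAdicComplete_of_module_finite

/-!
# Diamond values in the level ring

At a prime with distinct residual Frobenius eigenvalues, the inertia characters of the systems are
interpolated by one element of the level ring: if `trace r(τ) = d + d'` and
`trace r(τ φ) = d u + d' (trace r(φ) - u)`, with `u` the root of the Frobenius polynomial over a
fixed residual eigenvalue, then `d = (trace (τ φ) - trace τ * u') / (u - u')`.
-/

set_option autoImplicit false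
set_option linter.style.haveILetI false

noncomputable section

namespace FermatLib.MLT.Odd

open IsLocalRing Polynomial FermatLib.Galois FermatLib.Galois.DeformLocal FermatLib.MLT.HeckeRep

local notation "Γℚ" => (AlgebraicClosure ℚ ≃ₐ[ℚ] AlgebraicClosure ℚ)

/-- A simple residual root of a quadratic lifts. -/
theorem exists_quadratic_root {R : Type} [CommRing R] [IsLocalRing R]
    [IsAdicComplete (maximalIdeal R) R] (t c a : R) (ha : a ^ 2 - t * a + c ∈ maximalIdeal R)
    (hs : IsUnit (2 * a - t)) : ∃ u : R, u ^ 2 - t * u + c = 0 ∧ u - a ∈ maximalIdeal R := by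
  have hf : (X ^ 2 - C t * X + C c : R[X]).Monic := by monicity!
  have hev : (X ^ 2 - C t * X + C c : R[X]).eval a = a ^ 2 - t * a + c := by simp
  have hder : (X ^ 2 - C t * X + C c : R[X]).derivative.eval a = 2 * a - t := by
    simp [one_add_one_eq_two]
  obtain ⟨u, hu, hua⟩ := HenselianRing.is_henselian (I := maximalIdeal R) _ hf a
    (by rw [hev]; exact ha) (by rw [hder]; exact hs.map _)
  exact ⟨u, by simpa using hu.eq_zero, hua⟩

variable {O : Type} [CommRing O] [IsDomain O] [IsDiscreteValuationRing O]
  [IsAdicComplete (maximalIdeal O) O] {p : ℕ}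
  {ρbar : ResidualGaloisRep (ResidueField O)} {S : OddPrimes p ρbar} {Q : Finset ℕ}
  {ι : Type} [Finite ι] [Nonempty ι] (x : ι → OddSystem S Q)

/-- The level ring is complete. -/
theorem levelRing_isAdicComplete :
    IsAdicComplete (maximalIdeal (LevelRing x)) (LevelRing x) :=
  IsLocalRing.isAdicComplete_of_module_finite (𝒪 := O)

/-- **The diamond values are in the level ring.** `α`, `β` are the residual eigenvalues of `φ`. -/
theorem exists_levelDiamond {ρ : GaloisRepAdic (LevelRing x)}
    (hequiv : ∀ i, (ρ.baseChangeAlong (levelEval x i : LevelRing x →+* (x i).O')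
      (levelEval_isLocalHom x i)).IsEquiv (x i).r)
    (φ τ : Γℚ) {α β : ResidueField O} (hαβ : α ≠ β)
    (hchar : LinearMap.charpoly (ρbar.ρ φ) = (X - C α) * (X - C β))
    (d d' u : ∀ i, (x i).O')
    (hu : ∀ i, u i ^ 2 - (x i).r.trace φ * u i + LinearMap.det ((x i).r.ρ φ) = 0)
    (huα : ∀ i, residue (x i).O' (u i) = ResidueField.map (algebraMap O (x i).O') α)
    (hτ : ∀ i, (x i).r.trace τ = d i + d' i)
    (hτφ : ∀ i, (x i).r.trace (τ * φ) = d i * u i + d' i * ((x i).r.trace φ - u i)) :
    ∃ δ : LevelRing x, ∀ i, levelEval x i δ = d i := by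
  have := levelRing_isAdicComplete x
  have hloc := levelEval_isLocalHom x
  have htr : ∀ i σ, levelEval x i (ρ.trace σ) = (x i).r.trace σ := fun i σ =>
    (trace_baseChangeAlong _ (hloc i) ρ σ).symm.trans (Deform.trace_eq_of_isEquiv (hequiv i) σ)
  have hdet : ∀ i, levelEval x i (LinearMap.det (ρ.ρ φ)) = LinearMap.det ((x i).r.ρ φ) := fun i =>
    (det_baseChange_apply (levelEval x i : LevelRing x →+* (x i).O') (hloc i) ρ φ).symm.trans
      (det_eq_of_equiv (hequiv i).some φ).symm
  have htrbar : LinearMap.trace (ResidueField O) ρbar.V (ρbar.ρ φ) = α + β := by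
    have h1 := congrArg Polynomial.nextCoeff hchar
    rw [(monic_X_sub_C α).nextCoeff_mul (monic_X_sub_C β), nextCoeff_X_sub_C,
      nextCoeff_X_sub_C] at h1
    rw [LinearMap.trace_eq_matrix_trace _ (residualBasis ρbar),
      Matrix.trace_eq_neg_charpoly_nextCoeff, LinearMap.charpoly_toMatrix, h1]
    ring
  obtain ⟨a, ha⟩ := residue_surjective α
  have hmax : ∀ {y : LevelRing x}, (∀ i, residue (x i).O' (levelEval x i y) = 0) →
      y ∈ maximalIdeal (LevelRing x) := fun {y} hy => by
    rw [mem_maximalIdeal, mem_nonunits_iff,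
      levelRing_isUnit_iff x (c := 0) fun i => by rw [hy, map_zero, map_zero]]
    exact not_isUnit_zero
  have hres2 : ∀ i, residue (x i).O' (2 * u i - (x i).r.trace φ) =
      ResidueField.map (algebraMap O (x i).O') (α - β) := fun i => by
    rw [map_sub, map_mul, map_ofNat, huα, OddSystem.residue_trace, htrbar, map_add, map_sub]
    ring
  have hua : ∀ i, residue (x i).O' (algebraMap O (x i).O' a) = residue (x i).O' (u i) := fun i => by
    rw [huα, ← ha, ResidueField.map_residue]
  obtain ⟨v, hv, hva⟩ := exists_quadratic_root (ρ.trace φ) (LinearMap.det (ρ.ρ φ))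
    (algebraMap O (LevelRing x) a) (hmax fun i => by
      rw [map_add, map_sub, map_pow, map_mul, AlgHom.commutes, htr, hdet, map_add, map_sub,
        map_pow, map_mul, hua, ← map_pow, ← map_mul, ← map_sub, ← map_add, hu, map_zero]) (by
      obtain ⟨c, hc⟩ := residue_surjective (α - β)
      refine (levelRing_isUnit_iff x (c := c) fun i => ?_).2 ?_
      · rw [map_sub, map_mul, map_ofNat, AlgHom.commutes, htr, map_sub, map_mul, map_ofNat, hua,
          ← map_ofNat (residue (x i).O') 2, ← map_mul, ← map_sub, hres2, hc]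
      · rw [← residue_ne_zero_iff_isUnit, hc]
        exact sub_ne_zero.2 hαβ)
  -- the root is the given one in every system
  have hveq : ∀ i, levelEval x i v = u i := by
    intro i
    have h1 : (levelEval x i v - u i) *
        (levelEval x i v + u i - (x i).r.trace φ) = 0 := by
      have h := congrArg (levelEval x i) hv
      rw [map_add, map_sub, map_pow, map_mul, htr, hdet, map_zero] at h
      linear_combination h - hu i
    refine sub_eq_zero.1 ((mul_eq_zero.1 h1).resolve_right fun h2 => sub_ne_zero.2 hαβ ?_)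
    have hm : residue (x i).O' (levelEval x i v) = residue (x i).O' (u i) := by
      have := (hloc i)
      have h := map_nonunit (levelEval x i : LevelRing x →+* (x i).O') _ hva
      rw [← residue_eq_zero_iff, RingHom.coe_coe, map_sub, map_sub, AlgHom.commutes, hua,
        sub_eq_zero] at h
      exact h
    have h3 : residue (x i).O' (2 * u i - (x i).r.trace φ) = 0 := by
      rw [map_sub, map_mul, map_ofNat, two_mul]
      conv_lhs => arg 1; arg 1; rw [← hm]
      rw [← map_add, ← map_sub, h2, map_zero]
    rw [hres2] at h3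
    exact (map_eq_zero _).1 h3
  -- the linear system
  have hw : IsUnit (2 * v - ρ.trace φ) := by
    obtain ⟨c, hc⟩ := residue_surjective (α - β)
    refine (levelRing_isUnit_iff x (c := c) fun i => ?_).2 ?_
    · rw [map_sub, map_mul, map_ofNat, hveq, htr, hres2, hc]
    · rw [← residue_ne_zero_iff_isUnit, hc]
      exact sub_ne_zero.2 hαβ
  obtain ⟨w, hw⟩ := hw
  refine ⟨(ρ.trace (τ * φ) - ρ.trace τ * (ρ.trace φ - v)) * ↑w⁻¹, fun i => ?_⟩
  have hwu : levelEval x i (↑w⁻¹ : LevelRing x) * (2 * u i - (x i).r.trace φ) = 1 := by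
    rw [← hveq i, ← htr i φ, ← map_ofNat (levelEval x i) 2, ← map_mul, ← map_sub, ← map_mul,
      ← hw, Units.inv_mul, map_one]
  rw [map_mul, map_sub, map_mul, map_sub, htr, htr, htr, hveq, hτ, hτφ]
  linear_combination d i * hwu

end FermatLib.MLT.Odd
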