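import Fermat.Agent.MLT.Odd.GeneratorsDefs
import Fermat.Agent.MLT.Odd.Inputs

/-!
# The level of a set of primes, and points which are systems of that level
-/

set_option autoImplicit false

namespace FermatLib.MLT.Odd

open IsLocalRing CuspForm

local notation "Γℚ" => (AlgebraicClosure ℚ ≃ₐ[ℚ] AlgebraicClosure ℚ)

variable {O : Type} [CommRing O] [IsDomain O] [IsDiscreteValuationRing O]
  [IsAdicComplete (maximalIdeal O) O] [Finite (ResidueField O)] [CharZero O]
  {p : ℕ} [Fact p.Prime] {ρbar : ResidualGaloisRep (ResidueField O)}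

/-- The level: all the primes, and `p` unless the case is flat. -/
noncomputable def OddPrimes.level (S : OddPrimes p ρbar) : ℕ :=
  (∏ q ∈ S.all, q) * if S.pCase = PCase.flat then 1 else p

instance instNeZeroOddLevel (S : OddPrimes p ρbar) : NeZero S.level := ⟨by
  unfold OddPrimes.level
  refine mul_ne_zero (Finset.prod_ne_zero_iff.mpr fun q hq => (S.prime_of_mem q hq).ne_zero) ?_
  split_ifs
  exacts [one_ne_zero, (Fact.out : p.Prime).ne_zero]⟩

/-- `y` is a system of forms of level `S.level`. -/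
def IsSystemOfLevel (S : OddPrimes p ρbar) {A : Type} [CommRing A] [IsLocalRing A]
    (ρ : GaloisRepAdic A) : Prop :=
  ∃ θ : heckeAlgebra S.level 2 (insert p (S.all : Set ℕ)) →+* A,
    ∀ (ℓ : ℕ) (hℓ : ℓ.Prime) (hℓN : ¬ ℓ ∣ S.level) (hℓE : ℓ ∉ insert p (S.all : Set ℕ)),
      ∀ B : ValuationSubring (AlgebraicClosure ℚ), B.LiesOverPrime ℓ →
        ∀ σ : Γℚ, B.IsFrobeniusAt σ ℓ → ρ.trace σ = θ (heckeAlgebra.T hℓ hℓN hℓE)

end FermatLib.MLT.Odd
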