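import Fermat.Agent.MLT.Odd.LevelBuild
import Fermat.Agent.MLT.Odd.ProducerDefs

/-!
# The levels from their data

`exists_oddLevels_of_data` reduces the existence of the levels to data stated on the modules and
their systems.
-/

set_option autoImplicit false
set_option linter.style.haveILetI false

noncomputable section

namespace FermatLib.MLT.Odd

open IsLocalRing CuspForm

local notation "Γℚ" => (AlgebraicClosure ℚ ≃ₐ[ℚ] AlgebraicClosure ℚ)

variable {O : Type} [CommRing O] [IsDomain O] [IsDiscreteValuationRing O]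
  [IsAdicComplete (maximalIdeal O) O] [Finite (ResidueField O)] [CharZero O]
  {p : ℕ} [Fact p.Prime] {ρbar : ResidualGaloisRep (ResidueField O)}
  {S : OddPrimes p ρbar}

/-- An auxiliary point as a system. -/
def pointSystem {Q : Finset ℕ} (r : GaloisRepAdic O) (h : IsOddLift S ∅ r ∧ IsLiftOf ρbar r) :
    OddSystem S Q :=
  haveI : IsLocalHom (algebraMap O O) := isLocalHom_id O
  OddSystem.weaken (Finset.empty_subset Q)
    { O' := O, r := r, lift := h.1, isLiftOf := h.2 }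

theorem level_dvd_mem {q : ℕ} (hq : q.Prime) (h : q ∣ S.level) : q ∈ insert p (S.all : Set ℕ) := by
  unfold OddPrimes.level at h
  rcases (Nat.Prime.dvd_mul hq).1 h with h | h
  · obtain ⟨q', hq', hd⟩ := (Prime.dvd_finsetProd_iff hq.prime _).1 h
    rw [(Nat.prime_dvd_prime_iff_eq hq (S.prime_of_mem q' hq')).1 hd]
    exact Set.mem_insert_of_mem _ hq'
  · split_ifs at h
    · exact absurd (Nat.dvd_one.1 h) hq.ne_one
    · rw [(Nat.prime_dvd_prime_iff_eq hq (Fact.out : p.Prime)).1 h]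
      exact Set.mem_insert _ _

/-- Being a system of the level passes to points through a system. -/
theorem isSystemOfLevel_of_ker_le {ι : Type} [Finite ι] [Nonempty ι] {x : ι → OddSystem S ∅}
    (ρ : LevelRep x) (j : ι) (hj : IsSystemOfLevel S (x j).r) (y : OddPoint O (LevelRing x))
    (hy : ∀ a, levelEval x j a = 0 → y.toHom a = 0) : IsSystemOfLevel S (y.rep ρ.ρ) := by
  obtain ⟨θ, hθ⟩ := hj
  let e : LevelRing x →+* (x j).O' := levelEval x j
  have hval : ∀ t, θ t ∈ e.range := by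
    rintro ⟨t, ht⟩
    induction ht using Algebra.adjoin_induction with
    | mem u hu =>
      rcases hu with ⟨ℓ, hℓ, hℓN, hℓE, rfl⟩ | ⟨q, hqN, hq, hqE, rfl⟩
      · obtain ⟨B, hB⟩ := Basic.exists_liesOverPrime hℓ
        obtain ⟨σ, hσ⟩ := Basic.exists_isFrobeniusAt hℓ B hB
        exact ⟨levelTrace x σ, (levelEval_levelTrace x j σ).trans (hθ ℓ hℓ hℓN hℓE B hB σ hσ)⟩
      · exact absurd (level_dvd_mem hq hqN) hqE
    | algebraMap n =>
      exact ⟨(n : LevelRing x), (map_intCast e n).trans (map_intCast θ n).symm⟩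
    | add a b ha hb iha ihb =>
      exact (congrArg (· ∈ e.range) (map_add θ ⟨a, ha⟩ ⟨b, hb⟩)).mpr (add_mem iha ihb)
    | mul a b ha hb iha ihb =>
      exact (congrArg (· ∈ e.range) (map_mul θ ⟨a, ha⟩ ⟨b, hb⟩)).mpr (mul_mem iha ihb)
  let ybar : e.range →+* y.O' := e.rangeRestrict.liftOfSurjective e.rangeRestrict_surjective
    ⟨(y.toHom : LevelRing x →+* y.O'), fun a ha => hy a (congrArg Subtype.val ha)⟩
  refine ⟨ybar.comp (θ.codRestrict e.range hval), fun ℓ hℓ hℓN hℓE B hB σ hσ => ?_⟩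
  rw [OddPoint.rep, FermatLib.Galois.trace_baseChangeAlong, ρ.trace_eq]
  have h1 : θ.codRestrict e.range hval (heckeAlgebra.T hℓ hℓN hℓE) =
      e.rangeRestrict (levelTrace x σ) :=
    Subtype.ext ((hθ ℓ hℓ hℓN hℓE B hB σ hσ).symm.trans (levelEval_levelTrace x j σ).symm)
  rw [RingHom.comp_apply, h1]
  exact (RingHom.liftOfRightInverse_comp_apply e.rangeRestrict _
    (Function.rightInverse_surjInv e.rangeRestrict_surjective)
    ⟨(y.toHom : LevelRing x →+* y.O'), fun a ha => hy a (congrArg Subtype.val ha)⟩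
    (levelTrace x σ)).symm

/-- Points killed by the annihilator of a module all of whose systems are of the level. -/
theorem isSystemOfLevel_of_annihilator {ι : Type} [Finite ι] [Nonempty ι]
    {x : ι → OddSystem S ∅} (ρ : LevelRep x) (A : SystemModule x)
    (hA : ∀ j, IsSystemOfLevel S (x (A.sys j)).r) (y : OddPoint O (LevelRing x))
    (hy : letI := A.moduleLevel; ∀ a ∈ Module.annihilator (LevelRing x) A.M, y.toHom a = 0) :
    IsSystemOfLevel S (y.rep ρ.ρ) := by
  obtain ⟨j, hj⟩ := A.exists_sys_of_annihilator (y.toHom : LevelRing x →+* y.O') hy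
  exact isSystemOfLevel_of_ker_le ρ _ (hA j) y hj

/-- Elements vanishing at all the systems kill the module. -/
theorem SystemModule.action_smul_eq_zero {ι : Type} {Q : Finset ℕ}
    {x : ι → OddSystem S Q} (A : SystemModule x) {a : LevelRing x}
    (h : ∀ j, levelEval x (A.sys j) a = 0) (v : A.M) : A.action a • v = 0 := by
  rw [A.action_eq (b := 0) fun j => by rw [map_zero, h], zero_smul]

/-- The data of all the levels. -/
structure LevelSupply (S : OddPrimes p ρbar) (tp : S.TamePairs) {m : ℕ}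
    (pts : Fin m → GaloisRepAdic O) : Type 1 where
  d : OddVariant → ℕ
  ζ : ℕ → O
  avoid : Finset ℕ
  ζ_spec : ∀ q ∈ S.T, ζ q ^ p = 1 ∧ ζ q ≠ 1
  d_pos : 0 < d .std
  d_old : S.pCase = PCase.mixed → S.kap p * d (.old p) < d .std
  ι₀ : Type
  [finite₀ : Finite ι₀]
  [nonempty₀ : Nonempty ι₀]
  x₀ : ι₀ → OddSystem S ∅
  D₀ : LevelData S x₀ 0 1 d tp ζ
  xpt : Fin m → LevelRing x₀ →ₐ[O] O
  xpt_trace : ∀ i σ, xpt i (levelTrace x₀ σ) = (pts i).trace σ
  std_system : ∀ j, IsSystemOfLevel S (x₀ ((D₀.mods .std).sys j)).r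
  level : ∀ (n : ℕ) {r : ℕ} (qv : Fin r → ℕ), IsTWFamily S n qv → (∀ i, qv i ∉ avoid) →
    ∃ (ι : Type) (_ : Finite ι) (x : ι → OddSystem S (Finset.univ.image qv))
      (D : LevelData S x r (p ^ (n + 1)) d tp ζ), Nonempty (LevelDataHom D D₀) ∧
      (S.pCase = PCase.flat → S.F = ∅ → ¬ HasMinimalSeed S → ∀ j, ∃ q : S.T,
        (x ((D.mods .std).sys j)).r.trace (tp.atT q).frob ^ 2 =
          (((q : ℕ) : (x ((D.mods .std).sys j)).O') + 1) ^ 2)

/-- **The levels from their data.** -/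
theorem exists_oddLevels_of_data (hp2 : p ≠ 2) (hres : OddResidual p ρbar) (tp : S.TamePairs)
    {m : ℕ} (pts : Fin m → GaloisRepAdic O) (D : LevelSupply S tp pts) :
    ∃ (d : OddVariant → ℕ) (ζ : ℕ → O) (avoid : Finset ℕ),
      (∀ q ∈ S.T, ζ q ^ p = 1 ∧ ζ q ≠ 1) ∧ 0 < d .std ∧
      (S.pCase = PCase.mixed → S.kap p * d (.old p) < d .std) ∧
      ∃ (L₀ : OddLevel S ∅ 0 1 d tp ζ) (x : Fin m → L₀.R →ₐ[O] O),
        (∀ i σ, x i (L₀.ρ.trace σ) = (pts i).trace σ) ∧
        (∀ y : OddPoint O L₀.R, (∀ a ∈ Module.annihilator L₀.R (L₀.M .std), y.toHom a = 0) →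
          IsSystemOfLevel S (y.rep L₀.ρ)) ∧
        ∀ (n : ℕ) {r : ℕ} (qv : Fin r → ℕ), IsTWFamily S n qv → (∀ i, qv i ∉ avoid) →
          ∃ L : OddLevel S (Finset.univ.image qv) r (p ^ (n + 1)) d tp ζ,
            Nonempty (OddLevelHom L L₀) ∧
            (S.pCase = PCase.flat → S.F = ∅ → ¬ HasMinimalSeed S → ∀ v : L.M .std,
              (∏ q : S.T, (L.ρ.trace (tp.atT q).frob ^ 2 - (((q : ℕ) : L.R) + 1) ^ 2) ^ 2) • v = 0) := by
  haveI := D.finite₀
  haveI := D.nonempty₀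
  obtain ⟨ρ₀⟩ := nonempty_levelRep hp2 hres.absIrred D.x₀
  refine ⟨D.d, D.ζ, D.avoid, D.ζ_spec, D.d_pos, D.d_old, D.D₀.toLevel ρ₀, D.xpt,
    fun i σ => ?_, fun y hy => ?_, fun n r qv hqv havoid => ?_⟩
  · show D.xpt i (ρ₀.ρ.trace σ) = _
    rw [ρ₀.trace_eq, D.xpt_trace]
  · exact isSystemOfLevel_of_annihilator ρ₀ (D.D₀.mods .std) D.std_system y hy
  obtain ⟨ι, hfin, x, DL, ⟨h⟩, hzero⟩ := D.level n qv hqv havoid
  haveI : Nonempty ι := by
    by_contra hne
    rw [not_nonempty_iff] at hne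
    have h1 : (1 : LevelRing x) = 0 := levelEval_ext x fun i => hne.elim i
    have h2 := congrArg h.π h1
    rw [map_one, map_zero] at h2
    exact one_ne_zero h2
  obtain ⟨ρ⟩ := nonempty_levelRep hp2 hres.absIrred x
  refine ⟨DL.toLevel ρ, ⟨h.toLevelHom ρ ρ₀⟩, fun hc hF hmin v => ?_⟩
  refine (DL.mods .std).action_smul_eq_zero (fun j => ?_) v
  obtain ⟨q, hq⟩ := hzero hc hF hmin j
  show levelEval x _
    (∏ q : S.T, (ρ.ρ.trace (tp.atT q).frob ^ 2 - (((q : ℕ) : LevelRing x) + 1) ^ 2) ^ 2) = 0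
  rw [map_prod]
  refine Finset.prod_eq_zero (Finset.mem_univ q) ?_
  have key : levelEval x ((DL.mods .std).sys j)
      ((levelTrace x (tp.atT q).frob ^ 2 - (((q : ℕ) : LevelRing x) + 1) ^ 2) ^ 2) = 0 := by
    rw [map_pow, map_sub, map_pow, map_pow, map_add, map_natCast, map_one, levelEval_levelTrace,
      hq, sub_self, zero_pow two_ne_zero]
  rw [← ρ.trace_eq] at key
  exact key

end FermatLib.MLT.Odd
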