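import Fermat.Agent.MLT.Odd.Levels
import Fermat.Agent.MLT.Hecke.GammaHRing
import Mathlib.RingTheory.IntegralDomain
import Mathlib.Data.ZMod.Units

/-!
# The diamond group of a Taylor–Wiles level and freeness over diamonds

`TWGroup r N = (ℤ/N)^r`, the character to it from `(ℤ/M)ˣ` for primes `q i ≡ 1 (mod N)` dividing
`M`, and the translation of a basis over `O[Δ]` into `IsFreeOverDiamonds`.
-/

set_option autoImplicit false

noncomputable section

namespace FermatLib.MLT.Odd

/-- `(ℤ/N)^r`, written multiplicatively. -/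
abbrev TWGroup (r N : ℕ) : Type := Fin r → Multiplicative (ZMod N)

/-- The standard generators. -/
def twGen {r N : ℕ} (i : Fin r) : TWGroup r N := Pi.mulSingle i (Multiplicative.ofAdd 1)

theorem isPGroup_twGroup (r : ℕ) {p n : ℕ} : IsPGroup p (TWGroup r (p ^ n)) := fun g =>
  ⟨n, funext fun i => by
    rw [Pi.pow_apply, Pi.one_apply, ← ofAdd_toAdd (g i), ← ofAdd_nsmul]
    simp⟩

theorem prod_twGen_pow {r N : ℕ} [NeZero N] (a : Fin r → Fin N) :
    ∏ i, (twGen i : TWGroup r N) ^ (a i : ℕ) =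
      fun i => Multiplicative.ofAdd (((a i : ℕ) : ZMod N)) := by
  funext j
  rw [Finset.prod_apply, Finset.prod_eq_single j]
  · rw [Pi.pow_apply, twGen, Pi.mulSingle_eq_same, ← ofAdd_nsmul, nsmul_one]
  · intro i _ hij
    rw [Pi.pow_apply, twGen, Pi.mulSingle_eq_of_ne (Ne.symm hij), one_pow]
  · exact fun h => absurd (Finset.mem_univ j) h

theorem twGen_bijective (r N : ℕ) [NeZero N] :
    Function.Bijective fun a : Fin r → Fin N => ∏ i, (twGen i : TWGroup r N) ^ (a i : ℕ) := by
  simp only [prod_twGen_pow]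
  refine ⟨fun a b h => funext fun i => ?_, fun g => ?_⟩
  · have h' := congrArg ZMod.val (Multiplicative.ofAdd.injective (congrFun h i))
    rw [ZMod.val_natCast, ZMod.val_natCast, Nat.mod_eq_of_lt (a i).2,
      Nat.mod_eq_of_lt (b i).2] at h'
    exact Fin.ext h'
  · exact ⟨fun i => ⟨(Multiplicative.toAdd (g i)).val, ZMod.val_lt _⟩, funext fun i => by simp⟩

/-- An odd order kills `-1`. -/
theorem map_neg_one_of_odd {r M N : ℕ} (hN : Odd N) (δ : (ZMod M)ˣ →* TWGroup r N) :
    δ (-1) = 1 := by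
  funext i
  obtain ⟨k, hk⟩ := hN
  have h2 : δ (-1) i ^ 2 = 1 := by
    rw [← Pi.pow_apply, ← map_pow, neg_one_sq, map_one, Pi.one_apply]
  have hN' : δ (-1) i ^ N = 1 := by
    rw [← ofAdd_toAdd (δ (-1) i), ← ofAdd_nsmul]
    simp
  have h3 : δ (-1) i ^ (2 * k + 1) = 1 := (congrArg (δ (-1) i ^ ·) hk).symm.trans hN'
  rw [pow_succ, pow_mul, h2, one_pow, one_mul] at h3
  exact h3

/-- A surjection `(ℤ/q)ˣ → ℤ/N` for a prime `q ≡ 1 (mod N)`. -/
theorem exists_units_surjective {q N : ℕ} [NeZero N] (hq : q.Prime) (h : N ∣ q - 1) :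
    ∃ f : (ZMod q)ˣ →* Multiplicative (ZMod N), Function.Surjective f := by
  haveI : Fact q.Prime := ⟨hq⟩
  have hcard : Nat.card (ZMod q)ˣ = q - 1 := by
    rw [Nat.card_eq_fintype_card, ZMod.card_units_eq_totient, Nat.totient_prime hq]
  let e := zmodCyclicMulEquiv (G := (ZMod q)ˣ) (inferInstance)
  refine ⟨(AddMonoidHom.toMultiplicative (ZMod.castHom (hcard ▸ h) (ZMod N)).toAddMonoidHom).comp
    e.symm.toMonoidHom, ?_⟩
  intro x
  obtain ⟨y, hy⟩ := ZMod.castHom_surjective (hcard ▸ h : N ∣ Nat.card (ZMod q)ˣ)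
    (Multiplicative.toAdd x)
  exact ⟨e (Multiplicative.ofAdd y), by
    rw [← ofAdd_toAdd x, ← hy]
    simp⟩

variable {O : Type} [CommRing O] {R : Type} [CommRing R] [Algebra O R] {r N d : ℕ}
  {Δ : Type} [CommGroup Δ] {M : Type} [AddCommGroup M] [Module R M]
  [Module (DiamondRing O Δ) M]

omit [Algebra O R] in
theorem of_prod_pow_smul (g : Fin r → Δ) (δ : Fin r → R)
    (hact : ∀ i (m : M), MonoidAlgebra.of O Δ (g i) • m = δ i • m) (a : Fin r → ℕ) (m : M) :
    MonoidAlgebra.of O Δ (∏ i, g i ^ a i) • m = (∏ i, δ i ^ a i) • m := by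
  classical
  have key : ∀ s : Finset (Fin r), ∀ m : M,
      MonoidAlgebra.of O Δ (∏ i ∈ s, g i ^ a i) • m = (∏ i ∈ s, δ i ^ a i) • m := by
    intro s
    induction s using Finset.induction_on with
    | empty => intro m; simp only [Finset.prod_empty, map_one, one_smul]
    | insert i s his ih =>
      intro m
      rw [Finset.prod_insert his, Finset.prod_insert his, map_mul, mul_smul, mul_smul, ih]
      generalize (∏ j ∈ s, δ j ^ a j) • m = v
      induction a i generalizing v with
      | zero => simp only [pow_zero, map_one, one_smul]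
      | succ k ihk => rw [pow_succ, pow_succ, map_mul, mul_smul, mul_smul, hact, ihk]
  exact key _ m

/-- A basis over `O[Δ]` gives freeness over the diamonds. -/
theorem isFreeOverDiamonds_of_basis [Finite Δ] (g : Fin r → Δ) (δ : Fin r → R)
    (hg : Function.Bijective fun a : Fin r → Fin N => ∏ i, g i ^ (a i : ℕ))
    (hscalar : ∀ (c : O) (m : M), algebraMap O (DiamondRing O Δ) c • m = algebraMap O R c • m)
    (hact : ∀ i (m : M), MonoidAlgebra.of O Δ (g i) • m = δ i • m)
    (b : Module.Basis (Fin d) (DiamondRing O Δ) M) :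
    IsFreeOverDiamonds (O := O) δ N d M := by
  classical
  refine ⟨b, ?_⟩
  haveI := Fintype.ofFinite Δ
  let E : (Fin r → Fin N) ≃ Δ := Equiv.ofBijective _ hg
  let Φ : ((Fin r → Fin N) → O) ≃ DiamondRing O Δ :=
    ((Equiv.arrowCongr E (Equiv.refl O)).trans Finsupp.equivFunOnFinite.symm).trans
      (MonoidAlgebra.coeffLinearEquiv O).symm.toEquiv
  have hΦ : ∀ c : (Fin r → Fin N) → O, Φ c =
      ∑ a, algebraMap O (DiamondRing O Δ) (c a) * MonoidAlgebra.of O Δ (E a) := by
    intro c
    refine MonoidAlgebra.ext (Finsupp.ext fun x => ?_)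
    obtain ⟨a, rfl⟩ := E.surjective x
    simp only [← Algebra.smul_def, MonoidAlgebra.of_apply, MonoidAlgebra.smul_single,
      smul_eq_mul, mul_one]
    rw [MonoidAlgebra.coeff_sum, Finsupp.finsetSum_apply, Finset.sum_eq_single a]
    · simp [Φ]
    · intro a' _ ha'
      rw [MonoidAlgebra.coeff_single, Finsupp.single_eq_of_ne]
      exact fun h => ha' (E.injective h).symm
    · exact fun h => absurd (Finset.mem_univ a) h
  have hfun : (fun c : Fin d → (Fin r → Fin N) → O =>
      ∑ j, ∑ a : Fin r → Fin N, (algebraMap O R (c j a) * ∏ i, δ i ^ (a i : ℕ)) • b j) =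
      fun c => b.equivFun.symm fun j => Φ (c j) := by
    funext c
    rw [Module.Basis.equivFun_symm_apply]
    refine Finset.sum_congr rfl fun j _ => ?_
    rw [hΦ, Finset.sum_smul]
    refine Finset.sum_congr rfl fun a _ => ?_
    rw [mul_smul, mul_smul, ← of_prod_pow_smul g δ hact (fun i => (a i : ℕ)) (b j), hscalar]
    rfl
  rw [hfun]
  exact b.equivFun.symm.bijective.comp (Equiv.piCongrRight fun _ : Fin d => Φ).bijective

end FermatLib.MLT.Odd

end
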