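import Fermat.Agent.MLT.Odd.LiftSeed
import Fermat.Agent.MLT.WeaklyModular
import Fermat.Agent.Modular.Newforms.CharacterLift
import Fermat.Agent.Galois.AttachCyclotomic

/-!
# Lifting at 3 and 5 from modularity lifting at an odd prime

The point of a semistable curve satisfies the hypotheses of `isSystemOfLevel_of_target`; a point
of the Hecke algebra of the level of the problem is an eigenform with the eigenvalues of the curve.
-/

set_option autoImplicit false
set_option linter.style.haveILetI false

noncomputable section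

open IsLocalRing WeierstrassCurve CuspForm

namespace FermatLib.MLT.Odd

variable {p : ℕ} [Fact p.Prime]

/-- The level of the problem is squarefree. -/
theorem squarefree_level {O : Type} [CommRing O] [IsDomain O] [IsDiscreteValuationRing O]
    {ρbar : ResidualGaloisRep (ResidueField O)} (S : OddPrimes p ρbar) : Squarefree S.level := by
  classical
  have hall : Squarefree (∏ q ∈ S.all, q) :=
    Finset.squarefree_prod_of_pairwise_isCoprime (fun q hq r hr hqr =>
      Nat.coprime_iff_isRelPrime.mp
        ((Nat.coprime_primes (S.prime_of_mem q hq) (S.prime_of_mem r hr)).mpr hqr))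
      fun q hq => (S.prime_of_mem q hq).squarefree
  rw [OddPrimes.level]
  split_ifs
  · rwa [mul_one]
  · refine (Nat.squarefree_mul ?_).mpr ⟨hall, (Fact.out : p.Prime).squarefree⟩
    exact Nat.Coprime.prod_left fun q hq =>
      (Nat.coprime_primes (S.prime_of_mem q hq) Fact.out).mpr (S.ne_p q hq)

/-- A system of the level of the problem carrying the traces of the curve makes it weakly
modular. -/
theorem isWeaklyModular_of_isSystemOfLevel {W : WeierstrassCurve ℤ} (hΔ : W.Δ ≠ 0) {O : Type}
    [CommRing O] [IsDomain O] [IsDiscreteValuationRing O] [CharZero O]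
    {ρbar : ResidualGaloisRep (ResidueField O)} (S : OddPrimes p ρbar) (φ : ℤ_[p] →+* O)
    (hp : (p : O) ∈ maximalIdeal O) (h : IsSystemOfLevel S (pointRep W hΔ φ hp)) :
    IsWeaklyModular W := by
  classical
  obtain ⟨θ, hθ⟩ := h
  obtain ⟨f, χ, hf, hker, -, hT⟩ := Modular.Newforms.exists_eigenform_of_point θ
  refine ⟨S.level, insert p S.all, f, squarefree_level S, hf, fun ℓ hℓ hg hℓN hℓS => ?_⟩
  have hℓE : ℓ ∉ insert p (S.all : Set ℕ) := by simpa using hℓS
  have hℓp : ℓ ≠ p := fun h => hℓE (Set.mem_insert_iff.mpr (Or.inl h))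
  obtain ⟨A, hA⟩ := Basic.exists_liesOverPrime hℓ
  obtain ⟨σ, hσ⟩ := Basic.exists_isFrobeniusAt hℓ A hA
  have hmem : heckeAlgebra.T hℓ hℓN hℓE -
      ((W.apOfModel ℓ : ℤ) : ↥(heckeAlgebra S.level 2 (insert p (S.all : Set ℕ)))) ∈
        RingHom.ker θ := by
    rw [RingHom.mem_ker, map_sub, map_intCast, ← hθ ℓ hℓ hℓN hℓE A hA σ hσ,
      pointRep_trace_frobenius W hΔ φ hp hℓ hℓp hg hA hσ, sub_self]
  rw [← hker, RingHom.mem_ker, map_sub, map_intCast, sub_eq_zero] at hmem
  rw [hT ℓ hℓ hℓN hℓE, hmem]

end FermatLib.MLT.Odd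

end
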