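import Fermat.Agent.Galois.Deform.Mat
import Fermat.Agent.Galois.DeformLocal
import Fermat.Agent.Mazur.LocalTame

/-!
# Frobenius on unipotent tame inertia

If `(M σ - 1)² = 0` on inertia at `q ≠ p` for an adic matrix representation with residue
characteristic `p`, then `M (F σ F⁻¹) - 1 = q (M σ - 1)` for a Frobenius `F` at `q`.
-/

set_option autoImplicit false
set_option linter.style.haveILetI false

noncomputable section

namespace FermatLib.MLT.Odd

open IsLocalRing FermatLib.Galois.Deform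

local notation "Qbar" => AlgebraicClosure ℚ

/-- Powers of a unipotent element of square zero. -/
theorem one_add_pow_of_mul_self_eq_zero {R : Type*} [Ring R] {N : R} (h : N * N = 0) (k : ℕ) :
    (1 + N) ^ k = 1 + k • N := by
  induction k with
  | zero => simp
  | succ k ih =>
    rw [pow_succ, ih, succ_nsmul, mul_add, mul_one, add_mul, one_mul, smul_mul_assoc, h,
      smul_zero, add_zero, add_assoc]

/-- A Frobenius conjugates unipotent inertia to its `q`-th power. -/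
theorem matRep_conj_frobenius {A : Type} [CommRing A] [IsLocalRing A] [IsNoetherianRing A]
    {M : GQ →* M2 A} (hM : MatCont M) (hfin : ∀ n : ℕ, Finite (A ⧸ maximalIdeal A ^ n))
    {p q : ℕ} (hp : p.Prime) (hq : q.Prime) (hpq : p ≠ q) (hpA : (p : A) ∈ maximalIdeal A)
    {P : ValuationSubring Qbar} (hP : P.LiesOverPrime q)
    (hU : ∀ σ ∈ P.inertiaSubgroupIn ℚ, (M σ - 1) * (M σ - 1) = 0)
    {σ : GQ} (hσ : σ ∈ P.inertiaSubgroupIn ℚ) {F : GQ} (hF : P.IsFrobeniusAt F q) :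
    M (F * σ * F⁻¹) = 1 + q • (M σ - 1) := by
  have hpow : ∀ τ ∈ P.inertiaSubgroupIn ℚ, ∀ k : ℕ, M (τ ^ k) = 1 + k • (M τ - 1) := by
    intro τ hτ k
    conv_lhs => rw [map_pow, show M τ = 1 + (M τ - 1) by abel]
    exact one_add_pow_of_mul_self_eq_zero (hU τ hτ) k
  rw [← hpow σ hσ q]
  suffices h : ∀ n i j, M (F * σ * F⁻¹) i j - M (σ ^ q) i j ∈ maximalIdeal A ^ n by
    ext i j
    exact sub_eq_zero.mp (FermatLib.Galois.DeformLocal.eq_zero_of_forall_mem_pow fun n => h (n + 1) i j)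
  intro n
  haveI := hfin n
  let π := Ideal.Quotient.mk (maximalIdeal A ^ n)
  let Φ : GQ →* (M2 (A ⧸ maximalIdeal A ^ n))ˣ :=
    (π.mapMatrix.toMonoidHom.comp M).toHomUnits
  have hΦ : ∀ g, (Φ g : M2 (A ⧸ maximalIdeal A ^ n)) = (M g).map π := fun g => rfl
  have hΦ1 : ∀ g, (∀ i j, (M g - 1) i j ∈ maximalIdeal A ^ n) → Φ g = 1 := by
    intro g hg
    refine Units.ext (Matrix.ext fun i j => ?_)
    have h := Ideal.Quotient.eq_zero_iff_mem.mpr (hg i j)
    rw [Matrix.sub_apply, map_sub, sub_eq_zero] at h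
    rw [hΦ, Matrix.map_apply, h, Units.val_one, Matrix.one_apply, Matrix.one_apply]
    split_ifs <;> simp
  obtain ⟨L, hL, hLM⟩ := hM n
  haveI := hL
  have hord : ∀ g ∈ P.inertiaSubgroupIn ℚ, Φ g ^ p ^ n = 1 := by
    intro g hg
    rw [← map_pow]
    refine hΦ1 _ fun i j => ?_
    rw [hpow _ hg, add_sub_cancel_left, Matrix.smul_apply, nsmul_eq_mul, Nat.cast_pow]
    exact Ideal.mul_mem_right _ _ (Ideal.pow_mem_pow hpA n)
  obtain ⟨⟨τ, hτ⟩, hgen, hFτ⟩ := Mazur.exists_tame_generator hp hq hpq hP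
    (Φ.comp (P.inertiaSubgroupIn ℚ).subtype) (fun g => ⟨n, hord g g.2⟩) L.fixingSubgroup
    L.fixingSubgroup_isOpen (fun g hg => hΦ1 _ (hLM _ ((IntermediateField.mem_fixingSubgroup_iff _ _).mp hg)))
  intro i j
  obtain ⟨h', hFτ'⟩ := hFτ F hF
  obtain ⟨k, hk⟩ := Subgroup.mem_zpowers_iff.mp (hgen ⟨σ, hσ⟩)
  change Φ (F * τ * F⁻¹) = Φ τ ^ q at hFτ'
  change Φ τ ^ k = Φ σ at hk
  have e : Φ (F * σ * F⁻¹) = Φ (σ ^ q) := by
    rw [map_mul, map_mul, map_inv, ← hk, ← conj_zpow, ← map_inv, ← map_mul, ← map_mul, hFτ',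
      map_pow, ← hk, ← zpow_natCast, ← zpow_natCast, ← zpow_mul, ← zpow_mul, mul_comm]
  exact (Ideal.Quotient.eq).mp (congrArg (fun u : (M2 (A ⧸ maximalIdeal A ^ n))ˣ => Units.val u i j) e)

end FermatLib.MLT.Odd
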