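import Fermat.Agent.MLT.Tate.Props
import Fermat.Agent.MLT.Ordinary.Basic
import Fermat.Agent.MLT.Odd.TameUnipotent
import Fermat.Agent.EC.RedMultRamified

/-!
# The Tate module at a multiplicative prime away from `p`

Inertia is unipotent and not trivial; a Frobenius is `(εq, *; 0, ε)` in a basis adapted to inertia.
-/

set_option autoImplicit false
set_option linter.style.haveILetI false

noncomputable section

namespace FermatLib.MLT.Odd

open WeierstrassCurve IsLocalRing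
open scoped WeierstrassCurve.Affine

local notation "Qbar" => AlgebraicClosure ℚ
local notation "Γℚ" => (AlgebraicClosure ℚ ≃ₐ[ℚ] AlgebraicClosure ℚ)

/-- A nonzero vector over a valuation ring is a multiple of a primitive one. -/
theorem exists_smul_notMem_maximalIdeal {A : Type} [CommRing A] [IsDomain A] [ValuationRing A]
    {V : Type*} [AddCommGroup V] [Module A V] (b : Module.Basis (Fin 2) A V) {w : V}
    (hw : w ≠ 0) :
    ∃ x : A, x ≠ 0 ∧ ∃ v : V, v ∉ maximalIdeal A • (⊤ : Submodule A V) ∧ w = x • v := by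
  have key : ∀ (i : Fin 2) (v : V), b.repr v i = 1 →
      v ∉ maximalIdeal A • (⊤ : Submodule A V) := by
    intro i v hv hmem
    have h : b.repr v i ∈ maximalIdeal A := by
      refine Submodule.smul_induction_on (p := fun v => b.repr v i ∈ maximalIdeal A) hmem ?_ ?_
      · intro a ha u _
        rw [map_smul, Finsupp.smul_apply, smul_eq_mul]
        exact Ideal.mul_mem_right _ _ ha
      · intro u u' hu hu'
        rw [map_add, Finsupp.add_apply]
        exact Ideal.add_mem _ hu hu'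
    rw [hv] at h
    exact (mem_maximalIdeal _).mp h isUnit_one
  obtain ⟨x, hx⟩ : ∃ x, x = b.repr w 0 := ⟨_, rfl⟩
  obtain ⟨y, hy⟩ : ∃ y, y = b.repr w 1 := ⟨_, rfl⟩
  have hwe : w = x • b 0 + y • b 1 := by
    rw [hx, hy]; conv_lhs => rw [← b.sum_repr w, Fin.sum_univ_two]
  rcases ValuationRing.dvd_total x y with ⟨c, hc⟩ | ⟨c, hc⟩
  · refine ⟨x, fun h0 => hw ?_, b 0 + c • b 1, key 0 _ (by simp), ?_⟩
    · rw [hwe, hc, h0]; simp
    · rw [hwe, hc, smul_add, smul_smul]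
  · refine ⟨y, fun h0 => hw ?_, c • b 0 + b 1, key 1 _ (by simp), ?_⟩
    · rw [hwe, hc, h0]; simp
    · rw [hwe, hc, smul_add, smul_smul]

variable (W : WeierstrassCurve ℤ) [(W.map (Int.castRingHom ℚ)).IsElliptic] (p : ℕ) [Fact p.Prime]

local notation "Tp" => (Tate.curveTate (W.map (Int.castRingHom ℚ)) p)
local notation "π" => (Tate.curveTateProj (W.map (Int.castRingHom ℚ)) p)

variable {W p} {q : ℕ} (hq : q.Prime) (hqp : q ≠ p) (hΔ : W.Δ ≠ 0) (hbad : (q : ℤ) ∣ W.Δ)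
  (hc₄ : ¬ (q : ℤ) ∣ W.c₄) {A : ValuationSubring Qbar} (hA : A.LiesOverPrime q)

include hq hqp hΔ hbad hc₄ hA

/-- `(τ - 1)(σ - 1) = 0` on inertia. -/
theorem curveTate_inertia_pair {σ τ : Γℚ} (hσ : σ ∈ A.inertiaSubgroupIn ℚ)
    (hτ : τ ∈ A.inertiaSubgroupIn ℚ) :
    ((Tp).ρ τ - 1) * ((Tp).ρ σ - 1) = 0 := by
  refine Tate.curveTate_end_ext _ p fun n v => ?_
  have h := FermatLib.EC.smul_smul_sub_eq_int hq hA hΔ hbad hc₄ hσ hτ
    (fun hd => hqp ((Nat.prime_dvd_prime_iff_eq hq Fact.out).mp (hq.dvd_of_dvd_pow hd)))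
    (Tate.pow_smul_curveTateProj (W.map (Int.castRingHom ℚ)) p n v)
  rw [LinearMap.zero_apply, map_zero, Module.End.mul_apply, LinearMap.sub_apply,
    LinearMap.sub_apply, Module.End.one_apply, Module.End.one_apply, map_sub,
    Tate.curveTateProj_rho, map_sub, Tate.curveTateProj_rho, sub_eq_zero]
  exact h

/-- `T_p E` is ramified at a multiplicative prime other than `p`. -/
theorem curveTate_exists_inertia_ne_one (hp2 : p ≠ 2) :
    ∃ σ ∈ A.inertiaSubgroupIn ℚ, (Tp).ρ σ ≠ 1 := by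
  by_contra hall
  push Not at hall
  obtain ⟨h1, h2, h3⟩ := FermatLib.EC.intCurve_mult hq hA hΔ hbad hc₄
  obtain ⟨T₁, hT₁, hT₁0⟩ := FermatLib.EC.exists_torsion_not_inE0
    (FermatLib.EC.integralAt_intCurve W A) h1 h2 h3 (Fact.out : p.Prime)
    (FermatLib.EC.res_natCast_ne_zero A hq hA fun h =>
      hqp ((Nat.prime_dvd_prime_iff_eq hq Fact.out).mp h))
  obtain ⟨v, hv⟩ := Tate.exists_curveTateProj_eq (W.map (Int.castRingHom ℚ)) p (n := 1) (x := T₁)
    (by rwa [pow_one])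
  have hstep : ∀ j : ℕ, p ^ j • π (1 + j) v = π 1 v := by
    intro j
    induction j with
    | zero => rw [pow_zero, one_smul]
    | succ j ih =>
      rw [pow_succ, mul_smul, show 1 + (j + 1) = (1 + j) + 1 by ring,
        Tate.smul_curveTateProj_succ, ih]
  obtain ⟨σ, hσ, hne⟩ := FermatLib.EC.exists_inertia_smul_ne_int hq hA hΔ hbad hc₄
    (Fact.out : p.Prime) hp2 (n := 1 + padicValInt q W.Δ)
    ((Nat.lt_pow_self (Fact.out : p.Prime).one_lt).trans_le
      (Nat.pow_le_pow_right (Fact.out : p.Prime).pos (by omega)))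
    (Tate.pow_smul_curveTateProj _ p (1 + padicValInt q W.Δ) v)
    (by rw [Nat.add_sub_cancel_left, hstep, hv]; exact hT₁0)
  refine hne ?_
  rw [← Tate.curveTateProj_rho, hall σ hσ, Module.End.one_apply]

/-- A Frobenius at `q` conjugates inertia to its `q`-th power on `T_p E`. -/
theorem curveTate_frobenius_mul_inertia {σ : Γℚ} (hσ : σ ∈ A.inertiaSubgroupIn ℚ) {F : Γℚ}
    (hF : A.IsFrobeniusAt F q) :
    (Tp).ρ F * ((Tp).ρ σ - 1) = (q • ((Tp).ρ σ - 1)) * (Tp).ρ F := by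
  obtain ⟨b, -⟩ : ∃ b : Module.Basis (Fin 2) ℤ_[p] (Tp).V, True :=
    ⟨Galois.adicBasis _, trivial⟩
  let e := LinearMap.toMatrixAlgEquiv b
  have hsub : ∀ g, Galois.Deform.matOf (Tp) b g - 1 = e ((Tp).ρ g - 1) := fun g => by
    rw [map_sub, map_one]; rfl
  have hfin : ∀ n : ℕ, Finite (ℤ_[p] ⧸ maximalIdeal ℤ_[p] ^ n) := fun n => by
    haveI : NeZero (p ^ n) := ⟨pow_ne_zero n (Fact.out : p.Prime).ne_zero⟩
    rw [PadicInt.maximalIdeal_eq_span_p, Ideal.span_singleton_pow, ← PadicInt.ker_toZModPow]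
    exact Finite.of_injective _ (RingHom.kerLift_injective (PadicInt.toZModPow n))
  have key := matRep_conj_frobenius (Galois.Deform.matCont_matOf (Tp) b) hfin
    (Fact.out : p.Prime) hq (Ne.symm hqp)
    (Tate.detIsCyclotomic_curveTate (W.map (Int.castRingHom ℚ)) p).1 hA
    (fun g hg => by
      rw [hsub, ← map_mul, curveTate_inertia_pair hq hqp hΔ hbad hc₄ hA hg hg, map_zero])
    hσ hF
  have key' : (Tp).ρ (F * σ * F⁻¹) = 1 + q • ((Tp).ρ σ - 1) := by
    refine e.injective ?_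
    rw [map_add, map_one, map_nsmul, ← hsub]
    exact key
  have h2 : (Tp).ρ F * (Tp).ρ σ = (Tp).ρ (F * σ * F⁻¹) * (Tp).ρ F := by
    rw [← map_mul, ← map_mul, inv_mul_cancel_right]
  rw [mul_sub, mul_one, h2, key', add_mul, one_mul, add_sub_cancel_left]

/-- **The Steinberg shape of `T_p E` at `q`.** -/
theorem curveTate_exists_line (hp2 : p ≠ 2) :
    ∃ b : Module.Basis (Fin 2) ℤ_[p] (Tp).V,
      (∀ σ ∈ A.inertiaSubgroupIn ℚ, (Tp).ρ σ (b 0) = b 0 ∧
        (Tp).ρ σ (b 1) - b 1 ∈ ℤ_[p] ∙ b 0) ∧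
      ∀ F : Γℚ, A.IsFrobeniusAt F q → ∃ ε : ℤ_[p], (ε = 1 ∨ ε = -1) ∧
        (Tp).ρ F (b 0) = (ε * q) • b 0 ∧ (Tp).ρ F (b 1) - ε • b 1 ∈ ℤ_[p] ∙ b 0 := by
  obtain ⟨σ₀, hσ₀, hne⟩ := curveTate_exists_inertia_ne_one hq hqp hΔ hbad hc₄ hA hp2
  obtain ⟨N, hN⟩ : ∃ N, N = (Tp).ρ σ₀ - 1 := ⟨_, rfl⟩
  have hN0 : N ≠ 0 := fun h => hne (sub_eq_zero.mp (hN ▸ h))
  obtain ⟨u, hu⟩ : ∃ u, N u ≠ 0 := by
    by_contra h
    push Not at h
    exact hN0 (LinearMap.ext h)
  obtain ⟨x, hx, v, hv, hxv⟩ := exists_smul_notMem_maximalIdeal (Galois.adicBasis (Tp)) hu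
  obtain ⟨b, hb⟩ := exists_basis_fin_two_apply_zero (Tp).finrank_eq hv
  have hNN : ∀ w, N (N w) = 0 := fun w => LinearMap.congr_fun
    (hN ▸ curveTate_inertia_pair hq hqp hΔ hbad hc₄ hA hσ₀ hσ₀) w
  have hN00 : N (b 0) = 0 := by
    have h := hNN u
    rw [hxv, map_smul] at h
    exact hb ▸ (smul_eq_zero.mp h).resolve_left hx
  obtain ⟨α, β, hαβ⟩ : ∃ α β, N (b 1) = α • b 0 + β • b 1 :=
    ⟨_, _, by conv_lhs => rw [← b.sum_repr (N (b 1)), Fin.sum_univ_two]⟩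
  have hN1 : N (b 1) ≠ 0 := fun h => hN0 (b.ext fun i => by fin_cases i <;> simp [hN00, h])
  have hβ : β = 0 := by
    have h := hNN (b 1)
    rw [hαβ, map_add, map_smul, map_smul, hN00, smul_zero, zero_add] at h
    exact (smul_eq_zero.mp h).resolve_right hN1
  rw [hβ, zero_smul, add_zero] at hαβ
  have hα : α ≠ 0 := fun h => hN1 (by rw [hαβ, h, zero_smul])
  have hmem : ∀ y ∈ ℤ_[p] ∙ b 0, N y = 0 := by
    intro y hy
    obtain ⟨c, rfl⟩ := Submodule.mem_span_singleton.mp hy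
    rw [map_smul, hN00, smul_zero]
  refine ⟨b, fun σ hσ => ⟨?_, ?_⟩, fun F hF => ?_⟩
  · have h : ((Tp).ρ σ - 1) (N (b 1)) = 0 := LinearMap.congr_fun
      (hN ▸ curveTate_inertia_pair hq hqp hΔ hbad hc₄ hA hσ₀ hσ) (b 1)
    rw [hαβ, map_smul] at h
    exact sub_eq_zero.mp ((smul_eq_zero.mp h).resolve_left hα)
  · have h : N ((Tp).ρ σ (b 1) - b 1) = 0 := LinearMap.congr_fun
      (hN ▸ curveTate_inertia_pair hq hqp hΔ hbad hc₄ hA hσ hσ₀) (b 1)
    rw [← b.sum_repr ((Tp).ρ σ (b 1) - b 1), Fin.sum_univ_two] at h ⊢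
    rw [map_add, map_smul, map_smul, hN00, smul_zero, zero_add] at h
    rw [(smul_eq_zero.mp h).resolve_right hN1, zero_smul, add_zero]
    exact Submodule.smul_mem _ _ (Submodule.mem_span_singleton_self _)
  obtain ⟨y, z, hyz⟩ : ∃ y z, (Tp).ρ F (b 1) = y • b 0 + z • b 1 :=
    ⟨_, _, by conv_lhs => rw [← b.sum_repr ((Tp).ρ F (b 1)), Fin.sum_univ_two]⟩
  have hF0 : (Tp).ρ F (b 0) = ((q : ℤ_[p]) * z) • b 0 := by
    have h : (Tp).ρ F (N (b 1)) = q • N ((Tp).ρ F (b 1)) := LinearMap.congr_fun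
      (hN ▸ curveTate_frobenius_mul_inertia hq hqp hΔ hbad hc₄ hA hσ₀ hF) (b 1)
    rw [hyz, map_add, map_smul, map_smul, hN00, smul_zero, zero_add, hαβ, map_smul,
      ← Nat.cast_smul_eq_nsmul ℤ_[p], smul_smul, smul_smul, mul_comm _ α] at h
    rw [mul_smul] at h
    exact smul_right_injective _ hα h
  have hz : (Tp).ρ F (b 1) - z • b 1 ∈ ℤ_[p] ∙ b 0 := by
    rw [hyz, add_sub_cancel_right]
    exact Submodule.smul_mem _ _ (Submodule.mem_span_singleton_self _)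
  have hdet := det_eq_mul_of_triangular b _ hF0 hz
  rw [(Tate.det_curveTate _ p F).trans
    (FermatLib.Galois.Attach.cycloChar_frobenius p hq hqp hA hF)] at hdet
  have hz2 : z * z = 1 := by
    have hq0 : (q : ℤ_[p]) ≠ 0 := Nat.cast_ne_zero.mpr hq.ne_zero
    refine mul_left_cancel₀ hq0 ?_
    rw [mul_one, ← mul_assoc, ← hdet]
  exact ⟨z, mul_self_eq_one_iff.mp hz2, by rw [hF0, mul_comm], hz⟩

end FermatLib.MLT.Odd
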