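import Fermat.Agent.MLT.Odd.PointBasic
import Fermat.Agent.MLT.Odd.TateSteinberg
import Fermat.Agent.Galois.PlaceConjugate

/-!
# The sign of a semistable curve at a bad prime

At a bad prime `q ≠ p` there is one `ε = ±1` such that, at every place over `q`, every Frobenius has
trace `ε (q + 1)` on `T_p E` and acts by `ε q` on the image of `σ - 1` for inertia `σ`.
-/

set_option autoImplicit false
set_option linter.style.haveILetI false

noncomputable section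

namespace FermatLib.MLT.Odd

open IsLocalRing
open scoped TensorProduct Pointwise

local notation "Qbar" => AlgebraicClosure ℚ
local notation "Γℚ" => (AlgebraicClosure ℚ ≃ₐ[ℚ] AlgebraicClosure ℚ)

/-- The trace of an upper triangular endomorphism. -/
theorem trace_eq_add_of_triangular {A V : Type*} [CommRing A] [AddCommGroup V] [Module A V]
    (b : Module.Basis (Fin 2) A V) (f : Module.End A V) {x z : A} (hx : f (b 0) = x • b 0)
    (hz : f (b 1) - z • b 1 ∈ A ∙ b 0) : LinearMap.trace A V f = x + z := by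
  obtain ⟨c, hc⟩ := Submodule.mem_span_singleton.mp hz
  have h1 : f (b 1) = c • b 0 + z • b 1 := by rw [hc]; abel
  rw [LinearMap.trace_eq_matrix_trace A b, Matrix.trace_fin_two]
  simp [LinearMap.toMatrix_apply, hx, h1]

variable {W : WeierstrassCurve ℤ} [(W.map (Int.castRingHom ℚ)).IsElliptic] {p : ℕ} [Fact p.Prime]
  {q : ℕ}

local notation "Tp" => (Tate.curveTate (W.map (Int.castRingHom ℚ)) p)

/-- One sign for all places over `q` and all Frobenius elements. -/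
theorem curveTate_exists_sign (hq : q.Prime) (hqp : q ≠ p) (hΔ : W.Δ ≠ 0)
    (hbad : (q : ℤ) ∣ W.Δ) (hc₄ : ¬ (q : ℤ) ∣ W.c₄) (hp2 : p ≠ 2) :
    ∃ ε : ℤ, (ε = 1 ∨ ε = -1) ∧ ∀ A : ValuationSubring Qbar, A.LiesOverPrime q →
      ∀ F : Γℚ, A.IsFrobeniusAt F q → (Tp).trace F = (ε : ℤ_[p]) * ((q : ℤ_[p]) + 1) ∧
        ∀ σ ∈ A.inertiaSubgroupIn ℚ, ∀ v : (Tp).V,
          (Tp).ρ F ((Tp).ρ σ v - v) = ((q : ℤ_[p]) * (ε : ℤ_[p])) • ((Tp).ρ σ v - v) := by
  obtain ⟨A₀, hA₀⟩ := FermatLib.Basic.exists_liesOverPrime hq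
  obtain ⟨F₀, hF₀⟩ := FermatLib.Basic.exists_isFrobeniusAt hq A₀ hA₀
  -- the trace does not depend on the Frobenius
  have hsame : ∀ (A : ValuationSubring Qbar), A.LiesOverPrime q → ∀ F F' : Γℚ,
      A.IsFrobeniusAt F q → A.IsFrobeniusAt F' q → (Tp).trace F' = (Tp).trace F := by
    intro A hA F F' hF hF'
    obtain ⟨b, hI, hb⟩ := curveTate_exists_line hq hqp hΔ hbad hc₄ hA hp2
    obtain ⟨ε, -, h0, h1⟩ := hb F hF
    obtain ⟨i0, i1⟩ := hI _ (FermatLib.Galois.frobenius_inv_mul_mem_inertia hF hF')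
    have e : (Tp).ρ F' = (Tp).ρ F * (Tp).ρ (F⁻¹ * F') := by
      rw [← map_mul, mul_inv_cancel_left]
    have h0' : (Tp).ρ F' (b 0) = (ε * (q : ℤ_[p])) • b 0 := by
      rw [e, Module.End.mul_apply, i0, h0]
    have h1' : (Tp).ρ F' (b 1) - ε • b 1 ∈ ℤ_[p] ∙ b 0 := by
      obtain ⟨c, hc⟩ := Submodule.mem_span_singleton.mp i1
      have : (Tp).ρ F' (b 1) - ε • b 1 =
          c • (Tp).ρ F (b 0) + ((Tp).ρ F (b 1) - ε • b 1) := by
        rw [← LinearMap.map_smul, hc, map_sub, e, Module.End.mul_apply]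
        abel
      rw [this, h0]
      exact add_mem (Submodule.smul_mem _ _ (Submodule.smul_mem _ _
        (Submodule.mem_span_singleton_self _))) h1
    show LinearMap.trace _ _ _ = LinearMap.trace _ _ _
    rw [trace_eq_add_of_triangular b _ h0' h1', trace_eq_add_of_triangular b _ h0 h1]
  obtain ⟨b, -, hb⟩ := curveTate_exists_line hq hqp hΔ hbad hc₄ hA₀ hp2
  obtain ⟨ε₀, hε₀, h0, h1⟩ := hb F₀ hF₀
  have ht₀ : (Tp).trace F₀ = ε₀ * (q : ℤ_[p]) + ε₀ := trace_eq_add_of_triangular b _ h0 h1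
  obtain ⟨ε, hε, hεc⟩ : ∃ ε : ℤ, (ε = 1 ∨ ε = -1) ∧ (ε : ℤ_[p]) = ε₀ := by
    rcases hε₀ with h | h
    · exact ⟨1, Or.inl rfl, by rw [h, Int.cast_one]⟩
    · exact ⟨-1, Or.inr rfl, by rw [h, Int.cast_neg, Int.cast_one]⟩
  refine ⟨ε, hε, fun A hA F hF => ?_⟩
  have htr : (Tp).trace F = (ε : ℤ_[p]) * ((q : ℤ_[p]) + 1) := by
    obtain ⟨g, hg⟩ := FermatLib.Galois.exists_smul_eq_of_liesOverPrime hq hA hA₀
    have hgF : A₀.IsFrobeniusAt (g * F * g⁻¹) q := hg ▸ FermatLib.Galois.isFrobeniusAt_conj g hF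
    have h := hsame A₀ hA₀ F₀ (g * F * g⁻¹) hF₀ hgF
    have hconj : (Tp).trace (g * F * g⁻¹) = (Tp).trace F := by
      show LinearMap.trace _ _ _ = LinearMap.trace _ _ _
      rw [map_mul, LinearMap.trace_mul_comm, ← map_mul, inv_mul_cancel_left]
    rw [← hconj, h, ht₀, hεc]
    ring
  refine ⟨htr, fun σ hσ v => ?_⟩
  obtain ⟨b', hI', hb'⟩ := curveTate_exists_line hq hqp hΔ hbad hc₄ hA hp2
  obtain ⟨ε', -, h0', h1'⟩ := hb' F hF
  have hεe : ε' = (ε : ℤ_[p]) := by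
    have hq1 : ((q : ℤ_[p]) + 1) ≠ 0 := by exact_mod_cast Nat.succ_ne_zero q
    refine mul_right_cancel₀ hq1 ?_
    rw [← htr, show (Tp).trace F = ε' * (q : ℤ_[p]) + ε' from
      trace_eq_add_of_triangular b' _ h0' h1']
    ring
  obtain ⟨c, hc⟩ := Submodule.mem_span_singleton.mp (hI' σ hσ).2
  have hv : (Tp).ρ σ v - v = (b'.repr v 1 * c) • b' 0 := by
    conv_lhs => rw [← b'.sum_repr v, Fin.sum_univ_two]
    rw [map_add, map_smul, map_smul, (hI' σ hσ).1, mul_smul, hc, smul_sub]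
    abel
  rw [hv, map_smul, h0', hεe, smul_comm, mul_comm]

variable (W) (hΔ : W.Δ ≠ 0) {O : Type} [CommRing O] [IsLocalRing O] (φ : ℤ_[p] →+* O)
  (hp : (p : O) ∈ maximalIdeal O)

/-- The sign transfers to the point. -/
theorem pointRep_sign_of_curveTate {ε : ℤ} {A : ValuationSubring Qbar} {F : Γℚ}
    (h : (Tp).trace F = (ε : ℤ_[p]) * ((q : ℤ_[p]) + 1) ∧
      ∀ σ ∈ A.inertiaSubgroupIn ℚ, ∀ v : (Tp).V,
        (Tp).ρ F ((Tp).ρ σ v - v) = ((q : ℤ_[p]) * (ε : ℤ_[p])) • ((Tp).ρ σ v - v)) :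
    (pointRep W hΔ φ hp).trace F = (ε : O) * ((q : O) + 1) ∧
      ∀ σ ∈ A.inertiaSubgroupIn ℚ, ∀ v : (pointRep W hΔ φ hp).V,
        (pointRep W hΔ φ hp).ρ F ((pointRep W hΔ φ hp).ρ σ v - v) =
          ((q : O) * (ε : O)) • ((pointRep W hΔ φ hp).ρ σ v - v) := by
  refine ⟨?_, fun σ hσ v => ?_⟩
  · show ((Tate.curveTate (W.map (Int.castRingHom ℚ)) p).baseChangeAlong φ _).trace F = _
    rw [FermatLib.Galois.trace_baseChangeAlong, h.1, map_mul, map_add, map_intCast,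
      map_natCast, map_one]
  letI : Algebra ℤ_[p] O := φ.toAlgebra
  have hop : ((Tate.curveTate (W.map (Int.castRingHom ℚ)) p).ρ F) *
      ((Tate.curveTate (W.map (Int.castRingHom ℚ)) p).ρ σ - 1) =
      ((q : ℤ_[p]) * (ε : ℤ_[p])) • ((Tate.curveTate (W.map (Int.castRingHom ℚ)) p).ρ σ - 1) :=
    LinearMap.ext fun w => h.2 σ hσ w
  have hop' := congrArg (LinearMap.baseChange O) hop
  rw [LinearMap.baseChange_mul, LinearMap.baseChange_smul, LinearMap.baseChange_sub,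
    LinearMap.baseChange_one, ← algebraMap_smul O ((q : ℤ_[p]) * (ε : ℤ_[p]))] at hop'
  have hcast : algebraMap ℤ_[p] O ((q : ℤ_[p]) * (ε : ℤ_[p])) = (q : O) * (ε : O) := by
    rw [map_mul, map_natCast, map_intCast]
  rw [hcast] at hop'
  show (((Tate.curveTate (W.map (Int.castRingHom ℚ)) p).ρ F).baseChange O)
      ((((Tate.curveTate (W.map (Int.castRingHom ℚ)) p).ρ σ).baseChange O - 1) v) =
    (((q : O) * (ε : O)) • (((Tate.curveTate (W.map (Int.castRingHom ℚ)) p).ρ σ).baseChange O - 1)) v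
  exact LinearMap.congr_fun hop' v

end FermatLib.MLT.Odd
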