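import Fermat.Agent.MLT.Odd.Point
import Fermat.Agent.MLT.Odd.PointSign
import Fermat.Agent.MLT.Odd.Patching
import Fermat.Agent.MLT.ResidualFlat

/-!
# The sets of primes and the target lift of a semistable curve at an odd prime

From a semistable model `W` irreducible mod `p` and a level `M₀`: `curveOddPrimes` (the primes
`Smin`, `T`, `F`, the signs and the case at `p`) and `pointRep_isTargetLift`. The primes of `M₀` outside `Smin` and `T` are the ones Mazur's principle
removes (`mazur_removable`).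
-/

set_option autoImplicit false
set_option linter.style.haveILetI false

noncomputable section

namespace FermatLib.MLT.Odd

open IsLocalRing Polynomial
open scoped Classical

local notation "Qbar" => AlgebraicClosure ℚ
local notation "Γℚ" => (AlgebraicClosure ℚ ≃ₐ[ℚ] AlgebraicClosure ℚ)

/-- A residual equivalence as an equivalence of adic representations. -/
def adicEquivOfResidual {k : Type} [Field k] {ρ₁ ρ₂ : ResidualGaloisRep k}
    (e : ResidualGaloisRep.Equiv ρ₁ ρ₂) :
    GaloisRepAdic.Equiv (GaloisRepAdic.ofResidualGaloisRep ρ₁)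
      (GaloisRepAdic.ofResidualGaloisRep ρ₂) :=
  ⟨e.toLinearEquiv, e.map_apply⟩

/-- The residual representation is the change of coefficients to the residue field. -/
theorem baseChangeAlong_residue_isEquiv {A : Type} [CommRing A] [IsLocalRing A]
    (ρ : GaloisRepAdic A) (h : IsLocalHom (residue A)) :
    (ρ.baseChangeAlong (residue A) h).IsEquiv (GaloisRepAdic.ofResidualGaloisRep ρ.residual) :=
  ⟨⟨LinearEquiv.refl _ _, fun _ _ => rfl⟩⟩

variable {p : ℕ} [Fact p.Prime] (W : WeierstrassCurve ℤ) (hΔ : W.Δ ≠ 0)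
  {O : Type} [CommRing O] [IsLocalRing O] (φ : ℤ_[p] →+* O) (hp : (p : O) ∈ maximalIdeal O)
  (ι : ZMod p →+* ResidueField O)

/-- The point reduces to `E[p]`. -/
theorem pointRep_baseChange_residue_isEquiv (h : IsLocalHom (residue O)) :
    ((pointRep W hΔ φ hp).baseChangeAlong (residue O) h).IsEquiv
      (GaloisRepAdic.ofResidualGaloisRep (curveResidualRepExt W hΔ p ι)) := by
  obtain ⟨e₁⟩ := baseChangeAlong_residue_isEquiv (pointRep W hΔ φ hp) h
  obtain ⟨e₂⟩ := pointRep_residual_equiv W hΔ φ hp ι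
  exact ⟨e₁.trans (adicEquivOfResidual e₂)⟩

variable (p) in
/-- The property of the sign at a bad prime. -/
def IsCurveSign (q : ℕ) (ε : ℤ) : Prop :=
  (ε = 1 ∨ ε = -1) ∧ ∀ [(W.map (Int.castRingHom ℚ)).IsElliptic],
    ∀ A : ValuationSubring Qbar, A.LiesOverPrime q → ∀ F : Γℚ, A.IsFrobeniusAt F q →
      (Tate.curveTate (W.map (Int.castRingHom ℚ)) p).trace F = (ε : ℤ_[p]) * ((q : ℤ_[p]) + 1)

variable (p) in
/-- The sign at a bad prime: `a_q = ±1`. -/
def curveSign (q : ℕ) : ℤ := if h : ∃ ε, IsCurveSign p W q ε then h.choose else 1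

/-- The sign is the sign of `T_p E`. -/
theorem curveTate_curveSign [(W.map (Int.castRingHom ℚ)).IsElliptic] (hp2 : p ≠ 2)
    (hW : W.IsSemistableModel) (hΔ : W.Δ ≠ 0) {q : ℕ} (hq : q.Prime)
    (hqp : q ≠ p) (hbad : (q : ℤ) ∣ W.Δ) {A : ValuationSubring Qbar} (hA : A.LiesOverPrime q)
    {F : Γℚ} (hF : A.IsFrobeniusAt F q) :
    (Tate.curveTate (W.map (Int.castRingHom ℚ)) p).trace F =
        (curveSign p W q : ℤ_[p]) * ((q : ℤ_[p]) + 1) ∧
      ∀ σ ∈ A.inertiaSubgroupIn ℚ, ∀ v : (Tate.curveTate (W.map (Int.castRingHom ℚ)) p).V,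
        (Tate.curveTate (W.map (Int.castRingHom ℚ)) p).ρ F
            ((Tate.curveTate (W.map (Int.castRingHom ℚ)) p).ρ σ v - v) =
          ((q : ℤ_[p]) * (curveSign p W q : ℤ_[p])) •
            ((Tate.curveTate (W.map (Int.castRingHom ℚ)) p).ρ σ v - v) := by
  obtain ⟨ε, hε, h⟩ := curveTate_exists_sign (p := p) hq hqp hΔ hbad (hW q hq hbad) hp2
  have hex : ∃ ε, IsCurveSign p W q ε := ⟨ε, hε, fun A hA F hF => (h A hA F hF).1⟩
  have he : curveSign p W q = ε := by
    rw [curveSign, dif_pos hex]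
    have h1 : (Tate.curveTate (W.map (Int.castRingHom ℚ)) p).trace F =
        (hex.choose : ℤ_[p]) * ((q : ℤ_[p]) + 1) := hex.choose_spec.2 A hA F hF
    rw [(h A hA F hF).1] at h1
    have hq1 : ((q : ℤ_[p]) + 1) ≠ 0 := by exact_mod_cast Nat.succ_ne_zero q
    exact_mod_cast (mul_right_cancel₀ hq1 h1).symm
  rw [he]
  exact h A hA F hF

/-- The sign at a bad prime in terms of the point. -/
theorem pointRep_curveSign (hp2 : p ≠ 2) (hW : W.IsSemistableModel) {q : ℕ} (hq : q.Prime)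
    (hqp : q ≠ p) (hbad : (q : ℤ) ∣ W.Δ) {A : ValuationSubring Qbar} (hA : A.LiesOverPrime q)
    {F : Γℚ} (hF : A.IsFrobeniusAt F q) :
    (pointRep W hΔ φ hp).trace F = (curveSign p W q : O) * ((q : O) + 1) ∧
      ∀ σ ∈ A.inertiaSubgroupIn ℚ, ∀ v : (pointRep W hΔ φ hp).V,
        (pointRep W hΔ φ hp).ρ F ((pointRep W hΔ φ hp).ρ σ v - v) =
          ((q : O) * (curveSign p W q : O)) • ((pointRep W hΔ φ hp).ρ σ v - v) := by
  haveI := isElliptic_map_rat hΔ
  exact pointRep_sign_of_curveTate W hΔ φ hp (curveTate_curveSign W hp2 hW hΔ hq hqp hbad hA hF)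

theorem curveSign_eq_one_or_neg_one (q : ℕ) : curveSign p W q = 1 ∨ curveSign p W q = -1 := by
  rw [curveSign]
  split_ifs with h
  · exact h.choose_spec.1
  · exact Or.inl rfl

/-- The primes `T`. -/
def curveTSet (M₀ : ℕ) : Finset ℕ :=
  ((W.Δ.natAbs.primeFactors ∪ M₀.primeFactors).erase p).filter fun q =>
    (curveResidualRepExt W hΔ p ι).IsUnramifiedAt q ∧ q ≡ 1 [MOD p] ∧
      IsScalarAt (curveResidualRepExt W hΔ p ι) q

/-- The primes `F`. -/
def curveFSet : Finset ℕ :=
  (W.Δ.natAbs.primeFactors.erase p).filter fun q =>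
    (curveResidualRepExt W hΔ p ι).IsUnramifiedAt q ∧
      ¬ (q ≡ 1 [MOD p] ∧ IsScalarAt (curveResidualRepExt W hΔ p ι) q)

/-- The primes `Smin`. -/
def curveMinSet : Finset ℕ :=
  (W.Δ.natAbs.primeFactors.erase p).filter fun q =>
    ¬ (curveResidualRepExt W hΔ p ι).IsUnramifiedAt q

/-- The case at `p`. -/
def curvePCase : PCase :=
  if (p : ℤ) ∣ W.Δ then
    (if (GaloisRepAdic.ofResidualGaloisRep (curveResidualRepExt W hΔ p ι)).IsFlatAt p
      then PCase.mixed else PCase.strictOnly)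
  else PCase.flat

theorem mem_primeFactors_Δ {q : ℕ} (hΔ : W.Δ ≠ 0) :
    q ∈ W.Δ.natAbs.primeFactors ↔ q.Prime ∧ (q : ℤ) ∣ W.Δ := by
  rw [Nat.mem_primeFactors, Int.natCast_dvd, and_iff_left (Int.natAbs_ne_zero.2 hΔ)]

omit [IsLocalRing O] in
/-- Good primes are residually unramified. -/
theorem curveResidualRepExt_isUnramifiedAt_of_good {k : Type} [Field k] (ι : ZMod p →+* k)
    {q : ℕ} (hq : q.Prime) (hqp : q ≠ p) (hgood : ¬ (q : ℤ) ∣ W.Δ) :
    (curveResidualRepExt W hΔ p ι).IsUnramifiedAt q := by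
  rw [curveResidualRepExt_isUnramifiedAt_iff,
    curveResidualRep_isUnramifiedAt_iff W hΔ p hq hqp (fun h => absurd h hgood),
    padicValInt.eq_zero_of_not_dvd hgood]
  exact dvd_zero p

/-- The sets of primes of the lifting problem. -/
def curveOddPrimes [Finite (ResidueField O)] (hp2 : p ≠ 2) (hW : W.IsSemistableModel)
    (φ : ℤ_[p] →+* O) (hp : (p : O) ∈ maximalIdeal O) (M₀ : ℕ) :
    OddPrimes p (curveResidualRepExt W hΔ p ι) where
  Smin := curveMinSet W hΔ ι
  T := curveTSet W hΔ ι M₀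
  F := curveFSet W hΔ ι
  ε := curveSign p W
  pCase := curvePCase W hΔ ι
  prime_of_mem := fun q hq => by
    simp only [Finset.mem_union, curveMinSet, curveTSet, curveFSet, Finset.mem_filter,
      Finset.mem_erase, Nat.mem_primeFactors] at hq
    tauto
  ne_p := fun q hq => by
    simp only [Finset.mem_union, curveMinSet, curveTSet, curveFSet, Finset.mem_filter,
      Finset.mem_erase] at hq
    tauto
  disjoint_min_T := Finset.disjoint_left.mpr fun q h1 h2 =>
    (Finset.mem_filter.mp h1).2 (Finset.mem_filter.mp h2).2.1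
  disjoint_min_F := Finset.disjoint_left.mpr fun q h1 h2 =>
    (Finset.mem_filter.mp h1).2 (Finset.mem_filter.mp h2).2.1
  disjoint_T_F := Finset.disjoint_left.mpr fun q h1 h2 =>
    (Finset.mem_filter.mp h2).2.2 (Finset.mem_filter.mp h1).2.2
  ramified_min := fun q hq => (Finset.mem_filter.mp hq).2
  unipotent_min := fun q hq => by
    obtain ⟨h, -⟩ := Finset.mem_filter.mp hq
    obtain ⟨hqp, hq'⟩ := Finset.mem_erase.mp h
    have hl : IsLocalHom (residue O) := inferInstance
    exact FermatLib.Galois.DeformLocal.isUnipotentOnInertiaAt_of_isEquiv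
      (pointRep_baseChange_residue_isEquiv W hΔ φ hp ι hl)
      (Tate.isUnipotentOnInertiaAt_baseChangeAlong hl
        (pointRep_isUnipotentOnInertiaAt W hΔ φ hp hW ((mem_primeFactors_Δ W hΔ).mp hq').1 hqp))
  unramified_T := fun q hq => (Finset.mem_filter.mp hq).2.1
  one_mod_T := fun q hq => (Finset.mem_filter.mp hq).2.2.1
  scalar_T := fun q hq => (Finset.mem_filter.mp hq).2.2.2
  unramified_F := fun q hq => (Finset.mem_filter.mp hq).2.1
  not_scalar_F := fun q hq h1 h2 => (Finset.mem_filter.mp hq).2.2 ⟨h1, h2⟩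
  sign_F := fun q _ => curveSign_eq_one_or_neg_one W q
  trace_F := fun q hq A hA σ hσ => by
    obtain ⟨h, -⟩ := Finset.mem_filter.mp hq
    obtain ⟨hqp, hq'⟩ := Finset.mem_erase.mp h
    obtain ⟨hqP, hbad⟩ := (mem_primeFactors_Δ W hΔ).mp hq'
    have hl : IsLocalHom (residue O) := inferInstance
    obtain ⟨e⟩ := pointRep_baseChange_residue_isEquiv W hΔ φ hp ι hl
    have he := FermatLib.Galois.adic_trace_eq_of_charpoly_eq
      (FermatLib.Galois.charpoly_eq_of_equiv e σ)
    rw [FermatLib.Galois.trace_baseChangeAlong,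
      (pointRep_curveSign W hΔ φ hp hp2 hW hqP hqp hbad hA hσ).1, map_mul, map_add, map_intCast,
      map_natCast, map_one] at he
    exact he.symm
  unramified_out := fun q hq hqp hout => by
    by_cases hbad : (q : ℤ) ∣ W.Δ
    · by_contra hr
      refine hout (Finset.mem_union_left _ (Finset.mem_union_left _ ?_))
      exact Finset.mem_filter.mpr
        ⟨Finset.mem_erase.mpr ⟨hqp, (mem_primeFactors_Δ W hΔ).mpr ⟨hq, hbad⟩⟩, hr⟩
    · exact curveResidualRepExt_isUnramifiedAt_of_good W hΔ ι hq hqp hbad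
  flat_p := fun h => by
    by_cases hd : (p : ℤ) ∣ W.Δ
    · by_contra hf
      exact h (by rw [curvePCase, if_pos hd, if_neg hf])
    · exact curveResidualRepExt_isFlatAt W hΔ p ι hp2 (fun h' => absurd h' hd)
        (by rw [padicValInt.eq_zero_of_not_dvd hd]; exact dvd_zero p)
  not_flat_p := fun h hf => by
    by_cases hd : (p : ℤ) ∣ W.Δ
    · rw [curvePCase, if_pos hd, if_pos hf] at h; exact PCase.noConfusion h
    · rw [curvePCase, if_neg hd] at h; exact PCase.noConfusion h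
  strict_p := fun h => by
    have hd : (p : ℤ) ∣ W.Δ := by
      by_contra hd
      exact h (by rw [curvePCase, if_neg hd])
    have hl : IsLocalHom (residue O) := inferInstance
    obtain ⟨e⟩ := pointRep_baseChange_residue_isEquiv W hΔ φ hp ι hl
    exact isStrictOrdinaryAt_of_equiv e
      (isStrictOrdinaryAt_baseChangeAlong _ _ (pointRep_isStrictOrdinaryAt W hΔ φ hp hp2 hW hd))

section

variable [Finite (ResidueField O)] (hp2 : p ≠ 2) (hW : W.IsSemistableModel) (M₀ : ℕ)

/-- The case at `p` is flat exactly when `W` is good at `p`. -/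
theorem curveOddPrimes_pCase_flat_iff :
    (curveOddPrimes W hΔ ι hp2 hW φ hp M₀).pCase = PCase.flat ↔ ¬ (p : ℤ) ∣ W.Δ := by
  show curvePCase W hΔ ι = PCase.flat ↔ _
  rw [curvePCase]
  split_ifs with h1 h2 <;> simp [h1]

/-- Bad primes other than `p` are among the primes of the problem. -/
theorem mem_all_of_bad {q : ℕ} (hq : q.Prime) (hqp : q ≠ p) (hbad : (q : ℤ) ∣ W.Δ) :
    q ∈ (curveOddPrimes W hΔ ι hp2 hW φ hp M₀).all := by
  show q ∈ curveMinSet W hΔ ι ∪ curveTSet W hΔ ι M₀ ∪ curveFSet W hΔ ι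
  have h := (mem_primeFactors_Δ W hΔ).mpr ⟨hq, hbad⟩
  simp only [Finset.mem_union, curveMinSet, curveTSet, curveFSet, Finset.mem_filter,
    Finset.mem_erase]
  tauto

/-- The primes of the level that Mazur's principle removes. -/
theorem mazur_removable {q : ℕ} (hq : q.Prime) (hqp : q ≠ p) (hqM : q ∣ M₀) (hM₀ : M₀ ≠ 0)
    (hnot : q ∉ (curveOddPrimes W hΔ ι hp2 hW φ hp M₀).Smin ∪
      (curveOddPrimes W hΔ ι hp2 hW φ hp M₀).T) :
    (curveResidualRepExt W hΔ p ι).IsUnramifiedAt q ∧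
      ¬ (q ≡ 1 [MOD p] ∧ IsScalarAt (curveResidualRepExt W hΔ p ι) q) := by
  change q ∉ curveMinSet W hΔ ι ∪ curveTSet W hΔ ι M₀ at hnot
  have hu : (curveResidualRepExt W hΔ p ι).IsUnramifiedAt q := by
    by_cases hbad : (q : ℤ) ∣ W.Δ
    · by_contra hr
      exact hnot (Finset.mem_union_left _ (Finset.mem_filter.mpr
        ⟨Finset.mem_erase.mpr ⟨hqp, (mem_primeFactors_Δ W hΔ).mpr ⟨hq, hbad⟩⟩, hr⟩))
    · exact curveResidualRepExt_isUnramifiedAt_of_good W hΔ ι hq hqp hbad
  exact ⟨hu, fun h => hnot (Finset.mem_union_right _ (Finset.mem_filter.mpr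
    ⟨Finset.mem_erase.mpr ⟨hqp, Finset.mem_union_right _
      (Nat.mem_primeFactors.mpr ⟨hq, hqM, hM₀⟩)⟩, hu, h⟩))⟩

end

section

variable {O : Type} [CommRing O] [IsDomain O] [IsDiscreteValuationRing O]
  [IsAdicComplete (maximalIdeal O) O] [Finite (ResidueField O)] [CharZero O]
  (φ : ℤ_[p] →+* O) (hp : (p : O) ∈ maximalIdeal O) (ι : ZMod p →+* ResidueField O)

omit [IsAdicComplete (maximalIdeal O) O] [CharZero O] in
/-- **The target lift.** -/
theorem pointRep_isTargetLift (hp2 : p ≠ 2) (hW : W.IsSemistableModel) (M₀ : ℕ) :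
    IsTargetLift (curveOddPrimes W hΔ ι hp2 hW φ hp M₀) (pointRep W hΔ φ hp) := by
  have hall : ∀ q ∈ (curveOddPrimes W hΔ ι hp2 hW φ hp M₀).all, q.Prime ∧ q ≠ p := fun q hq =>
    ⟨(curveOddPrimes W hΔ ι hp2 hW φ hp M₀).prime_of_mem q hq,
      (curveOddPrimes W hΔ ι hp2 hW φ hp M₀).ne_p q hq⟩
  have hbadF : ∀ q ∈ (curveOddPrimes W hΔ ι hp2 hW φ hp M₀).F,
      q.Prime ∧ q ≠ p ∧ (q : ℤ) ∣ W.Δ := by
    intro q hq
    obtain ⟨h, -⟩ := Finset.mem_filter.mp hq
    obtain ⟨hqp, hq'⟩ := Finset.mem_erase.mp h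
    obtain ⟨hqP, hbad⟩ := (mem_primeFactors_Δ W hΔ).mp hq'
    exact ⟨hqP, hqp, hbad⟩
  have hpc := curveOddPrimes_pCase_flat_iff W hΔ φ hp ι hp2 hW M₀
  refine
    { lift :=
        { det := pointRep_detIsCyclotomic W hΔ φ hp
          at_p := ?_
          unramified := fun q hq hqp hnot => pointRep_isUnramifiedAt W hΔ φ hp hq hqp fun hbad =>
            hnot (Finset.mem_union_left _ (mem_all_of_bad W hΔ φ hp ι hp2 hW M₀ hq hqp hbad))
          unipotent := fun q hq => ?_
          sign := fun q hq P hP F hF => ?_ }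
      isLiftOf := ?_
      strict := fun h => pointRep_isStrictOrdinaryAt W hΔ φ hp hp2 hW (by
        by_contra hd
        rw [hpc.mpr hd] at h
        exact PCase.noConfusion h)
      at_F := fun q hq P hP F hF => ?_
      at_T := fun q hq => ?_ }
  · cases hc : (curveOddPrimes W hΔ ι hp2 hW φ hp M₀).pCase with
    | flat => exact pointRep_isFlatAt W hΔ φ hp (hpc.mp hc)
    | strictOnly =>
      exact pointRep_isStrictOrdinaryAt W hΔ φ hp hp2 hW (by
        by_contra hd
        rw [hpc.mpr hd] at hc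
        exact PCase.noConfusion hc)
    | mixed =>
      exact (pointRep_isStrictOrdinaryAt W hΔ φ hp hp2 hW (by
        by_contra hd
        rw [hpc.mpr hd] at hc
        exact PCase.noConfusion hc)).isOrdinaryAt
  · have h : q ∈ (curveOddPrimes W hΔ ι hp2 hW φ hp M₀).all := by
      simp only [OddPrimes.all, Finset.mem_union] at hq ⊢
      tauto
    exact pointRep_isUnipotentOnInertiaAt W hΔ φ hp hW (hall q h).1 (hall q h).2
  · obtain ⟨hqP, hqp, hbad⟩ := hbadF q hq
    exact (pointRep_curveSign W hΔ φ hp hp2 hW hqP hqp hbad hP hF).2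
  · obtain ⟨e₁⟩ := pointRep_residual_equiv W hΔ φ hp ι
    obtain ⟨e₂⟩ := curveResidualRepExt_baseChangeAlong W hΔ ι
      (ResidueField.map (algebraMap O O)) ι
    exact ⟨e₁.trans e₂.symm⟩
  · obtain ⟨hqP, hqp, hbad⟩ := hbadF q hq
    exact (pointRep_curveSign W hΔ φ hp hp2 hW hqP hqp hbad hP hF).1
  · have h : q ∈ (curveOddPrimes W hΔ ι hp2 hW φ hp M₀).all :=
      Finset.mem_union_left _ (Finset.mem_union_right _ hq)
    obtain ⟨hqP, hqp⟩ := hall q h
    by_cases hbad : (q : ℤ) ∣ W.Δ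
    · refine Or.inr ⟨pointRep_isUnipotentOnInertiaAt W hΔ φ hp hW hqP hqp, fun P hP F hF => ?_⟩
      rw [(pointRep_curveSign W hΔ φ hp hp2 hW hqP hqp hbad hP hF).1]
      rcases curveSign_eq_one_or_neg_one (p := p) W q with h1 | h1 <;> rw [h1] <;> push_cast <;> ring
    · exact Or.inl (pointRep_isUnramifiedAt W hΔ φ hp hqP hqp hbad)

end

end FermatLib.MLT.Odd
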