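import Fermat.Agent.MLT.Odd.AvoidBridge
import Fermat.Agent.MLT.Odd.PointPrimes
import Fermat.Agent.MLT.Odd.TraceOdd

/-!
# The seed of the lifting problem

`exists_mazur_chain` removes the superfluous primes of the level, keeping the value of `U_p`;
`exists_character_of_hasResidualTraces` brings the result back to the Hecke algebra away from the
primes of the problem, with values in the prime field; `hasSeed_curveOddPrimes_of_unit` is the seed.
-/

set_option autoImplicit false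
set_option linter.style.haveILetI false

noncomputable section

open IsLocalRing Polynomial WeierstrassCurve WeierstrassCurve.Affine WeierstrassCurve.Affine.Point
open CuspForm
open scoped WeierstrassCurve.Affine

namespace FermatLib.MLT.Odd

local notation "Qbar" => AlgebraicClosure ℚ
local notation "Γℚ" => (AlgebraicClosure ℚ ≃ₐ[ℚ] AlgebraicClosure ℚ)
local notation "ZbarC" => integralClosure ℤ ℂ

variable {p : ℕ} [Fact p.Prime]

/-- A finite chain of Mazur steps. -/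
theorem exists_mazur_chain (hMazur : MazurNonScalar) (hp2 : p ≠ 2) {k : Type} [Field k] [Finite k]
    [CharP k p] (ρbar : ResidualGaloisRep k) (hirr : ρbar.IsAbsolutelyIrreducible)
    (hdet : (GaloisRepAdic.ofResidualGaloisRep ρbar).DetIsCyclotomic p)
    (h3 : p = 3 → ∃ σ, LinearMap.det (ρbar.ρ σ) = -1 ∧ LinearMap.trace k ρbar.V (ρbar.ρ σ) ≠ 0)
    (P : k → Prop)
    (R : Finset ℕ) :
    ∀ (N : ℕ) [NeZero N] (E : Set ℕ), Squarefree N → E.Finite → p ∉ E →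
      (∀ q ∈ R, q.Prime ∧ q ∣ N ∧ q ≠ p ∧ ρbar.IsUnramifiedAt q ∧
        ¬ (q ≡ 1 [MOD p] ∧ IsScalarAt ρbar q)) →
      ∀ θ : ↥(heckeAlgebra N 2 E) →+* k, HasResidualTraces p ρbar θ →
      (∀ (hp : p.Prime) (h : p ∣ N) (hE : p ∉ E), P (θ (heckeAlgebra.U hp h hE))) →
      ∃ (N' : ℕ) (_ : NeZero N') (E' : Set ℕ) (θ' : ↥(heckeAlgebra N' 2 E') →+* k),
        N' ∣ N ∧ (p ∣ N → p ∣ N') ∧ (∀ q ∈ R, ¬ q ∣ N') ∧ E'.Finite ∧ p ∉ E' ∧ HasResidualTraces p ρbar θ' ∧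
        ∀ (hp : p.Prime) (h : p ∣ N') (hE : p ∉ E'), P (θ' (heckeAlgebra.U hp h hE)) := by
  classical
  induction R using Finset.induction_on with
  | empty =>
    intro N _ E _ hE hpE _ θ hθ hU
    exact ⟨N, inferInstance, E, θ, dvd_rfl, id, fun q hq => absurd hq (Finset.notMem_empty q),
      hE, hpE, hθ, hU⟩
  | insert q R hqR ih =>
    intro N _ E hN hE hpE hR θ hθ hU
    obtain ⟨hq, hqN, hqp, hunr, hns⟩ := hR q (Finset.mem_insert_self q R)
    have hNq : N / q * q = N := Nat.div_mul_cancel hqN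
    haveI : NeZero (N / q) := ⟨fun h0 => NeZero.ne N (by rw [← hNq, h0, zero_mul])⟩
    obtain ⟨E₀, rfl⟩ := hE.exists_finset_coe
    obtain ⟨θ', hT', hU'⟩ :=
      hMazur p hp2 k ρbar hirr hdet h3 N q hN hq hqN hqp hunr hns E₀ θ hθ
    have hdvd : N / q ∣ N := ⟨q, hNq.symm⟩
    have hndvd : ∀ ℓ : ℕ, ℓ.Prime → ℓ ≠ q → (ℓ ∣ N ↔ ℓ ∣ N / q) := fun ℓ hℓ hℓq => by
      refine ⟨fun h => ?_, fun h => h.trans hdvd⟩
      rw [← hNq] at h
      exact (hℓ.dvd_mul.mp h).resolve_right fun h' => hℓq ((Nat.prime_dvd_prime_iff_eq hℓ hq).mp h')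
    have hqNq : ¬ q ∣ N / q := fun h => by
      have h2 : q * q ∣ N := hNq ▸ Nat.mul_dvd_mul_right h q
      exact hq.not_isUnit (hN q h2)
    have hθ' : HasResidualTraces p ρbar θ' := fun ℓ hℓ hℓN hℓE hℓp A hA σ hσ => by
      have hℓq : ℓ ≠ q := fun h => hℓE (h ▸ Set.mem_insert _ _)
      have hℓN' : ¬ ℓ ∣ N := fun h => hℓN ((hndvd ℓ hℓ hℓq).mp h)
      have hℓE' : ℓ ∉ (E₀ : Set ℕ) := fun h => hℓE (Set.mem_insert_of_mem _ h)
      rw [hθ ℓ hℓ hℓN' hℓE' hℓp A hA σ hσ, hT' ℓ hℓ hℓN hℓE hℓN' hℓE']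
    obtain ⟨N', hN'0, E', θ'', hN', hpN', hR', hE', hpE', hθ'', hU''⟩ :=
      ih (N / q) (insert q (E₀ : Set ℕ)) (hN.squarefree_of_dvd hdvd)
        (E₀.finite_toSet.insert q) (fun h => h.elim (fun h' => hqp h'.symm) hpE)
        (fun r hr => by
          obtain ⟨hrP, hrN, h⟩ := hR r (Finset.mem_insert_of_mem hr)
          have hrq : r ≠ q := fun h' => hqR (h' ▸ hr)
          exact ⟨hrP, (hndvd r hrP hrq).mp hrN, h⟩)
        θ' hθ' (fun hp h hE'' => by
          rw [hU' p hp h hE'' (h.trans hdvd) hpE]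
          exact hU hp (h.trans hdvd) hpE)
    refine ⟨N', hN'0, E', θ'', hN'.trans hdvd,
      fun h => hpN' ((hndvd p Fact.out (Ne.symm hqp)).mp h), fun r hr => ?_, hE', hpE', hθ'', hU''⟩
    rcases Finset.mem_insert.mp hr with rfl | hr
    · exact fun h => hqNq (h.trans hN')
    · exact hR' r hr

variable {W : WeierstrassCurve ℤ}

/-- A residual system of the curve gives one away from any set `E'` containing the primes of the
level other than `p`, when `U_p` is `± 1` or left out. -/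
theorem exists_character_of_hasResidualTraces (hattach : Galois.PadicAttachment) (hΔ : W.Δ ≠ 0)
    {N : ℕ} [NeZero N] {k : Type} [Field k] (ι : ZMod p →+* k) {E : Set ℕ} (hE : E.Finite)
    (hpE : p ∉ E) (θ : ↥(heckeAlgebra N 2 E) →+* k)
    (hθ : HasResidualTraces p (curveResidualRepExt W hΔ p ι) θ) {E' : Set ℕ}
    (hEN : ∀ q : ℕ, q.Prime → q ∣ N → q ∉ E' → q = p) (hT : p ∉ E' → p ∣ N)
    (hU : ∀ (hp : p.Prime) (h : p ∣ N), p ∉ E' → θ (heckeAlgebra.U hp h hpE) ^ 2 = 1) :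
    ∃ θ' : ↥(heckeAlgebra N 2 E') →+* k,
      HasResidualTraces p (curveResidualRepExt W hΔ p ι) θ' ∧
      ∀ (hp : p.Prime) (h : p ∣ N) (hpE' : p ∉ E'), θ' (heckeAlgebra.U hp h hpE') ^ 2 = 1 := by
  classical
  have hpp : p.Prime := Fact.out
  haveI := Modular.heckeAlgebra_moduleFinite N 2 E
  haveI := Modular.heckeAlgebra_moduleFinite N 2 E'
  haveI : CharP k p := charP_of_injective_ringHom ι.injective p
  haveI : (RingHom.ker θ).IsPrime := RingHom.ker_isPrime θ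
  haveI : (RingHom.ker θ).IsMaximal := by
    refine Ideal.isMaximal_of_isIntegral_of_isMaximal_comap (R := ℤ) (RingHom.ker θ) ?_
    have hle : Ideal.span {(p : ℤ)} ≤ (RingHom.ker θ).comap (algebraMap ℤ _) := by
      rw [Ideal.span_singleton_le_iff_mem, Ideal.mem_comap, RingHom.mem_ker, map_natCast,
        map_natCast, CharP.cast_eq_zero]
    have hmax : (Ideal.span {(p : ℤ)}).IsMaximal := PrincipalIdealRing.isMaximal_of_irreducible
      (Nat.prime_iff_prime_int.mp hpp).irreducible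
    rw [← hmax.eq_of_le (Ideal.IsPrime.ne_top inferInstance) hle]
    exact hmax
  obtain ⟨f, χ, 𝔪, hf, hmax, hcomap, -, hχT, hχU⟩ :=
    Modular.exists_normalizedEigenform_lift_maximal_away (Modular.hasIntegralStructure N 2)
      (RingHom.ker θ)
  haveI := hmax
  letI : Field (ZbarC ⧸ 𝔪) := Ideal.Quotient.field 𝔪
  have hzero : ∀ t, θ t = 0 → Ideal.Quotient.mk 𝔪 (χ t) = 0 := fun t ht => by
    rw [Ideal.Quotient.eq_zero_iff_mem, ← Ideal.mem_comap, hcomap]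
    exact ht
  haveI : CharP (ZbarC ⧸ 𝔪) p := by
    refine (CharP.charP_iff_prime_eq_zero hpp).mpr ?_
    have h := hzero (p : ↥(heckeAlgebra N 2 E)) (by rw [map_natCast, CharP.cast_eq_zero])
    rwa [map_natCast, map_natCast] at h
  let c : ZMod p →+* ZbarC ⧸ 𝔪 := ZMod.castHom (dvd_refl p) _
  obtain ⟨ρ, hatt, -, hch⟩ := exists_attached_charpoly_eq hattach hΔ (NeZero.ne N) hf
    (k := ZbarC ⧸ 𝔪) (Ideal.Quotient.mk 𝔪) hE.toFinset fun ℓ hℓ hg hℓN hℓp hℓE => by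
      rw [Set.Finite.mem_toFinset] at hℓE
      refine ⟨χ (heckeAlgebra.T hℓ hℓN hℓE), hχT ℓ hℓ hℓN hℓE, ?_⟩
      obtain ⟨A, hA⟩ := Basic.exists_liesOverPrime hℓ
      obtain ⟨σ, hσ⟩ := Basic.exists_isFrobeniusAt hℓ A hA
      have h := hzero (heckeAlgebra.T hℓ hℓN hℓE -
          ((W.apOfModel ℓ : ℤ) : ↥(heckeAlgebra N 2 E))) (by
        rw [map_sub, map_intCast, ← hθ ℓ hℓ hℓN hℓE hℓp A hA σ hσ,
          trace_curveResidualRepExt_frobenius hΔ ι hℓ hg hℓp hA hσ, sub_self])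
      rwa [map_sub, map_intCast, map_sub, map_intCast, sub_eq_zero] at h
  obtain ⟨ξ, -, hξT, hξU⟩ := Galois.exists_eigenformCharacter (S := E') hf
  let η : ↥(heckeAlgebra N 2 E') →+* ZbarC ⧸ 𝔪 := (Ideal.Quotient.mk 𝔪).comp ξ
  have hfrob : ∀ (ℓ : ℕ) (hℓ : ℓ.Prime) (hℓN : ¬ ℓ ∣ N) (hℓE : ℓ ∉ E'), ℓ ≠ p →
      ∀ A : ValuationSubring Qbar, A.LiesOverPrime ℓ → ∀ σ : Γℚ, A.IsFrobeniusAt σ ℓ →
        η (heckeAlgebra.T hℓ hℓN hℓE) =
          c (galoisTrace (K := Qbar) ℚ (W.map (Int.castRingHom ℚ)) p σ) :=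
    fun ℓ hℓ hℓN hℓE hℓp A hA σ hσ => by
      have hℓ0 : (ℓ : ZbarC ⧸ 𝔪) ≠ 0 := fun h0 => hℓp
        ((Nat.prime_dvd_prime_iff_eq hpp hℓ).1 ((CharP.cast_eq_zero_iff _ p _).1 h0)).symm
      obtain ⟨a, ha, hpoly⟩ := hatt ℓ hℓ hℓN hℓ0 A hA σ hσ
      have h1 := (Galois.trace_det_of_linearMap_charpoly_eq ρ.finrank_eq _ hpoly).1
      rw [(Galois.trace_det_of_linearMap_charpoly_eq ρ.finrank_eq _ (hch σ)).1] at h1
      exact (congrArg (Ideal.Quotient.mk 𝔪)
        (Subtype.ext ((hξT ℓ hℓ hℓN hℓE).trans ha.symm))).trans h1.symm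
  have hUp : ∀ (h : p ∣ N) (hpE' : p ∉ E'), η (heckeAlgebra.U hpp h hpE') ^ 2 = 1 :=
    fun h hpE' => by
      have h1 := hzero (heckeAlgebra.U hpp h hpE ^ 2 - 1)
        (by rw [map_sub, map_pow, map_one, hU hpp h hpE', sub_self])
      rw [map_sub, map_pow, map_one, map_sub, map_pow, map_one, sub_eq_zero] at h1
      rw [← h1]
      exact congrArg (fun z => Ideal.Quotient.mk 𝔪 z ^ 2)
        (Subtype.ext ((hξU p hpp h hpE').trans (hχU p hpp h hpE).symm))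
  have hrange : ∀ t, η t ∈ c.range := by
    rintro ⟨t, ht⟩
    induction ht using Algebra.adjoin_induction with
    | mem x hx =>
      rcases hx with ⟨ℓ, hℓ, hℓN, hℓE, rfl⟩ | ⟨q, hqN, hq, hqE, rfl⟩
      · have hℓp : ℓ ≠ p := fun h => hℓN (h.symm ▸ hT (h ▸ hℓE))
        obtain ⟨A, hA⟩ := Basic.exists_liesOverPrime hℓ
        obtain ⟨σ, hσ⟩ := Basic.exists_isFrobeniusAt hℓ A hA
        exact ⟨_, (hfrob ℓ hℓ hℓN hℓE hℓp A hA σ hσ).symm⟩
      · obtain rfl := hEN q hq hqN hqE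
        rcases sq_eq_one_iff.mp (hUp hqN hqE) with h | h
        · exact ⟨1, (map_one c).trans h.symm⟩
        · exact ⟨-1, (by rw [map_neg, map_one] : c (-1) = -1).trans h.symm⟩
    | algebraMap r =>
      exact ⟨(r : ZMod p), by rw [map_intCast]; exact (map_intCast η r).symm⟩
    | add x y hx hy hx' hy' => exact (map_add η ⟨x, hx⟩ ⟨y, hy⟩) ▸ add_mem hx' hy'
    | mul x y hx hy hx' hy' => exact (map_mul η ⟨x, hx⟩ ⟨y, hy⟩) ▸ mul_mem hx' hy'
  let e : ZMod p ≃+* c.range := RingEquiv.ofBijective c.rangeRestrict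
    ⟨fun a b h => c.injective (congrArg Subtype.val h), c.rangeRestrict_surjective⟩
  let g : ↥(heckeAlgebra N 2 E') →+* ZMod p := e.symm.toRingHom.comp (η.codRestrict c.range hrange)
  have hg : ∀ t, c (g t) = η t := fun t =>
    congrArg Subtype.val (e.apply_symm_apply (η.codRestrict c.range hrange t))
  refine ⟨ι.comp g, fun ℓ hℓ hℓN hℓE hℓp A hA σ hσ => ?_, fun hp h hpE' => ?_⟩
  · rw [trace_curveResidualRepExt, RingHom.comp_apply]
    exact congrArg ι (c.injective ((hfrob ℓ hℓ hℓN hℓE hℓp A hA σ hσ).symm.trans (hg _).symm))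
  · have hc : c (g (heckeAlgebra.U hp h hpE') ^ 2) = c 1 := by
      rw [map_pow, hg, map_one]; exact hUp h hpE'
    rw [RingHom.comp_apply, ← map_pow, c.injective hc, map_one]

/-- The seed of the lifting problem from a residual system with `U_p ^ 2 = 1` in the mixed case. -/
theorem hasSeed_curveOddPrimes_of_unit (hattach : Galois.PadicAttachment) (hMazur : MazurNonScalar)
    (hΔ : W.Δ ≠ 0) {O : Type} [CommRing O] [IsLocalRing O]
    [Finite (ResidueField O)] (φ : ℤ_[p] →+* O) (hp : (p : O) ∈ maximalIdeal O)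
    (ι : ZMod p →+* ResidueField O) (hp2 : p ≠ 2) (hW : W.IsSemistableModel)
    (hres : OddResidual p (curveResidualRepExt W hΔ p ι)) (hirrW : W.ModRepIsIrreducible p)
    {M₀ : ℕ} [NeZero M₀]
    (hsq : Squarefree M₀) (hpM : p ∣ M₀ ↔ (p : ℤ) ∣ W.Δ)
    (θ₁ : ↥(heckeAlgebra M₀ 2 (∅ : Set ℕ)) →+* ResidueField O)
    (hθ₁ : HasResidualTraces p (curveResidualRepExt W hΔ p ι) θ₁)
    (hU₁ : ∀ (hp' : p.Prime) (h : p ∣ M₀) (hE : p ∉ (∅ : Set ℕ)),
      (curveOddPrimes W hΔ ι hp2 hW φ hp M₀).pCase = PCase.mixed →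
        θ₁ (heckeAlgebra.U hp' h hE) ^ 2 = 1) :
    HasSeed (curveOddPrimes W hΔ ι hp2 hW φ hp M₀) := by
  classical
  haveI : CharP (ResidueField O) p := charP_of_injective_ringHom ι.injective p
  set S := curveOddPrimes W hΔ ι hp2 hW φ hp M₀ with hS
  have hflat : S.pCase = PCase.flat ↔ ¬ p ∣ M₀ := by
    rw [hS, curveOddPrimes_pCase_flat_iff, hpM]
  have hmix : S.pCase = PCase.mixed → p ∣ M₀ := fun h => by
    by_contra hd
    rw [hflat.mpr hd] at h
    exact PCase.noConfusion h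
  let R : Finset ℕ := M₀.primeFactors.filter fun q => q ≠ p ∧ q ∉ S.Smin ∪ S.T
  obtain ⟨N, hN0, E, θ₂, hN, hpN, hR, hEfin, hpE, hθ₂, hU₂⟩ :=
    exists_mazur_chain hMazur hp2 (curveResidualRepExt W hΔ p ι) hres.absIrred hres.det
      (exists_det_neg_one_trace_ne_zero W hΔ ι hW hirrW)
      (fun a => S.pCase = PCase.mixed → a ^ 2 = 1) R M₀ ∅ hsq Set.finite_empty
      (Set.notMem_empty p) (fun q hq => by
        obtain ⟨hqf, hqp, hqn⟩ := Finset.mem_filter.mp hq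
        obtain ⟨hqP, hqM, -⟩ := Nat.mem_primeFactors.mp hqf
        exact ⟨hqP, hqM, hqp, mazur_removable W hΔ φ hp ι hp2 hW M₀ hqP hqp hqM (NeZero.ne M₀) hqn⟩)
      θ₁ hθ₁ hU₁
  have hmem : ∀ q : ℕ, q.Prime → q ∣ N → q ≠ p → q ∈ S.Smin ∪ S.T := fun q hq hqN hqp => by
    by_contra hn
    exact hR q (Finset.mem_filter.mpr
      ⟨Nat.mem_primeFactors.mpr ⟨hq, hqN.trans hN, NeZero.ne M₀⟩, hqp, hn⟩) hqN
  have hall : (S.all : Set ℕ) ⊆ S.seedExcluded := by
    rw [OddPrimes.seedExcluded]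
    split_ifs
    exacts [subset_rfl, Set.subset_insert _ _]
  have hmixed : p ∉ S.seedExcluded → S.pCase = PCase.mixed := fun h => by
    by_contra hm
    rw [OddPrimes.seedExcluded, if_neg hm] at h
    exact h (Set.mem_insert p _)
  obtain ⟨θ₃, hθ₃, hU₃⟩ := exists_character_of_hasResidualTraces hattach hΔ ι hEfin hpE θ₂ hθ₂
    (E' := S.seedExcluded)
    (fun q hq hqN hqE => by_contra fun hqp => hqE (hall
      (Finset.mem_union_left _ (hmem q hq hqN hqp))))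
    (fun h => hpN (hmix (hmixed h)))
    (fun hp h hE' => hU₂ hp h hpE (hmixed hE'))
  refine ⟨N, hN0, hsq.squarefree_of_dvd hN, fun q hq hqN => ?_, θ₃, hθ₃, fun hp hpE' =>
    ⟨fun h => hU₃ hp h hpE', fun h => absurd (hpN (hmix (hmixed hpE'))) h⟩⟩
  by_cases hqp : q = p
  · subst hqp
    exact Or.inr ⟨rfl, fun h => hflat.mp h (hqN.trans hN)⟩
  · exact Or.inl (hmem q hq hqN hqp)

end FermatLib.MLT.Odd

end
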