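import Mathlib

/-!
# `p`-th powers among the units of `ℤ_p`, `p` odd
-/

set_option autoImplicit false

noncomputable section

namespace FermatLib.MLT.Odd.LocP

theorem exists_one_add_pow {A : Type*} [CommRing A] (x : A) (n : ℕ) :
    ∃ c, (1 + x) ^ n = 1 + n * x + n.choose 2 * x ^ 2 + x ^ 3 * c := by
  induction n with
  | zero => exact ⟨0, by simp⟩
  | succ n ih =>
    obtain ⟨c, hc⟩ := ih
    refine ⟨c + n.choose 2 + x * c, ?_⟩
    rw [pow_succ, hc, Nat.choose_succ_succ', Nat.choose_one_right]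
    push_cast
    ring

variable {p : ℕ} [Fact p.Prime]

theorem exists_pow_prime_expand (hp2 : p ≠ 2) (s : ℤ_[p]) :
    ∃ c : ℤ_[p], (1 + (p : ℤ_[p]) * s) ^ p = 1 + (p : ℤ_[p]) ^ 2 * s + (p : ℤ_[p]) ^ 3 * c := by
  have hp := (Fact.out : p.Prime)
  obtain ⟨c, hc⟩ := exists_one_add_pow ((p : ℤ_[p]) * s) p
  obtain ⟨d, hd⟩ := hp.dvd_choose_self two_ne_zero (lt_of_le_of_ne hp.two_le (Ne.symm hp2))
  refine ⟨d * s ^ 2 + s ^ 3 * c, ?_⟩
  rw [hc, hd]
  push_cast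
  ring

theorem isUnit_one_add_p_mul (x : ℤ_[p]) : IsUnit (1 + (p : ℤ_[p]) * x) := by
  rw [PadicInt.isUnit_iff]
  refine le_antisymm (PadicInt.norm_le_one _) (not_lt.1 fun h => ?_)
  rw [PadicInt.norm_lt_one_iff_dvd] at h
  have h1 : (p : ℤ_[p]) ∣ 1 := (dvd_add_left (dvd_mul_right _ x)).1 h
  exact PadicInt.prime_p.not_isUnit (isUnit_of_dvd_one h1)

theorem exists_eq_add_p_mul_of_toZMod_eq {x y : ℤ_[p]}
    (h : PadicInt.toZMod x = PadicInt.toZMod y) : ∃ t, x = y + (p : ℤ_[p]) * t := by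
  have : x - y ∈ RingHom.ker (PadicInt.toZMod : ℤ_[p] →+* ZMod p) := by
    rw [RingHom.mem_ker, map_sub, h, sub_self]
  rw [PadicInt.ker_toZMod, PadicInt.maximalIdeal_eq_span_p, Ideal.mem_span_singleton] at this
  obtain ⟨t, ht⟩ := this
  exact ⟨t, by rw [← ht]; ring⟩

/-- `1 + p` is not a `p`-th power. -/
theorem pow_ne_one_add_p (hp2 : p ≠ 2) (r : ℤ_[p]) : r ^ p ≠ 1 + (p : ℤ_[p]) := by
  intro h
  have h1 : PadicInt.toZMod r = PadicInt.toZMod (1 : ℤ_[p]) := by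
    have := congrArg PadicInt.toZMod h
    rw [map_pow, ZMod.pow_card] at this
    simpa using this
  obtain ⟨s, rfl⟩ := exists_eq_add_p_mul_of_toZMod_eq h1
  obtain ⟨c, hc⟩ := exists_pow_prime_expand hp2 s
  rw [hc] at h
  have h2 : (p : ℤ_[p]) * ((p : ℤ_[p]) * (s + (p : ℤ_[p]) * c)) = (p : ℤ_[p]) * 1 := by
    linear_combination h
  exact PadicInt.prime_p.not_isUnit
    (IsUnit.of_mul_eq_one _ (mul_left_cancel₀ PadicInt.prime_p.ne_zero h2))

/-- Units are powers of `1 + p` up to `p`-th powers, after raising to `p - 1`. -/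
theorem exists_unit_decomp (hp2 : p ≠ 2) {u : ℤ_[p]} (hu : IsUnit u) :
    ∃ (a : ℕ) (r : ℤ_[p]), u ^ (p - 1) = (1 + (p : ℤ_[p])) ^ a * r ^ p := by
  obtain ⟨t, ht⟩ := exists_eq_add_p_mul_of_toZMod_eq (x := u ^ (p - 1)) (y := 1) <| by
    rw [map_pow, map_one, ZMod.pow_card_sub_one_eq_one (hu.map PadicInt.toZMod).ne_zero]
  set a := (PadicInt.toZMod t).val with ha
  obtain ⟨e, he⟩ := exists_eq_add_p_mul_of_toZMod_eq (x := t) (y := (a : ℤ_[p])) <| by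
    rw [map_natCast, ha, ZMod.natCast_val, ZMod.cast_id]
  obtain ⟨c, hc⟩ := exists_one_add_pow (p : ℤ_[p]) a
  set d := e - (a.choose 2 : ℤ_[p]) - (p : ℤ_[p]) * c with hd
  obtain ⟨A, hA⟩ : ∃ A, A = (1 + (p : ℤ_[p])) ^ a := ⟨_, rfl⟩
  obtain ⟨c', hc'⟩ := exists_pow_prime_expand hp2 d
  have hAu : IsUnit A := by
    rw [hA, ← mul_one (p : ℤ_[p])]
    exact (isUnit_one_add_p_mul 1).pow a
  obtain ⟨w, hw⟩ : ∃ w, w = u ^ (p - 1) := ⟨_, rfl⟩
  rw [← hw] at ht ⊢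
  set F : Polynomial ℤ_[p] := Polynomial.C A * Polynomial.X ^ p - Polynomial.C w
  have hval : Polynomial.aeval (1 + (p : ℤ_[p]) * d) F = (p : ℤ_[p]) ^ 3 *
      (A * c' + d * ((a : ℤ_[p]) + a.choose 2 * (p : ℤ_[p]) + (p : ℤ_[p]) ^ 2 * c)) := by
    simp only [F, map_sub, map_mul, map_pow, Polynomial.aeval_C, Polynomial.aeval_X,
      Algebra.algebraMap_self, RingHom.id_apply]
    rw [hc', ht, he, hA, hc, hd]
    ring
  have hder : Polynomial.aeval (1 + (p : ℤ_[p]) * d) F.derivative =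
      A * ((p : ℤ_[p]) * (1 + (p : ℤ_[p]) * d) ^ (p - 1)) := by
    simp only [F, Polynomial.derivative_sub, Polynomial.derivative_C_mul,
      Polynomial.derivative_X_pow]
    simp
  obtain ⟨z, hz, -⟩ := hensels_lemma (F := F) (a := 1 + (p : ℤ_[p]) * d) <| by
    rw [hval, hder, norm_mul, norm_mul, norm_mul, norm_pow, norm_pow, PadicInt.isUnit_iff.1 hAu,
      PadicInt.isUnit_iff.1 (isUnit_one_add_p_mul d), PadicInt.norm_p, one_pow, mul_one, one_mul]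
    have hp1 : (p : ℝ)⁻¹ < 1 :=
      inv_lt_one_of_one_lt₀ (by exact_mod_cast (Fact.out : p.Prime).one_lt)
    have hp0 : 0 < (p : ℝ)⁻¹ := by
      have := (Fact.out : p.Prime).pos
      positivity
    calc _ ≤ ((p : ℝ)⁻¹) ^ 3 * 1 :=
          mul_le_mul_of_nonneg_left (PadicInt.norm_le_one _) (pow_nonneg hp0.le 3)
      _ < ((p : ℝ)⁻¹) ^ 2 := by
          rw [mul_one]; exact pow_lt_pow_right_of_lt_one₀ hp0 hp1 (by norm_num)
  refine ⟨a, z, ?_⟩
  rw [← hA]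
  simp only [F, map_sub, map_mul, map_pow, Polynomial.aeval_C, Polynomial.aeval_X,
    Algebra.algebraMap_self, RingHom.id_apply, sub_eq_zero] at hz
  exact hz.symm

end FermatLib.MLT.Odd.LocP

end
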