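import Fermat.Agent.MLT.Odd.LocalPKummer
import Fermat.Agent.MLT.Odd.LocalPUnits
import Fermat.Agent.CFT.GWDefs

/-!
# The two coordinates of a class of `ℚ_q` with values in `μ_{q ^ N}`

`τ₂` is inertial and sees only the valuation, `τ₁` sees the unit `1 + q`.
-/

set_option autoImplicit false

noncomputable section

open FermatLib.CFT IntermediateField

namespace FermatLib.MLT.Odd.LocP

variable {q : Nat.Primes}

/-- The units whose `q ^ N`-th power is fixed by inertia. -/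
def tameUnits (q : Nat.Primes) (N : ℕ) : Submonoid (PadicAlgCl (q : ℕ)) where
  carrier := {x | ‖x‖ = 1 ∧ ∀ σ ∈ inertialGroup q, σ (x ^ (q : ℕ) ^ N) = x ^ (q : ℕ) ^ N}
  one_mem' := ⟨norm_one, fun σ _ => by simp⟩
  mul_mem' {x y} hx hy := ⟨by rw [norm_mul, hx.1, hy.1, one_mul],
    fun σ hσ => by rw [mul_pow, map_mul, hx.2 σ hσ, hy.2 σ hσ]⟩

theorem ne_zero_of_mem_tameUnits {N : ℕ} {x : PadicAlgCl (q : ℕ)} (hx : x ∈ tameUnits q N) :
    x ≠ 0 := norm_ne_zero_iff.1 (by rw [hx.1]; exact one_ne_zero)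

theorem tameUnits_mono {M N : ℕ} (h : M ≤ N) {x : PadicAlgCl (q : ℕ)} (hx : x ∈ tameUnits q M) :
    x ∈ tameUnits q N := ⟨hx.1, fun σ hσ => by
  rw [← Nat.add_sub_cancel' h, pow_add, pow_mul, map_pow, hx.2 σ hσ]⟩

theorem mem_tameUnits_of_root {N : ℕ} {ω : PadicAlgCl (q : ℕ)} (hω : ω ^ (q : ℕ) ^ N = 1) :
    ω ∈ tameUnits q N :=
  ⟨Loc.norm_eq_one_of_pow_eq_one (pow_ne_zero _ q.2.ne_zero) hω, fun σ _ => by rw [hω, map_one]⟩

theorem apply_mem_tameUnits {N : ℕ} (g : Gloc q) {x : PadicAlgCl (q : ℕ)}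
    (hx : x ∈ tameUnits q N) : g x ∈ tameUnits q N := ⟨by rw [Loc.norm_gloc, hx.1], fun σ hσ => by
  have h := hx.2 _ (conj_mem_inertialGroup g⁻¹ hσ)
  rw [inv_inv, AlgEquiv.mul_apply, AlgEquiv.mul_apply, map_pow g] at h
  have h2 := congrArg g h
  rw [show ∀ z, g (g⁻¹ z) = z from g.apply_symm_apply, map_pow g] at h2
  exact h2⟩

/-- A generator of the valuation direction of inertia. -/
structure IsValGen (τ : Gloc q) : Prop where
  inertial : τ ∈ inertialGroup q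
  fix : ∀ (N : ℕ) (x : PadicAlgCl (q : ℕ)), x ∈ tameUnits q N → τ x = x
  moves : ∀ y : PadicAlgCl (q : ℕ), y ^ (q : ℕ) = (q : ℕ) → τ y ≠ y

theorem IsValGen.fix_root {τ : Gloc q} (hτ : IsValGen τ) {N : ℕ} {ω : PadicAlgCl (q : ℕ)}
    (hω : ω ^ (q : ℕ) ^ N = 1) : τ ω = ω := hτ.fix N ω (mem_tameUnits_of_root hω)

theorem exists_isValGen (hq2 : (q : ℕ) ≠ 2) : ∃ τ : Gloc q, IsValGen τ := by
  classical
  obtain ⟨y0, h0⟩ :=
    IsAlgClosed.exists_pow_nat_eq ((q : ℕ) : PadicAlgCl (q : ℕ)) q.2.pos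
  have hq0 : ((q : ℕ) : PadicAlgCl (q : ℕ)) ≠ 0 := Nat.cast_ne_zero.2 q.2.ne_zero
  have hy0 : y0 ≠ 0 := fun h => hq0 (by rw [← h0, h, zero_pow q.2.ne_zero])
  obtain ⟨τ, hτ⟩ := Loc.exists_gloc_of_finite (q := q) (fun x y => (‖x‖ ≤ 1 → ‖y - x‖ < 1) ∧
      (x = y0 → y ≠ x) ∧ ((∃ N, x ∈ tameUnits q N) → y = x)) fun s => by
    let s' := s.filter fun x => ∃ N, x ∈ tameUnits q N
    have hs' : ∀ x ∈ s', ∃ N, x ∈ tameUnits q N := fun x hx => (Finset.mem_filter.1 hx).2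
    let Nf : PadicAlgCl (q : ℕ) → ℕ := fun x =>
      if h : ∃ N, x ∈ tameUnits q N then h.choose else 0
    set N := s'.sup Nf + 1 with hN
    have hsP : ∀ x ∈ s', x ∈ tameUnits q N := fun x hx => by
      refine tameUnits_mono ?_ (hs' x hx).choose_spec
      have h : Nf x ≤ s'.sup Nf := Finset.le_sup hx
      have e : Nf x = (hs' x hx).choose := dif_pos _
      omega
    by_contra hcon
    push Not at hcon
    set G := inertialGroup q ⊓ rootFixer q N with hG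
    have hfix : ∀ σ ∈ G, (∀ x ∈ s', σ x = x) → σ y0 = y0 := fun σ hσ hσs => by
      by_contra hne
      obtain ⟨x, hx, h1⟩ := hcon σ
      obtain ⟨hgood, hmove⟩ := h1 (fun hx1 => hσ.1 x hx1) (by rintro rfl; exact hne)
      exact hmove (hσs x (Finset.mem_filter.2 ⟨hx, hgood⟩))
    have hy0N : ∀ σ : Gloc q, σ (y0 ^ (q : ℕ) ^ N) = y0 ^ (q : ℕ) ^ N := fun σ => by
      rw [hN, pow_succ', pow_mul, h0, map_pow, map_natCast]
    obtain ⟨z, hz, hzfix⟩ := exists_div_fixed (tameUnits q N)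
      (fun x hx => ne_zero_of_mem_tameUnits hx) s' G inf_le_right (fun σ hσ x hx => hx.2 σ hσ.1)
      y0 hy0 (fun σ _ => hy0N σ) hsP hfix
    have hz0 := ne_zero_of_mem_tameUnits hz
    have : NeZero ((q : ℕ) ^ N) := ⟨pow_ne_zero _ q.2.ne_zero⟩
    obtain ⟨ζ, hζ⟩ :=
      HasEnoughRootsOfUnity.exists_primitiveRoot (PadicAlgCl (q : ℕ)) ((q : ℕ) ^ N)
    have hdvd : ¬ (q : ℕ) ∣ (q : ℕ) ^ N - 1 := fun h => by
      have h1 : 1 ≤ (q : ℕ) ^ N := Nat.one_le_pow _ _ q.2.pos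
      have h2 := Nat.dvd_sub (dvd_pow_self (q : ℕ) (show N ≠ 0 by omega)) h
      rw [Nat.sub_sub_self h1] at h2
      exact q.2.ne_one (Nat.dvd_one.1 h2)
    obtain ⟨t, ht, htζ⟩ := Loc.exists_inertial_rootOfUnity (k := N - 1)
      (by rwa [Nat.sub_add_cancel (by omega : 1 ≤ N)]) hdvd
    obtain ⟨ω, hω, hωfix⟩ := exists_mul_fixed hq2 (inertialGroup q) (N := N)
      (div_ne_zero hy0 hz0) (fun σ hσ => by rw [div_pow, map_div₀, hy0N, hz.2 σ hσ])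
      (fun σ hσ hσr => hzfix σ ⟨hσ, hσr⟩) ht fun w hw => by
        obtain ⟨i, -, rfl⟩ := hζ.eq_pow_of_pow_eq_one hw
        refine eq_inv_of_mul_eq_one_left ?_
        rw [map_pow, htζ, ← mul_pow, pow_sub_one_mul (pow_ne_zero _ q.2.ne_zero), hζ.pow_eq_one,
          one_pow]
    have hω0 : ω ≠ 0 := fun h => by
      rw [h, zero_pow (pow_ne_zero _ q.2.ne_zero)] at hω
      exact zero_ne_one hω
    obtain ⟨k, hk⟩ := exists_zpow_eq_norm_of_fixed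
      (mul_ne_zero (div_ne_zero hy0 hz0) hω0) hωfix
    rw [norm_mul, norm_div, hz.1, Loc.norm_eq_one_of_pow_eq_one (pow_ne_zero _ q.2.ne_zero) hω,
      div_one, mul_one] at hk
    have h1 := congrArg (fun r : ℝ => r ^ (q : ℕ)) hk
    simp only [← norm_pow, h0, Loc.norm_natCast_q] at h1
    rw [← zpow_neg_one, ← zpow_natCast, ← zpow_mul] at h1
    have h2 : (-1 : ℤ) = k * (q : ℕ) :=
      zpow_right_injective₀ (Nat.cast_pos.2 q.2.pos) (by exact_mod_cast q.2.ne_one) h1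
    have h3 : ((q : ℕ) : ℤ) ∣ ((1 : ℕ) : ℤ) := Dvd.intro_left (-k) (by push_cast; linarith)
    exact q.2.ne_one (Nat.dvd_one.1 (Int.natCast_dvd_natCast.1 h3))
  refine ⟨τ, fun x => (hτ x).1, fun N x hx => (hτ x).2.2 ⟨N, hx⟩, fun y hy hfix => ?_⟩
  have hroot : (y / y0) ^ (q : ℕ) ^ 1 = 1 := by rw [pow_one, div_pow, hy, h0, div_self hq0]
  refine (hτ y0).2.1 rfl ?_
  have h := (hτ (y / y0)).2.2 ⟨1, mem_tameUnits_of_root hroot⟩
  rw [map_div₀, hfix] at h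
  have hy' : y ≠ 0 := fun e => hq0 (by rw [← hy, e, zero_pow q.2.ne_zero])
  rw [div_eq_div_iff ((map_ne_zero τ).2 hy0) hy0] at h
  exact (mul_left_cancel₀ hy' h).symm

theorem mem_base_of_fixed {x : PadicAlgCl (q : ℕ)} (hx : ∀ σ : Gloc q, σ x = x) :
    ∃ r : ℚ_[(q : ℕ)], algebraMap ℚ_[(q : ℕ)] (PadicAlgCl (q : ℕ)) r = x :=
  (InfiniteGalois.mem_range_algebraMap_iff_fixed x).2 hx

/-- An element fixing the `q`-th roots of unity and moving a root of `1 + q`. -/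
theorem exists_unitGen (hq2 : (q : ℕ) ≠ 2) : ∃ τ : Gloc q, τ ∈ rootFixer q 1 ∧
    ∀ y : PadicAlgCl (q : ℕ), y ^ (q : ℕ) = 1 + (q : ℕ) → τ y ≠ y := by
  obtain ⟨y1, h1⟩ := IsAlgClosed.exists_pow_nat_eq (1 + ((q : ℕ) : PadicAlgCl (q : ℕ))) q.2.pos
  have hne : (1 + ((q : ℕ) : PadicAlgCl (q : ℕ))) ≠ 0 := by
    rw [add_comm, ← Nat.cast_add_one]; exact Nat.cast_ne_zero.2 (by omega)
  have hy1 : y1 ≠ 0 := fun h => hne (by rw [← h1, h, zero_pow q.2.ne_zero])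
  suffices ∃ τ ∈ rootFixer q 1, τ y1 ≠ y1 by
    obtain ⟨τ, hτ, hmove⟩ := this
    refine ⟨τ, hτ, fun y hy hfix => hmove ?_⟩
    have h := hτ (y / y1) (by rw [pow_one, div_pow, hy, h1, div_self hne])
    rw [map_div₀, hfix, div_eq_div_iff ((map_ne_zero τ).2 hy1) hy1] at h
    exact (mul_left_cancel₀ (fun e => hne (by rw [← hy, e, zero_pow q.2.ne_zero])) h).symm
  by_contra hcon
  push Not at hcon
  have : NeZero (q : ℕ) := ⟨q.2.ne_zero⟩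
  obtain ⟨ζ, hζ⟩ := HasEnoughRootsOfUnity.exists_primitiveRoot (PadicAlgCl (q : ℕ)) (q : ℕ)
  have hdvd : ¬ (q : ℕ) ∣ (q : ℕ) - 1 := fun h => by
    exact absurd (Nat.le_of_dvd (Nat.sub_pos_of_lt q.2.one_lt) h)
      (Nat.sub_lt q.2.pos one_pos).not_ge
  obtain ⟨t, -, htζ⟩ := Loc.exists_inertial_rootOfUnity (k := 0) (by simpa using hζ) hdvd
  obtain ⟨ω, hω, hfix⟩ := exists_mul_fixed hq2 ⊤ (N := 1) hy1
    (fun σ _ => by rw [pow_one, h1, map_add, map_one, map_natCast])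
    (fun σ _ hσ => hcon σ hσ) (Subgroup.mem_top t) fun w hw => by
      rw [pow_one] at hw
      obtain ⟨i, -, rfl⟩ := hζ.eq_pow_of_pow_eq_one hw
      refine eq_inv_of_mul_eq_one_left ?_
      rw [map_pow, htζ, ← mul_pow, pow_sub_one_mul q.2.ne_zero, hζ.pow_eq_one, one_pow]
  rw [pow_one] at hω
  obtain ⟨r, hr⟩ := mem_base_of_fixed fun σ => hfix σ (Subgroup.mem_top σ)
  have hr' : r ^ (q : ℕ) = 1 + ((q : ℕ) : ℚ_[(q : ℕ)]) := by
    apply (algebraMap ℚ_[(q : ℕ)] (PadicAlgCl (q : ℕ))).injective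
    rw [map_pow, hr, mul_pow, hω, mul_one, h1, map_add, map_one, map_natCast]
  have hnr : ‖r‖ ≤ 1 := by
    refine (pow_le_one_iff_of_nonneg (norm_nonneg r) q.2.ne_zero).1 ?_
    rw [← norm_pow, hr']
    exact ((1 + (q : ℕ) : ℤ_[(q : ℕ)]) : ℤ_[(q : ℕ)]).2
  exact pow_ne_one_add_p hq2 ⟨r, hnr⟩ (Subtype.ext (by simpa using hr'))

/-- A class killed by both coordinates is trivial. -/
theorem exists_root_of_cocycle (hq2 : (q : ℕ) ≠ 2) {τ₁ τ₂ : Gloc q} (hτ₁ : τ₁ ∈ rootFixer q 1)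
    (hτ₁' : ∀ y : PadicAlgCl (q : ℕ), y ^ (q : ℕ) = 1 + (q : ℕ) → τ₁ y ≠ y) (hτ₂ : IsValGen τ₂)
    (f : Gloc q → PadicAlgCl (q : ℕ)) (hf : ∀ σ τ, f (σ * τ) = f σ * σ (f τ))
    (hval : ∀ σ, f σ ^ (q : ℕ) = 1) (E : LocalField q) [FiniteDimensional ℚ_[(q : ℕ)] E]
    [Normal ℚ_[(q : ℕ)] E] (hE : ∀ σ, Loc.FixesField E σ → f σ = 1)
    (h1 : f τ₁ = 1) (h2 : f τ₂ = 1) :
    ∃ ζ : PadicAlgCl (q : ℕ), ζ ^ (q : ℕ) = 1 ∧ ∀ σ, σ ζ = f σ * ζ := by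
  have hq0 : ((q : ℕ) : PadicAlgCl (q : ℕ)) ≠ 0 := Nat.cast_ne_zero.2 q.2.ne_zero
  have hf0 : ∀ σ, f σ ≠ 0 := fun σ h => by
    have := hval σ; rw [h, zero_pow q.2.ne_zero] at this; exact zero_ne_one this
  obtain ⟨y, hy0, hy⟩ := exists_coboundary ⊤ E f (fun σ _ => hf0 σ) (fun σ _ τ _ => hf σ τ)
    (fun σ _ => hE σ)
  replace hy : ∀ σ, σ y = f σ * y := fun σ => hy σ (Subgroup.mem_top σ)
  obtain ⟨α, hα⟩ := mem_base_of_fixed (x := y ^ (q : ℕ)) fun σ => by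
    rw [map_pow, hy, mul_pow, hval, one_mul]
  have hα0 : α ≠ 0 := fun h => pow_ne_zero _ hy0 (by rw [← hα, h, map_zero])
  obtain ⟨y0, h0⟩ := IsAlgClosed.exists_pow_nat_eq ((q : ℕ) : PadicAlgCl (q : ℕ)) q.2.pos
  have hy00 : y0 ≠ 0 := fun h => hq0 (by rw [← h0, h, zero_pow q.2.ne_zero])
  set v : ℤ := Padic.valuation α with hv
  set w := y / y0 ^ v with hw
  set u : ℚ_[(q : ℕ)] := α / ((q : ℕ) : ℚ_[(q : ℕ)]) ^ v with hu
  have hu1 : ‖u‖ = 1 := by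
    rw [hu, norm_div, norm_zpow, Padic.norm_p, Padic.norm_eq_zpow_neg_valuation hα0, ← hv, inv_zpow',
      div_self]
    exact zpow_ne_zero _ (Nat.cast_ne_zero.2 q.2.ne_zero)
  have hwq : w ^ (q : ℕ) = algebraMap ℚ_[(q : ℕ)] (PadicAlgCl (q : ℕ)) u := by
    rw [hw, div_pow, ← hα, hu, map_div₀, map_zpow₀, map_natCast, ← zpow_natCast (y0 ^ v),
      ← zpow_mul, mul_comm, zpow_mul, zpow_natCast, h0]
  have hw1 : ‖w‖ = 1 := by
    refine (pow_eq_one_iff_of_nonneg (norm_nonneg w) q.2.ne_zero).1 ?_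
    rw [← norm_pow, hwq, norm_algebraMap', hu1]
  have hwmem : w ∈ tameUnits q 1 := ⟨hw1, fun σ _ => by rw [pow_one, hwq, AlgEquiv.commutes]⟩
  have hvdvd : ((q : ℕ) : ℤ) ∣ v := by
    have hτw := hτ₂.fix 1 w hwmem
    rw [hw, map_div₀, hy, h2, one_mul, map_zpow₀] at hτw
    have hr : (τ₂ y0 / y0) ^ v = 1 := by
      rw [div_zpow, div_eq_one_iff_eq (zpow_ne_zero _ hy00)]
      rw [div_eq_div_iff (zpow_ne_zero _ ((map_ne_zero τ₂).2 hy00)) (zpow_ne_zero _ hy00)] at hτw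
      exact (mul_left_cancel₀ hy0 hτw).symm
    have hp : IsPrimitiveRoot (τ₂ y0 / y0) (q : ℕ) := by
      have hne : ¬ (τ₂ y0 / y0 = 1) := fun h => hτ₂.moves y0 h0 ((div_eq_one_iff_eq hy00).1 h)
      have : Fact (q : ℕ).Prime := ⟨q.2⟩
      exact IsPrimitiveRoot.iff_orderOf.2 (orderOf_eq_prime (p := (q : ℕ))
        (by rw [div_pow, ← map_pow, h0, map_natCast, div_self hq0]) hne)
    exact (hp.zpow_eq_one_iff_dvd v).1 hr
  have hwσ : ∀ σ, σ w = f σ * w := fun σ => by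
    obtain ⟨m, hm⟩ := hvdvd
    rw [hw, map_div₀, hy, hm, zpow_mul, zpow_natCast, h0, map_zpow₀, map_natCast, mul_div_assoc]
  obtain ⟨a, r, har⟩ := exists_unit_decomp hq2 (u := (⟨u, hu1.le⟩ : ℤ_[(q : ℕ)]))
    (PadicInt.isUnit_iff.2 hu1)
  replace har : u ^ ((q : ℕ) - 1) =
      (1 + ((q : ℕ) : ℚ_[(q : ℕ)])) ^ a * (r : ℚ_[(q : ℕ)]) ^ (q : ℕ) := by
    simpa using congrArg Subtype.val har
  set e := algebraMap ℚ_[(q : ℕ)] (PadicAlgCl (q : ℕ)) with he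
  have hr0 : (r : ℚ_[(q : ℕ)]) ≠ 0 := fun h => by
    have hu0 : u ≠ 0 := norm_ne_zero_iff.1 (by rw [hu1]; exact one_ne_zero)
    rw [h, zero_pow q.2.ne_zero, mul_zero] at har
    exact pow_ne_zero _ hu0 har
  obtain ⟨y1, h1'⟩ := IsAlgClosed.exists_pow_nat_eq (1 + ((q : ℕ) : PadicAlgCl (q : ℕ))) q.2.pos
  have hone : (1 + ((q : ℕ) : PadicAlgCl (q : ℕ))) ≠ 0 := by
    rw [add_comm, ← Nat.cast_add_one]; exact Nat.cast_ne_zero.2 (by omega)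
  have hy10 : y1 ≠ 0 := fun h => hone (by rw [← h1', h, zero_pow q.2.ne_zero])
  have he0 : e r ≠ 0 := (map_ne_zero _).2 hr0
  set ξ := w ^ ((q : ℕ) - 1) / (y1 ^ a * e r) with hξ
  have hξq : ξ ^ (q : ℕ) = 1 := by
    rw [hξ, div_pow, ← pow_mul, mul_comm ((q : ℕ) - 1), pow_mul, hwq, ← map_pow, har, mul_pow,
      ← pow_mul, mul_comm a, pow_mul, h1', map_mul, map_pow, map_add, map_one, map_natCast,
      map_pow, div_self]
    exact mul_ne_zero (pow_ne_zero _ hone) (pow_ne_zero _ he0)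
  have hwe : w ^ ((q : ℕ) - 1) = ξ * (y1 ^ a * e r) :=
    (div_mul_cancel₀ _ (mul_ne_zero (pow_ne_zero _ hy10) he0)).symm
  have hadvd : (q : ℕ) ∣ a := by
    have h := congrArg τ₁ hwe
    rw [map_pow, hwσ, h1, one_mul, hwe, map_mul, map_mul, map_pow, AlgEquiv.commutes,
      hτ₁ ξ (by rwa [pow_one])] at h
    have hξ0 : ξ ≠ 0 := fun e0 => by rw [e0, zero_pow q.2.ne_zero] at hξq; exact zero_ne_one hξq
    have h' := mul_right_cancel₀ he0 (mul_left_cancel₀ hξ0 h)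
    have hr : (τ₁ y1 / y1) ^ a = 1 := by
      rw [div_pow, ← h', div_self (pow_ne_zero _ hy10)]
    have hne : ¬ (τ₁ y1 / y1 = 1) := fun h => hτ₁' y1 h1' ((div_eq_one_iff_eq hy10).1 h)
    have : Fact (q : ℕ).Prime := ⟨q.2⟩
    exact (orderOf_eq_prime (p := (q : ℕ)) (by rw [div_pow, ← map_pow, h1', map_add, map_one,
      map_natCast, div_self hone]) hne).symm.dvd.trans (orderOf_dvd_of_pow_eq_one hr)
  obtain ⟨b, hb⟩ := hadvd
  set c : ℚ_[(q : ℕ)] := (1 + ((q : ℕ) : ℚ_[(q : ℕ)])) ^ b * (r : ℚ_[(q : ℕ)]) with hc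
  have hwξ : w ^ ((q : ℕ) - 1) = ξ * e c := by
    rw [hwe, hb, pow_mul, h1', hc, map_mul, map_pow, map_add, map_one, map_natCast]
  have hc0 : e c ≠ 0 := by
    rw [hc, map_mul, map_pow, map_add, map_one, map_natCast]
    exact mul_ne_zero (pow_ne_zero _ hone) he0
  have hξ0 : ξ ≠ 0 := fun e0 => by rw [e0, zero_pow q.2.ne_zero] at hξq; exact zero_ne_one hξq
  have hwval : w = e u / e c * ξ⁻¹ := by
    rw [← hwq, ← mul_pow_sub_one q.2.ne_zero w, hwξ]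
    field_simp
  have hue : e u / e c ≠ 0 := div_ne_zero
    ((map_ne_zero _).2 (norm_ne_zero_iff.1 (by rw [hu1]; exact one_ne_zero))) hc0
  refine ⟨ξ⁻¹, by rw [inv_pow, hξq, inv_one], fun σ => mul_left_cancel₀ hue ?_⟩
  have h := hwσ σ
  rw [hwval, map_mul, map_div₀, AlgEquiv.commutes, AlgEquiv.commutes] at h
  rw [h]
  ring

/-- The valuation coordinate of a class with values in `μ_{q ^ N}` is equivariant. -/
theorem apply_conj_eq {τ : Gloc q} (hτ : IsValGen τ) (g : Gloc q) {N : ℕ}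
    (f : Gloc q → PadicAlgCl (q : ℕ))
    (hf : ∀ σ ∈ inertialGroup q, ∀ t ∈ inertialGroup q, f (σ * t) = f σ * σ (f t))
    (hval : ∀ σ ∈ inertialGroup q, f σ ^ (q : ℕ) ^ N = 1) (E : LocalField q)
    [FiniteDimensional ℚ_[(q : ℕ)] E] [Normal ℚ_[(q : ℕ)] E]
    (hE : ∀ σ ∈ inertialGroup q, Loc.FixesField E σ → f σ = 1) :
    f (g * τ * g⁻¹) = g (f τ) := by
  have hq0 : ((q : ℕ) : PadicAlgCl (q : ℕ)) ≠ 0 := Nat.cast_ne_zero.2 q.2.ne_zero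
  have hM : (q : ℕ) ^ N ≠ 0 := pow_ne_zero _ q.2.ne_zero
  have hf0 : ∀ σ ∈ inertialGroup q, f σ ≠ 0 := fun σ hσ h => by
    have := hval σ hσ; rw [h, zero_pow hM] at this; exact zero_ne_one this
  obtain ⟨β, hβ0, hβ⟩ := exists_coboundary (inertialGroup q) E f hf0 hf hE
  have hα : ∀ σ ∈ inertialGroup q, σ (β ^ (q : ℕ) ^ N) = β ^ (q : ℕ) ^ N := fun σ hσ => by
    rw [map_pow, hβ σ hσ, mul_pow, hval σ hσ, one_mul]
  obtain ⟨k, hk⟩ := exists_zpow_eq_norm_of_fixed (pow_ne_zero _ hβ0) hα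
  obtain ⟨yN, hN⟩ := IsAlgClosed.exists_pow_nat_eq ((q : ℕ) : PadicAlgCl (q : ℕ))
    (Nat.pos_of_ne_zero hM)
  have hyN : yN ≠ 0 := fun h => hq0 (by rw [← hN, h, zero_pow hM])
  have hpow : (yN ^ k) ^ (q : ℕ) ^ N = ((q : ℕ) : PadicAlgCl (q : ℕ)) ^ k := by
    rw [← zpow_natCast (yN ^ k), ← zpow_mul, mul_comm, zpow_mul, zpow_natCast, hN]
  set y := β * yN ^ k with hy
  have hyq : y ^ (q : ℕ) ^ N = β ^ (q : ℕ) ^ N * ((q : ℕ) : PadicAlgCl (q : ℕ)) ^ k := by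
    rw [hy, mul_pow, hpow]
  have hymem : y ∈ tameUnits q N := by
    refine ⟨(pow_eq_one_iff_of_nonneg (norm_nonneg y) hM).1 ?_, fun σ hσ => ?_⟩
    · rw [← norm_pow, hyq, norm_mul, norm_zpow, hk, Loc.norm_natCast_q, inv_zpow, mul_inv_cancel₀
        (zpow_ne_zero _ (Nat.cast_ne_zero.2 q.2.ne_zero))]
    · rw [hyq, map_mul, map_zpow₀, map_natCast, hα σ hσ]
  have key : ∀ σ ∈ inertialGroup q, σ y = y → f σ = ((σ yN / yN) ^ k)⁻¹ := fun σ hσ hfix => by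
    rw [hy, map_mul, map_zpow₀, hβ σ hσ] at hfix
    refine eq_inv_of_mul_eq_one_left ?_
    rw [div_zpow, mul_div_assoc', div_eq_one_iff_eq (zpow_ne_zero _ hyN)]
    apply mul_right_cancel₀ hβ0
    linear_combination hfix
  have hfixy : (g * τ * g⁻¹) y = y := by
    rw [AlgEquiv.mul_apply, AlgEquiv.mul_apply, hτ.fix N _ (apply_mem_tameUnits g⁻¹ hymem)]
    exact g.apply_symm_apply y
  rw [key τ hτ.inertial (hτ.fix N y hymem),
    key _ (conj_mem_inertialGroup g hτ.inertial) hfixy, map_inv₀, map_zpow₀]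
  congr 2
  have hξ : (g⁻¹ yN / yN) ^ (q : ℕ) ^ N = 1 := by
    rw [div_pow, ← map_pow, hN, map_natCast, div_self hq0]
  rw [map_div₀, div_eq_div_iff hyN ((map_ne_zero g).2 hyN), AlgEquiv.mul_apply,
    AlgEquiv.mul_apply]
  have h1 : τ (g⁻¹ yN) = g⁻¹ yN / yN * τ yN := by
    conv_lhs => rw [← div_mul_cancel₀ (g⁻¹ yN) hyN, map_mul, hτ.fix_root hξ]
  rw [h1, map_mul, map_div₀, show g (g⁻¹ yN) = yN from g.apply_symm_apply yN,
    div_mul_eq_mul_div, div_mul_cancel₀ _ ((map_ne_zero g).2 hyN)]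
  ring

end FermatLib.MLT.Odd.LocP

end
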