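import Fermat.Prelude.Def_GaloisRep_StrictOrdinary
import Fermat.Prelude.Def_ExtEndgame_ProductionDatum

/-!
# Local coordinates of an ordinary representation at `p`

An ordinary lift with cyclotomic determinant whose residual unramified character has square `1`
gives, on the decomposition group, a triangle `(ε ν⁻¹, b; 0, ν)`. The coordinates are `u = ν(Frob)`
and two values `c₁`, `c₂` of the class of `b / ν`; the second is the valuation coordinate of Kummer
theory, so `(u ^ 2 - 1) * c₂ = 0`.
-/

set_option autoImplicit false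

noncomputable section

open IsLocalRing ExtCitation

namespace FermatLib.MLT.Odd

variable {p : ℕ} [Fact p.Prime] {R : Type} [CommRing R] [IsLocalRing R]

/-- A local Frobenius at `p`. -/
def IsFrobeniusLocP (g : primeLocalGaloisGroup (pPrime p)) : Prop :=
  ∀ x : AlgebraicClosure ℚ, x ∈ primeLocalPlace (pPrime p) →
    primeLocalToGlobal (pPrime p) g x - x ^ p ∈ (primeLocalPlace (pPrime p)).nonunits

/-- The matrix of a local element. -/
def locMatrix (ρ : GaloisRepAdic R) (e : Module.Basis (Fin 2) R ρ.V)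
    (g : primeLocalGaloisGroup (pPrime p)) : Matrix (Fin 2) (Fin 2) R :=
  LinearMap.toMatrix e e (ρ.ρ (primeLocalToGlobal (pPrime p) g))

variable (p) in
/-- The versal coordinates at `p`: branches `c₂ = 0` (old) and `u ^ 2 = 1` (semistable). -/
structure IsLocalPCoords (ρ : GaloisRepAdic R) (u c₁ c₂ : R) : Prop where
  isUnit : IsUnit u
  sq_sub_one_mem : u ^ 2 - 1 ∈ maximalIdeal R
  mul_eq_zero : (u ^ 2 - 1) * c₂ = 0
  /-- `u` is the unit root at every Frobenius. -/
  frobenius : ∀ g : primeLocalGaloisGroup (pPrime p), IsFrobeniusLocP g →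
    u ^ 2 - ρ.trace (primeLocalToGlobal (pPrime p) g) * u +
      LinearMap.det (ρ.ρ (primeLocalToGlobal (pPrime p) g)) = 0
  /-- The semistable branch (strictness only sees `A` modulo `⋂ p ^ n A`, so `A` is Noetherian). -/
  sq_eq_one_of_strict : ∀ (A : Type) [CommRing A] [IsLocalRing A] [IsNoetherianRing A] (φ : R →+* A)
    (hφ : IsLocalHom φ),
    (ρ.baseChangeAlong φ hφ).IsStrictOrdinaryAt p → φ u ^ 2 = 1
  /-- Conversely `φ u ^ 2 = 1` gives strictness. -/
  strict_of_sq_eq_one : ∀ (A : Type) [CommRing A] [IsLocalRing A] [IsNoetherianRing A] (φ : R →+* A)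
    (hφ : IsLocalHom φ), φ u ^ 2 = 1 → (ρ.baseChangeAlong φ hφ).IsStrictOrdinaryAt p
  /-- Both coordinates in the maximal ideal: the residual local representation commutes with a
  non-scalar matrix. -/
  split : c₁ ∈ maximalIdeal R → c₂ ∈ maximalIdeal R → ∀ (k : Type) [Field k] [Finite k]
    (π : R →+* k), (∀ x ∈ maximalIdeal R, π x = 0) → ∀ e : Module.Basis (Fin 2) R ρ.V,
    ∃ X : Matrix (Fin 2) (Fin 2) k, (∀ r : k, X ≠ r • 1) ∧
      ∀ g : primeLocalGaloisGroup (pPrime p),
        (locMatrix ρ e g).map π * X = X * (locMatrix ρ e g).map π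
  /-- Tangent vectors killing the coordinates, up to the scaling of the class, are locally trivial. -/
  tangent : ∀ (k : Type) [Field k] [Finite k] (π : R →+* k) (l : R →+ k),
    (∀ x ∈ maximalIdeal R, π x = 0) → (∀ x y, l (x * y) = l x * π y + π x * l y) →
    l (u ^ 2 - 1) = 0 → (∃ t : k, l c₁ = t * π c₁ ∧ l c₂ = t * π c₂) →
    ∀ e : Module.Basis (Fin 2) R ρ.V, ∃ X : Matrix (Fin 2) (Fin 2) k,
      ∀ g : primeLocalGaloisGroup (pPrime p),
      (locMatrix ρ e g).map l = (locMatrix ρ e g).map π * X - X * (locMatrix ρ e g).map π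

end FermatLib.MLT.Odd

end
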