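import Fermat.Agent.CFT.LocalGalois
import Fermat.Agent.CFT.LocalCyclotomic

/-!
# Kummer theory over `ℚ_q` in degree a power of `q`

General steps: elements fixed by inertia have integral valuation, coboundaries, and descending
Kummer generators along roots of unity.
-/

set_option autoImplicit false

noncomputable section

open FermatLib.CFT IntermediateField

namespace FermatLib.MLT.Odd.LocP

variable {q : Nat.Primes}

/-- A local automorphism acts on roots of unity of `q`-power order by an exponent. -/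
theorem exists_rootExp (σ : Gloc q) (N : ℕ) : ∃ a : ℕ, ∀ ω : PadicAlgCl (q : ℕ),
    ω ^ (q : ℕ) ^ N = 1 → σ ω = ω ^ a := by
  have : NeZero ((q : ℕ) ^ N) := ⟨pow_ne_zero _ q.2.ne_zero⟩
  obtain ⟨ζ, hζ⟩ := HasEnoughRootsOfUnity.exists_primitiveRoot (PadicAlgCl (q : ℕ)) ((q : ℕ) ^ N)
  obtain ⟨a, -, ha⟩ := hζ.eq_pow_of_pow_eq_one (ξ := σ ζ)
    (by rw [← map_pow, hζ.pow_eq_one, map_one])
  refine ⟨a, fun ω hω => ?_⟩
  obtain ⟨i, -, rfl⟩ := hζ.eq_pow_of_pow_eq_one hω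
  rw [map_pow, ← ha, ← pow_mul, ← pow_mul, mul_comm]

variable (q) in
/-- The inertial automorphisms. -/
def inertialGroup : Subgroup (Gloc q) where
  carrier := {τ | Loc.IsInertial τ}
  one_mem' x _ := by simp
  mul_mem' {g h} hg hh x hx := by
    rw [AlgEquiv.mul_apply]
    exact Loc.norm_sub_lt_trans (hg (h x) (by rwa [Loc.norm_gloc])) (hh x hx)
  inv_mem' {g} hg x hx := by
    have h1 := hg (g⁻¹ x) (by rwa [Loc.norm_gloc])
    rwa [← norm_neg, neg_sub, AlgEquiv.aut_inv, AlgEquiv.apply_symm_apply] at h1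

theorem conj_mem_inertialGroup (g : Gloc q) {τ : Gloc q} (hτ : τ ∈ inertialGroup q) :
    g * τ * g⁻¹ ∈ inertialGroup q := fun x hx => by
  have h := hτ (g⁻¹ x) (by rwa [Loc.norm_gloc])
  rwa [← Loc.norm_gloc g, map_sub, show g (g⁻¹ x) = x from g.apply_symm_apply x] at h

/-- Fixed by inertia implies integral valuation. -/
theorem exists_zpow_eq_norm_of_fixed {x : PadicAlgCl (q : ℕ)} (hx0 : x ≠ 0)
    (hx : ∀ τ ∈ inertialGroup q, τ x = x) : ∃ k : ℤ, ‖x‖ = ((q : ℕ) : ℝ) ^ k := by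
  have := adjoin.finiteDimensional (K := ℚ_[(q : ℕ)]) (Algebra.IsIntegral.isIntegral x)
  obtain ⟨E, hfd, hn, hle⟩ := Loc.exists_normal_le (ℚ_[(q : ℕ)]⟮x⟯ : LocalField q)
  have hxE : x ∈ E := hle (mem_adjoin_simple_self _ x)
  let H : Subgroup ((↥E) ≃ₐ[ℚ_[(q : ℕ)]] (↥E)) := MulAction.stabilizer _ (⟨x, hxE⟩ : E)
  have hI : Loc.inertia E ≤ H := fun g hg => by
    have hc : ∀ y : E, g.liftNormal (PadicAlgCl (q : ℕ)) y = (g y : PadicAlgCl (q : ℕ)) := fun y =>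
      g.liftNormal_commutes (PadicAlgCl (q : ℕ)) y
    obtain ⟨τ', hτ', hag⟩ := Loc.exists_inertial_agree E
      (τ := g.liftNormal (PadicAlgCl (q : ℕ))) fun y hy => by
        rw [hc]; exact hg y hy
    refine MulAction.mem_stabilizer_iff.2 (Subtype.ext ?_)
    have h := hag ⟨x, hxE⟩
    rw [hx τ' hτ', hc] at h
    exact h.symm
  have : Algebra.IsSeparable ℚ_[(q : ℕ)] E := inferInstance
  have : IsGalois ℚ_[(q : ℕ)] E := ⟨⟩
  have htop : Loc.ramIdx (Loc.fixedLF E ⊤) = 1 := by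
    have h := Loc.card_mul_finrank_fixedLF E ⊤
    rw [Subgroup.card_top, IsGalois.card_aut_eq_finrank,
      ← Loc.ramIdx_mul_resDeg (Loc.fixedLF E ⊤)] at h
    exact (mul_eq_one.1 (Nat.eq_of_mul_eq_mul_left Module.finrank_pos
      (h.trans (mul_one _).symm))).1
  have h1 := Loc.card_inertia_inf E H
  have h2 := Loc.card_inertia_inf E ⊤
  rw [inf_eq_left.2 hI] at h1
  rw [inf_top_eq, htop, mul_one] at h2
  have hram : Loc.ramIdx (Loc.fixedLF E H) = 1 :=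
    Nat.eq_of_mul_eq_mul_left Nat.card_pos ((h1.trans h2.symm).trans (mul_one _).symm)
  have hxF : x ∈ Loc.fixedLF E H := (Loc.mem_fixedLF E H (x := ⟨x, hxE⟩)).2 fun h hh => hh
  obtain ⟨k, hk⟩ := Loc.exists_zpow_eq_norm (Loc.fixedLF E H) (x := ⟨x, hxF⟩)
    fun h => hx0 (congrArg Subtype.val h)
  have hq := Loc.inv_q_eq_pow_ramIdx (Loc.fixedLF E H)
  rw [hram, pow_one] at hq
  refine ⟨-k, ?_⟩
  rw [← hq, inv_zpow'] at hk
  exact hk

/-- A cocycle on a group of automorphisms that factors through a finite level is a coboundary. -/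
theorem exists_coboundary (G : Subgroup (Gloc q)) (E : LocalField q)
    [FiniteDimensional ℚ_[(q : ℕ)] E] [Normal ℚ_[(q : ℕ)] E] (f : Gloc q → PadicAlgCl (q : ℕ))
    (h0 : ∀ σ ∈ G, f σ ≠ 0) (hmul : ∀ σ ∈ G, ∀ τ ∈ G, f (σ * τ) = f σ * σ (f τ))
    (hE : ∀ σ ∈ G, Loc.FixesField E σ → f σ = 1) :
    ∃ β : PadicAlgCl (q : ℕ), β ≠ 0 ∧ ∀ σ ∈ G, σ β = f σ * β := by
  classical
  let res : Gloc q →* ((↥E) ≃ₐ[ℚ_[(q : ℕ)]] (↥E)) := AlgEquiv.restrictNormalHom E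
  have hres : ∀ (σ : Gloc q) (x : E), (res σ x : PadicAlgCl (q : ℕ)) = σ x := fun σ x =>
    AlgEquiv.restrictNormal_commutes σ E x
  let R := G.map res
  have hrep : ∀ r : R, ∃ σ ∈ G, res σ = r.1 := fun r => Subgroup.mem_map.1 r.2
  choose rep hrepG hrep' using hrep
  have hwd : ∀ σ ∈ G, ∀ (hm : res σ ∈ R), f (rep ⟨res σ, hm⟩) = f σ := fun σ hσ hm => by
    set τ := rep ⟨res σ, hm⟩ with hτdef
    have hτG : τ ∈ G := hrepG _
    have hfix : Loc.FixesField E (τ⁻¹ * σ) := fun x => by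
      rw [← hres, map_mul, map_inv, hrep' ⟨res σ, hm⟩, inv_mul_cancel]
      rfl
    have h := hmul τ hτG (τ⁻¹ * σ) (G.mul_mem (G.inv_mem hτG) hσ)
    rw [mul_inv_cancel_left, hE _ (G.mul_mem (G.inv_mem hτG) hσ) hfix, map_one, mul_one] at h
    exact h.symm
  have : Finite R := Subgroup.instFiniteSubtypeMem R
  let := Fintype.ofFinite R
  let χ : R → (E →* PadicAlgCl (q : ℕ)) := fun r => ((E.val.comp r.1.toAlgHom : E →ₐ[ℚ_[(q : ℕ)]]
    PadicAlgCl (q : ℕ)) : E →* PadicAlgCl (q : ℕ))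
  have hinj : Function.Injective χ := fun r s h => Subtype.ext (AlgEquiv.ext fun x =>
    Subtype.ext (DFunLike.congr_fun h x))
  have hli := (linearIndependent_monoidHom E (PadicAlgCl (q : ℕ))).comp χ hinj
  obtain ⟨x, hx⟩ : ∃ x : E, ∑ r : R, f (rep r) * (r.1 x : PadicAlgCl (q : ℕ)) ≠ 0 := by
    by_contra hne
    push Not at hne
    have := Fintype.linearIndependent_iff.1 hli (fun r => f (rep r)) (funext fun x => by
      rw [Finset.sum_apply]
      exact hne x) 1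
    exact h0 _ (hrepG 1) this
  set b := ∑ r : R, f (rep r) * (r.1 x : PadicAlgCl (q : ℕ)) with hb
  refine ⟨b⁻¹, inv_ne_zero hx, fun σ hσ => ?_⟩
  let rσ : R := ⟨res σ, Subgroup.mem_map_of_mem _ hσ⟩
  have key : f σ * σ b = b := by
    rw [hb, map_sum, Finset.mul_sum]
    refine Fintype.sum_equiv (Equiv.mulLeft rσ) _ _ fun r => ?_
    have h1 : f (rep (rσ * r)) = f σ * σ (f (rep r)) := by
      rw [← hmul σ hσ _ (hrepG r)]
      have hm : res (σ * rep r) ∈ R := Subgroup.mem_map_of_mem _ (G.mul_mem hσ (hrepG r))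
      rw [← hwd _ (G.mul_mem hσ (hrepG r)) hm]
      congr 2
      exact Subtype.ext (((map_mul res σ (rep r)).trans
        (congrArg (res σ * ·) (hrep' r))).symm)
    rw [Equiv.coe_mulLeft, h1, map_mul, show ((rσ * r).1 x : PadicAlgCl (q : ℕ)) = σ (r.1 x) from
      hres σ (r.1 x), mul_assoc]
  rw [map_inv₀, eq_mul_inv_iff_mul_eq₀ hx, inv_mul_eq_iff_eq_mul₀ ((map_ne_zero σ).2 hx)]
  exact key.symm.trans (mul_comm _ _)

/-- The automorphisms fixing the `q ^ N`-th roots of unity. -/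
def rootFixer (q : Nat.Primes) (N : ℕ) : Subgroup (Gloc q) where
  carrier := {σ | ∀ ω : PadicAlgCl (q : ℕ), ω ^ (q : ℕ) ^ N = 1 → σ ω = ω}
  one_mem' _ _ := rfl
  mul_mem' {g h} hg hh ω hω := by rw [AlgEquiv.mul_apply, hh ω hω, hg ω hω]
  inv_mem' {g} hg ω hω := by
    conv_lhs => rw [← hg ω hω]
    exact g.symm_apply_apply ω

/-- Descent along the roots of unity: `q` is odd and some element of `G` inverts them. -/
theorem exists_mul_fixed (hq2 : (q : ℕ) ≠ 2) (G : Subgroup (Gloc q)) {N : ℕ}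
    {y : PadicAlgCl (q : ℕ)} (hy0 : y ≠ 0)
    (hy : ∀ σ ∈ G, σ (y ^ (q : ℕ) ^ N) = y ^ (q : ℕ) ^ N)
    (hfix : ∀ σ ∈ G, σ ∈ rootFixer q N → σ y = y) {s : Gloc q} (hs : s ∈ G)
    (hneg : ∀ ω : PadicAlgCl (q : ℕ), ω ^ (q : ℕ) ^ N = 1 → s ω = ω⁻¹) :
    ∃ ω : PadicAlgCl (q : ℕ), ω ^ (q : ℕ) ^ N = 1 ∧ ∀ σ ∈ G, σ (y * ω) = y * ω := by
  set M := (q : ℕ) ^ N with hM
  obtain ⟨h, hh⟩ : ∃ h, M + 1 = 2 * h := by
    obtain ⟨j, hj⟩ := (q.2.odd_of_ne_two hq2).pow (n := N)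
    exact ⟨j + 1, by rw [hM, hj]; ring⟩
  have hc : ∀ σ ∈ G, (σ y / y) ^ M = 1 := fun σ hσ => by
    rw [div_pow, ← map_pow, hy σ hσ, div_self (pow_ne_zero _ hy0)]
  set cs := s y / y with hcs
  refine ⟨cs ^ h, by rw [← pow_mul, mul_comm, pow_mul, hc s hs, one_pow], fun σ hσ => ?_⟩
  set cσ := σ y / y with hcσ
  have hsy : s y = cs * y := (div_mul_cancel₀ _ hy0).symm
  have hσy : σ y = cσ * y := (div_mul_cancel₀ _ hy0).symm
  have hcomm : σ (s y) = s (σ y) := by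
    have hroot : ∀ ω : PadicAlgCl (q : ℕ), ω ^ M = 1 → (σ * s) ω = (s * σ) ω := fun ω hω => by
      rw [AlgEquiv.mul_apply, AlgEquiv.mul_apply, hneg ω hω, map_inv₀,
        hneg (σ ω) (by rw [← map_pow, hω, map_one])]
    have hmem : (σ * s)⁻¹ * (s * σ) ∈ G :=
      G.mul_mem (G.inv_mem (G.mul_mem hσ hs)) (G.mul_mem hs hσ)
    have := hfix _ hmem fun ω hω => by
      rw [AlgEquiv.mul_apply, ← hroot ω hω]
      exact (σ * s).symm_apply_apply ω
    have h2 := congrArg (σ * s) this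
    rw [← AlgEquiv.mul_apply, mul_inv_cancel_left] at h2
    exact h2.symm
  have hc0 : cσ ≠ 0 := div_ne_zero ((map_ne_zero σ).2 hy0) hy0
  rw [hsy, hσy, map_mul, map_mul, hσy, hsy, hneg cσ (hc σ hσ)] at hcomm
  have h2 : cσ ^ 2 * σ cs = cs := by
    have h3 : σ cs * cσ = cσ⁻¹ * cs := mul_right_cancel₀ hy0 (by linear_combination hcomm)
    rw [sq, mul_assoc, mul_comm cσ (σ cs), h3, ← mul_assoc, mul_inv_cancel₀ hc0, one_mul]
  have h4 : cσ * σ (cs ^ h) = cs ^ h := by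
    conv_rhs => rw [← h2, mul_pow, ← pow_mul, ← hh, pow_succ, hc σ hσ, one_mul, ← map_pow]
  rw [map_mul, hσy]
  linear_combination y * h4

/-- One Kummer step over a group fixing the roots of unity. -/
theorem exists_div_pow_fixed (G : Subgroup (Gloc q)) {N : ℕ} (hG : G ≤ rootFixer q N)
    {x y : PadicAlgCl (q : ℕ)} (hx0 : x ≠ 0) (hy0 : y ≠ 0)
    (hx : ∀ σ ∈ G, σ (x ^ (q : ℕ) ^ N) = x ^ (q : ℕ) ^ N)
    (hy : ∀ σ ∈ G, σ (y ^ (q : ℕ) ^ N) = y ^ (q : ℕ) ^ N)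
    (himp : ∀ σ ∈ G, σ x = x → σ y = y) : ∃ a : ℕ, ∀ σ ∈ G, σ (y / x ^ a) = y / x ^ a := by
  classical
  set M := (q : ℕ) ^ N with hM
  have hval : ∀ z : PadicAlgCl (q : ℕ), z ≠ 0 → (∀ σ ∈ G, σ (z ^ M) = z ^ M) →
      ∀ σ ∈ G, (σ z / z) ^ M = 1 := fun z hz0 hz σ hσ => by
    rw [div_pow, ← map_pow, hz σ hσ, div_self (pow_ne_zero _ hz0)]
  let f : ∀ z : PadicAlgCl (q : ℕ), z ≠ 0 → (∀ σ ∈ G, σ (z ^ M) = z ^ M) →
      G →* PadicAlgCl (q : ℕ) := fun z hz0 hz =>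
    { toFun := fun σ => σ.1 z / z
      map_one' := div_self hz0
      map_mul' := fun σ τ => by
        have h := hG σ.2 _ (hval z hz0 hz τ τ.2)
        rw [map_div₀, div_eq_iff ((map_ne_zero σ.1).2 hz0)] at h
        change σ.1 (τ.1 z) / z = σ.1 z / z * (τ.1 z / z)
        rw [h]
        ring }
  set fx := f x hx0 hx with hfx
  set fy := f y hy0 hy with hfy
  have hexist : ∃ m, ∀ σ : G, fx σ ^ (q : ℕ) ^ m = 1 := ⟨N, fun σ => hval x hx0 hx σ σ.2⟩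
  have hfix : ∀ σ : G, fx σ = 1 → fy σ = 1 := fun σ h =>
    (div_eq_one_iff_eq hy0).2 (himp σ σ.2 ((div_eq_one_iff_eq hx0).1 h))
  suffices ∃ a : ℕ, ∀ σ : G, fy σ = fx σ ^ a by
    obtain ⟨a, ha⟩ := this
    refine ⟨a, fun σ hσ => ?_⟩
    have h := ha ⟨σ, hσ⟩
    change σ y / y = (σ x / x) ^ a at h
    have hσx : σ x ^ a ≠ 0 := pow_ne_zero _ ((map_ne_zero σ).2 hx0)
    rw [div_pow, div_eq_div_iff hy0 (pow_ne_zero _ hx0)] at h
    rw [map_div₀, map_pow, div_eq_div_iff hσx (pow_ne_zero _ hx0)]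
    linear_combination h
  have hm := Nat.find_spec hexist
  rcases hm0 : Nat.find hexist with _ | m
  · refine ⟨0, fun σ => ?_⟩
    rw [pow_zero]
    refine hfix σ ?_
    have h := hm σ
    rwa [hm0, pow_zero, pow_one] at h
  · rw [hm0] at hm
    obtain ⟨τ, hτ⟩ := not_forall.1 (Nat.find_min hexist (show m < Nat.find hexist by omega))
    have hprim : IsPrimitiveRoot (fx τ) ((q : ℕ) ^ (m + 1)) := by
      have : Fact (q : ℕ).Prime := ⟨q.2⟩
      rw [← orderOf_eq_prime_pow hτ (hm τ)]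
      exact IsPrimitiveRoot.orderOf _
    have : NeZero ((q : ℕ) ^ (m + 1)) := ⟨pow_ne_zero _ q.2.ne_zero⟩
    obtain ⟨a, -, ha⟩ := hprim.eq_pow_of_pow_eq_one (ξ := fy τ)
      (by rw [← map_pow]; exact hfix _ (by rw [map_pow, hm τ]))
    refine ⟨a, fun σ => ?_⟩
    obtain ⟨k, -, hk⟩ := hprim.eq_pow_of_pow_eq_one (hm σ)
    have hz : fx ((τ ^ k)⁻¹ * σ) = 1 := by
      have h : fx (τ ^ k) * fx ((τ ^ k)⁻¹ * σ) = fx σ := by rw [← map_mul, mul_inv_cancel_left]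
      rw [map_pow, hk] at h
      exact mul_left_cancel₀ (div_ne_zero ((map_ne_zero σ.1).2 hx0) hx0) (h.trans (mul_one _).symm)
    have h : fy (τ ^ k) * fy ((τ ^ k)⁻¹ * σ) = fy σ := by rw [← map_mul, mul_inv_cancel_left]
    rw [hfix _ hz, mul_one, map_pow, ← ha, ← pow_mul, mul_comm, pow_mul, hk] at h
    exact h.symm

/-- Kummer descent over several generators. -/
theorem exists_div_fixed {N : ℕ} (P : Submonoid (PadicAlgCl (q : ℕ)))
    (hP0 : ∀ x ∈ P, x ≠ 0) (s : Finset (PadicAlgCl (q : ℕ))) :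
    ∀ (G : Subgroup (Gloc q)), G ≤ rootFixer q N →
      (∀ σ ∈ G, ∀ x ∈ P, σ (x ^ (q : ℕ) ^ N) = x ^ (q : ℕ) ^ N) →
      ∀ y : PadicAlgCl (q : ℕ), y ≠ 0 → (∀ σ ∈ G, σ (y ^ (q : ℕ) ^ N) = y ^ (q : ℕ) ^ N) →
      (∀ x ∈ s, x ∈ P) → (∀ σ ∈ G, (∀ x ∈ s, σ x = x) → σ y = y) →
      ∃ z ∈ P, ∀ σ ∈ G, σ (y / z) = y / z := by
  classical
  induction s using Finset.induction with
  | empty =>
    intro G _ _ y _ _ _ himp
    exact ⟨1, P.one_mem, fun σ hσ => by simpa using himp σ hσ (by simp)⟩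
  | insert x s _ ih =>
    intro G hG hPfix y hy0 hy hsP himp
    have hxP : x ∈ P := hsP x (Finset.mem_insert_self _ _)
    obtain ⟨z, hz, hzfix⟩ := ih (G ⊓ MulAction.stabilizer _ x) (inf_le_left.trans hG)
      (fun σ hσ => hPfix σ hσ.1) y hy0 (fun σ hσ => hy σ hσ.1)
      (fun w hw => hsP w (Finset.mem_insert_of_mem hw))
      (fun σ hσ hfix => himp σ hσ.1 fun w hw => by
        rcases Finset.mem_insert.1 hw with rfl | hw
        exacts [hσ.2, hfix w hw])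
    have hz0 := hP0 z hz
    obtain ⟨a, ha⟩ := exists_div_pow_fixed G hG (hP0 x hxP) (div_ne_zero hy0 hz0)
      (fun σ hσ => hPfix σ hσ x hxP)
      (fun σ hσ => by rw [div_pow, map_div₀, hy σ hσ, hPfix σ hσ z hz])
      (fun σ hσ hfix => hzfix σ ⟨hσ, hfix⟩)
    refine ⟨z * x ^ a, P.mul_mem hz (P.pow_mem hxP a), fun σ hσ => ?_⟩
    rw [← div_div]
    exact ha σ hσ

end FermatLib.MLT.Odd.LocP

end
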