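import Fermat.Agent.MLT.Odd.LocalPTriangle

/-!
# The coordinates satisfy their four properties
-/

set_option autoImplicit false

noncomputable section

open IsLocalRing ExtCitation FermatLib.CFT IntermediateField

namespace FermatLib.MLT.Odd.LocP

variable {p : ℕ} [Fact p.Prime] {R : Type} [CommRing R] [IsLocalRing R]
  {ρ : GaloisRepAdic R} {b : Module.Basis (Fin 2) R ρ.V} (hb : IsTriangle (p := p) ρ b)
  {g₀ : Gloc (pPrime p)}
  (hg₀ : ∀ x, ‖x‖ ≤ 1 → ‖g₀ x - x ^ ((pPrime p : Nat.Primes) : ℕ)‖ < 1)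

include hb hg₀ in
/-- Modulo a power of the maximal ideal the quotient character is a power of `ν(Frob)`. -/
theorem exists_qc_sub_pow_mem (n : ℕ) (L : IntermediateField ℚ (AlgebraicClosure ℚ))
    [FiniteDimensional ℚ L] (g : Gloc (pPrime p)) :
    ∃ (k : ℕ) (t s : Gloc (pPrime p)), Loc.IsInertial t ∧ glb s ∈ L.fixingSubgroup ∧
      g = g₀ ^ k * t * s ∧ qc hb g - qc hb g₀ ^ k ∈ maximalIdeal R ^ n := by
  obtain ⟨L₁, hL₁, h1⟩ := locMatrix_sub_one_mem (p := p) ρ b n
  obtain ⟨k, t, s, ht, hs, hg⟩ := GWUnr.exists_decomp hg₀ (L ⊔ L₁)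
    (GWUnr.locEquiv (pPrime p) g)
  obtain ⟨s, rfl⟩ := (GWUnr.locEquiv (pPrime p)).surjective s
  rw [← map_mul] at hg
  refine ⟨k, t, s, ht, IntermediateField.fixingSubgroup_antitone le_sup_left hs,
    (GWUnr.locEquiv _).injective hg, ?_⟩
  rw [(GWUnr.locEquiv _).injective hg, map_mul, map_mul, map_pow, qc_inertial hb ht, mul_one,
    ← mul_sub_one]
  refine Ideal.mul_mem_left _ _ ?_
  have h := h1 (GWUnr.locEquiv _ s) (IntermediateField.fixingSubgroup_antitone le_sup_right hs) 1 1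
  rw [Matrix.one_apply_eq] at h
  exact h

include hb hg₀ in
/-- The quotient character takes the same value at every Frobenius. -/
theorem qc_eq_of_isFrobeniusLocP [IsNoetherianRing R] [Finite (ResidueField R)]
    {g : Gloc (pPrime p)} (hg : IsFrobeniusLocP (GWUnr.locEquiv (pPrime p) g)) :
    qc hb g = qc hb g₀ := by
  refine eq_of_forall_sub_mem fun n => ?_
  have : Finite (R ⧸ maximalIdeal R) := inferInstanceAs (Finite (ResidueField R))
  have : Finite (R ⧸ maximalIdeal R ^ n) :=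
    Ideal.finite_quotient_pow (IsNoetherian.noetherian _) n
  set mk := Ideal.Quotient.mk (maximalIdeal R ^ n)
  set U := ((isUnit_qc hb g₀).map mk).unit with hU
  have hd0 : 0 < orderOf U := orderOf_pos U
  set d := orderOf U with hd
  have hUd : mk (qc hb g₀) ^ d = 1 := congrArg Units.val (pow_orderOf_eq_one U)
  set M := ((pPrime p : Nat.Primes) : ℕ) ^ d - 1 with hM
  have hd1 : 1 < ((pPrime p : Nat.Primes) : ℕ) ^ d := Nat.one_lt_pow hd0.ne' (pPrime p).2.one_lt
  have hM0 : M ≠ 0 := by omega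
  have hqM : ¬ ((pPrime p : Nat.Primes) : ℕ) ∣ M := fun h => by
    have h2 := Nat.dvd_sub (dvd_pow_self ((pPrime p : Nat.Primes) : ℕ) hd0.ne') h
    rw [hM, Nat.sub_sub_self hd1.le] at h2
    exact (pPrime p).2.ne_one (Nat.dvd_one.1 h2)
  have : NeZero M := ⟨hM0⟩
  obtain ⟨ζ, hζ⟩ := HasEnoughRootsOfUnity.exists_primitiveRoot (AlgebraicClosure ℚ) M
  have : FiniteDimensional ℚ (ℚ⟮ζ⟯) :=
    adjoin.finiteDimensional ((AlgebraicClosure.isAlgebraic ℚ).isAlgebraic ζ).isIntegral
  obtain ⟨k, t, s, ht, hs, hgs, hk⟩ := exists_qc_sub_pow_mem hb hg₀ n (ℚ⟮ζ⟯) g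
  set z := padicEmbedding ((pPrime p : Nat.Primes) : ℕ) ζ with hz
  have hzp : IsPrimitiveRoot z M :=
    hζ.map_of_injective (f := padicEmbedding ((pPrime p : Nat.Primes) : ℕ))
      (padicEmbedding ((pPrime p : Nat.Primes) : ℕ)).injective
  have hgζ : glb g ζ = ζ ^ ((pPrime p : Nat.Primes) : ℕ) ^ k := by
    rw [hgs, glb, map_mul, map_mul, AlgEquiv.mul_apply,
      (IntermediateField.mem_fixingSubgroup_iff _ _).1 hs ζ (mem_adjoin_simple_self ℚ ζ)]
    exact GWUnr.apply_rootOfUnity_frobenius hg₀ hqM hζ.pow_eq_one k ht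
  have hnear : z ^ ((pPrime p : Nat.Primes) : ℕ) ^ k = z ^ ((pPrime p : Nat.Primes) : ℕ) := by
    have h := hg ζ (GWUnr.mem_primeLocalPlace_iff.2
      (Loc.norm_eq_one_of_pow_eq_one hM0 hzp.pow_eq_one).le)
    change glb g ζ - ζ ^ ((pPrime p : Nat.Primes) : ℕ) ∈ _ at h
    rw [hgζ, GWUnr.mem_nonunits_primeLocalPlace_iff, map_sub, map_pow, map_pow] at h
    exact Loc.eq_of_rootOfUnity_near hqM (by rw [← pow_mul, mul_comm, pow_mul, hzp.pow_eq_one,
      one_pow]) (by rw [← pow_mul, mul_comm, pow_mul, hzp.pow_eq_one, one_pow]) h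
  have hzd : z ^ ((pPrime p : Nat.Primes) : ℕ) ^ d = z := by
    rw [show ((pPrime p : Nat.Primes) : ℕ) ^ d = M + 1 by omega, pow_succ, hzp.pow_eq_one, one_mul]
  obtain ⟨j, hj⟩ : ∃ j, k + d = j + 1 := ⟨k + d - 1, by omega⟩
  have hdj : d ∣ j := by
    refine Loc.dvd_of_pow_sub_one_dvd (pPrime p).2.one_lt ?_
    have hzq : IsPrimitiveRoot (z ^ ((pPrime p : Nat.Primes) : ℕ)) M :=
      hzp.pow_of_coprime _ (((pPrime p).2.coprime_iff_not_dvd).2 hqM)
    refine hzq.dvd_of_pow_eq_one _ ?_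
    refine mul_right_cancel₀ (hzq.ne_zero hM0) ?_
    rw [← pow_succ, Nat.sub_add_cancel (Nat.one_le_pow _ _ (pPrime p).2.pos), one_mul, ← pow_mul,
      ← pow_succ', ← hj, add_comm, pow_add, pow_mul, hzd, hnear]
  obtain ⟨e, he⟩ := hdj
  rw [← Ideal.Quotient.eq] at hk ⊢
  change mk _ = mk _ at hk ⊢
  rw [hk, map_pow]
  calc mk (qc hb g₀) ^ k = mk (qc hb g₀) ^ (k + d) := by rw [pow_add, hUd, mul_one]
    _ = mk (qc hb g₀) := by rw [hj, he, pow_succ, pow_mul, hUd, one_pow, one_mul]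

include hb in
/-- The valuation coordinate is killed by `ν(g) ^ 2 - 1`. -/
theorem qc_sq_sub_one_mul [IsNoetherianRing R] [Finite (ResidueField R)]
    (hdet : ρ.DetIsCyclotomic p) {τ : Gloc (pPrime p)} (hτ : IsValGen τ) (g : Gloc (pPrime p)) :
    (qc hb g ^ 2 - 1) * cl hb τ = 0 := by
  have hτdet : tw hb τ = 1 := by
    rw [tw_inertial hb hτ.inertial]
    exact det_eq_one_of_fix hdet fun n ω hω => hτ.fix_root hω
  have key : (tw hb g - LinearMap.det (ρ.ρ (glb g))) * cl hb τ = 0 := by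
    refine eq_of_forall_sub_mem fun n => ?_
    rw [sub_zero]
    have : Finite (R ⧸ maximalIdeal R) := inferInstanceAs (Finite (ResidueField R))
    have : Finite (R ⧸ maximalIdeal R ^ n) :=
      Ideal.finite_quotient_pow (IsNoetherian.noetherian _) n
    set mk := Ideal.Quotient.mk (maximalIdeal R ^ n) with hmk
    obtain ⟨E, hfd, hn, hE⟩ := exists_local_level (p := p) ρ b n
    obtain ⟨a, ha⟩ := exists_rootExp g n
    have hpn : ((p : R) ^ n) ∈ maximalIdeal R ^ n := Ideal.pow_mem_pow hdet.1 n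
    have h := map_conj_eq hτ g (A := R ⧸ maximalIdeal R ^ n) (N := n) (fun x => by
        rw [nsmul_eq_mul]
        refine mul_eq_zero_of_left ?_ x
        rw [← map_natCast mk, pPrime_coe, Nat.cast_pow]
        exact Ideal.Quotient.eq_zero_iff_mem.2 hpn)
      (fun σ => mk (cl hb σ)) (fun σ hσ t ht c hc => by
        rw [cl_mul, map_add, map_mul, nsmul_eq_mul, ← map_natCast mk]
        congr 2
        rw [tw_inertial hb hσ, hmk, Ideal.Quotient.eq]
        exact det_sub_mem hdet hc)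
      E (fun σ _ hfix => by
        refine Ideal.Quotient.eq_zero_iff_mem.2 (Ideal.mul_mem_right _ _ ?_)
        have h := hE σ hfix 0 1
        rwa [Matrix.one_apply_ne (by decide), sub_zero] at h) ha
    rw [cl_conj hb g τ hτdet, nsmul_eq_mul, ← map_natCast mk, ← map_mul, hmk,
      Ideal.Quotient.eq] at h
    have hsum := sub_mem h (Ideal.mul_mem_right (cl hb τ) _ (det_sub_mem hdet ha))
    convert hsum using 1
    ring
  have hx : sc hb g⁻¹ * sc hb g = 1 := by rw [← map_mul, inv_mul_cancel, map_one]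
  rw [← sc_mul_qc hb g, tw] at key
  linear_combination (-(sc hb g⁻¹ * qc hb g)) * key + cl hb τ * qc_mul_inv hb g
    + (qc hb g * qc hb g⁻¹ - qc hb g ^ 2) * cl hb τ * hx

include hb in
/-- The semistable branch. -/
theorem qc_sq_eq_one_of_strict (hp2 : p ≠ 2) (hdet : ρ.DetIsCyclotomic p)
    (g : Gloc (pPrime p)) (A : Type) [CommRing A] [IsLocalRing A] [IsNoetherianRing A]
    (φ : R →+* A) (hφ : IsLocalHom φ) (h : (ρ.baseChangeAlong φ hφ).IsStrictOrdinaryAt p) :
    φ (qc hb g) ^ 2 = 1 := by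
  let : Algebra R A := φ.toAlgebra
  obtain ⟨hpA, hP⟩ := h
  obtain ⟨L, ⟨b', rfl⟩, -, hI, hS⟩ :=
    hP (primeLocalPlace (pPrime p)) (primeLocalPlace_liesOverPrime (pPrime p))
  obtain ⟨t, ht, htω⟩ := exists_inertial_neg (q := pPrime p)
  obtain ⟨bA, hbA⟩ : ∃ bA : Module.Basis (Fin 2) A (ρ.baseChangeAlong φ hφ).V,
      ∀ i, bA i = (1 : A) ⊗ₜ[R] b i :=
    ⟨Algebra.TensorProduct.basis A b, Algebra.TensorProduct.basis_apply b⟩
  have hsmul : ∀ (r : R) (v : ρ.V),
      (1 : A) ⊗ₜ[R] (r • v) = φ r • ((1 : A) ⊗ₜ[R] v) := fun r v => by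
    rw [TensorProduct.tmul_smul]
    exact (algebraMap_smul A r _).symm
  have hact0 : ∀ σ : Gloc (pPrime p),
      (ρ.baseChangeAlong φ hφ).ρ (glb σ) (bA 0) = φ (sc hb σ) • bA 0 := fun σ => by
    change (ρ.ρ (glb σ)).baseChange A (bA 0) = _
    rw [hbA]
    exact (congrArg ((1 : A) ⊗ₜ[R] ·) (apply_fst hb σ)).trans (hsmul _ _)
  have hact1 : ∀ σ : Gloc (pPrime p), (ρ.baseChangeAlong φ hφ).ρ (glb σ) (bA 1) =
      φ (lmat ρ b σ 0 1) • bA 0 + φ (qc hb σ) • bA 1 := fun σ => by
    change (ρ.ρ (glb σ)).baseChange A (bA 1) = _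
    rw [hbA, hbA]
    exact (congrArg ((1 : A) ⊗ₜ[R] ·) (apply_snd hb σ)).trans
      ((TensorProduct.tmul_add _ _ _).trans (congrArg₂ (· + ·) (hsmul _ _) (hsmul _ _)))
  have hu : IsUnit (sc hb t - 1) := by
    have h1 : sc hb t - ((p - 1 : ℕ) : R) ∈ maximalIdeal R := by
      have h := det_sub_mem hdet (n := 1) htω
      simpa only [pow_one, ← sc_mul_qc hb t, qc_inertial hb ht, mul_one, pPrime_coe] using h
    by_contra hn
    rw [Nat.cast_sub (Fact.out : p.Prime).one_le, Nat.cast_one] at h1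
    have h2 : (2 : R) ∈ maximalIdeal R := by
      have h3 := add_mem (sub_mem h1 ((mem_maximalIdeal _).2 hn)) hdet.1
      ring_nf at h3
      exact h3
    exact (mem_maximalIdeal _).1 h2 (isUnit_two hp2 hdet.1)
  obtain ⟨c, hc⟩ := Submodule.mem_span_singleton.1
    (hI _ (GWUnr.mem_inertia_of_isInertial ht) (bA 0))
  have hc' : c • b' 0 = φ (sc hb t - 1) • bA 0 := by
    rw [hc, hact0, map_sub, map_one, sub_smul, one_smul]
  obtain ⟨w, hw⟩ := hu.map φ
  have he0 : bA 0 = ((↑w⁻¹ : A) * c) • b' 0 := by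
    rw [mul_smul, hc', ← hw, ← mul_smul, Units.inv_mul, one_smul]
  have hcu : IsUnit ((↑w⁻¹ : A) * c) := by
    have h1 := congrArg (fun v => bA.repr v 0) he0
    simp only [map_smul, Finsupp.smul_apply, bA.repr_self, Finsupp.single_eq_same,
      smul_eq_mul] at h1
    exact IsUnit.of_mul_eq_one _ h1.symm
  have hspan : (A ∙ b' 0) = (A ∙ bA 0) := by
    rw [he0, Submodule.span_singleton_smul_eq hcu]
  obtain ⟨x', z', hx', hz', hcond⟩ := hS (glb g) (mem_decomposition g)
  rw [hspan] at hx' hz'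
  have hxe : φ (sc hb g) = x' := by
    have h1 := congrArg (fun v => bA.repr v 0)
      ((hact0 g).symm.trans (hx' _ (Submodule.mem_span_singleton_self _)))
    simpa using h1
  have hze : φ (qc hb g) = z' := by
    obtain ⟨d, hd⟩ := Submodule.mem_span_singleton.1 (hz' (bA 1))
    rw [hact1 g] at hd
    have h1 := congrArg (fun v => bA.repr v 1) hd
    simp only [map_smul, map_sub, map_add, Finsupp.smul_apply, Finsupp.sub_apply,
      Finsupp.add_apply, bA.repr_self, Finsupp.single_eq_same, smul_eq_mul,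
      Finsupp.single_eq_of_ne (show (1 : Fin 2) ≠ 0 by decide), mul_zero, mul_one, zero_add] at h1
    exact sub_eq_zero.1 h1.symm
  have key : ∀ n, (φ (qc hb g) ^ 2 - 1) ∈ maximalIdeal A ^ n := fun n => by
    obtain ⟨a, ha⟩ := exists_rootExp g (n + 1)
    have h1 := natCast_pow_mem (R := A) hpA (n + 1)
      (hcond (n + 1) a (rootExp_global ha))
    have h2 := hdet.2 (n + 1) _ a (rootExp_global ha)
    have h3 : φ (LinearMap.det (ρ.ρ (glb g))) - (a : A) ∈ maximalIdeal A ^ (n + 1) := by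
      obtain ⟨e, he⟩ := Ideal.mem_span_singleton'.1 h2
      rw [← map_natCast φ, ← map_sub, ← he, map_mul, map_natCast, Nat.cast_pow]
      exact Ideal.mul_mem_left _ _ (Ideal.pow_mem_pow hpA _)
    have ha' : IsUnit (a : A) := by
      have hdu : IsUnit (φ (LinearMap.det (ρ.ρ (glb g)))) := by
        rw [← sc_mul_qc hb g, map_mul]
        exact (((IsUnit.of_mul_eq_one _ (show sc hb g * sc hb g⁻¹ = 1 by
          rw [← map_mul, mul_inv_cancel, map_one])).map φ)).mul ((isUnit_qc hb g).map φ)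
      by_contra hn
      refine (mem_maximalIdeal _).1 ?_ hdu
      have := add_mem (Ideal.pow_le_self (Nat.succ_ne_zero n) h3) ((mem_maximalIdeal _).2 hn)
      rwa [sub_add_cancel] at this
    rw [← hxe, ← hze] at h1
    rw [← sc_mul_qc hb g, map_mul] at h3
    obtain ⟨v, hv⟩ := ha'
    have h4 : (a : A) * (φ (qc hb g) ^ 2 - 1) ∈ maximalIdeal A ^ (n + 1) := by
      have h5 := sub_mem h3 (Ideal.mul_mem_left _ (φ (qc hb g)) h1)
      convert h5 using 1
      ring
    rw [← hv] at h4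
    refine Ideal.pow_le_pow_right (Nat.le_succ n) ?_
    have := Ideal.mul_mem_left _ (↑v⁻¹ : A) h4
    rwa [← mul_assoc, Units.inv_mul, one_mul] at this
  exact eq_of_forall_sub_mem key

theorem map_mul_leibniz {m : Type} [Fintype m] [DecidableEq m] {S k : Type} [CommRing S]
    [CommRing k] (π : S →+* k) (l : S →+ k) (hl : ∀ x y, l (x * y) = l x * π y + π x * l y)
    (M N : Matrix m m S) : (M * N).map l = M.map l * N.map π + M.map π * N.map l := by
  ext i j
  simp only [Matrix.map_apply, Matrix.mul_apply, Matrix.add_apply, map_sum, hl,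
    Finset.sum_add_distrib]

/-- A derivation that is a commutator in one basis is one in every basis. -/
theorem exists_commutator_change {S k V : Type} [CommRing S] [CommRing k] [AddCommGroup V]
    [Module S V] (π : S →+* k) (l : S →+ k) (hl : ∀ x y, l (x * y) = l x * π y + π x * l y)
    (e f : Module.Basis (Fin 2) S V) {ι : Type} (T : ι → Module.End S V)
    {X : Matrix (Fin 2) (Fin 2) k}
    (hX : ∀ g, (LinearMap.toMatrix f f (T g)).map l =
      (LinearMap.toMatrix f f (T g)).map π * X - X * (LinearMap.toMatrix f f (T g)).map π) :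
    ∃ Y : Matrix (Fin 2) (Fin 2) k, ∀ g, (LinearMap.toMatrix e e (T g)).map l =
      (LinearMap.toMatrix e e (T g)).map π * Y - Y * (LinearMap.toMatrix e e (T g)).map π := by
  set C := e.toMatrix f
  set C' := f.toMatrix e
  have h12 : C * C' = 1 := e.toMatrix_mul_toMatrix_flip f
  have h21 : C' * C = 1 := f.toMatrix_mul_toMatrix_flip e
  have hl1 : l 1 = 0 := by
    have h := hl 1 1
    simp only [mul_one, map_one, one_mul] at h
    exact left_eq_add.1 h
  have hπ : ∀ M N : Matrix (Fin 2) (Fin 2) S, (M * N).map π = M.map π * N.map π := fun M N =>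
    Matrix.map_mul
  have h1 : (1 : Matrix (Fin 2) (Fin 2) S).map π = 1 := Matrix.map_one _ π.map_zero π.map_one
  have h21' : C'.map π * C.map π = 1 := by rw [← hπ, h21, h1]
  have hlC : C'.map l = -(C'.map π * (C.map l * C'.map π)) := by
    have h := map_mul_leibniz π l hl C C'
    have h0 : (1 : Matrix (Fin 2) (Fin 2) S).map l = 0 := by
      ext i j
      rw [Matrix.map_apply, Matrix.one_apply, Matrix.zero_apply]
      split <;> simp [hl1]
    rw [h12, h0] at h
    have h' := congrArg (C'.map π * ·) h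
    simp only [mul_zero, mul_add, ← mul_assoc, h21', one_mul] at h'
    rw [← mul_assoc]
    exact eq_neg_of_add_eq_zero_right h'.symm
  have hcancel : ∀ M : Matrix (Fin 2) (Fin 2) k, C'.map π * (C.map π * M) = M := fun M => by
    rw [← mul_assoc, h21', one_mul]
  refine ⟨C.map π * X * C'.map π - C.map l * C'.map π, fun g => ?_⟩
  rw [← basis_toMatrix_mul_linearMap_toMatrix_mul_basis_toMatrix e f e f (T g)]
  change ((C * _) * C').map l = ((C * _) * C').map π * _ - _ * ((C * _) * C').map π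
  rw [map_mul_leibniz π l hl, map_mul_leibniz π l hl, hX g, hlC]
  simp only [hπ, mul_sub, sub_mul, add_mul, mul_assoc, hcancel, mul_neg]
  abel

include hb hg₀ in
/-- Tangent vectors killing the coordinates are locally trivial. -/
theorem exists_commutator [IsNoetherianRing R] [Finite (ResidueField R)] (hp2 : p ≠ 2)
    (hdet : ρ.DetIsCyclotomic p) (hu : qc hb g₀ ^ 2 - 1 ∈ maximalIdeal R)
    {τ₁ τ₂ : Gloc (pPrime p)} (hτ₁ : τ₁ ∈ rootFixer (pPrime p) 1)
    (hτ₁' : ∀ y : PadicAlgCl ((pPrime p : Nat.Primes) : ℕ),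
      y ^ ((pPrime p : Nat.Primes) : ℕ) = 1 + ((pPrime p : Nat.Primes) : ℕ) → τ₁ y ≠ y)
    (hτ₂ : IsValGen τ₂) (k : Type) [Field k] [Finite k] (π : R →+* k) (l : R →+ k)
    (hπ : ∀ x ∈ maximalIdeal R, π x = 0) (hl : ∀ x y, l (x * y) = l x * π y + π x * l y)
    (hlu : l (qc hb g₀ ^ 2 - 1) = 0) (t : k) (h1 : l (cl hb τ₁) = t * π (cl hb τ₁))
    (h2 : l (cl hb τ₂) = t * π (cl hb τ₂)) :
    ∃ X : Matrix (Fin 2) (Fin 2) k, ∀ g : Gloc (pPrime p),
      (lmat ρ b g).map l = (lmat ρ b g).map π * X - X * (lmat ρ b g).map π := by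
  have hl1 : l 1 = 0 := by
    have h := hl 1 1
    simp only [mul_one, map_one, one_mul] at h
    exact left_eq_add.1 h
  have hlnat : ∀ a : ℕ, l (a : R) = 0 := fun a => by
    rw [← nsmul_one, map_nsmul, hl1, smul_zero]
  have hl2 : ∀ x ∈ maximalIdeal R ^ 2, l x = 0 := fun x hx => by
    rw [sq] at hx
    refine Submodule.mul_induction_on hx (fun a ha c hc => ?_) (fun a c ha hc => ?_)
    · rw [hl, hπ a ha, hπ c hc, mul_zero, zero_mul, add_zero]
    · rw [map_add, ha, hc, add_zero]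
  have hk : ((p : ℕ) : k) = 0 := by rw [← map_natCast π]; exact hπ _ hdet.1
  have htwo : (2 : k) ≠ 0 := by
    have := (isUnit_two hp2 hdet.1).map π
    rw [map_ofNat] at this
    exact this.ne_zero
  set u := qc hb g₀ with hu'
  have hπu : π u * π u = 1 := by
    have h := hπ _ hu
    rw [map_sub, map_pow, map_one, sub_eq_zero, sq] at h
    exact h
  have hlu0 : l u = 0 := by
    rw [map_sub, hl1, sub_zero, sq, hl] at hlu
    have h : (2 : k) * (π u * l u) = 0 := by rw [← hlu]; ring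
    rcases _root_.mul_eq_zero.1 h with h | h
    · exact absurd h htwo
    · rcases _root_.mul_eq_zero.1 h with h | h
      · rw [h, zero_mul] at hπu; exact absurd hπu zero_ne_one
      · exact h
  have hpow : ∀ j : ℕ, l (u ^ j) = 0 ∧ π (u ^ j) * π (u ^ j) = 1 := fun j => by
    induction j with
    | zero => exact ⟨by rw [pow_zero, hl1], by simp⟩
    | succ j ih =>
      refine ⟨by rw [pow_succ, hl, ih.1, hlu0]; ring, ?_⟩
      rw [pow_succ, map_mul, mul_mul_mul_comm, ih.2, hπu, one_mul]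
  have hν : ∀ g, l (qc hb g) = 0 ∧ π (qc hb g) * π (qc hb g) = 1 := fun g => by
    obtain ⟨j, t', s, -, -, -, hj⟩ := exists_qc_sub_pow_mem hb hg₀ 2 ⊥ g
    have hlj := hl2 _ hj
    have hπj := hπ _ (Ideal.pow_le_self two_ne_zero hj)
    rw [map_sub, sub_eq_zero] at hlj hπj
    rw [hlj, hπj]
    exact hpow j
  have hνinv : ∀ g, π (qc hb g⁻¹) = π (qc hb g) := fun g => by
    have h := congrArg π (qc_mul_inv hb g)
    rw [map_mul, map_one] at h
    exact mul_left_cancel₀ (fun h0 => by simp [h0] at h) (h.trans (hν g).2.symm)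
  have hdetl : ∀ g : Gloc (pPrime p), l (LinearMap.det (ρ.ρ (glb g))) = 0 := fun g => by
    obtain ⟨a, ha⟩ := exists_rootExp g 2
    have h := hl2 _ (det_sub_mem hdet ha)
    rwa [map_sub, hlnat, sub_zero] at h
  set e : Gloc (pPrime p) → k := fun g => π (LinearMap.det (ρ.ρ (glb g))) with he
  have hsc : ∀ g, sc hb g = LinearMap.det (ρ.ρ (glb g)) * qc hb g⁻¹ := fun g => by
    rw [← sc_mul_qc hb g, mul_assoc, qc_mul_inv, mul_one]
  have hscl : ∀ g, l (sc hb g) = 0 := fun g => by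
    rw [hsc, hl, hdetl, (hν g⁻¹).1]; ring
  have hπsc : ∀ g, π (sc hb g) = e g * π (qc hb g) := fun g => by
    rw [hsc, map_mul, hνinv]
  have hπtw : ∀ g, π (tw hb g) = e g := fun g => by
    rw [tw, map_mul, hπsc, hνinv, mul_assoc, (hν g).2, mul_one]
  have hltw : ∀ g, l (tw hb g) = 0 := fun g => by
    rw [tw, hl, hscl, (hν g⁻¹).1]; ring
  obtain ⟨E, hfd, hn, hE⟩ := exists_local_level (p := p) ρ b 2
  obtain ⟨s, hs⟩ := exists_eq_sub_one_mul (q := pPrime p) (by simpa using hp2)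
    (k := k) (by simpa using hk) e (fun σ a ha => by
      have h := hπ _ (by simpa using det_sub_mem hdet (n := 1) ha)
      rwa [map_sub, map_natCast, sub_eq_zero] at h)
    hτ₁ hτ₁' hτ₂ (fun σ => l (cl hb σ) - t * π (cl hb σ)) (fun σ τ => by
      rw [cl_mul, map_add, map_add, hl, hltw, hπtw, map_mul, hπtw]; ring)
    E (fun σ hσ => by
      have hB : cl hb σ ∈ maximalIdeal R ^ 2 := by
        have h := hE σ hσ 0 1
        rw [Matrix.one_apply_ne (by decide), sub_zero] at h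
        exact Ideal.mul_mem_right _ _ h
      refine ⟨by rw [hl2 _ hB, hπ _ (Ideal.pow_le_self two_ne_zero hB)]; ring, ?_⟩
      have hx : π (sc hb σ - 1) = 0 := by
        have h := hE σ hσ 0 0
        rw [Matrix.one_apply_eq] at h
        exact hπ _ (Ideal.pow_le_self two_ne_zero h)
      have hy : π (qc hb σ - 1) = 0 := by
        have h := hE σ hσ 1 1
        rw [Matrix.one_apply_eq] at h
        exact hπ _ (Ideal.pow_le_self two_ne_zero h)
      rw [map_sub, map_one, sub_eq_zero] at hx hy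
      simp only [he, ← sc_mul_qc hb σ, map_mul, hx, hy, one_mul])
    (by rw [h1, sub_self]) (by rw [h2, sub_self])
  refine ⟨!![0, s; 0, t], fun g => ?_⟩
  have hB : lmat ρ b g 0 1 = cl hb g * qc hb g := by
    rw [cl, mul_assoc, mul_comm (qc hb g⁻¹), qc_mul_inv, mul_one]
  have h01 : l (lmat ρ b g 0 1) =
      t * π (lmat ρ b g 0 1) + s * (π (sc hb g) - π (qc hb g)) := by
    have hsg := hs g
    rw [sub_eq_iff_eq_add] at hsg
    rw [hB, hl, hsg, (hν g).1, map_mul, hπsc]
    ring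
  have h10 : lmat ρ b g 1 0 = 0 := hb.lower g
  ext i j
  rw [Matrix.sub_apply, Matrix.mul_apply, Matrix.mul_apply, Fin.sum_univ_two, Fin.sum_univ_two]
  have h00 : l (lmat ρ b g 0 0) = 0 := hscl g
  have h11 : l (lmat ρ b g 1 1) = 0 := (hν g).1
  have h01' : l (lmat ρ b g 0 1) =
      t * π (lmat ρ b g 0 1) + s * (π (lmat ρ b g 0 0) - π (lmat ρ b g 1 1)) := h01
  fin_cases i <;> fin_cases j <;> simp [h10, h00, h11, h01'] <;> ring

end FermatLib.MLT.Odd.LocP

end
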