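import Fermat.Agent.MLT.Odd.LocalPClass
import Fermat.Agent.CFT.GWUnrLocal

/-!
# Classes with finite coefficients at `p`: separation by characters
-/

set_option autoImplicit false

noncomputable section

open FermatLib.CFT ExtCitation IntermediateField

namespace FermatLib.MLT.Odd.LocP

variable {q : Nat.Primes}

/-- Every number field lies in a finite normal level of the local field at `q`. -/
theorem exists_level (L : IntermediateField ℚ (AlgebraicClosure ℚ)) [FiniteDimensional ℚ L] :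
    ∃ E : LocalField q, FiniteDimensional ℚ_[(q : ℕ)] E ∧ Normal ℚ_[(q : ℕ)] E ∧
      ∀ σ : Gloc q, Loc.FixesField E σ →
        primeLocalToGlobal q (GWUnr.locEquiv q σ) ∈ L.fixingSubgroup := by
  let b := Module.finBasis ℚ L
  let s₀ : Set (PadicAlgCl (q : ℕ)) :=
    Set.range fun i => padicEmbedding (q : ℕ) (b i : AlgebraicClosure ℚ)
  let F : LocalField q := adjoin ℚ_[(q : ℕ)] s₀
  have : FiniteDimensional ℚ_[(q : ℕ)] F :=
    IntermediateField.finiteDimensional_adjoin fun x _ => Algebra.IsIntegral.isIntegral x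
  obtain ⟨E, hfd, hn, hle⟩ := Loc.exists_normal_le F
  refine ⟨E, hfd, hn, fun σ hσ => ?_⟩
  rw [IntermediateField.mem_fixingSubgroup_iff]
  intro x hx
  apply (padicEmbedding (q : ℕ)).injective
  simp only [AlgHom.toRingHom_eq_coe, RingHom.coe_coe]
  rw [GWUnr.emb_locToGlobal]
  have hxE : padicEmbedding (q : ℕ) x ∈ F := by
    rw [show x = ((⟨x, hx⟩ : L) : AlgebraicClosure ℚ) from rfl, ← b.sum_repr ⟨x, hx⟩]
    simp only [AddSubmonoidClass.coe_finsetSum, SetLike.val_smul, map_sum]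
    refine sum_mem fun i _ => ?_
    simp only [Algebra.smul_def, map_mul, eq_ratCast, map_ratCast]
    exact mul_mem (SubfieldClass.ratCast_mem _ _)
      (IntermediateField.subset_adjoin _ s₀ ⟨i, rfl⟩)
  exact hσ ⟨_, hle hxE⟩

/-- A local exponent is a global exponent. -/
theorem rootExp_global {σ : Gloc q} {N a : ℕ}
    (h : ∀ ω : PadicAlgCl (q : ℕ), ω ^ (q : ℕ) ^ N = 1 → σ ω = ω ^ a) :
    ∀ μ : AlgebraicClosure ℚ, μ ^ (q : ℕ) ^ N = 1 →
      primeLocalToGlobal q (GWUnr.locEquiv q σ) μ = μ ^ a := fun μ hμ => by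
  apply (padicEmbedding (q : ℕ)).injective
  simp only [AlgHom.toRingHom_eq_coe, RingHom.coe_coe]
  rw [GWUnr.emb_locToGlobal, map_pow, h _ (by rw [← map_pow, hμ, map_one])]

/-- An inertial element inverting the `q`-th roots of unity. -/
theorem exists_inertial_neg : ∃ σ : Gloc q, σ ∈ inertialGroup q ∧
    ∀ ω : PadicAlgCl (q : ℕ), ω ^ (q : ℕ) ^ 1 = 1 → σ ω = ω ^ ((q : ℕ) - 1) := by
  have : NeZero (q : ℕ) := ⟨q.2.ne_zero⟩
  obtain ⟨ζ, hζ⟩ := HasEnoughRootsOfUnity.exists_primitiveRoot (PadicAlgCl (q : ℕ)) (q : ℕ)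
  have hdvd : ¬ (q : ℕ) ∣ (q : ℕ) - 1 := fun h =>
    absurd (Nat.le_of_dvd (Nat.sub_pos_of_lt q.2.one_lt) h) (Nat.sub_lt q.2.pos one_pos).not_ge
  obtain ⟨t, ht, htζ⟩ := Loc.exists_inertial_rootOfUnity (k := 0) (by simpa using hζ) hdvd
  refine ⟨t, ht, fun ω hω => ?_⟩
  rw [pow_one] at hω
  obtain ⟨i, -, rfl⟩ := hζ.eq_pow_of_pow_eq_one hω
  rw [map_pow, htζ, ← pow_mul, ← pow_mul, mul_comm]

/-- Characters with values in the local algebraic closure separate a finite group. -/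
theorem exists_addChar_ne_one {A : Type*} [AddCommGroup A] [Finite A] {a : A} (ha : a ≠ 0) :
    ∃ φ : Multiplicative A →* PadicAlgCl (q : ℕ), φ (Multiplicative.ofAdd a) ≠ 1 := by
  have : NeZero ((Monoid.exponent (Multiplicative A) : ℕ) : PadicAlgCl (q : ℕ)) :=
    ⟨Nat.cast_ne_zero.2 Monoid.exponent_ne_zero_of_finite⟩
  obtain ⟨φ, hφ⟩ := CommGroup.exists_apply_ne_one_of_hasEnoughRootsOfUnity (Multiplicative A)
    (PadicAlgCl (q : ℕ)) (a := Multiplicative.ofAdd a) fun h => ha (by simpa using h)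
  exact ⟨(Units.coeHom _).comp φ, fun h => hφ (Units.ext h)⟩

theorem addChar_add {A : Type*} [AddCommGroup A] (φ : Multiplicative A →* PadicAlgCl (q : ℕ))
    (x y : A) :
    φ (Multiplicative.ofAdd (x + y)) = φ (Multiplicative.ofAdd x) * φ (Multiplicative.ofAdd y) := by
  rw [ofAdd_add, map_mul]

theorem addChar_nsmul {A : Type*} [AddCommGroup A] (φ : Multiplicative A →* PadicAlgCl (q : ℕ))
    (n : ℕ) (x : A) :
    φ (Multiplicative.ofAdd (n • x)) = φ (Multiplicative.ofAdd x) ^ n := by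
  rw [ofAdd_nsmul, map_pow]

/-- A cocycle of `ℚ_q` with values in `k(1)` killed by both coordinates is a coboundary. -/
theorem exists_eq_sub_one_mul (hq2 : (q : ℕ) ≠ 2) {k : Type} [Field k] [Finite k]
    (hk : ((q : ℕ) : k) = 0) (e : Gloc q → k)
    (he : ∀ (σ : Gloc q) (a : ℕ),
      (∀ ω : PadicAlgCl (q : ℕ), ω ^ (q : ℕ) ^ 1 = 1 → σ ω = ω ^ a) → e σ = a)
    {τ₁ τ₂ : Gloc q} (hτ₁ : τ₁ ∈ rootFixer q 1)
    (hτ₁' : ∀ y : PadicAlgCl (q : ℕ), y ^ (q : ℕ) = 1 + (q : ℕ) → τ₁ y ≠ y) (hτ₂ : IsValGen τ₂)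
    (γ : Gloc q → k) (hγ : ∀ σ τ, γ (σ * τ) = γ σ + e σ * γ τ) (E : LocalField q)
    [FiniteDimensional ℚ_[(q : ℕ)] E] [Normal ℚ_[(q : ℕ)] E]
    (hE : ∀ σ, Loc.FixesField E σ → γ σ = 0 ∧ e σ = 1)
    (h1 : γ τ₁ = 0) (h2 : γ τ₂ = 0) : ∃ s : k, ∀ σ, γ σ = (e σ - 1) * s := by
  obtain ⟨t, -, ht⟩ := exists_inertial_neg (q := q)
  have het : e t = -1 := by
    rw [he t _ ht, Nat.cast_sub q.2.pos, hk, Nat.cast_one, zero_sub]
  have htwo : (2 : k) ≠ 0 := fun h => by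
    obtain ⟨j, hj⟩ := q.2.odd_of_ne_two hq2
    rw [hj] at hk
    push_cast at hk
    rw [h, zero_mul, zero_add] at hk
    exact one_ne_zero hk
  have he1 : ∀ σ, σ ∈ rootFixer q 1 → e σ = 1 := fun σ hσ => by
    rw [he σ 1 fun ω hω => by rw [pow_one]; exact hσ ω hω, Nat.cast_one]
  have hemul : ∀ σ τ, e (σ * τ) = e σ * e τ := fun σ τ => by
    obtain ⟨a, ha⟩ := exists_rootExp σ 1
    obtain ⟨b, hb⟩ := exists_rootExp τ 1
    rw [he σ a ha, he τ b hb, he (σ * τ) (a * b) fun ω hω => by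
      rw [AlgEquiv.mul_apply, hb ω hω, map_pow, ha ω hω, ← pow_mul]]
    push_cast
    rfl
  set s : k := -γ t / 2 with hs
  refine ⟨s, fun σ => by_contra fun hne => ?_⟩
  obtain ⟨φ, hφ⟩ := exists_addChar_ne_one (q := q) (sub_ne_zero.2 hne)
  set δ : Gloc q → k := fun σ => γ σ - (e σ - 1) * s with hδ
  have hδmul : ∀ σ τ, δ (σ * τ) = δ σ + e σ * δ τ := fun σ τ => by
    simp only [hδ, hγ, hemul]
    ring
  have hkill : ∀ x : k, φ (Multiplicative.ofAdd x) ^ (q : ℕ) = 1 := fun x => by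
    rw [← addChar_nsmul, nsmul_eq_mul, hk, zero_mul, ofAdd_zero, map_one]
  obtain ⟨ζ, hζ, hζσ⟩ := exists_root_of_cocycle hq2 hτ₁ hτ₁' hτ₂
    (fun σ => φ (Multiplicative.ofAdd (δ σ))) (fun σ τ => by
      obtain ⟨a, ha⟩ := exists_rootExp σ 1
      rw [hδmul, he σ a ha, addChar_add, ← nsmul_eq_mul, addChar_nsmul,
        ha _ (by rw [pow_one]; exact hkill _)])
    (fun σ => hkill _) E
    (fun σ hσ => by simp [hδ, (hE σ hσ).1, (hE σ hσ).2])
    (by simp [hδ, h1, he1 τ₁ hτ₁])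
    (by simp [hδ, h2, he1 τ₂ fun ω hω => hτ₂.fix_root hω])
  have hδt : δ t = 0 := by
    simp only [hδ, het, hs]
    field_simp
    ring
  have hζ1 : ζ = 1 := by
    have h := hζσ t
    rw [hδt, ofAdd_zero, map_one, one_mul, ht ζ (by rwa [pow_one])] at h
    have h' : ζ ^ (q : ℕ) = ζ ^ 2 := by
      rw [← pow_sub_one_mul q.2.ne_zero ζ, h, sq]
    rw [hζ] at h'
    obtain ⟨j, hj⟩ := q.2.odd_of_ne_two hq2
    have h2 : ζ ^ (2 * j + 1) = 1 := (congrArg (fun n => ζ ^ n) hj).symm.trans hζ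
    rwa [pow_succ, pow_mul, ← h', one_pow, one_mul] at h2
  have h := hζσ σ
  rw [hζ1, map_one, mul_one] at h
  exact hφ h.symm

/-- The valuation coordinate is equivariant, with coefficients in a finite group. -/
theorem map_conj_eq {τ : Gloc q} (hτ : IsValGen τ) (g : Gloc q) {A : Type} [AddCommGroup A]
    [Finite A] {N : ℕ} (hA : ∀ x : A, (q : ℕ) ^ N • x = 0) (γ : Gloc q → A)
    (hγ : ∀ σ ∈ inertialGroup q, ∀ t ∈ inertialGroup q, ∀ a : ℕ,
      (∀ ω : PadicAlgCl (q : ℕ), ω ^ (q : ℕ) ^ N = 1 → σ ω = ω ^ a) →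
        γ (σ * t) = γ σ + a • γ t)
    (E : LocalField q) [FiniteDimensional ℚ_[(q : ℕ)] E] [Normal ℚ_[(q : ℕ)] E]
    (hE : ∀ σ ∈ inertialGroup q, Loc.FixesField E σ → γ σ = 0) {a : ℕ}
    (ha : ∀ ω : PadicAlgCl (q : ℕ), ω ^ (q : ℕ) ^ N = 1 → g ω = ω ^ a) :
    γ (g * τ * g⁻¹) = a • γ τ := by
  by_contra hne
  obtain ⟨φ, hφ⟩ := exists_addChar_ne_one (q := q) (sub_ne_zero.2 hne)
  have hkill : ∀ x : A, φ (Multiplicative.ofAdd x) ^ (q : ℕ) ^ N = 1 := fun x => by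
    rw [← addChar_nsmul, hA, ofAdd_zero, map_one]
  have h := apply_conj_eq hτ g (fun σ => φ (Multiplicative.ofAdd (γ σ))) (fun σ hσ t ht => by
      obtain ⟨b, hb⟩ := exists_rootExp σ N
      rw [hγ σ hσ t ht b hb, addChar_add, addChar_nsmul, hb _ (hkill _)])
    (fun σ _ => hkill _) E (fun σ hσ hfix => by simp only [hE σ hσ hfix, ofAdd_zero, map_one])
  rw [ha _ (hkill _), ← addChar_nsmul] at h
  have hmul := addChar_add φ (γ (g * τ * g⁻¹) - a • γ τ) (a • γ τ)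
  rw [sub_add_cancel, h] at hmul
  refine hφ ((mul_eq_right₀ ?_).1 hmul.symm)
  intro h0
  have h1 := hkill (a • γ τ)
  rw [h0, zero_pow (pow_ne_zero _ q.2.ne_zero)] at h1
  exact zero_ne_one h1

end FermatLib.MLT.Odd.LocP

end
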