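import Fermat.Agent.MLT.Odd.LocalPDefs
import Fermat.Agent.MLT.Odd.LocalPScalar
import Fermat.Agent.Galois.CyclotomicFrobenius

/-!
# The triangle of an ordinary representation on the decomposition group
-/

set_option autoImplicit false

noncomputable section

open IsLocalRing ExtCitation FermatLib.CFT IntermediateField

namespace FermatLib.MLT.Odd.LocP

variable {p : ℕ} [Fact p.Prime] {R : Type} [CommRing R] [IsLocalRing R]

theorem mem_decomposition {q : Nat.Primes} (g : Gloc q) :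
    primeLocalToGlobal q (GWUnr.locEquiv q g) ∈ (primeLocalPlace q).decompositionSubgroup ℚ :=
  localGaloisToGlobal_mem_decompositionSubgroup (q : ℕ) g

theorem primeLocalPlace_liesOverPrime (q : Nat.Primes) :
    (primeLocalPlace q).LiesOverPrime (q : ℕ) :=
  Galois.padicPlace_liesOverPrime (q : ℕ)

/-- A local automorphism, seen globally. -/
abbrev glb (g : Gloc (pPrime p)) : AlgebraicClosure ℚ ≃ₐ[ℚ] AlgebraicClosure ℚ :=
  primeLocalToGlobal (pPrime p) (GWUnr.locEquiv (pPrime p) g)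

/-- The matrix of a local automorphism. -/
abbrev lmat (ρ : GaloisRepAdic R) (b : Module.Basis (Fin 2) R ρ.V) (g : Gloc (pPrime p)) :
    Matrix (Fin 2) (Fin 2) R :=
  locMatrix ρ b (GWUnr.locEquiv (pPrime p) g)

/-- A matrix triangular on the decomposition group, with trivial quotient on inertia. -/
structure IsTriangle (ρ : GaloisRepAdic R) (b : Module.Basis (Fin 2) R ρ.V) : Prop where
  lower : ∀ g : Gloc (pPrime p), lmat ρ b g 1 0 = 0
  inertia : ∀ g ∈ inertialGroup (pPrime p), lmat ρ b g 1 1 = 1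
  stable : ∀ σ ∈ (primeLocalPlace (pPrime p)).decompositionSubgroup ℚ,
    ρ.ρ σ (b 0) ∈ R ∙ b 0
  unip : ∀ σ ∈ (primeLocalPlace (pPrime p)).inertiaSubgroupIn ℚ,
    ∀ v : ρ.V, ρ.ρ σ v - v ∈ R ∙ b 0

theorem exists_isTriangle {ρ : GaloisRepAdic R} (hord : ρ.IsOrdinaryAt p) :
    ∃ b, IsTriangle (p := p) ρ b := by
  obtain ⟨L, ⟨b, rfl⟩, hD, hI⟩ :=
    hord (primeLocalPlace (pPrime p)) (primeLocalPlace_liesOverPrime (pPrime p))
  refine ⟨b, fun g => ?_, fun g hg => ?_,
    fun σ hσ => hD σ hσ _ (Submodule.mem_span_singleton_self _), hI⟩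
  · obtain ⟨c, hc⟩ := Submodule.mem_span_singleton.1 (hD (glb g)
      (mem_decomposition g) _ (Submodule.mem_span_singleton_self _))
    rw [lmat, locMatrix, LinearMap.toMatrix_apply, ← hc, map_smul, Finsupp.smul_apply, b.repr_self,
      Finsupp.single_eq_of_ne (by decide), smul_zero]
  · obtain ⟨c, hc⟩ := Submodule.mem_span_singleton.1
      (hI _ (GWUnr.mem_inertia_of_isInertial hg) (b 1))
    have h := congrArg (fun v => b.repr v 1) hc
    simp only [map_smul, map_sub, Finsupp.smul_apply, Finsupp.sub_apply, b.repr_self,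
      Finsupp.single_eq_of_ne (show (1 : Fin 2) ≠ 0 by decide), Finsupp.single_eq_same,
      smul_zero] at h
    rw [lmat, locMatrix, LinearMap.toMatrix_apply]
    exact sub_eq_zero.1 h.symm

theorem locMatrix_mul (ρ : GaloisRepAdic R) (b : Module.Basis (Fin 2) R ρ.V)
    (g h : Gloc (pPrime p)) : lmat ρ b (g * h) = lmat ρ b g * lmat ρ b h := by
  rw [lmat, lmat, lmat, locMatrix, locMatrix, locMatrix, ← LinearMap.toMatrix_mul, ← map_mul ρ.ρ,
    ← map_mul, ← map_mul]

theorem locMatrix_one (ρ : GaloisRepAdic R) (b : Module.Basis (Fin 2) R ρ.V) :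
    lmat ρ b (1 : Gloc (pPrime p)) = 1 := by
  rw [lmat, locMatrix, map_one, map_one, map_one, LinearMap.toMatrix_one]

omit [Fact p.Prime] in
theorem natCast_pow_mem (hp : (p : R) ∈ maximalIdeal R) (n : ℕ) {x : R}
    (hx : x ∈ Ideal.span {((p ^ n : ℕ) : R)}) : x ∈ maximalIdeal R ^ n := by
  obtain ⟨c, rfl⟩ := Ideal.mem_span_singleton'.1 hx
  rw [Nat.cast_pow]
  exact Ideal.mul_mem_left _ _ (Ideal.pow_mem_pow hp n)

theorem isUnit_two (hp2 : p ≠ 2) (hp : (p : R) ∈ maximalIdeal R) : IsUnit (2 : R) := by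
  by_contra h
  obtain ⟨j, hj⟩ := (Fact.out : p.Prime).odd_of_ne_two hp2
  have h1 : (p : R) - 2 * (j : R) ∈ maximalIdeal R :=
    sub_mem hp (Ideal.mul_mem_right _ _ ((mem_maximalIdeal _).2 h))
  rw [hj] at h1
  push_cast at h1
  rw [add_sub_cancel_left] at h1
  exact (IsLocalRing.maximalIdeal.isMaximal R).ne_top ((Ideal.eq_top_iff_one _).2 h1)

theorem eq_of_forall_sub_mem [IsNoetherianRing R] {x y : R}
    (h : ∀ n, x - y ∈ maximalIdeal R ^ n) : x = y := by
  have h1 : x - y ∈ ⨅ n, maximalIdeal R ^ n := Ideal.mem_iInf.2 h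
  rw [Ideal.iInf_pow_eq_bot_of_isLocalRing _ (IsLocalRing.maximalIdeal.isMaximal R).ne_top,
    Submodule.mem_bot, sub_eq_zero] at h1
  exact h1

/-- The quotient character. -/
def qc {ρ : GaloisRepAdic R} {b : Module.Basis (Fin 2) R ρ.V} (hb : IsTriangle (p := p) ρ b) :
    Gloc (pPrime p) →* R where
  toFun g := lmat ρ b g 1 1
  map_one' := by rw [locMatrix_one, Matrix.one_apply_eq]
  map_mul' g h := by
    rw [locMatrix_mul, Matrix.mul_apply, Fin.sum_univ_two, hb.lower g, zero_mul, zero_add]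

/-- The character on the line. -/
def sc {ρ : GaloisRepAdic R} {b : Module.Basis (Fin 2) R ρ.V} (hb : IsTriangle (p := p) ρ b) :
    Gloc (pPrime p) →* R where
  toFun g := lmat ρ b g 0 0
  map_one' := by rw [locMatrix_one, Matrix.one_apply_eq]
  map_mul' g h := by
    rw [locMatrix_mul, Matrix.mul_apply, Fin.sum_univ_two, hb.lower h, mul_zero, add_zero]

/-- The class `b / ν`. -/
def cl {ρ : GaloisRepAdic R} {b : Module.Basis (Fin 2) R ρ.V} (hb : IsTriangle (p := p) ρ b)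
    (g : Gloc (pPrime p)) : R :=
  lmat ρ b g 0 1 * qc hb g⁻¹

/-- The twist of the class. -/
def tw {ρ : GaloisRepAdic R} {b : Module.Basis (Fin 2) R ρ.V} (hb : IsTriangle (p := p) ρ b)
    (g : Gloc (pPrime p)) : R :=
  sc hb g * qc hb g⁻¹

section

variable {ρ : GaloisRepAdic R} {b : Module.Basis (Fin 2) R ρ.V} (hb : IsTriangle (p := p) ρ b)

include hb

theorem qc_mul_inv (g : Gloc (pPrime p)) : qc hb g * qc hb g⁻¹ = 1 := by
  rw [← map_mul, mul_inv_cancel, map_one]

theorem isUnit_qc (g : Gloc (pPrime p)) : IsUnit (qc hb g) :=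
  IsUnit.of_mul_eq_one _ (qc_mul_inv hb g)

theorem qc_inertial {g : Gloc (pPrime p)} (hg : g ∈ inertialGroup (pPrime p)) : qc hb g = 1 :=
  hb.inertia g hg

theorem sc_mul_qc (g : Gloc (pPrime p)) :
    sc hb g * qc hb g = LinearMap.det (ρ.ρ (glb g)) := by
  rw [← LinearMap.det_toMatrix b, Matrix.det_fin_two]
  show _ = lmat ρ b g 0 0 * lmat ρ b g 1 1 - lmat ρ b g 0 1 * lmat ρ b g 1 0
  rw [hb.lower g, mul_zero, sub_zero]
  rfl

theorem trace_eq (g : Gloc (pPrime p)) :
    ρ.trace (glb g) = sc hb g + qc hb g := by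
  rw [GaloisRepAdic.trace, LinearMap.trace_eq_matrix_trace R b, Matrix.trace_fin_two]
  rfl

theorem apply_fst (g : Gloc (pPrime p)) :
    ρ.ρ (glb g) (b 0) = sc hb g • b 0 := by
  conv_lhs => rw [← b.sum_repr (ρ.ρ _ (b 0)), Fin.sum_univ_two]
  have h0 : b.repr (ρ.ρ (glb g) (b 0)) 1 = 0 := by
    have h := hb.lower g
    rw [lmat, locMatrix, LinearMap.toMatrix_apply] at h
    exact h
  rw [h0, zero_smul, add_zero]
  congr 1
  show _ = lmat ρ b g 0 0
  rw [lmat, locMatrix, LinearMap.toMatrix_apply]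

theorem apply_snd (g : Gloc (pPrime p)) :
    ρ.ρ (glb g) (b 1) =
      lmat ρ b g 0 1 • b 0 + qc hb g • b 1 := by
  conv_lhs => rw [← b.sum_repr (ρ.ρ _ (b 1)), Fin.sum_univ_two]
  congr 2 <;>
  · show _ = lmat ρ b g _ 1
    rw [lmat, locMatrix, LinearMap.toMatrix_apply]

theorem cl_mul (g h : Gloc (pPrime p)) : cl hb (g * h) = cl hb g + tw hb g * cl hb h := by
  have h01 : lmat ρ b (g * h) 0 1 =
      sc hb g * lmat ρ b h 0 1 + lmat ρ b g 0 1 * qc hb h := by
    rw [locMatrix_mul, Matrix.mul_apply, Fin.sum_univ_two]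
    rfl
  simp only [cl, tw, h01, mul_inv_rev, map_mul]
  linear_combination (lmat ρ b g 0 1 * qc hb g⁻¹) * qc_mul_inv hb h

theorem tw_inertial {g : Gloc (pPrime p)} (hg : g ∈ inertialGroup (pPrime p)) :
    tw hb g = LinearMap.det (ρ.ρ (glb g)) := by
  rw [← sc_mul_qc hb g, tw, qc_inertial hb hg, qc_inertial hb (inv_mem hg)]

theorem cl_conj (g τ : Gloc (pPrime p)) (hτ : tw hb τ = 1) :
    cl hb (g * τ * g⁻¹) = tw hb g * cl hb τ := by
  rw [mul_assoc, cl_mul, cl_mul, hτ, one_mul]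
  have h := cl_mul hb g g⁻¹
  rw [mul_inv_cancel] at h
  have h1 : cl hb 1 = 0 := by
    rw [cl, locMatrix_one, Matrix.one_apply_ne (by decide), zero_mul]
  rw [h1] at h
  linear_combination -h

end

/-- The determinant and the exponent of a local element. -/
theorem det_sub_mem {ρ : GaloisRepAdic R} (hdet : ρ.DetIsCyclotomic p) {g : Gloc (pPrime p)}
    {n a : ℕ} (ha : ∀ ω : PadicAlgCl ((pPrime p : Nat.Primes) : ℕ),
      ω ^ ((pPrime p : Nat.Primes) : ℕ) ^ n = 1 → g ω = ω ^ a) :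
    LinearMap.det (ρ.ρ (glb g)) - (a : R) ∈ maximalIdeal R ^ n :=
  natCast_pow_mem hdet.1 n (hdet.2 n _ a (rootExp_global ha))

theorem det_eq_one_of_fix [IsNoetherianRing R] {ρ : GaloisRepAdic R} (hdet : ρ.DetIsCyclotomic p)
    {g : Gloc (pPrime p)} (hg : ∀ n, g ∈ rootFixer (pPrime p) n) :
    LinearMap.det (ρ.ρ (glb g)) = 1 :=
  eq_of_forall_sub_mem fun n => by
    have := det_sub_mem hdet (g := g) (n := n) (a := 1)
      fun ω hω => by rw [pow_one]; exact hg n ω hω
    rwa [Nat.cast_one] at this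

/-- Elements fixing a level act as `1` modulo a power of the maximal ideal. -/
theorem locMatrix_sub_one_mem (ρ : GaloisRepAdic R) (b : Module.Basis (Fin 2) R ρ.V) (n : ℕ) :
    ∃ L : IntermediateField ℚ (AlgebraicClosure ℚ), FiniteDimensional ℚ L ∧
      ∀ g : Gloc (pPrime p), glb g ∈ L.fixingSubgroup →
        ∀ i j, lmat ρ b g i j - (1 : Matrix (Fin 2) (Fin 2) R) i j ∈ maximalIdeal R ^ n := by
  obtain ⟨L, hL, hρ⟩ := ρ.isAdicContinuous n
  refine ⟨L, hL, fun g hg i j => ?_⟩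
  have key : ∀ v ∈ (maximalIdeal R ^ n) • (⊤ : Submodule R ρ.V),
      b.repr v i ∈ maximalIdeal R ^ n := fun v hv => by
    refine Submodule.smul_induction_on hv (fun r hr w _ => ?_) (fun x y hx hy => ?_)
    · rw [map_smul, Finsupp.smul_apply, smul_eq_mul]
      exact Ideal.mul_mem_right _ _ hr
    · rw [map_add, Finsupp.add_apply]
      exact add_mem hx hy
  have h := key _ (hρ _ ((IntermediateField.mem_fixingSubgroup_iff L _).1 hg) (b j))
  rw [map_sub, Finsupp.sub_apply, b.repr_self, Finsupp.single_apply] at h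
  rw [lmat, locMatrix, LinearMap.toMatrix_apply, Matrix.one_apply]
  simpa only [eq_comm] using h

theorem exists_local_level (ρ : GaloisRepAdic R) (b : Module.Basis (Fin 2) R ρ.V) (n : ℕ) :
    ∃ E : LocalField (pPrime p), FiniteDimensional ℚ_[((pPrime p : Nat.Primes) : ℕ)] E ∧
      Normal ℚ_[((pPrime p : Nat.Primes) : ℕ)] E ∧ ∀ g, Loc.FixesField E g →
        ∀ i j, lmat ρ b g i j - (1 : Matrix (Fin 2) (Fin 2) R) i j ∈ maximalIdeal R ^ n := by
  obtain ⟨L, hL, h⟩ := locMatrix_sub_one_mem (p := p) ρ b n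
  obtain ⟨E, hfd, hn, hE⟩ := exists_level (q := pPrime p) L
  exact ⟨E, hfd, hn, fun g hg => h g (hE g hg)⟩

end FermatLib.MLT.Odd.LocP

end
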