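import Fermat.Agent.MLT.Odd.Defs
import Fermat.Agent.MLT.LocQRelations
import Fermat.Agent.MLT.SupportQuadric
import Mathlib.RingTheory.MvPowerSeries.Inverse

/-!
# Framed matrices and their relations

A matrix in the universal frame is determined by its trace and its three traceless coordinates;
products, determinants and traces are those of the matrix. The relations at a tame pair in a
quotient of the framed ring.
-/

set_option autoImplicit false

noncomputable section

namespace FermatLib.MLT.Odd

variable {R : Type} [CommRing R] {T : Finset ℕ}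

theorem map_stEntry {A B : Type} [CommRing A] [CommRing B] (f : A →+* B)
    (q h p₁ p₂ p₃ n₁ n₂ n₃ : A) (i : Fin 4) :
    f (LocQ.stEntry q h p₁ p₂ p₃ n₁ n₂ n₃ i) =
      LocQ.stEntry (f q) (f h) (f p₁) (f p₂) (f p₃) (f n₁) (f n₂) (f n₃) i := by
  fin_cases i <;> simp [LocQ.stEntry]

/-- The entries are affine in the scalar part of Frobenius. -/
theorem stEntry_affine {A : Type} [CommRing A] (q h p₁ p₂ p₃ n₁ n₂ n₃ : A) (i : Fin 4) :
    LocQ.stEntry q h p₁ p₂ p₃ n₁ n₂ n₃ i = LocQ.stEntry q 0 p₁ p₂ p₃ n₁ n₂ n₃ i +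
      h * LocQ.stEntry q 1 0 0 0 n₁ n₂ n₃ i := by
  fin_cases i <;> simp [LocQ.stEntry] <;> ring

theorem map_qForm {A B : Type} [CommRing A] [CommRing B] (f : A →+* B) (v : Fin 3 → A) :
    f (qForm v) = LocQ.quad (f (v 0)) (f (v 1)) (f (v 2)) := by
  simp [qForm, LocQ.quad]

theorem isUnit_det_frameChange (q : T) :
    IsUnit (frameChange (R := R) q).det := by
  rw [MvPowerSeries.isUnit_iff_constantCoeff, RingHom.map_det]
  have : MvPowerSeries.constantCoeff.mapMatrix (frameChange (R := R) q) = 1 := by
    rw [frameChange, map_add, map_one, add_eq_left]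
    ext i j
    simp
  rw [this, Matrix.det_one]
  exact isUnit_one

theorem frameMat_mul (q : T) (M M' : Matrix (Fin 2) (Fin 2) R) :
    frameMat q (M * M') = frameMat q M * frameMat q M' := by
  simp only [frameMat, Matrix.map_mul, mul_assoc,
    Matrix.nonsing_inv_mul_cancel_left _ _ (isUnit_det_frameChange q)]

theorem frameMat_pow (q : T) (M : Matrix (Fin 2) (Fin 2) R) (k : ℕ) :
    frameMat q (M ^ k) = frameMat q M ^ k := by
  induction k with
  | zero => simp [frameMat, Matrix.mul_nonsing_inv _ (isUnit_det_frameChange q)]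
  | succ k ih => rw [pow_succ, pow_succ, frameMat_mul, ih]

theorem det_frameMat (q : T) (M : Matrix (Fin 2) (Fin 2) R) :
    (frameMat q M).det = MvPowerSeries.C M.det := by
  rw [frameMat, Matrix.det_mul, Matrix.det_mul, mul_comm, ← mul_assoc, ← Matrix.det_mul,
    Matrix.nonsing_inv_mul _ (isUnit_det_frameChange q), Matrix.det_one, one_mul, RingHom.map_det]
  rfl

theorem trace_frameMat (q : T) (M : Matrix (Fin 2) (Fin 2) R) :
    (frameMat q M).trace = MvPowerSeries.C M.trace := by
  rw [frameMat, Matrix.trace_mul_cycle, Matrix.nonsing_inv_mul _ (isUnit_det_frameChange q),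
    one_mul]
  simp [Matrix.trace]

/-- A framed matrix from its trace and coordinates. -/
theorem frameMat_eq_ofCoord (h2 : IsUnit (2 : R)) (q : T) (M : Matrix (Fin 2) (Fin 2) R) :
    frameMat q M = LocQ.ofCoord (MvPowerSeries.C (Ring.inverse 2 * M.trace))
      (tracelessCoord (frameMat q M) 0) (tracelessCoord (frameMat q M) 1)
      (tracelessCoord (frameMat q M) 2) := by
  have h2' : IsUnit (2 : MvPowerSeries (FrameVar T) R) := by
    simpa only [map_ofNat] using h2.map (MvPowerSeries.C : R →+* MvPowerSeries (FrameVar T) R)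
  have hinv : Ring.inverse (2 : MvPowerSeries (FrameVar T) R) = MvPowerSeries.C (Ring.inverse 2) :=
    h2'.mul_left_cancel (by
      rw [Ring.mul_inverse_cancel _ h2', ← map_ofNat MvPowerSeries.C, ← map_mul,
        Ring.mul_inverse_cancel _ h2, map_one])
  have hH := Ring.mul_inverse_cancel _ h2'
  have htr := trace_frameMat q M
  rw [Matrix.trace_fin_two] at htr
  rw [map_mul, ← hinv, ← htr]
  ext i j : 1
  fin_cases i <;> fin_cases j <;> simp [LocQ.ofCoord, tracelessCoord]
  · linear_combination -(frameMat q M 0 0) * hH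
  · linear_combination -(frameMat q M 1 1) * hH

/-- The scalar part of a framed matrix. -/
abbrev frameScalar (T : Finset ℕ) (M : Matrix (Fin 2) (Fin 2) R) : MvPowerSeries (FrameVar T) R :=
  MvPowerSeries.C (Ring.inverse 2 * M.trace)

variable {A : Type} [CommRing A] (f : MvPowerSeries (FrameVar T) R →+* A)

theorem map_frameMat (h2 : IsUnit (2 : R)) (q : T) (M : Matrix (Fin 2) (Fin 2) R) :
    (frameMat q M).map f = LocQ.ofCoord (f (frameScalar T M))
      (f (tracelessCoord (frameMat q M) 0)) (f (tracelessCoord (frameMat q M) 1))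
      (f (tracelessCoord (frameMat q M) 2)) := by
  conv_lhs => rw [frameMat_eq_ofCoord h2 q M]
  rw [LocQ.map_ofCoord]

theorem map_det_frameMat (q : T) (M : Matrix (Fin 2) (Fin 2) R) :
    ((frameMat q M).map f).det = f (MvPowerSeries.C M.det) := by
  rw [← RingHom.mapMatrix_apply, ← RingHom.map_det, det_frameMat]

theorem map_trace_frameMat (q : T) (M : Matrix (Fin 2) (Fin 2) R) :
    ((frameMat q M).map f).trace = f (MvPowerSeries.C M.trace) := by
  rw [← trace_frameMat q M]
  simp [Matrix.trace_fin_two]

theorem map_tame_frameMat (q : T) {G Φ : Matrix (Fin 2) (Fin 2) R} {k : ℕ}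
    (h : Φ * G = G ^ k * Φ) :
    (frameMat q Φ).map f * (frameMat q G).map f =
      (frameMat q G).map f ^ k * (frameMat q Φ).map f := by
  rw [← RingHom.mapMatrix_apply, ← RingHom.mapMatrix_apply, ← map_pow, ← map_mul, ← map_mul,
    ← frameMat_pow, ← frameMat_mul, ← frameMat_mul, h]

/-- The determinant of Frobenius in coordinates. -/
theorem sq_sub_quad_frameMat (h2 : IsUnit (2 : R)) (q : T) {Φ : Matrix (Fin 2) (Fin 2) R} {k : ℕ}
    (hdet : Φ.det = (k : R)) :
    f (frameScalar T Φ) ^ 2 - LocQ.quad (f (tracelessCoord (frameMat q Φ) 0))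
      (f (tracelessCoord (frameMat q Φ) 1)) (f (tracelessCoord (frameMat q Φ) 2)) - (k : A) = 0 := by
  have h := map_det_frameMat f q Φ
  rw [map_frameMat f h2, LocQ.det_ofCoord, hdet, map_natCast, map_natCast] at h
  rw [h, sub_self]

end FermatLib.MLT.Odd

end
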