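import Fermat.Agent.MLT.Odd.PatchBranches
import Fermat.Agent.MLT.Odd.PatchFrameRel

/-!
# The branches of the whole space against those of the special fibre
-/

set_option autoImplicit false

noncomputable section

namespace FermatLib.MLT.Odd

open IsLocalRing

/-- Away from `q = 1` the unipotent relations with `h = u (q + 1)` give `P N = e N`, `e = u (q - 1)`. -/
theorem stLiftGen_mem_of_stEntry {A : Type} [CommRing A] {Q : Ideal A} [Q.IsPrime]
    {q h e u : A} {n p : Fin 3 → A} (hq1 : q - 1 ∉ Q) (hq2 : q + 1 ∉ Q)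
    (hh : h - u * (q + 1) ∈ Q) (he : e - u * (q - 1) ∈ Q) (hu : 4 * u ^ 2 - 1 ∈ Q)
    (hst : LocQ.stIdeal q h (p 0) (p 1) (p 2) (n 0) (n 1) (n 2) ≤ Q) (i : Fin 6) :
    LocQ.stLiftGen n p e i ∈ Q := by
  obtain ⟨hE, hQn, hQp⟩ := LocQ.stIdeal_le_iff.mp hst
  simp only [← Ideal.Quotient.eq_zero_iff_mem] at *
  simp only [map_sub, map_mul, map_pow, map_one, map_ofNat, map_add, LocQ.quad] at hh he hu hQn hQp hq1 hq2
  have e0 := hE 0
  have e1 := hE 1
  have e2 := hE 2
  have e3 := hE 3
  simp [LocQ.stEntry] at e0 e1 e2 e3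
  set g := Ideal.Quotient.mk Q
  have hs : 2 * g (p 0) * g (n 0) + g (p 1) * g (n 2) + g (p 2) * g (n 1) = 0 := by
    have hm : (1 - g q) * (2 * g (p 0) * g (n 0) + g (p 1) * g (n 2) + g (p 2) * g (n 1)) = 0 := by
      linear_combination e0 + e3
    exact (mul_eq_zero.mp hm).resolve_left fun hz => hq1 (by linear_combination -hz)
  have key : ∀ x, (g q + 1) * x = 0 → x = 0 := fun x hx =>
    (mul_eq_zero.mp hx).resolve_left hq2
  have h1 : g e = g u * (g q - 1) := sub_eq_zero.mp he
  have h0 : g h = g u * (g q + 1) := sub_eq_zero.mp hh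
  fin_cases i <;> simp [LocQ.stLiftGen, map_add, map_sub, map_mul, map_pow]
  · exact hQn
  · rw [h1]
    linear_combination (g u ^ 2) * hQp - (g (p 0) ^ 2 + g (p 1) * g (p 2)) * hu
  · refine key _ ?_
    rw [h1]
    rw [h0] at e0
    linear_combination e0 + g q * hs
  · refine key _ ?_
    rw [h1]
    rw [h0] at e1
    linear_combination e1
  · refine key _ ?_
    rw [h1]
    rw [h0] at e2
    linear_combination e2
  · refine key _ ?_
    rw [h1]
    rw [h0] at e3
    linear_combination e3 + g q * hs

variable {O : Type} [CommRing O] [IsDomain O] [IsDiscreteValuationRing O] {p : ℕ}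
  {ρbar : ResidualGaloisRep (ResidueField O)} {S : OddPrimes p ρbar} {g : ℕ}

omit [IsDomain O] [IsDiscreteValuationRing O] in
/-- `q - 1` lies in the maximal ideal at the primes of `T`. -/
theorem natCast_sub_one_mem [IsLocalRing O] (hpO : (p : O) ∈ maximalIdeal O) {q : ℕ}
    (hq : q.Prime) (h1 : q ≡ 1 [MOD p]) : (q : O) - 1 ∈ maximalIdeal O := by
  obtain ⟨m, hm⟩ := (Nat.modEq_iff_dvd' hq.one_le).mp h1.symm
  have : q = p * m + 1 := by have := hq.one_le; omega
  rw [this, Nat.cast_add, Nat.cast_mul, Nat.cast_one, add_sub_cancel_right]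
  exact Ideal.mul_mem_right _ _ hpO

/-- The branches of the special fibre are the reductions of those of the whole space. -/
theorem branchIdeal_le_sup {ϖ : O} (hϖ : maximalIdeal O = Ideal.span {ϖ})
    (hpO : (p : O) ∈ maximalIdeal O) (tp : S.TamePairs) (j : BranchIdx S) (b : Bool) :
    branchIdeal S g ϖ j b ≤ (branchIdeal₁ tp j b ⊔ Ideal.span {MvPowerSeries.C ϖ}).radical := by
  refine le_trans ?_ Ideal.le_radical
  rcases j with _ | q | q | q
  · exact le_sup_right
  · cases b
    · set n := nCoord S g q
      set p' := pCoord S g q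
      set e : CoordRing S g := MvPowerSeries.C (frobShift tp q)
      set I := Ideal.span (Set.range (LocQ.stLiftGen n p' e)) ⊔ Ideal.span {MvPowerSeries.C ϖ}
      have he : e ∈ I := by
        refine Ideal.mem_sup_right ?_
        have h : frobShift tp q ∈ Ideal.span {ϖ} := by
          rw [← hϖ]
          exact Ideal.mul_mem_left _ _ (natCast_sub_one_mem hpO (S.prime_of_mem q (by simp))
            (S.one_mod_T q q.2))
        have := Ideal.mem_map_of_mem (MvPowerSeries.C : O →+* CoordRing S g) h
        rwa [Ideal.map_span, Set.image_singleton] at this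
      have hg : ∀ i, LocQ.stLiftGen n p' e i ∈ I := fun i =>
        Ideal.mem_sup_left (Ideal.subset_span ⟨i, rfl⟩)
      have h0 := hg 0
      have h1 := hg 1
      have h2 := hg 2
      have h3 := hg 3
      have h4 := hg 4
      have h5 := hg 5
      simp [LocQ.stLiftGen, ← Ideal.Quotient.eq_zero_iff_mem, map_add, map_sub, map_mul, map_pow,
        Ideal.Quotient.eq_zero_iff_mem.mpr he] at h0 h1 h2 h3 h4 h5
      show quadSt n p' ≤ I
      refine quadSt_le (hg 0) ?_ fun i k => ?_
      · simp [qForm, ← Ideal.Quotient.eq_zero_iff_mem, map_add, map_mul, map_pow]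
        linear_combination h1
      · rw [← Ideal.Quotient.eq_zero_iff_mem, map_sub, map_mul, map_mul]
        fin_cases i <;> fin_cases k <;> dsimp only [Fin.zero_eta, Fin.mk_one, Fin.reduceFinMk]
        · ring
        · linear_combination -h3
        · linear_combination h4
        · linear_combination h3
        · ring
        · linear_combination h5 - h2
        · linear_combination -h4
        · linear_combination -(h5 - h2)
        · ring
    · exact le_sup_left
  · cases b <;> exact le_sup_left
  · cases b <;> exact le_sup_left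

theorem coordX_notMem_sq (c : CoordVar S g) :
    coordX c ∉ maximalIdeal (CoordRing S g) ^ 2 := fun h => by
  classical
  have := pow_maximalIdeal_le_coeffFiltration 2 h (Finsupp.single (Fintype.equivFin _ c) 1)
  rw [coordX, MvPowerSeries.coeff_index_single_X, if_pos rfl,
    show expDeg (Finsupp.single (Fintype.equivFin (CoordVar S g) c) 1) = 1 by
      simp [expDeg, Finsupp.single_apply]] at this
  simp at this

theorem coordX_notMem_span_coordX {c c' : CoordVar S g} (h : c ≠ c') :
    coordX c ∉ Ideal.span {coordX c'} := fun hmem => by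
  classical
  obtain ⟨a, ha⟩ := Ideal.mem_span_singleton.mp hmem
  have hz := MvPowerSeries.X_dvd_iff.mp ⟨a, ha⟩ (Finsupp.single (Fintype.equivFin _ c) 1)
    (Finsupp.single_eq_of_ne ((Fintype.equivFin _).injective.ne h.symm))
  rw [coordX, MvPowerSeries.coeff_index_single_X, if_pos rfl] at hz
  exact one_ne_zero hz

/-- The branches of the special fibre at an index determine those of the whole space. -/
theorem branchIdeal₁_congr (ϖ : O) (tp : S.TamePairs) (j : BranchIdx S) (b b' : Bool)
    (h : branchIdeal S g ϖ j b = branchIdeal S g ϖ j b') :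
    branchIdeal₁ (g := g) tp j b = branchIdeal₁ tp j b' := by
  rcases eq_or_ne b b' with rfl | hbb
  · rfl
  suffices hne : ∀ j, j ≠ none → branchIdeal S g ϖ j true ≠ branchIdeal S g ϖ j false by
    rcases j with _ | j
    · cases b <;> cases b' <;> rfl
    · cases b <;> cases b'
      · rfl
      · exact absurd h.symm (hne _ (by simp))
      · exact absurd h (hne _ (by simp))
      · rfl
  rintro (_ | q | q | q) hj heq
  · exact hj rfl
  · have hm : ∀ i, nCoord S g q i ∈ maximalIdeal (CoordRing S g) := fun i =>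
      coordX_mem_maximalIdeal _
    have hm' : ∀ i, pCoord S g q i ∈ maximalIdeal (CoordRing S g) := fun i =>
      coordX_mem_maximalIdeal _
    have h2 : quadSt (nCoord S g q) (pCoord S g q) ≤ maximalIdeal (CoordRing S g) ^ 2 := by
      rw [pow_two]
      refine quadSt_le ?_ ?_ fun i k => sub_mem (Ideal.mul_mem_mul (hm i) (hm' k))
        (Ideal.mul_mem_mul (hm k) (hm' i))
      · rw [qForm, pow_two]
        exact add_mem (Ideal.mul_mem_mul (hm 0) (hm 0)) (Ideal.mul_mem_mul (hm 1) (hm 2))
      · rw [qForm, pow_two]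
        exact add_mem (Ideal.mul_mem_mul (hm' 0) (hm' 0)) (Ideal.mul_mem_mul (hm' 1) (hm' 2))
    have hmem : nCoord S g q 0 ∈ branchIdeal S g ϖ (some (Sum.inl q)) true :=
      Ideal.subset_span ⟨0, rfl⟩
    exact coordX_notMem_sq _ (h2 (heq ▸ hmem :))
  · refine coordX_notMem_span_coordX (g := g) (c := Sum.inl (Sum.inr (q, 1)))
      (c' := Sum.inl (Sum.inr (q, 0))) (by simp) ?_
    show lVarF S g q ∈ Ideal.span {zVarF S g q}
    exact (heq.le (Ideal.mem_span_singleton_self _) :)
  · refine coordX_notMem_span_coordX (g := g) (c := Sum.inr (Sum.inl (q, 1)))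
      (c' := Sum.inr (Sum.inl (q, 0))) (by simp) ?_
    show eVarP S g q ∈ Ideal.span {zVarP S g q}
    exact (heq.le (Ideal.mem_span_singleton_self _) :)

end FermatLib.MLT.Odd

end
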