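import Fermat.Agent.MLT.Odd.Defs
import Fermat.Agent.MLT.Odd.GeneratorsProofSetting
import Fermat.Agent.MLT.Odd.HeckeRepDescentPrep
import Fermat.Agent.MLT.Odd.TWResidual
import Fermat.Agent.Galois.Deform.Mat

/-!
# A lift at a tame pair of `T`

The matrices at the generator and at the Frobenius of a tame pair: the tame relation, the
determinants, and their reductions.
-/

set_option autoImplicit false

noncomputable section

namespace FermatLib.MLT.Odd

open IsLocalRing FermatLib.Galois FermatLib.Galois.Deform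

local notation "Γℚ" => (AlgebraicClosure ℚ ≃ₐ[ℚ] AlgebraicClosure ℚ)

section Tame

variable {A : Type} [CommRing A] [IsLocalRing A]

/-- A matrix congruent to `1` has `p`-power order modulo each power of the maximal ideal. -/
theorem pow_prime_pow_sub_one_mem {p : ℕ} (hpA : (p : A) ∈ maximalIdeal A) {M : M2 A}
    (hM : ∀ i j, (M - 1) i j ∈ maximalIdeal A) (n : ℕ) :
    ∀ i j, (M ^ p ^ n - 1) i j ∈ maximalIdeal A ^ (n + 1) := by
  induction n with
  | zero => intro i j; simpa using hM i j
  | succ n ih =>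
    intro i j
    set Y := M ^ p ^ n
    rw [pow_succ p, pow_mul, ← mul_geom_sum, Matrix.mul_apply, pow_succ _ (n + 1)]
    refine Ideal.sum_mem _ fun l _ => Ideal.mul_mem_mul (ih i l) ?_
    have hY : Y.map (residue A) = 1 := by
      refine Matrix.ext fun a b => ?_
      have := Ideal.pow_le_self (n.succ_ne_zero) (ih a b)
      rw [← residue_eq_zero_iff, Matrix.sub_apply, map_sub, sub_eq_zero] at this
      rw [Matrix.map_apply, this, Matrix.one_apply, Matrix.one_apply]
      split_ifs <;> simp
    have hsum : (∑ k ∈ Finset.range p, Y ^ k).map (residue A) = 0 := by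
      rw [← RingHom.mapMatrix_apply, map_sum]
      simp only [map_pow, RingHom.mapMatrix_apply, hY, one_pow, Finset.sum_const, Finset.card_range]
      ext a b
      rw [Matrix.smul_apply, nsmul_eq_mul, ← map_natCast (residue A),
        (residue_eq_zero_iff _).mpr hpA, zero_mul, Matrix.zero_apply]
    exact (residue_eq_zero_iff _).mp (congrFun (congrFun hsum l) j)

variable [IsNoetherianRing A] [Finite (ResidueField A)]

/-- The tame relation at a pair whose inertia is residually trivial. -/
theorem matRep_tamePair_relation {p q : ℕ} (hpA : (p : A) ∈ maximalIdeal A) {M : GQ →* M2 A}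
    (hM : MatCont M) (t : TamePair p q)
    (hU : ∀ σ ∈ t.A.inertiaSubgroupIn ℚ, ∀ i j, (M σ - 1) i j ∈ maximalIdeal A) :
    M (t.frob * t.gen * t.frob⁻¹) = M t.gen ^ q := by
  suffices h : ∀ n i j, M (t.frob * t.gen * t.frob⁻¹) i j - (M t.gen ^ q) i j ∈
      maximalIdeal A ^ (n + 1) by
    ext i j
    exact sub_eq_zero.mp (FermatLib.Galois.DeformLocal.eq_zero_of_forall_mem_pow fun n =>
      h n i j)
  intro n i j
  set m := maximalIdeal A ^ (n + 1)
  have : Finite (A ⧸ maximalIdeal A) := ‹Finite (ResidueField A)›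
  have : Finite (A ⧸ m) := Ideal.finite_quotient_pow (IsNoetherian.noetherian _) _
  have : Finite (M2 (A ⧸ m)) := inferInstanceAs (Finite (Fin 2 → Fin 2 → A ⧸ m))
  have : Finite (M2 (A ⧸ m))ˣ := Finite.of_injective _ Units.val_injective
  let Φ : GQ →* (M2 (A ⧸ m))ˣ := ((Ideal.Quotient.mk m).mapMatrix.toMonoidHom.comp M).toHomUnits
  have hΦ : ∀ g, (Φ g : M2 (A ⧸ m)) = (M g).map (Ideal.Quotient.mk m) := fun g => rfl
  have hΦ1 : ∀ g, (∀ i j, (M g - 1) i j ∈ m) → Φ g = 1 := fun g hg => by
    refine Units.ext (Matrix.ext fun a b => ?_)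
    have h := Ideal.Quotient.eq_zero_iff_mem.mpr (hg a b)
    rw [Matrix.sub_apply, map_sub, sub_eq_zero] at h
    rw [hΦ, Matrix.map_apply, h, Units.val_one, Matrix.one_apply, Matrix.one_apply]
    split_ifs <;> simp
  obtain ⟨L, hL, hLM⟩ := hM (n + 1)
  obtain ⟨-, -, h3⟩ := t.tame (M2 (A ⧸ m))ˣ Φ ⟨L, hL, fun σ hσ => hΦ1 σ (hLM σ hσ)⟩
    fun σ hσ => ⟨n, by
      rw [← map_pow]
      refine hΦ1 _ fun a b => ?_
      rw [map_pow]
      exact pow_prime_pow_sub_one_mem hpA (hU σ hσ) n a b⟩
  rw [← map_pow] at h3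
  have h := congrArg (fun u : (M2 (A ⧸ m))ˣ => Units.val u i j) h3
  simp only [hΦ, Matrix.map_apply] at h
  rw [map_pow M] at h
  exact Ideal.Quotient.eq.mp h

end Tame

section AtT

variable {O : Type} [CommRing O] [IsLocalRing O] {p : ℕ} {ρbar : ResidualGaloisRep (ResidueField O)}
  {S : OddPrimes p ρbar}

open Classical in
/-- The sign of the residual Frobenius at a prime of `T`. -/
def frobSign (tp : S.TamePairs) (q : S.T) : O :=
  if residualMat ρbar (tp.atT q).frob = 1 then 1 else -1

theorem frobSign_sq (tp : S.TamePairs) (q : S.T) : frobSign tp q ^ 2 = (1 : O) := by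
  unfold frobSign
  split_ifs <;> simp

/-- The residual Frobenius at a prime of `T` is the sign. -/
theorem residualMat_frob_eq (hp : p.Prime) (hpO : (p : O) ∈ maximalIdeal O)
    (hdet : (GaloisRepAdic.ofResidualGaloisRep ρbar).DetIsCyclotomic p)
    (tp : S.TamePairs) (q : S.T) :
    residualMat ρbar (tp.atT q).frob = residue O (frobSign tp q) • 1 := by
  set t := tp.atT q
  obtain ⟨c, hc⟩ := S.scalar_T q q.2 t.A t.liesOver t.frob t.frob_spec.mem_decompositionSubgroup
  have hmat : residualMat ρbar t.frob = c • 1 := by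
    rw [residualMat, repMatrix_apply, hc, map_smul, LinearMap.toMatrix_one]
  have hqp : q.1.Prime := S.prime_of_mem q (by simp)
  have hqne : q.1 ≠ p := S.ne_p q (by simp)
  have hpk : (p : ResidueField O) = 0 := by
    rw [← map_natCast (residue O), (residue_eq_zero_iff _).mpr hpO]
  have : Fact p.Prime := ⟨hp⟩
  have hd : LinearMap.det (ρbar.ρ t.frob) = (q.1 : ResidueField O) :=
    HeckeRep.det_frobenius (ρ := GaloisRepAdic.ofResidualGaloisRep ρbar) hp hdet hqp hqne t.liesOver
      t.frob_spec
  have hq1 : (q.1 : ResidueField O) = 1 := by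
    have h := (Nat.modEq_iff_dvd' hqp.one_le).mp (S.one_mod_T q q.2).symm
    obtain ⟨m, hm⟩ := h
    have hm' : q.1 = p * m + 1 := by have := hqp.one_le; omega
    rw [hm', Nat.cast_add, Nat.cast_mul, hpk, zero_mul, zero_add, Nat.cast_one]
  have hc2 : c ^ 2 = 1 := by
    rw [← hq1, ← hd, ← LinearMap.det_toMatrix (residualBasis ρbar), ← repMatrix_apply]
    change c ^ 2 = (residualMat ρbar t.frob).det
    rw [hmat, Matrix.det_smul, Matrix.det_one, Fintype.card_fin, mul_one]
  rw [frobSign]
  split_ifs with h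
  · rw [map_one, one_smul]
    exact h
  · rcases sq_eq_one_iff.mp hc2 with rfl | rfl
    · exact absurd (hmat.trans (one_smul _ _)) h
    · rw [hmat, map_neg, map_one]

variable {R : Type} [CommRing R] [IsLocalRing R] [Algebra O R] [IsLocalHom (algebraMap O R)]
  {ρ : GaloisRepAdic R}

/-- A residually scalar element is scalar modulo the maximal ideal in every basis. -/
theorem matOf_sub_smul_mem (hsurj : Function.Surjective fun c : O => residue R (algebraMap O R c))
    (hlift : IsLiftOf ρbar ρ) (b : Module.Basis (Fin 2) R ρ.V) {g : Γℚ} {a : O}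
    (hg : residualMat ρbar g = residue O a • 1) (i j : Fin 2) :
    (matOf ρ b g - algebraMap O R a • 1) i j ∈ maximalIdeal R := by
  obtain ⟨π, e, he⟩ := exists_frame hsurj hlift
  have hker : ∀ x, π x = 0 → x ∈ maximalIdeal R := fun x hx hu => by
    have := hu.map π
    rw [hx] at this
    exact not_isUnit_zero this
  have hconj : matOf ρ b g - algebraMap O R a • 1 =
      b.toMatrix e * (matOf ρ e g - algebraMap O R a • 1) * e.toMatrix b := by
    rw [mul_sub, sub_mul, matOf_apply, matOf_apply,
      basis_toMatrix_mul_linearMap_toMatrix_mul_basis_toMatrix, mul_smul_comm, mul_one,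
      smul_mul_assoc, Module.Basis.toMatrix_mul_toMatrix_flip]
  have h0 : (matOf ρ e g - algebraMap O R a • 1).map π = 0 := by
    rw [Matrix.map_sub _ (map_sub π), he, hg, sub_eq_zero]
    ext k l
    simp [Matrix.one_apply, apply_ite π, Algebra.smul_def, Matrix.algebraMap_matrix_apply,
      ResidueField.algebraMap_eq]
  refine hker _ ?_
  rw [hconj, ← Matrix.map_apply (f := π), Matrix.map_mul, Matrix.map_mul, h0, mul_zero, zero_mul,
    Matrix.zero_apply]

/-- The residual inertia at a prime of `T` is trivial. -/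
theorem matOf_inertia_sub_one_mem
    (hsurj : Function.Surjective fun c : O => residue R (algebraMap O R c))
    (hlift : IsLiftOf ρbar ρ) (b : Module.Basis (Fin 2) R ρ.V) {q : ℕ} (hq : q ∈ S.T)
    {A : ValuationSubring (AlgebraicClosure ℚ)} (hA : A.LiesOverPrime q) {g : Γℚ}
    (hg : g ∈ A.inertiaSubgroupIn ℚ) (i j : Fin 2) :
    (matOf ρ b g - 1) i j ∈ maximalIdeal R := by
  have h := matOf_sub_smul_mem hsurj hlift b (g := g) (a := 1)
    (by rw [map_one, one_smul]; exact residualMat_eq_one_of_isUnramifiedAt (S.unramified_T q hq) hA hg)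
    i j
  rwa [map_one, one_smul] at h

variable [IsNoetherianRing R] [Finite (ResidueField R)]

/-- **A lift at a tame pair of `T`**: determinants, tame relation, reductions. -/
theorem matOf_atT (hp : p.Prime) (hpO : (p : O) ∈ maximalIdeal O)
    (hdet : (GaloisRepAdic.ofResidualGaloisRep ρbar).DetIsCyclotomic p)
    (hsurj : Function.Surjective fun c : O => residue R (algebraMap O R c))
    (hlift : IsLiftOf ρbar ρ) (hρdet : ρ.DetIsCyclotomic p)
    (b : Module.Basis (Fin 2) R ρ.V) (tp : S.TamePairs) (q : S.T) :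
    (matOf ρ b (tp.atT q).gen).det = 1 ∧ (matOf ρ b (tp.atT q).frob).det = (q.1 : R) ∧
      matOf ρ b (tp.atT q).frob * matOf ρ b (tp.atT q).gen =
        matOf ρ b (tp.atT q).gen ^ q.1 * matOf ρ b (tp.atT q).frob ∧
      (∀ i j, (matOf ρ b (tp.atT q).gen - 1) i j ∈ maximalIdeal R) ∧
      ∀ i j, (matOf ρ b (tp.atT q).frob - algebraMap O R (frobSign tp q) • 1) i j ∈
        maximalIdeal R := by
  set t := tp.atT q
  have hpR : (p : R) ∈ maximalIdeal R := by
    rw [← map_natCast (algebraMap O R)]
    exact map_nonunit _ _ hpO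
  have hqp : q.1.Prime := S.prime_of_mem q (by simp)
  have hqne : q.1 ≠ p := S.ne_p q (by simp)
  have hin : ∀ σ ∈ t.A.inertiaSubgroupIn ℚ, ∀ i j, (matOf ρ b σ - 1) i j ∈ maximalIdeal R :=
    fun σ hσ => matOf_inertia_sub_one_mem hsurj hlift b q.2 t.liesOver hσ
  refine ⟨?_, ?_, ?_, hin _ t.gen_mem,
    matOf_sub_smul_mem hsurj hlift b (residualMat_frob_eq hp hpO hdet tp q)⟩
  · rw [matOf_apply, LinearMap.det_toMatrix]
    refine HeckeRep.det_eq_of_exponents ρ hρdet fun n => ⟨1, fun μ hμ => ?_, by simp⟩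
    have : NeZero (p ^ n) := ⟨pow_ne_zero n hp.ne_zero⟩
    rw [apply_eq_pow_modCycloChar (p ^ n) t.gen hμ,
      modCycloChar_inertia hqp (fun h => hqne ((Nat.prime_dvd_prime_iff_eq hqp hp).mp
        (hqp.dvd_of_dvd_pow h))) t.liesOver t.gen_mem]
    rcases eq_or_ne (p ^ n) 1 with h1 | h1
    · rw [h1, pow_one] at hμ
      simp [hμ]
    · have : Fact (1 < p ^ n) := ⟨by have := NeZero.ne (p ^ n); omega⟩
      rw [Units.val_one, ZMod.val_one, pow_one]
  · rw [matOf_apply, LinearMap.det_toMatrix]
    exact HeckeRep.det_frobenius ρ hp hρdet hqp hqne t.liesOver t.frob_spec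
  · rw [← matRep_tamePair_relation hpR (matCont_matOf ρ b) t hin, ← map_mul, ← map_mul,
      inv_mul_cancel_right]

end AtT

end FermatLib.MLT.Odd

end
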