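import Fermat.Agent.MLT.Odd.PatchData
import Fermat.Agent.MLT.Odd.PatchBaseDim
import Fermat.Agent.MLT.Odd.PatchTame
import Fermat.Agent.MLT.SupportBranches
import Fermat.Agent.MLT.SupportQuadric
import Fermat.Agent.MLT.LocQSteinbergUnique
import Fermat.Agent.MLT.PowerSeriesComplete
import Fermat.Agent.Galois.Deform.PowerSeries

/-!
# The branches of the coordinate ring

`oddBranches`: the branches of the special fibre (`true`: unramified at `T` and `F`, flat at `p`;
`false`: Steinberg, strictly ordinary at `p`), and `branchIdeal₁`: those of the whole space.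
-/

set_option autoImplicit false

noncomputable section

namespace FermatLib.MLT.Odd

open IsLocalRing

variable {O : Type} [CommRing O] [IsDomain O] [IsDiscreteValuationRing O] {p : ℕ}
  {ρbar : ResidualGaloisRep (ResidueField O)}

/-- The indices of the branches: the constants, `T`, `F`, and `p` in the mixed case. -/
abbrev BranchIdx (S : OddPrimes p ρbar) : Type := Option (S.T ⊕ (S.F ⊕ Fin S.pIdx))

variable (S : OddPrimes p ρbar) (g : ℕ)

/-- The coordinates of inertia at `q`. -/
def nCoord (q : S.T) (j : Fin 3) : CoordRing S g := coordX (Sum.inl (Sum.inl (q, Fin.castAdd 3 j)))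

/-- The coordinates of Frobenius at `q`. -/
def pCoord (q : S.T) (j : Fin 3) : CoordRing S g := coordX (Sum.inl (Sum.inl (q, Fin.natAdd 3 j)))

/-- The coordinate `z` at `q` of `F`. -/
def zVarF (q : S.F) : CoordRing S g := coordX (Sum.inl (Sum.inr (q, 0)))

/-- The coordinate `l` at `q` of `F`. -/
def lVarF (q : S.F) : CoordRing S g := coordX (Sum.inl (Sum.inr (q, 1)))

/-- The coordinate `z` at `p`. -/
def zVarP (i : Fin S.pIdx) : CoordRing S g := coordX (Sum.inr (Sum.inl (i, 0)))

/-- The coordinate `e` at `p`. -/
def eVarP (i : Fin S.pIdx) : CoordRing S g := coordX (Sum.inr (Sum.inl (i, 1)))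

/-- The variables of an index. -/
def branchVars (ϖ : O) : BranchIdx S → Ideal (CoordRing S g)
  | none => Ideal.span {MvPowerSeries.C ϖ}
  | some (Sum.inl q) => quadVars (nCoord S g q) (pCoord S g q)
  | some (Sum.inr (Sum.inl q)) => Ideal.span {zVarF S g q, lVarF S g q}
  | some (Sum.inr (Sum.inr i)) => Ideal.span {zVarP S g i, eVarP S g i}

/-- The dimension of the branches of an index. -/
def branchDim : BranchIdx S → ℕ
  | none => 0
  | some (Sum.inl _) => 3
  | some (Sum.inr _) => 1

/-- The branches of the special fibre. -/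
def branchIdeal (ϖ : O) : BranchIdx S → Bool → Ideal (CoordRing S g)
  | none, _ => Ideal.span {MvPowerSeries.C ϖ}
  | some (Sum.inl q), true => quadUnr (nCoord S g q)
  | some (Sum.inl q), false => quadSt (nCoord S g q) (pCoord S g q)
  | some (Sum.inr (Sum.inl q)), true => Ideal.span {lVarF S g q}
  | some (Sum.inr (Sum.inl q)), false => Ideal.span {zVarF S g q}
  | some (Sum.inr (Sum.inr i)), true => Ideal.span {eVarP S g i}
  | some (Sum.inr (Sum.inr i)), false => Ideal.span {zVarP S g i}

variable {S g}

/-- `ε (q - 1) / 2`: the eigenvalue of the traceless part of Frobenius on the Steinberg branch. -/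
def frobShift (tp : S.TamePairs) (q : S.T) : O :=
  frobSign tp q * Ring.inverse 2 * ((q.1 : O) - 1)

/-- The branches of the whole space. -/
def branchIdeal₁ (tp : S.TamePairs) : BranchIdx S → Bool → Ideal (CoordRing S g)
  | none, _ => ⊥
  | some (Sum.inl q), true => quadUnr (nCoord S g q)
  | some (Sum.inl q), false => Ideal.span (Set.range
      (LocQ.stLiftGen (nCoord S g q) (pCoord S g q) (MvPowerSeries.C (frobShift tp q))))
  | some (Sum.inr (Sum.inl q)), true => Ideal.span {lVarF S g q}
  | some (Sum.inr (Sum.inl q)), false => Ideal.span {zVarF S g q}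
  | some (Sum.inr (Sum.inr i)), true => Ideal.span {eVarP S g i}
  | some (Sum.inr (Sum.inr i)), false => Ideal.span {zVarP S g i}

theorem coordX_mem_maximalIdeal (i : CoordVar S g) :
    coordX i ∈ maximalIdeal (CoordRing S g) := by
  simp [coordX, MvPowerSeries.isUnit_iff_constantCoeff]

theorem C_mem_maximalIdeal_coordRing {ϖ : O} (hϖ : maximalIdeal O = Ideal.span {ϖ}) :
    MvPowerSeries.C ϖ ∈ maximalIdeal (CoordRing S g) := by
  have h : ϖ ∈ maximalIdeal O := hϖ ▸ Ideal.mem_span_singleton_self ϖ
  simpa [MvPowerSeries.isUnit_iff_constantCoeff] using h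

omit [IsDiscreteValuationRing O] in
/-- Two elements cut by one out of either, by none out of both. -/
theorem cuts_span_pair {A : Type} [CommRing A] [IsLocalRing A] {a b : A}
    (hb : b ∈ maximalIdeal A) : Cuts (Ideal.span {a, b}) (Ideal.span {a}) 1 :=
  ⟨{b}, by simp, by simpa using hb, by
    rw [Finset.coe_singleton, ← Ideal.span_union, Set.singleton_union]
    exact Ideal.le_radical⟩

variable (S g) in
/-- **The branch system.** -/
def oddBranches (ϖ : O) (hϖ : maximalIdeal O = Ideal.span {ϖ}) :
    BranchSystem (CoordRing S g) (BranchIdx S) Bool where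
  V := branchVars S g ϖ
  δ := branchDim S
  g := g
  br := branchIdeal S g ϖ
  cuts i b := by
    rcases i with _ | q | q | q
    · refine ⟨∅, by simp, by simp, ?_⟩
      rw [Finset.coe_empty, Ideal.span_empty, sup_bot_eq]
      exact Ideal.le_radical
    · cases b
      · exact cuts_quadSt (fun j => coordX_mem_maximalIdeal _) fun j => coordX_mem_maximalIdeal _
      · exact cuts_quadUnr fun j => coordX_mem_maximalIdeal _
    · cases b
      · exact cuts_span_pair (coordX_mem_maximalIdeal _)
      · show Cuts (Ideal.span {zVarF S g q, lVarF S g q}) (Ideal.span {lVarF S g q}) 1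
        rw [Set.pair_comm]
        exact cuts_span_pair (coordX_mem_maximalIdeal _)
    · cases b
      · exact cuts_span_pair (coordX_mem_maximalIdeal _)
      · show Cuts (Ideal.span {zVarP S g q, eVarP S g q}) (Ideal.span {eVarP S g q}) 1
        rw [Set.pair_comm]
        exact cuts_span_pair (coordX_mem_maximalIdeal _)
  cross i b b' hne := by
    have h0 : ∀ a c : CoordRing S g,
        Cuts (Ideal.span {a, c}) (Ideal.span {a} ⊔ Ideal.span {c}) 0 :=
      fun a c => ⟨∅, by simp, by simp, by
        rw [Finset.coe_empty, Ideal.span_empty, sup_bot_eq, ← Ideal.span_union, Set.singleton_union]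
        exact Ideal.le_radical⟩
    rcases i with _ | q | q | q
    · exact absurd rfl hne
    · refine ⟨2, by norm_num [branchDim], ?_⟩
      have h2 := cuts_quadUnr_sup_quadSt (n := nCoord S g q) (p := pCoord S g q)
        fun j => coordX_mem_maximalIdeal _
      cases b <;> cases b'
      · exact absurd rfl hne
      · rw [sup_comm]; exact h2
      · exact h2
      · exact absurd rfl hne
    · refine ⟨0, by norm_num [branchDim], ?_⟩
      cases b <;> cases b'
      · exact absurd rfl hne
      · exact h0 (zVarF S g q) (lVarF S g q)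
      · rw [sup_comm]; exact h0 (zVarF S g q) (lVarF S g q)
      · exact absurd rfl hne
    · refine ⟨0, by norm_num [branchDim], ?_⟩
      cases b <;> cases b'
      · exact absurd rfl hne
      · exact h0 (zVarP S g q) (eVarP S g q)
      · rw [sup_comm]; exact h0 (zVarP S g q) (eVarP S g q)
      · exact absurd rfl hne
  rest := by
    classical
    refine ⟨Finset.univ.image fun i => coordX (S := S) (g := g) (Sum.inr (Sum.inr i)),
      Finset.card_image_le.trans (by simp), ?_, ?_⟩
    · rw [Finset.coe_image]
      rintro _ ⟨i, -, rfl⟩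
      exact coordX_mem_maximalIdeal _
    refine le_trans ?_ Ideal.le_radical
    rw [Galois.Deform.PowSer.maximalIdeal_eq]
    have hV : ∀ i, branchVars S g ϖ i ≤ Finset.univ.sup (branchVars S g ϖ) ⊔
        Ideal.span ↑(Finset.univ.image fun i => coordX (S := S) (g := g) (Sum.inr (Sum.inr i))) :=
      fun i => le_sup_of_le_left (Finset.le_sup (Finset.mem_univ i))
    refine sup_le ?_ (Ideal.span_le.mpr ?_)
    · rw [hϖ, Ideal.map_span, Set.image_singleton]
      exact hV none
    · rintro _ ⟨j, rfl⟩
      obtain ⟨c, rfl⟩ := (Fintype.equivFin (CoordVar S g)).surjective j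
      rcases c with (⟨q, i⟩ | ⟨q, i⟩) | (⟨q, i⟩ | i)
      · refine hV (some (Sum.inl q)) ?_
        induction i using Fin.addCases (m := 3) (n := 3) with
        | left i => exact Ideal.mem_sup_left (Ideal.subset_span ⟨i, rfl⟩)
        | right i => exact Ideal.mem_sup_right (Ideal.subset_span ⟨i, rfl⟩)
      · refine hV (some (Sum.inr (Sum.inl q))) (Ideal.subset_span ?_)
        fin_cases i
        exacts [Or.inl rfl, Or.inr rfl]
      · refine hV (some (Sum.inr (Sum.inr q))) (Ideal.subset_span ?_)
        fin_cases i
        exacts [Or.inl rfl, Or.inr rfl]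
      · exact Ideal.mem_sup_right (Ideal.subset_span (Finset.mem_coe.mpr
          (Finset.mem_image.mpr ⟨i, Finset.mem_univ _, rfl⟩)))

variable {ϖ : O} (hϖ : maximalIdeal O = Ideal.span {ϖ})

theorem oddBranches_dim :
    (oddBranches S g ϖ hϖ).dim = 3 * S.T.card + S.F.card + S.pIdx + g := by
  simp only [BranchSystem.dim, oddBranches, Fintype.sum_option, Fintype.sum_sum_type, branchDim]
  simp [mul_comm, add_assoc]

/-- The special fibre of the diamond and frame ring. -/
def diamondFrameFibreEquiv (hϖ : maximalIdeal O = Ideal.span {ϖ}) (r : ℕ) (T : Finset ℕ) :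
    DiamondFrameRing O r T ⧸ Ideal.span {(MvPowerSeries.C ϖ : DiamondFrameRing O r T)} ≃+*
      MvPowerSeries (Fin (Fintype.card (Fin r ⊕ FrameVar T))) (ResidueField O) :=
  (Ideal.quotEquivOfEq (ker_map_eq_span (residue O) ϖ (by rw [ker_residue, hϖ])).symm).trans
    (RingHom.quotientKerEquivOfSurjective (map_surjective_of_surjective residue_surjective))

include hϖ in
theorem isDomain_diamondFrameFibre (r : ℕ) (T : Finset ℕ) :
    IsDomain (DiamondFrameRing O r T ⧸
      Ideal.span {(MvPowerSeries.C ϖ : DiamondFrameRing O r T)}) :=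
  (diamondFrameFibreEquiv hϖ r T).toMulEquiv.isDomain _

include hϖ in
theorem ringKrullDim_diamondFrameFibre (r : ℕ) (T : Finset ℕ) :
    ringKrullDim (DiamondFrameRing O r T ⧸
      Ideal.span {(MvPowerSeries.C ϖ : DiamondFrameRing O r T)}) = (r + 4 * T.card : ℕ) := by
  rw [ringKrullDim_eq_of_ringEquiv (diamondFrameFibreEquiv hϖ r T),
    ringKrullDim_mvPowerSeries_add, ringKrullDim_eq_zero_of_field, zero_add]
  congr 1
  simp [Fintype.card_sum, Fintype.card_prod, mul_comm]

include hϖ in
/-- The dimension of a full pattern is that of the special fibre of the base. -/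
theorem ringKrullDim_diamondFrameFibre_eq_dim {r : ℕ}
    (hcount : g + S.F.card + S.pIdx = r + S.T.card) :
    ringKrullDim (DiamondFrameRing O r S.T ⧸
      Ideal.span {(MvPowerSeries.C ϖ : DiamondFrameRing O r S.T)}) =
      (oddBranches S g ϖ hϖ).dim := by
  rw [ringKrullDim_diamondFrameFibre hϖ, oddBranches_dim]
  congr 1
  omega

end FermatLib.MLT.Odd

end
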