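import Fermat.Agent.Galois.Deform.PowerSeries
import Fermat.Agent.MLT.LocQUniversal
import Fermat.Agent.MLT.PatchDiamond
import Fermat.Prelude.Thm_IsLocalRing_isAdicComplete_of_module_finite

/-!
# Power series facts for building the patching systems

Completeness of power series in finitely many named variables, extensionality and surjectivity of
evaluation maps, and the normal form of a series modulo `(1 + X_i) ^ N = 1`.
-/

set_option autoImplicit false

noncomputable section

namespace FermatLib.MLT.Odd.PatchBuild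

open Filter IsLocalRing

section Instances

variable {𝒪 : Type} [CommRing 𝒪] [IsLocalRing 𝒪] {σ : Type}

theorem map_maximalIdeal_ringEquiv {A A' : Type} [CommRing A] [IsLocalRing A] [CommRing A']
    [IsLocalRing A'] (e : A ≃+* A') : (maximalIdeal A).map e = maximalIdeal A' :=
  have := Ideal.map_isMaximal_of_equiv e (p := maximalIdeal A)
  eq_maximalIdeal this

/-- Power series in finitely many named variables are complete. -/
instance instIsAdicCompleteMvPowerSeries [Finite σ] [IsNoetherianRing 𝒪]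
    [IsAdicComplete (maximalIdeal 𝒪) 𝒪] :
    IsAdicComplete (maximalIdeal (MvPowerSeries σ 𝒪)) (MvPowerSeries σ 𝒪) := by
  let e := (MvPowerSeries.renameEquiv 𝒪 (Finite.equivFin σ)).symm.toRingEquiv
  rw [← map_maximalIdeal_ringEquiv e]
  exact (IsAdicComplete.congr_ringEquiv _ e).mpr inferInstance

/-- Power series in finitely many named variables have a finite residue field. -/
instance instFiniteResidueMvPowerSeries [Finite σ] [Finite (ResidueField 𝒪)] :
    Finite (ResidueField (MvPowerSeries σ 𝒪)) :=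
  Finite.of_equiv _ (ResidueField.mapEquiv
    (MvPowerSeries.renameEquiv 𝒪 (Finite.equivFin σ)).symm.toRingEquiv).toEquiv

end Instances

section Hom

variable {𝒪 : Type} [CommRing 𝒪] {σ : Type} [Finite σ]

/-- A series is its constant term plus a combination of the variables. -/
theorem exists_eq_C_add_sum [Fintype σ] (f : MvPowerSeries σ 𝒪) :
    ∃ g : σ → MvPowerSeries σ 𝒪,
      f = MvPowerSeries.C (MvPowerSeries.constantCoeff f) + ∑ j, MvPowerSeries.X j * g j := by
  obtain ⟨g, hg⟩ := Submodule.mem_span_range_iff_exists_fun _ |>.mp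
    (LocQ.mem_span_X_of_constantCoeff (f := f - MvPowerSeries.C (MvPowerSeries.constantCoeff f))
      (by simp))
  refine ⟨g, ?_⟩
  simp only [smul_eq_mul, mul_comm (g _)] at hg
  rw [hg, add_sub_cancel]

/-- Two maps of power series agreeing on constants and variables, with the variables going into
the maximal ideal, agree. -/
theorem ringHom_powerSeries_ext {R : Type} [CommRing R] [IsLocalRing R]
    [IsHausdorff (maximalIdeal R) R] {f g : MvPowerSeries σ 𝒪 →+* R}
    (hC : ∀ c, f (MvPowerSeries.C c) = g (MvPowerSeries.C c))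
    (hX : ∀ i, f (MvPowerSeries.X i) = g (MvPowerSeries.X i))
    (hm : ∀ i, f (MvPowerSeries.X i) ∈ maximalIdeal R) : f = g := by
  have := Fintype.ofFinite σ
  have key : ∀ (k : ℕ) h, f h - g h ∈ maximalIdeal R ^ k := by
    intro k
    induction k with
    | zero => intro h; simp
    | succ k ih =>
      intro h
      obtain ⟨u, hu⟩ := exists_eq_C_add_sum h
      rw [hu]
      simp only [map_add, map_sum, map_mul, ← hC, ← hX, add_sub_add_left_eq_sub,
        ← Finset.sum_sub_distrib, ← mul_sub]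
      refine Submodule.sum_mem _ fun j _ => ?_
      rw [pow_succ']
      exact Ideal.mul_mem_mul (hm j) (ih (u j))
  refine RingHom.ext fun h => (IsHausdorff.eq_iff_smodEq (I := maximalIdeal R)).mpr fun k => ?_
  rw [SModEq.sub_mem, smul_eq_mul, Ideal.mul_top]
  exact key k h

variable [IsLocalRing 𝒪] {R : Type} [CommRing R] [IsLocalRing R]

theorem map_maximalIdeal_le_of_X_mem (f : MvPowerSeries σ 𝒪 →+* R)
    (hC : ∀ c ∈ maximalIdeal 𝒪, f (MvPowerSeries.C c) ∈ maximalIdeal R)
    (hX : ∀ i, f (MvPowerSeries.X i) ∈ maximalIdeal R) :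
    (maximalIdeal (MvPowerSeries σ 𝒪)).map f ≤ maximalIdeal R := by
  rw [Galois.Deform.PowSer.maximalIdeal_eq, Ideal.map_sup, Ideal.map_map, Ideal.map_span]
  refine sup_le (Ideal.map_le_iff_le_comap.mpr hC) (Ideal.span_le.mpr ?_)
  rintro _ ⟨_, ⟨i, rfl⟩, rfl⟩
  exact hX i

theorem isLocalHom_of_X_mem (f : MvPowerSeries σ 𝒪 →+* R)
    (hC : ∀ c ∈ maximalIdeal 𝒪, f (MvPowerSeries.C c) ∈ maximalIdeal R)
    (hX : ∀ i, f (MvPowerSeries.X i) ∈ maximalIdeal R) : IsLocalHom f :=
  ((local_hom_TFAE f).out 0 2).mpr (map_maximalIdeal_le_of_X_mem f hC hX)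

variable [Algebra 𝒪 R] [IsLocalHom (algebraMap 𝒪 R)] [IsAdicComplete (maximalIdeal R) R]
  [IsNoetherianRing 𝒪] [IsAdicComplete (maximalIdeal 𝒪) 𝒪]

/-- Evaluation at generators of the maximal ideal is surjective. -/
theorem evalHom_surjective_of_span (a : σ → R) (ha : ∀ i, a i ∈ maximalIdeal R)
    (hm : maximalIdeal R ≤ (maximalIdeal 𝒪).map (algebraMap 𝒪 R) ⊔ Ideal.span (Set.range a))
    (hres : ∀ y : R, ∃ c : 𝒪, y - algebraMap 𝒪 R c ∈ maximalIdeal R) :
    Function.Surjective (LocQ.evalHom (𝒪 := 𝒪) a ha) := by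
  have hmap : (maximalIdeal (MvPowerSeries σ 𝒪)).map (LocQ.evalHom (𝒪 := 𝒪) a ha) =
      maximalIdeal R := by
    refine le_antisymm (map_maximalIdeal_le_of_X_mem _ (fun c hc => ?_) (fun i => ?_))
      (hm.trans ?_)
    · rw [LocQ.evalHom_C]
      exact map_nonunit _ _ hc
    · rw [LocQ.evalHom_X]
      exact ha i
    · rw [Galois.Deform.PowSer.maximalIdeal_eq, Ideal.map_sup, Ideal.map_map, Ideal.map_span,
        ← Set.range_comp, show (LocQ.evalHom (𝒪 := 𝒪) a ha).comp MvPowerSeries.C =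
          algebraMap 𝒪 R from RingHom.ext fun c => LocQ.evalHom_C ha c]
      simp [Function.comp_def]
  have : IsHausdorff ((maximalIdeal (MvPowerSeries σ 𝒪)).map (LocQ.evalHom (𝒪 := 𝒪) a ha)) R := by
    rw [hmap]; infer_instance
  refine surjective_of_mk_map_comp_surjective (I := maximalIdeal (MvPowerSeries σ 𝒪)) _ fun y => ?_
  obtain ⟨y, rfl⟩ := Ideal.Quotient.mk_surjective y
  obtain ⟨c, hc⟩ := hres y
  refine ⟨MvPowerSeries.C c, ?_⟩
  rw [RingHom.comp_apply, LocQ.evalHom_C, Ideal.Quotient.eq, hmap, ← neg_sub]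
  exact neg_mem hc

end Hom

section NormalForm

variable {𝒪 : Type} [CommRing 𝒪] [IsLocalRing 𝒪] [IsNoetherianRing 𝒪]
  [IsAdicComplete (maximalIdeal 𝒪) 𝒪] [Finite (ResidueField 𝒪)]
  {σ ν : Type} [Finite σ] [Finite ν] {r N : ℕ}

/-- The inclusion of the series in the variables `ν` along `e`. -/
def varIncl (e : Fin r ⊕ ν ≃ σ) : MvPowerSeries ν 𝒪 →+* MvPowerSeries σ 𝒪 :=
  LocQ.evalHom (fun y => MvPowerSeries.X (e (Sum.inr y))) fun y => by
    simp [mem_maximalIdeal, MvPowerSeries.isUnit_iff_constantCoeff]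

omit [Finite (ResidueField 𝒪)] in
@[simp]
theorem varIncl_X (e : Fin r ⊕ ν ≃ σ) (y : ν) :
    varIncl (𝒪 := 𝒪) e (MvPowerSeries.X y) = MvPowerSeries.X (e (Sum.inr y)) :=
  LocQ.evalHom_X _ y

omit [Finite (ResidueField 𝒪)] in
@[simp]
theorem varIncl_C (e : Fin r ⊕ ν ≃ σ) (c : 𝒪) :
    varIncl e (MvPowerSeries.C c : MvPowerSeries ν 𝒪) = MvPowerSeries.C c := by
  rw [varIncl, LocQ.evalHom_C, MvPowerSeries.algebraMap_apply, Algebra.algebraMap_self,
    RingHom.id_apply]

/-- The relations `(1 + X_i) ^ N = 1`. -/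
def groupRel (𝒪 : Type) [CommRing 𝒪] (e : Fin r ⊕ ν ≃ σ) (N : ℕ) : Ideal (MvPowerSeries σ 𝒪) :=
  Ideal.span (Set.range fun i : Fin r => (1 + MvPowerSeries.X (e (Sum.inl i))) ^ N - 1)

/-- The normal form with coefficients `γ`. -/
def groupForm (e : Fin r ⊕ ν ≃ σ) (γ : (Fin r → Fin N) → MvPowerSeries ν 𝒪) :
    MvPowerSeries σ 𝒪 :=
  ∑ a, varIncl e (γ a) * ∏ i, (1 + MvPowerSeries.X (e (Sum.inl i))) ^ (a i : ℕ)

/-- Every series has a normal form modulo the relations. -/
theorem exists_sub_groupForm_mem [NeZero N] (e : Fin r ⊕ ν ≃ σ) (h : MvPowerSeries σ 𝒪) :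
    ∃ γ : (Fin r → Fin N) → MvPowerSeries ν 𝒪, h - groupForm e γ ∈ groupRel 𝒪 e N := by
  classical
  have := Fintype.ofFinite σ
  set J := groupRel 𝒪 e N with hJ
  let q := Ideal.Quotient.mk J
  let u : Fin r → MvPowerSeries σ 𝒪 ⧸ J := fun i => q (1 + MvPowerSeries.X (e (Sum.inl i)))
  have hu : ∀ i, u i ^ N = 1 := fun i => by
    rw [← map_pow, ← map_one q]
    exact Ideal.Quotient.eq.mpr (Ideal.subset_span ⟨i, rfl⟩)
  let E : (Fin r → Fin N) → MvPowerSeries σ 𝒪 ⧸ J := fun a => ∏ i, u i ^ (a i : ℕ)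
  have hE : ∀ a b, E (a + b) = E a * E b := fun a b => by
    simp only [E, ← Finset.prod_mul_distrib, ← pow_add, Pi.add_apply, Fin.val_add]
    exact Finset.prod_congr rfl fun i _ => (pow_eq_pow_mod _ (hu i)).symm
  let F : ((Fin r → Fin N) → MvPowerSeries ν 𝒪) → MvPowerSeries σ 𝒪 ⧸ J := fun γ =>
    ∑ a, q (varIncl e (γ a)) * E a
  have hF : ∀ γ, q (groupForm e γ) = F γ := fun γ => by
    simp [groupForm, F, E, u, q, map_sum, map_prod]
  have hFadd : ∀ γ γ', F (γ + γ') = F γ + F γ' := fun γ γ' => by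
    simp [F, add_mul, Finset.sum_add_distrib]
  have hshift : ∀ γ b, ∃ γ', E b * F γ = F γ' := fun γ b => by
    refine ⟨fun a => γ (a - b), ?_⟩
    simp only [F, Finset.mul_sum]
    refine Fintype.sum_equiv (Equiv.addRight b) _ _ fun a => ?_
    rw [Equiv.coe_addRight, add_sub_cancel_right, hE]
    ring
  have hinr : ∀ γ y, ∃ γ', q (MvPowerSeries.X (e (Sum.inr y))) * F γ = F γ' := fun γ y => by
    refine ⟨fun a => MvPowerSeries.X y * γ a, ?_⟩
    simp only [F, Finset.mul_sum, map_mul, varIncl_X]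
    exact Finset.sum_congr rfl fun a _ => by ring
  have hinl : ∀ γ i, ∃ γ', q (MvPowerSeries.X (e (Sum.inl i))) * F γ = F γ' := fun γ i => by
    have h1 : E (Pi.single i 1) = u i := by
      simp only [E]
      rw [Finset.prod_eq_single i (fun j _ hj => by simp [hj]) (by simp)]
      rw [Pi.single_eq_same, Fin.val_one', ← pow_eq_pow_mod _ (hu i), pow_one]
    obtain ⟨γ', hγ'⟩ := hshift γ (Pi.single i 1)
    refine ⟨γ' + fun a => -γ a, ?_⟩
    rw [hFadd, ← hγ', h1]
    have hneg : F (fun a => -γ a) = -F γ := by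
      simp only [F, map_neg]
      rw [← Finset.sum_neg_distrib]
      exact Finset.sum_congr rfl fun a _ => by ring
    rw [hneg]
    simp only [u, map_add, map_one]
    ring
  have hX : ∀ γ j, ∃ γ', q (MvPowerSeries.X j) * F γ = F γ' := fun γ j => by
    obtain ⟨(i | y), rfl⟩ := e.surjective j
    · exact hinl γ i
    · exact hinr γ y
  have hC : ∀ c, ∃ γ, F γ = q (MvPowerSeries.C c) := fun c => by
    refine ⟨fun a => if a = 0 then MvPowerSeries.C c else 0, ?_⟩
    simp only [F]
    rw [Finset.sum_eq_single 0 (fun b _ hb => by simp [hb]) (by simp)]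
    simp [E]
  have hsum : ∀ (t : Finset σ) (γ' : σ → (Fin r → Fin N) → MvPowerSeries ν 𝒪),
      F (∑ j ∈ t, γ' j) = ∑ j ∈ t, F (γ' j) := fun t γ' => by
    induction t using Finset.induction_on with
    | empty => simp [F]
    | insert j t hj ih => rw [Finset.sum_insert hj, hFadd, ih, Finset.sum_insert hj]
  have hmem : ∀ (x : MvPowerSeries σ 𝒪) (I : Ideal (MvPowerSeries σ 𝒪)),
      x ∈ J ⊔ I ↔ q x ∈ I.map q := fun x I => by
    rw [Ideal.mem_quotient_iff_mem_sup, sup_comm]
  have key : ∀ (k : ℕ) h, ∃ γ : (Fin r → Fin N) → MvPowerSeries ν 𝒪,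
      h - groupForm e γ ∈ J ⊔ maximalIdeal (MvPowerSeries σ 𝒪) ^ k := by
    intro k
    induction k with
    | zero => intro h; exact ⟨0, by simp⟩
    | succ k ih =>
      intro h
      obtain ⟨g, hg⟩ := exists_eq_C_add_sum h
      choose γ hγ using fun j => ih (g j)
      choose γ' hγ' using fun j => hX (γ j) j
      obtain ⟨γ₀, hγ₀⟩ := hC (MvPowerSeries.constantCoeff h)
      refine ⟨γ₀ + ∑ j, γ' j, ?_⟩
      rw [hmem, map_sub, hF, hFadd, hsum, hγ₀]
      simp only [← hγ']
      rw [congrArg q hg, map_add, add_sub_add_left_eq_sub, map_sum, ← Finset.sum_sub_distrib]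
      refine Submodule.sum_mem _ fun j _ => ?_
      rw [map_mul, ← mul_sub, ← hF, ← map_sub, pow_succ', Ideal.map_mul]
      refine Ideal.mul_mem_mul (Ideal.mem_map_of_mem _ ?_) ((hmem _ _).mp (hγ j))
      simp [mem_maximalIdeal, MvPowerSeries.isUnit_iff_constantCoeff]
  choose γ hγ using fun k => key k h
  refine ⟨fun a => ulim fun k => γ k a, ?_⟩
  have hloc : IsLocalHom (varIncl (𝒪 := 𝒪) e) := isLocalHom_of_X_mem _
    (fun c hc => by simpa [MvPowerSeries.isUnit_iff_constantCoeff] using hc)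
    (fun y => by simp [MvPowerSeries.isUnit_iff_constantCoeff])
  have hlim : IsULim (fun k => groupForm e (γ k)) (groupForm e fun a => ulim fun k => γ k a) :=
    IsULim.sum _ fun a _ => ((isULim_ulim fun k => γ k a).map _).mul (IsULim.const _)
  have hdiff : IsULim (fun k => h + (-1) * groupForm e (γ k))
      (h + (-1) * groupForm e fun a => ulim fun k => γ k a) :=
    (IsULim.const h).add ((IsULim.const (-1)).mul hlim)
  have := hdiff.mem_of_eventually (I := J) fun k₀ =>
    eventually_patchUltrafilter ((Filter.eventually_ge_atTop k₀).mono fun k hk => by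
      rw [neg_one_mul, ← sub_eq_add_neg]
      exact sup_le_sup_left (Ideal.pow_le_pow_right hk) J (hγ k))
  rwa [neg_one_mul, ← sub_eq_add_neg] at this

end NormalForm

end FermatLib.MLT.Odd.PatchBuild

end
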