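import Fermat.Agent.MLT.Odd.PatchBuildAlg
import Mathlib.LinearAlgebra.TensorProduct.RightExactness
import Mathlib.LinearAlgebra.TensorProduct.Tower

/-!
# The modules `M[[X]]` of the levels, as modules over the coordinate ring

`FrameMod f M` is `R[[X]] ⊗ M` with the action of `B` through `f : B → R[[X]]`.
-/

set_option autoImplicit false

noncomputable section

namespace FermatLib.MLT.Odd.PatchBuild

open TensorProduct

/-- `X` as a module over `B` through `f`. -/
def Restr {B R' : Type} [CommRing B] [CommRing R'] (_f : B →+* R') (X : Type) : Type := X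

section Restr

variable {B R' : Type} [CommRing B] [CommRing R'] {f : B →+* R'} {X Y : Type} [AddCommGroup X]
  [Module R' X] [AddCommGroup Y] [Module R' Y]

instance : AddCommGroup (Restr f X) := inferInstanceAs (AddCommGroup X)

instance : Module B (Restr f X) := Module.compHom X f

/-- The identification with the module. -/
def Restr.equiv : Restr f X ≃+ X := AddEquiv.refl X

@[simp]
theorem Restr.equiv_smul (b : B) (x : Restr f X) :
    Restr.equiv (b • x) = f b • Restr.equiv x := rfl

theorem Restr.smul_symm (b : B) (x : X) :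
    b • (Restr.equiv (f := f)).symm x = (Restr.equiv (f := f)).symm (f b • x) := rfl

/-- A linear map, seen over `B`. -/
def Restr.map (g : X →ₗ[R'] Y) : Restr f X →ₗ[B] Restr f Y where
  toFun x := Restr.equiv.symm (g (Restr.equiv x))
  map_add' x y := by simp
  map_smul' b x := by simp [Restr.smul_symm]

@[simp]
theorem Restr.map_apply (g : X →ₗ[R'] Y) (x : Restr f X) :
    Restr.map g x = Restr.equiv.symm (g (Restr.equiv x)) := rfl

end Restr

variable {B R σ : Type} [CommRing B] [CommRing R]
  {f : B →+* MvPowerSeries σ R} {M M' : Type} [AddCommGroup M] [Module R M] [AddCommGroup M']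
  [Module R M']

/-- The level module `M[[X]]`. -/
abbrev FrameMod (f : B →+* MvPowerSeries σ R) (M : Type) [AddCommGroup M] [Module R M] : Type :=
  Restr f (MvPowerSeries σ R ⊗[R] M)

variable (f M) in
/-- The inclusion of `M`. -/
def frameIncl : M →+ FrameMod f M where
  toFun m := Restr.equiv.symm (1 ⊗ₜ[R] m)
  map_zero' := by simp
  map_add' m m' := by simp [tmul_add]

theorem frameIncl_apply (m : M) : frameIncl f M m = Restr.equiv.symm (1 ⊗ₜ[R] m) := rfl

theorem smul_frameIncl (b : B) (m : M) :
    b • frameIncl f M m = Restr.equiv.symm (f b ⊗ₜ[R] m) := by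
  rw [frameIncl_apply, Restr.smul_symm, smul_tmul', smul_eq_mul, mul_one]

theorem C_tmul (a : R) (m : M) :
    (MvPowerSeries.C a : MvPowerSeries σ R) ⊗ₜ[R] m = 1 ⊗ₜ[R] (a • m) := by
  have h : (MvPowerSeries.C a : MvPowerSeries σ R) = a • 1 := by
    rw [Algebra.smul_def, mul_one, MvPowerSeries.algebraMap_apply, Algebra.algebraMap_self,
      RingHom.id_apply]
  rw [h, smul_tmul]

theorem smul_frameIncl_of_eq_C {b : B} {a : R} (h : f b = MvPowerSeries.C a) (m : M) :
    b • frameIncl f M m = frameIncl f M (a • m) := by
  rw [smul_frameIncl, h, C_tmul, frameIncl_apply]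

/-- Induction on the elements of the level module. -/
theorem frameMod_induction {P : FrameMod f M → Prop} (h0 : P 0)
    (ht : ∀ g m, P (Restr.equiv.symm (g ⊗ₜ[R] m))) (ha : ∀ x y, P x → P y → P (x + y))
    (x : FrameMod f M) : P x := by
  obtain ⟨y, rfl⟩ := (Restr.equiv (f := f)).symm.surjective x
  induction y using TensorProduct.induction_on with
  | zero => simpa using h0
  | tmul g m => exact ht g m
  | add u v hu hv => rw [map_add]; exact ha _ _ hu hv

theorem frameIncl_span (hf : Function.Surjective f) :
    Submodule.span B (Set.range (frameIncl f M)) = ⊤ := by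
  refine top_unique fun x _ => frameMod_induction (P := fun x : FrameMod f M => x ∈ Submodule.span B _)
    (zero_mem _) (fun g m => ?_) (fun _ _ => add_mem) x
  obtain ⟨b, rfl⟩ := hf g
  rw [← smul_frameIncl]
  exact Submodule.smul_mem _ _ (Submodule.subset_span ⟨m, rfl⟩)

variable (f M) in
/-- The coefficient at `e`. -/
def frameCoeff (e : σ →₀ ℕ) : FrameMod f M →+ M :=
  ((TensorProduct.lift ((LinearMap.lsmul R M).comp
    (MvPowerSeries.coeff (R := R) e))).toAddMonoidHom).comp Restr.equiv.toAddMonoidHom

@[simp]
theorem frameCoeff_tmul (e : σ →₀ ℕ) (g : MvPowerSeries σ R) (m : M) :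
    frameCoeff f M e (Restr.equiv.symm (g ⊗ₜ[R] m)) = MvPowerSeries.coeff e g • m := by
  simp [frameCoeff]

@[simp]
theorem frameCoeff_zero_incl (m : M) : frameCoeff f M 0 (frameIncl f M m) = m := by
  rw [frameIncl_apply, frameCoeff_tmul, MvPowerSeries.coeff_zero_eq_constantCoeff_apply, map_one,
    one_smul]

theorem frameCoeff_zero_smul (b : B) (x : FrameMod f M) :
    frameCoeff f M 0 (b • x) = MvPowerSeries.constantCoeff (f b) • frameCoeff f M 0 x := by
  refine frameMod_induction (P := fun x => frameCoeff f M 0 (b • x) = _ • frameCoeff f M 0 x)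
    (by simp) (fun g m => ?_) (fun x y hx hy => by rw [smul_add, map_add, hx, hy, map_add, smul_add])
    x
  rw [Restr.smul_symm, smul_tmul', frameCoeff_tmul, frameCoeff_tmul, smul_eq_mul,
    MvPowerSeries.coeff_zero_eq_constantCoeff_apply,
    MvPowerSeries.coeff_zero_eq_constantCoeff_apply, map_mul, mul_smul]

/-- An element whose coefficients all kill `M` kills the level module. -/
theorem smul_frameMod_eq_zero {b : B}
    (hb : f b ∈ (Module.annihilator R M).map MvPowerSeries.C) (x : FrameMod f M) : b • x = 0 := by
  refine frameMod_induction (P := fun x : FrameMod f M => b • x = 0) (smul_zero _) (fun g m => ?_)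
    (fun x y hx hy => by rw [smul_add, hx, hy, add_zero]) x
  have key : ∀ u ∈ (Module.annihilator R M).map (MvPowerSeries.C : R →+* MvPowerSeries σ R),
      ∀ g : MvPowerSeries σ R, (u * g) ⊗ₜ[R] m = 0 := fun u hu => by
    induction hu using Submodule.span_induction with
    | mem u hu =>
      obtain ⟨a, ha, rfl⟩ := hu
      intro g
      rw [show MvPowerSeries.C a * g = a • g by
          rw [Algebra.smul_def, MvPowerSeries.algebraMap_apply, Algebra.algebraMap_self,
            RingHom.id_apply],
        smul_tmul, Module.mem_annihilator.mp ha, tmul_zero]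
    | zero => simp
    | add u v _ _ hu hv => intro g; rw [add_mul, add_tmul, hu, hv, add_zero]
    | smul c u _ hu => intro g; rw [smul_eq_mul, mul_comm c, mul_assoc]; exact hu _
  rw [Restr.smul_symm, smul_tmul', smul_eq_mul, key _ hb, map_zero]

variable (hf : Function.Surjective f) {K : Ideal B}

include hf in
/-- Constants moved into `K`. -/
theorem frameIncl_mem_smul {I : Ideal R} (hI : I ≤ (K.map f).comap MvPowerSeries.C) {m : M}
    (hm : m ∈ I • (⊤ : Submodule R M)) :
    frameIncl f M m ∈ K • (⊤ : Submodule B (FrameMod f M)) := by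
  refine Submodule.smul_induction_on (p := fun m => frameIncl f M m ∈ K • (⊤ : Submodule B _)) hm
    (fun a ha w _ => ?_) fun x y hx hy => by rw [map_add]; exact add_mem hx hy
  obtain ⟨k, hk, hka⟩ := (Ideal.mem_map_iff_of_surjective f hf).mp (hI ha)
  rw [← smul_frameIncl_of_eq_C hka]
  exact Submodule.smul_mem_smul hk trivial

include hf in
/-- An element differs from its constant coefficient by the variables. -/
theorem sub_frameIncl_mem [Finite σ] (hX : ∀ i, MvPowerSeries.X i ∈ K.map f) (x : FrameMod f M) :
    x - frameIncl f M (frameCoeff f M 0 x) ∈ K • (⊤ : Submodule B (FrameMod f M)) := by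
  refine frameMod_induction (P := fun x => x - frameIncl f M (frameCoeff f M 0 x) ∈ K • ⊤)
    (by simp) (fun g m => ?_)
    (fun x y hx hy => by rw [map_add, map_add, add_sub_add_comm]; exact add_mem hx hy) x
  rw [frameCoeff_tmul, MvPowerSeries.coeff_zero_eq_constantCoeff_apply, frameIncl_apply, ← C_tmul,
    ← map_sub, ← sub_tmul]
  obtain ⟨k, hk, hkg⟩ := (Ideal.mem_map_iff_of_surjective f hf).mp
    ((Ideal.span_le.mpr (Set.range_subset_iff.mpr hX))
      (LocQ.mem_span_X_of_constantCoeff
        (f := g - MvPowerSeries.C (MvPowerSeries.constantCoeff g)) (by simp)))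
  rw [← hkg, ← smul_frameIncl]
  exact Submodule.smul_mem_smul hk trivial

/-- The constant coefficient of an element of `K • N`. -/
theorem frameCoeff_zero_mem {I : Ideal R} (hK : ∀ k ∈ K, MvPowerSeries.constantCoeff (f k) ∈ I)
    {x : FrameMod f M} (hx : x ∈ K • (⊤ : Submodule B (FrameMod f M))) :
    frameCoeff f M 0 x ∈ I • (⊤ : Submodule R M) := by
  refine Submodule.smul_induction_on (p := fun x => frameCoeff f M 0 x ∈ I • (⊤ : Submodule R M))
    hx (fun k hk y _ => ?_) fun x y hx hy => by rw [map_add]; exact add_mem hx hy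
  rw [frameCoeff_zero_smul]
  exact Submodule.smul_mem_smul (hK k hk) trivial

/-- The map of level modules induced by a linear map. -/
def frameMap (g : M →ₗ[R] M') : FrameMod f M →ₗ[B] FrameMod f M' :=
  Restr.map (g.baseChange (MvPowerSeries σ R))

theorem frameMap_tmul (g : M →ₗ[R] M') (u : MvPowerSeries σ R) (m : M) :
    frameMap (f := f) g (Restr.equiv.symm (u ⊗ₜ[R] m)) = Restr.equiv.symm (u ⊗ₜ[R] g m) := by
  simp [frameMap]

theorem frameMap_incl (g : M →ₗ[R] M') (m : M) :
    frameMap (f := f) g (frameIncl f M m) = frameIncl f M' (g m) :=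
  frameMap_tmul g 1 m

theorem frameMap_surjective {g : M →ₗ[R] M'} (hg : Function.Surjective g) :
    Function.Surjective (frameMap (f := f) g) := fun y =>
  frameMod_induction (P := fun y => ∃ x, frameMap g x = y) ⟨0, map_zero _⟩
    (fun u m => by
      obtain ⟨w, rfl⟩ := hg m
      exact ⟨_, frameMap_tmul g u w⟩)
    (fun _ _ ⟨x, hx⟩ ⟨y, hy⟩ => ⟨x + y, by rw [map_add, hx, hy]⟩) y

/-- An identification modulo `a` gives a surjection of level modules modulo `c`. -/
theorem exists_surjective_mod {a : R} {c : B} (hc : f c = MvPowerSeries.C a)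
    (θ : (M ⧸ (Ideal.span {a} • ⊤ : Submodule R M)) ≃ₗ[R]
      (M' ⧸ (Ideal.span {a} • ⊤ : Submodule R M'))) :
    ∃ h : FrameMod f M →ₗ[B] FrameMod f M' ⧸ (Ideal.span {c} • ⊤ : Submodule B (FrameMod f M')),
      Function.Surjective h := by
  set q := (Ideal.span {a} • ⊤ : Submodule R M').mkQ
  have hker : LinearMap.ker (frameMap (f := f) q) = Ideal.span {c} • ⊤ := by
    refine le_antisymm (fun x hx => ?_) (Submodule.smul_le.mpr fun b hb x _ => ?_)
    · have hex := lTensor_exact (MvPowerSeries σ R) (LinearMap.exact_subtype_mkQ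
        (Ideal.span {a} • ⊤ : Submodule R M')) (Submodule.mkQ_surjective _)
      obtain ⟨y, hy⟩ := (hex (Restr.equiv x)).mp (by
        have := congrArg Restr.equiv (LinearMap.mem_ker.mp hx)
        simp only [frameMap, Restr.map_apply, AddEquiv.apply_symm_apply, map_zero] at this
        rwa [← LinearMap.baseChange_eq_ltensor])
      rw [← (Restr.equiv (f := f)).symm_apply_apply x, ← hy]
      clear hy
      induction y using TensorProduct.induction_on with
      | zero => simp
      | add u v hu hv => rw [map_add, map_add]; exact add_mem hu hv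
      | tmul u w =>
        obtain ⟨w, hw⟩ := w
        rw [LinearMap.lTensor_tmul, Submodule.subtype_apply]
        rw [Submodule.ideal_span_singleton_smul, Submodule.mem_smul_pointwise_iff_exists] at hw
        obtain ⟨z, -, hz⟩ := hw
        show Restr.equiv.symm (u ⊗ₜ[R] w) ∈ _
        rw [← hz, tmul_smul, show a • (u ⊗ₜ[R] z) = f c • (u ⊗ₜ[R] z) by
          rw [hc, smul_tmul', smul_tmul', Algebra.smul_def, MvPowerSeries.algebraMap_apply,
            Algebra.algebraMap_self, RingHom.id_apply, smul_eq_mul], ← Restr.smul_symm]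
        exact Submodule.smul_mem_smul (Ideal.mem_span_singleton_self c) trivial
    · rw [LinearMap.mem_ker, map_smul]
      obtain ⟨b, rfl⟩ := Ideal.mem_span_singleton'.mp hb
      rw [mul_smul]
      refine (congrArg (b • ·) ?_).trans (smul_zero b)
      generalize frameMap (f := f) q x = y
      refine frameMod_induction (P := fun y : FrameMod f _ => c • y = 0) (smul_zero _) (fun u w => ?_)
        (fun x y hx hy => by rw [smul_add, hx, hy, add_zero]) y
      have hw : a • w = 0 := by
        obtain ⟨w, rfl⟩ := Submodule.mkQ_surjective _ w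
        exact (map_smul q a w).symm.trans ((Submodule.Quotient.mk_eq_zero _).mpr
          (Submodule.smul_mem_smul (Ideal.mem_span_singleton_self a) trivial))
      rw [Restr.smul_symm, hc, smul_tmul', smul_eq_mul,
        show MvPowerSeries.C a * u = a • u by
          rw [Algebra.smul_def, MvPowerSeries.algebraMap_apply, Algebra.algebraMap_self,
            RingHom.id_apply],
        smul_tmul, hw, tmul_zero, map_zero]
  let ψ := (Submodule.quotEquivOfEq _ _ hker.symm).trans
    ((frameMap (f := f) q).quotKerEquivOfSurjective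
      (frameMap_surjective (Submodule.mkQ_surjective _)))
  exact ⟨ψ.symm.toLinearMap.comp
      (frameMap (θ.toLinearMap.comp (Ideal.span {a} • ⊤ : Submodule R M).mkQ)),
    ψ.symm.surjective.comp
      (frameMap_surjective (θ.surjective.comp (Submodule.mkQ_surjective _)))⟩

end FermatLib.MLT.Odd.PatchBuild

end
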