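import Fermat.Agent.MLT.Odd.PatchData
import Fermat.Agent.MLT.Odd.PatchBuildModule

/-!
# One level of the patching systems

`LevelFrame L g` is the coordinate presentation of the framed ring of a level together with lifts
of the diamond and frame variables; `LevelFrame.patchLevel` is the resulting level for a variant.
-/

set_option autoImplicit false

noncomputable section

namespace FermatLib.MLT.Odd.PatchBuild

open IsLocalRing

variable {O : Type} [CommRing O] [IsDomain O] [IsDiscreteValuationRing O]
  [IsAdicComplete (maximalIdeal O) O] [Finite (ResidueField O)]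
  {p : ℕ} {ρbar : ResidualGaloisRep (ResidueField O)} {S : OddPrimes p ρbar} {Q : Finset ℕ}
  {r N : ℕ} {d : OddVariant → ℕ} {tp : S.TamePairs} {ζ : ℕ → O}
  (L : OddLevel S Q r N d tp ζ)

omit [IsAdicComplete (maximalIdeal O) O] [Finite (ResidueField O)] in
theorem isNoetherianRing_level : IsNoetherianRing L.R := IsNoetherianRing.of_finite O L.R

omit [Finite (ResidueField O)] in
theorem isAdicComplete_level : IsAdicComplete (maximalIdeal L.R) L.R :=
  IsLocalRing.isAdicComplete_of_module_finite (𝒪 := O)

/-- A presentation of the framed ring of a level by the coordinates. -/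
structure LevelFrame (g : ℕ) : Type where
  basis : Module.Basis (Fin 2) L.R L.ρ.V
  eval : CoordRing S g →+* MvPowerSeries (FrameVar S.T) L.R
  eval_C : ∀ c : O, eval (MvPowerSeries.C c) = MvPowerSeries.C (algebraMap O L.R c)
  eval_surjective : Function.Surjective eval
  coord_T : ∀ qj : S.T × Fin 6,
    eval (coordX (Sum.inl (Sum.inl qj))) = framedCoord L.ρ basis tp.atT qj
  coord_z : ∀ q : S.F,
    eval (coordX (Sum.inl (Sum.inr (q, 0)))) = MvPowerSeries.C (zCoord S (tp.atF q) L.ρ)
  coord_l : ∀ q : S.F, ∃ l : L.R, eval (coordX (Sum.inl (Sum.inr (q, 1)))) = MvPowerSeries.C l ∧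
    VanishesWhere (O := O) L.ρ (fun _ _ _ ρx => ρx.IsUnramifiedAt q) l
  coord_pz : ∀ i : Fin S.pIdx, ∃ z : L.R,
    eval (coordX (Sum.inr (Sum.inl (i, 0)))) = MvPowerSeries.C z ∧
      VanishesWhere (O := O) L.ρ (fun _ _ _ ρx => ρx.IsStrictOrdinaryAt p) z
  coord_pe : ∀ i : Fin S.pIdx, ∃ e : L.R,
    eval (coordX (Sum.inr (Sum.inl (i, 1)))) = MvPowerSeries.C e ∧
      VanishesWhere (O := O) L.ρ (fun _ _ _ ρx => ¬ ρx.IsStrictOrdinaryAt p) e
  phi : DiamondFrameRing O r S.T →+* CoordRing S g
  phi_C : ∀ c : O, phi (MvPowerSeries.C c) = MvPowerSeries.C c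
  phi_inl : ∀ i, eval (phi (dfX O (Sum.inl i))) = MvPowerSeries.C (L.δ i - 1)
  phi_inr : ∀ i, eval (phi (dfX O (Sum.inr i))) = MvPowerSeries.X i
  phi_maximalIdeal : (maximalIdeal (DiamondFrameRing O r S.T)).map phi ≤
    maximalIdeal (CoordRing S g)

omit [Finite (ResidueField O)] in
theorem nonempty_levelFrame {g : ℕ} (hgen : HasGenerators S tp g L.ρ) :
    Nonempty (LevelFrame L g) := by
  classical
  have := isNoetherianRing_level L
  have := isAdicComplete_level L
  let b : Module.Basis (Fin 2) L.R L.ρ.V := Module.finBasisOfFinrankEq L.R L.ρ.V L.ρ.finrank_eq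
  obtain ⟨l, e, z, hl, ⟨-, -, hez⟩, v, -, heq⟩ := hgen b
  have hmixed : Fin S.pIdx → S.pCase = PCase.mixed := fun i => by
    by_contra h
    have := i.pos
    simp [OddPrimes.pIdx, h] at this
  let A := MvPowerSeries (FrameVar S.T) L.R
  let val : CoordVar S g → A := Sum.elim
    (Sum.elim (framedCoord L.ρ b tp.atT)
      fun qj => MvPowerSeries.C (![zCoord S (tp.atF qj.1) L.ρ, l qj.1] qj.2))
    (Sum.elim (fun ij => MvPowerSeries.C (![z, e] ij.2)) v)
  let a : Fin (Fintype.card (CoordVar S g)) → A := fun i => val ((Fintype.equivFin _).symm i)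
  have hT : Ideal.span (Set.range (framedCoord L.ρ b tp.atT)) ≤ maximalIdeal A := by
    rw [heq]
    exact le_sup_of_le_left (le_sup_of_le_left (le_sup_of_le_left le_sup_right))
  have hC : ∀ c : L.R, c ∈ maximalIdeal L.R → MvPowerSeries.C c ∈ maximalIdeal A := fun c hc => by
    simpa [A, MvPowerSeries.isUnit_iff_constantCoeff] using hc
  have hval : ∀ i, val i ∈ maximalIdeal A := by
    rintro ((qj | ⟨q, j⟩) | (⟨i, j⟩ | i))
    · exact hT (Ideal.subset_span ⟨qj, rfl⟩)
    · have hz : MvPowerSeries.C (zCoord S (tp.atF q) L.ρ) ∈ maximalIdeal A := by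
        rw [heq]
        exact Ideal.mem_sup_left (Ideal.mem_sup_left (Ideal.mem_sup_right
          (Ideal.subset_span (Or.inl ⟨q, rfl⟩))))
      fin_cases j
      · exact hz
      · exact hC _ (hl q q.2).1
    · have hze : Ideal.span {MvPowerSeries.C e, MvPowerSeries.C z} ≤ maximalIdeal A := by
        rw [heq, if_pos (hmixed i)]
        exact le_sup_of_le_left le_sup_right
      fin_cases j
      · exact hze (Ideal.subset_span (Or.inr rfl))
      · exact hze (Ideal.subset_span (Or.inl rfl))
    · change v i ∈ _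
      rw [heq]
      exact Ideal.mem_sup_right (Ideal.subset_span ⟨i, rfl⟩)
  have ha : ∀ i, a i ∈ maximalIdeal A := fun i => hval _
  have hrange : ∀ i, val i ∈ Set.range a := fun i => ⟨Fintype.equivFin _ i, by simp [a]⟩
  have hloc : IsLocalHom (algebraMap O A) := ⟨fun c hc => by
    have := MvPowerSeries.isUnit_constantCoeff _ hc
    rw [MvPowerSeries.algebraMap_apply, MvPowerSeries.constantCoeff_C] at this
    exact IsUnit.of_map (algebraMap O L.R) c this⟩
  have hres : ∀ y : A, ∃ c : O, y - algebraMap O A c ∈ maximalIdeal A := fun y => by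
    obtain ⟨c, hc⟩ := L.residue_surjective (residue L.R (MvPowerSeries.constantCoeff y))
    refine ⟨c, ?_⟩
    have h : MvPowerSeries.constantCoeff y - algebraMap O L.R c ∈ maximalIdeal L.R :=
      Ideal.Quotient.eq.mp hc.symm
    simpa [A, MvPowerSeries.algebraMap_apply, MvPowerSeries.isUnit_iff_constantCoeff] using h
  let f : CoordRing S g →+* A := LocQ.evalHom (𝒪 := O) a ha
  have hfC : ∀ c : O, f (MvPowerSeries.C c) = MvPowerSeries.C (algebraMap O L.R c) := fun c => by
    simp [f, A, MvPowerSeries.algebraMap_apply]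
  have hfX : ∀ i, f (coordX i) = val i := fun i => by simp [f, coordX, a]
  have hf : Function.Surjective f := by
    refine evalHom_surjective_of_span a ha ?_ hres
    refine heq.le.trans (sup_le (sup_le (sup_le (sup_le le_sup_left ?_) ?_) ?_) ?_) <;>
      refine le_sup_of_le_right ?_
    · refine Ideal.span_mono ?_
      rintro _ ⟨qj, rfl⟩
      exact hrange (Sum.inl (Sum.inl qj))
    · refine Ideal.span_mono ?_
      rintro _ (⟨q, rfl⟩ | ⟨q, hq, rfl⟩)
      · exact hrange (Sum.inl (Sum.inr (q, 0)))
      · exact hrange (Sum.inl (Sum.inr (⟨q, hq⟩, 1)))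
    · split_ifs with hm
      · have hp : 0 < S.pIdx := by simp [OddPrimes.pIdx, hm]
        refine Ideal.span_mono ?_
        rintro _ (rfl | rfl)
        · exact hrange (Sum.inr (Sum.inl (⟨0, hp⟩, 1)))
        · exact hrange (Sum.inr (Sum.inl (⟨0, hp⟩, 0)))
      · exact bot_le
    · refine Ideal.span_mono ?_
      rintro _ ⟨i, rfl⟩
      exact hrange (Sum.inr (Sum.inr i))
  -- lifts of the diamond and frame variables
  let img : Fin r ⊕ FrameVar S.T → A :=
    Sum.elim (fun i => MvPowerSeries.C (L.δ i - 1)) MvPowerSeries.X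
  have himg : ∀ i, img i ∈ maximalIdeal A := by
    rintro (i | i)
    · exact hC _ (L.δ_residue i)
    · simp [img, A, MvPowerSeries.isUnit_iff_constantCoeff]
  let w : Fin (Fintype.card (Fin r ⊕ FrameVar S.T)) → CoordRing S g := fun i =>
    Function.surjInv hf (img ((Fintype.equivFin _).symm i))
  have hw : ∀ i, w i ∈ maximalIdeal (CoordRing S g) := fun i h => by
    have hu := IsUnit.map f h
    rw [Function.surjInv_eq hf] at hu
    exact himg _ hu
  refine ⟨{
    basis := b
    eval := f
    eval_C := hfC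
    eval_surjective := hf
    coord_T := fun qj => hfX _
    coord_z := fun q => hfX _
    coord_l := fun q => ⟨l q, hfX _, (hl q q.2).2⟩
    coord_pz := fun i => ⟨z, hfX _, (hez (hmixed i)).2⟩
    coord_pe := fun i => ⟨e, hfX _, (hez (hmixed i)).1⟩
    phi := LocQ.evalHom (𝒪 := O) w hw
    phi_C := fun c => by simp [MvPowerSeries.algebraMap_apply]
    phi_inl := fun i => by
      rw [dfX, LocQ.evalHom_X, Function.surjInv_eq hf, Equiv.symm_apply_apply]
      rfl
    phi_inr := fun i => by
      rw [dfX, LocQ.evalHom_X, Function.surjInv_eq hf, Equiv.symm_apply_apply]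
      rfl
    phi_maximalIdeal := map_maximalIdeal_le_of_X_mem _
      (fun c hc => by simpa [MvPowerSeries.algebraMap_apply,
        MvPowerSeries.isUnit_iff_constantCoeff] using hc)
      (fun i => by rw [LocQ.evalHom_X]; exact hw i) }⟩

variable {L} {g : ℕ} (E : LevelFrame L g)

local notation "varEquiv" => Fintype.equivFin (Fin r ⊕ FrameVar S.T)

omit [Finite (ResidueField O)] in
/-- The scalars of a normal form in the framed ring. -/
theorem LevelFrame.eval_phi_varIncl (h : MvPowerSeries (FrameVar S.T) O) :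
    E.eval (E.phi (varIncl varEquiv h)) = MvPowerSeries.map (algebraMap O L.R) h := by
  have := isNoetherianRing_level L
  have := isAdicComplete_level L
  have h1 : (E.eval.comp E.phi).comp (varIncl varEquiv) =
      MvPowerSeries.map (algebraMap O L.R) := by
    refine ringHom_powerSeries_ext (fun c => ?_) (fun y => ?_) fun y => ?_
    · rw [RingHom.comp_apply, varIncl_C, RingHom.comp_apply, E.phi_C, E.eval_C,
        MvPowerSeries.map_C]
    · rw [RingHom.comp_apply, varIncl_X, RingHom.comp_apply, MvPowerSeries.map_X]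
      exact E.phi_inr y
    · rw [RingHom.comp_apply, varIncl_X, RingHom.comp_apply,
        show E.eval (E.phi (MvPowerSeries.X (varEquiv (Sum.inr y)))) = _ from E.phi_inr y]
      simp [MvPowerSeries.isUnit_iff_constantCoeff]
  exact RingHom.congr_fun h1 h

omit [IsAdicComplete (maximalIdeal O) O] [Finite (ResidueField O)] in
/-- A diamond operator in the framed ring. -/
theorem LevelFrame.eval_phi_diamond (i : Fin r) :
    E.eval (E.phi (1 + MvPowerSeries.X (varEquiv (Sum.inl i)))) = MvPowerSeries.C (L.δ i) := by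
  rw [map_add, map_add, map_one, map_one,
    show E.eval (E.phi (MvPowerSeries.X (varEquiv (Sum.inl i)))) = _ from E.phi_inl i, map_sub,
    map_one, add_sub_cancel]

omit [IsAdicComplete (maximalIdeal O) O] [Finite (ResidueField O)] in
theorem LevelFrame.eval_phi_groupRel {j : DiamondFrameRing O r S.T}
    (hj : j ∈ groupRel O varEquiv N) : E.eval (E.phi j) = 0 := by
  have h : groupRel O varEquiv N ≤ RingHom.ker (E.eval.comp E.phi) := by
    refine Ideal.span_le.mpr ?_
    rintro _ ⟨i, rfl⟩
    rw [SetLike.mem_coe, RingHom.mem_ker, RingHom.comp_apply, map_sub, map_sub, map_pow, map_pow,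
      E.eval_phi_diamond, map_one, map_one, ← map_pow, L.δ_pow, map_one, sub_self]
  exact RingHom.mem_ker.mp (h hj)

omit [Finite (ResidueField O)] in
theorem LevelFrame.eval_phi_groupForm (γ : (Fin r → Fin N) → MvPowerSeries (FrameVar S.T) O) :
    E.eval (E.phi (groupForm varEquiv γ)) = ∑ a,
      MvPowerSeries.map (algebraMap O L.R) (γ a) * MvPowerSeries.C (∏ i, L.δ i ^ (a i : ℕ)) := by
  rw [groupForm, map_sum, map_sum]
  refine Finset.sum_congr rfl fun a _ => ?_
  simp only [map_mul, E.eval_phi_varIncl, map_prod, map_pow, E.eval_phi_diamond]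

omit [IsAdicComplete (maximalIdeal O) O] [Finite (ResidueField O)] in
/-- The augmentation goes to the variables. -/
theorem LevelFrame.X_mem_map (i : FrameVar S.T) :
    MvPowerSeries.X i ∈ ((diamondFrameAug O r S.T).map E.phi).map E.eval := by
  rw [← E.phi_inr i]
  exact Ideal.mem_map_of_mem _ (Ideal.mem_map_of_mem _ (Ideal.subset_span ⟨_, rfl⟩))

omit [IsAdicComplete (maximalIdeal O) O] [Finite (ResidueField O)] in
theorem LevelFrame.diamond_le_comap :
    Ideal.span (Set.range fun i => L.δ i - 1) ≤
      (((diamondFrameAug O r S.T).map E.phi).map E.eval).comap MvPowerSeries.C := by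
  refine Ideal.span_le.mpr ?_
  rintro _ ⟨i, rfl⟩
  rw [SetLike.mem_coe, Ideal.mem_comap, ← E.phi_inl i]
  exact Ideal.mem_map_of_mem _ (Ideal.mem_map_of_mem _ (Ideal.subset_span ⟨_, rfl⟩))

omit [IsAdicComplete (maximalIdeal O) O] [Finite (ResidueField O)] in
theorem LevelFrame.maximal_le_comap :
    (maximalIdeal O).map (algebraMap O L.R) ⊔ Ideal.span (Set.range fun i => L.δ i - 1) ≤
      (((maximalIdeal (DiamondFrameRing O r S.T)).map E.phi).map E.eval).comap MvPowerSeries.C := by
  refine sup_le (Ideal.map_le_iff_le_comap.mpr fun c hc => ?_)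
    (E.diamond_le_comap.trans (Ideal.comap_mono (Ideal.map_mono (Ideal.map_mono
      (le_maximalIdeal ?_)))))
  · rw [Ideal.mem_comap, Ideal.mem_comap, ← E.eval_C, ← E.phi_C]
    refine Ideal.mem_map_of_mem _ (Ideal.mem_map_of_mem _ ?_)
    simpa [MvPowerSeries.isUnit_iff_constantCoeff] using hc
  · refine (ne_top_of_le_ne_top (maximalIdeal.isMaximal _).ne_top ?_)
    refine Ideal.span_le.mpr ?_
    rintro _ ⟨i, rfl⟩
    simp [MvPowerSeries.isUnit_iff_constantCoeff]

omit [IsAdicComplete (maximalIdeal O) O] [Finite (ResidueField O)] in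
theorem LevelFrame.constantCoeff_mem_diamond {s : DiamondFrameRing O r S.T}
    (hs : s ∈ diamondFrameAug O r S.T) :
    MvPowerSeries.constantCoeff (E.eval (E.phi s)) ∈
      Ideal.span (Set.range fun i => L.δ i - 1) := by
  have h : diamondFrameAug O r S.T ≤ (Ideal.span (Set.range fun i => L.δ i - 1)).comap
      (MvPowerSeries.constantCoeff.comp (E.eval.comp E.phi)) := by
    refine Ideal.span_le.mpr ?_
    rintro _ ⟨j, rfl⟩
    obtain ⟨(i | y), rfl⟩ := (varEquiv).surjective j
    · show MvPowerSeries.constantCoeff (E.eval (E.phi (dfX O (Sum.inl i)))) ∈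
        Ideal.span (Set.range fun i => L.δ i - 1)
      rw [E.phi_inl, MvPowerSeries.constantCoeff_C]
      exact Ideal.subset_span ⟨i, rfl⟩
    · show MvPowerSeries.constantCoeff (E.eval (E.phi (dfX O (Sum.inr y)))) ∈
        Ideal.span (Set.range fun i => L.δ i - 1)
      rw [E.phi_inr, MvPowerSeries.constantCoeff_X]
      exact zero_mem _
  exact h hs

omit [IsAdicComplete (maximalIdeal O) O] [Finite (ResidueField O)] in
theorem LevelFrame.constantCoeff_mem_maximal {s : DiamondFrameRing O r S.T}
    (hs : s ∈ maximalIdeal (DiamondFrameRing O r S.T)) :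
    MvPowerSeries.constantCoeff (E.eval (E.phi s)) ∈
      (maximalIdeal O).map (algebraMap O L.R) ⊔ Ideal.span (Set.range fun i => L.δ i - 1) := by
  have hsplit : s = MvPowerSeries.C (MvPowerSeries.constantCoeff s) +
      (s - MvPowerSeries.C (MvPowerSeries.constantCoeff s)) := by ring
  rw [hsplit, map_add, map_add, map_add, E.phi_C, E.eval_C, MvPowerSeries.constantCoeff_C]
  refine add_mem (Ideal.mem_sup_left (Ideal.mem_map_of_mem _ ?_))
    (Ideal.mem_sup_right (E.constantCoeff_mem_diamond
      (LocQ.mem_span_X_of_constantCoeff (by simp))))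
  exact fun h => hs (MvPowerSeries.isUnit_iff_constantCoeff.mpr h)

variable [NeZero N] {Q₀ : Finset ℕ} {N₀ : ℕ} {L₀ : OddLevel S Q₀ 0 N₀ d tp ζ}

/-- The module of a variant at the level. -/
abbrev LevelFrame.Mod (v : OddVariant) : Type := FrameMod E.eval (L.M v)

/-- The level of the patching system of a variant. -/
def LevelFrame.patchLevel (hom : OddLevelHom L L₀) (v : OddVariant) :
    PatchLevel (DiamondFrameRing O r S.T) (CoordRing S g) L₀.R (L₀.M v)
      (diamondFrameAug O r S.T) (groupRel O varEquiv N) (d v) where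
  N := E.Mod v
  φ := E.phi
  φ_maximalIdeal := E.phi_maximalIdeal
  ψ := ((hom.π : L.R →+* L₀.R).comp MvPowerSeries.constantCoeff).comp E.eval
  ψ_surjective := by
    intro y
    obtain ⟨a, rfl⟩ := hom.π_surjective y
    obtain ⟨c, hc⟩ := E.eval_surjective (MvPowerSeries.C a)
    exact ⟨c, by simp [hc]⟩
  ψ_φ s hs := by
    have h : Ideal.span (Set.range fun i => L.δ i - 1) ≤ RingHom.ker (hom.π : L.R →+* L₀.R) := by
      refine Ideal.span_le.mpr ?_
      rintro _ ⟨i, rfl⟩
      simp [hom.π_δ]
    exact RingHom.mem_ker.mp (h (E.constantCoeff_mem_diamond hs))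
  π := (hom.πM v).comp (frameCoeff E.eval (L.M v) 0)
  π_smul b x := by
    simp [frameCoeff_zero_smul, hom.πM_smul]
  ker_π_le x hx := by
    rw [← sub_add_cancel x (frameIncl E.eval (L.M v) (frameCoeff E.eval (L.M v) 0 x))]
    exact add_mem (sub_frameIncl_mem E.eval_surjective E.X_mem_map x)
      (frameIncl_mem_smul E.eval_surjective E.diamond_le_comap (hom.ker_πM v _ hx))
  b j := frameIncl E.eval (L.M v) ((L.free v).choose j)
  b_span x := by
    classical
    have hbij := (L.free v).choose_spec
    set b := (L.free v).choose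
    let P : E.Mod v → Prop := fun x => ∃ c : Fin (d v) → DiamondFrameRing O r S.T,
      x = ∑ i, E.phi (c i) • frameIncl E.eval (L.M v) (b i)
    have hP0 : P 0 := ⟨0, (Finset.sum_eq_zero fun i _ => by
      rw [Pi.zero_apply, map_zero]; exact zero_smul (CoordRing S g) (frameIncl E.eval (L.M v) (b i))).symm⟩
    have hPa : ∀ x y, P x → P y → P (x + y) := by
      rintro _ _ ⟨c, rfl⟩ ⟨c', rfl⟩
      exact ⟨c + c', by simp [add_smul, Finset.sum_add_distrib]⟩
    have hmap : ∀ (u : MvPowerSeries (FrameVar S.T) O) m,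
        P (Restr.equiv.symm (MvPowerSeries.map (algebraMap O L.R) u ⊗ₜ[L.R] m)) := fun u m => by
      obtain ⟨c, hc⟩ := hbij.2 m
      refine ⟨fun j => groupForm varEquiv fun a => u * MvPowerSeries.C (c j a), ?_⟩
      simp only [smul_frameIncl, E.eval_phi_groupForm, map_mul, MvPowerSeries.map_C, mul_assoc]
      simp only [← Finset.mul_sum, ← map_mul, ← map_sum, ← hc, TensorProduct.tmul_sum]
      congr 1
      refine Finset.sum_congr rfl fun j _ => ?_
      rw [← TensorProduct.tmul_sum, ← Finset.sum_smul, ← TensorProduct.smul_tmul, Algebra.smul_def,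
        mul_comm, MvPowerSeries.algebraMap_apply, Algebra.algebraMap_self, RingHom.id_apply]
    refine frameMod_induction (P := P) hP0 (fun f m => ?_) hPa x
    obtain ⟨k, s, hs⟩ := Module.Finite.exists_fin (R := O) (M := L.R)
    have hs' : ∀ y : L.R, ∃ c : Fin k → O, ∑ i, c i • s i = y := fun y =>
      (Submodule.mem_span_range_iff_exists_fun O).mp (hs ▸ Submodule.mem_top)
    choose c hc using hs'
    let u : Fin k → MvPowerSeries (FrameVar S.T) O := fun i e => c (MvPowerSeries.coeff e f) i
    have hf : f = ∑ i, s i • MvPowerSeries.map (algebraMap O L.R) (u i) := by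
      refine MvPowerSeries.ext fun e => ?_
      rw [map_sum]
      conv_lhs => rw [← hc (MvPowerSeries.coeff e f)]
      refine Finset.sum_congr rfl fun i _ => ?_
      rw [MvPowerSeries.coeff_smul, MvPowerSeries.coeff_map, Algebra.smul_def, mul_comm]
      rfl
    rw [hf, TensorProduct.sum_tmul, map_sum]
    refine Finset.sum_induction _ P hPa hP0 fun i _ => ?_
    rw [TensorProduct.smul_tmul]
    exact hmap _ _
  b_rel c hc i := by
    classical
    have hbij := (L.free v).choose_spec
    set b := (L.free v).choose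
    choose γ hγ using fun i => exists_sub_groupForm_mem varEquiv (c i) (N := N)
    have heval : ∀ i, E.eval (E.phi (c i)) = E.eval (E.phi (groupForm varEquiv (γ i))) := fun i => by
      rw [← sub_eq_zero, ← map_sub, ← map_sub]
      exact E.eval_phi_groupRel (hγ i)
    simp only [smul_frameIncl, heval, E.eval_phi_groupForm] at hc
    suffices hzero : γ i = 0 by
      have := hγ i
      rwa [hzero, show groupForm varEquiv (0 : (Fin r → Fin N) → MvPowerSeries (FrameVar S.T) O) = 0
        by simp [groupForm], sub_zero] at this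
    refine funext fun a => MvPowerSeries.ext fun e => ?_
    have h := congrArg (frameCoeff E.eval (L.M v) e) hc
    simp only [map_sum, map_zero, frameCoeff_tmul, MvPowerSeries.coeff_mul_C,
      MvPowerSeries.coeff_map] at h
    have := hbij.1 (a₁ := fun j a => MvPowerSeries.coeff e (γ j a)) (a₂ := 0) (by simpa [Finset.sum_smul] using h)
    simpa using congrFun (congrFun this i) a

end FermatLib.MLT.Odd.PatchBuild

end
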