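import Fermat.Agent.MLT.Odd.Levels
import Fermat.Agent.MLT.Odd.Generators
import Fermat.Agent.MLT.PatchHom
import Fermat.Agent.MLT.PowerSeriesComplete

/-!
# Patching systems built from a family of levels

One coordinate ring `B` and one ring `S` of diamond and frame variables serve all the variants.
The level modules are `M[[X]]` truncated; `ι` is the inclusion of `M`, and `eval n` sends the
coordinates to their values in `R_n[[X]]`.
-/

set_option autoImplicit false

namespace FermatLib.MLT.Odd

open IsLocalRing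

variable {O : Type} [CommRing O] [IsDomain O] [IsDiscreteValuationRing O]
  [IsAdicComplete (maximalIdeal O) O] [Finite (ResidueField O)] [CharZero O]
  {p : ℕ} [Fact p.Prime] {ρbar : ResidualGaloisRep (ResidueField O)}

/-- The coordinates: six at each prime of `T`, `(z, l)` at `F`, `(z, e)` at `p` in the mixed
case, and `g` further ones. -/
abbrev CoordVar (S : OddPrimes p ρbar) (g : ℕ) : Type :=
  ((S.T × Fin 6) ⊕ (S.F × Fin 2)) ⊕ ((Fin S.pIdx × Fin 2) ⊕ Fin g)

/-- The ring `B`. -/
abbrev CoordRing (S : OddPrimes p ρbar) (g : ℕ) : Type :=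
  MvPowerSeries (Fin (Fintype.card (CoordVar S g))) O

/-- The variable of a coordinate. -/
noncomputable def coordX {S : OddPrimes p ρbar} {g : ℕ} (i : CoordVar S g) : CoordRing S g :=
  MvPowerSeries.X (Fintype.equivFin _ i)

/-- The ring of diamond and frame variables. -/
abbrev DiamondFrameRing (O : Type) (r : ℕ) (T : Finset ℕ) : Type :=
  MvPowerSeries (Fin (Fintype.card (Fin r ⊕ FrameVar T))) O

/-- The variable of a diamond or of a frame entry. -/
noncomputable def dfX (O : Type) [CommRing O] {r : ℕ} {T : Finset ℕ} (i : Fin r ⊕ FrameVar T) :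
    DiamondFrameRing O r T :=
  MvPowerSeries.X (Fintype.equivFin _ i)

/-- The augmentation ideal. -/
noncomputable def diamondFrameAug (O : Type) [CommRing O] (r : ℕ) (T : Finset ℕ) :
    Ideal (DiamondFrameRing O r T) :=
  Ideal.span (Set.range MvPowerSeries.X)

variable {S : OddPrimes p ρbar} {d : OddVariant → ℕ} {tp : S.TamePairs} {ζ : ℕ → O}

/-- A family of levels over level zero, with generators of their framed rings. -/
structure OddFamily (L₀ : OddLevel S ∅ 0 1 d tp ζ) (r g : ℕ) : Type 1 where
  qv : ℕ → Fin r → ℕ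
  level : ∀ n, OddLevel S (Finset.univ.image (qv n)) r (p ^ (n + 1)) d tp ζ
  hom : ∀ n, OddLevelHom (level n) L₀
  gen : ∀ n, HasGenerators S tp g (level n).ρ

variable {L₀ : OddLevel S ∅ 0 1 d tp ζ} {r g : ℕ}

/-- The patching systems of all the variants, and what is known about their levels. -/
structure OddPatch (F : OddFamily L₀ r g) : Type 1 where
  sys : ∀ v, PatchSystem (DiamondFrameRing O r S.T) (CoordRing S g) L₀.R (L₀.M v)
    (diamondFrameAug O r S.T) (d v)
  eval : ∀ n, CoordRing S g →+* MvPowerSeries (FrameVar S.T) (F.level n).R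
  eval_algebraMap : ∀ n (c : O),
    eval n (MvPowerSeries.C c) = MvPowerSeries.C (algebraMap O (F.level n).R c)
  eval_surjective : ∀ n, Function.Surjective (eval n)
  ψ_eq : ∀ v n c,
    ((sys v).level n).ψ c = (F.hom n).π (MvPowerSeries.constantCoeff (eval n c))
  φ_eq : ∀ v n, ((sys v).level n).φ = ((sys .std).level n).φ
  φ_algebraMap : ∀ v n (c : O), ((sys v).level n).φ (MvPowerSeries.C c) = MvPowerSeries.C c
  φ_diamond : ∀ v n i, eval n (((sys v).level n).φ (dfX O (Sum.inl i))) =
    MvPowerSeries.C ((F.level n).δ i - 1)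
  φ_frame : ∀ v n i, eval n (((sys v).level n).φ (dfX O (Sum.inr i))) = MvPowerSeries.X i
  basis : ∀ n, Module.Basis (Fin 2) (F.level n).R (F.level n).ρ.V
  coord_T : ∀ n (qj : S.T × Fin 6),
    eval n (coordX (Sum.inl (Sum.inl qj))) =
      framedCoord (F.level n).ρ (basis n) tp.atT qj
  coord_z : ∀ n (q : S.F),
    eval n (coordX (Sum.inl (Sum.inr (q, 0)))) =
      MvPowerSeries.C (zCoord S (tp.atF q) (F.level n).ρ)
  coord_l : ∀ n (q : S.F), ∃ l : (F.level n).R,
    eval n (coordX (Sum.inl (Sum.inr (q, 1)))) = MvPowerSeries.C l ∧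
      VanishesWhere (O := O) (F.level n).ρ (fun _ _ _ ρx => ρx.IsUnramifiedAt q) l
  coord_pz : ∀ n (i : Fin S.pIdx), ∃ z : (F.level n).R,
    eval n (coordX (Sum.inr (Sum.inl (i, 0)))) = MvPowerSeries.C z ∧
      VanishesWhere (O := O) (F.level n).ρ (fun _ _ _ ρx => ρx.IsStrictOrdinaryAt p) z
  coord_pe : ∀ n (i : Fin S.pIdx), ∃ e : (F.level n).R,
    eval n (coordX (Sum.inr (Sum.inl (i, 1)))) = MvPowerSeries.C e ∧
      VanishesWhere (O := O) (F.level n).ρ (fun _ _ _ ρx => ¬ ρx.IsStrictOrdinaryAt p) e
  incl : ∀ v n, (F.level n).M v →+ ((sys v).level n).N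
  incl_smul : ∀ v n c a m, eval n c = MvPowerSeries.C a → c • incl v n m = incl v n (a • m)
  incl_span : ∀ v n, Submodule.span (CoordRing S g) (Set.range (incl v n)) = ⊤
  incl_π : ∀ v n m, ((sys v).level n).π (incl v n m) = (F.hom n).πM v m
  /-- An element with all coefficients in the annihilator kills the level. -/
  smul_eq_zero : ∀ v n c (x : ((sys v).level n).N),
    eval n c ∈ (Module.annihilator (F.level n).R ((F.level n).M v)).map MvPowerSeries.C →
      c • x = 0
  incl_mem_iff : ∀ v n m,
    incl v n m ∈ ((maximalIdeal (DiamondFrameRing O r S.T)).map ((sys v).level n).φ) •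
        (⊤ : Submodule (CoordRing S g) ((sys v).level n).N) ↔
      m ∈ ((maximalIdeal O).map (algebraMap O (F.level n).R) ⊔
          Ideal.span (Set.range fun i => (F.level n).δ i - 1)) •
        (⊤ : Submodule (F.level n).R ((F.level n).M v))
  lift : ∀ v w, (∀ n, (F.level n).M v →ₗ[(F.level n).R] (F.level n).M w) →
    PatchHom (sys v) (sys w)
  lift_incl : ∀ v w f n m, (lift v w f).toFun n (incl v n m) = incl w n (f n m)
  /-- The identification of `std` and `chi` modulo `ϖ` on the patched supports. -/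
  fibre_iff : ∀ (ϖ : O), maximalIdeal O = Ideal.span {ϖ} →
    ∀ Q : Ideal (CoordRing S g), Q.IsPrime → MvPowerSeries.C ϖ ∈ Q →
      ((sys .std).annih ≤ Q ↔ (sys .chi).annih ≤ Q)

end FermatLib.MLT.Odd
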