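import Fermat.Agent.MLT.Odd.PatchRaise

/-!
# Components with a prescribed pattern

Start from any component (from the strictly ordinary one at a mixed `p`), flip at the primes of `T`
and raise at the primes of `F`: every pattern which is new at `F` and strict at `p` is reached.
-/

set_option autoImplicit false

noncomputable section

namespace FermatLib.MLT.Odd

open IsLocalRing

variable {O : Type} [CommRing O] [IsDomain O] [IsDiscreteValuationRing O]
  [IsAdicComplete (maximalIdeal O) O] [Finite (ResidueField O)] [CharZero O]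
  {p : ℕ} [Fact p.Prime] {ρbar : ResidualGaloisRep (ResidueField O)}
  {S : OddPrimes p ρbar} {d : OddVariant → ℕ} {tp : S.TamePairs} {ζ : ℕ → O}
  {L₀ : OddLevel S ∅ 0 1 d tp ζ} {r g : ℕ} {F : OddFamily L₀ r g}

namespace OddPatch

variable (P : OddPatch F) {ϖ : O}

/-- **Every wanted pattern occurs in the special fibre of `std`.** -/
theorem exists_component_of_pattern (hϖ : maximalIdeal O = Ideal.span {ϖ}) (hϖ0 : ϖ ≠ 0)
    [IsDomain (DiamondFrameRing O r S.T ⧸
      Ideal.span {(MvPowerSeries.C ϖ : DiamondFrameRing O r S.T)})]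
    (hdimS : ringKrullDim (DiamondFrameRing O r S.T ⧸
      Ideal.span {(MvPowerSeries.C ϖ : DiamondFrameRing O r S.T)}) = (oddBranches S g ϖ hϖ).dim)
    (hbr : ∀ Q ∈ associatedPrimes (CoordRing S g) ((P.sys .std).Fibre (MvPowerSeries.C ϖ)),
      ∀ j, ∃ b, (oddBranches S g ϖ hϖ).br j b ≤ Q)
    (hmin : ∀ (q : S.T) k j, nCoord S g q k * pCoord S g q j - nCoord S g q j * pCoord S g q k ∈
      (P.sys .chi).annih)
    (hqn : ∀ q : S.T, ∃ (e : ℕ) (u : CoordRing S g), IsUnit u ∧
      qForm (nCoord S g q) - MvPowerSeries.C ϖ ^ e * u ∈ (P.sys .chi).annih)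
    (hd : 0 < d .std) (hdp : S.pCase = PCase.mixed → S.kap p * d (.old p) < d .std)
    (τ : BranchIdx S → Bool) (hτF : ∀ q : S.F, τ (some (Sum.inr (Sum.inl q))) = false)
    (hτp : ∀ i : Fin S.pIdx, τ (some (Sum.inr (Sum.inr i))) = false) :
    ∃ Q ∈ associatedPrimes (CoordRing S g) ((P.sys .std).Fibre (MvPowerSeries.C ϖ)),
      ∀ j, (oddBranches S g ϖ hϖ).br j (τ j) ≤ Q := by
  classical
  set D := oddBranches S g ϖ hϖ
  set A := associatedPrimes (CoordRing S g) ((P.sys .std).Fibre (MvPowerSeries.C ϖ))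
  obtain ⟨Q₀, hQ₀, hp₀⟩ : ∃ Q ∈ A, ∀ i : Fin S.pIdx, D.br (some (Sum.inr (Sum.inr i))) false ≤ Q := by
    by_cases hm : S.pCase = PCase.mixed
    · have h1 : S.pIdx = 1 := if_pos hm
      obtain ⟨Q, hQ, hmem⟩ := P.exists_strict_start D hdimS (hϖ ▸ Ideal.mem_span_singleton_self ϖ)
        hm (hdp hm) ⟨0, h1.symm ▸ Nat.one_pos⟩
      exact ⟨Q, hQ, fun i => (Ideal.span_singleton_le_iff_mem _).mpr (by
        rwa [show i = ⟨0, h1.symm ▸ Nat.one_pos⟩ from Fin.ext (by omega)])⟩
    · obtain ⟨Q, hQ⟩ := (P.sys .std).exists_mem_associatedPrimes_fibre (MvPowerSeries.C ϖ) hd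
        (by rw [P.phi_C]; exact C_mem_maximalIdeal_coordRing hϖ)
      exact ⟨Q, hQ, fun i => absurd i.isLt (by simp [OddPrimes.pIdx, hm])⟩
  choose σ hσ using hbr Q₀ hQ₀
  let σ₀ : BranchIdx S → Bool := fun j => match j with
    | none => τ none
    | some (Sum.inr (Sum.inr _)) => false
    | some i => σ (some i)
  refine D.exists_pattern_of_flips A σ₀ τ Finset.univ (fun i _ hne Q hQ π hπ hi => ?_)
    (fun j hj => absurd (Finset.mem_univ j) hj) hQ₀ fun j => ?_
  · rcases i with _ | q | q | q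
    · exact absurd rfl hne
    · obtain ⟨e, u, hu, hq⟩ := hqn q
      obtain ⟨Q', hQ', hbi, hoff⟩ := P.exists_flip_T D hϖ hϖ0 hdimS hbr (some (Sum.inl q)) q rfl
        rfl rfl rfl hu (hmin q) hq hQ hπ
      refine ⟨Q', hQ', ?_, hoff⟩
      rwa [hi, show (!σ₀ (some (Sum.inl q))) = τ (some (Sum.inl q)) from
        (Bool.eq_not.mpr (Ne.symm hne)).symm] at hbi
    · rw [hτF] at hne ⊢
      refine P.exists_raise_F D hdimS hbr (some (Sum.inr (Sum.inl q))) (b₀ := true) (b₁ := false)
        rfl ?_ rfl hQ hπ (by rw [hi]; simpa using hne)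
      refine ⟨∅, by simp, by simp, ?_⟩
      rw [Finset.coe_empty, Ideal.span_empty, sup_bot_eq]
      refine le_trans (Ideal.span_le.mpr ?_) Ideal.le_radical
      rintro x (rfl | rfl)
      · exact Ideal.mem_sup_right (Ideal.mem_span_singleton_self _)
      · exact Ideal.mem_sup_left (Ideal.mem_span_singleton_self _)
    · exact absurd (hτp q).symm hne
  · rcases j with _ | q | q | q
    · exact (show D.br none (τ none) = D.br none (σ none) from rfl).trans_le (hσ none)
    · exact hσ _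
    · exact hσ _
    · exact hp₀ q

end OddPatch

end FermatLib.MLT.Odd
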