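import Fermat.Agent.MLT.Odd.PatchTarget
import Fermat.Agent.MLT.Odd.PatchBuild
import Fermat.Agent.MLT.Odd.PatchBranchAlg
import Fermat.Agent.MLT.Odd.SystemLocalP
import Fermat.Agent.MLT.Ordinary.Basic
import Fermat.Agent.MLT.Odd.LocalPTriangle

/-!
# The point of a lift on the coordinate ring

A point `x₀` of level zero with the traces of a target lift `ρ` gives `y : B → O`, the limit of the
points of the levels.  At `y` the coordinates lie on the branches prescribed by `ρ`: `z = 0` at `F`,
strictly ordinary at `p`, and at `T` either all coordinates of inertia vanish or the Steinberg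
relations hold.
-/

set_option autoImplicit false

set_option linter.unusedSectionVars false

noncomputable section

namespace FermatLib.MLT.Odd

open IsLocalRing FermatLib.Galois FermatLib.Galois.Deform

local notation "Γℚ" => (AlgebraicClosure ℚ ≃ₐ[ℚ] AlgebraicClosure ℚ)

theorem map_stLiftGen_apply {A B : Type} [CommRing A] [CommRing B] (f : A →+* B) (n p : Fin 3 → A)
    (e : A) (i : Fin 6) :
    f (LocQ.stLiftGen n p e i) = LocQ.stLiftGen (fun j => f (n j)) (fun j => f (p j)) (f e) i := by
  fin_cases i <;> simp [LocQ.stLiftGen]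

theorem map_inverse_two {A B : Type} [CommRing A] [CommRing B] (f : A →+* B)
    (h : IsUnit (2 : A)) : f (Ring.inverse 2) = Ring.inverse 2 := by
  have hB : IsUnit (2 : B) := by simpa only [map_ofNat] using h.map f
  refine hB.mul_left_cancel ?_
  rw [Ring.mul_inverse_cancel _ hB, ← map_ofNat f, ← map_mul, Ring.mul_inverse_cancel _ h, map_one]

/-- At a point of characteristic zero with non-trivial inertia, the unipotent relations put the
eigenvalues of Frobenius at `s` and `s q`, `s` the residual sign. -/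
theorem stLiftGen_eq_zero_of_relations {A : Type} [CommRing A] [IsDomain A] [IsLocalRing A]
    [CharZero A] (h2 : IsUnit (2 : A)) {q : ℕ} (hqp : q.Prime)
    (hq1m : (q : A) - 1 ∈ maximalIdeal A) {a s : A} (hs : s ^ 2 = 1)
    (ha : a - 2 * s ∈ maximalIdeal A) {n m : Fin 3 → A} (hQ : LocQ.quad (n 0) (n 1) (n 2) = 0)
    (he : ∀ i, LocQ.stEntry (q : A) (Ring.inverse (2 : A) * a) (m 0) (m 1) (m 2) (n 0) (n 1) (n 2) i
      = 0)
    (hd : (Ring.inverse (2 : A) * a) ^ 2 - LocQ.quad (m 0) (m 1) (m 2) - (q : A) = 0)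
    (hne : ∃ j, n j ≠ 0) (i : Fin 6) :
    LocQ.stLiftGen n m (s * Ring.inverse 2 * ((q : A) - 1)) i = 0 := by
  set t := Ring.inverse (2 : A)
  have h22 : t * 2 = 1 := Ring.inverse_mul_cancel _ h2
  have hq1 : (q : A) - 1 ≠ 0 := by
    rw [sub_ne_zero]
    exact_mod_cast hqp.one_lt.ne'
  have hq2 : (q : A) + 1 ≠ 0 := Nat.cast_add_one_ne_zero _
  rcases LocQ.mem_or_stIdeal_le (P := (⊥ : Ideal A)) (q := (q : A)) (h := t * a)
    (p₁ := m 0) (p₂ := m 1) (p₃ := m 2) (n₁ := n 0) (n₂ := n 1) (n₃ := n 2)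
    (by simpa using h2.ne_zero) (by simpa using hqp.ne_zero) (by simpa using hq1)
    (by simpa using hd) (by simpa using hQ) (fun i => by simpa using he i) with hN | hst
  · obtain ⟨j, hj⟩ := hne
    refine absurd ?_ hj
    simp only [Ideal.mem_bot] at hN
    fin_cases j
    exacts [hN.1, hN.2.1, hN.2.2]
  have hquad := (Ideal.mem_bot).mp (LocQ.stIdeal_le_iff.mp hst).2.2
  have htr : a = s * ((q : A) + 1) := by
    have hsq : (a - s * ((q : A) + 1)) * (a + s * ((q : A) + 1)) = 0 := by
      linear_combination 4 * hd + hquad - ((q : A) + 1) ^ 2 * hs - a ^ 2 * (2 * t + 1) * h22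
    refine sub_eq_zero.mp ((mul_eq_zero.mp hsq).resolve_right fun hac => ?_)
    have h4 : IsUnit (-(2 * 2 * s) : A) :=
      ((h2.mul h2).mul (IsUnit.of_pow_eq_one hs two_ne_zero)).neg
    refine (maximalIdeal.isMaximal A).ne_top (Ideal.eq_top_of_isUnit_mem _ ?_ h4)
    convert add_mem ha (Ideal.mul_mem_left _ s hq1m) using 1
    linear_combination -hac
  refine (Ideal.mem_bot).mp (stLiftGen_mem_of_stEntry (Q := (⊥ : Ideal A))
    (q := (q : A)) (h := t * a) (u := s * t) (by simpa using hq1) (by simpa using hq2)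
    ?_ ?_ ?_ hst i)
  · rw [Ideal.mem_bot, htr]
    ring
  · simp
  · rw [Ideal.mem_bot]
    linear_combination (s ^ 2 * (2 * t + 1)) * h22 + hs

variable {O : Type} [CommRing O] [IsDomain O] [IsDiscreteValuationRing O]
  [IsAdicComplete (maximalIdeal O) O] [Finite (ResidueField O)] [CharZero O]
  {p : ℕ} [Fact p.Prime] {ρbar : ResidualGaloisRep (ResidueField O)}
  {S : OddPrimes p ρbar} {d : OddVariant → ℕ} {tp : S.TamePairs} {ζ : ℕ → O}
  {L₀ : OddLevel S ∅ 0 1 d tp ζ} {r g : ℕ} {F : OddFamily L₀ r g}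

section Level

/-- The point of a level over a point of level zero, at the origin of the frames. -/
def frameValue (x₀ : L₀.R →ₐ[O] O) (n : ℕ) :
    MvPowerSeries (FrameVar S.T) (F.level n).R →+* O :=
  ((x₀.comp (F.hom n).π : (F.level n).R →ₐ[O] O) : (F.level n).R →+* O).comp
    MvPowerSeries.constantCoeff

theorem frameValue_C (x₀ : L₀.R →ₐ[O] O) (n : ℕ) (a : (F.level n).R) :
    frameValue (F := F) x₀ n (MvPowerSeries.C a) = x₀ ((F.hom n).π a) := by
  simp [frameValue]

theorem frameValue_eval_C (P : OddPatch F) (x₀ : L₀.R →ₐ[O] O) (n : ℕ) (c : O) :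
    frameValue (F := F) x₀ n (P.eval n (MvPowerSeries.C c)) = c := by
  rw [P.eval_algebraMap, frameValue_C, AlgHom.commutes, AlgHom.commutes]
  rfl

end Level

variable [IsNoetherianRing L₀.R] [IsAdicComplete (maximalIdeal L₀.R) L₀.R]
  [Finite (ResidueField L₀.R)]

/-- The point of the coordinate ring over a point of level zero. -/
def OddPatch.pointHom (P : OddPatch F) (x₀ : L₀.R →ₐ[O] O) : CoordRing S g →+* O :=
  (x₀ : L₀.R →+* O).comp (P.sys .std).psi

variable (P : OddPatch F) (x₀ : L₀.R →ₐ[O] O)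

/-- What vanishes at the points of all levels vanishes at the limit point. -/
theorem OddPatch.pointHom_eq_zero {c : CoordRing S g}
    (h : ∀ n, frameValue x₀ n (P.eval n c) = 0) : P.pointHom x₀ c = 0 := by
  show (P.sys .std).psi c ∈ RingHom.ker (x₀ : L₀.R →+* O)
  refine ((P.sys .std).isULim_psi (IsULim.const c)).mem_of_eventually fun k =>
    Filter.Eventually.of_forall fun n => Ideal.mem_sup_left ?_
  rw [RingHom.mem_ker, P.ψ_eq]
  exact h n

theorem OddPatch.pointHom_eq {c : CoordRing S g} {a : O}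
    (h : ∀ n, frameValue x₀ n (P.eval n c) = a) : P.pointHom x₀ c = a := by
  have hC : ∀ b : O, P.pointHom x₀ (MvPowerSeries.C b) = b := fun b => by
    show x₀ ((P.sys .std).psi (MvPowerSeries.C b)) = b
    rw [(P.sys .std).psi_eq (IsULim.const (MvPowerSeries.C b)) (r := algebraMap O L₀.R b)
      fun n => by rw [P.ψ_eq, P.eval_algebraMap, MvPowerSeries.constantCoeff_C, AlgHom.commutes],
      AlgHom.commutes]
    rfl
  have h0 := P.pointHom_eq_zero x₀ (c := c - MvPowerSeries.C a) fun n => by
    rw [map_sub, map_sub, h n, frameValue_eval_C, sub_self]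
  rwa [map_sub, hC, sub_eq_zero] at h0

theorem OddPatch.pointHom_C (b : O) : P.pointHom x₀ (MvPowerSeries.C b) = b :=
  P.pointHom_eq x₀ fun n => frameValue_eval_C P x₀ n b

section Target

variable {ρ : GaloisRepAdic O} (hρ : IsTargetLift S ρ)
  (hx : ∀ σ, x₀ (L₀.ρ.trace σ) = ρ.trace σ)

include hx in
omit [IsAdicComplete (maximalIdeal O) O] [Finite (ResidueField O)] [CharZero O] [Fact p.Prime]
  [IsNoetherianRing L₀.R] [IsAdicComplete (maximalIdeal L₀.R) L₀.R]
  [Finite (ResidueField L₀.R)] in
theorem frameValue_trace (n : ℕ) (σ : Γℚ) :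
    x₀ ((F.hom n).π ((F.level n).ρ.trace σ)) = ρ.trace σ := by
  rw [(F.hom n).π_trace, hx]

include hρ hx in
/-- `z = 0` at `F`. -/
theorem OddPatch.pointHom_zVarF (q : S.F) : P.pointHom x₀ (zVarF S g q) = 0 := by
  refine P.pointHom_eq_zero x₀ fun n => ?_
  rw [zVarF, P.coord_z, frameValue_C, zCoord, map_sub, map_mul, map_add, map_intCast, map_natCast,
    map_one, map_sub, frameValue_trace x₀ hx, map_mul, map_add, map_intCast, map_natCast, map_one,
    sub_eq_zero]
  exact hρ.at_F q q.2 _ (tp.atF q).liesOver _ (tp.atF q).frob_spec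

include hρ hx in
/-- The strictly ordinary coordinate vanishes. -/
theorem OddPatch.pointHom_zVarP (hres : OddResidual p ρbar) (i : Fin S.pIdx) :
    P.pointHom x₀ (zVarP S g i) = 0 := by
  have hmixed : S.pCase = PCase.mixed := by
    by_contra h
    have := i.pos
    simp [OddPrimes.pIdx, h] at this
  refine P.pointHom_eq_zero x₀ fun n => ?_
  obtain ⟨z, hz, hv⟩ := P.coord_pz n i
  rw [zVarP, hz, frameValue_C]
  let f : (F.level n).R →ₐ[O] O := x₀.comp (F.hom n).π
  have hsurj : Function.Surjective f := fun c => ⟨algebraMap O _ c, f.commutes c⟩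
  let y : OddPoint O (F.level n).R :=
    { O' := O
      toHom := f
      isLocalHom := IsLocalHom.of_surjective (f : (F.level n).R →+* O) hsurj }
  refine hv y ?_
  have hirr : ρ.residual.IsAbsolutelyIrreducible := by
    obtain ⟨e⟩ := hρ.isLiftOf
    refine isAbsolutelyIrreducible_of_trace_eq
      ((isAbsolutelyIrreducible_baseChangeAlong_iff (ResidueField.map (algebraMap O O)) _).mpr
        hres.absIrred) fun σ => ?_
    have hc : (ρbar.baseChangeAlong (ResidueField.map (algebraMap O O))).ρ σ =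
        e.toLinearEquiv.conj (ρ.residual.ρ σ) := by
      refine LinearMap.ext fun w => ?_
      rw [LinearEquiv.conj_apply_apply, e.map_apply, LinearEquiv.apply_symm_apply]
    rw [hc, LinearMap.trace_conj']
  have he : ρ.IsEquiv (y.rep (F.level n).ρ) := adic_isEquiv_of_trace_eq hirr fun σ => by
    rw [OddPoint.rep, trace_baseChangeAlong_apply]
    exact (frameValue_trace (F := F) x₀ hx n σ).symm
  exact isStrictOrdinaryAt_of_equiv he.some (hρ.strict hmixed)

include hρ in
omit [IsAdicComplete (maximalIdeal O) O] [Finite (ResidueField O)] [CharZero O] [Fact p.Prime] in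
theorem trace_gen_eq_two (q : S.T) : ρ.trace (tp.atT q).gen = 2 := by
  set t := tp.atT q
  rcases hρ.at_T q q.2 with h | ⟨h, -⟩
  · rw [GaloisRepAdic.trace, h t.A t.liesOver t.gen t.gen_mem, LinearMap.trace_one, ρ.finrank_eq,
      Nat.cast_ofNat]
  · have hc := h t.A t.liesOver t.gen t.gen_mem
    rw [adic_charpoly_eq] at hc
    have h1 := congrArg (fun P => Polynomial.coeff P 1) hc
    rw [sub_sq] at h1
    simp [Polynomial.coeff_one] at h1
    linear_combination h1

include hρ hx in
/-- **The relations at a prime of `T` at the point**: the coordinates of inertia and Frobenius with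
`h = tr Frob / 2` satisfy the unipotent relations. -/
theorem OddPatch.pointHom_relations_T (hp2 : p ≠ 2) (hpO : (p : O) ∈ maximalIdeal O)
    (hres : OddResidual p ρbar) (q : S.T) :
    let y := P.pointHom x₀
    let h := Ring.inverse (2 : O) * ρ.trace (tp.atT q).frob
    let N := fun j => y (nCoord S g q j)
    let M := fun j => y (pCoord S g q j)
    LocQ.quad (N 0) (N 1) (N 2) = 0 ∧
      (∀ i, LocQ.stEntry ((q : ℕ) : O) h (M 0) (M 1) (M 2) (N 0) (N 1) (N 2) i = 0) ∧
      h ^ 2 - LocQ.quad (M 0) (M 1) (M 2) - ((q : ℕ) : O) = 0 := by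
  intro y h N M
  set t := tp.atT q
  have h2O : IsUnit (2 : O) := LocP.isUnit_two hp2 hpO
  let Y := fun n => frameValue (F := F) x₀ n
  let Nn := fun n j => Y n (P.eval n (nCoord S g q j))
  let Mn := fun n j => Y n (P.eval n (pCoord S g q j))
  have hlev : ∀ n, LocQ.quad (Nn n 0) (Nn n 1) (Nn n 2) = 0 ∧
      (∀ i, LocQ.stEntry ((q : ℕ) : O) h (Mn n 0) (Mn n 1) (Mn n 2) (Nn n 0) (Nn n 1) (Nn n 2) i =
        0) ∧
      h ^ 2 - LocQ.quad (Mn n 0) (Mn n 1) (Mn n 2) - ((q : ℕ) : O) = 0 := by
    intro n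
    have : IsNoetherianRing (F.level n).R := IsNoetherianRing.of_finite O (F.level n).R
    have : Finite (ResidueField (F.level n).R) := HeckeRep.finite_residueField_of_finite (𝒪 := O)
    obtain ⟨hdG, hdΦ, htame, -, -⟩ := matOf_atT Fact.out hpO hres.det (F.level n).residue_surjective
      (F.level n).isLiftOf (F.level n).lift.det (P.basis n) tp q
    set G := matOf (F.level n).ρ (P.basis n) t.gen
    set Φ := matOf (F.level n).ρ (P.basis n) t.frob
    have h2R : IsUnit (2 : (F.level n).R) := by
      simpa only [map_ofNat] using h2O.map (algebraMap O (F.level n).R)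
    have hn : ∀ j, P.eval n (nCoord S g q j) = tracelessCoord (frameMat q G) j := fun j => by
      rw [nCoord, P.coord_T]
      simp only [framedCoord, Fin.addCases_left]
      rfl
    have hm : ∀ j, P.eval n (pCoord S g q j) = tracelessCoord (frameMat q Φ) j := fun j => by
      rw [pCoord, P.coord_T]
      simp only [framedCoord, Fin.addCases_right]
      rfl
    have htrσ : ∀ σ, x₀ ((F.hom n).π (matOf (F.level n).ρ (P.basis n) σ).trace) = ρ.trace σ := by
      intro σ
      rw [← frameValue_trace (F := F) x₀ hx n σ, GaloisRepAdic.trace,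
        LinearMap.trace_eq_matrix_trace _ (P.basis n)]
      rfl
    have hsc : ∀ σ, Y n (frameScalar S.T (matOf (F.level n).ρ (P.basis n) σ)) =
        Ring.inverse 2 * ρ.trace σ := by
      intro σ
      show frameValue x₀ n (MvPowerSeries.C _) = _
      rw [frameValue_C, map_mul, map_mul, htrσ]
      congr 1
      exact map_inverse_two ((x₀.comp (F.hom n).π : (F.level n).R →ₐ[O] O) : _ →+* O) h2R
    have hg1 := map_det_frameMat (Y n) q G
    rw [map_frameMat (Y n) h2R, hdG, map_one, map_one] at hg1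
    have hg2 := map_trace_frameMat (Y n) q G
    rw [map_frameMat (Y n) h2R] at hg2
    have hg3 := map_tame_frameMat (Y n) q htame
    rw [map_frameMat (Y n) h2R, map_frameMat (Y n) h2R] at hg3
    have hf := sq_sub_quad_frameMat (Y n) h2R q hdΦ
    simp only [← hn, ← hm] at hg1 hg2 hg3 hf
    rw [hsc] at hg1 hg2 hg3 hf
    rw [hsc] at hg3
    rw [frameValue_C, htrσ] at hg2
    rw [trace_gen_eq_two hρ] at hg1 hg2 hg3
    obtain ⟨hQ, he⟩ := LocQ.unipotent_relations h2O hg1 hg2 hg3
    exact ⟨hQ, he, hf⟩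
  have hC : ∀ n, Y n (P.eval n (MvPowerSeries.C h)) = h := fun n => frameValue_eval_C P x₀ n h
  refine ⟨?_, fun i => ?_, ?_⟩
  · rw [← map_qForm]
    refine P.pointHom_eq_zero x₀ fun n => ?_
    rw [← RingHom.comp_apply, map_qForm]
    exact (hlev n).1
  · have h0 := P.pointHom_eq_zero x₀ (c := LocQ.stEntry ((q : ℕ) : CoordRing S g)
      (MvPowerSeries.C h) (pCoord S g q 0) (pCoord S g q 1) (pCoord S g q 2)
      (nCoord S g q 0) (nCoord S g q 1) (nCoord S g q 2) i) fun n => by
        rw [← RingHom.comp_apply, map_stEntry, map_natCast, RingHom.comp_apply, hC]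
        exact (hlev n).2.1 i
    rw [map_stEntry, map_natCast, P.pointHom_C] at h0
    exact h0
  · have h0 := P.pointHom_eq_zero x₀ (c := (MvPowerSeries.C h : CoordRing S g) ^ 2 -
      qForm (pCoord S g q) - ((q : ℕ) : CoordRing S g)) fun n => by
        rw [← RingHom.comp_apply, map_sub, map_sub, map_pow, map_qForm, map_natCast,
          RingHom.comp_apply, hC]
        exact (hlev n).2.2
    rw [map_sub, map_sub, map_pow, map_qForm, map_natCast, P.pointHom_C] at h0
    exact h0

include hx in
omit [IsNoetherianRing L₀.R] [IsAdicComplete (maximalIdeal L₀.R) L₀.R]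
  [Finite (ResidueField L₀.R)] in
/-- The trace of Frobenius at a prime of `T` reduces to twice the sign. -/
theorem trace_frob_sub_mem (hpO : (p : O) ∈ maximalIdeal O) (hres : OddResidual p ρbar)
    (q : S.T) : ρ.trace (tp.atT q).frob - 2 * frobSign tp q ∈ maximalIdeal O := by
  have hsurj : Function.Surjective x₀ := fun c => ⟨algebraMap O _ c, x₀.commutes c⟩
  have : IsLocalHom (x₀ : L₀.R →+* O) := IsLocalHom.of_surjective _ hsurj
  have h := matOf_sub_smul_mem L₀.residue_surjective L₀.isLiftOf
    (Module.finBasisOfFinrankEq L₀.R L₀.ρ.V L₀.ρ.finrank_eq)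
    (residualMat_frob_eq Fact.out hpO hres.det tp q)
  have hm := map_nonunit (x₀ : L₀.R →+* O) _ (add_mem (h 0 0) (h 1 1))
  rw [← hx, GaloisRepAdic.trace, LinearMap.trace_eq_matrix_trace _
    (Module.finBasisOfFinrankEq L₀.R L₀.ρ.V L₀.ρ.finrank_eq), Matrix.trace_fin_two]
  simp only [Matrix.sub_apply, Matrix.smul_apply, Matrix.one_apply_eq, smul_eq_mul, mul_one,
    matOf_apply, RingHom.coe_coe, map_add, map_sub, AlgHom.commutes, Algebra.algebraMap_self,
    RingHom.id_apply] at hm ⊢
  convert hm using 1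
  ring

include hρ hx in
/-- **Unramified or Steinberg at the point.** -/
theorem OddPatch.pointHom_steinberg (hp2 : p ≠ 2) (hpO : (p : O) ∈ maximalIdeal O)
    (hres : OddResidual p ρbar) (q : S.T)
    (hne : ∃ j, P.pointHom x₀ (nCoord S g q j) ≠ 0) :
    branchIdeal₁ tp (some (Sum.inl q)) false ≤ RingHom.ker (P.pointHom x₀) := by
  obtain ⟨hQ, he, hd⟩ := P.pointHom_relations_T x₀ hρ hx hp2 hpO hres q
  have hqp : (q : ℕ).Prime := S.prime_of_mem q (by simp)
  have hgen := stLiftGen_eq_zero_of_relations (LocP.isUnit_two hp2 hpO) hqp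
    (natCast_sub_one_mem hpO hqp (S.one_mod_T q q.2)) (frobSign_sq tp q)
    (trace_frob_sub_mem x₀ hx hpO hres q) (n := fun j => P.pointHom x₀ (nCoord S g q j))
    (m := fun j => P.pointHom x₀ (pCoord S g q j)) hQ he hd hne
  refine Ideal.span_le.mpr ?_
  rintro _ ⟨i, rfl⟩
  rw [SetLike.mem_coe, RingHom.mem_ker, map_stLiftGen_apply, P.pointHom_C]
  exact hgen i

end Target

end FermatLib.MLT.Odd

end
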