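import Fermat.Agent.MLT.Odd.PatchFlips
import Fermat.Agent.MLT.PatchRange
import Fermat.Agent.MLT.SupportRaise
import Fermat.Agent.MLT.LocQUniversal

/-!
# Old parts on the patched modules: raising at `F`, the start at `p`

The old modules at `r` give a split injection into the patched `std` module. At a prime of `F` its
cokernel is killed by `z_r` and the determinant of the degeneracy matrix is a multiple of `z_r`,
so one raises from a component with the old branch to one with the new one. At `p` in the mixed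
case the cokernel is non-zero and killed by the strictly ordinary coordinate.
-/

set_option autoImplicit false

noncomputable section

namespace FermatLib.MLT.Odd

open IsLocalRing

variable {O : Type} [CommRing O] [IsDomain O] [IsDiscreteValuationRing O]
  [IsAdicComplete (maximalIdeal O) O] [Finite (ResidueField O)] [CharZero O]
  {p : ℕ} [Fact p.Prime] {ρbar : ResidualGaloisRep (ResidueField O)}
  {S : OddPrimes p ρbar} {d : OddVariant → ℕ} {tp : S.TamePairs} {ζ : ℕ → O}
  {L₀ : OddLevel S ∅ 0 1 d tp ζ} {r g : ℕ} {F : OddFamily L₀ r g}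

namespace OddPatch

variable (P : OddPatch F)

omit [CharZero O] [Fact p.Prime] in
/-- A submodule containing all `incl m` is everything. -/
theorem eq_top_of_incl_mem (v : OddVariant) (n : ℕ)
    {N : Submodule (CoordRing S g) ((P.sys v).level n).N} (h : ∀ m, P.incl v n m ∈ N) : N = ⊤ :=
  eq_top_iff.mpr ((P.incl_span v n).ge.trans (Submodule.span_le.mpr (Set.range_subset_iff.mpr h)))

/-- The old part at `q`, as morphisms of systems. -/
def oldUp (q : ℕ) (a : Fin (S.kap q)) : PatchHom (P.sys (.old q)) (P.sys .std) :=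
  P.lift (.old q) .std fun n => (F.level n).up q ∘ₗ LinearMap.single (F.level n).R (fun _ => (F.level n).M (.old q)) a

/-- The maps back at `q`. -/
def oldDown (q : ℕ) (a : Fin (S.kap q)) : PatchHom (P.sys .std) (P.sys (.old q)) :=
  P.lift .std (.old q) fun n => LinearMap.proj a ∘ₗ (F.level n).down q

omit [CharZero O] [Fact p.Prime] in
theorem oldUp_incl (q : ℕ) (a : Fin (S.kap q)) (n : ℕ) (m : (F.level n).M (.old q)) :
    (P.oldUp q a).toFun n (P.incl (.old q) n m) =
      P.incl .std n ((F.level n).up q (Pi.single a m)) :=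
  P.lift_incl _ _ _ n m

omit [CharZero O] [Fact p.Prime] in
theorem oldDown_incl (q : ℕ) (a : Fin (S.kap q)) (n : ℕ) (m : (F.level n).M .std) :
    (P.oldDown q a).toFun n (P.incl .std n m) = P.incl (.old q) n ((F.level n).down q m a) :=
  P.lift_incl _ _ _ n m

omit [CharZero O] [Fact p.Prime] in
theorem sum_oldUp_incl (q : ℕ) (n : ℕ) (m : Fin (S.kap q) → (F.level n).M (.old q)) :
    ∑ a, (P.oldUp q a).toFun n (P.incl (.old q) n (m a)) =
      P.incl .std n ((F.level n).up q m) := by
  simp only [P.oldUp_incl]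
  rw [← map_sum, ← map_sum, Finset.univ_sum_single]

omit [Fact p.Prime] in
/-- The maximal ideal of `S` absorbs the frame variables: modulo it every element comes from the
level module. -/
theorem exists_sub_incl_mem (v : OddVariant) (n : ℕ) (x : ((P.sys v).level n).N) :
    ∃ m, x - P.incl v n m ∈
      ((maximalIdeal (DiamondFrameRing O r S.T)).map ((P.sys v).level n).φ) •
        (⊤ : Submodule (CoordRing S g) ((P.sys v).level n).N) := by
  set I := ((maximalIdeal (DiamondFrameRing O r S.T)).map ((P.sys v).level n).φ) •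
    (⊤ : Submodule (CoordRing S g) ((P.sys v).level n).N)
  have hc : ∀ (c : CoordRing S g) m, c • P.incl v n m -
      P.incl v n (MvPowerSeries.constantCoeff (P.eval n c) • m) ∈ I := by
    intro c m
    obtain ⟨c₀, hc₀⟩ := P.eval_surjective n (MvPowerSeries.C (MvPowerSeries.constantCoeff
      (P.eval n c)))
    rw [← P.incl_smul v n c₀ _ m hc₀, ← sub_smul]
    have hmem : P.eval n (c - c₀) ∈ Ideal.span (Set.range
        (MvPowerSeries.X : FrameVar S.T → MvPowerSeries (FrameVar S.T) (F.level n).R)) := by
      refine LocQ.mem_span_X_of_constantCoeff ?_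
      rw [map_sub, map_sub, hc₀, MvPowerSeries.constantCoeff_C, sub_self]
    rw [Ideal.mem_span_range_iff_exists_fun] at hmem
    obtain ⟨h, hh⟩ := hmem
    choose h' hh' using fun i => P.eval_surjective n (h i)
    set e := ∑ i, h' i * ((P.sys v).level n).φ (dfX O (Sum.inr i))
    have hker : P.eval n (c - c₀ - e) = 0 := by
      rw [map_sub, map_sum, ← hh, sub_eq_zero]
      refine Finset.sum_congr rfl fun i _ => ?_
      rw [map_mul, hh', P.φ_frame]
    have h0 : (c - c₀ - e) • P.incl v n m = 0 :=
      P.smul_eq_zero v n _ _ (by rw [hker]; exact zero_mem _)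
    rw [sub_smul, sub_eq_zero] at h0
    rw [h0]
    refine Submodule.smul_mem_smul (Ideal.sum_mem _ fun i _ => Ideal.mul_mem_left _ _
      (Ideal.mem_map_of_mem _ ?_)) trivial
    simp [dfX, MvPowerSeries.isUnit_iff_constantCoeff]
  have hx : x ∈ Submodule.span (CoordRing S g) (Set.range (P.incl v n)) := by
    rw [P.incl_span]
    trivial
  induction hx using Submodule.span_induction with
  | mem y hy =>
    obtain ⟨m, rfl⟩ := hy
    exact ⟨m, by simp⟩
  | zero => exact ⟨0, by simp⟩
  | add y z _ _ hy hz =>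
    obtain ⟨m, hm⟩ := hy
    obtain ⟨m', hm'⟩ := hz
    exact ⟨m + m', by rw [map_add, add_sub_add_comm]; exact add_mem hm hm'⟩
  | smul c y _ hy =>
    obtain ⟨m, hm⟩ := hy
    refine ⟨MvPowerSeries.constantCoeff (P.eval n c) • m, ?_⟩
    have e : c • y - P.incl v n (MvPowerSeries.constantCoeff (P.eval n c) • m) =
        c • (y - P.incl v n m) + (c • P.incl v n m -
          P.incl v n (MvPowerSeries.constantCoeff (P.eval n c) • m)) := by
      rw [smul_sub]
      abel
    rw [e]
    exact add_mem (Submodule.smul_mem _ c hm) (hc c m)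

omit [Fact p.Prime] in
/-- The old part is injective modulo the maximal ideal of `S` at every level. -/
theorem oldUp_injective_mod {q : ℕ} (hq : S.HasOld q) (n : ℕ)
    (v : Fin (S.kap q) → ((P.sys (.old q)).level n).N)
    (hv : (∑ a, (P.oldUp q a).toFun n (v a)) ∈
      ((maximalIdeal (DiamondFrameRing O r S.T)).map ((P.sys .std).level n).φ) • (⊤ : Submodule (CoordRing S g) _))
    (a : Fin (S.kap q)) :
    v a ∈ ((maximalIdeal (DiamondFrameRing O r S.T)).map ((P.sys (.old q)).level n).φ) •
      (⊤ : Submodule (CoordRing S g) _) := by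
  choose m hm using fun a => P.exists_sub_incl_mem (.old q) n (v a)
  set I := ((maximalIdeal (DiamondFrameRing O r S.T)).map ((P.sys .std).level n).φ) •
    (⊤ : Submodule (CoordRing S g) ((P.sys .std).level n).N)
  have hdiff : ∀ a, (P.oldUp q a).toFun n (v a - P.incl (.old q) n (m a)) ∈ I := fun a => by
    have hle : ((maximalIdeal (DiamondFrameRing O r S.T)).map ((P.sys (.old q)).level n).φ) •
        (⊤ : Submodule (CoordRing S g) _) ≤ I.comap ((P.oldUp q a).toFun n) := by
      rw [Submodule.smul_le]
      intro c hc x _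
      rw [Submodule.mem_comap, map_smul]
      refine Submodule.smul_mem_smul ?_ trivial
      rwa [P.φ_eq, ← P.φ_eq (.old q)]
    exact hle (hm a)
  have hup : P.incl .std n ((F.level n).up q m) ∈ I := by
    rw [← P.sum_oldUp_incl q n m]
    have h := sub_mem hv (Submodule.sum_mem I fun a (_ : a ∈ Finset.univ) => hdiff a)
    simp only [map_sub, Finset.sum_sub_distrib, sub_sub_cancel] at h
    exact h
  have h := (F.level n).up_injective_mod q hq m ((P.incl_mem_iff .std n _).mp hup) a
  have := add_mem (hm a) ((P.incl_mem_iff (.old q) n _).mpr h)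
  rwa [sub_add_cancel] at this

omit [CharZero O] [Fact p.Prime] in
/-- A coordinate sending the level modules into the old part sends the patched module there. -/
theorem smul_mem_range_oldUp (q : ℕ) {c : CoordRing S g}
    (h : ∀ n, ∃ a, P.eval n c = MvPowerSeries.C a ∧
      ∀ m : (F.level n).M .std, a • m ∈ LinearMap.range ((F.level n).up q))
    (x : (P.sys .std).Patched) : c • x ∈ LinearMap.range (patchUp (P.oldUp q)) := by
  classical
  refine smul_mem_range_patchUp (P.oldUp q) c (fun n y => ?_) x
  obtain ⟨a, ha, ham⟩ := h n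
  let U : (Fin (S.kap q) → ((P.sys (.old q)).level n).N) →ₗ[CoordRing S g]
      ((P.sys .std).level n).N := ∑ b, ((P.oldUp q b).toFun n).comp (LinearMap.proj b)
  have hU : ∀ w, U w = ∑ b, (P.oldUp q b).toFun n (w b) := fun w => by
    simp [U, LinearMap.sum_apply]
  have htop : (LinearMap.range U).comap (c • LinearMap.id) = ⊤ := by
    refine P.eq_top_of_incl_mem .std n fun m => ?_
    obtain ⟨w, hw⟩ := ham m
    refine ⟨fun b => P.incl (.old q) n (w b), ?_⟩
    rw [hU, P.sum_oldUp_incl, hw, LinearMap.smul_apply, LinearMap.id_apply, P.incl_smul _ n c a m ha]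
  obtain ⟨w, hw⟩ : y ∈ (LinearMap.range U).comap (c • LinearMap.id) := by
    rw [htop]
    trivial
  exact ⟨w, by rw [← hU, hw]; rfl⟩

omit [CharZero O] [Fact p.Prime] in
/-- At a prime of `F` the maps back are surjective in the limit. -/
theorem patchDown_oldDown_surjective {q : ℕ} (hq : q ∈ S.F) :
    Function.Surjective (patchDown (P.oldDown q)) := by
  classical
  refine patchDown_surjective (P.oldDown q) fun n y => ?_
  let W : ((P.sys .std).level n).N →ₗ[CoordRing S g]
      (Fin (S.kap q) → ((P.sys (.old q)).level n).N) :=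
    LinearMap.pi fun b => (P.oldDown q b).toFun n
  suffices h : LinearMap.range W = ⊤ by
    obtain ⟨x, hx⟩ := h.ge (trivial : y ∈ ⊤)
    exact ⟨x, fun a => congrFun hx a⟩
  refine eq_top_iff.mpr fun w _ => ?_
  have hs : ∀ b z, Pi.single b z ∈ LinearMap.range W := fun b => by
    have htop : (LinearMap.range W).comap (LinearMap.single (CoordRing S g) _ b) = ⊤ := by
      refine P.eq_top_of_incl_mem (.old q) n fun m => ?_
      obtain ⟨x, hx⟩ := (F.level n).down_surjective q hq (Pi.single b m)
      refine ⟨P.incl .std n x, funext fun a => ?_⟩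
      rw [LinearMap.pi_apply, P.oldDown_incl, hx]
      rcases eq_or_ne a b with rfl | hab <;> simp [*]
    exact fun z => htop.ge (trivial : z ∈ ⊤)
  rw [← Finset.univ_sum_single w]
  exact Submodule.sum_mem _ fun b _ => hs b _

omit [CharZero O] [Fact p.Prime] in
/-- The degeneracy matrix in the limit: `down ∘ up` acts by it, and its determinant is a multiple
of `z` up to the annihilator. -/
theorem exists_oldMatrix {q : S.F} (z : CoordRing S g)
    (hz : z = coordX (Sum.inl (Sum.inr (q, 0)))) :
    ∃ G : Matrix (Fin (S.kap q.1)) (Fin (S.kap q.1)) (CoordRing S g),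
      (∀ v a, patchDown (P.oldDown q.1) (patchUp (P.oldUp q.1) v) a = ∑ b, G a b • v b) ∧
      G.det ∈ Ideal.span {z} ⊔ (P.sys (.old q.1)).annih := by
  classical
  choose c hc using fun n a b =>
    P.eval_surjective n (MvPowerSeries.C ((F.level n).G q.1 a b))
  choose h hh using fun n => (F.level n).det_G q
  choose h' hh' using fun n => P.eval_surjective n (MvPowerSeries.C (h n))
  refine ⟨Matrix.of fun a b => ulim fun n => c n a b, fun v a => ?_, ?_⟩
  · have key : ∀ b, (P.oldDown q.1 a).lim ((P.oldUp q.1 b).lim (v b)) =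
        (ulim fun n => c n a b) • v b := fun b => by
      rw [PatchHom.lim_comp_apply]
      refine PatchHom.lim_eq_smul_of_isULim _ (isULim_ulim fun n => c n a b) (fun n x => ?_) _
      refine LinearMap.congr_fun (g := c n a b • LinearMap.id)
        (LinearMap.ext_on (P.incl_span (.old q.1) n) ?_) x
      rintro _ ⟨m, rfl⟩
      show (P.oldDown q.1 a).toFun n ((P.oldUp q.1 b).toFun n (P.incl _ n m)) = c n a b • P.incl _ n m
      rw [P.oldUp_incl, P.oldDown_incl, (F.level n).down_up q.1 q.2, P.incl_smul _ n _ _ m (hc n a b)]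
      rw [Finset.sum_eq_single b (fun b' _ hb' => by simp [hb']) (by simp), Pi.single_eq_same]
    rw [patchUp_apply, map_sum, Finset.sum_apply]
    exact Finset.sum_congr rfl fun b _ => key b
  · set H := ulim h'
    have he : (Matrix.of fun a b => ulim fun n => c n a b).det - z * H ∈
        (P.sys (.old q.1)).annih := by
      have hdet : IsULim (fun n => (Matrix.of (c n)).det) (Matrix.of fun a b => ulim fun n => c n a b).det := by
        simp only [Matrix.det_apply', Matrix.of_apply]
        exact IsULim.sum _ fun σ _ => (IsULim.const _).mul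
          (IsULim.prod _ fun b _ => isULim_ulim fun n => c n (σ b) b)
      have hlim := hdet.sub ((IsULim.const z).mul (isULim_ulim h'))
      refine RingHom.mem_ker.mpr (Matrix.ext fun i j => ?_)
      rw [Matrix.zero_apply, ← Submodule.mem_bot (DiamondFrameRing O r S.T)]
      refine (P.sys (.old q.1)).rho_mem hlim (fun k => Filter.Eventually.of_forall fun n x => ?_) i j
      rw [P.smul_eq_zero (.old q.1) n _ x ?_]
      · exact zero_mem _
      · have e : P.eval n ((Matrix.of (c n)).det - z * h' n) = 0 := by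
          rw [map_sub, map_mul, hh', hz, P.coord_z, ← map_mul, RingHom.map_det, sub_eq_zero, ← hh n,
            RingHom.map_det]
          congr 1
          ext a b
          simp [hc]
        rw [e]
        exact zero_mem _
    have := add_mem ((Ideal.mem_sup_left (Ideal.mul_mem_right H _ (Ideal.mem_span_singleton_self z)) :
      z * H ∈ Ideal.span {z} ⊔ (P.sys (.old q.1)).annih)) (Ideal.mem_sup_right he)
    rwa [add_sub_cancel] at this

section Fibre

variable {ι : Type*} [Fintype ι] {β : Type*} (D : BranchSystem (CoordRing S g) ι β)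
  {ϖ : O} (hϖ0 : ϖ ≠ 0)
  [IsDomain (DiamondFrameRing O r S.T ⧸
    Ideal.span {(MvPowerSeries.C ϖ : DiamondFrameRing O r S.T)})]
  (hdimS : ringKrullDim (DiamondFrameRing O r S.T ⧸
    Ideal.span {(MvPowerSeries.C ϖ : DiamondFrameRing O r S.T)}) = D.dim)
  (hbr : ∀ Q ∈ associatedPrimes (CoordRing S g) ((P.sys .std).Fibre (MvPowerSeries.C ϖ)),
    ∀ j, ∃ b, D.br j b ≤ Q)

include hdimS hbr in
/-- **Raising at a prime of `F`.** -/
theorem exists_raise_F (i : ι) {q : S.F} {b₀ b₁ : β} (hδ : D.δ i = 1)
    (hcross : Cuts (D.V i) (D.br i b₀ ⊔ D.br i b₁) 0)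
    (hb₁ : D.br i b₁ = Ideal.span {coordX (Sum.inl (Sum.inr (q, 0)))})
    {Q₀ : Ideal (CoordRing S g)}
    (hQ₀ : Q₀ ∈ associatedPrimes (CoordRing S g) ((P.sys .std).Fibre (MvPowerSeries.C ϖ)))
    {σ : ι → β} (hσ : ∀ j, D.br j (σ j) ≤ Q₀) (hi : σ i = b₀) :
    ∃ Q ∈ associatedPrimes (CoordRing S g) ((P.sys .std).Fibre (MvPowerSeries.C ϖ)),
      D.br i b₁ ≤ Q ∧ ∀ j, j ≠ i → D.br j (σ j) ≤ Q := by
  classical
  set z : CoordRing S g := coordX (Sum.inl (Sum.inr (q, 0))) with hzdef
  have : Nonempty (Fin (S.kap q.1)) := ⟨⟨0, by unfold OddPrimes.kap; split_ifs <;> norm_num⟩⟩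
  obtain ⟨L, hL⟩ := exists_leftInverse_of_levels (P.oldUp q.1)
    fun n v hv a => P.oldUp_injective_mod (Or.inl q.2) n v hv a
  obtain ⟨G, hG, hdet⟩ := P.exists_oldMatrix z hzdef
  obtain ⟨Pr, hPr, hle, hb₁P, J, hJP, m, k, hcut, hmk, hPdim⟩ :=
    D.exists_linear_crossing i hδ hcross (l := z) (coordX_mem_maximalIdeal _)
      (hb₁ ▸ le_trans le_sup_right Ideal.le_radical) (hi ▸ hσ i)
      (((P.sys .std).ringKrullDim_of_mem_associatedPrimes_fibre _ hQ₀).trans hdimS)
  refine exists_assocPrime_raise D
    (fun Q hQ => ((P.sys .std).ringKrullDim_of_mem_associatedPrimes_fibre _ hQ).trans hdimS) hbr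
    (ϖ := MvPowerSeries.C ϖ) ((P.sys .std).fibreMk _) ((P.sys .std).fibreMk_surjective _)
    (fun x => by rw [(P.sys .std).fibreMk_eq_zero_iff, P.phi_C])
    (patchCokerMk (P.oldUp q.1) (MvPowerSeries.C ϖ)) (patchCokerMk_surjective _ _)
    (fun x => by rw [patchCokerMk_eq_zero_iff, P.phi_C])
    (fun Q hQ => (ringKrullDim_of_mem_associatedPrimes_patchCokerFibre _ _ hL hQ).trans hdimS)
    (patchUp (P.oldUp q.1)) (patchDown (P.oldDown q.1)) (P.patchDown_oldDown_surjective q.2) G hG
    (Submodule.mkQ _) (Submodule.mkQ_surjective _) (fun x => Submodule.Quotient.mk_eq_zero _) i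
    ?_ ?_ hQ₀ hσ hi hle hb₁P hJP hcut hmk hPdim
  · rw [hb₁, Ideal.span_singleton_le_iff_mem, Module.mem_annihilator]
    intro y
    obtain ⟨x, rfl⟩ := Submodule.mkQ_surjective _ y
    rw [← map_smul, Submodule.mkQ_apply, Submodule.Quotient.mk_eq_zero]
    exact P.smul_mem_range_oldUp q.1 (fun n => ⟨_, P.coord_z n q, (F.level n).coker_F q⟩) x
  · rw [(P.sys (.old q.1)).annihilator_patched]
    exact (sup_le_sup_right (hb₁ ▸ le_sup_right) _ : Ideal.span {z} ⊔ _ ≤ _) hdet

include hdimS in
/-- **The start at `p`.** In the mixed case some component of the special fibre of `std` lies on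
the strictly ordinary branch. -/
theorem exists_strict_start (hϖm : ϖ ∈ maximalIdeal O) (hmixed : S.pCase = PCase.mixed)
    (hd : S.kap p * d (.old p) < d .std) (i : Fin S.pIdx) :
    ∃ Q ∈ associatedPrimes (CoordRing S g) ((P.sys .std).Fibre (MvPowerSeries.C ϖ)),
      coordX (Sum.inr (Sum.inl (i, 0))) ∈ Q := by
  classical
  obtain ⟨L, hL⟩ := exists_leftInverse_of_levels (P.oldUp p)
    fun n v hv a => P.oldUp_injective_mod (Or.inr ⟨rfl, hmixed⟩) n v hv a
  obtain ⟨Q, hQ⟩ := exists_mem_associatedPrimes_patchCokerFibre (P.oldUp p) (MvPowerSeries.C ϖ)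
    (by simpa [MvPowerSeries.isUnit_iff_constantCoeff] using hϖm) (by simpa using hd)
  have hQ' := hQ.isPrime
  have hann : Module.annihilator (CoordRing S g)
      (patchCokerFibre (P.oldUp p) (MvPowerSeries.C ϖ)) ≤ Q := by
    have h := IsAssociatedPrime.annihilator_le hQ
    rwa [Submodule.annihilator_top] at h
  have hkill : ∀ (c : CoordRing S g),
      (∀ x : (P.sys .std).Patched, c • x ∈ patchCokerDenom (P.oldUp p) (MvPowerSeries.C ϖ)) →
        c ∈ Q := fun c hc => hann (Module.mem_annihilator.mpr fun y => by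
    obtain ⟨x, rfl⟩ := Submodule.mkQ_surjective _ y
    rw [← map_smul, Submodule.mkQ_apply, Submodule.Quotient.mk_eq_zero]
    exact hc x)
  refine ⟨Q, assocPrime_mem_of_annihilator_le
    (fun Q hQ => ((P.sys .std).ringKrullDim_of_mem_associatedPrimes_fibre _ hQ).trans hdimS) hQ
    ((ringKrullDim_of_mem_associatedPrimes_patchCokerFibre _ _ hL hQ).trans hdimS)
    (((P.sys .std).annihilator_fibre_le_iff _).mpr ⟨fun c hc => hkill c fun x => ?_, hkill _ fun x =>
      Submodule.mem_sup_right ⟨x, rfl⟩⟩), hkill _ fun x => Submodule.mem_sup_left ?_⟩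
  · rw [← (P.sys .std).annihilator_patched, Module.mem_annihilator] at hc
    rw [hc]
    exact zero_mem _
  · refine P.smul_mem_range_oldUp p (fun n => ?_) x
    obtain ⟨a, ha, hv⟩ := P.coord_pz n i
    exact ⟨a, ha, (F.level n).coker_p hmixed a hv⟩

end Fibre

end OddPatch

end FermatLib.MLT.Odd
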