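import Fermat.Agent.MLT.Odd.Defs

/-!
# The pattern of the lifts to be proved modular
-/

set_option autoImplicit false

namespace FermatLib.MLT.Odd

open IsLocalRing

local notation "Γℚ" => (AlgebraicClosure ℚ ≃ₐ[ℚ] AlgebraicClosure ℚ)

variable {O : Type} [CommRing O] [IsLocalRing O] {p : ℕ}
  {ρbar : ResidualGaloisRep (ResidueField O)}

/-- The pattern of a lift to be proved modular: Steinberg at `F`, strict in the mixed case, and
at each prime of `T` unramified or Steinberg. -/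
structure IsTargetLift (S : OddPrimes p ρbar) (ρ : GaloisRepAdic O) : Prop where
  lift : IsOddLift S ∅ ρ
  isLiftOf : IsLiftOf ρbar ρ
  strict : S.pCase = PCase.mixed → ρ.IsStrictOrdinaryAt p
  at_F : ∀ q ∈ S.F, ∀ P : ValuationSubring (AlgebraicClosure ℚ), P.LiesOverPrime q →
    ∀ φ : Γℚ, P.IsFrobeniusAt φ q → ρ.trace φ = (S.ε q : O) * ((q : O) + 1)
  at_T : ∀ q ∈ S.T, ρ.IsUnramifiedAt q ∨
    (ρ.IsUnipotentOnInertiaAt q ∧
      ∀ P : ValuationSubring (AlgebraicClosure ℚ), P.LiesOverPrime q →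
        ∀ φ : Γℚ, P.IsFrobeniusAt φ q → ρ.trace φ ^ 2 = ((q : O) + 1) ^ 2)

end FermatLib.MLT.Odd
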