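import Fermat.Agent.MLT.Odd.PointBasic
import Fermat.Agent.MLT.Ordinary.Tate
import Fermat.Agent.EC.FlatGood

/-!
# The point of a semistable curve at `p`: flat, ordinary, strictly ordinary

With the global properties this gives the deformation conditions of the lifting theorem at an odd
prime `p`: minimal flat if `p ∤ Δ`, minimal strictly ordinary if `p ∣ Δ`, for every finite set of
primes containing `p` and the bad primes.
-/

set_option autoImplicit false

noncomputable section

namespace FermatLib.MLT.Odd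

open IsLocalRing

local notation "Qbar" => AlgebraicClosure ℚ

variable {p : ℕ} [Fact p.Prime] (W : WeierstrassCurve ℤ) (hΔ : W.Δ ≠ 0)
  {O : Type} [CommRing O] [IsLocalRing O] (φ : ℤ_[p] →+* O) (hp : (p : O) ∈ maximalIdeal O)

theorem pointRep_isFlatAt [Finite (ResidueField O)] (hgood : ¬ (p : ℤ) ∣ W.Δ) :
    (pointRep W hΔ φ hp).IsFlatAt p := by
  haveI := isElliptic_map_rat hΔ
  have hφ := Tate.isLocalHom_padicInt hp φ
  refine Galois.FlatModel.isFlatAt_of_forall_quotient _ fun I hI hne hloc hq => ?_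
  have hc : IsLocalHom ((Ideal.Quotient.mk I).comp φ) :=
    haveI := hq; haveI := hφ; RingHom.isLocalHom_comp _ _
  obtain ⟨e⟩ := baseChangeAlong_comp_equiv φ hφ (Ideal.Quotient.mk I) hq hc
    (Tate.curveTate (W.map (Int.castRingHom ℚ)) p)
  exact Galois.FlatModel.isFlatAt_of_isEquiv ⟨e.symm⟩
    (Galois.FlatModel.isFlatAt_baseChange _ hc (EC.Flat.isFlatAt_curveTate_intCurve hgood))

theorem pointRep_isStrictOrdinaryAt (hp2 : p ≠ 2) (hW : W.IsSemistableModel)
    (hbad : (p : ℤ) ∣ W.Δ) : (pointRep W hΔ φ hp).IsStrictOrdinaryAt p := by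
  haveI := isElliptic_map_rat hΔ
  exact isStrictOrdinaryAt_baseChangeAlong _ _
    (isStrictOrdinaryAt_curveTate W p hp2 hbad (hW p Fact.out hbad))

end FermatLib.MLT.Odd
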