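import Fermat.Agent.MLT.Odd.PointBasic
import Fermat.Agent.MLT.Odd.PointLocalP
import Fermat.Agent.MLT.Odd.TateSteinberg

/-!
# The point `x` and its residual data for lifting at 3 and 5

* `PointBasic`: `pointRep`, residual representation, global properties.
* `PointLocalP`: conditions at `p`.
* `PointAway`: branch data at `q ≠ p`.
-/
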