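import Fermat.Agent.MLT.Tate.Props
import Fermat.Agent.MLT.ResidualSemistable

/-!
# The point of a semistable curve on the deformation spaces: definition and global properties

For an integral model `W`, a ring map `φ : ℤ_[p] → O` into a local ring with residue
characteristic `p`, `pointRep` is `T_p W ⊗ O`; its residual representation is
`curveResidualRepExt W hΔ p ι` for the (unique) `ι : ZMod p → O/𝔪`.
-/

set_option autoImplicit false
set_option linter.style.haveILetI false

noncomputable section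

namespace FermatLib.MLT.Odd

open Polynomial IsLocalRing
open scoped TensorProduct

local notation "Qbar" => AlgebraicClosure ℚ
local notation "Γℚ" => (AlgebraicClosure ℚ ≃ₐ[ℚ] AlgebraicClosure ℚ)

theorem exists_equiv_baseChange_comp {R S l V : Type*} [CommRing R] [CommRing S] [CommRing l]
    [AddCommGroup V] [Module R V] [Algebra R S] [Algebra R l] [Algebra S l]
    [IsScalarTower R S l] :
    ∃ e : l ⊗[S] (S ⊗[R] V) ≃ₗ[l] l ⊗[R] V, ∀ (f : Module.End R V) x,
      e ((f.baseChange S).baseChange l x) = f.baseChange l (e x) := by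
  refine ⟨TensorProduct.AlgebraTensorModule.cancelBaseChange R S l l V, fun f x => ?_⟩
  induction x using TensorProduct.induction_on with
  | zero => simp only [map_zero]
  | add x y hx hy => simp only [map_add, hx, hy]
  | tmul c y =>
    induction y using TensorProduct.induction_on with
    | zero => simp only [TensorProduct.tmul_zero, map_zero]
    | add y z hy hz => simp only [TensorProduct.tmul_add, map_add, hy, hz]
    | tmul b v =>
      simp only [LinearMap.baseChange_tmul,
        TensorProduct.AlgebraTensorModule.cancelBaseChange_tmul]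

/-- Two changes of coefficients of an adic representation compose. -/
theorem baseChangeAlong_comp_equiv {A B C : Type} [CommRing A] [IsLocalRing A] [CommRing B]
    [IsLocalRing B] [CommRing C] [IsLocalRing C] (φ : A →+* B) (hφ : IsLocalHom φ) (ψ : B →+* C)
    (hψ : IsLocalHom ψ) (hψφ : IsLocalHom (ψ.comp φ)) (ρ : GaloisRepAdic A) :
    ((ρ.baseChangeAlong φ hφ).baseChangeAlong ψ hψ).IsEquiv
      (ρ.baseChangeAlong (ψ.comp φ) hψφ) := by
  let iAB : Algebra A B := φ.toAlgebra
  let iBC : Algebra B C := ψ.toAlgebra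
  let iAC : Algebra A C := (ψ.comp φ).toAlgebra
  obtain ⟨e, he⟩ := @exists_equiv_baseChange_comp A B C ρ.V _ _ _ _ _ iAB iAC iBC
    (@IsScalarTower.of_algebraMap_eq A B C _ _ _ iAB iBC iAC fun _ => rfl)
  exact ⟨⟨e, fun σ x => he (ρ.ρ σ) x⟩⟩

/-- Two changes of coefficients of a residual representation compose. -/
theorem residual_baseChangeAlong_comp_equiv {k l m : Type} [Field k] [Field l] [Field m]
    (φ : k →+* l) (ψ : l →+* m) (ρ : ResidualGaloisRep k) :
    ((ρ.baseChangeAlong φ).baseChangeAlong ψ).IsEquiv (ρ.baseChangeAlong (ψ.comp φ)) := by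
  let iAB : Algebra k l := φ.toAlgebra
  let iBC : Algebra l m := ψ.toAlgebra
  let iAC : Algebra k m := (ψ.comp φ).toAlgebra
  obtain ⟨e, he⟩ := @exists_equiv_baseChange_comp k l m ρ.V _ _ _ _ _ iAB iAC iBC
    (@IsScalarTower.of_algebraMap_eq k l m _ _ _ iAB iBC iAC fun _ => rfl)
  exact ⟨⟨e, fun σ x => he (ρ.ρ σ) x⟩⟩

variable {p : ℕ} [Fact p.Prime] (W : WeierstrassCurve ℤ) (hΔ : W.Δ ≠ 0)

/-- The extended residual representation only depends on the coefficient map. -/
theorem curveResidualRepExt_baseChangeAlong {k l : Type} [Field k] [Field l] (ι : ZMod p →+* k)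
    (ψ : k →+* l) (ι' : ZMod p →+* l) :
    ((curveResidualRepExt W hΔ p ι).baseChangeAlong ψ).IsEquiv
      (curveResidualRepExt W hΔ p ι') := by
  obtain rfl : ι' = ψ.comp ι := RingHom.ext_zmod _ _
  exact residual_baseChangeAlong_comp_equiv ι ψ _

variable {O : Type} [CommRing O] [IsLocalRing O] (φ : ℤ_[p] →+* O)
  (hp : (p : O) ∈ maximalIdeal O)

/-- The point `x = T_p W ⊗ O`. -/
def pointRep : GaloisRepAdic O :=
  haveI := isElliptic_map_rat hΔ
  (Tate.curveTate (W.map (Int.castRingHom ℚ)) p).baseChangeAlong φ (Tate.isLocalHom_padicInt hp φ)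

/-- The residual representation of the point. -/
theorem pointRep_residual_equiv (ι : ZMod p →+* ResidueField O) :
    (pointRep W hΔ φ hp).residual.IsEquiv (curveResidualRepExt W hΔ p ι) := by
  haveI := isElliptic_map_rat hΔ
  have hφ := Tate.isLocalHom_padicInt hp φ
  haveI := hφ
  obtain ⟨e₁⟩ := Tate.residual_baseChangeAlong_equiv hφ
    (ρ := Tate.curveTate (W.map (Int.castRingHom ℚ)) p)
  obtain ⟨e₂⟩ := Tate.residual_curveTate_equiv (W.map (Int.castRingHom ℚ)) p
    (natCard_torsion_map_rat W hΔ p) (galoisFactors_torsion_map_rat W hΔ p)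
  have key : ResidueField.map φ = ι.comp (PadicInt.residueField (p := p)).toRingHom := by
    refine RingHom.ext fun z => ?_
    have h : (ResidueField.map φ).comp (PadicInt.residueField (p := p)).symm.toRingHom = ι :=
      RingHom.ext_zmod _ _
    rw [← h]
    simp
  rw [key] at e₁
  obtain ⟨e₃⟩ := residual_baseChangeAlong_comp_equiv (PadicInt.residueField (p := p)).toRingHom ι
    (Tate.curveTate (W.map (Int.castRingHom ℚ)) p).residual
  exact ⟨e₁.trans (e₃.symm.trans (e₂.baseChangeAlong ι))⟩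

theorem pointRep_detIsCyclotomic : (pointRep W hΔ φ hp).DetIsCyclotomic p := by
  haveI := isElliptic_map_rat hΔ
  exact Tate.detIsCyclotomic_baseChangeAlong _ (Tate.detIsCyclotomic_curveTate _ p)

theorem pointRep_isUnramifiedAt {q : ℕ} (hq : q.Prime) (hqp : q ≠ p) (hgood : ¬ (q : ℤ) ∣ W.Δ) :
    (pointRep W hΔ φ hp).IsUnramifiedAt q := by
  haveI := isElliptic_map_rat hΔ
  exact Tate.isUnramifiedAt_baseChangeAlong _ (Tate.isUnramifiedAt_curveTate W p hq hqp hgood)

theorem pointRep_isUnipotentOnInertiaAt (hW : W.IsSemistableModel) {q : ℕ} (hq : q.Prime)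
    (hqp : q ≠ p) : (pointRep W hΔ φ hp).IsUnipotentOnInertiaAt q := by
  haveI := isElliptic_map_rat hΔ
  by_cases hd : (q : ℤ) ∣ W.Δ
  · exact Tate.isUnipotentOnInertiaAt_baseChangeAlong _
      (Tate.isUnipotentOnInertiaAt_curveTate W p hq hqp hd (hW q hq hd))
  · intro A hA σ hσ
    rw [pointRep_isUnramifiedAt W hΔ φ hp hq hqp hd A hA σ hσ,
      ← LinearMap.charpoly_toMatrix _ (FermatLib.Galois.adicBasis (pointRep W hΔ φ hp)),
      show (1 : Module.End O (pointRep W hΔ φ hp).V) = LinearMap.id from rfl,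
      LinearMap.toMatrix_id, Matrix.charpoly_one]
    simp

theorem pointRep_charpoly_frobenius {ℓ : ℕ} (hℓ : ℓ.Prime) (hℓp : ℓ ≠ p)
    (hgood : W.IsGoodPrimeFor ℓ) {A : ValuationSubring Qbar} (hA : A.LiesOverPrime ℓ) {σ : Γℚ}
    (hσ : A.IsFrobeniusAt σ ℓ) :
    LinearMap.charpoly ((pointRep W hΔ φ hp).ρ σ) =
      X ^ 2 - C ((W.apOfModel ℓ : ℤ) : O) * X + C (ℓ : O) := by
  haveI := isElliptic_map_rat hΔ
  exact Tate.charpoly_baseChangeAlong_of_eq _
    (Tate.charpoly_curveTate_frobenius W p hℓ hℓp hgood hA hσ)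

theorem pointRep_trace_frobenius {ℓ : ℕ} (hℓ : ℓ.Prime) (hℓp : ℓ ≠ p)
    (hgood : W.IsGoodPrimeFor ℓ) {A : ValuationSubring Qbar} (hA : A.LiesOverPrime ℓ) {σ : Γℚ}
    (hσ : A.IsFrobeniusAt σ ℓ) :
    (pointRep W hΔ φ hp).trace σ = ((W.apOfModel ℓ : ℤ) : O) := by
  have h := pointRep_charpoly_frobenius W hΔ φ hp hℓ hℓp hgood hA hσ
  rw [FermatLib.Galois.adic_charpoly_eq] at h
  simpa using congrArg (fun q => Polynomial.coeff q 1) h

end FermatLib.MLT.Odd
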