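/-
The root congruent to the sign at a prime exactly dividing the level of a point.
-/
import Fermat.Agent.Galois.NewPartInputs
import Fermat.Agent.Galois.NewPartSign
import Fermat.Agent.Galois.OldPartSign
import Fermat.Agent.Galois.AttachmentProved
import Fermat.Agent.MLT.Odd.HeckeRepSystem

/-!
# The eigenvalue of `U q` at a point

For a point of the full Hecke algebra of level `N` with `q ∥ N`, `q ≠ p`, `u = θ (U q)` is a root
of `X² - trace ρ (Frob q) X + q` and `u² ≠ q²`.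
-/

set_option autoImplicit false
set_option linter.style.haveILetI false

noncomputable section

namespace FermatLib.MLT.Odd

open IsLocalRing FermatLib.Galois FermatLib.Galois.DeformLocal FermatLib.MLT.HeckeRep CuspForm
  ModularCurve Polynomial

local notation "Qbar" => AlgebraicClosure ℚ
local notation "Γℚ" => (AlgebraicClosure ℚ ≃ₐ[ℚ] AlgebraicClosure ℚ)

/-- New or old at `q`: `u² ≠ q²` and `u² - trace ρ (Frob q) u + q = 0`. -/
theorem root_trace_of_point {N q : ℕ} [NeZero N] (hq : q.Prime) (hqN : q ∣ N) (hq2 : ¬ q ^ 2 ∣ N)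
    {p : ℕ} [Fact p.Prime] (hqp : q ≠ p) {O : Type} [CommRing O] [IsDomain O]
    [IsDiscreteValuationRing O] [IsAdicComplete (maximalIdeal O) O] [Finite (ResidueField O)]
    [CharZero O] (hpO : (p : O) ∈ maximalIdeal O) (ρ : GaloisRepAdic O)
    (hirr : ρ.residual.IsAbsolutelyIrreducible)
    {S : Finset ℕ} (hpS : p ∈ S) (hS : ∀ r : ℕ, r.Prime → r ∣ N → r ∈ S)
    (θ : heckeAlgebra N 2 (∅ : Set ℕ) →+* O)
    (hchar : ∀ (ℓ : ℕ) (hℓ : ℓ.Prime) (hℓN : ¬ ℓ ∣ N), ℓ ∉ S →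
      ∀ B : ValuationSubring Qbar, B.LiesOverPrime ℓ → ∀ τ : Γℚ, B.IsFrobeniusAt τ ℓ →
        LinearMap.charpoly (ρ.ρ τ) = X ^ 2 -
          C (θ (heckeAlgebra.T hℓ hℓN (Set.notMem_empty ℓ))) * X + C ((ℓ : O)))
    {A : ValuationSubring Qbar} (hA : A.LiesOverPrime q) {σ : Γℚ} (hσ : A.IsFrobeniusAt σ q) :
    θ (heckeAlgebra.U hq hqN (Set.notMem_empty q)) ^ 2 ≠ (q : O) ^ 2 ∧
      θ (heckeAlgebra.U hq hqN (Set.notMem_empty q)) ^ 2 -
        ρ.trace σ * θ (heckeAlgebra.U hq hqN (Set.notMem_empty q)) + (q : O) = 0 := by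
  classical
  haveI : Fact q.Prime := ⟨hq⟩
  haveI : NeZero q := ⟨hq.ne_zero⟩
  obtain ⟨M, rfl⟩ := hqN
  haveI : NeZero M := ⟨fun h => NeZero.ne (q * M) (by rw [h, mul_zero])⟩
  have hqM : ¬ q ∣ M := fun h => hq2 (by rw [pow_two]; exact mul_dvd_mul_left q h)
  by_cases hnew : ∃ t ∈ awayHeckeAlg {r : ℕ | r ∣ q * M},
      formsHeckeEval M t = 0 ∧ θ (formsHeckeEval (q * M) t) ≠ 0
  · obtain ⟨t, ht, htM, htθ⟩ := hnew
    obtain ⟨h1, h2⟩ := trace_eq_of_newPoint Igusa.Mono.sqFrobeniusOnNewPart_holds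
      Igusa.Mono.frobeniusHeckeOnNewPart_holds hqM (Fact.out : p.Prime) hqp
      (specializationInput _ p) hpO ρ hirr hpS hS θ hchar t ht htM htθ hA hσ
    refine ⟨fun h => ?_, ?_⟩
    · rw [pow_two, h1] at h
      have h' : ((1 : ℕ) : O) = ((q ^ 2 : ℕ) : O) := by rw [Nat.cast_one, Nat.cast_pow, ← h]
      exact (Nat.one_lt_pow two_ne_zero hq.one_lt).ne (Nat.cast_injective h')
    · rw [h2, pow_two, mul_comm _ ((q : O) + 1), mul_assoc, h1]
      ring
  · simp only [not_exists, not_and, not_not] at hnew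
    exact root_trace_of_oldPoint padicAttachment hqM hqp hpO ρ hpS hS θ hchar
      (fun t ht => hnew t ht) hA hσ

variable {O : Type} [CommRing O] [IsDomain O] [IsDiscreteValuationRing O] {p : ℕ}
  {ρbar : ResidualGaloisRep (ResidueField O)} {N : ℕ} [NeZero N] {E : Finset ℕ} {O₁ : Type}
  [CommRing O₁] [Algebra O O₁] {χ₀ : heckeAlgebra N 2 (E : Set ℕ) →+* O₁}

/-- The representation of a point is residually absolutely irreducible. -/
theorem PointLift.residual_irreducible (L : PointLift p ρbar χ₀)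
    (habs : ρbar.IsAbsolutelyIrreducible) : L.r.residual.IsAbsolutelyIrreducible :=
  isAbsolutelyIrreducible_of_trace_eq ((isAbsolutelyIrreducible_baseChangeAlong_iff
    (ResidueField.map (algebraMap O L.O')) ρbar).2 habs) fun σ => by
    rw [trace_residual, L.residue_trace]
    letI : Algebra (ResidueField O) (ResidueField L.O') :=
      (ResidueField.map (algebraMap O L.O')).toAlgebra
    exact LinearMap.trace_baseChange (ρbar.ρ σ) (ResidueField L.O')

/-- **The root congruent to the sign at a point**: the hypothesis `hsign` of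
`PointLift.exists_oddSystem`, from an extension `θ` of the point to the full Hecke algebra with
`θ (U q) ≡ ε`. -/
theorem PointLift.exists_sign_root (L : PointLift p ρbar χ₀) [Fact p.Prime]
    (hpO : (p : O) ∈ maximalIdeal O) (habs : ρbar.IsAbsolutelyIrreducible) (hpE : p ∈ E)
    (hNE : ∀ r : ℕ, r.Prime → r ∣ N → r ∈ E)
    (θ : heckeAlgebra N 2 (∅ : Set ℕ) →+* L.O')
    (hθ : ∀ (ℓ : ℕ) (hℓ : ℓ.Prime) (hℓN : ¬ ℓ ∣ N) (hℓE : ℓ ∉ (E : Set ℕ)),
      θ (heckeAlgebra.T hℓ hℓN (Set.notMem_empty ℓ)) = L.ι (χ₀ (heckeAlgebra.T hℓ hℓN hℓE)))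
    {q : ℕ} (hq : q.Prime) (hqN : q ∣ N) (hq2 : ¬ q ^ 2 ∣ N) (hqp : q ≠ p) {e : L.O'}
    (he : θ (heckeAlgebra.U hq hqN (Set.notMem_empty q)) - e ∈ maximalIdeal L.O')
    {P : ValuationSubring Qbar} (hP : P.LiesOverPrime q) {φ : Γℚ} (hφ : P.IsFrobeniusAt φ q) :
    ∃ u : L.O', u ^ 2 ≠ (q : L.O') ^ 2 ∧ u - e ∈ maximalIdeal L.O' ∧
      u ^ 2 - L.r.trace φ * u + (q : L.O') = 0 := by
  have hp' : (p : L.O') ∈ maximalIdeal L.O' := by
    rw [← map_natCast (algebraMap O L.O')]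
    exact (mem_maximalIdeal _).2 (map_mem_nonunits_iff (algebraMap O L.O') _ |>.2 hpO)
  obtain ⟨h1, h2⟩ := root_trace_of_point hq hqN hq2 hqp hp' L.r (L.residual_irreducible habs) hpE
    hNE θ (fun ℓ hℓ hℓN hℓE B hB τ hτ => by
      rw [hθ ℓ hℓ hℓN hℓE]; exact L.charpoly_frob ℓ hℓ hℓN hℓE B hB τ hτ) hP hφ
  exact ⟨_, h1, he, h2⟩

end FermatLib.MLT.Odd
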