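import Fermat.Agent.MLT.Hecke.RaiseCoker
import Fermat.Agent.MLT.Odd.LevelData
import Mathlib.FieldTheory.IsAlgClosed.Basic

/-!
# The fields `coker_F` and `coker_p`

An element of the algebra of a module which vanishes at the systems of the eigen vectors with
`U² = c` maps the module into a stable submodule with torsion-free quotient killed by `U² - c`.
-/

set_option autoImplicit false
set_option linter.style.haveILetI false

noncomputable section

open IsLocalRing
open scoped TensorProduct

namespace FermatLib.MLT.Odd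

local notation "Γℚ" => (AlgebraicClosure ℚ ≃ₐ[ℚ] AlgebraicClosure ℚ)

variable {O : Type} [CommRing O] [IsDomain O] [IsDiscreteValuationRing O] {p : ℕ}
  {ρbar : ResidualGaloisRep (ResidueField O)} {S : OddPrimes p ρbar} {Q : Finset ℕ}
  {ι : Type} {x : ι → OddSystem S Q}

namespace SystemModule

variable (A : SystemModule x)

theorem isReduced_T : IsReduced A.T :=
  isReduced_of_injective (RingHom.pi fun j => (A.ev j).toRingHom)
    ((injective_iff_map_eq_zero _).2 fun a h => A.ev_inj a fun j => congrFun h j)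

theorem isIntegral_T (a : A.T) : IsIntegral O a := by
  haveI : Module.Finite O (∀ j : A.κ, (x (A.sys j)).O') := Module.Finite.pi
  let e : A.T →ₐ[O] (∀ j : A.κ, (x (A.sys j)).O') := AlgHom.pi fun j => A.ev j
  refine (isIntegral_algHom_iff e ?_).1 (Algebra.IsIntegral.isIntegral _)
  exact (injective_iff_map_eq_zero _).2 fun a h => A.ev_inj a fun j => congrFun h j

/-- A point of the algebra with values in an algebraically closed field extends to one of the
systems. -/
theorem exists_sys_of_point {F : Type} [Field F] [IsAlgClosed F] [Algebra O F]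
    [Module.IsTorsionFree O F] (χ : A.T →+* F)
    (hχ : ∀ d : O, χ (algebraMap O A.T d) = algebraMap O F d) :
    ∃ (j : A.κ) (ι' : (x (A.sys j)).O' →+* F), Function.Injective ι' ∧
      (∀ d : O, ι' (algebraMap O _ d) = algebraMap O F d) ∧ ∀ a, χ a = ι' (A.ev j a) := by
  classical
  haveI := Fintype.ofFinite A.κ
  obtain ⟨j, hj⟩ : ∃ j : A.κ, ∀ a, A.ev j a = 0 → χ a = 0 := by
    by_contra hcon
    push Not at hcon
    choose a ha hχa using hcon
    have h0 : ∏ j, a j = 0 := A.ev_inj _ fun j => by
      rw [map_prod]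
      exact Finset.prod_eq_zero (Finset.mem_univ j) (ha j)
    have h1 := congrArg χ h0
    rw [map_zero, map_prod, Finset.prod_eq_zero_iff] at h1
    obtain ⟨j, -, hj⟩ := h1
    exact hχa j hj
  let χ' : A.T →ₐ[O] F := { χ with commutes' := hχ }
  let π := (A.ev j).rangeRestrict
  have hπ : Function.Surjective π := (A.ev j).rangeRestrict_surjective
  let χbar : (A.ev j).range →ₐ[O] F := AlgHom.liftOfSurjective π hπ χ'
    (fun a ha => hj a (congrArg Subtype.val ha))
  have hbar : ∀ a, χbar (π a) = χ a := fun a => AlgHom.liftOfSurjective_apply π hπ χ' _ a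
  have hbarinj : Function.Injective χbar := by
    haveI : Algebra.IsIntegral O (A.ev j).range :=
      ⟨fun b => by obtain ⟨a, rfl⟩ := hπ b; exact (A.isIntegral_T a).map π⟩
    refine (RingHom.injective_iff_ker_eq_bot χbar.toRingHom).2
      (Ideal.eq_bot_of_comap_eq_bot (R := O) (eq_bot_iff.2 fun d hd => ?_))
    rw [Ideal.mem_comap, RingHom.mem_ker] at hd
    rw [Ideal.mem_bot, ← map_eq_zero_iff _ (FaithfulSMul.algebraMap_injective O F),
      ← χbar.commutes d]
    exact hd
  letI := χbar.toRingHom.toAlgebra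
  haveI : Module.IsTorsionFree (A.ev j).range F :=
    Module.isTorsionFree_iff_algebraMap_injective.2 hbarinj
  haveI : Module.IsTorsionFree (A.ev j).range (x (A.sys j)).O' :=
    Module.isTorsionFree_iff_algebraMap_injective.2 Subtype.val_injective
  haveI : IsScalarTower O (A.ev j).range (x (A.sys j)).O' := .of_algebraMap_eq fun _ => rfl
  haveI : Algebra.IsIntegral (A.ev j).range (x (A.sys j)).O' := Algebra.IsIntegral.tower_top O
  let l : (x (A.sys j)).O' →ₐ[(A.ev j).range] F := IsAlgClosed.lift
  have hl : ∀ b : (A.ev j).range, l (b : (x (A.sys j)).O') = χbar b := fun b => l.commutes b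
  refine ⟨j, l.toRingHom, ?_, fun d => ?_, fun a => ?_⟩
  · refine (RingHom.injective_iff_ker_eq_bot l.toRingHom).2
      (Ideal.eq_bot_of_comap_eq_bot (R := O) (eq_bot_iff.2 fun d hd => ?_))
    rw [Ideal.mem_comap, RingHom.mem_ker] at hd
    rw [Ideal.mem_bot, ← map_eq_zero_iff _ (FaithfulSMul.algebraMap_injective O F),
      ← χbar.commutes d, ← hl]
    exact hd
  · exact (hl (algebraMap O (A.ev j).range d)).trans (χbar.commutes d)
  · exact (hbar a).symm.trans (hl (π a)).symm

/-- **The cokernel lemma** for a module with a reduced algebra. -/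
theorem smul_mem_of_eigen [Module O A.M] [IsScalarTower O A.T A.M] [Module.Finite O A.M]
    [Module.Flat O A.M] (N : Submodule A.T A.M)
    (htf : ∀ (d : O), d ≠ 0 → ∀ m : A.M, d • m ∈ N → m ∈ N) (u : Module.End A.T A.M)
    (hu : ∀ m ∈ N, u m ∈ N) (c : O) (hsq : ∀ m, u (u m) - c • m ∈ N) {z : A.T}
    (h : ∀ (F : Type) [Field F] [IsAlgClosed F] [Algebra O F] (j : A.κ)
      (ι' : (x (A.sys j)).O' →+* F) (α : F) (v : F ⊗[O] A.M),
      Function.Injective ι' → (∀ d : O, ι' (algebraMap O _ d) = algebraMap O F d) → v ≠ 0 →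
      (∀ t : A.T,
        ((LinearMap.lsmul A.T A.M t).restrictScalars O).baseChange F v = ι' (A.ev j t) • v) →
      (u.restrictScalars O).baseChange F v = α • v → α ^ 2 = algebraMap O F c → A.ev j z = 0)
    (m : A.M) : z • m ∈ N := by
  haveI := A.isReduced_T
  refine FermatLib.MLT.smul_mem_of_forall_eigen N htf u hu c hsq (A.isIntegral_T z) ?_ m
  intro F _ _ _ _ χ α v hv hχ ht hua hα
  obtain ⟨j, ι', hι', hιd, hιa⟩ := A.exists_sys_of_point χ hχ
  rw [hιa, h F j ι' α v hι' hιd hv (fun t => by rw [← hιa]; exact ht t) hua hα, map_zero]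

end SystemModule

end FermatLib.MLT.Odd
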