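import Fermat.Agent.MLT.Odd.GlueClass
import Fermat.Agent.MLT.Odd.Inputs
import Fermat.Agent.Modular.LevelChangeSystem
import Fermat.Agent.Modular.IntStruct
import Fermat.Agent.Modular.HeckeFinite
import Fermat.Agent.Galois.PadicPoint
import Fermat.Agent.Galois.EigenformCharacter
import Fermat.Agent.Galois.ResidualAttachedFinal
import Fermat.Agent.Galois.AttachmentProved
import Fermat.Agent.Galois.Chebotarev

/-!
# The eigen-homomorphism of a residual system

A character with values in a finite field `k` of a Hecke algebra away from a finite set, with the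
traces of a residual representation, is carried by a nonzero cuspidal homomorphism `Γ₀(N) → k`
which is an eigenvector of all operators with values in `k`: at the operators kept by the
character, and at the primes prime to `N p` with the trace of Frobenius.
-/

set_option autoImplicit false
set_option linter.style.haveILetI false

noncomputable section

open scoped MatrixGroups
open CongruenceSubgroup IsLocalRing

namespace FermatLib.MLT.Odd

local notation "Qbar" => AlgebraicClosure ℚ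
local notation "Γℚ" => (AlgebraicClosure ℚ ≃ₐ[ℚ] AlgebraicClosure ℚ)
local notation "ZbarC" => integralClosure ℤ ℂ

/-- Two residual representations with the same Frobenius traces outside a finite set have traces
related by the coefficient map everywhere. -/
theorem trace_eq_map_of_frobenius {k K : Type} [Field k] [Field K] (e : k →+* K)
    (ρ : ResidualGaloisRep k) (ρ' : ResidualGaloisRep K) (S : Finset ℕ)
    (h : ∀ ℓ : ℕ, ℓ.Prime → ℓ ∉ S → ∀ A : ValuationSubring Qbar, A.LiesOverPrime ℓ →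
      ∀ σ : Γℚ, A.IsFrobeniusAt σ ℓ →
        LinearMap.trace K ρ'.V (ρ'.ρ σ) = e (LinearMap.trace k ρ.V (ρ.ρ σ))) (g : Γℚ) :
    LinearMap.trace K ρ'.V (ρ'.ρ g) = e (LinearMap.trace k ρ.V (ρ.ρ g)) := by
  obtain ⟨L, hL, hL1⟩ := ρ.factorsThroughFiniteLevel
  obtain ⟨L', hL', hL1'⟩ := ρ'.factorsThroughFiniteLevel
  haveI := hL; haveI := hL'
  haveI : FiniteDimensional ℚ (L ⊔ L' : IntermediateField ℚ Qbar) :=
    IntermediateField.finiteDimensional_sup _ _
  obtain ⟨ℓ, hℓ, hℓS, A, hA, σ, hσ, heq⟩ := Galois.exists_isFrobeniusAt_eqOn (L ⊔ L') g S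
  have hfix : ∀ x ∈ L ⊔ L', (g⁻¹ * σ) x = x := fun x hx => by
    rw [AlgEquiv.mul_apply, heq x hx, ← AlgEquiv.mul_apply, inv_mul_cancel, AlgEquiv.one_apply]
  have h1 : ρ.ρ σ = ρ.ρ g := by
    have h1 := hL1 (g⁻¹ * σ) fun x hx => hfix x (le_sup_left (b := L') hx)
    calc ρ.ρ σ = ρ.ρ g * ρ.ρ (g⁻¹ * σ) := by rw [← map_mul, mul_inv_cancel_left]
      _ = ρ.ρ g := by rw [h1, mul_one]
  have h2 : ρ'.ρ σ = ρ'.ρ g := by
    have h1 := hL1' (g⁻¹ * σ) fun x hx => hfix x (le_sup_right (a := L) hx)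
    calc ρ'.ρ σ = ρ'.ρ g * ρ'.ρ (g⁻¹ * σ) := by rw [← map_mul, mul_inv_cancel_left]
      _ = ρ'.ρ g := by rw [h1, mul_one]
  have := h ℓ hℓ hℓS A hA σ hσ
  rwa [h1, h2] at this

variable {N : ℕ} [NeZero N]

/-- A cuspidal eigen-homomorphism over a discrete valuation ring may be taken primitive. -/
theorem exists_cuspidalHom_eigen_primitive {A : Type} [CommRing A] [IsDomain A]
    [IsDiscreteValuationRing A] [CharZero A]
    (c : ↥(CuspForm.heckeAlgebra N 2 (∅ : Set ℕ)) →+* A) :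
    ∃ ψ : Additive (Gamma0 N) →+ A, Modular.IsCuspidalHom ψ ∧
      (∀ l : Nat.Primes,
        Modular.heckeHomOp N A A l ψ = c (CuspForm.heckeFormsGen N 2 l) • ψ) ∧
      ∃ γ : Gamma0 N, IsUnit (ψ (Additive.ofMul γ)) := by
  obtain ⟨ψ₀, hψ₀, heig⟩ := exists_cuspidalHom_eigen c
  set v := Modular.cuspidalHomsEquiv N A A ψ₀ with hv
  obtain ⟨d, hd⟩ := (IsPrincipalIdealRing.principal (Ideal.span (Set.range v))).principal
  have hvd : ∀ i, ∃ u, v i = d * u := fun i => by
    have h : v i ∈ Ideal.span (Set.range v) := Ideal.subset_span ⟨i, rfl⟩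
    rw [hd, Ideal.mem_span_singleton] at h
    exact h
  choose u hu using hvd
  have hd0 : d ≠ 0 := fun h => hψ₀ ((Modular.cuspidalHomsEquiv N A A).injective (by
    rw [map_zero]
    exact funext fun i => by rw [← hv, hu i, h, zero_mul]; rfl))
  obtain ⟨i, hi⟩ : ∃ i, IsUnit (u i) := by
    by_contra! h
    have hle : Ideal.span (Set.range v) ≤ Ideal.span {d} * maximalIdeal A := by
      rw [Ideal.span_le]
      rintro _ ⟨i, rfl⟩
      rw [hu i]
      exact Ideal.mul_mem_mul (Ideal.mem_span_singleton_self d) (h i)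
    obtain ⟨z, hz, hdz⟩ := Ideal.mem_span_singleton_mul.1
      (hle (hd.ge (Ideal.mem_span_singleton_self d)))
    have : z = 1 := mul_left_cancel₀ hd0 (by rw [hdz, mul_one])
    exact (this ▸ hz : (1 : A) ∈ maximalIdeal A) isUnit_one
  set ψ₁ := (Modular.cuspidalHomsEquiv N A A).symm u with hψ₁
  have hψ : ψ₀ = d • ψ₁ := (Modular.cuspidalHomsEquiv N A A).injective (by
    rw [map_smul, hψ₁, LinearEquiv.apply_symm_apply]
    exact funext fun i => hu i)
  refine ⟨ψ₁.1, ψ₁.2, fun l => ?_, Modular.cuspBasisElt N i, ?_⟩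
  · have h := heig (CuspForm.heckeFormsGen N 2 l)
    rw [Modular.heckeCuspAct_heckeFormsGen, hψ, map_smul, smul_comm] at h
    refine AddMonoidHom.ext fun g => mul_left_cancel₀ hd0 ?_
    exact DFunLike.congr_fun (congrArg Subtype.val h) g
  · rw [← Modular.cuspidalHomsEquiv_apply N A A ψ₁ i, hψ₁, LinearEquiv.apply_symm_apply]
    exact hi

/-- A map compatible with the reduction to a finite field extends to that field. -/
theorem exists_ringHom_comp_eq {T k K : Type*} [CommRing T] [Field k] [Finite k] [Field K]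
    [IsAlgClosed K] (θ : T →+* k) (η : T →+* K) (h : ∀ t, θ t = 0 → η t = 0) :
    ∃ e : k →+* K, ∀ t, e (θ t) = η t := by
  haveI : (RingHom.ker θ).IsPrime := RingHom.ker_isPrime θ
  haveI : Finite (T ⧸ RingHom.ker θ) := Finite.of_injective _ θ.kerLift_injective
  haveI : (RingHom.ker θ).IsMaximal :=
    Ideal.Quotient.maximal_of_isField _ (Finite.isField_of_domain _)
  letI : Field (T ⧸ RingHom.ker θ) := Ideal.Quotient.field _
  letI : Algebra (T ⧸ RingHom.ker θ) k := (RingHom.kerLift θ).toAlgebra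
  letI : Algebra (T ⧸ RingHom.ker θ) K := (Ideal.Quotient.lift _ η h).toAlgebra
  haveI : Algebra.IsAlgebraic (T ⧸ RingHom.ker θ) k := Algebra.IsAlgebraic.of_finite _ _
  let eA : k →ₐ[T ⧸ RingHom.ker θ] K := IsAlgClosed.lift
  exact ⟨eA.toRingHom, fun t => eA.commutes (Ideal.Quotient.mk (RingHom.ker θ) t)⟩

/-- **The eigen-homomorphism of a residual system.** -/
theorem exists_seed_cuspidalHom {p : ℕ} [Fact p.Prime] {k : Type} [Field k] [Finite k] [CharP k p]
    {ρbar : ResidualGaloisRep k} {E : Set ℕ} (hE : E.Finite)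
    (θ : ↥(CuspForm.heckeAlgebra N 2 E) →+* k) (hθ : HasResidualTraces p ρbar θ) :
    ∃ ψ : Additive (Gamma0 N) →+ k, ψ ≠ 0 ∧ Modular.IsCuspidalHom ψ ∧
      ∀ (l : Nat.Primes) (a : k),
        ((¬ (l : ℕ) ∣ N ∧ (l : ℕ) ≠ p ∧ ∃ A : ValuationSubring Qbar, A.LiesOverPrime (l : ℕ) ∧
            ∃ σ : Γℚ, A.IsFrobeniusAt σ (l : ℕ) ∧ LinearMap.trace k ρbar.V (ρbar.ρ σ) = a) ∨
          (∃ (hlN : ¬ (l : ℕ) ∣ N) (hlE : (l : ℕ) ∉ E),
            θ (CuspForm.heckeAlgebra.T l.2 hlN hlE) = a) ∨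
          ∃ (hlN : (l : ℕ) ∣ N) (hlE : (l : ℕ) ∉ E),
            θ (CuspForm.heckeAlgebra.U l.2 hlN hlE) = a) →
        Modular.heckeHomOp N k k l ψ = a • ψ := by
  classical
  have hpp : p.Prime := Fact.out
  haveI := Modular.heckeAlgebra_moduleFinite N 2 E
  haveI := Modular.heckeAlgebra_moduleFinite N 2 (∅ : Set ℕ)
  haveI : (RingHom.ker θ).IsPrime := RingHom.ker_isPrime θ
  haveI : (RingHom.ker θ).IsMaximal := by
    refine Ideal.isMaximal_of_isIntegral_of_isMaximal_comap (R := ℤ) (RingHom.ker θ) ?_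
    have hle : Ideal.span {(p : ℤ)} ≤ (RingHom.ker θ).comap (algebraMap ℤ _) := by
      rw [Ideal.span_singleton_le_iff_mem, Ideal.mem_comap, RingHom.mem_ker, map_natCast,
        map_natCast, CharP.cast_eq_zero]
    have hmax : (Ideal.span {(p : ℤ)}).IsMaximal := PrincipalIdealRing.isMaximal_of_irreducible
      (Nat.prime_iff_prime_int.mp hpp).irreducible
    rw [← hmax.eq_of_le (Ideal.IsPrime.ne_top inferInstance) hle]
    exact hmax
  obtain ⟨f, χ, 𝔪, hf, hmax, hcomap, -, hχT, hχU⟩ :=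
    Modular.exists_normalizedEigenform_lift_maximal_away (Modular.hasIntegralStructure N 2)
      (RingHom.ker θ)
  haveI := hmax
  letI : Field (ZbarC ⧸ 𝔪) := Ideal.Quotient.field 𝔪
  haveI : IsAlgClosed (ZbarC ⧸ 𝔪) := Galois.isAlgClosed_quotient_integralClosure 𝔪
  -- the embedding of the coefficient field
  obtain ⟨e, he⟩ := exists_ringHom_comp_eq θ ((Ideal.Quotient.mk 𝔪).comp χ) fun t ht => by
    rw [RingHom.comp_apply, Ideal.Quotient.eq_zero_iff_mem, ← Ideal.mem_comap, hcomap]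
    exact ht
  simp only [RingHom.comp_apply] at he
  haveI : CharP (ZbarC ⧸ 𝔪) p := charP_of_injective_ringHom e.injective p
  -- the representation of the lift
  obtain ⟨ρ, hatt, -⟩ := Galois.exists_residual_attached_of_padicAttachment Galois.padicAttachment hf
    hpp (Ideal.Quotient.mk 𝔪)
  have hℓ0 : ∀ ℓ : ℕ, ℓ.Prime → ℓ ≠ p → (ℓ : ZbarC ⧸ 𝔪) ≠ 0 := fun ℓ hℓ hℓp h0 => hℓp
    ((Nat.prime_dvd_prime_iff_eq hpp hℓ).1 ((CharP.cast_eq_zero_iff _ p _).1 h0)).symm
  have htr : ∀ g : Γℚ, LinearMap.trace _ ρ.V (ρ.ρ g) = e (LinearMap.trace k ρbar.V (ρbar.ρ g)) := by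
    refine trace_eq_map_of_frobenius e ρbar ρ (hE.toFinset ∪ N.primeFactors ∪ {p})
      fun ℓ hℓ hℓS A hA σ hσ => ?_
    simp only [Finset.mem_union, Finset.mem_singleton, Set.Finite.mem_toFinset, not_or] at hℓS
    have hℓN : ¬ ℓ ∣ N := fun h => hℓS.1.2 (hℓ.mem_primeFactors h (NeZero.ne N))
    obtain ⟨a, ha, hpoly⟩ := hatt ℓ hℓ hℓN (hℓ0 ℓ hℓ hℓS.2) A hA σ hσ
    rw [(Galois.trace_det_of_linearMap_charpoly_eq ρ.finrank_eq _ hpoly).1,
      hθ ℓ hℓ hℓN hℓS.1.1 hℓS.2 A hA σ hσ, he]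
    exact congrArg _ (Subtype.ext (ha.trans (hχT ℓ hℓ hℓN hℓS.1.1).symm))
  obtain ⟨ξ, -, hξT, hξU⟩ := Galois.exists_eigenformCharacter (S := (∅ : Set ℕ)) hf
  obtain ⟨O', _, _, _, _, _, _, -, c, j, hj⟩ :=
    Galois.exists_padicPoint (T := ↥(CuspForm.heckeAlgebra N 2 (∅ : Set ℕ))) ξ hpp
      (Ideal.Quotient.mk 𝔪)
  obtain ⟨ψ₁, hcusp, heig, γ₀, hγ₀⟩ := exists_cuspidalHom_eigen_primitive c
  let R : O' →+* ZbarC ⧸ 𝔪 := j.comp (residue O')
  have hR : R (ψ₁ (Additive.ofMul γ₀)) ≠ 0 := (hγ₀.map R).ne_zero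
  letI : Algebra k (ZbarC ⧸ 𝔪) := e.toAlgebra
  obtain ⟨g, hg⟩ := Module.Projective.exists_dual_ne_zero k hR
  let F : O' →+ k := g.toAddMonoidHom.comp R.toAddMonoidHom
  refine ⟨F.comp ψ₁, fun h0 => hg (DFunLike.congr_fun h0 (Additive.ofMul γ₀)), hcusp.comp F,
    fun l a ha => ?_⟩
  -- the eigenvalue of the lift reduces to `a`
  have hval : R (c (CuspForm.heckeFormsGen N 2 l)) = e a := by
    rw [RingHom.comp_apply, hj]
    rcases ha with ⟨hlN, hlp, A, hA, σ, hσ, rfl⟩ | ⟨hlN, hlE, rfl⟩ | ⟨hlN, hlE, rfl⟩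
    · obtain ⟨a', ha', hpoly⟩ := hatt (l : ℕ) l.2 hlN (hℓ0 l l.2 hlp) A hA σ hσ
      rw [← htr σ, (Galois.trace_det_of_linearMap_charpoly_eq ρ.finrank_eq _ hpoly).1,
        CuspForm.heckeFormsGen_of_not_dvd hlN]
      exact congrArg _ (Subtype.ext ((hξT l l.2 hlN (Set.notMem_empty _)).trans ha'.symm))
    · rw [he, CuspForm.heckeFormsGen_of_not_dvd hlN]
      exact congrArg _ (Subtype.ext
        ((hξT l l.2 hlN (Set.notMem_empty _)).trans (hχT l l.2 hlN hlE).symm))
    · rw [he, CuspForm.heckeFormsGen_of_dvd hlN]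
      exact congrArg _ (Subtype.ext
        ((hξU l l.2 hlN (Set.notMem_empty _)).trans (hχU l l.2 hlN hlE).symm))
  refine AddMonoidHom.ext fun x => ?_
  obtain ⟨γ, rfl⟩ := Additive.ofMul.surjective x
  rw [Modular.heckeHomOp_apply, AddMonoidHom.smul_apply]
  have h1 := DFunLike.congr_fun (heig l) (Additive.ofMul γ)
  rw [Modular.heckeHomOp_apply, AddMonoidHom.smul_apply, smul_eq_mul] at h1
  simp only [AddMonoidHom.comp_apply]
  rw [← map_sum, h1, smul_eq_mul]
  show g (R (_ * _)) = a * g (R _)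
  rw [map_mul, hval, show e a * R (ψ₁ (Additive.ofMul γ)) =
    a • R (ψ₁ (Additive.ofMul γ)) from (Algebra.smul_def a _).symm, map_smul, smul_eq_mul]

end FermatLib.MLT.Odd

end
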