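import Fermat.Agent.MLT.Odd.GeneratorsDefs
import Fermat.Agent.MLT.Odd.HeckeRepNonEisenstein

/-!
# A prime making the elliptic elements harmless

For a residual representation which stays irreducible on the subgroups of index two some
Frobenius at a prime `ℓ ≡ 2 (mod 3)` has nonzero trace: otherwise the elements fixing the cube
roots of unity act by commuting endomorphisms.
-/

set_option autoImplicit false

noncomputable section

open IsLocalRing

namespace FermatLib.MLT.Odd

open FermatLib.Galois Matrix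

local notation "Qbar" => AlgebraicClosure ℚ
local notation "Γℚ" => (AlgebraicClosure ℚ ≃ₐ[ℚ] AlgebraicClosure ℚ)

/-- A traceless invertible `M` with `tr (M g) = 0` on a set closed under products makes that set
commutative. -/
theorem commute_of_trace_mul_eq_zero {R : Type*} [CommRing R]
    {M g h : Matrix (Fin 2) (Fin 2) R} (hM : IsUnit M) (h0 : M.trace = 0)
    (hg : (M * g).trace = 0) (hh : (M * h).trace = 0) (hgh : (M * (g * h)).trace = 0) :
    g * h = h * g := by
  have key : ∀ X : Matrix (Fin 2) (Fin 2) R, (M * X).trace = 0 → M * X = X.adjugate * M := by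
    intro X hX
    simp only [Matrix.trace_fin_two, Matrix.mul_apply, Fin.sum_univ_two] at hX h0
    rw [Matrix.adjugate_fin_two]
    ext i j
    fin_cases i <;> fin_cases j <;> simp [Matrix.mul_apply, Fin.sum_univ_two]
    · linear_combination hX - (X 1 1) * h0
    · linear_combination (X 0 1) * h0
    · linear_combination (X 1 0) * h0
    · linear_combination hX - (X 0 0) * h0
  have h1 : M * (g * h) = M * (h * g) := by
    rw [key _ hgh, Matrix.adjugate_mul_distrib, mul_assoc, ← key g hg, ← mul_assoc, ← key h hh,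
      mul_assoc]
  exact hM.mul_left_cancel h1

/-- Commuting endomorphisms of a plane over an algebraically closed field have a common
eigenline. -/
theorem exists_stable_line_of_commute {K V : Type*} [Field K] [IsAlgClosed K] [AddCommGroup V] [Module K V]
    [FiniteDimensional K V] (hV : Module.finrank K V = 2) {ι : Type*} (T : ι → Module.End K V)
    (hc : ∀ i j, T i * T j = T j * T i) :
    ∃ W : Submodule K V, W ≠ ⊥ ∧ W ≠ ⊤ ∧ ∀ i, ∀ x ∈ W, T i x ∈ W := by
  have : Nontrivial V := Module.nontrivial_of_finrank_eq_succ hV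
  by_cases hs : ∀ i, ∃ c : K, T i = c • 1
  · obtain ⟨v, hv⟩ := exists_ne (0 : V)
    refine ⟨K ∙ v, by simpa using hv, fun h => ?_, fun i x hx => ?_⟩
    · have := finrank_span_singleton (K := K) hv
      rw [h, finrank_top, hV] at this
      omega
    · obtain ⟨c, hc⟩ := hs i
      rw [hc]
      exact Submodule.smul_mem _ c hx
  · push Not at hs
    obtain ⟨i₀, hi₀⟩ := hs
    obtain ⟨μ, hμ⟩ := Module.End.exists_eigenvalue (T i₀)
    refine ⟨(T i₀).eigenspace μ, hμ, fun h => hi₀ μ (LinearMap.ext fun x => ?_), fun i x hx => ?_⟩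
    · exact Module.End.mem_eigenspace_iff.1 (h ▸ Submodule.mem_top : x ∈ (T i₀).eigenspace μ)
    · rw [Module.End.mem_eigenspace_iff] at hx ⊢
      rw [← Module.End.mul_apply, hc, Module.End.mul_apply, hx, map_smul]

variable {O : Type} [CommRing O] [IsLocalRing O] {p : ℕ}
  {ρbar : ResidualGaloisRep (ResidueField O)}

/-- **A prime `ℓ ≡ 2 (mod 3)` with nonzero trace of Frobenius.** -/
theorem exists_prime_mod_three_trace_ne_zero (hres : OddResidual p ρbar) (T : Finset ℕ) :
    ∃ ℓ : ℕ, ℓ.Prime ∧ ℓ ∉ T ∧ ℓ % 3 = 2 ∧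
      ∃ A : ValuationSubring Qbar, A.LiesOverPrime ℓ ∧ ∃ σ : Γℚ, A.IsFrobeniusAt σ ℓ ∧
        LinearMap.trace (ResidueField O) ρbar.V (ρbar.ρ σ) ≠ 0 := by
  set χ := modCycloChar 3 with hχ
  have hneg : (-1 : (ZMod 3)ˣ) ≠ 1 := by decide
  have htwo : ∀ u : (ZMod 3)ˣ, u = 1 ∨ u = -1 := by decide
  -- some element moving the cube roots of unity has nonzero trace
  obtain ⟨g, hg, hne⟩ : ∃ g, χ g = -1 ∧ (residualMat ρbar g).trace ≠ 0 := by
    by_contra! hall
    obtain ⟨σ₀, hσ₀⟩ := modCycloChar_surjective 3 (-1)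
    have hM : IsUnit (residualMat ρbar σ₀) := (Group.isUnit σ₀).map (residualMat ρbar)
    have hcomm : ∀ a b : χ.ker, residualMat ρbar a * residualMat ρbar b =
        residualMat ρbar b * residualMat ρbar a := fun a b => by
      have key : ∀ c : Γℚ, χ c = 1 → (residualMat ρbar σ₀ * residualMat ρbar c).trace = 0 :=
        fun c hc => by rw [← map_mul]; exact hall _ (by rw [map_mul, hσ₀, hc, mul_one])
      refine commute_of_trace_mul_eq_zero hM (hall _ hσ₀) (key _ a.2) (key _ b.2) ?_
      rw [← map_mul (residualMat ρbar) (a : Γℚ)]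
      exact key _ (mul_mem a.2 b.2)
    have hindex : χ.ker.index = 2 := by
      rw [Subgroup.index_ker, MonoidHom.range_eq_top.2 (modCycloChar_surjective 3),
        Subgroup.card_top, Nat.card_eq_fintype_card]
      rfl
    let K := AlgebraicClosure (ResidueField O)
    have hcommV : ∀ a b : χ.ker, (ρbar.baseChange K).ρ a * (ρbar.baseChange K).ρ b =
        (ρbar.baseChange K).ρ b * (ρbar.baseChange K).ρ a := fun a b => by
      have h := hcomm a b
      rw [← map_mul, ← map_mul, residualMat, repMatrix_apply, repMatrix_apply] at h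
      have h' := (LinearMap.toMatrix (residualBasis ρbar) (residualBasis ρbar)).injective h
      rw [← map_mul, ← map_mul]
      exact congrArg (fun f => LinearMap.baseChange K f) h'
    haveI : FiniteDimensional K (ρbar.baseChange K).V :=
      Module.finite_of_finrank_eq_succ (ρbar.baseChange K).finrank_eq
    obtain ⟨W, hW0, hW1, hW⟩ := exists_stable_line_of_commute (ρbar.baseChange K).finrank_eq
      (fun a : χ.ker => (ρbar.baseChange K).ρ a) hcommV
    exact (hres.index_two K χ.ker hindex W fun σ hσ x hx => hW ⟨σ, hσ⟩ x hx).elim hW0 hW1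
  obtain ⟨L, hL, hL1⟩ := ρbar.factorsThroughFiniteLevel
  obtain ⟨F, hF, hF1⟩ := exists_finite_level_modCycloChar 3
  haveI := hL; haveI := hF
  haveI : FiniteDimensional ℚ (L ⊔ F : IntermediateField ℚ Qbar) :=
    IntermediateField.finiteDimensional_sup _ _
  obtain ⟨ℓ, hℓ, hℓT, A, hA, σ, hσ, heq⟩ := exists_isFrobeniusAt_eqOn (L ⊔ F) g (insert 3 T)
  rw [Finset.mem_insert, not_or] at hℓT
  have hfix : ∀ x ∈ L ⊔ F, (g⁻¹ * σ) x = x := fun x hx => by
    rw [AlgEquiv.mul_apply, heq x hx, ← AlgEquiv.mul_apply, inv_mul_cancel, AlgEquiv.one_apply]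
  have hχσ : χ σ = -1 := by
    have h1 := hF1 (g⁻¹ * σ) ((IntermediateField.mem_fixingSubgroup_iff _ _).2 fun x hx =>
      hfix x (le_sup_right (a := L) hx))
    rwa [map_mul, map_inv, inv_mul_eq_one, ← hχ, hg, eq_comm] at h1
  have hρσ : ρbar.ρ σ = ρbar.ρ g := by
    have h1 := hL1 (g⁻¹ * σ) fun x hx => hfix x (le_sup_left (b := F) hx)
    calc ρbar.ρ σ = ρbar.ρ g * ρbar.ρ (g⁻¹ * σ) := by rw [← map_mul, mul_inv_cancel_left]
      _ = ρbar.ρ g := by rw [h1, mul_one]
  have h3 : ¬ ℓ ∣ 3 := fun h => hℓT.1 ((Nat.prime_dvd_prime_iff_eq hℓ Nat.prime_three).1 h)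
  have hmod : (ℓ : ZMod 3) = ((-1 : (ZMod 3)ˣ) : ZMod 3) := by
    rw [← hχσ, hχ, modCycloChar_frobenius hℓ h3 hA hσ]
  refine ⟨ℓ, hℓ, hℓT.2, ?_, A, hA, σ, hσ, ?_⟩
  · have h := congrArg ZMod.val hmod
    rw [ZMod.val_natCast] at h
    exact h
  · rw [hρσ]
    rwa [residualMat, trace_repMatrix] at hne

end FermatLib.MLT.Odd

end
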