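import Fermat.Agent.MLT.Odd.PointSignHecke
import Fermat.Agent.MLT.Odd.HeckeRepDescentPrep
import Fermat.Agent.Galois.NewformRepRoot

/-!
# An eigenform with `U q = ± 1` has trace of Frobenius `a_q (q + 1)`

A residually irreducible lift with cyclotomic determinant and, at almost all primes, the traces
of an eigenform of level exactly divisible by `q` with `a_q = ± 1` has trace `a_q (q + 1)` at a
Frobenius over `q`, as `a_q` is then a root of the characteristic polynomial of Frobenius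
(`root_trace_of_point`).
-/

set_option autoImplicit false
set_option linter.style.haveILetI false

noncomputable section

open IsLocalRing Polynomial FermatLib.Galois FermatLib.MLT.HeckeRep CongruenceSubgroup ModularCurve

namespace FermatLib.MLT.Odd

local notation "Qbar" => AlgebraicClosure ℚ
local notation "Γℚ" => (AlgebraicClosure ℚ ≃ₐ[ℚ] AlgebraicClosure ℚ)
local notation "ZbarC" => integralClosure ℤ ℂ

/-- The characteristic polynomial of a Frobenius for a cyclotomic determinant. -/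
theorem charpoly_frobenius_of_det {B : Type} [CommRing B] [IsLocalRing B] [IsNoetherianRing B]
    {p : ℕ} (hp : p.Prime) (r : GaloisRepAdic B) (h : r.DetIsCyclotomic p) {ℓ : ℕ}
    (hℓ : ℓ.Prime) (hℓp : ℓ ≠ p) {P : ValuationSubring Qbar} (hP : P.LiesOverPrime ℓ) {σ : Γℚ}
    (hσ : P.IsFrobeniusAt σ ℓ) :
    LinearMap.charpoly (r.ρ σ) = X ^ 2 - C (r.trace σ) * X + C (ℓ : B) := by
  rw [adic_charpoly_eq, det_frobenius r hp h hℓ hℓp hP hσ]

section

variable {O' : Type} [CommRing O'] [IsDomain O'] [IsDiscreteValuationRing O']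
  [IsAdicComplete (maximalIdeal O') O'] [Finite (ResidueField O')] [CharZero O'] {p : ℕ}
  [Fact p.Prime] {r : GaloisRepAdic O'}
  {K : Type} [Field K] [CharZero K] (j : O' →+* K)

/-- Values in the image of an injective map, as a map to its source. -/
def rangeLift (hj : Function.Injective j) {R : Type*} [CommRing R] (φ : R →+* K)
    (h : ∀ x, φ x ∈ j.range) : R →+* O' :=
  ((RingEquiv.ofBijective j.rangeRestrict ⟨fun _ _ h => hj (congrArg Subtype.val h),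
    j.rangeRestrict_surjective⟩).symm.toRingHom).comp (φ.codRestrict j.range h)

theorem rangeLift_spec (hj : Function.Injective j) {R : Type*} [CommRing R] (φ : R →+* K)
    (h : ∀ x, φ x ∈ j.range) (x : R) : j (rangeLift j hj φ h x) = φ x :=
  congrArg Subtype.val ((RingEquiv.ofBijective j.rangeRestrict ⟨fun _ _ h => hj (congrArg
    Subtype.val h), j.rangeRestrict_surjective⟩).apply_symm_apply (φ.codRestrict j.range h x))

end

section main

variable {O' : Type} [CommRing O'] [IsDomain O'] [IsDiscreteValuationRing O']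
  [IsAdicComplete (maximalIdeal O') O'] [Finite (ResidueField O')] [CharZero O'] {p : ℕ}
  [Fact p.Prime] {r : GaloisRepAdic O'}
  {K : Type} [Field K] [CharZero K]

/-- The values of a character at generators at all primes outside `S` lie in a subring. -/
theorem character_mem_range {M : ℕ} [NeZero M] {S : Set ℕ} (j : O' →+* K)
    (hMS : ∀ s : ℕ, s.Prime → s ∣ M → s ∈ S) (φ : CuspForm.heckeAlgebra M 2 S →+* K)
    (h : ∀ (ℓ : ℕ) (hℓ : ℓ.Prime) (hℓM : ¬ ℓ ∣ M) (hℓS : ℓ ∉ S),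
      φ (CuspForm.heckeAlgebra.T hℓ hℓM hℓS) ∈ j.range) (t : CuspForm.heckeAlgebra M 2 S) :
    φ t ∈ j.range := by
  obtain ⟨t, ht⟩ := t
  induction ht using Algebra.adjoin_induction with
  | mem x hx =>
    rcases hx with ⟨ℓ, hℓ, hℓM, hℓS, rfl⟩ | ⟨s, hsM, hs, hsS, rfl⟩
    · exact h ℓ hℓ hℓM hℓS
    · exact absurd (hMS s hs hsM) hsS
  | algebraMap m =>
    exact ⟨(m : O'), by
      rw [map_intCast]
      exact (map_intCast φ m).symm.trans (congrArg _ (by simp; rfl))⟩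
  | add x y hx' hy' hx hy => exact (map_add φ ⟨x, hx'⟩ ⟨y, hy'⟩).symm ▸ add_mem hx hy
  | mul x y hx' hy' hx hy => exact (map_mul φ ⟨x, hx'⟩ ⟨y, hy'⟩).symm ▸ mul_mem hx hy

/-- **An eigenform with `a_q = e = ± 1` at a prime exactly dividing its level has trace
`e (q + 1)` at a Frobenius over `q`.** -/
theorem trace_eq_of_eigenform (hdet : r.DetIsCyclotomic p) (hirr : r.residual.IsAbsolutelyIrreducible)
    (j : O' →+* K) (hj : Function.Injective j) {N : ℕ} [NeZero N]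
    {f : CuspForm (Gamma0 N) 2} (hf : f.IsNormalizedEigenform) (ι : ZbarC →+* K)
    (E : Finset ℕ) (tr : ℕ → O') (hr : ∀ ℓ : ℕ, ℓ.Prime → ℓ ∉ E → ∀ P : ValuationSubring Qbar,
      P.LiesOverPrime ℓ → ∀ σ : Γℚ, P.IsFrobeniusAt σ ℓ → r.trace σ = tr ℓ)
    (hf_tr : ∀ ℓ : ℕ, ℓ.Prime → ℓ ∉ E → ¬ ℓ ∣ N → ∀ a : ZbarC,
      (a : ℂ) = ModularFormClass.qCoeff ⇑f ℓ → ι a = j (tr ℓ))
    {q : ℕ} (hq : q.Prime) (hqp : q ≠ p) (hqN : q ∣ N) (hq2 : ¬ q ^ 2 ∣ N)
    {e : ℤ} (he : e ^ 2 = 1) (hu : ModularFormClass.qCoeff ⇑f q = (e : ℂ))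
    {A : ValuationSubring Qbar} (hA : A.LiesOverPrime q) {σ : Γℚ} (hσ : A.IsFrobeniusAt σ q) :
    r.trace σ = (e : O') * ((q : O') + 1) := by
  classical
  have hp : p.Prime := Fact.out
  haveI : Fact q.Prime := ⟨hq⟩
  haveI : NeZero q := ⟨hq.ne_zero⟩
  obtain ⟨M', rfl⟩ := hqN
  haveI : NeZero M' := ⟨fun h => NeZero.ne (q * M') (by rw [h, mul_zero])⟩
  have hqM' : ¬ q ∣ M' := fun h => hq2 (by rw [sq]; exact mul_dvd_mul_left q h)
  set S₁ := insert p (E ∪ (q * M').primeFactors) with hS₁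
  have hout : ∀ ℓ : ℕ, ℓ.Prime → ℓ ∉ S₁ → ℓ ≠ p ∧ ℓ ∉ E ∧ ¬ ℓ ∣ q * M' := fun ℓ hℓ h => by
    simp only [hS₁, Finset.mem_insert, Finset.mem_union, not_or] at h
    exact ⟨h.1, h.2.1, fun hd => h.2.2 (Nat.mem_primeFactors.2 ⟨hℓ, hd, NeZero.ne _⟩)⟩
  have hqS₁ : q ∈ S₁ := Finset.mem_insert_of_mem
    (Finset.mem_union_right _ (Nat.mem_primeFactors.2 ⟨hq, dvd_mul_right q M', NeZero.ne _⟩))
  have hNS₁ : ∀ s : ℕ, s.Prime → s ∣ q * M' → s ∈ S₁ := fun s hs hd => Finset.mem_insert_of_mem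
    (Finset.mem_union_right _ (Nat.mem_primeFactors.2 ⟨hs, hd, NeZero.ne _⟩))
  haveI := Modular.heckeAlgebra_moduleFinite (q * M') 2 (∅ : Set ℕ)
  obtain ⟨ξ, -, hξT, hξU⟩ := exists_eigenformCharacter (S := (∅ : Set ℕ)) hf
  let incl := Subalgebra.inclusion (CuspForm.heckeAlgebra_mono (N := q * M') (k := 2)
    (Set.empty_subset (↑S₁ : Set ℕ)))
  have hinclT : ∀ (ℓ : ℕ) (hℓ : ℓ.Prime) (hℓN : ¬ ℓ ∣ q * M') (hℓS : ℓ ∉ (↑S₁ : Set ℕ)),
      incl (CuspForm.heckeAlgebra.T hℓ hℓN hℓS) =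
        CuspForm.heckeAlgebra.T hℓ hℓN (Set.notMem_empty ℓ) := fun ℓ hℓ hℓN hℓS =>
    Subtype.ext ((CuspForm.heckeAlgebra.coe_T hℓ hℓN hℓS).trans
      (CuspForm.heckeAlgebra.coe_T (S := (∅ : Set ℕ)) hℓ hℓN (Set.notMem_empty ℓ)).symm)
  let φ : CuspForm.heckeAlgebra (q * M') 2 (↑S₁ : Set ℕ) →+* K :=
    (ι.comp ξ).comp incl.toRingHom
  have hφT : ∀ (ℓ : ℕ) (hℓ : ℓ.Prime) (hℓN : ¬ ℓ ∣ q * M') (hℓS : ℓ ∉ (↑S₁ : Set ℕ)),
      φ (CuspForm.heckeAlgebra.T hℓ hℓN hℓS) = j (tr ℓ) := fun ℓ hℓ hℓN hℓS => by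
    show ι (ξ (incl _)) = _
    rw [hinclT]
    exact hf_tr ℓ hℓ (hout ℓ hℓ fun h => hℓS (Finset.mem_coe.2 h)).2.1 hℓN _
      (hξT ℓ hℓ hℓN (Set.notMem_empty ℓ))
  have hrange := character_mem_range j (fun s hs hd => Finset.mem_coe.2 (hNS₁ s hs hd)) φ
    fun ℓ hℓ hℓN hℓS => ⟨tr ℓ, (hφT ℓ hℓ hℓN hℓS).symm⟩
  -- enlarge the coefficients to all the eigenvalues
  let R' := (ι.comp ξ).range
  haveI : Module.Finite ℤ R' := s35_moduleFinite_range (ι.comp ξ)
  have hle : φ.range ≤ R' := by rintro _ ⟨x, rfl⟩; exact ⟨incl x, rfl⟩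
  let κ : φ.range →+* O' := rangeLift j hj φ.range.subtype (by
    rintro ⟨_, x, rfl⟩
    exact hrange x)
  have hκ : ∀ x, j (κ x) = (x : K) := fun x => rangeLift_spec j hj _ _ x
  obtain ⟨O'', _, _, _, _, _, _, _, _, _, hinj, ι', hι'⟩ :=
    s35_exists_extension (Subring.inclusion hle) (Subring.inclusion_injective hle) O' κ
      fun x y h => Subtype.ext (by rw [← hκ, h, hκ])
  let θ : CuspForm.heckeAlgebra (q * M') 2 (∅ : Set ℕ) →+* O'' :=
    ι'.comp (ι.comp ξ).rangeRestrict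
  have hθT : ∀ (ℓ : ℕ) (hℓ : ℓ.Prime) (hℓN : ¬ ℓ ∣ q * M'), ℓ ∉ S₁ →
      θ (CuspForm.heckeAlgebra.T hℓ hℓN (Set.notMem_empty ℓ)) = algebraMap O' O'' (tr ℓ) := by
    intro ℓ hℓ hℓN hℓS
    have hℓS' : ℓ ∉ (↑S₁ : Set ℕ) := fun h => hℓS (Finset.mem_coe.1 h)
    refine Eq.trans ?_ ((hι' (φ.rangeRestrict (CuspForm.heckeAlgebra.T hℓ hℓN hℓS'))).trans
      (congrArg _ (hj ((hκ _).trans (hφT ℓ hℓ hℓN hℓS')))))
    refine congrArg ι' (Subtype.ext ?_)
    show ι (ξ _) = ι (ξ (incl _))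
    rw [hinclT]
  have hloc : IsLocalHom (algebraMap O' O'') := inferInstance
  let r₂ := r.baseChangeAlong (algebraMap O' O'') hloc
  have htr₂ : ∀ g, r₂.trace g = algebraMap O' O'' (r.trace g) := fun g =>
    trace_baseChangeAlong _ hloc r g
  have hd₂ : r₂.DetIsCyclotomic p := DeformLocal.detIsCyclotomic_baseChange _ hloc hdet
  have key := (root_trace_of_point hq (dvd_mul_right q M') hq2 hqp hd₂.1 r₂
    (residual_isAbsolutelyIrreducible_baseChange r (algebraMap O' O'') hloc hirr)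
    (S := S₁) (Finset.mem_insert_self p _) hNS₁ θ
    (fun ℓ hℓ hℓN hℓS B hB τ hτ => by
      rw [charpoly_frobenius_of_det hp r₂ hd₂ hℓ (hout ℓ hℓ hℓS).1 hB hτ, htr₂,
        hr ℓ hℓ (hout ℓ hℓ hℓS).2.1 B hB τ hτ, hθT ℓ hℓ hℓN hℓS]) hA hσ).2
  have hθU : θ (CuspForm.heckeAlgebra.U hq (dvd_mul_right q M') (Set.notMem_empty q)) =
      (e : O'') := by
    show ι' ((ι.comp ξ).rangeRestrict _) = _
    rw [show (ι.comp ξ).rangeRestrict (CuspForm.heckeAlgebra.U hq (dvd_mul_right q M')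
      (Set.notMem_empty q)) = ((e : ℤ) : R') from Subtype.ext ?_, map_intCast]
    show ι (ξ _) = _
    rw [show ξ (CuspForm.heckeAlgebra.U hq (dvd_mul_right q M') (Set.notMem_empty q)) =
      (e : ZbarC) from Subtype.ext ((hξU q hq (dvd_mul_right q M') (Set.notMem_empty q)).trans
        (hu.trans (by push_cast; rfl))), map_intCast]
    rfl
  rw [hθU, htr₂] at key
  have he' : (e : O'') ^ 2 = 1 := by exact_mod_cast congrArg (Int.cast : ℤ → O'') he
  refine hinj ?_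
  rw [map_mul, map_add, map_intCast, map_natCast, map_one]
  linear_combination (-(e : O'')) * key + ((e : O'') - algebraMap O' O'' (r.trace σ)) * he'

end main

end FermatLib.MLT.Odd

end
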