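import Fermat.Agent.MLT.Odd.SupplyDefs

/-!
# Lemmas for the assembly of the levels

System modules moved along families, ideals acting through the Hecke algebra and through the
diamond algebra, determinants of the Gram matrices and roots of unity in residue fields.
-/

set_option autoImplicit false
set_option linter.style.haveILetI false

noncomputable section

namespace FermatLib.MLT.Odd

open IsLocalRing

variable {O : Type} [CommRing O] [IsDomain O] [IsDiscreteValuationRing O] {p : ℕ}
  {ρbar : ResidualGaloisRep (ResidueField O)} {S : OddPrimes p ρbar} {Q : Finset ℕ}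

/-- A system module of a part of a family is one of the family. -/
def SystemModule.pushFamily {ι κ : Type} (x : ι → OddSystem S Q) (f : κ → ι)
    (A : SystemModule fun j => x (f j)) : SystemModule x where
  M := A.M
  T := A.T
  κ := A.κ
  sys j := f (A.sys j)
  ev := A.ev
  ev_inj := A.ev_inj
  E := A.E
  t := A.t
  t_spec := A.t_spec

/-- The zero module. -/
def SystemModule.zeroModule {ι : Type} (x : ι → OddSystem S Q) : SystemModule x where
  M := PUnit.{1}
  T := PUnit.{1}
  instAlgebra := Algebra.ofModule (fun _ _ _ => Subsingleton.elim _ _)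
    fun _ _ _ => Subsingleton.elim _ _
  κ := Empty
  sys j := j.elim
  ev j := j.elim
  ev_inj a _ := Subsingleton.elim a 0
  E := ∅
  t _ := 0
  t_spec j := j.elim

/-- An element of `I M` lies in every additive subgroup containing the multiples of generators
of `I`. -/
theorem mem_of_mem_span_smul_top {R M : Type} [CommRing R] [AddCommGroup M] [Module R M]
    {s : Set R} (N : AddSubgroup M) (h : ∀ a ∈ s, ∀ w : M, a • w ∈ N) {m : M}
    (hm : m ∈ Ideal.span s • (⊤ : Submodule R M)) : m ∈ N := by
  refine Submodule.smul_induction_on hm (fun a ha w _ => ?_) fun _ _ h h' => add_mem h h'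
  have key : ∀ v : M, a • v ∈ N := by
    induction ha using Submodule.span_induction with
    | mem a ha => exact h a ha
    | zero => intro v; rw [zero_smul]; exact zero_mem N
    | add a b _ _ iha ihb => intro v; rw [add_smul]; exact add_mem (iha v) (ihb v)
    | smul c b _ ih => intro v; rw [smul_eq_mul, mul_comm, mul_smul]; exact ih (c • v)
  exact key w

/-- Two rings with generators acting alike define the same `I M`. -/
theorem span_smul_top_eq {R R' M : Type} [CommRing R] [CommRing R'] [AddCommGroup M] [Module R M]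
    [Module R' M] {α : Type} (f : α → R) (g : α → R') (h : ∀ a (w : M), f a • w = g a • w)
    (m : M) : m ∈ Ideal.span (Set.range f) • (⊤ : Submodule R M) ↔
      m ∈ Ideal.span (Set.range g) • (⊤ : Submodule R' M) := by
  constructor
  · exact mem_of_mem_span_smul_top (Ideal.span (Set.range g) • (⊤ : Submodule R' M)).toAddSubgroup
      (by
        rintro _ ⟨a, rfl⟩ w
        rw [h]
        exact Submodule.smul_mem_smul (Ideal.subset_span ⟨a, rfl⟩) Submodule.mem_top)
  · exact mem_of_mem_span_smul_top (Ideal.span (Set.range f) • (⊤ : Submodule R M)).toAddSubgroup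
      (by
        rintro _ ⟨a, rfl⟩ w
        rw [← h]
        exact Submodule.smul_mem_smul (Ideal.subset_span ⟨a, rfl⟩) Submodule.mem_top)

omit [IsDomain O] [IsDiscreteValuationRing O] in
/-- The ideal spanned by the image of an ideal and a family, as one span. -/
theorem map_sup_span_eq {R : Type} [CommRing R] [Algebra O R] (I : Ideal O) {α : Type}
    (f : α → R) : I.map (algebraMap O R) ⊔ Ideal.span (Set.range f) =
      Ideal.span (Set.range (Sum.elim (fun a : I => algebraMap O R a) f)) := by
  rw [Set.Sum.elim_range, Ideal.span_union, Ideal.map]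
  congr 1
  exact congrArg Ideal.span (Set.ext fun y => by simp)

/-- A Gram matrix `(q+1, t; t, q+1)` has determinant divisible by `t - s (q+1)`, `s = ±1`. -/
theorem dvd_det_gram_two {R : Type} [CommRing R] {k : ℕ} (hk : k = 2)
    (G : Matrix (Fin k) (Fin k) R) {q t s : R} (hs : s ^ 2 = 1)
    (hG : ∀ a b, G a b = if a = b then q + 1 else t) : t - s * (q + 1) ∣ G.det := by
  subst hk
  rw [Matrix.det_fin_two, hG, hG, hG, hG, if_pos rfl, if_pos rfl, if_neg (by decide),
    if_neg (by decide)]
  exact ⟨-(t + s * (q + 1)), by linear_combination (-(q + 1) ^ 2) * hs⟩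

/-- A matrix of size one with entries divisible by `z`. -/
theorem dvd_det_one {R : Type} [CommRing R] {k : ℕ} (hk : k = 1)
    (G : Matrix (Fin k) (Fin k) R) {z : R} (hG : ∀ a b, z ∣ G a b) : z ∣ G.det := by
  subst hk
  rw [Matrix.det_fin_one]
  exact hG 0 0

/-- Roots of unity of `p`-power order reduce to one. -/
theorem residue_eq_one_of_pow_prime_pow [Fact p.Prime] {A : Type} [CommRing A] [IsLocalRing A]
    (hpA : (p : A) ∈ maximalIdeal A) {x : A} {e : ℕ} (hx : x ^ p ^ e = 1) : residue A x = 1 := by
  haveI : CharP (ResidueField A) p := (CharP.charP_iff_prime_eq_zero (Fact.out : p.Prime)).2 (by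
    rw [← map_natCast (residue A), residue_eq_zero_iff]
    exact hpA)
  refine sub_eq_zero.1 (eq_zero_of_pow_eq_zero (n := p ^ e) ?_)
  rw [sub_pow_char_pow, one_pow, ← map_pow, hx, map_one, sub_self]

/-- If `d² g = 1` and `g ^ N = 1` then `(d^(2(N-1))) = g`. -/
theorem eq_of_sq_mul_eq_one {A : Type} [CommRing A] {d g : A} {N : ℕ} (hN : 0 < N)
    (h : d ^ 2 * g = 1) (hg : g ^ N = 1) : d ^ (2 * (N - 1)) = g := by
  obtain ⟨k, rfl⟩ : ∃ k, N = k + 1 := ⟨N - 1, by omega⟩
  rw [Nat.add_sub_cancel, pow_mul]
  calc (d ^ 2) ^ k = (d ^ 2) ^ k * g ^ (k + 1) := by rw [hg, mul_one]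
    _ = (d ^ 2 * g) ^ k * g := by ring
    _ = g := by rw [h, one_pow, one_mul]

/-- A multiplicative map commutes with powers. -/
theorem map_pow_of_mul {G H : Type} [Monoid G] [Monoid H] (f : G → H) (h1 : f 1 = 1)
    (hm : ∀ a b, f (a * b) = f a * f b) (g : G) (n : ℕ) : f (g ^ n) = f g ^ n := by
  induction n with
  | zero => rw [pow_zero, pow_zero, h1]
  | succ n ih => rw [pow_succ, pow_succ, hm, ih]

/-- A map of quotients over two algebras which lifts a linear map over the constants commutes with
the constants. -/
theorem map_algebraMap_smul_of_mk {R T T' M M' : Type} [CommRing R] [CommRing T] [CommRing T']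
    [Algebra R T] [Algebra R T'] [AddCommGroup M] [AddCommGroup M'] [Module T M] [Module T' M']
    [Module R M] [Module R M'] [IsScalarTower R T M] [IsScalarTower R T' M'] {N : Submodule T M}
    {N' : Submodule T' M'} {N₀ : Submodule R M} {N₀' : Submodule R M'}
    (f : M ⧸ N →+ M' ⧸ N') (θ : (M ⧸ N₀) →ₗ[R] M' ⧸ N₀')
    (hf : ∀ m n, θ (Submodule.Quotient.mk m) = Submodule.Quotient.mk n →
      f (Submodule.Quotient.mk m) = Submodule.Quotient.mk n) (c : R) (z : M ⧸ N) :
    f (algebraMap R T c • z) = algebraMap R T' c • f z := by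
  obtain ⟨m, rfl⟩ := Submodule.Quotient.mk_surjective _ z
  obtain ⟨n, hn⟩ := Submodule.Quotient.mk_surjective _ (θ (Submodule.Quotient.mk m))
  rw [hf m n hn.symm, ← Submodule.Quotient.mk_smul, ← Submodule.Quotient.mk_smul]
  refine hf _ _ ?_
  rw [algebraMap_smul, algebraMap_smul, Submodule.Quotient.mk_smul, Submodule.Quotient.mk_smul,
    hn]
  exact map_smul θ c _

end FermatLib.MLT.Odd
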