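import Fermat.Agent.MLT.Odd.GlueClass
import Fermat.Agent.MLT.Hecke.RaiseOne
import Fermat.Agent.MLT.Hecke.LevelChangeSet

/-!
# Nonzero localised modules

An eigen-homomorphism with residual values gives a nonzero localised module at its level, and
the old parts keep it nonzero at all multiples of the level by new primes.
-/

set_option autoImplicit false
set_option linter.style.haveILetI false

noncomputable section

open scoped MatrixGroups
open CongruenceSubgroup MvPolynomial IsLocalRing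

namespace FermatLib.MLT

variable {O : Type} [CommRing O] [IsLocalRing O]

/-- Eigen-homomorphisms over the residue field give nonzero localised modules. -/
theorem nontrivial_bettiResLoc_of_hom {N : ℕ} [NeZero N] (Pr : Set Nat.Primes)
    (θ : BettiHeckeAlg O →+* ResidueField O) (hC : ∀ r, θ (C r) = residue O r)
    (hell : EllipticHarmless N Pr θ) (ψ : Additive (Gamma0 N) →+ ResidueField O) (hψ0 : ψ ≠ 0)
    (hcusp : Modular.IsCuspidalHom ψ)
    (heig : ∀ l ∈ Pr,
      Modular.heckeHomOp N (ResidueField O) (ResidueField O) l ψ = θ (X l) • ψ) :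
    Nontrivial (BettiResLoc (1 : (ZMod N)ˣ →* Oˣ) Pr θ) := by
  set c₀ := glueCocycle (A := O) ψ (cuspidalHom_neg_one hcusp) with hc₀
  set m : BettiMod N (1 : (ZMod N)ˣ →* Oˣ) (ResidueField O) := BettiMod.mk c₀ with hm
  have hm0 : m ≠ 0 := fun h => hψ0 (by
    rw [hm, bettiModMk_one_eq_zero] at h
    refine AddMonoidHom.ext fun g => ?_
    exact congrFun (congrArg Subtype.val h) (Additive.toMul g))
  have hX : ∀ l ∈ Pr, ∃ c : O, residue O c = θ (X l) ∧
      (X l : BettiHeckeAlg O) • m = c • m := fun l hl => by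
    obtain ⟨c, hc⟩ := residue_surjective (θ (X l))
    refine ⟨c, hc, ?_⟩
    rw [hm, ← map_smul (BettiMod.mk (L := N)) c c₀]
    refine X_smul_mk_eq l _ _ (AddMonoidHom.ext fun g => ?_)
    obtain ⟨γ, rfl⟩ := Additive.ofMul.surjective g
    have h := DFunLike.congr_fun (heig l hl) (Additive.ofMul γ)
    rw [Modular.heckeHomOp_apply, AddMonoidHom.smul_apply, smul_eq_mul, ← hc] at h
    rw [Modular.heckeHomOp_apply, glueHom_apply]
    show c • ψ (Additive.ofMul γ) = _
    rw [Algebra.smul_def, ResidueField.algebraMap_eq, ← h]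
    rfl
  have hP : ∀ P ∈ supported O Pr, ∃ c : O, residue O c = θ P ∧ P • m = c • m := by
    intro P hP
    induction hP using Algebra.adjoin_induction with
    | mem x hx => obtain ⟨l, hl, rfl⟩ := hx; exact hX l hl
    | algebraMap r =>
      exact ⟨r, by rw [MvPolynomial.algebraMap_eq, hC], algebraMap_smul _ r m⟩
    | add x y _ _ hx hy =>
      obtain ⟨a, ha, ha'⟩ := hx
      obtain ⟨b, hb, hb'⟩ := hy
      exact ⟨a + b, by rw [map_add, map_add, ha, hb], by rw [add_smul, ha', hb', add_smul]⟩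
    | mul x y _ _ hx hy =>
      obtain ⟨a, ha, ha'⟩ := hx
      obtain ⟨b, hb, hb'⟩ := hy
      exact ⟨a * b, by rw [map_mul, map_mul, ha, hb], by
        rw [mul_smul, hb', smul_comm, ha', smul_smul, mul_comm]⟩
  haveI : Nontrivial (BettiLoc N (1 : (ZMod N)ˣ →* Oˣ) (ResidueField O)
      (bettiResidualSubmonoid Pr θ)) := by
    refine nontrivial_of_ne (LocalizedModule.mk m 1) 0 fun h => hm0 ?_
    rw [← LocalizedModule.zero_mk (1 : bettiResidualSubmonoid Pr θ), LocalizedModule.mk_eq] at h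
    obtain ⟨⟨u, hu⟩, hu'⟩ := h
    simp only [one_smul, smul_zero, Submonoid.smul_def] at hu'
    obtain ⟨huPr, huθ⟩ := mem_bettiResidualSubmonoid.1 hu
    obtain ⟨c, hc, hc'⟩ := hP u huPr
    have hunit : IsUnit c := by
      by_contra hn
      exact huθ (hc ▸ (residue_eq_zero_iff c).2 hn)
    exact (hunit.smul_eq_zero).1 (hc'.symm.trans hu')
  exact (BettiLoc.map_surjective (bettiRightExact_residual _ (by simp) θ hell)
    (f := Algebra.linearMap O (ResidueField O)) residue_surjective).nontrivial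

variable [IsNoetherianRing O] [IsAdicComplete (maximalIdeal O) O]

/-- The old parts keep the module nonzero: `U q` is localised at the simple root `α q` at the
primes of `R` among the operators. -/
theorem nontrivial_bettiResLoc_raise (Pr : Set Nat.Primes) [DecidablePred (· ∈ Pr)]
    (θ : BettiHeckeAlg O →+* ResidueField O)
    (hC : ∀ r, θ (C r) = residue O r) (α : Nat.Primes → ResidueField O) (R : Finset Nat.Primes)
    {N : ℕ} [NeZero N] (hR : ∀ q ∈ R, ¬ (q : ℕ) ∣ N)
    (hroot : ∀ q ∈ R, q ∈ Pr →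
      α q ^ 2 - θ (X q) * α q + ((q : ℕ) : ResidueField O) = 0 ∧ α q ≠ 0 ∧ 2 * α q ≠ θ (X q))
    (hell : EllipticHarmless N (Pr \ (R : Set Nat.Primes)) θ)
    (hne : ∀ M : ℕ, M ≠ 0 → ∃ l ∈ Pr, l ∉ R ∧ ((l : ℕ) : ZMod M) = 1 ∧
      θ (X l) ≠ ((l : ℕ) : ResidueField O) + 1)
    (h0 : Nontrivial (BettiResLoc (1 : (ZMod N)ˣ →* Oˣ) Pr θ)) :
    Nontrivial (BettiResLoc (1 : (ZMod (N * ∏ q ∈ R, (q : ℕ)))ˣ →* Oˣ) Pr
      (residualRaiseSet θ (R.filter (· ∈ Pr)) α)) := by
  classical
  suffices H : ∀ R' ⊆ R, ∀ M : ℕ, M = N * ∏ q ∈ R', (q : ℕ) →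
      Nontrivial (BettiResLoc (1 : (ZMod M)ˣ →* Oˣ) Pr
        (residualRaiseSet θ (R'.filter (· ∈ Pr)) α)) from H R subset_rfl _ rfl
  intro R' hR'
  induction R' using Finset.induction_on with
  | empty =>
    intro M hM
    rw [Finset.prod_empty, mul_one] at hM
    subst hM
    rwa [Finset.filter_empty, residualRaiseSet_empty]
  | insert q R' hqR' ih =>
    intro M hM
    have hqR : q ∈ R := hR' (Finset.mem_insert_self q R')
    have hsub : R' ⊆ R := fun x hx => hR' (Finset.mem_insert_of_mem hx)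
    set L := N * ∏ x ∈ R', (x : ℕ) with hL
    haveI : NeZero L :=
      ⟨mul_ne_zero (NeZero.ne N) (Finset.prod_ne_zero_iff.2 fun x _ => x.2.ne_zero)⟩
    haveI := ih hsub L rfl
    set Q := R'.filter (· ∈ Pr) with hQ
    set θL := residualRaiseSet θ Q α with hθL
    have hqL : ¬ (q : ℕ) ∣ L := fun h => by
      rcases (Nat.Prime.dvd_mul q.2).1 h with h | h
      · exact hR q hqR h
      · obtain ⟨x, hx, hd⟩ := (Prime.dvd_finsetProd_iff q.2.prime _).1 h
        exact hqR' (Subtype.ext ((Nat.prime_dvd_prime_iff_eq q.2 x.2).1 hd) ▸ hx)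
    have hM' : M = L * (q : ℕ) := by
      rw [hM, Finset.prod_insert hqR', hL, mul_comm (q : ℕ), mul_assoc]
    have hLM : L ∣ M := hM' ▸ dvd_mul_right L q
    have hθ : ∀ r ∈ maximalIdeal O, θL (C r) = 0 := fun r hr => by
      rw [hθL, residualRaiseSet_C, hC, residue_eq_zero_iff]; exact hr
    have hsurj : Function.Surjective (θL.comp C) := fun x => by
      obtain ⟨r, rfl⟩ := residue_surjective x
      exact ⟨r, by rw [RingHom.comp_apply, hθL, residualRaiseSet_C, hC]⟩
    have hQR : ∀ x, x ∉ R → x ∉ Q := fun x hx h => hx (hsub (Finset.mem_filter.1 h).1)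
    obtain ⟨l, hlPr, hlR, hl1, hlne⟩ := hne (Modular.Ihara.iharaLevel L q)
      (lt_of_le_of_lt (Nat.zero_le _) (self_lt_iharaLevel (NeZero.pos L) q.2)).ne'
    have hne' : θL (X l) ≠ θL (C (((l : ℕ) : O) + 1)) := by
      rwa [hθL, residualRaiseSet_X_of_notMem _ _ (hQR l hlR), residualRaiseSet_C, hC, map_add,
        map_natCast, map_one]
    have hell0 : EllipticHarmless L (Pr \ (R : Set Nat.Primes)) θL :=
      (hell.of_agree subset_rfl fun x hx =>
        residualRaiseSet_X_of_notMem θ α (hQR x hx.2)).mul_right _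
    have h1 : (1 : (ZMod L)ˣ →* Oˣ) (-1) = 1 := rfl
    have h1' : ∀ u, ((1 : (ZMod L)ˣ →* Oˣ) u : O) - 1 ∈ maximalIdeal O := fun u => by simp
    by_cases hqPr : q ∈ Pr
    · obtain ⟨hr, hα0, hs⟩ := hroot q hqR hqPr
      have hqQ : q ∉ Q := fun h => hqR' (Finset.mem_filter.1 h).1
      have hX : θL (X q) = θ (X q) := residualRaiseSet_X_of_notMem θ α hqQ
      obtain ⟨a, D, -⟩ := exists_raiseMaps_one (χ := (1 : (ZMod L)ˣ →* Oˣ)) hqL hM' hLM h1 h1' hθ
        hsurj hqPr (α q) (by
          rw [hX, MonoidHom.one_apply, Units.val_one, mul_one, hθL, residualRaiseSet_C, hC,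
            map_natCast]
          exact hr) hα0 (by rwa [hX])
        (hell0.of_agree (fun x hx => ⟨hx.1, fun e => hx.2 (e ▸ hqR)⟩) fun _ _ => rfl)
        hl1 hlPr hne'
      have hnt := D.up_injective.nontrivial
      rw [Finset.filter_insert, if_pos hqPr, ← residualRaise_residualRaiseSet]
      simpa only [MonoidHom.one_comp] using hnt
    · obtain ⟨D, -⟩ := exists_raiseMaps_two (χ := (1 : (ZMod L)ˣ →* Oˣ)) hqL hM' hLM h1 h1' hθ
        hqPr (hell0.of_agree Set.sdiff_subset fun _ _ => rfl) hl1 hlPr hne'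
      have hnt := D.up_injective.nontrivial
      rw [Finset.filter_insert, if_neg hqPr]
      simpa only [MonoidHom.one_comp] using hnt

end FermatLib.MLT

end
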