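import Fermat.Agent.MLT.Odd.SupplyRaiseMaps
import Fermat.Agent.MLT.Odd.RaiseCokerFields

/-!
# The eigen systems outside the old part

An element of the Hecke algebra of the full module maps it into the old part at `s` as soon as it
vanishes at the systems of the common eigenvectors of the good operators and of the twisted `U s`
whose value at the latter has square one.
-/

set_option autoImplicit false
set_option linter.style.haveILetI false
set_option linter.unusedSectionVars false

noncomputable section

namespace FermatLib.MLT.Odd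

open IsLocalRing MvPolynomial
open scoped TensorProduct

/-- A common eigenvector of generators gives a character of the algebra they generate. -/
theorem exists_scalar_hom {O A F V : Type} [CommRing O] [CommRing A] [Algebra O A] [Field F]
    [Algebra O F] [AddCommGroup V] [Module F V] [Module O V] [IsScalarTower O F V]
    (act : A →ₐ[O] Module.End F V) {v : V} (hv : v ≠ 0) (G : Set A)
    (hG : ∀ a ∈ G, ∃ k : F, act a v = k • v) :
    ∃ π : Algebra.adjoin O G →ₐ[O] F, ∀ a : Algebra.adjoin O G, act (a : A) v = π a • v := by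
  have h : ∀ a : Algebra.adjoin O G, ∃ k : F, act (a : A) v = k • v := by
    rintro ⟨a, ha⟩
    induction ha using Algebra.adjoin_induction with
    | mem x hx => exact hG x hx
    | algebraMap c =>
      exact ⟨algebraMap O F c, by
        rw [AlgHom.commutes, Module.algebraMap_end_apply, algebraMap_smul]⟩
    | add x y _ _ hx hy =>
      obtain ⟨k, hk⟩ := hx
      obtain ⟨l, hl⟩ := hy
      exact ⟨k + l, by rw [map_add, LinearMap.add_apply, hk, hl, add_smul]⟩
    | mul x y _ _ hx hy =>
      obtain ⟨k, hk⟩ := hx
      obtain ⟨l, hl⟩ := hy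
      exact ⟨k * l, by rw [map_mul, Module.End.mul_apply, hl, map_smul, hk, smul_smul, mul_comm]⟩
  choose f hf using h
  have hu : ∀ (a : Algebra.adjoin O G) (k : F), act (a : A) v = k • v → f a = k :=
    fun a k hk => smul_left_injective F hv ((hf a).symm.trans hk)
  have hcoe : ∀ a b : Algebra.adjoin O G,
      ((a * b : Algebra.adjoin O G) : A) = (a : A) * (b : A) := fun _ _ => rfl
  refine ⟨AlgHom.mk' ⟨⟨⟨f, hu _ 1 (by simp)⟩, fun a b => hu _ _ (by
      rw [hcoe, map_mul, Module.End.mul_apply, hf b, map_smul, hf a, smul_smul, mul_comm])⟩,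
    hu _ 0 (by simp), fun a b => hu _ _ (by simp [hf a, hf b, add_smul])⟩ fun c a => hu _ _ (by
      simp [hf a]), hf⟩

variable {O : Type} [CommRing O] [IsDomain O] [IsDiscreteValuationRing O]
  [IsAdicComplete (maximalIdeal O) O] [Finite (ResidueField O)] [CharZero O] {p : ℕ}
  [Fact p.Prime] {ρbar : ResidualGaloisRep (ResidueField O)} {S : OddPrimes p ρbar}
  {tp : S.TamePairs} {P : SupplyParams S tp} {Q : Finset ℕ} {r e : ℕ}
  {C : SupplyLevel P Q r e}

/-- The systems of a variant as a system module. -/
def SupplySystems.sysModule {v : OddVariant} (Y : SupplySystems C v) : SystemModule Y.y where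
  M := C.Mod v
  T := C.hecke v
  κ := Y.κ
  sys := id
  ev := Y.ev
  ev_inj := Y.ev_inj
  E := C.exc v
  t := C.tElt v
  t_spec := Y.t_spec

/-- The good operators of the full module and the twisted `U s`. -/
def SupplyLevel.extPolys (C : SupplyLevel P Q r e) (s : ℕ) :
    Subalgebra O (BettiHeckeAlg (DiamondRing O C.Δ)) :=
  Algebra.adjoin O (insert (C.opT (.old s) s) (C.polys .std : Set _))

theorem SupplyLevel.opT_mem_extPolys (C : SupplyLevel P Q r e) (s : ℕ) :
    C.opT (.old s) s ∈ C.extPolys s :=
  Algebra.subset_adjoin (Set.mem_insert _ _)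

theorem SupplyLevel.polys_le_extPolys (C : SupplyLevel P Q r e) (s : ℕ) :
    C.polys .std ≤ C.extPolys s :=
  fun _ h => Algebra.subset_adjoin (Set.mem_insert_of_mem _ h)

/-- **The cokernel lemma at a prime with an old part.** -/
theorem SupplyRaiseCore.smul_mem_range_of_eigen (hp2 : p ≠ 2) (hpO : (p : O) ∈ maximalIdeal O)
    (hres : OddResidual p ρbar) {s : ℕ} (D : SupplyRaiseCore C s) (Y : SupplySystems C .std)
    (z : C.hecke .std)
    (h : ∀ (F : Type) [Field F] [IsAlgClosed F] [Algebra O F], Function.Injective (algebraMap O F) →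
      ∀ (j : Y.κ) (ι : (Y.y j).O' →+* F), Function.Injective ι →
      (∀ d : O, ι (algebraMap O _ d) = algebraMap O F d) →
      ∀ π : C.extPolys s →ₐ[O] F,
        (∀ R : C.extPolys s, (∀ y : C.Mod .std,
          (R : BettiHeckeAlg (DiamondRing O C.Δ)) • y = 0) → π R = 0) →
        (∀ R : C.polys .std,
          π ⟨R, C.polys_le_extPolys s R.2⟩ = ι (Y.ev j (C.toHecke .std R))) →
        π ⟨_, C.opT_mem_extPolys s⟩ ^ 2 = 1 → Y.ev j z = 0)
    (m : C.Mod .std) : z • m ∈ LinearMap.range D.up := by
  classical
  haveI := C.finite_Δ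
  obtain ⟨b⟩ := nonempty_supplyBasis hp2 hpO hres C (v := .std) (fun s h => by cases h)
  haveI := Module.Finite.of_basis b
  haveI := Module.Free.of_basis b
  haveI : Module.Free O (C.Mod .std) := Module.Free.trans (R := O) (S := DiamondRing O C.Δ)
  haveI : Module.Finite O (C.Mod .std) := Module.Finite.trans (DiamondRing O C.Δ) _
  haveI : IsReduced (C.hecke .std) := Y.sysModule.isReduced_T
  have hsurj : Function.Surjective (C.toHecke .std) := AlgHom.rangeRestrict_surjective _
  haveI : IsScalarTower O (C.hecke .std) (C.Mod .std) := ⟨fun _ _ _ => rfl⟩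
  let N : Submodule (C.hecke .std) (C.Mod .std) :=
    { (LinearMap.range D.up).toAddSubmonoid with
      smul_mem' := fun t x hx => (hsurj t).elim fun R hR =>
        hR ▸ D.range_smul (R : BettiHeckeAlg (DiamondRing O C.Δ)) x hx }
  let u : Module.End (C.hecke .std) (C.Mod .std) :=
    { toFun := fun x => C.opT (.old s) s • x
      map_add' := fun x y => smul_add _ x y
      map_smul' := fun t x => (hsurj t).elim fun R hR => by
        subst hR
        exact smul_comm _ (R : BettiHeckeAlg (DiamondRing O C.Δ)) x }
  have hz : IsIntegral O z := Y.sysModule.isIntegral_T z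
  refine FermatLib.MLT.smul_mem_of_forall_eigen (O := O) N (fun d hd x hx => D.torsion_free d hd x hx)
    u (fun x hx => D.range_smul _ x hx) (1 : O) (fun x => ?_) hz ?_ m
  · show C.opT (.old s) s • C.opT (.old s) s • x - (1 : O) • x ∈ LinearMap.range D.up
    rw [one_smul, smul_smul, ← pow_two]
    exact D.sq_sub_mem x
  intro F _ _ _ _ χ α v hv hχ ht hu hα
  obtain ⟨j, ι, hι, hιd, hιa⟩ := Y.sysModule.exists_sys_of_point χ hχ
  let act : BettiHeckeAlg (DiamondRing O C.Δ) →ₐ[O] Module.End F (F ⊗[O] C.Mod .std) :=
    (Module.End.baseChangeHom O F (C.Mod .std)).comp (Algebra.lsmul O O (C.Mod .std))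
  have hactu : act (C.opT (.old s) s) v = α • v := hu
  have hactR : ∀ R : C.polys .std, act R v = χ (C.toHecke .std R) • v := fun R =>
    ht (C.toHecke .std R)
  obtain ⟨π, hπ⟩ := exists_scalar_hom act hv
    (insert (C.opT (.old s) s) (C.polys .std : Set _)) (by
      rintro a (rfl | ha)
      · exact ⟨α, hactu⟩
      · exact ⟨_, hactR ⟨a, ha⟩⟩)
  have huniq : ∀ (R : C.extPolys s) (k : F),
      act (R : BettiHeckeAlg (DiamondRing O C.Δ)) v = k • v → π R = k :=
    fun R k hk => smul_left_injective F hv ((hπ R).symm.trans hk)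
  refine (hιa z).trans ?_
  refine (congrArg ι (h F (FaithfulSMul.algebraMap_injective O F) j ι hι hιd π (fun R hR => huniq R 0 ?_) (fun R => ?_) ?_)).trans
    (map_zero ι)
  · rw [zero_smul]
    have h0 : Algebra.lsmul O O (C.Mod .std) (R : BettiHeckeAlg (DiamondRing O C.Δ)) = 0 :=
      LinearMap.ext hR
    show Module.End.baseChangeHom O F (C.Mod .std) _ v = 0
    refine (congrArg (fun f => Module.End.baseChangeHom O F (C.Mod .std) f v) h0).trans ?_
    simp
  · exact (huniq ⟨R, C.polys_le_extPolys s R.2⟩ _ (hactR R)).trans (hιa _)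
  · exact (congrArg (· ^ 2) (huniq ⟨_, C.opT_mem_extPolys s⟩ α hactu)).trans
      (hα.trans (map_one _))

end FermatLib.MLT.Odd

end
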