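import Fermat.Agent.MLT.Odd.SupplyCokerPoint
import Fermat.Agent.MLT.Odd.SignOfEigenform

/-!
# The cokernel of raising at a prime of `F`

An eigen system of the full module outside the old part at `s` has twisted `U s = ε s`, so its
trace of Frobenius at `s` is `ε (s + 1)`.
-/

set_option autoImplicit false
set_option linter.style.haveILetI false
set_option linter.unusedSectionVars false

noncomputable section

namespace FermatLib.MLT.Odd

open IsLocalRing MvPolynomial

local notation "ZbarC" => integralClosure ℤ ℂ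

/-- An operator invertible on a finite module has nonzero value at a character of an algebra of
operators killing what kills the module. -/
theorem point_ne_zero_of_isUnit {O A M F : Type} [CommRing O] [CommRing A] [Algebra O A]
    [AddCommGroup M] [Module A M] [Module O M] [IsScalarTower O A M] [Module.Finite O M] [Field F]
    [Algebra O F] (H : Subalgebra O A) (π : H →ₐ[O] F)
    (hker : ∀ R : H, (∀ m : M, (R : A) • m = 0) → π R = 0) {R : H}
    (hR : IsUnit (algebraMap A (Module.End A M) R)) : π R ≠ 0 := by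
  obtain ⟨u, hu⟩ := hR
  let L : H →ₐ[O] Module.End O M := (Algebra.lsmul O O M).comp H.val
  have hu' : ∀ z, (↑u : Module.End A M) z = (R : A) • z := fun z => by rw [hu]; rfl
  let i : Module.End O M := (↑u⁻¹ : Module.End A M).restrictScalars O
  have hti : L R * i = 1 := LinearMap.ext fun y => by
    show (R : A) • (↑u⁻¹ : Module.End A M) y = y
    rw [← hu', ← Module.End.mul_apply, Units.mul_inv, Module.End.one_apply]
  have hit : i * L R = 1 := LinearMap.ext fun y => by
    show (↑u⁻¹ : Module.End A M) ((R : A) • y) = y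
    rw [← hu', ← Module.End.mul_apply, Units.inv_mul, Module.End.one_apply]
  obtain ⟨R', hR'⟩ : i ∈ L.range :=
    inverse_mem_of_isIntegral L.range ⟨R, rfl⟩ hti hit (Algebra.IsIntegral.isIntegral i)
  have hR'' : L R' = i := hR'
  have h0 : π (R * R' - 1) = 0 := hker _ fun m => by
    show L (R * R' - 1) m = 0
    rw [map_sub, map_mul, map_one, hR'', hti, sub_self, LinearMap.zero_apply]
  intro h
  rw [map_sub, map_mul, map_one, h, zero_mul, zero_sub, neg_eq_zero] at h0
  exact one_ne_zero h0

variable {O : Type} [CommRing O] [IsDomain O] [IsDiscreteValuationRing O]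
  [IsAdicComplete (maximalIdeal O) O] [Finite (ResidueField O)] [CharZero O] {p : ℕ}
  [Fact p.Prime] {ρbar : ResidualGaloisRep (ResidueField O)} {S : OddPrimes p ρbar}
  {tp : S.TamePairs} {P : SupplyParams S tp} {Q : Finset ℕ} {r e : ℕ}
  {C : SupplyLevel P Q r e}

/-- Two signs congruent modulo the maximal ideal after multiplication by a unit residue agree. -/
theorem sign_eq_of_residue {k : Type} [Field k] (h2 : (2 : k) ≠ 0) {x : k} (hx : x ≠ 0)
    {a b : ℤ} (ha : a = 1 ∨ a = -1) (hb : b = 1 ∨ b = -1) (h : (a : k) * x = (b : k) * x) :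
    a = b := by
  have h' := mul_right_cancel₀ hx h
  rcases ha with rfl | rfl <;> rcases hb with rfl | rfl
  · rfl
  · push_cast at h'; exact absurd (by linear_combination h') h2
  · push_cast at h'; exact absurd (by linear_combination -h') h2
  · rfl

/-- **At a prime of `F` the kernel of the twisted `T s - ε (s + 1)` maps into the old part.** -/
theorem SupplyRaiseCore.smul_mem_range_F (hp2 : p ≠ 2) (hpO : (p : O) ∈ maximalIdeal O)
    (hres : OddResidual p ρbar) {s : ℕ} (D : SupplyRaiseCore C s) (Y : SupplySystems C .std)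
    (hs : s ∈ S.F) (z : C.hecke .std)
    (hz : ∀ j, Y.ev j z = (Y.y j).r.trace (tp.atF ⟨s, hs⟩).frob -
      (S.ε s : (Y.y j).O') * (((s : ℕ) : (Y.y j).O') + 1)) (m : C.Mod .std) :
    z • m ∈ LinearMap.range D.up := by
  classical
  have hp : p.Prime := Fact.out
  have hs' : S.HasOld s := Or.inl hs
  have hsp : s ≠ p := S.ne_p s (Finset.mem_union_right _ hs)
  refine D.smul_mem_range_of_eigen hp2 hpO hres Y z ?_ m
  intro F _ _ _ hinj j ι hι hιd π hker hπ hsq
  haveI : CharZero F := charZero_of_injective_algebraMap hinj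
  obtain ⟨N, hN, f, ι₀, hf, hsN, hs2, hNE, ⟨a, ha, ha'⟩, hℓ⟩ :=
    C.exists_eigenform_extPoint hp2 hpO hres hs' π hker
  haveI := hN
  let α := π ⟨_, C.opT_mem_extPolys s⟩
  have hα : α = π ⟨_, C.opT_mem_extPolys s⟩ := rfl
  rw [← hα] at hsq ha'
  obtain ⟨c, hc, hcα⟩ : ∃ c : ℤ, (c = 1 ∨ c = -1) ∧ α = (c : F) := by
    rcases sq_eq_one_iff.1 hsq with h | h
    · exact ⟨1, Or.inl rfl, by rw [h, Int.cast_one]⟩
    · exact ⟨-1, Or.inr rfl, by rw [h, Int.cast_neg, Int.cast_one]⟩
  have hι₀ : Function.Injective ι₀ := by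
    refine (RingHom.injective_iff_ker_eq_bot ι₀).2 (Ideal.eq_bot_of_comap_eq_bot (R := ℤ) ?_)
    refine eq_bot_iff.2 fun n hn => ?_
    rw [Ideal.mem_comap, RingHom.mem_ker, eq_intCast, map_intCast, Int.cast_eq_zero] at hn
    exact hn
  have hac : a = (c : ZbarC) := hι₀ (by rw [ha', map_intCast, ← hcα])
  have hqs : ModularFormClass.qCoeff ⇑f s = (c : ℂ) := by
    rw [← ha, hac]
    push_cast
    rfl
  have htr := trace_eq_of_eigenform (r := (Y.y j).r) (Y.y j).lift.det
    ((Y.y j).residual_irred hres.absIrred) ι hι hf ι₀ (C.exc .std)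
    (fun ℓ => Y.ev j (C.tElt .std ℓ)) (fun ℓ hℓ' hℓE A hA σ hσ => Y.t_spec j ℓ hℓ' hℓE A hA σ hσ)
    (fun ℓ hℓ' hℓE _ b hb => by
      obtain ⟨b', hb', hb''⟩ := hℓ ℓ hℓ' hℓE
      rw [show b = b' from Subtype.ext (hb.trans hb'.symm), hb'',
        hπ ⟨C.opT .std ℓ, C.opT_mem_polys hℓ' hℓE⟩]
      show ι _ = ι (Y.ev j (C.tElt .std ℓ))
      rw [SupplyLevel.tElt, dif_pos ⟨hℓ', hℓE⟩]) hs'.prime hsp hsN hs2 (e := c)
    (by rcases hc with rfl | rfl <;> norm_num) hqs (tp.atF ⟨s, hs⟩).liesOver
    (tp.atF ⟨s, hs⟩).frob_spec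
  suffices hcε : c = S.ε s by rw [hz j, htr, hcε, sub_self]
  have hpk : (p : ResidueField O) = 0 := by
    rw [← map_natCast (residue O), residue_eq_zero_iff]
    exact hpO
  by_cases hd : p ∣ s + 1
  · have hk : S.kap s = 1 := hs'.kap_eq_one_iff.2 (Or.inr hd)
    by_contra hne
    have hε : (S.ε s : ℤ) = -c := by
      rcases S.sign_F s hs with h | h <;> rcases hc with rfl | rfl <;> omega
    let R : C.extPolys s := ⟨_, C.opT_mem_extPolys s⟩ + (S.ε s : C.extPolys s)
    haveI := C.finite_Δ
    obtain ⟨b⟩ := nonempty_supplyBasis hp2 hpO hres C (v := .std) (fun s h => by cases h)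
    haveI := Module.Finite.of_basis b
    haveI : Module.Finite O (C.Mod .std) := Module.Finite.trans (DiamondRing O C.Δ) _
    refine point_ne_zero_of_isUnit (C.extPolys s) π hker (R := R) (C.isUnit_end ?_ ?_) ?_
    · show C.opT (.old s) s + ((S.ε s : C.extPolys s) : BettiHeckeAlg (DiamondRing O C.Δ)) ∈ _
      rw [SupplyLevel.opT, dif_pos hs'.prime, SubringClass.coe_intCast]
      exact add_mem (mul_mem (C_mem_supported_set _ _)
        (X_mem_supported_set (SupplyLevel.mem_supplyPrimes hs' hk))) (intCast_mem _ _)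
    · show C.gTheta .std (C.opT (.old s) s +
        ((S.ε s : C.extPolys s) : BettiHeckeAlg (DiamondRing O C.Δ))) ≠ 0
      rw [show C.opT (.old s) s = MvPolynomial.C (C.twist (.old s) s) * X hs'.toPrime from
        dif_pos hs'.prime, SubringClass.coe_intCast, map_add, map_mul,
        map_intCast, C.gTheta_C, C.diamondAug_twist_old (C.coprime_level_old hs'), map_one,
        one_mul, C.gTheta_X, C.theta_X_of_notMem _ fun i => C.qv_ne_of_hasOld hs' i]
      simp only [SupplyParams.baseTheta, eval₂Hom_X']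
      rw [P.θX_F hs'.toPrime hs hd]
      have h2 := SupplyLevel.two_ne_zero_residue (O := O) hp2 hpO
      rcases S.sign_F s hs with h | h <;> simp only [h] <;> push_cast
      · rwa [one_add_one_eq_two]
      · rw [← neg_add, one_add_one_eq_two]
        exact neg_ne_zero.2 h2
    · rw [map_add, map_intCast, ← hα, hcα, hε, Int.cast_neg, add_neg_cancel]
  · have hres' := (Y.y j).residue_trace (tp.atF ⟨s, hs⟩).frob
    rw [htr, S.trace_F s hs _ (tp.atF ⟨s, hs⟩).liesOver _ (tp.atF ⟨s, hs⟩).frob_spec] at hres'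
    simp only [map_mul, map_add, map_intCast, map_natCast, map_one] at hres'
    let φ := ResidueField.map (algebraMap O (Y.y j).O')
    refine sign_eq_of_residue (k := ResidueField O)
      (SupplyLevel.two_ne_zero_residue hp2 hpO) (x := (s : ResidueField O) + 1) ?_ hc
      (S.sign_F s hs) (φ.injective ?_)
    · haveI : CharP (ResidueField O) p := (CharP.charP_iff_prime_eq_zero hp).2 hpk
      intro h
      exact hd ((CharP.cast_eq_zero_iff (ResidueField O) p (s + 1)).1 (by push_cast; exact h))
    · simp only [map_mul, map_add, map_intCast, map_natCast, map_one]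
      exact hres'

end FermatLib.MLT.Odd

end
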