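import Fermat.Agent.MLT.Odd.SupplyDefs
import Fermat.Agent.MLT.Hecke.EigenPoint
import Fermat.Agent.Modular.TwistSystemEigen
import Fermat.Agent.MLT.Two.ModuleBase

/-!
# The eigenclass of a point of the Hecke algebra of a level

A point of `C.hecke v` with values in an algebraically closed field extends to the Hecke algebra of
all operators with diamond coefficients, and so is the system of eigenvalues of a
class of `H¹(Γ₀(level), ψ ∘ charDiamond)`.
-/

set_option autoImplicit false
set_option linter.style.haveILetI false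

noncomputable section

namespace FermatLib.MLT.Odd

open IsLocalRing MvPolynomial

variable {O : Type} [CommRing O] [IsDomain O] [IsDiscreteValuationRing O]
  [IsAdicComplete (maximalIdeal O) O] {p : ℕ} [Fact p.Prime]
  {ρbar : ResidualGaloisRep (ResidueField O)} {S : OddPrimes p ρbar} {tp : S.TamePairs}
  {P : SupplyParams S tp} {Q : Finset ℕ} {r e : ℕ}

/-- A point extends along a map of algebras with smaller kernel into an integral algebra. -/
theorem exists_point_extends {R Pl H T K : Type} [CommRing R] [CommRing Pl] [CommRing H]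
    [CommRing T] [Field K] [IsAlgClosed K] [Algebra R Pl] [Algebra R H] [Algebra R T]
    [Algebra.IsIntegral R T] (π : Pl →ₐ[R] H) (q : Pl →ₐ[R] T)
    (hker : ∀ z, q z = 0 → π z = 0) (ev : H →+* K) :
    ∃ F : T →+* K, ∀ z, F (q z) = ev (π z) := by
  let φ : q.range →+* K := RingHom.liftOfSurjective q.rangeRestrict.toRingHom
    q.rangeRestrict_surjective ⟨ev.comp π.toRingHom, fun z hz => by
      rw [RingHom.mem_ker] at hz ⊢
      show ev (π z) = 0
      rw [hker z (congrArg Subtype.val hz), map_zero]⟩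
  haveI : Algebra.IsIntegral q.range T := Algebra.IsIntegral.tower_top R
  obtain ⟨F, hF⟩ := Modular.Twist.exists_ringHom_extends_field (A := q.range) (B := T)
    Subtype.val_injective φ
  exact ⟨F, fun z => (RingHom.congr_fun hF (q.rangeRestrict z)).trans
    (RingHom.liftOfRightInverse_comp_apply _ _ _ _ z)⟩

namespace SupplyLevel

variable (C : SupplyLevel P Q r e) (v : OddVariant)

omit [IsAdicComplete (maximalIdeal O) O] in
theorem isPGroup_delta : IsPGroup p C.Δ := fun g => ⟨e, by
  refine funext fun i => ?_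
  show (g i) ^ (p ^ e) = 1
  rw [← toAdd_eq_zero, toAdd_pow, nsmul_eq_mul, Nat.cast_pow, ← Nat.cast_pow, ZMod.natCast_self,
    zero_mul]⟩

omit [IsAdicComplete (maximalIdeal O) O] in
/-- `θ` on constants. -/
theorem theta_const (a : O) : C.theta v (MvPolynomial.C a) = residue O a := by
  rw [theta, residualRaiseSet_C, SupplyParams.baseTheta, eval₂Hom_C]

omit [IsAdicComplete (maximalIdeal O) O] in
/-- The action of the Hecke algebra of a variant. -/
theorem toHecke_apply (R : C.polys v) (m : C.Mod v) :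
    (C.toHecke v R : Module.End O (C.Mod v)) m = (R : BettiHeckeAlg (DiamondRing O C.Δ)) • m := rfl

/-- **The eigenclass of a point.** -/
theorem exists_eigenclass_point (hpO : (p : O) ∈ maximalIdeal O)
    (hχ : C.char v (-1) = 1) (hδ : C.delta v (-1) = 1)
    (hell : EllipticHarmless (C.level v) S.supplyPrimes (C.theta v))
    (l₀ : Nat.Primes) (hl₀ : l₀ ∈ S.supplyPrimes)
    (hne : C.theta v (X l₀) ≠ C.theta v (MvPolynomial.C (heckeDegree (C.char v) l₀)))
    {K : Type} [Field K] [IsAlgClosed K] (ev : C.hecke v →+* K) :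
    ∃ (F : bettiFullHecke (charDiamond O (C.char v) (C.delta v)) S.supplyPrimes
          (gammaHTheta O (C.theta v) C.Δ) →+* K)
      (ψ : DiamondRing O C.Δ →+* K) (lam : Nat.Primes → K)
      (x : BettiMod (C.level v) ((Units.map (ψ : DiamondRing O C.Δ →* K)).comp
        (charDiamond O (C.char v) (C.delta v))) K),
      x ≠ 0 ∧ (∀ q, (X q : BettiHeckeAlg K) • x = lam q • x) ∧
      (∀ a, F (algebraMap _ _ a) = ψ a) ∧
      (∀ q : Nat.Primes, lam q = F (bettiFullQuot _ _ _ (X q))) ∧
      (∀ a : O, ψ (algebraMap O (DiamondRing O C.Δ) a) = ev (algebraMap O (C.hecke v) a)) ∧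
      (∀ g, ψ (MonoidAlgebra.of O C.Δ g) = ev (C.diamond v g)) ∧
      ∀ (ℓ : ℕ) (hℓ : ℓ.Prime), ℓ ∉ C.exc v →
        ψ (C.twist v ℓ) * lam ⟨ℓ, hℓ⟩ = ev (C.tElt v ℓ) := by
  classical
  let χd := charDiamond O (C.char v) (C.delta v)
  let θd := gammaHTheta O (C.theta v) C.Δ
  haveI := diamond_isLocalRing O C.Δ hpO C.isPGroup_delta
  haveI := diamond_isAdicComplete O C.Δ
  have hθ : ∀ a ∈ maximalIdeal (DiamondRing O C.Δ), θd (MvPolynomial.C a) = 0 :=
    gammaHTheta_maximal (Δ := C.Δ) O (C.theta v) fun a ha => by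
      rw [C.theta_const v]; exact (residue_eq_zero_iff a).2 ha
  let T := bettiFullHecke χd S.supplyPrimes θd
  haveI : Module.Finite (DiamondRing O C.Δ) T := bettiFullHecke_finite χd θd hθ
  haveI : Module.Finite O T := Module.Finite.trans (DiamondRing O C.Δ) T
  haveI : Algebra.IsIntegral O T := Algebra.IsIntegral.of_finite O T
  let q : C.polys v →ₐ[O] T :=
    ((bettiFullQuot χd S.supplyPrimes θd).restrictScalars O).comp (C.polys v).val
  have hker : ∀ R, q R = 0 → C.toHecke v R = 0 := fun R hR => by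
    refine Subtype.ext (LinearMap.ext fun m => ?_)
    have h1 : (R : BettiHeckeAlg (DiamondRing O C.Δ)) • m = 0 := by
      refine (bettiFullQuot_smul χd S.supplyPrimes θd R m).symm.trans ?_
      have h2 : bettiFullQuot χd S.supplyPrimes θd (R : BettiHeckeAlg (DiamondRing O C.Δ)) = 0 := hR
      rw [h2]
      rfl
    exact (C.toHecke_apply v R m).trans h1
  refine Exists.elim (exists_point_extends (C.toHecke v) q hker ev) fun F hFg => ?_
  let ψ : DiamondRing O C.Δ →+* K := F.comp (algebraMap _ T)
  letI : Algebra (DiamondRing O C.Δ) K := ψ.toAlgebra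
  have hψC : ∀ (a : DiamondRing O C.Δ) (ha : MvPolynomial.C a ∈ C.polys v),
      ψ a = ev (C.toHecke v ⟨MvPolynomial.C a, ha⟩) := fun a ha => by
    rw [← hFg]
    refine congrArg F ?_
    exact ((bettiFullQuot χd S.supplyPrimes θd).commutes a).symm
  refine Exists.elim (exists_eigenclass_of_fullPoint χd
    (charDiamond_neg_one O _ _ hχ hδ) θd hθ (ellipticHarmless_diamond O _ _ hell) l₀ hl₀
    (by
      rwa [gammaHTheta_X, gammaHTheta_C, show diamondAug O C.Δ (heckeDegree χd l₀) =
        heckeDegree (C.char v) l₀ by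
          show algebraMap (DiamondRing O C.Δ) O _ = _
          rw [← heckeDegree_baseChar, bettiBaseChar_charDiamond]])
    (K := K) { F with commutes' := fun _ => rfl }) fun x ⟨hx, heig⟩ => ?_
  refine ⟨F, ψ, fun l => F (bettiFullQuot χd S.supplyPrimes θd (X l)), x, hx, heig,
    fun _ => rfl, fun _ => rfl, fun a => ?_, fun d => ?_, fun ℓ hℓ hℓE => ?_⟩
  · exact (hψC _ ((C.polys v).algebraMap_mem a)).trans (congrArg ev (AlgHom.commutes _ a))
  · exact hψC _ _
  · refine ((map_mul F (algebraMap _ T (C.twist v ℓ)) _).symm.trans ?_).trans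
      (congrArg ev (dif_pos (c := ℓ.Prime ∧ ℓ ∉ C.exc v) ⟨hℓ, hℓE⟩).symm)
    refine Eq.trans (congrArg F ?_) (hFg _)
    refine ((congrArg (· * _) ((bettiFullQuot χd S.supplyPrimes θd).commutes
      (C.twist v ℓ)).symm).trans (map_mul (bettiFullQuot χd S.supplyPrimes θd) _ _).symm).trans
      (congrArg (bettiFullQuot χd S.supplyPrimes θd) ?_)
    show MvPolynomial.C (C.twist v ℓ) * X _ = C.opT v ℓ
    rw [opT, dif_pos hℓ]

end SupplyLevel

end FermatLib.MLT.Odd

end
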