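import Fermat.Agent.MLT.Odd.SupplyModulesRank
import Fermat.Agent.MLT.Odd.SystemFamilyTwist
import Mathlib.GroupTheory.FiniteAbelian.Duality
import Mathlib.RingTheory.RootsOfUnity.AlgebraicallyClosed
import Mathlib.NumberTheory.Real.Irrational

/-!
# The levels of the variants: squarefree, the twisting data and the points of the diamonds

The nebentype of a variant is a product of characters of `p`-power order at the auxiliary primes
and, for the twisted variant, at `T`; the twist is its inverse square root.  The diamond ring is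
separated by its points in an algebraically closed field.
-/

set_option autoImplicit false
set_option linter.style.haveILetI false
set_option linter.unusedSectionVars false

noncomputable section

namespace FermatLib.MLT.Odd

open IsLocalRing

/-- A product of distinct primes is squarefree. -/
theorem squarefree_finset_prod_primes {ι : Type*} (s : Finset ι) (f : ι → ℕ)
    (hp : ∀ i ∈ s, (f i).Prime) (hinj : ∀ i ∈ s, ∀ j ∈ s, f i = f j → i = j) :
    Squarefree (∏ i ∈ s, f i) := by
  classical
  induction s using Finset.induction_on with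
  | empty => simp
  | insert a s ha ih =>
    rw [Finset.prod_insert ha, Nat.squarefree_mul_iff]
    refine ⟨Nat.Coprime.prod_right fun i hi => ?_, (hp a (Finset.mem_insert_self a s)).squarefree,
      ih (fun i hi => hp i (Finset.mem_insert_of_mem hi))
        fun i hi j hj h => hinj i (Finset.mem_insert_of_mem hi) j (Finset.mem_insert_of_mem hj) h⟩
    refine (Nat.coprime_primes (hp a (Finset.mem_insert_self a s))
      (hp i (Finset.mem_insert_of_mem hi))).2 fun h => ha ?_
    rw [hinj a (Finset.mem_insert_self a s) i (Finset.mem_insert_of_mem hi) h]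
    exact hi

variable {O : Type} [CommRing O] [IsDomain O] [IsDiscreteValuationRing O]
  [IsAdicComplete (maximalIdeal O) O] [Finite (ResidueField O)] [CharZero O] {p : ℕ} [Fact p.Prime]
  {ρbar : ResidualGaloisRep (ResidueField O)}

/-- The level is squarefree. -/
theorem squarefree_oddLevel (S : OddPrimes p ρbar) : Squarefree S.level := by
  have hall : Squarefree (∏ q ∈ S.all, q) :=
    squarefree_finset_prod_primes _ id (fun q hq => S.prime_of_mem q hq) fun i _ j _ h => h
  unfold OddPrimes.level
  split_ifs
  · rwa [mul_one]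
  · refine Nat.squarefree_mul_iff.2 ⟨Nat.Coprime.prod_left fun q hq =>
      (Nat.coprime_primes (S.prime_of_mem q hq) Fact.out).2 (S.ne_p q hq), hall,
      (Fact.out : p.Prime).squarefree⟩

variable {S : OddPrimes p ρbar} {tp : S.TamePairs} {P : SupplyParams S tp} {Q : Finset ℕ}
  {r e : ℕ} (C : SupplyLevel P Q r e)

namespace SupplyLevel

theorem qv_coprime_baseLevel (v : OddVariant) (i : Fin r) :
    ¬ C.qv i ∣ S.baseLevel v := fun h =>
  C.not_dvd_qv i ((h.trans (baseLevel_dvd_level S v)).mul_left p)

theorem squarefree_prod_qv : Squarefree (∏ i, C.qv i) :=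
  squarefree_finset_prod_primes _ C.qv (fun i _ => C.prime i) fun _ _ _ _ h => C.injective h

/-- The level of a variant is squarefree. -/
theorem squarefree_level (v : OddVariant) : Squarefree (C.level v) :=
  Nat.squarefree_mul_iff.2 ⟨Nat.Coprime.prod_right fun i _ =>
      ((C.prime i).coprime_iff_not_dvd.2 (C.qv_coprime_baseLevel v i)).symm,
    (squarefree_oddLevel S).squarefree_of_dvd (baseLevel_dvd_level S v), C.squarefree_prod_qv⟩

theorem not_sq_dvd_level (v : OddVariant) {q : ℕ} (hq : q.Prime) : ¬ q ^ 2 ∣ C.level v := fun h =>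
  hq.ne_one (Nat.isUnit_iff.1 (C.squarefree_level v q (by rwa [sq] at h)))

/-- A prime of the level is an auxiliary prime or a prime of the base level. -/
theorem mem_of_dvd_level (v : OddVariant) {q : ℕ} (hq : q.Prime) (h : q ∣ C.level v) :
    q ∣ S.baseLevel v ∨ ∃ i, C.qv i = q := by
  rcases hq.dvd_mul.1 h with h | h
  · exact Or.inl h
  · obtain ⟨i, -, hi⟩ := (Prime.dvd_finsetProd_iff hq.prime _).1 h
    exact Or.inr ⟨i, ((Nat.prime_dvd_prime_iff_eq hq (C.prime i)).1 hi).symm⟩

/-- The primes at which the nebentype may be nontrivial, without the auxiliary ones. -/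
def tSet (_C : SupplyLevel P Q r e) : OddVariant → Finset ℕ
  | .chi => S.T
  | .std => ∅
  | .old _ => ∅

/-- The component at `q` of the constant part of the nebentype. -/
def tChar (v : OddVariant) (q : ℕ) : (ZMod q)ˣ →* (DiamondRing O C.Δ)ˣ :=
  if h : q ∈ C.tSet v then
    (Units.map (algebraMap O (DiamondRing O C.Δ) : O →* DiamondRing O C.Δ)).comp (P.χT ⟨q, by
      cases v with
      | chi => exact h
      | std => exact absurd h (Finset.notMem_empty q)
      | old _ => exact absurd h (Finset.notMem_empty q)⟩)
  else 1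

open Classical in
/-- The component at `q` of the diamond part of the nebentype. -/
def qChar (q : ℕ) : (ZMod q)ˣ →* (DiamondRing O C.Δ)ˣ :=
  if h : ∃ i, C.qv i = q then
    (diamondOf O C.Δ).comp ((MonoidHom.mulSingle (fun _ : Fin r => Multiplicative (ZMod (p ^ e)))
      h.choose).comp ((C.f h.choose).comp (ZMod.unitsMap (dvd_of_eq h.choose_spec))))
  else 1

theorem tSet_subset_T (v : OddVariant) : C.tSet v ⊆ S.T := by
  cases v <;> simp [tSet]

theorem tSet_dvd (v : OddVariant) {q : ℕ} (hq : q ∈ C.tSet v) : q ∣ C.level v := by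
  cases v with
  | chi => exact C.dvd_level_of_mem_T hq
  | std => exact absurd hq (Finset.notMem_empty q)
  | old _ => exact absurd hq (Finset.notMem_empty q)

theorem not_exists_qv_of_mem_tSet {v : OddVariant} {q : ℕ} (hq : q ∈ C.tSet v) :
    ¬ ∃ i, C.qv i = q := fun ⟨i, hi⟩ =>
  C.notMem i (Finset.mem_insert_of_mem (Finset.mem_union_left _ (Finset.mem_union_right _
    (hi ▸ C.tSet_subset_T v hq))))

theorem qChar_qv (i : Fin r) (u : (ZMod (C.qv i))ˣ) :
    C.qChar (C.qv i) u = diamondOf O C.Δ (Pi.mulSingle i (C.f i u)) := by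
  classical
  have h : ∃ j, C.qv j = C.qv i := ⟨i, rfl⟩
  rw [qChar, dif_pos h]
  have key : ∀ (j : Fin r) (hj : C.qv j = C.qv i), j = i →
      diamondOf O C.Δ (Pi.mulSingle j (C.f j (ZMod.unitsMap (dvd_of_eq hj) u))) =
        diamondOf O C.Δ (Pi.mulSingle i (C.f i u)) := by
    rintro j hj rfl
    rw [ZMod.unitsMap_self, MonoidHom.id_apply]
  exact key h.choose h.choose_spec (C.injective h.choose_spec)

theorem qChar_pow (q : ℕ) : C.qChar q ^ p ^ (e + 1) = 1 := by
  classical
  refine MonoidHom.ext fun u => ?_
  rw [MonoidHom.pow_apply, MonoidHom.one_apply, qChar]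
  split_ifs with h
  · rw [MonoidHom.comp_apply, ← map_pow]
    refine (congrArg (diamondOf O C.Δ) (funext fun j => ?_)).trans (map_one _)
    rw [Pi.pow_apply, Pi.one_apply]
    refine Multiplicative.toAdd.injective ?_
    rw [toAdd_pow, toAdd_one, pow_succ, mul_nsmul, nsmul_eq_mul ((p : ℕ) ^ e),
      ZMod.natCast_self, zero_mul, nsmul_zero]
  · exact one_pow _

theorem tChar_pow (v : OddVariant) (q : ℕ) : C.tChar v q ^ p ^ (e + 1) = 1 := by
  refine MonoidHom.ext fun u => ?_
  rw [MonoidHom.pow_apply, MonoidHom.one_apply, tChar]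
  split_ifs with h
  · rw [MonoidHom.comp_apply, ← map_pow, pow_succ', pow_mul, P.χT_pow, one_pow, map_one]
  · exact one_pow _

theorem ofUnitHom_natCast_eq {A : Type} [CommRing A] {q n : ℕ} (hn : n.Coprime q)
    (ψ : (ZMod q)ˣ →* Aˣ) :
    MulChar.ofUnitHom ψ (n : ZMod q) = (ψ (ZMod.unitOfCoprime n hn) : A) := by
  rw [← MulChar.ofUnitHom_coe, ZMod.coe_unitOfCoprime]

theorem unitsMap_unitOfCoprime {n m k : ℕ} (hm : m ∣ k) (hn : n.Coprime k) :
    ZMod.unitsMap hm (ZMod.unitOfCoprime n hn) =
      ZMod.unitOfCoprime n (hn.coprime_dvd_right hm) :=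
  Units.ext (by simp [ZMod.unitsMap_def])

theorem coe_delta_unitOfCoprime (v : OddVariant) {n : ℕ} (hn : n.Coprime (C.level v)) :
    diamondOf O C.Δ (C.delta v (ZMod.unitOfCoprime n hn)) =
      ∏ i, C.qChar (C.qv i) (ZMod.unitOfCoprime n (hn.coprime_dvd_right (C.qv_dvd_level v i))) := by
  rw [Finset.prod_congr rfl fun i _ => C.qChar_qv i _, ← map_prod, Finset.univ_prod_mulSingle]
  congr 1
  funext i
  show C.f i (ZMod.unitsMap _ _) = _
  rw [unitsMap_unitOfCoprime]

open Classical in
/-- **The twisting data of a variant.** -/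
def twistData (v : OddVariant) :
    TwistData (DiamondRing O C.Δ) p (C.level v) (charDiamond O (C.char v) (C.delta v)) where
  Qs := C.tSet v ∪ Finset.univ.image C.qv
  exactly q hq := by
    have h : q.Prime ∧ q ∣ C.level v := by
      rcases Finset.mem_union.1 hq with h | h
      · exact ⟨S.prime_of_mem q (Finset.mem_union_left _ (Finset.mem_union_right _
          (C.tSet_subset_T v h))), C.tSet_dvd v h⟩
      · obtain ⟨i, -, rfl⟩ := Finset.mem_image.1 h
        exact ⟨C.prime i, C.qv_dvd_level v i⟩
    exact ⟨h.1, h.2, C.not_sq_dvd_level v h.1⟩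
  e := e + 1
  c q := C.tChar v q * C.qChar q
  pow_eq_one q _ := MonoidHom.ext fun u => by
    rw [MonoidHom.pow_apply, MonoidHom.one_apply, MonoidHom.mul_apply, mul_pow,
      ← MonoidHom.pow_apply, ← MonoidHom.pow_apply, tChar_pow, qChar_pow, MonoidHom.one_apply,
      mul_one]
  chi_eq n hn := by
    have hdisj : Disjoint (C.tSet v) (Finset.univ.image C.qv) :=
      Finset.disjoint_left.2 fun q hq hq' => by
        obtain ⟨i, -, hi⟩ := Finset.mem_image.1 hq'
        exact C.not_exists_qv_of_mem_tSet hq ⟨i, hi⟩
    rw [coe_charDiamond, Finset.prod_union hdisj,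
      Finset.prod_image fun i _ j _ h => C.injective h]
    congr 1
    · cases v with
      | chi =>
        rw [SupplyLevel.char, MonoidHom.finsetProd_apply, Units.coe_prod, map_prod,
          show C.tSet .chi = S.T from rfl, ← Finset.prod_coe_sort S.T]
        refine Finset.prod_congr rfl fun q _ => ?_
        have hn' : n.Coprime q := hn.coprime_dvd_right (C.dvd_level_of_mem_T q.2)
        rw [ofUnitHom_natCast_eq hn', MonoidHom.comp_apply, unitsMap_unitOfCoprime,
          MonoidHom.mul_apply, show C.qChar (q : ℕ) = 1 from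
            dif_neg (C.not_exists_qv_of_mem_tSet (v := .chi) q.2), MonoidHom.one_apply, mul_one,
          tChar, dif_pos (show (q : ℕ) ∈ C.tSet .chi from q.2)]
        rfl
      | std =>
        simp [tSet, SupplyLevel.char, MonoidAlgebra.one_def]
      | old _ =>
        simp [tSet, SupplyLevel.char, MonoidAlgebra.one_def]
    · show (diamondOf O C.Δ (C.delta v (ZMod.unitOfCoprime n hn)) : DiamondRing O C.Δ) = _
      rw [C.coe_delta_unitOfCoprime v hn, Units.coe_prod]
      refine Finset.prod_congr rfl fun i _ => ?_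
      have hn' : n.Coprime (C.qv i) := hn.coprime_dvd_right (C.qv_dvd_level v i)
      rw [ofUnitHom_natCast_eq hn', MonoidHom.mul_apply, show C.tChar v (C.qv i) = 1 from
        dif_neg fun h => C.not_exists_qv_of_mem_tSet h ⟨i, rfl⟩, MonoidHom.one_apply, one_mul]

/-- The twist is the value of the twisting data. -/
theorem val_twistData (v : OddVariant) {n : ℕ} (hn : n.Coprime (C.level v)) :
    (C.twistData v).val n = C.twist v n := by
  rw [SupplyLevel.twist, dif_pos hn, (C.twistData v).chi_eq n hn, TwistData.val, ← Finset.prod_pow]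
  refine Finset.prod_congr rfl fun q hq => ?_
  have hn' : n.Coprime q := (C.twistData v).coprime_of_mem hq hn
  rw [ofUnitHom_natCast_eq hn', ofUnitHom_natCast_eq hn', TwistData.psi, MonoidHom.pow_apply,
    Units.val_pow_eq_pow_val]
  rfl

end SupplyLevel

/-- **The diamond ring is separated by its points.** -/
theorem diamond_eq_zero_of_forall_point {O : Type} [CommRing O] [IsDomain O] [CharZero O]
    {G : Type} [CommGroup G] [Finite G] {K : Type} [Field K] [IsAlgClosed K] [Algebra O K]
    (hinj : Function.Injective (algebraMap O K)) (a : MonoidAlgebra O G)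
    (h : ∀ σ : MonoidAlgebra O G →ₐ[O] K, σ a = 0) : a = 0 := by
  classical
  haveI := Fintype.ofFinite G
  haveI : CharZero K := charZero_of_injective_algebraMap hinj
  haveI : NeZero (Monoid.exponent G : K) :=
    ⟨Nat.cast_ne_zero.2 (Monoid.exponent_ne_zero_of_finite (G := G))⟩
  haveI : HasEnoughRootsOfUnity K (Monoid.exponent G) := inferInstance
  have hind : LinearIndependent K
      fun g : G => (fun φ : G →* Kˣ => (φ g : K)) := by
    let ev : G → ((G →* Kˣ) →* K) := fun g =>
      { toFun := fun φ => (φ g : K), map_one' := rfl, map_mul' := fun _ _ => rfl }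
    have hev : Function.Injective ev := fun g g' hg => by
      by_contra hne
      obtain ⟨φ, hφ⟩ := CommGroup.exists_apply_ne_one_of_hasEnoughRootsOfUnity G K
        (a := g * g'⁻¹) (fun h1 => hne (mul_inv_eq_one.1 h1))
      refine hφ ?_
      have : φ g = φ g' := Units.ext (DFunLike.congr_fun hg φ)
      rw [map_mul, map_inv, this, mul_inv_cancel]
    exact (linearIndependent_monoidHom (G →* Kˣ) K).comp ev hev
  have hsum : ∑ g, algebraMap O K (a.coeff g) • (fun φ : G →* Kˣ => (φ g : K)) = 0 := by
    funext φ
    have h1 := h (MonoidAlgebra.lift O K G ((Units.coeHom K).comp φ))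
    rw [MonoidAlgebra.lift_apply, Finsupp.sum_fintype _ _ (fun g => by simp)] at h1
    simp only [Finset.sum_apply, Pi.smul_apply, smul_eq_mul, Pi.zero_apply]
    refine Eq.trans (Finset.sum_congr rfl fun g _ => ?_) h1
    rw [Algebra.smul_def]
    rfl
  refine MonoidAlgebra.ext (Finsupp.ext fun g => hinj ?_)
  rw [Fintype.linearIndependent_iff.1 hind _ hsum g, MonoidAlgebra.coeff_zero, Finsupp.zero_apply,
    map_zero]

/-- The diamond ring has finitely many points in a field. -/
theorem finite_diamond_points {O : Type} [CommRing O] {G : Type} [CommGroup G] [Finite G]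
    {K : Type} [Field K] [Algebra O K] : Finite (MonoidAlgebra O G →ₐ[O] K) :=
  haveI : Finite (G →* Kˣ) := inferInstance
  haveI : Finite (G →* K) := Finite.of_injective (fun φ : G →* K => φ.toHomUnits)
    fun φ ψ h => MonoidHom.ext fun g =>
      congrArg Units.val (DFunLike.congr_fun h g)
  Finite.of_equiv (G →* K) (MonoidAlgebra.lift O K G)

end FermatLib.MLT.Odd

end
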