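import Fermat.Agent.MLT.Odd.SupplyCokerEigen
import Fermat.Agent.MLT.Odd.SupplyEigenPoint
import Fermat.Agent.MLT.Odd.SupplyPointInputs
import Fermat.Agent.MLT.Odd.SupplyTwist
import Fermat.Agent.MLT.Odd.HeckeRepNonEisenstein
import Fermat.Agent.MLT.Hecke.IharaKernel

/-!
# The eigenform of an eigen system of the full module at a prime with an old part

A character of the algebra of the good operators and the twisted `U s` of the full module killing
what kills the module extends to all operators, so is the system of an eigenclass; its twist is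
an eigenform of trivial character with the same values.
-/

set_option autoImplicit false
set_option linter.style.haveILetI false
set_option linter.unusedSectionVars false

noncomputable section

namespace FermatLib.MLT.Odd

open IsLocalRing MvPolynomial
open FermatLib.Modular.Twist

local notation "ZbarC" => integralClosure ℤ ℂ

/-- A two-sided inverse which is integral lies in every subalgebra containing the element. -/
theorem inverse_mem_of_isIntegral {R B : Type*} [CommRing R] [Ring B] [Algebra R B]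
    (A : Subalgebra R B) {t i : B} (ht : t ∈ A) (hti : t * i = 1) (hit : i * t = 1)
    (hi : IsIntegral R i) : i ∈ A := by
  obtain ⟨f, hf, hf0⟩ := hi
  have hf1 : Polynomial.aeval i f = 0 := hf0
  have hpow : ∀ m k : ℕ, k ≤ m → t ^ m * i ^ k = t ^ (m - k) := fun m k hk => by
    rw [← Nat.sub_add_cancel hk, pow_add, mul_assoc,
      ← (show Commute t i from hti.trans hit.symm).mul_pow, hti, one_pow, mul_one,
      Nat.sub_add_cancel hk]
  rw [Polynomial.aeval_eq_sum_range, Finset.sum_range_succ, hf.coeff_natDegree, one_smul] at hf1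
  rcases hn : f.natDegree with _ | m
  · rw [hn] at hf1
    rw [Finset.range_zero, Finset.sum_empty, pow_zero, zero_add] at hf1
    rw [← one_mul i, hf1, zero_mul]
    exact zero_mem A
  · rw [hn] at hf1
    have h1 := congrArg (t ^ m * ·) hf1
    simp only [mul_zero, mul_add, Finset.mul_sum, mul_smul_comm] at h1
    rw [pow_succ, ← mul_assoc, hpow m m le_rfl, Nat.sub_self, pow_zero, one_mul] at h1
    rw [eq_neg_of_add_eq_zero_right h1]
    refine neg_mem (sum_mem fun k hk => A.smul_mem ?_ _)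
    rw [hpow m k (Nat.lt_succ_iff.1 (Finset.mem_range.1 hk))]
    exact pow_mem ht _

/-- An operator invertible on the module is invertible in the algebra of all operators. -/
theorem isUnit_bettiFullQuot {A : Type} [CommRing A] {L : ℕ} {k : Type} [Field k]
    (χ : (ZMod L)ˣ →* Aˣ) (Pr : Set Nat.Primes) (θ : BettiHeckeAlg A →+* k)
    [Module.Finite A (BettiResLoc χ Pr θ)] {x : BettiHeckeAlg A}
    (hx : IsUnit (algebraMap (BettiHeckeAlg A)
      (Module.End (BettiHeckeAlg A) (BettiResLoc χ Pr θ)) x)) :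
    IsUnit (bettiFullQuot χ Pr θ x) := by
  obtain ⟨u, hu⟩ := hx
  have hu' : ∀ z, (↑u : Module.End (BettiHeckeAlg A) (BettiResLoc χ Pr θ)) z = x • z :=
    fun z => by rw [hu]; rfl
  let i : Module.End A (BettiResLoc χ Pr θ) :=
    (↑u⁻¹ : Module.End (BettiHeckeAlg A) (BettiResLoc χ Pr θ)).restrictScalars A
  have hti : (bettiFullQuot χ Pr θ x : Module.End A (BettiResLoc χ Pr θ)) * i = 1 :=
    LinearMap.ext fun y => by
      show x • (↑u⁻¹ : Module.End (BettiHeckeAlg A) (BettiResLoc χ Pr θ)) y = y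
      rw [← hu', ← Module.End.mul_apply, Units.mul_inv, Module.End.one_apply]
  have hit : i * (bettiFullQuot χ Pr θ x : Module.End A (BettiResLoc χ Pr θ)) = 1 :=
    LinearMap.ext fun y => by
      show (↑u⁻¹ : Module.End (BettiHeckeAlg A) (BettiResLoc χ Pr θ)) (x • y) = y
      rw [← hu', ← Module.End.mul_apply, Units.inv_mul, Module.End.one_apply]
  exact IsUnit.of_mul_eq_one (⟨i, inverse_mem_of_isIntegral (bettiFullHecke χ Pr θ)
    (bettiFullQuot χ Pr θ x).2 hti hit (Algebra.IsIntegral.isIntegral i)⟩ :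
      bettiFullHecke χ Pr θ) (Subtype.ext hti)

variable {O : Type} [CommRing O] [IsDomain O] [IsDiscreteValuationRing O]
  [IsAdicComplete (maximalIdeal O) O] [Finite (ResidueField O)] [CharZero O] {p : ℕ}
  [Fact p.Prime] {ρbar : ResidualGaloisRep (ResidueField O)} {S : OddPrimes p ρbar}
  {tp : S.TamePairs} {P : SupplyParams S tp} {Q : Finset ℕ} {r e : ℕ}

namespace SupplyLevel

variable (C : SupplyLevel P Q r e)

/-- The twisting factor of the full module at a prime with an old part. -/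
theorem val_twistData_self {s : ℕ} (hs : S.HasOld s) :
    (C.twistData .std).val s = C.twist (.old s) s := by
  rw [← C.val_twistData (.old s) (C.coprime_level_old hs), TwistData.val, TwistData.val]
  refine Finset.prod_congr rfl fun q _ => ?_
  congr 2

/-- A non-Eisenstein prime `1` modulo the twisted level of the full module. -/
theorem exists_splitPrime_std (hres : OddResidual p ρbar) :
    ∃ l₀ : Nat.Primes, l₀ ∈ S.supplyPrimes ∧
      ((l₀ : ℕ) : ZMod (C.level .std * ∏ q ∈ (C.twistData .std).Qs, q)) = 1 ∧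
      C.gTheta .std (X l₀) ≠ ((l₀ : ℕ) : ResidueField O) + 1 := by
  classical
  have hp : p.Prime := Fact.out
  haveI : NeZero (C.level .std * ∏ q ∈ (C.twistData .std).Qs, q) :=
    ⟨mul_ne_zero (NeZero.ne _) (Finset.prod_ne_zero_iff.2 fun q hq =>
      ((C.twistData .std).exactly q hq).1.ne_zero)⟩
  obtain ⟨ℓ, hℓ, hℓT, hℓN, -, hℓ1, A, hA, σ, hσ, hne⟩ := HeckeRep.exists_frobenius_trace_ne
    hres.absIrred hp hres.det (C.level .std * ∏ q ∈ (C.twistData .std).Qs, q)
    (p * S.level).primeFactors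
  have hgood : ¬ ℓ ∣ p * S.level := fun h => hℓT (Nat.mem_primeFactors.2
    ⟨hℓ, h, mul_ne_zero hp.ne_zero (NeZero.ne _)⟩)
  have hℓL : ¬ ℓ ∣ C.level .std := fun h => hℓN (h.mul_right _)
  let l : Nat.Primes := ⟨ℓ, hℓ⟩
  have hnot : l ∉ C.qPrimes := fun hm => by
    obtain ⟨i, hi⟩ := C.mem_qPrimes.1 hm
    refine hℓL ?_
    rw [show ℓ = C.qv i from hi.symm]
    exact C.qv_dvd_level .std i
  refine ⟨l, supplyPrimes_of_not_dvd hgood, hℓ1, ?_⟩
  rw [C.gTheta_X, theta, residualRaiseSet_X_of_notMem _ _ hnot,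
    baseTheta_X_of_not_dvd P .std (by exact hgood), P.θX_good l hgood A hA σ hσ]
  exact hne

theorem opT_mem_polys {v : OddVariant} {ℓ : ℕ} (hℓ : ℓ.Prime) (hℓE : ℓ ∉ C.exc v) :
    C.opT v ℓ ∈ C.polys v :=
  Algebra.subset_adjoin (Or.inr ⟨ℓ, ⟨hℓ, hℓE⟩, rfl⟩)

/-- **The eigenform of an eigen system at a prime with an old part.** -/
theorem exists_eigenform_extPoint (hp2 : p ≠ 2) (hpO : (p : O) ∈ maximalIdeal O)
    (hres : OddResidual p ρbar) {s : ℕ} (hs : S.HasOld s) {F : Type} [Field F] [IsAlgClosed F]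
    [CharZero F] [Algebra O F] (π : C.extPolys s →ₐ[O] F)
    (hker : ∀ R : C.extPolys s, (∀ y : C.Mod .std,
      (R : BettiHeckeAlg (DiamondRing O C.Δ)) • y = 0) → π R = 0) :
    ∃ (N : ℕ) (_ : NeZero N) (f : CuspForm (CongruenceSubgroup.Gamma0 N) 2) (ι : ZbarC →+* F),
      f.IsNormalizedEigenform ∧ s ∣ N ∧ ¬ s ^ 2 ∣ N ∧
      (∀ q : ℕ, q.Prime → q ∣ N → q ∈ C.exc .std) ∧
      (∃ a : ZbarC, (a : ℂ) = ModularFormClass.qCoeff ⇑f s ∧
        ι a = π ⟨_, C.opT_mem_extPolys s⟩) ∧
      ∀ (ℓ : ℕ) (hℓ : ℓ.Prime) (hℓE : ℓ ∉ C.exc .std), ∃ a : ZbarC,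
        (a : ℂ) = ModularFormClass.qCoeff ⇑f ℓ ∧
        ι a = π ⟨C.opT .std ℓ, C.polys_le_extPolys s (C.opT_mem_polys hℓ hℓE)⟩ := by
  classical
  have hp : p.Prime := Fact.out
  have hodd : Odd p := hp.odd_of_ne_two hp2
  haveI := C.finite_Δ
  haveI := C.isLocalRing_diamond hpO
  haveI := diamond_isAdicComplete O C.Δ
  let χd := charDiamond O (C.char .std) (C.delta .std)
  set θd := gammaHTheta O (C.theta .std) C.Δ with hθd'
  have hθd : ∀ a ∈ maximalIdeal (DiamondRing O C.Δ), θd (MvPolynomial.C a) = 0 :=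
    gammaHTheta_maximal (Δ := C.Δ) O (C.theta .std) (C.theta_C_maximal _)
  haveI := bettiLoc_finite χd (DiamondRing O C.Δ) S.supplyPrimes θd hθd
  let T := bettiFullHecke χd S.supplyPrimes θd
  haveI : Module.Finite (DiamondRing O C.Δ) T := bettiFullHecke_finite χd θd hθd
  haveI : Module.Finite O T := Module.Finite.trans (DiamondRing O C.Δ) T
  haveI : Algebra.IsIntegral O T := Algebra.IsIntegral.of_finite O T
  let quo := bettiFullQuot χd S.supplyPrimes θd
  let q : C.extPolys s →ₐ[O] T := (quo.restrictScalars O).comp (C.extPolys s).val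
  have hq : ∀ R, q R = 0 → π R = 0 := fun R hR => hker R fun y => by
    refine (bettiFullQuot_smul χd S.supplyPrimes θd R y).symm.trans ?_
    have h2 : quo (R : BettiHeckeAlg (DiamondRing O C.Δ)) = 0 := hR
    rw [show bettiFullQuot χd S.supplyPrimes θd (R : BettiHeckeAlg (DiamondRing O C.Δ)) = 0
      from h2]
    rfl
  obtain ⟨Fh, hFh⟩ := exists_point_extends π q hq (RingHom.id F)
  let ψ : DiamondRing O C.Δ →+* F := Fh.comp (algebraMap _ T)
  letI : Algebra (DiamondRing O C.Δ) F := ψ.toAlgebra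
  -- a split prime
  obtain ⟨l₀, hl₀Pr, hl₀, hl₀ne⟩ := C.exists_splitPrime_std hres
  set e₀ : BettiHeckeAlg (DiamondRing O C.Δ) :=
    X l₀ - MvPolynomial.C (((l₀ : ℕ) : DiamondRing O C.Δ) + 1) with he₀
  have hl₀sup : e₀ ∈ supported (DiamondRing O C.Δ) S.supplyPrimes :=
    sub_mem (X_mem_supported_set hl₀Pr) (C_mem_supported_set _ _)
  have hl₀θ : C.gTheta .std e₀ ≠ 0 := by
    rw [he₀, map_sub, C.gTheta_C, map_add, map_natCast, map_one, map_add, map_natCast, map_one]
    exact sub_ne_zero.2 hl₀ne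
  have hl₀L : ((l₀ : ℕ) : ZMod (C.level .std)) = 1 := by
    have := congrArg (ZMod.castHom (dvd_mul_right (C.level .std) _) (ZMod (C.level .std))) hl₀
    rwa [map_natCast, map_one] at this
  obtain ⟨x, hx, heig⟩ := exists_eigenclass_of_fullPoint χd
    (charDiamond_neg_one O _ _ rfl (C.delta_neg_one hp2 .std)) θd hθd
    (ellipticHarmless_diamond O _ _ (C.ellipticHarmless_theta hp2 hpO .std)) l₀ hl₀Pr
    (by
      rw [heckeDegree_of_cast_eq_one l₀ hl₀L]
      intro h
      exact hl₀θ (by rw [he₀, map_sub]; exact sub_eq_zero.2 h))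
    (K := F) { Fh with commutes' := fun _ => rfl }
  let lam : Nat.Primes → F := fun l => Fh (quo (X l))
  -- the twisted eigenform
  let D := C.twistData .std
  have hnE : lam l₀ ≠ ((l₀ : ℕ) : F) + 1 := by
    have hu := ((isUnit_bettiFullQuot χd S.supplyPrimes θd
      (C.isUnit_end (v := .std) hl₀sup hl₀θ)).map Fh).ne_zero
    intro h
    refine hu ?_
    rw [he₀, map_sub, map_sub, ← MvPolynomial.algebraMap_eq, AlgHom.commutes]
    show lam l₀ - ψ _ = 0
    rw [map_add, map_natCast, map_one, h, sub_self]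
  haveI : NeZero (C.level .std * ∏ q ∈ D.primesAt ψ, q) :=
    ⟨mul_ne_zero (NeZero.ne _) (Finset.prod_ne_zero_iff.2 fun q hq =>
      (D.exactly_primesAt ψ q hq).1.ne_zero)⟩
  obtain ⟨f, ι, hf, hfι⟩ := exists_twist_eigenform (D.exactly_primesAt ψ)
    (D.psiAt_sq_ne_one ψ hodd) (D.chi_mul_twistFactor_sq ψ hodd) (x := x) hx lam
    (fun l _ => by
      have := heig l
      rwa [BettiMod.hecke_smul, bettiEval_X] at this)
    ⟨l₀, D.modEq_one_primesAt ψ hl₀, hnE⟩
  have hsL : s ∣ C.level .std := C.level_std_eq hs ▸ dvd_mul_left s _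
  have hQs : ∀ q ∈ D.Qs, ∃ i, C.qv i = q := fun q hq => by
    rcases Finset.mem_union.1 hq with h | h
    · exact absurd h (Finset.notMem_empty q)
    · obtain ⟨i, -, hi⟩ := Finset.mem_image.1 h
      exact ⟨i, hi⟩
  have hsQ : ∀ q ∈ D.Qs, s.Coprime q := fun q hq => by
    obtain ⟨i, rfl⟩ := hQs q hq
    exact (Nat.coprime_primes hs.prime (C.prime i)).2 (C.qv_ne_of_hasOld hs i).symm
  have hsP : s ∉ D.primesAt ψ := fun h => by
    obtain ⟨i, hi⟩ := hQs s (D.primesAt_subset ψ h)
    exact C.qv_ne_of_hasOld hs i hi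
  have hs2 : ¬ s ^ 2 ∣ C.level .std * ∏ q ∈ D.primesAt ψ, q := fun h2 =>
    C.not_sq_dvd_level .std hs.prime ((Nat.Coprime.prod_right fun q hq =>
      (hsQ q (D.primesAt_subset ψ hq)).pow_left 2).dvd_of_dvd_mul_right h2)
  refine ⟨_, inferInstance, f, ι, hf, hsL.mul_right _, hs2, fun q hq hqN => ?_, ?_,
    fun ℓ hℓ hℓE => ?_⟩
  · refine Nat.mem_primeFactors.2 ⟨hq, Dvd.dvd.mul_left ?_ p,
      mul_ne_zero hp.ne_zero (NeZero.ne _)⟩
    rcases hq.dvd_mul.1 hqN with hd | hd
    · exact hd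
    · obtain ⟨t, ht, hqt⟩ := (Prime.dvd_finsetProd_iff hq.prime _).1 hd
      rw [(Nat.prime_dvd_prime_iff_eq hq (D.exactly_primesAt ψ t ht).1).1 hqt]
      exact (D.exactly_primesAt ψ t ht).2.1
  · obtain ⟨a, ha, ha'⟩ := hfι hs.toPrime
    refine ⟨a, ha, ?_⟩
    rw [ha', if_neg hsP, D.twistFactor_primesAt_of_coprime ψ hsQ, C.val_twistData_self hs]
    show Fh (algebraMap _ T (C.twist (.old s) s)) * Fh (quo (X hs.toPrime)) = _
    rw [← map_mul, ← AlgHom.commutes quo, ← map_mul]
    refine Eq.trans ?_ (hFh ⟨_, C.opT_mem_extPolys s⟩)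
    show _ = Fh (quo (C.opT (.old s) s))
    rw [opT, dif_pos hs.prime, MvPolynomial.algebraMap_eq]
  · have hcop := C.coprime_of_not_mem_exc hℓ hℓE
    obtain ⟨a, ha, ha'⟩ := hfι ⟨ℓ, hℓ⟩
    refine ⟨a, ha, ?_⟩
    rw [ha', if_neg fun h => C.not_mem_exc hℓ hℓE
      (((D.exactly_primesAt ψ _ h).2.1).mul_left p), D.twistFactor_primesAt ψ hcop,
      C.val_twistData .std hcop]
    show Fh (algebraMap _ T (C.twist .std ℓ)) * Fh (quo (X ⟨ℓ, hℓ⟩)) = _
    rw [← map_mul, ← AlgHom.commutes quo, ← map_mul]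
    refine Eq.trans ?_ (hFh ⟨C.opT .std ℓ, C.polys_le_extPolys s (C.opT_mem_polys hℓ hℓE)⟩)
    show _ = Fh (quo (C.opT .std ℓ))
    rw [opT, dif_pos hℓ, MvPolynomial.algebraMap_eq]

end SupplyLevel

end FermatLib.MLT.Odd

end
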