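import Fermat.Agent.MLT.Odd.LevelExists
import Fermat.Agent.MLT.Odd.LevelModules
import Fermat.Agent.MLT.Hecke.GammaHChar
import Fermat.Agent.Galois.CyclotomicFrobenius

/-!
# The modules of the levels: definitions

For parameters `SupplyParams` (residual eigenvalues at level `S.level`, the characters at `T`) and
auxiliary primes `SupplyLevel`, the module of a variant is `GammaHCharMod` at the level of the
variant times the auxiliary primes, its operators are the twisted good `T l`, its algebra is the
one generated by these and the diamonds.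
-/

set_option autoImplicit false
set_option linter.style.haveILetI false

noncomputable section

namespace FermatLib.MLT.Odd

open IsLocalRing MvPolynomial

local notation "Γℚ" => (AlgebraicClosure ℚ ≃ₐ[ℚ] AlgebraicClosure ℚ)

variable {O : Type} [CommRing O] [IsDomain O] [IsDiscreteValuationRing O] {p : ℕ} [Fact p.Prime]
  {ρbar : ResidualGaloisRep (ResidueField O)} {S : OddPrimes p ρbar}

/-- The primes at which `U` is localised. -/
def OddPrimes.locPrimes (S : OddPrimes p ρbar) : Finset ℕ :=
  S.F.filter (fun r => p ∣ r + 1) ∪ if S.pCase = PCase.mixed then {p} else ∅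

/-- The primes of the localising operators. -/
def OddPrimes.supplyPrimes (S : OddPrimes p ρbar) : Set Nat.Primes :=
  {l | ¬ (l : ℕ) ∣ p * S.level ∨ (l : ℕ) ∈ S.locPrimes}

/-- The residual eigenvalues at level `S.level`, and the characters of order `p` at `T`. -/
structure SupplyParams (S : OddPrimes p ρbar) (tp : S.TamePairs) : Type where
  /-- The residual eigenvalues. -/
  θX : Nat.Primes → ResidueField O
  θX_good : ∀ l : Nat.Primes, ¬ (l : ℕ) ∣ p * S.level →
    ∀ P : ValuationSubring (AlgebraicClosure ℚ), P.LiesOverPrime (l : ℕ) →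
      ∀ σ : Γℚ, P.IsFrobeniusAt σ (l : ℕ) →
        θX l = LinearMap.trace (ResidueField O) ρbar.V (ρbar.ρ σ)
  θX_F : ∀ l : Nat.Primes, (l : ℕ) ∈ S.F → p ∣ (l : ℕ) + 1 →
    θX l = (S.ε (l : ℕ) : ResidueField O)
  θX_p : S.pCase = PCase.mixed → θX ⟨p, Fact.out⟩ ^ 2 = 1
  /-- The module of level `S.level` is not zero. -/
  nontrivial : Nontrivial (GammaHBase O S.supplyPrimes (eval₂Hom (residue O) θX) S.level)
  /-- A prime making the elliptic elements harmless. -/
  ell : Nat.Primes
  ell_good : ¬ (ell : ℕ) ∣ p * S.level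
  ell_spec : IsUnit (3 : O) ∨ ((ell : ℕ) % 3 = 2 ∧ θX ell ≠ 0)
  /-- A non-Eisenstein prime. -/
  lne : Nat.Primes
  lne_good : ¬ (lne : ℕ) ∣ p * S.level
  lne_spec : θX lne ≠ ((lne : ℕ) : ResidueField O) + 1
  /-- The characters at `T`. -/
  χT : ∀ q : S.T, (ZMod (q : ℕ))ˣ →* Oˣ
  χT_pow : ∀ q u, χT q u ^ p = 1
  /-- The roots of unity of the twisted variant. -/
  ζ : ℕ → O
  ζ_spec : ∀ q ∈ S.T, ζ q ^ p = 1 ∧ ζ q ≠ 1
  ζ_eq : ∀ q : S.T,
    haveI : NeZero (q : ℕ) :=
      ⟨(S.prime_of_mem q (Finset.mem_union_left _ (Finset.mem_union_right _ q.2))).ne_zero⟩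
    ζ q ^ 2 = (χT q (Galois.modCycloChar (q : ℕ) (tp.atT q).gen) : O)

/-- The primes that the auxiliary primes avoid. -/
def SupplyParams.avoid {tp : S.TamePairs} (P : SupplyParams S tp) : Finset ℕ :=
  {(P.ell : ℕ), (P.lne : ℕ)}

variable {tp : S.TamePairs}

/-- Auxiliary primes with their surjections to `ℤ/p^e` and chosen residual roots. -/
structure SupplyLevel (P : SupplyParams S tp) (Q : Finset ℕ) (r e : ℕ) : Type where
  qv : Fin r → ℕ
  image_eq : Finset.univ.image qv = Q
  injective : Function.Injective qv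
  prime : ∀ i, (qv i).Prime
  notMem : ∀ i, qv i ∉ insert p S.all
  notAvoid : ∀ i, qv i ∉ P.avoid
  dvd : ∀ i, p ^ e ∣ qv i - 1
  one_mod : ∀ i, p ∣ qv i - 1
  f : ∀ i, (ZMod (qv i))ˣ →* Multiplicative (ZMod (p ^ e))
  f_surjective : ∀ i, Function.Surjective (f i)
  α : Fin r → ResidueField O
  α_root : ∀ i, α i ^ 2 - P.θX ⟨qv i, prime i⟩ * α i + 1 = 0
  α_simple : ∀ i, 2 * α i ≠ P.θX ⟨qv i, prime i⟩

/-- The level zero. -/
def SupplyLevel.zero (P : SupplyParams S tp) : SupplyLevel P ∅ 0 0 where
  qv i := i.elim0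
  image_eq := by simp
  injective i := i.elim0
  prime i := i.elim0
  notMem i := i.elim0
  notAvoid i := i.elim0
  dvd i := i.elim0
  one_mod i := i.elim0
  f i := i.elim0
  f_surjective i := i.elim0
  α i := i.elim0
  α_root i := i.elim0
  α_simple i := i.elim0

/-- The level of a variant without the auxiliary primes. -/
def OddPrimes.baseLevel (S : OddPrimes p ρbar) : OddVariant → ℕ
  | .old r => S.level / Nat.gcd r S.level
  | .std => S.level
  | .chi => S.level

instance neZero_baseLevel (S : OddPrimes p ρbar) (v : OddVariant) : NeZero (S.baseLevel v) := by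
  refine ⟨?_⟩
  cases v with
  | old r =>
    exact (Nat.div_pos (Nat.le_of_dvd (Nat.pos_of_ne_zero (NeZero.ne _)) (Nat.gcd_dvd_right _ _))
      (Nat.gcd_pos_of_pos_right _ (Nat.pos_of_ne_zero (NeZero.ne _)))).ne'
  | std => exact NeZero.ne S.level
  | chi => exact NeZero.ne S.level

/-- The residual eigenvalues of a variant at level zero: an old module at a prime `r` with `U r`
localised has `T r = u + r / u`. -/
def SupplyParams.baseTheta (P : SupplyParams S tp) (v : OddVariant) :
    BettiHeckeAlg O →+* ResidueField O :=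
  eval₂Hom (residue O) fun l =>
    match v with
    | .old r =>
      if (l : ℕ) = r ∧ r ∈ S.locPrimes then P.θX l + ((l : ℕ) : ResidueField O) / P.θX l
      else P.θX l
    | _ => P.θX l

namespace SupplyLevel

variable {P : SupplyParams S tp} {Q : Finset ℕ} {r e : ℕ} (C : SupplyLevel P Q r e)

/-- The group of the diamonds. -/
abbrev Δ (_C : SupplyLevel P Q r e) : Type := TWGroup r (p ^ e)

/-- The level of a variant. -/
def level (v : OddVariant) : ℕ := S.baseLevel v * ∏ i, C.qv i

instance neZero_level (v : OddVariant) : NeZero (C.level v) :=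
  ⟨mul_ne_zero (NeZero.ne _) (Finset.prod_ne_zero_iff.2 fun i _ => (C.prime i).ne_zero)⟩

theorem qv_dvd_level (v : OddVariant) (i : Fin r) : C.qv i ∣ C.level v :=
  (Finset.dvd_prod_of_mem _ (Finset.mem_univ i)).mul_left _

theorem dvd_level_of_mem_T {q : ℕ} (hq : q ∈ S.T) : q ∣ C.level .chi := by
  refine Dvd.dvd.mul_right ?_ _
  show q ∣ S.level
  refine Dvd.dvd.mul_right (Finset.dvd_prod_of_mem _ ?_) _
  exact Finset.mem_union_left _ (Finset.mem_union_right _ hq)

/-- The base character of a variant. -/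
def char : ∀ v : OddVariant, (ZMod (C.level v))ˣ →* Oˣ
  | .chi => ∏ q : S.T, (P.χT q).comp (ZMod.unitsMap (C.dvd_level_of_mem_T q.2))
  | .std => 1
  | .old _ => 1

/-- The diamond character of a variant. -/
def delta (v : OddVariant) : (ZMod (C.level v))ˣ →* C.Δ :=
  MonoidHom.pi fun i => (C.f i).comp (ZMod.unitsMap (C.qv_dvd_level v i))

/-- The auxiliary primes. -/
def qPrimes : Finset Nat.Primes := Finset.univ.image fun i => ⟨C.qv i, C.prime i⟩

/-- The chosen roots as a function. -/
def rootFun (l : Nat.Primes) : ResidueField O :=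
  if h : ∃ i, C.qv i = (l : ℕ) then C.α h.choose else 0

/-- The residual eigenvalues of a variant. -/
def theta (v : OddVariant) : BettiHeckeAlg O →+* ResidueField O :=
  residualRaiseSet (P.baseTheta v) C.qPrimes C.rootFun

/-- The module of a variant. -/
abbrev Mod (v : OddVariant) : Type :=
  GammaHCharMod O (C.char v) (C.delta v) S.supplyPrimes (C.theta v)

/-- The primes at which no trace is asserted. -/
def exc (v : OddVariant) : Finset ℕ := (p * C.level v).primeFactors

/-- The twist making the determinant cyclotomic: an inverse square root of the nebentype. -/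
def twist (v : OddVariant) (l : ℕ) : DiamondRing O C.Δ :=
  if h : l.Coprime (C.level v) then
    (charDiamond O (C.char v) (C.delta v) (ZMod.unitOfCoprime l h) : DiamondRing O C.Δ) ^
      ((p ^ (e + 1) - 1) / 2)
  else 0

/-- The twisted operator `T l`. -/
def opT (v : OddVariant) (l : ℕ) : BettiHeckeAlg (DiamondRing O C.Δ) :=
  if hl : l.Prime then MvPolynomial.C (C.twist v l) * X ⟨l, hl⟩ else 0

/-- The polynomials in the diamonds and the twisted good operators. -/
def polys (v : OddVariant) : Subalgebra O (BettiHeckeAlg (DiamondRing O C.Δ)) :=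
  Algebra.adjoin O (Set.range (fun g => MvPolynomial.C (MonoidAlgebra.of O C.Δ g)) ∪
    C.opT v '' {l | l.Prime ∧ l ∉ C.exc v})

/-- The Hecke algebra of a variant. -/
def hecke (v : OddVariant) : Subalgebra O (Module.End O (C.Mod v)) :=
  ((Algebra.lsmul O O (C.Mod v)).comp (C.polys v).val).range

instance hecke_commRing (v : OddVariant) : CommRing (C.hecke v) :=
  { (inferInstance : Ring (C.hecke v)) with
    mul_comm := by
      rintro ⟨_, P₁, rfl⟩ ⟨_, P₂, rfl⟩
      refine Subtype.ext (LinearMap.ext fun x => ?_)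
      exact smul_comm (P₁ : BettiHeckeAlg (DiamondRing O C.Δ))
        (P₂ : BettiHeckeAlg (DiamondRing O C.Δ)) x }

/-- The projection to the Hecke algebra. -/
def toHecke (v : OddVariant) : C.polys v →ₐ[O] C.hecke v :=
  ((Algebra.lsmul O O (C.Mod v)).comp (C.polys v).val).rangeRestrict

/-- The twisted operator in the Hecke algebra. -/
def tElt (v : OddVariant) (l : ℕ) : C.hecke v :=
  if h : l.Prime ∧ l ∉ C.exc v then
    C.toHecke v ⟨C.opT v l, Algebra.subset_adjoin (Or.inr ⟨l, h, rfl⟩)⟩
  else 0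

/-- A diamond in the Hecke algebra. -/
def diamond (v : OddVariant) (g : C.Δ) : C.hecke v :=
  C.toHecke v ⟨MvPolynomial.C (MonoidAlgebra.of O C.Δ g), Algebra.subset_adjoin (Or.inl ⟨g, rfl⟩)⟩

theorem tElt_smul {v : OddVariant} {l : ℕ} (hl : l.Prime) (hlE : l ∉ C.exc v) (m : C.Mod v) :
    C.tElt v l • m = C.opT v l • m := by
  rw [tElt, dif_pos ⟨hl, hlE⟩]
  rfl

theorem diamond_smul (v : OddVariant) (g : C.Δ) (m : C.Mod v) :
    C.diamond v g • m = MonoidAlgebra.of O C.Δ g • m :=
  (algebraMap_smul (BettiHeckeAlg (DiamondRing O C.Δ)) (MonoidAlgebra.of O C.Δ g) m).symm.trans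
    (by rfl) |>.symm

end SupplyLevel

/-- The systems of a variant: the points of its Hecke algebra, jointly faithful. -/
structure SupplySystems {P : SupplyParams S tp} {Q : Finset ℕ} {r e : ℕ}
    (C : SupplyLevel P Q r e) (v : OddVariant) : Type 1 where
  κ : Type
  [instFinite : Finite κ]
  y : κ → OddSystem S Q
  ev : ∀ j, C.hecke v →ₐ[O] (y j).O'
  ev_inj : ∀ a, (∀ j, ev j a = 0) → a = 0
  t_spec : ∀ (j : κ) (ℓ : ℕ), ℓ.Prime → ℓ ∉ C.exc v →
    ∀ A : ValuationSubring (AlgebraicClosure ℚ), A.LiesOverPrime ℓ →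
      ∀ σ : Γℚ, A.IsFrobeniusAt σ ℓ → (y j).r.trace σ = ev j (C.tElt v ℓ)

attribute [instance] SupplySystems.instFinite

end FermatLib.MLT.Odd
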