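import Fermat.Agent.MLT.Odd.SupplyModulesRank
import Fermat.Agent.MLT.Odd.BettiPointClass
import Fermat.Agent.Galois.RepDVR
import Fermat.Agent.Modular.TwistSystemEigen

/-!
# Eigenclasses of the points of the Hecke algebras of the levels

A point of `C.hecke v` extends to a character of all Hecke polynomials killing the annihilator of
the module; its values lie in a finite extension of its coefficients, it is realised by an
eigenclass with nebentype `χ₂`, and it is congruent to the residual eigenvalues at the localised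
primes.
-/

set_option autoImplicit false
set_option linter.unusedSectionVars false
set_option linter.style.haveILetI false

noncomputable section

namespace FermatLib.MLT.Odd

open IsLocalRing MvPolynomial CongruenceSubgroup

variable {O : Type} [CommRing O] [IsDomain O] [IsDiscreteValuationRing O]
  [IsAdicComplete (maximalIdeal O) O] [Finite (ResidueField O)] [CharZero O] {p : ℕ}
  [Fact p.Prime] {ρbar : ResidualGaloisRep (ResidueField O)} {S : OddPrimes p ρbar}
  {tp : S.TamePairs} {P : SupplyParams S tp} {Q : Finset ℕ} {r e : ℕ}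

namespace SupplyLevel

variable (C : SupplyLevel P Q r e)

/-- The avoided prime `lne` is not Eisenstein for every variant. -/
theorem theta_lne_ne (hpO : (p : O) ∈ maximalIdeal O) (v : OddVariant) :
    gammaHTheta O (C.theta v) C.Δ (X P.lne) ≠ gammaHTheta O (C.theta v) C.Δ
      (MvPolynomial.C (heckeDegree (charDiamond O (C.char v) (C.delta v)) P.lne)) := by
  have hlne : ¬ (P.lne : ℕ) ∣ C.level v := fun h => by
    rcases P.lne.2.dvd_mul.1 h with h | h
    · exact P.lne_good ((h.trans (baseLevel_dvd_level S v)).mul_left _)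
    · obtain ⟨i, -, hi⟩ := (Prime.dvd_finsetProd_iff P.lne.2.prime _).1 h
      exact C.lne_notMem
        (C.mem_qPrimes.2 ⟨i, ((Nat.prime_dvd_prime_iff_eq P.lne.2 (C.prime i)).1 hi).symm⟩)
  rw [gammaHTheta_X, gammaHTheta_C, theta, residualRaiseSet_X_of_notMem _ _ C.lne_notMem,
    baseTheta_X_of_not_dvd P v P.lne_good, residualRaiseSet_C,
    show diamondAug O C.Δ (heckeDegree (charDiamond O (C.char v) (C.delta v)) P.lne) =
      heckeDegree (C.char v) P.lne by
        show algebraMap (DiamondRing O C.Δ) O _ = _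
        rw [← heckeDegree_baseChar, bettiBaseChar_charDiamond],
    baseTheta_C, residue_heckeDegree (fun d => by
      rw [C.char_eq_baseChar v, MonoidHom.comp_apply]; exact residue_baseChar hpO v _) P.lne hlne]
  exact P.lne_spec

theorem eigen_theta_C (v : OddVariant) (a : O) :
    C.theta v (MvPolynomial.C a) = residue O a := by
  rw [theta, residualRaiseSet_C, baseTheta_C]

end SupplyLevel

set_option maxHeartbeats 800000 in
set_option synthInstance.maxHeartbeats 200000 in
/-- **The eigenclass of a point of the Hecke algebra of a variant.** -/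
theorem exists_supplyEigen (hp2 : p ≠ 2) (hpO : (p : O) ∈ maximalIdeal O)
    (C : SupplyLevel P Q r e) {v : OddVariant}
    {O₁ : Type} [CommRing O₁] [IsDomain O₁] [IsDiscreteValuationRing O₁]
    [IsAdicComplete (maximalIdeal O₁) O₁] [Finite (ResidueField O₁)] [CharZero O₁]
    [Algebra O O₁] [Module.Finite O O₁] (ev : C.hecke v →ₐ[O] O₁)
    {K : Type} [Field K] [IsAlgClosed K] (j : O₁ →+* K) (hj : Function.Injective j) :
    ∃ (O₂ : Type) (_ : CommRing O₂) (_ : IsDomain O₂) (_ : IsDiscreteValuationRing O₂)
      (_ : IsAdicComplete (maximalIdeal O₂) O₂) (_ : Finite (ResidueField O₂)) (_ : CharZero O₂)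
      (ι : O₁ →+* O₂) (j₂ : O₂ →+* K) (χ₂ : (ZMod (C.level v))ˣ →* O₂ˣ)
      (lam : Nat.Primes → O₂)
      (x : bettiH1 (Gamma0 (C.level v)) (nebenChar ((Units.map j₂.toMonoidHom).comp χ₂)) K),
      IsLocalHom ι ∧ ι.IsIntegral ∧ Function.Injective j₂ ∧ j₂.comp ι = j ∧
      (∀ d, (χ₂ d : O₂) = ι (algebraMap O O₁ (C.char v d)) * ι (ev (C.diamond v (C.delta v d)))) ∧
      x ≠ 0 ∧
      (∀ l, bettiHeckeOp (C.level v) K ((Units.map j₂.toMonoidHom).comp χ₂) l x =
        j₂ (lam l) • x) ∧
      (∀ (l : Nat.Primes) (hl : (l : ℕ).Coprime (C.level v)), (l : ℕ) ∉ C.exc v →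
        ι (ev (C.tElt v l)) =
          (χ₂ (ZMod.unitOfCoprime l hl) : O₂) ^ ((p ^ (e + 1) - 1) / 2) * lam l) ∧
      ∀ l ∈ S.supplyPrimes, ∀ a : O, residue O a = C.theta v (X l) →
        lam l - ι (algebraMap O O₁ a) ∈ maximalIdeal O₂ := by
  classical
  let A := DiamondRing O C.Δ
  let R := BettiHeckeAlg A
  let M := C.Mod v
  have hχ : charDiamond O (C.char v) (C.delta v) (-1) = 1 :=
    charDiamond_neg_one O _ _ ((show C.char v (-1) = 1 by
      rw [C.char_eq_baseChar v, MonoidHom.comp_apply, show ZMod.unitsMap (C.baseLevel_dvd v) (-1) = -1 from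
        Units.ext (by simp [ZMod.unitsMap_def]), baseChar_neg_one hp2])) (C.delta_neg_one hp2 v)
  let Sθ := bettiResidualSubmonoid S.supplyPrimes (gammaHTheta O (C.theta v) C.Δ)
  have hR : BettiRightExact (C.level v) (charDiamond O (C.char v) (C.delta v)) Sθ :=
    bettiRightExact_residual _ hχ _
      (ellipticHarmless_diamond O _ _ (C.ellipticHarmless_theta hp2 hpO v))
  have hE : BettiNonEisenstein (C.level v) (charDiamond O (C.char v) (C.delta v)) Sθ :=
    bettiNonEisenstein_residual _ _ P.lne (Or.inl P.lne_good) (C.theta_lne_ne hpO v)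
  obtain ⟨bM⟩ := nonempty_supplyBasis_rank hp2 hpO C v
  have : Module.Free A M := Module.Free.of_basis bM
  have : Module.Finite A M := Module.Finite.of_basis bM
  have : Module.Finite O M := Module.Finite.trans A M
  have : Module.Finite R M := Module.Finite.of_restrictScalars_finite A R M
  -- the finite algebra of all operators
  let I : Ideal R := Module.annihilator R M
  let T := R ⧸ I
  have hTfin : Module.Finite O T := by
    let act : R →ₐ[O] Module.End O M := Algebra.lsmul O O M
    have hker : ∀ t ∈ I, act t = 0 := fun t ht =>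
      LinearMap.ext fun m => Module.mem_annihilator.mp ht m
    have hinj : Function.Injective (Ideal.Quotient.liftₐ I act hker) := by
      refine (injective_iff_map_eq_zero _).mpr fun z hz => ?_
      obtain ⟨t, rfl⟩ := Ideal.Quotient.mk_surjective z
      exact Ideal.Quotient.eq_zero_iff_mem.mpr (Module.mem_annihilator.mpr fun m =>
        LinearMap.congr_fun hz m)
    exact Module.Finite.of_injective (Ideal.Quotient.liftₐ I act hker).toLinearMap hinj
  let q : C.polys v →ₐ[O] T := (Ideal.Quotient.mkₐ O I).comp (C.polys v).val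
  have hsurj : Function.Surjective (C.toHecke v) :=
    AlgHom.rangeRestrict_surjective ((Algebra.lsmul O O M).comp (C.polys v).val)
  have hkq : RingHom.ker (C.toHecke v).toRingHom ≤ RingHom.ker q.toRingHom := fun t ht =>
    Ideal.Quotient.eq_zero_iff_mem.mpr (Module.mem_annihilator.mpr fun m =>
      LinearMap.congr_fun (congrArg Subtype.val ht) m)
  let ψ : C.hecke v →+* T :=
    (C.toHecke v).toRingHom.liftOfSurjective hsurj ⟨q.toRingHom, hkq⟩
  have hψ : ∀ t, ψ (C.toHecke v t) = q t := fun t =>
    RingHom.liftOfRightInverse_comp_apply _ _ (Function.rightInverse_surjInv hsurj)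
      ⟨q.toRingHom, hkq⟩ t
  have hψinj : Function.Injective ψ := by
    refine (injective_iff_map_eq_zero _).mpr fun h hh => ?_
    obtain ⟨t, rfl⟩ := hsurj h
    rw [hψ] at hh
    exact Subtype.ext (LinearMap.ext fun m =>
      Module.mem_annihilator.mp (Ideal.Quotient.eq_zero_iff_mem.mp hh) m)
  let _ : Algebra (C.hecke v) T := ψ.toAlgebra
  have hψO : ∀ a : O, ψ (algebraMap O (C.hecke v) a) = algebraMap O T a := fun a => by
    rw [← (C.toHecke v).commutes a, hψ, AlgHom.commutes]
  have : IsScalarTower O (C.hecke v) T := IsScalarTower.of_algebraMap_eq fun a => (hψO a).symm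
  have : Algebra.IsIntegral O T := Algebra.IsIntegral.of_finite O T
  have : Algebra.IsIntegral (C.hecke v) T := Algebra.IsIntegral.tower_top O
  obtain ⟨c₀, hc₀⟩ := FermatLib.Modular.Twist.exists_ringHom_extends_field hψinj
    (j.comp ev.toRingHom)
  have hc₀h : ∀ t : C.polys v, c₀ (q t) = j (ev (C.toHecke v t)) := fun t => by
    rw [← hψ]
    exact RingHom.congr_fun hc₀ (C.toHecke v t)
  have hc₀O : ∀ a : O, c₀ (algebraMap O T a) = j (algebraMap O O₁ a) := fun a => by
    rw [← hψO]
    exact (RingHom.congr_fun hc₀ _).trans (congrArg j (ev.commutes a))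
  -- a discrete valuation ring containing the values
  let _ : Algebra O₁ K := j.toAlgebra
  let F := FractionRing O₁
  let _ : Algebra F K := (IsFractionRing.lift hj).toAlgebra
  have hFK : ∀ a : O₁, algebraMap F K (algebraMap O₁ F a) = j a := fun a =>
    IsFractionRing.lift_algebraMap hj a
  have : IsScalarTower O₁ F K := IsScalarTower.of_algebraMap_eq fun a => (hFK a).symm
  obtain ⟨gT, hgT⟩ := hTfin.fg_top
  let s : Finset K := gT.image c₀
  have hint : ∀ z : T, IsIntegral O₁ (c₀ z) := fun z => by
    obtain ⟨f, hf, hz⟩ := Algebra.IsIntegral.isIntegral (R := O) z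
    refine ⟨f.map (algebraMap O O₁), hf.map _, ?_⟩
    rw [Polynomial.eval₂_map]
    have h := congrArg c₀ hz
    rw [Polynomial.hom_eval₂, map_zero] at h
    rw [← h]
    exact congrArg (fun g => Polynomial.eval₂ g (c₀ z) f) (RingHom.ext fun a => (hc₀O a).symm)
  let K' : IntermediateField F K := IntermediateField.adjoin F (s : Set K)
  have : FiniteDimensional F K' := IntermediateField.finiteDimensional_adjoin fun z hz => by
    obtain ⟨t, -, rfl⟩ := Finset.mem_image.mp hz
    exact (hint t).tower_top
  have : CharZero F := charZero_of_injective_algebraMap (IsFractionRing.injective O₁ F)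
  let _ : Algebra O₁ K' := ((algebraMap F K').comp (algebraMap O₁ F)).toAlgebra
  have : IsScalarTower O₁ F K' := IsScalarTower.of_algebraMap_eq fun a => rfl
  obtain ⟨O₂, _, _, _, _, _, _, hloc, _, hfr, hst, hinj₂, hfin₂, hch₂⟩ :=
    FermatLib.Galois.exists_dvr_extension O₁ F K'
  have : Finite (ResidueField O₂) := hfin₂ inferInstance
  have : CharZero O₂ := hch₂ inferInstance
  let j₂ : O₂ →+* K := K'.val.toRingHom.comp (algebraMap O₂ K')
  have hj₂ : Function.Injective j₂ :=
    K'.val.injective.comp (IsFractionRing.injective O₂ K')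
  have hj₂ι : j₂.comp (algebraMap O₁ O₂) = j := RingHom.ext fun a => by
    show (algebraMap O₂ K' (algebraMap O₁ O₂ a) : K) = j a
    rw [← IsScalarTower.algebraMap_apply O₁ O₂ K']
    exact hFK a
  -- all values lie in `O₂`
  have hval : ∀ z : T, ∃ a : O₂, j₂ a = c₀ z := by
    intro z
    have hzK : c₀ z ∈ K' := by
      have hz : z ∈ Submodule.span O (gT : Set T) := hgT ▸ Submodule.mem_top
      induction hz using Submodule.span_induction with
      | mem t ht => exact IntermediateField.subset_adjoin F _ (Finset.mem_image_of_mem c₀ ht)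
      | zero => rw [map_zero]; exact zero_mem _
      | add a b _ _ ha hb => rw [map_add]; exact add_mem ha hb
      | smul a t _ h =>
        rw [Algebra.smul_def, map_mul, hc₀O, ← hFK]
        exact mul_mem (K'.algebraMap_mem _) h
    have hzI : IsIntegral O₂ (⟨c₀ z, hzK⟩ : K') := by
      have hz' : IsIntegral O₁ (⟨c₀ z, hzK⟩ : K') := by
        obtain ⟨f, hf, h⟩ := hint z
        refine ⟨f, hf, Subtype.ext ?_⟩
        show (K'.val.toRingHom (Polynomial.eval₂ (algebraMap O₁ K') _ f)) = 0
        rw [Polynomial.hom_eval₂]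
        refine Eq.trans ?_ h
        exact congrArg (fun g => Polynomial.eval₂ g (c₀ z) f) (RingHom.ext fun a => hFK a)
      exact hz'.tower_top
    obtain ⟨a, ha⟩ := IsIntegrallyClosed.algebraMap_eq_of_integral hzI
    exact ⟨a, congrArg Subtype.val ha⟩
  -- the character of all polynomials
  let ι : O₁ →+* O₂ := algebraMap O₁ O₂
  have hCA : ∀ a : A, (MvPolynomial.C a : R) ∈ C.polys v := fun a => by
    induction a using MonoidAlgebra.induction_on with
    | of g => exact Algebra.subset_adjoin (Or.inl ⟨g, rfl⟩)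
    | add f g hf hg => rw [map_add]; exact add_mem hf hg
    | smul a f hf =>
      rw [Algebra.smul_def, map_mul]
      exact mul_mem ((C.polys v).algebraMap_mem a) hf
  let cA : A →+* O₁ := ev.toRingHom.comp ((C.toHecke v).toRingHom.comp
    ((MvPolynomial.C : A →+* R).codRestrict (C.polys v).toSubring hCA))
  have hcA : ∀ a, cA a = ev (C.toHecke v ⟨MvPolynomial.C a, hCA a⟩) := fun _ => rfl
  let _ : Algebra A O₂ := (ι.comp cA).toAlgebra
  let _ : Algebra O O₂ := (ι.comp (algebraMap O O₁)).toAlgebra
  have : IsScalarTower O O₁ O₂ := IsScalarTower.of_algebraMap_eq fun _ => rfl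
  have : Module.Finite O O₂ := Module.Finite.trans O₁ O₂
  have : IsScalarTower O A O₂ := IsScalarTower.of_algebraMap_eq fun a => by
    show ι (algebraMap O O₁ a) = ι (ev (C.toHecke v (algebraMap O (C.polys v) a)))
    rw [AlgHom.commutes, AlgHom.commutes]
  have : Module.Finite A O₂ := Module.Finite.of_restrictScalars_finite O A O₂
  choose lam hlam using fun l : Nat.Primes => hval (Ideal.Quotient.mk I (X l))
  let c : R →ₐ[A] O₂ := MvPolynomial.aeval lam
  have hc : j₂.comp c.toRingHom = c₀.comp (Ideal.Quotient.mk I) := by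
    refine MvPolynomial.ringHom_ext (fun a => ?_) fun l => ?_
    · show j₂ (c (MvPolynomial.C a)) = c₀ (q ⟨MvPolynomial.C a, hCA a⟩)
      rw [hc₀h, ← hcA, MvPolynomial.algHom_C, ← hj₂ι]
      rfl
    · show j₂ (c (X l)) = c₀ (Ideal.Quotient.mk I (X l))
      rw [MvPolynomial.aeval_X, hlam]
  have hker : ∀ t, (∀ m : M, t • m = 0) → c t = 0 := fun t ht => hj₂ (by
    rw [map_zero, show j₂ (c t) = c₀ (Ideal.Quotient.mk I t) from RingHom.congr_fun hc t,
      Ideal.Quotient.eq_zero_iff_mem.mpr (Module.mem_annihilator.mpr ht), map_zero])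
  let χ₂ : (ZMod (C.level v))ˣ →* O₂ˣ := bettiBaseChar O₂ (charDiamond O (C.char v) (C.delta v))
  obtain ⟨x, hx, hxe⟩ := exists_eigenclass_of_point (S := Sθ) hχ hR hE c hker j₂ hj₂
    ((Units.map j₂.toMonoidHom).comp χ₂) fun d => rfl
  -- units at the localised polynomials
  have hunit : ∀ t ∈ Sθ, IsUnit (c t) := by
    intro t ht
    have hle : (⊤ : Submodule R M) ≤ Ideal.span {t} • ⊤ := fun m _ => by
      induction m using LocalizedModule.induction_on with
      | h y w =>
        rw [show LocalizedModule.mk y w = t • LocalizedModule.mk y (⟨t, ht⟩ * w) by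
          rw [LocalizedModule.smul'_mk]
          exact (LocalizedModule.mk_cancel_common_left ⟨t, ht⟩ w y).symm]
        exact Submodule.smul_mem_smul (Ideal.mem_span_singleton_self t) Submodule.mem_top
    obtain ⟨a, ha1, ha⟩ := Submodule.exists_sub_one_mem_and_smul_eq_zero_of_fg_of_le_smul
      (Ideal.span {t}) (⊤ : Submodule R M) Module.Finite.fg_top hle
    obtain ⟨b, hb⟩ := Ideal.mem_span_singleton'.mp ha1
    have h0 : c a = 0 := hker a fun m => ha m Submodule.mem_top
    refine IsUnit.of_mul_eq_one (-(c b)) ?_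
    have := congrArg c hb
    rw [map_mul, map_sub, h0, map_one] at this
    linear_combination -this
  refine ⟨O₂, inferInstance, inferInstance, inferInstance, inferInstance, inferInstance,
    inferInstance, ι, j₂, χ₂, lam, x, hloc, ?_, hj₂, hj₂ι, fun d => ?_, hx, fun l => ?_,
    fun l hl hlE => ?_, fun l hl a ha => ?_⟩
  · exact algebraMap_isIntegral_iff.mpr (Algebra.IsIntegral.of_finite O₁ O₂)
  · show ι (cA (charDiamond O (C.char v) (C.delta v) d : A)) = _
    rw [coe_charDiamond, map_mul, map_mul]
    congr 2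
    show ev (C.toHecke v (algebraMap O (C.polys v) (C.char v d : O))) = _
    rw [AlgHom.commutes, AlgHom.commutes]
  · rw [hxe l, MvPolynomial.aeval_X]
  · refine hj₂ ?_
    have h1 : j₂ (ι (ev (C.tElt v l))) = c₀ (Ideal.Quotient.mk I (C.opT v l)) := by
      rw [SupplyLevel.tElt, dif_pos ⟨l.2, hlE⟩, ← RingHom.comp_apply j₂ ι, hj₂ι, ← hc₀h]
      rfl
    rw [h1, ← RingHom.comp_apply c₀, ← hc, RingHom.comp_apply, SupplyLevel.opT, dif_pos l.2]
    refine congrArg j₂ ?_
    rw [AlgHom.toRingHom_eq_coe, RingHom.coe_coe, map_mul, MvPolynomial.algHom_C,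
      show c (X ⟨(l : ℕ), _⟩) = lam l from MvPolynomial.aeval_X _ _, SupplyLevel.twist, dif_pos hl,
      map_pow, coe_bettiBaseChar]
  · -- the congruence
    let t : R := X l - MvPolynomial.C (algebraMap O A a)
    have htsup : ∀ n : ℕ, t ^ n - 1 ∈ supported A S.supplyPrimes := fun n =>
      sub_mem (pow_mem (sub_mem (X_mem_supported_set hl) (C_mem_supported_set _ _)) n) (one_mem _)
    have hθt : gammaHTheta O (C.theta v) C.Δ t = 0 := by
      rw [map_sub, gammaHTheta_X, gammaHTheta_C, AlgHom.commutes, C.eigen_theta_C, ← ha]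
      exact sub_self _
    have hct : c t = lam l - ι (algebraMap O O₁ a) := by
      rw [map_sub, MvPolynomial.aeval_X, MvPolynomial.algHom_C, ← IsScalarTower.algebraMap_apply]
      rfl
    rw [← hct]
    by_contra hnm
    have hne : residue O₂ (c t) ≠ 0 := fun h => hnm ((residue_eq_zero_iff _).mp h)
    have : Fintype (ResidueField O₂) := Fintype.ofFinite _
    have hn : Fintype.card (ResidueField O₂) - 1 ≠ 0 := by
      have := Fintype.one_lt_card (α := ResidueField O₂)
      omega
    have hu := hunit _ (mem_bettiResidualSubmonoid.mpr ⟨htsup (Fintype.card (ResidueField O₂) - 1),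
      by rw [map_sub, map_pow, hθt, zero_pow hn, map_one, zero_sub]; exact neg_ne_zero.mpr one_ne_zero⟩)
    refine (mem_maximalIdeal _).mp ((residue_eq_zero_iff _).mp ?_) hu
    rw [map_sub, map_pow, map_one, map_sub, map_pow, map_one,
      FiniteField.pow_card_sub_one_eq_one _ hne, sub_self]

end FermatLib.MLT.Odd

end
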