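import Fermat.Agent.MLT.Odd.SupplyDefs
import Fermat.Agent.MLT.Odd.HeckeRepDescentPrep
import Fermat.Agent.Galois.NewformRepCore
import Fermat.Agent.Basic.FrobeniusExists

/-!
# Levels of auxiliary families

An auxiliary prime has Frobenius with two distinct residual eigenvalues of product one, which gives
the chosen simple roots.
-/

set_option autoImplicit false
set_option linter.style.haveILetI false

noncomputable section

namespace FermatLib.MLT.Odd

open IsLocalRing MvPolynomial

local notation "Qbar" => AlgebraicClosure ℚ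

variable {O : Type} [CommRing O] [IsDomain O] [IsDiscreteValuationRing O] {p : ℕ}
  [Fact p.Prime] {ρbar : ResidualGaloisRep (ResidueField O)} {S : OddPrimes p ρbar}
  {tp : S.TamePairs}

/-- An auxiliary family outside the avoided primes gives a level. -/
theorem exists_supplyLevel_proof (hres : OddResidual p ρbar) (P : SupplyParams S tp) {n r : ℕ}
    {qv : Fin r → ℕ} (h : IsTWFamily S n qv) (havoid : ∀ i, qv i ∉ P.avoid) :
    ∃ C : SupplyLevel P (Finset.univ.image qv) r (n + 1), C.qv = qv := by
  have hp := (Fact.out : p.Prime)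
  haveI : NeZero (p ^ (n + 1)) := ⟨pow_ne_zero _ hp.ne_zero⟩
  choose f hf using fun i => exists_units_surjective (N := p ^ (n + 1)) (h.prime i) (h.dvd i)
  have hroot : ∀ i, ∃ a : ResidueField O, a ^ 2 - P.θX ⟨qv i, h.prime i⟩ * a + 1 = 0 ∧
      2 * a ≠ P.θX ⟨qv i, h.prime i⟩ := by
    intro i
    obtain ⟨A, hA⟩ := Basic.exists_liesOverPrime (h.prime i)
    obtain ⟨σ, hσ⟩ := Basic.exists_isFrobeniusAt (h.prime i) A hA
    obtain ⟨a, b, hab, hchar⟩ := h.distinct i A hA σ hσ
    have hnot := h.notMem i
    rw [Finset.mem_insert, not_or] at hnot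
    have hgood : ¬ qv i ∣ p * S.level := fun hd => by
      rcases (h.prime i).dvd_mul.1 hd with hd | hd
      · exact hnot.1 ((Nat.prime_dvd_prime_iff_eq (h.prime i) hp).1 hd)
      · unfold OddPrimes.level at hd
        rcases (h.prime i).dvd_mul.1 hd with hd | hd
        · obtain ⟨q', hq', hd⟩ := (Prime.dvd_finsetProd_iff (h.prime i).prime _).1 hd
          exact hnot.2 (((Nat.prime_dvd_prime_iff_eq (h.prime i) (S.prime_of_mem q' hq')).1 hd) ▸ hq')
        · split_ifs at hd
          · exact (h.prime i).ne_one (Nat.dvd_one.1 hd)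
          · exact hnot.1 ((Nat.prime_dvd_prime_iff_eq (h.prime i) hp).1 hd)
    have hd : LinearMap.det (ρbar.ρ σ) = 1 := by
      refine (HeckeRep.det_frobenius (GaloisRepAdic.ofResidualGaloisRep ρbar) hp hres.det
        (h.prime i) hnot.1 hA hσ).trans ?_
      obtain ⟨c, hc⟩ := (dvd_pow_self p (Nat.succ_ne_zero n)).trans (h.dvd i)
      have hq : qv i = p * c + 1 := by have := (h.prime i).pos; omega
      have hp0 : (p : ResidueField O) = 0 := by
        simpa [IsLocalRing.maximalIdeal_eq_bot] using hres.det.1
      rw [hq]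
      push_cast
      rw [hp0, zero_mul, zero_add]
    have hch := hchar.symm.trans
      (Galois.s35_charpoly_eq_of_finrank_eq_two ρbar.finrank_eq (ρbar.ρ σ))
    rw [← P.θX_good ⟨qv i, h.prime i⟩ hgood A hA σ hσ, hd] at hch
    refine ⟨a, ?_, fun h2 => hab ?_⟩
    · have := congrArg (Polynomial.eval a) hch
      simpa using this.symm
    · have h1 := congrArg (fun F : Polynomial (ResidueField O) => F.coeff 1) hch
      simp [Polynomial.coeff_X, Polynomial.coeff_C, Polynomial.coeff_one, sub_mul, mul_sub] at h1
      linear_combination h1 + h2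
  choose α hα hα' using hroot
  exact ⟨{ qv := qv, image_eq := rfl, injective := h.injective, prime := h.prime
           notMem := h.notMem, notAvoid := havoid, dvd := h.dvd
           one_mod := fun i => (dvd_pow_self p (Nat.succ_ne_zero n)).trans (h.dvd i)
           f := f, f_surjective := hf, α := α, α_root := hα, α_simple := hα' }, rfl⟩

end FermatLib.MLT.Odd
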