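import Fermat.Agent.MLT.Odd.SupplyPoint
import Fermat.Agent.MLT.Odd.HeckeRepNonEisenstein
import Mathlib.FieldTheory.IsAlgClosed.AlgebraicClosure

/-!
# Every variant has its systems

The eigen systems of a variant separate its Hecke algebra, and each has a system.
-/

set_option autoImplicit false
set_option linter.style.haveILetI false
set_option linter.unusedSectionVars false

noncomputable section

namespace FermatLib.MLT.Odd

open IsLocalRing

/-- A finite algebra has finitely many points in a field. -/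
theorem finite_points_of_finite {R B K : Type} [CommRing R] [CommRing B] [Algebra R B]
    [Module.Finite R B] [Field K] [Algebra R K] : Finite (B →ₐ[R] K) := by
  classical
  obtain ⟨g, hg⟩ := (Module.Finite.fg_top : (⊤ : Submodule R B).FG)
  choose m hm hm0 using fun b : B => Algebra.IsIntegral.isIntegral (R := R) b
  let rts : B → Finset K := fun b => ((m b).map (algebraMap R K)).roots.toFinset
  let res : (B →ₐ[R] K) → ∀ b : g, rts b := fun φ b => ⟨φ b, by
    refine Multiset.mem_toFinset.2 ((Polynomial.mem_roots ((hm b).map _).ne_zero).2 ?_)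
    rw [Polynomial.IsRoot, Polynomial.eval_map, ← Polynomial.aeval_def,
      Polynomial.aeval_algHom_apply]
    rw [show Polynomial.aeval (b : B) (m b) = 0 from hm0 b, map_zero]⟩
  refine Finite.of_injective res fun φ ψ h => ?_
  have hlin : φ.toLinearMap = ψ.toLinearMap := LinearMap.ext_on hg fun b hb => by
    exact congrArg Subtype.val (congrFun h ⟨b, hb⟩)
  exact AlgHom.ext fun b => LinearMap.congr_fun hlin b

variable {O : Type} [CommRing O] [IsDomain O] [IsDiscreteValuationRing O]
  [IsAdicComplete (maximalIdeal O) O] [Finite (ResidueField O)] [CharZero O] {p : ℕ}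
  [Fact p.Prime] {ρbar : ResidualGaloisRep (ResidueField O)} {S : OddPrimes p ρbar}
  {tp : S.TamePairs} {P : SupplyParams S tp} {Q : Finset ℕ} {r e : ℕ} (C : SupplyLevel P Q r e)

namespace SupplyLevel

/-- A prime `1` modulo the level of all twists at which the eigenvalue is not Eisenstein. -/
theorem exists_split_prime (hpO : (p : O) ∈ maximalIdeal O) (hres : OddResidual p ρbar)
    (v : OddVariant) :
    ∃ l₀ : Nat.Primes,
      ((l₀ : ℕ) : ZMod (C.level v * ∏ q ∈ (C.twistData v).Qs, q)) = 1 ∧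
      (MvPolynomial.X l₀ - MvPolynomial.C (((l₀ : ℕ) : DiamondRing O C.Δ) + 1) :
        BettiHeckeAlg (DiamondRing O C.Δ)) ∈
          bettiResidualSubmonoid S.supplyPrimes (gammaHTheta O (C.theta v) C.Δ) ∧
      BettiNonEisenstein (C.level v) (charDiamond O (C.char v) (C.delta v))
        (bettiResidualSubmonoid S.supplyPrimes (gammaHTheta O (C.theta v) C.Δ)) := by
  classical
  have hp : p.Prime := Fact.out
  haveI : NeZero (C.level v * ∏ q ∈ (C.twistData v).Qs, q) :=
    ⟨mul_ne_zero (NeZero.ne _) (Finset.prod_ne_zero_iff.2 fun q hq =>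
      ((C.twistData v).exactly q hq).1.ne_zero)⟩
  obtain ⟨ℓ, hℓ, hℓT, hℓN, -, hℓ1, A, hA, σ, hσ, hne⟩ := HeckeRep.exists_frobenius_trace_ne
    hres.absIrred hp hres.det (C.level v * ∏ q ∈ (C.twistData v).Qs, q)
    (p * S.level).primeFactors
  have hgood : ¬ ℓ ∣ p * S.level := fun h => hℓT (Nat.mem_primeFactors.2
    ⟨hℓ, h, mul_ne_zero hp.ne_zero (NeZero.ne _)⟩)
  have hℓL : ¬ ℓ ∣ C.level v := fun h => hℓN (h.mul_right _)
  let l : Nat.Primes := ⟨ℓ, hℓ⟩
  have hl : l ∈ S.supplyPrimes := Or.inl hgood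
  have hnot : l ∉ C.qPrimes := fun hm => by
    obtain ⟨i, hi⟩ := C.mem_qPrimes.1 hm
    have hd := C.qv_dvd_level v i
    rw [hi] at hd
    exact hℓL hd
  have hX : gammaHTheta O (C.theta v) C.Δ (MvPolynomial.X l) ≠
      ((ℓ : ℕ) : ResidueField O) + 1 := by
    rw [gammaHTheta_X, SupplyLevel.theta, residualRaiseSet_X_of_notMem _ _ hnot,
      baseTheta_X_of_not_dvd P v (by exact hgood), P.θX_good l hgood A hA σ hσ]
    exact hne
  refine ⟨l, hℓ1, mem_bettiResidualSubmonoid.2
    ⟨Subalgebra.sub_mem _ (X_mem_supported_set hl) (C_mem_supported_set _ _), ?_⟩,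
    bettiNonEisenstein_residual _ _ l hl ?_⟩
  · rw [map_sub, sub_ne_zero, map_add, map_natCast, map_one, map_add, map_natCast, map_one]
    exact hX
  · rw [gammaHTheta_C, show diamondAug O C.Δ (heckeDegree (charDiamond O (C.char v) (C.delta v)) l)
      = heckeDegree (C.char v) l by
        show algebraMap (DiamondRing O C.Δ) O _ = _
        rw [← heckeDegree_baseChar, bettiBaseChar_charDiamond], SupplyLevel.theta,
      residualRaiseSet_C, baseTheta_C, residue_heckeDegree (fun d => ?_) l hℓL]
    · exact hX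
    · rw [C.char_eq_baseChar v, MonoidHom.comp_apply]
      exact residue_baseChar hpO v _

/-- The good operators use only primes outside the level. -/
theorem polys_le_good (v : OddVariant) {R : BettiHeckeAlg (DiamondRing O C.Δ)}
    (hR : R ∈ C.polys v) :
    R ∈ MvPolynomial.supported (DiamondRing O C.Δ) {l : Nat.Primes | ¬ (l : ℕ) ∣ C.level v} := by
  refine (Algebra.adjoin_le (S := (MvPolynomial.supported (DiamondRing O C.Δ)
    {l : Nat.Primes | ¬ (l : ℕ) ∣ C.level v}).restrictScalars O) ?_) hR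
  rintro x (⟨g, rfl⟩ | ⟨l, ⟨hl, hlE⟩, rfl⟩)
  · exact C_mem_supported_set _ _
  · show C.opT v l ∈ MvPolynomial.supported (DiamondRing O C.Δ) _
    rw [opT, dif_pos hl]
    exact Subalgebra.mul_mem _ (C_mem_supported_set _ _) (X_mem_supported_set
      (show ¬ (l : ℕ) ∣ C.level v from fun hd => hlE (Nat.mem_primeFactors.2
        ⟨hl, hd.mul_left p, mul_ne_zero (Fact.out : p.Prime).ne_zero (NeZero.ne _)⟩)))

/-- **Every variant has its systems.** -/
theorem nonempty_systems (hp2 : p ≠ 2) (hpO : (p : O) ∈ maximalIdeal O)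
    (hres : OddResidual p ρbar) (v : OddVariant) : Nonempty (SupplySystems C v) := by
  classical
  have hp : p.Prime := Fact.out
  haveI : NeZero (p ^ e) := ⟨pow_ne_zero _ hp.ne_zero⟩
  let K : Type := AlgebraicClosure (FractionRing O)
  have hK : Function.Injective (algebraMap O K) := by
    rw [IsScalarTower.algebraMap_eq O (FractionRing O) K, RingHom.coe_comp]
    exact (algebraMap (FractionRing O) K).injective.comp (IsFractionRing.injective O _)
  haveI : CharZero K := charZero_of_injective_algebraMap hK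
  obtain ⟨l₀, hl₀, hl₀S, hE⟩ := C.exists_split_prime hpO hres v
  have hχ : C.char v (-1) = 1 := by
    rw [C.char_eq_baseChar v, MonoidHom.comp_apply,
      show ZMod.unitsMap (C.baseLevel_dvd v) (-1) = -1 from Units.ext (by simp [ZMod.unitsMap_def]),
      baseChar_neg_one hp2]
  have hR := bettiRightExact_residual (charDiamond O (C.char v) (C.delta v))
    (charDiamond_neg_one O _ _ hχ (C.delta_neg_one hp2 v))
    (Pr := S.supplyPrimes) (gammaHTheta O (C.theta v) C.Δ)
    (ellipticHarmless_diamond O _ _ (C.ellipticHarmless_theta hp2 hpO v))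
  obtain ⟨-, hfin, -, -⟩ := C.free_mod hp2 hpO v
  haveI := hfin
  haveI : Module.Finite O (C.Mod v) := Module.Finite.trans (DiamondRing O C.Δ) (C.Mod v)
  haveI : Module.Finite O (C.hecke v) := by
    obtain ⟨n, g, hg⟩ := Module.Finite.exists_fin' O (C.Mod v)
    let evl : Module.End O (C.Mod v) →ₗ[O] (Fin n → C.Mod v) :=
      { toFun := fun u i => u (g (Pi.single i 1))
        map_add' := fun _ _ => rfl
        map_smul' := fun _ _ => rfl }
    have hevl : Function.Injective evl := by
      intro u u' huu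
      refine LinearMap.ext fun y => ?_
      obtain ⟨w, rfl⟩ := hg y
      rw [pi_eq_sum_univ' w]
      simp only [map_sum, map_smul]
      exact Finset.sum_congr rfl fun i _ => congrArg (w i • ·) (congrFun huu i)
    exact Module.Finite.of_injective (evl.comp (C.hecke v).val.toLinearMap)
      (hevl.comp Subtype.val_injective)
  haveI : Finite (C.hecke v →ₐ[O] K) := finite_points_of_finite
  let good : Set (C.hecke v →ₐ[O] K) := {ev | ∃ (x : OddSystem S Q) (ev' : C.hecke v →ₐ[O] x.O'),
    (∀ a, ev' a = 0 → ev a = 0) ∧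
    ∀ ℓ : ℕ, ℓ.Prime → ℓ ∉ C.exc v → ∀ A : ValuationSubring (AlgebraicClosure ℚ),
      A.LiesOverPrime ℓ → ∀ φ, A.IsFrobeniusAt φ ℓ → x.r.trace φ = ev' (C.tElt v ℓ)}
  choose x ev' hker htr using fun ev : good => ev.2
  refine ⟨{ κ := good, y := x, ev := ev', ev_inj := fun a ha => ?_, t_spec := htr }⟩
  by_contra ha0
  obtain ⟨R, rfl⟩ : ∃ R, C.toHecke v R = a := AlgHom.rangeRestrict_surjective _ a
  obtain ⟨y, hy⟩ : ∃ y : C.Mod v, (R : BettiHeckeAlg (DiamondRing O C.Δ)) • y ≠ 0 := by
    by_contra h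
    push Not at h
    exact ha0 (Subtype.ext (LinearMap.ext h))
  haveI : Finite (DiamondRing O C.Δ →ₐ[O] K) := finite_diamond_points
  obtain ⟨σ, lam, hsys, hne⟩ := exists_eigenSystem_ne_zero (O := O) (K := K)
    (hp.odd_of_ne_two hp2) (C.twistData v)
    (fun b hb => diamond_eq_zero_of_forall_point hK b hb) hE hR
    (Good := {l : Nat.Primes | ¬ (l : ℕ) ∣ C.level v}) (fun l hl => hl) l₀ hl₀ hl₀S
    (C.polys_le_good v R.2) hy
  obtain ⟨ev, hev⟩ := C.exists_heckePoint hsys
  obtain ⟨x₁, ev₁, h1, h2⟩ := C.exists_oddSystem_eigenSystem hp2 hpO hres hK hsys l₀ hl₀ hl₀S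
  have hmem : ev ∈ good := ⟨x₁, ev₁, fun a h0 => by
    obtain ⟨R', rfl⟩ : ∃ R', C.toHecke v R' = a := AlgHom.rangeRestrict_surjective _ a
    rw [hev]
    exact h1 R' h0, h2⟩
  exact hne ((hev R).symm.trans (hker ⟨ev, hmem⟩ _ (ha ⟨ev, hmem⟩)))

end SupplyLevel

end FermatLib.MLT.Odd

end
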