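import Fermat.Agent.MLT.Odd.SupplyDefs

/-!
# The modules of the levels: rank, freeness and congruence

The base character of a variant is residually trivial, the residual eigenvalues at the auxiliary
primes are simple roots away from `±1`, the elliptic elements are harmless through `ell` and the
Eisenstein eigenvalue is avoided through `lne`: so every variant is free over the diamonds of the
rank of its base level, and the full and the twisted variant are congruent.
-/

set_option autoImplicit false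
set_option linter.style.haveILetI false
set_option linter.unusedSectionVars false

noncomputable section

namespace FermatLib.MLT.Odd

open IsLocalRing MvPolynomial

variable {O : Type} [CommRing O] [IsDomain O] [IsDiscreteValuationRing O]
  [IsAdicComplete (maximalIdeal O) O] [Finite (ResidueField O)] [CharZero O] {p : ℕ} [Fact p.Prime]
  {ρbar : ResidualGaloisRep (ResidueField O)} {S : OddPrimes p ρbar} {tp : S.TamePairs}
  {P : SupplyParams S tp} {Q : Finset ℕ} {r e : ℕ}

theorem supply_residue_natCast (hpO : (p : O) ∈ maximalIdeal O) :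
    (p : ResidueField O) = 0 := by
  rw [← map_natCast (residue O)]
  exact (residue_eq_zero_iff _).2 hpO

/-- The `p`-th roots of unity are residually trivial. -/
theorem residue_unit_eq_one_of_pow (hpO : (p : O) ∈ maximalIdeal O) {u : Oˣ} (h : u ^ p = 1) :
    residue O (u : O) = 1 := by
  haveI : CharP (ResidueField O) p :=
    (CharP.charP_iff_prime_eq_zero Fact.out).2 (supply_residue_natCast hpO)
  have h1 : (residue O (u : O) - 1) ^ p = 0 := by
    rw [sub_pow_char, one_pow, ← map_pow, ← Units.val_pow_eq_pow_val, h, Units.val_one, map_one,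
      sub_self]
  exact sub_eq_zero.1 (pow_eq_zero_iff (Fact.out : p.Prime).ne_zero |>.1 h1)

theorem supply_isUnit_two (hp2 : p ≠ 2) (hpO : (p : O) ∈ maximalIdeal O) : IsUnit (2 : O) := by
  by_contra h
  obtain ⟨j, hj⟩ := (Fact.out : p.Prime).odd_of_ne_two hp2
  have h1 : (p : O) - 2 * (j : O) ∈ maximalIdeal O :=
    sub_mem hpO (Ideal.mul_mem_right _ _ ((mem_maximalIdeal _).2 h))
  rw [hj] at h1
  push_cast at h1
  rw [add_sub_cancel_left] at h1
  exact (maximalIdeal.isMaximal O).ne_top ((Ideal.eq_top_iff_one _).2 h1)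

/-- A residually trivial character has the Eisenstein degree `l + 1`. -/
theorem residue_heckeDegree {L : ℕ} {χ : (ZMod L)ˣ →* Oˣ} (hχ : ∀ d, residue O (χ d : O) = 1)
    (l : Nat.Primes) (hlL : ¬ (l : ℕ) ∣ L) :
    residue O (heckeDegree χ l) = ((l : ℕ) : ResidueField O) + 1 := by
  have h1 : ∀ x : Modular.HeckeIdx L l, residue O (heckeWeight χ l x) = 1 := fun x => hχ _
  rw [heckeDegree, map_sum, Finset.sum_congr rfl fun x _ => h1 x, Finset.sum_const,
    Finset.card_univ, Fintype.card_congr (Equiv.subtypeUnivEquiv fun x _ => hlL),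
    Fintype.card_option, Fintype.card_fin, nsmul_one, Nat.cast_add, Nat.cast_one]

theorem baseLevel_dvd_level (S : OddPrimes p ρbar) (v : OddVariant) : S.baseLevel v ∣ S.level := by
  cases v with
  | old r => exact Nat.div_dvd_of_dvd (Nat.gcd_dvd_right _ _)
  | std => exact dvd_rfl
  | chi => exact dvd_rfl

theorem dvd_level_of_mem_all {q : ℕ} (hq : q ∈ S.all) : q ∣ S.level :=
  Dvd.dvd.mul_right (Finset.dvd_prod_of_mem (fun q => q) hq) _

theorem dvd_level_of_mem_locPrimes {q : ℕ} (hq : q ∈ S.locPrimes) : q ∣ p * S.level := by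
  rw [OddPrimes.locPrimes, Finset.mem_union] at hq
  rcases hq with hq | hq
  · exact (dvd_level_of_mem_all
      (Finset.mem_union_right _ (Finset.mem_filter.1 hq).1)).mul_left _
  · split_ifs at hq with h
    · rw [Finset.mem_singleton] at hq
      rw [hq]
      exact dvd_mul_right _ _
    · simp at hq

theorem baseTheta_X_of_not_dvd (P : SupplyParams S tp) (v : OddVariant) {l : Nat.Primes}
    (hl : ¬ (l : ℕ) ∣ p * S.level) : P.baseTheta v (X l) = P.θX l := by
  rw [SupplyParams.baseTheta, eval₂Hom_X']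
  cases v with
  | old r =>
    exact if_neg fun (h : (l : ℕ) = r ∧ r ∈ S.locPrimes) =>
      hl (dvd_level_of_mem_locPrimes (h.1.symm ▸ h.2))
  | std => rfl
  | chi => rfl

theorem baseTheta_C (P : SupplyParams S tp) (v : OddVariant) (a : O) :
    P.baseTheta v (C a) = residue O a := eval₂Hom_C _ _ a

theorem dvd_baseLevel_chi (q : S.T) : (q : ℕ) ∣ S.baseLevel .chi :=
  dvd_level_of_mem_all (Finset.mem_union_left _ (Finset.mem_union_right _ q.2))

/-- The base character of a variant at its base level. -/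
def SupplyParams.baseChar (P : SupplyParams S tp) :
    ∀ v : OddVariant, (ZMod (S.baseLevel v))ˣ →* Oˣ
  | .chi => ∏ q : S.T, (P.χT q).comp (ZMod.unitsMap (dvd_baseLevel_chi q))
  | .std => 1
  | .old _ => 1

theorem residue_baseChar (hpO : (p : O) ∈ maximalIdeal O) (v : OddVariant)
    (d : (ZMod (S.baseLevel v))ˣ) : residue O (P.baseChar v d : O) = 1 := by
  refine residue_unit_eq_one_of_pow hpO ?_
  cases v with
  | chi =>
    rw [SupplyParams.baseChar, MonoidHom.finsetProd_apply, ← Finset.prod_pow]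
    exact Finset.prod_eq_one fun q _ => P.χT_pow q _
  | std => exact one_pow _
  | old _ => exact one_pow _

theorem baseChar_neg_one (hp2 : p ≠ 2) (v : OddVariant) : P.baseChar v (-1) = 1 := by
  obtain ⟨j, hj⟩ := (Fact.out : p.Prime).odd_of_ne_two hp2
  have key : ∀ {N : ℕ} (f : (ZMod N)ˣ →* Oˣ), f (-1) ^ p = 1 → f (-1) = 1 := fun f h => by
    have h2 : f (-1) ^ 2 = 1 := by rw [← map_pow, neg_one_sq, map_one]
    rwa [hj, pow_succ, pow_mul, h2, one_pow, one_mul] at h
  refine key _ ?_
  cases v with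
  | chi =>
    rw [SupplyParams.baseChar, MonoidHom.finsetProd_apply, ← Finset.prod_pow]
    exact Finset.prod_eq_one fun q _ => P.χT_pow q _
  | std => exact one_pow _
  | old _ => exact one_pow _

namespace SupplyLevel

variable (C : SupplyLevel P Q r e)

theorem baseLevel_dvd (v : OddVariant) : S.baseLevel v ∣ C.level v := dvd_mul_right _ _

theorem char_eq_baseChar (v : OddVariant) :
    C.char v = (P.baseChar v).comp (ZMod.unitsMap (C.baseLevel_dvd v)) := by
  cases v with
  | chi =>
    refine MonoidHom.ext fun d => ?_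
    rw [SupplyLevel.char, MonoidHom.comp_apply, SupplyParams.baseChar, MonoidHom.finsetProd_apply,
      MonoidHom.finsetProd_apply]
    refine Finset.prod_congr rfl fun q _ => ?_
    rw [MonoidHom.comp_apply, MonoidHom.comp_apply, ← MonoidHom.comp_apply (ZMod.unitsMap _),
      ZMod.unitsMap_comp]
  | std => rfl
  | old _ => rfl

theorem delta_neg_one (hp2 : p ≠ 2) (v : OddVariant) : C.delta v (-1) = 1 :=
  map_neg_one_of_odd ((Fact.out : p.Prime).odd_of_ne_two hp2).pow _

theorem mem_qPrimes {l : Nat.Primes} : l ∈ C.qPrimes ↔ ∃ i, C.qv i = (l : ℕ) := by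
  refine Finset.mem_image.trans ⟨fun ⟨i, _, h⟩ => ⟨i, congrArg Subtype.val h⟩,
    fun ⟨i, h⟩ => ⟨i, Finset.mem_univ i, Subtype.ext h⟩⟩

theorem rootFun_qv (i : Fin r) : C.rootFun ⟨C.qv i, C.prime i⟩ = C.α i := by
  have h : ∃ j, C.qv j = ((⟨C.qv i, C.prime i⟩ : Nat.Primes) : ℕ) := ⟨i, rfl⟩
  exact (dif_pos h).trans (congrArg C.α (C.injective h.choose_spec))

theorem not_dvd_qv (i : Fin r) : ¬ C.qv i ∣ p * S.level := fun h => by
  refine C.notMem i ?_
  rcases (C.prime i).dvd_mul.1 h with h | h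
  · rw [(Nat.prime_dvd_prime_iff_eq (C.prime i) Fact.out).1 h]
    exact Finset.mem_insert_self _ _
  · rcases level_dvd_mem (C.prime i) h with h | h
    · exact Finset.mem_insert.2 (Or.inl h)
    · exact Finset.mem_insert_of_mem h

theorem ell_notMem : P.ell ∉ C.qPrimes := fun h => by
  obtain ⟨i, hi⟩ := C.mem_qPrimes.1 h
  exact C.notAvoid i (hi ▸ Finset.mem_insert_self _ _)

theorem lne_notMem : P.lne ∉ C.qPrimes := fun h => by
  obtain ⟨i, hi⟩ := C.mem_qPrimes.1 h
  exact C.notAvoid i (hi ▸ Finset.mem_insert_of_mem (Finset.mem_singleton_self _))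

theorem prod_qPrimes : ∏ q ∈ C.qPrimes, (q : ℕ) = ∏ i, C.qv i := by
  exact Finset.prod_image fun i _ j _ (h : (⟨C.qv i, C.prime i⟩ : Nat.Primes) = ⟨C.qv j, C.prime j⟩) =>
    C.injective (congrArg Subtype.val h)

theorem ellipticHarmless_theta (hp2 : p ≠ 2) (hpO : (p : O) ∈ maximalIdeal O) (v : OddVariant) :
    EllipticHarmless (C.level v) S.supplyPrimes (C.theta v) := by
  have h2 : NoEllipticTwo O (C.level v) := Or.inl (supply_isUnit_two hp2 hpO)
  rcases P.ell_spec with h | ⟨h3, hθ⟩
  · exact Or.inl ⟨h2, Or.inl h⟩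
  · refine Or.inr (Or.inl ⟨h2, P.ell, Or.inl P.ell_good, h3, ?_⟩)
    rwa [theta, residualRaiseSet_X_of_notMem _ _ C.ell_notMem,
      baseTheta_X_of_not_dvd P v P.ell_good]

theorem theta_maximal (v : OddVariant) : ∀ a ∈ maximalIdeal O, C.theta v (MvPolynomial.C a) = 0 :=
  fun a ha => by
    rw [theta, residualRaiseSet_C, baseTheta_C]
    exact (residue_eq_zero_iff _).2 ha


/-- **Freeness over the diamonds**, of the rank of the base level. -/
theorem free_mod (hp2 : p ≠ 2) (hpO : (p : O) ∈ maximalIdeal O) (v : OddVariant) :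
    Module.Free (DiamondRing O C.Δ) (C.Mod v) ∧ Module.Finite (DiamondRing O C.Δ) (C.Mod v) ∧
      Module.Free O (BettiResLoc (P.baseChar v) S.supplyPrimes (P.baseTheta v)) ∧
      Module.finrank (DiamondRing O C.Δ) (C.Mod v) =
        Module.finrank O (BettiResLoc (P.baseChar v) S.supplyPrimes (P.baseTheta v)) := by
  haveI : NeZero (p ^ e) := ⟨pow_ne_zero _ (Fact.out : p.Prime).ne_zero⟩
  have hndvd : ∀ q ∈ C.qPrimes, ¬ (q : ℕ) ∣ p * S.level := fun q hq => by
    obtain ⟨i, hi⟩ := C.mem_qPrimes.1 hq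
    exact hi ▸ C.not_dvd_qv i
  have hQ : ∀ q ∈ C.qPrimes, ¬ (q : ℕ) ∣ S.baseLevel v := fun q hq h =>
    hndvd q hq ((h.trans (baseLevel_dvd_level S v)).mul_left _)
  have hone : ∀ q ∈ C.qPrimes, ((q : ℕ) : ResidueField O) = 1 := fun q hq => by
    obtain ⟨i, hi⟩ := C.mem_qPrimes.1 hq
    obtain ⟨c, hc⟩ := C.one_mod i
    rw [← hi, show C.qv i = p * c + 1 by have := (C.prime i).one_le; omega, Nat.cast_add,
      Nat.cast_mul, supply_residue_natCast hpO, zero_mul, zero_add, Nat.cast_one]
  have hαq : ∀ q ∈ C.qPrimes, C.rootFun q ^ 2 - P.baseTheta v (X q) * C.rootFun q + 1 = 0 ∧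
      2 * C.rootFun q ≠ P.baseTheta v (X q) := fun q hq => by
    obtain ⟨i, hi⟩ := C.mem_qPrimes.1 hq
    obtain rfl : q = ⟨C.qv i, C.prime i⟩ := Subtype.ext hi.symm
    rw [baseTheta_X_of_not_dvd P v (hndvd _ hq), C.rootFun_qv]
    exact ⟨C.α_root i, C.α_simple i⟩
  have hα0 : ∀ q ∈ C.qPrimes, C.rootFun q ≠ 0 := fun q hq h => by
    have := (hαq q hq).1
    rw [h] at this
    simp at this
  have hnew : ∀ (q : Nat.Primes) (h : q ∈ C.qPrimes), C.rootFun q ^ 2 ≠
      P.baseTheta v (MvPolynomial.C (P.baseChar v (levelUnit (hQ q h)) : O)) := fun q hq => by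
    rw [baseTheta_C, residue_baseChar hpO]
    intro h2
    refine (hαq q hq).2 (mul_right_cancel₀ (hα0 q hq) ?_)
    linear_combination (hαq q hq).1 + h2
  obtain ⟨φ, g, -, -, -, -, -, -, -, hfree⟩ := exists_gammaHChar_levelMap O (C.delta v)
    S.supplyPrimes (P.baseTheta v) (fun a ha => by
      rw [baseTheta_C]; exact (residue_eq_zero_iff _).2 ha) (C.delta_neg_one hp2 v)
    (P.baseChar v) (C.baseLevel_dvd v) (fun c =>
      (residue_surjective c).imp fun a ha => (baseTheta_C P v a).trans ha)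
    C.qPrimes (by rw [C.prod_qPrimes]; rfl) hQ (fun q hq => Or.inl (hndvd q hq)) C.rootFun
    (fun q hq => by
      rw [baseTheta_C, map_mul, residue_baseChar hpO, map_natCast, hone q hq, mul_one]
      exact (hαq q hq).1)
    hα0 (fun q hq => (hαq q hq).2) hnew (baseChar_neg_one hp2 v)
    (C.ellipticHarmless_theta hp2 hpO v)
  have hlne : ¬ (P.lne : ℕ) ∣ C.level v := fun h => by
    rcases P.lne.2.dvd_mul.1 h with h | h
    · exact P.lne_good ((h.trans (baseLevel_dvd_level S v)).mul_left _)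
    · obtain ⟨i, -, hi⟩ := (Prime.dvd_finsetProd_iff P.lne.2.prime _).1 h
      exact C.lne_notMem
        (C.mem_qPrimes.2 ⟨i, ((Nat.prime_dvd_prime_iff_eq P.lne.2 (C.prime i)).1 hi).symm⟩)
  have h := hfree p hpO (isPGroup_twGroup r) P.lne (Or.inl P.lne_good) C.lne_notMem (by
    rw [baseTheta_X_of_not_dvd P v P.lne_good, baseTheta_C,
      residue_heckeDegree (fun d => by rw [MonoidHom.comp_apply]; exact residue_baseChar hpO v _)
        P.lne hlne]
    exact P.lne_spec)
  unfold SupplyLevel.Mod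
  rw [C.char_eq_baseChar v]
  exact h

end SupplyLevel


/-- The module of level zero is not zero. -/
theorem supply_rank_std_pos (hp2 : p ≠ 2) (hpO : (p : O) ∈ maximalIdeal O) (P : SupplyParams S tp) :
    0 < Module.finrank (DiamondRing O (SupplyLevel.zero P).Δ)
      ((SupplyLevel.zero P).Mod .std) := by
  obtain ⟨-, -, hfree, hrank⟩ := (SupplyLevel.zero P).free_mod hp2 hpO .std
  haveI := hfree
  haveI : Module.Finite O (BettiResLoc (P.baseChar .std) S.supplyPrimes (P.baseTheta .std)) :=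
    bettiLoc_finite _ _ _ _ fun a ha => by rw [baseTheta_C]; exact (residue_eq_zero_iff _).2 ha
  haveI : Nontrivial (BettiResLoc (P.baseChar .std) S.supplyPrimes (P.baseTheta .std)) :=
    P.nontrivial
  rw [hrank]
  exact (Module.finrank_pos_iff_of_free _ _).2 inferInstance

/-- The modules are free over the diamonds, of the rank of level zero. -/
theorem nonempty_supplyBasis_rank (hp2 : p ≠ 2) (hpO : (p : O) ∈ maximalIdeal O)
    (C : SupplyLevel P Q r e) (v : OddVariant) :
    Nonempty (Module.Basis (Fin (Module.finrank (DiamondRing O (SupplyLevel.zero P).Δ)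
      ((SupplyLevel.zero P).Mod v))) (DiamondRing O C.Δ) (C.Mod v)) := by
  haveI : NeZero (p ^ e) := ⟨pow_ne_zero _ (Fact.out : p.Prime).ne_zero⟩
  haveI := diamond_isLocalRing O C.Δ hpO (isPGroup_twGroup r)
  obtain ⟨hfree, hfin, -, hrank⟩ := C.free_mod hp2 hpO v
  haveI := hfree
  haveI := hfin
  exact ⟨Module.finBasisOfFinrankEq _ _
    (hrank.trans ((SupplyLevel.zero P).free_mod hp2 hpO v).2.2.2.symm)⟩

/-- A congruence of the twists. -/
theorem twist_sub_mem (hpO : (p : O) ∈ maximalIdeal O) (C : SupplyLevel P Q r e) (ℓ : ℕ) :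
    C.twist .std ℓ - C.twist .chi ℓ ∈
      (maximalIdeal O).map (algebraMap O (DiamondRing O C.Δ)) := by
  by_cases h : ℓ.Coprime (C.level .std)
  · have h' : ℓ.Coprime (C.level .chi) := h
    rw [SupplyLevel.twist, SupplyLevel.twist, dif_pos h, dif_pos h', ← Ideal.Quotient.eq,
      map_pow, map_pow]
    congr 1
    rw [Ideal.Quotient.eq, coe_charDiamond, coe_charDiamond]
    show algebraMap O (DiamondRing O C.Δ) (C.char .std _ : O) *
        MonoidAlgebra.of O C.Δ (C.delta .std (ZMod.unitOfCoprime ℓ h)) -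
      algebraMap O (DiamondRing O C.Δ) (C.char .chi (ZMod.unitOfCoprime ℓ h') : O) *
        MonoidAlgebra.of O C.Δ (C.delta .std (ZMod.unitOfCoprime ℓ h)) ∈ _
    rw [← sub_mul, ← map_sub]
    refine Ideal.mul_mem_right _ _ (Ideal.mem_map_of_mem _ ((residue_eq_zero_iff _).1 ?_))
    rw [map_sub, C.char_eq_baseChar .std, C.char_eq_baseChar .chi, MonoidHom.comp_apply,
      MonoidHom.comp_apply, residue_baseChar hpO, residue_baseChar hpO, sub_self]
  · have h' : ¬ ℓ.Coprime (C.level .chi) := h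
    rw [SupplyLevel.twist, SupplyLevel.twist, dif_neg h, dif_neg h', sub_self]
    exact zero_mem _

set_option maxHeartbeats 800000 in
/-- The full and the twisted module are congruent modulo the constants. -/
theorem exists_supplyTheta_congr (hp2 : p ≠ 2) (hpO : (p : O) ∈ maximalIdeal O)
    (C : SupplyLevel P Q r e) :
    ∃ θ : (C.Mod .std ⧸ (maximalIdeal O • ⊤ : Submodule O (C.Mod .std))) ≃ₗ[O]
        (C.Mod .chi ⧸ (maximalIdeal O • ⊤ : Submodule O (C.Mod .chi))),
      ∀ ℓ : ℕ, ℓ.Prime → ℓ ∉ C.exc .std ∪ C.exc .chi → ∀ x y,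
        θ (Submodule.Quotient.mk x) = Submodule.Quotient.mk y →
          θ (Submodule.Quotient.mk (C.tElt .std ℓ • x)) =
            Submodule.Quotient.mk (C.tElt .chi ℓ • y) := by
  haveI : NeZero (p ^ e) := ⟨pow_ne_zero _ (Fact.out : p.Prime).ne_zero⟩
  have hneg : ∀ v, C.char v (-1) = 1 := fun v => by
    rw [C.char_eq_baseChar v, MonoidHom.comp_apply,
      show ZMod.unitsMap (C.baseLevel_dvd v) (-1) = -1 from Units.ext (by simp [ZMod.unitsMap_def]),
      baseChar_neg_one hp2]
  have hcongr : ∀ d, (C.char .std d : O) -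
      ((C.char .chi : (ZMod (C.level .std))ˣ →* Oˣ) d : O) ∈ maximalIdeal O := fun d => by
    rw [← residue_eq_zero_iff, map_sub, C.char_eq_baseChar .std, C.char_eq_baseChar .chi,
      MonoidHom.comp_apply, residue_baseChar hpO]
    exact sub_eq_zero.2 (residue_baseChar hpO _ _).symm
  obtain ⟨E, hE⟩ := exists_gammaHChar_congr O (C.char .std) (C.delta .std) S.supplyPrimes
    (C.theta .std) (C.theta_maximal .std) (hneg .std) (C.delta_neg_one hp2 .std)
    (C.ellipticHarmless_theta hp2 hpO .std) (C.char .chi) (hneg .chi) hcongr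
  let E' : (C.Mod .std ⧸ ((maximalIdeal O).map (algebraMap O (DiamondRing O C.Δ)) •
        (⊤ : Submodule (DiamondRing O C.Δ) (C.Mod .std)))) ≃ₗ[DiamondRing O C.Δ]
      (C.Mod .chi ⧸ ((maximalIdeal O).map (algebraMap O (DiamondRing O C.Δ)) •
        (⊤ : Submodule (DiamondRing O C.Δ) (C.Mod .chi)))) := E
  let cv : ∀ v, (C.Mod v ⧸ (maximalIdeal O • ⊤ : Submodule O (C.Mod v))) ≃ₗ[O]
      (C.Mod v ⧸ ((maximalIdeal O).map (algebraMap O (DiamondRing O C.Δ)) •
        (⊤ : Submodule (DiamondRing O C.Δ) (C.Mod v)))) := fun v =>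
    (Submodule.quotEquivOfEq _ _ (Ideal.smul_restrictScalars _ ⊤).symm).trans
      (Submodule.Quotient.restrictScalarsEquiv O _)
  have hcv : ∀ v (m : C.Mod v), cv v (Submodule.Quotient.mk m) = Submodule.Quotient.mk m :=
    fun v m => rfl
  refine ⟨(cv .std).trans ((E'.restrictScalars O).trans (cv .chi).symm), fun ℓ hℓ hℓE x y h => ?_⟩
  rw [Finset.mem_union, not_or] at hℓE
  rw [LinearEquiv.trans_apply, LinearEquiv.trans_apply, LinearEquiv.symm_apply_eq, hcv, hcv] at h ⊢
  show E _ = _
  rw [C.tElt_smul hℓ hℓE.1, C.tElt_smul hℓ hℓE.2]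
  refine (hE (C.opT .std ℓ) x y h).trans ((Submodule.Quotient.eq _).2 ?_)
  show (C.opT .std ℓ • y - C.opT .chi ℓ • y : C.Mod .chi) ∈
    ((maximalIdeal O).map (algebraMap O (DiamondRing O C.Δ)) •
      (⊤ : Submodule (DiamondRing O C.Δ) (C.Mod .chi)))
  rw [← sub_smul, SupplyLevel.opT, dif_pos hℓ, SupplyLevel.opT, dif_pos hℓ, ← sub_mul, ← map_sub,
    mul_smul, ← MvPolynomial.algebraMap_eq, algebraMap_smul]
  exact Submodule.smul_mem_smul (twist_sub_mem hpO C ℓ) Submodule.mem_top

end FermatLib.MLT.Odd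

end
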