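import Fermat.Agent.MLT.Odd.SupplyEigenPoint
import Fermat.Agent.MLT.Odd.SupplyTwist
import Fermat.Agent.MLT.Odd.SupplyModulesRank
import Fermat.Agent.MLT.Odd.InertiaComponent
import Fermat.Agent.MLT.Odd.GeneratorsDefs

/-!
# The twisted module at the primes of `T`

The nebentype component at `q ∈ T` of a system of the twisted variant is `χ_q`, so the eigenvalues
of the tame generator are `ζ`, `ζ⁻¹`.
-/

set_option autoImplicit false
set_option linter.style.haveILetI false

noncomputable section

namespace FermatLib.MLT.Odd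

open IsLocalRing MvPolynomial FermatLib.Galois FermatLib.Modular.Twist

local notation "Γℚ" => (AlgebraicClosure ℚ ≃ₐ[ℚ] AlgebraicClosure ℚ)

variable {O : Type} [CommRing O] [IsDomain O] [IsDiscreteValuationRing O]
  [IsAdicComplete (maximalIdeal O) O] [Finite (ResidueField O)] [CharZero O] {p : ℕ}
  [Fact p.Prime] {ρbar : ResidualGaloisRep (ResidueField O)} {S : OddPrimes p ρbar}
  {tp : S.TamePairs} {P : SupplyParams S tp} {Q : Finset ℕ} {r e : ℕ}

/-- The structure map of a system is injective. -/
theorem OddSystem.algebraMap_injective {Q : Finset ℕ} (x : OddSystem S Q) :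
    Function.Injective (algebraMap O x.O') := by
  rw [RingHom.injective_iff_ker_eq_bot]
  by_contra h
  haveI : (RingHom.ker (algebraMap O x.O')).IsPrime := RingHom.ker_isPrime _
  have hm : RingHom.ker (algebraMap O x.O') = maximalIdeal O :=
    eq_maximalIdeal (Ideal.IsPrime.isMaximal inferInstance h)
  obtain ⟨c, hc, hc'⟩ : ∃ c : ℕ, c ≠ 0 ∧ (c : O) ∈ RingHom.ker (algebraMap O x.O') := by
    rw [hm]
    exact ⟨ringChar (ResidueField O), CharP.ringChar_ne_zero_of_finite _, by
      rw [← residue_eq_zero_iff, map_natCast, CharP.cast_eq_zero]⟩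
  rw [RingHom.mem_ker, map_natCast, Nat.cast_eq_zero] at hc'
  exact hc hc'

namespace SupplyLevel

variable (C : SupplyLevel P Q r e)

/-- An avoided good prime is prime to the level. -/
theorem not_dvd_level_of_avoid (v : OddVariant) {l : Nat.Primes} (hl : ¬ (l : ℕ) ∣ p * S.level)
    (hla : (l : ℕ) ∈ P.avoid) : ¬ (l : ℕ) ∣ p * C.level v := by
  intro h
  rcases l.2.dvd_mul.1 h with h | h
  · exact hl (h.mul_right _)
  rcases l.2.dvd_mul.1 h with h | h
  · exact hl ((h.trans (baseLevel_dvd_level S v)).mul_left _)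
  · obtain ⟨i, -, hi⟩ := (Prime.dvd_finsetProd_iff l.2.prime _).1 h
    exact C.notAvoid i (by rwa [← (Nat.prime_dvd_prime_iff_eq l.2 (C.prime i)).1 hi])

/-- The value of the diamonds at a point. -/
theorem exists_diamondPoint {A : Type} [CommRing A] [Algebra O A] {v : OddVariant}
    (ev : C.hecke v →ₐ[O] A) :
    ∃ ψA : DiamondRing O C.Δ →ₐ[O] A,
      ∀ g, ψA (MonoidAlgebra.of O C.Δ g) = ev (C.diamond v g) := by
  have hmul : ∀ g h, C.diamond v (g * h) = C.diamond v g * C.diamond v h := fun g h => by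
    refine Eq.trans ?_ (map_mul (C.toHecke v) _ _)
    exact congrArg (C.toHecke v) (Subtype.ext (by
      show MvPolynomial.C _ = MvPolynomial.C _ * MvPolynomial.C _
      rw [← map_mul MvPolynomial.C, ← map_mul]))
  have hone : C.diamond v 1 = 1 := by
    refine Eq.trans ?_ (map_one (C.toHecke v))
    exact congrArg (C.toHecke v) (Subtype.ext (by
      show MvPolynomial.C _ = 1
      rw [map_one (MonoidAlgebra.of O C.Δ), map_one]))
  exact ⟨MonoidAlgebra.lift O A C.Δ
    { toFun := fun g => ev (C.diamond v g)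
      map_one' := (congrArg ev hone).trans (map_one ev)
      map_mul' := fun g h => (congrArg ev (hmul g h)).trans (map_mul ev _ _) }, fun g => MonoidAlgebra.lift_of _ g⟩

/-- **The tame generator at `T` on a system of the twisted module.** -/
theorem trace_gen_chi (hp2 : p ≠ 2) (hpO : (p : O) ∈ maximalIdeal O) (hres : OddResidual p ρbar)
    (Y : SupplySystems C .chi) (q : S.T) (j : Y.κ) :
    (Y.y j).r.trace (tp.atT q).gen = algebraMap O _ (P.ζ q + Ring.inverse (P.ζ q)) := by
  classical
  set x := Y.y j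
  let A : Type := x.O'
  let K : Type := AlgebraicClosure (FractionRing A)
  have hj : Function.Injective (algebraMap A K) := by
    rw [IsScalarTower.algebraMap_eq A (FractionRing A) K]
    exact (FaithfulSMul.algebraMap_injective (FractionRing A) K).comp
      (IsFractionRing.injective A (FractionRing A))
  haveI : CharZero K := charZero_of_injective_ringHom hj
  have hOA := x.algebraMap_injective
  have hqT : (q : ℕ) ∈ S.T := q.2
  have hqpr : (q : ℕ).Prime :=
    S.prime_of_mem _ (Finset.mem_union_left _ (Finset.mem_union_right _ hqT))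
  haveI : Fact (q : ℕ).Prime := ⟨hqpr⟩
  have hqp : (q : ℕ) ≠ p :=
    S.ne_p _ (Finset.mem_union_left _ (Finset.mem_union_right _ hqT))
  -- the eigenclass
  have hlne := C.not_dvd_level_of_avoid .chi P.lne_good
    (Finset.mem_insert_of_mem (Finset.mem_singleton_self _))
  obtain ⟨-, ψ, lam, y, hy, heig, -, -, hψO, hψg, hψT⟩ := C.exists_eigenclass_point .chi hpO
    (by
      rw [C.char_eq_baseChar, MonoidHom.comp_apply, show ZMod.unitsMap (C.baseLevel_dvd .chi) (-1) =
        -1 from Units.ext (by simp [ZMod.unitsMap_def])]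
      exact baseChar_neg_one hp2 _)
    (C.delta_neg_one hp2 _) (C.ellipticHarmless_theta hp2 hpO _) P.lne (Or.inl P.lne_good)
    (by
      rw [C.theta_const, residue_heckeDegree (fun d => by
          rw [C.char_eq_baseChar, MonoidHom.comp_apply]; exact residue_baseChar hpO _ _) P.lne
          (fun h => hlne (h.mul_left p)),
        theta, residualRaiseSet_X_of_notMem _ _ C.lne_notMem,
        baseTheta_X_of_not_dvd P _ P.lne_good]
      exact P.lne_spec)
    ((algebraMap A K).comp (Y.ev j).toRingHom)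
  obtain ⟨ψA, hψA⟩ := C.exists_diamondPoint (Y.ev j)
  have hψeq : ψ = (algebraMap A K).comp ψA.toRingHom := by
    refine MonoidAlgebra.ringHom_ext (fun a => ?_) fun g => ?_
    · have h1 := hψO a
      rw [RingHom.comp_apply] at h1
      rw [show (MonoidAlgebra.single (1 : C.Δ) a : DiamondRing O C.Δ) =
        algebraMap O (DiamondRing O C.Δ) a from rfl, h1, RingHom.comp_apply]
      exact congrArg (algebraMap A K) (((Y.ev j).commutes a).trans (ψA.commutes a).symm)
    · rw [show (MonoidAlgebra.single g (1 : O) : DiamondRing O C.Δ) = MonoidAlgebra.of O C.Δ g from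
        rfl, hψg, RingHom.comp_apply, RingHom.comp_apply]
      exact congrArg (algebraMap A K) (hψA g).symm
  -- the twisting data pushed to the coefficients
  let D := C.twistData .chi
  let ψr : (n : ℕ) → (ZMod n)ˣ →* Aˣ := fun n =>
    (Units.map (ψA : DiamondRing O C.Δ →* A)).comp (D.psi n)
  have hval : ∀ n : ℕ, n.Coprime (C.level .chi) →
      algebraMap A K (∏ s ∈ D.Qs, MulChar.ofUnitHom (ψr s) (n : ZMod s)) = ψ (D.val n) := by
    intro n hn
    rw [hψeq, TwistData.val, RingHom.comp_apply]
    refine congrArg (algebraMap A K) ((Finset.prod_congr rfl fun s hs => ?_).trans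
      (map_prod ψA _ _).symm)
    rw [TwistData.ofUnitHom_apply_natCast (D.coprime_of_mem hs hn),
      TwistData.ofUnitHom_apply_natCast (D.coprime_of_mem hs hn)]
    rfl
  have hqmem : (q : ℕ) ∈ D.Qs := Finset.mem_union_left _ hqT
  -- the value at the tame generator
  let u := modCycloChar (q : ℕ) (tp.atT q).gen
  have hu : u = modCycloChar (q : ℕ) (tp.atT q).gen := rfl
  obtain ⟨k, hk⟩ := ((Fact.out : p.Prime).odd_of_ne_two hp2).pow (n := e + 1)
  have hζp := P.ζ_spec q hqT
  have hζu : IsUnit (P.ζ q) := IsUnit.of_pow_eq_one hζp.1 (Fact.out : p.Prime).ne_zero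
  have hψu : (ψr (q : ℕ) u : A) = algebraMap O A (Ring.inverse (P.ζ q)) := by
    have hc : (D.psi (q : ℕ) u : DiamondRing O C.Δ) =
        algebraMap O _ ((P.χT q u : O) ^ ((p ^ (e + 1) - 1) / 2)) := by
      show ((((C.tChar .chi (q : ℕ) * C.qChar (q : ℕ)) ^ ((p ^ (e + 1) - 1) / 2)) u :
        (DiamondRing O C.Δ)ˣ) : DiamondRing O C.Δ) = _
      rw [MonoidHom.pow_apply, Units.val_pow_eq_pow_val, MonoidHom.mul_apply,
        show C.qChar (q : ℕ) = 1 from dif_neg (C.not_exists_qv_of_mem_tSet (v := .chi) hqT),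
        MonoidHom.one_apply, mul_one, map_pow, tChar,
        dif_pos (show (q : ℕ) ∈ C.tSet .chi from hqT)]
      rfl
    show ψA (D.psi (q : ℕ) u : DiamondRing O C.Δ) = _
    rw [hc, AlgHom.commutes]
    refine congrArg _ (hζu.mul_left_cancel ?_)
    rw [Ring.mul_inverse_cancel _ hζu, hu, ← P.ζ_eq q, ← pow_mul, ← pow_succ', hk,
      show (2 * k + 1 - 1) / 2 = k by omega, ← hk, pow_succ', pow_mul, hζp.1, one_pow]
  have hψq : ψr (q : ℕ) ≠ 1 := fun h => hζp.2 (by
    rw [h, MonoidHom.one_apply, Units.val_one] at hψu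
    have h1 : Ring.inverse (P.ζ q) = 1 := hOA (hψu.symm.trans (map_one _).symm)
    simpa [h1] using Ring.mul_inverse_cancel _ hζu)
  have hgood : ∀ l : Nat.Primes, ¬ (l : ℕ) ∣ p * C.level .chi → (l : ℕ) ∉ C.exc .chi :=
    fun l hl h => hl (Nat.mem_primeFactors.1 h).2.1
  have htr : ∀ l : Nat.Primes, ¬ (l : ℕ) ∣ p * C.level .chi →
      ∀ R : ValuationSubring (AlgebraicClosure ℚ), R.LiesOverPrime (l : ℕ) → ∀ σ : Γℚ,
        R.IsFrobeniusAt σ (l : ℕ) → algebraMap A K (x.r.trace σ) = algebraMap A K
          (∏ s ∈ D.Qs, MulChar.ofUnitHom (ψr s) ((l : ℕ) : ZMod s)) * lam l := by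
    intro l hl R hR σ hσ
    have hcop : (l : ℕ).Coprime (C.level .chi) :=
      l.2.coprime_iff_not_dvd.2 fun h => hl (h.mul_left p)
    rw [Y.t_spec j l l.2 (hgood l hl) R hR σ hσ, hval _ hcop, C.val_twistData _ hcop]
    exact (hψT l l.2 (hgood l hl)).symm
  have h := trace_inertia_component (K := K) hj hp2 (by rw [← map_natCast (algebraMap O x.O')]; exact map_nonunit (algebraMap O x.O') _ hpO) hqp D.Qs D.exactly ψr D.e
    (fun s hs => by
      refine MonoidHom.ext fun w => ?_
      rw [MonoidHom.pow_apply, MonoidHom.comp_apply, ← map_pow, ← MonoidHom.pow_apply,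
        D.psi_pow hs, MonoidHom.one_apply, map_one, MonoidHom.one_apply])
    ((Units.map (ψ : DiamondRing O C.Δ →* K)).comp
      (charDiamond O (C.char .chi) (C.delta .chi)))
    (fun n hn => by
      rw [hval n hn, MonoidHom.comp_apply, Units.coe_map, MonoidHom.coe_coe, ← map_pow, ← map_mul,
        D.chi_mul_val_sq ((Fact.out : p.Prime).odd_of_ne_two hp2) hn, map_one])
    hqmem hψq (x := y) hy lam
    (fun l _ => by rw [← BettiMod.X_smul]; exact heig l)
    x.r (x.residual_irred hres.absIrred) x.lift.det htr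
    (by
      rcases P.ell_spec with h3 | ⟨h3, hne⟩
      · exact Or.inl (by have h4 := h3.map (algebraMap O A); rwa [map_ofNat] at h4)
      · refine Or.inr ⟨P.ell, C.not_dvd_level_of_avoid .chi P.ell_good
          (Finset.mem_insert_self _ _), h3, fun R hR σ hσ => ?_⟩
        rw [← IsLocalRing.residue_ne_zero_iff_isUnit, x.residue_trace,
          ← P.θX_good P.ell P.ell_good R hR σ hσ]
        exact (map_ne_zero _).2 hne)
    (tp.atT q).liesOver (tp.atT q).gen_mem
  refine h.trans ?_
  rw [← hu, map_add, hψu, add_comm]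
  refine congrArg (· + _) ?_
  refine Units.inv_eq_of_mul_eq_one_right ?_
  rw [hψu, ← map_mul, Ring.inverse_mul_cancel _ hζu, map_one]

end SupplyLevel

end FermatLib.MLT.Odd

end
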