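import Fermat.Agent.MLT.Odd.SupplyEigen
import Fermat.Agent.MLT.Odd.SupplyTwist
import Fermat.Agent.MLT.Odd.SupplyValuesChi
import Fermat.Agent.MLT.Odd.InertiaComponentTrivial
import Fermat.Agent.MLT.Odd.LevelDiamond
import Fermat.Agent.Galois.FrobeniusElement

/-!
# The diamonds from inertia at an auxiliary prime

At an auxiliary prime `q` the nebentype component of a system is the value of the diamonds at `q`.
If it is trivial, inertia is unipotent and does not change the trace of Frobenius; if not,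
local-global compatibility gives the eigenvalues `d`, `d⁻¹` of inertia and `U q` as the root of the
characteristic polynomial of Frobenius over the chosen residual root.
-/

set_option autoImplicit false
set_option linter.style.haveILetI false

noncomputable section

namespace FermatLib.MLT.Odd

open IsLocalRing Polynomial FermatLib.Galois FermatLib.Modular.Twist FermatLib.MLT.HeckeRep

local notation "Γℚ" => (AlgebraicClosure ℚ ≃ₐ[ℚ] AlgebraicClosure ℚ)

/-- A root of unity of `p`-power order is `1` in residual characteristic `p`. -/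
theorem residue_eq_one_of_pow_prime {A : Type} [CommRing A] [IsLocalRing A] {p : ℕ}
    (hp : p.Prime) (hpA : (p : A) ∈ maximalIdeal A) {a : A} {n : ℕ} (ha : a ^ p ^ n = 1) :
    residue A a = 1 := by
  haveI : CharP (ResidueField A) p := (CharP.charP_iff_prime_eq_zero hp).2 (by
    rw [← map_natCast (residue A)]
    exact (residue_eq_zero_iff _).2 hpA)
  haveI : Fact p.Prime := ⟨hp⟩
  refine sub_eq_zero.1 ((pow_eq_zero_iff (pow_ne_zero n hp.ne_zero)).1 ?_)
  rw [sub_pow_char_pow, ← map_pow, ha, map_one, one_pow, sub_self]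

/-- `det τ = 1` and `trace τ = 2` from a unipotent characteristic polynomial. -/
theorem trace_det_of_charpoly_eq {A : Type} [CommRing A] [IsLocalRing A] (ρ : GaloisRepAdic A)
    {σ : Γℚ} (h : LinearMap.charpoly (ρ.ρ σ) = (X - 1) ^ 2) :
    ρ.trace σ = 2 ∧ LinearMap.det (ρ.ρ σ) = 1 := by
  rw [adic_charpoly_eq, show ((X : A[X]) - 1) ^ 2 = X ^ 2 - C (2 : A) * X + C (1 : A) by
    rw [map_ofNat, map_one]; ring] at h
  exact Two.eq_of_quadratic_eq h

variable {O : Type} [CommRing O] [IsDomain O] [IsDiscreteValuationRing O]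
  [IsAdicComplete (maximalIdeal O) O] [Finite (ResidueField O)] [CharZero O] {p : ℕ}
  [Fact p.Prime] {ρbar : ResidualGaloisRep (ResidueField O)} {S : OddPrimes p ρbar}
  {tp : S.TamePairs} {P : SupplyParams S tp} {Q : Finset ℕ} {r e : ℕ}

/-- A prime making the elliptic elements harmless for a system. -/
theorem SupplyLevel.ell_harmless (C : SupplyLevel P Q r e) (v : OddVariant) (x : OddSystem S Q) :
    IsUnit (3 : x.O') ∨ ∃ l : Nat.Primes, ¬ (l : ℕ) ∣ p * C.level v ∧ (l : ℕ) % 3 = 2 ∧
      ∀ R : ValuationSubring (AlgebraicClosure ℚ), R.LiesOverPrime (l : ℕ) → ∀ σ : Γℚ,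
        R.IsFrobeniusAt σ (l : ℕ) → IsUnit (x.r.trace σ) := by
  rcases P.ell_spec with h3 | ⟨h3, hne⟩
  · exact Or.inl (by have h4 := h3.map (algebraMap O x.O'); rwa [map_ofNat] at h4)
  · refine Or.inr ⟨P.ell, C.not_dvd_level_of_avoid v P.ell_good (Finset.mem_insert_self _ _), h3,
      fun R hR σ hσ => ?_⟩
    rw [← IsLocalRing.residue_ne_zero_iff_isUnit, x.residue_trace,
      ← P.θX_good P.ell P.ell_good R hR σ hσ]
    exact (_root_.map_ne_zero _).2 hne

/-- **The diamonds from inertia at an auxiliary prime.** -/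
theorem SupplyLevel.inertia_aux_prime (hp2 : p ≠ 2) (hpO : (p : O) ∈ maximalIdeal O)
    (hres : OddResidual p ρbar) {C : SupplyLevel P Q r e} {v : OddVariant}
    (Y : SupplySystems C v) (j : Y.κ) (i : Fin r) {A : ValuationSubring (AlgebraicClosure ℚ)}
    (hA : A.LiesOverPrime (C.qv i)) {φ τ : Γℚ} (hφ : A.IsFrobeniusAt φ (C.qv i))
    (hτ : τ ∈ A.inertiaSubgroupIn ℚ) :
    haveI : NeZero (C.qv i) := ⟨(C.prime i).ne_zero⟩
    ∃ d d' u : (Y.y j).O',
      u ^ 2 - (Y.y j).r.trace φ * u + LinearMap.det ((Y.y j).r.ρ φ) = 0 ∧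
      residue (Y.y j).O' u = ResidueField.map (algebraMap O (Y.y j).O') (C.α i) ∧
      d * d' = 1 ∧
      (Y.y j).r.trace τ = d + d' ∧
      (Y.y j).r.trace (τ * φ) = d * u + d' * ((Y.y j).r.trace φ - u) ∧
      d ^ 2 * Y.ev j (C.diamond v (Pi.mulSingle i (C.f i (Galois.modCycloChar (C.qv i) τ)))) = 1 := by
  classical
  have hp : p.Prime := Fact.out
  haveI : NeZero (C.qv i) := ⟨(C.prime i).ne_zero⟩
  haveI : Fact (C.qv i).Prime := ⟨C.prime i⟩
  let x := Y.y j
  let B : Type := x.O'
  let K : Type := AlgebraicClosure (FractionRing B)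
  have hj : Function.Injective (algebraMap B K) := by
    rw [IsScalarTower.algebraMap_eq B (FractionRing B) K]
    exact (FaithfulSMul.algebraMap_injective (FractionRing B) K).comp
      (IsFractionRing.injective B (FractionRing B))
  haveI : CharZero K := charZero_of_injective_ringHom hj
  have hpB : (p : B) ∈ maximalIdeal B := by
    show (p : x.O') ∈ maximalIdeal x.O'
    rw [← map_natCast (algebraMap O x.O')]
    exact map_nonunit (algebraMap O x.O') _ hpO
  have hqp : (C.qv i) ≠ p := fun h => C.notMem i (Finset.mem_insert.2 (Or.inl h))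
  have hqdvd := C.not_dvd_qv i
  -- the residual root and the root over it
  refine Exists.elim (residue_surjective (C.α i)) fun αt hαt => ?_
  let a₀ : B := algebraMap O B αt
  have hra₀ : residue B a₀ = ResidueField.map (algebraMap O B) (C.α i) := by
    rw [← hαt]; rfl
  have hrt : residue B (x.r.trace φ) = ResidueField.map (algebraMap O B) (P.θX ⟨(C.qv i), C.prime i⟩) := by
    rw [P.θX_good ⟨(C.qv i), C.prime i⟩ hqdvd A hA φ hφ]
    exact x.residue_trace φ
  have hdetF : ∀ σ : Γℚ, A.IsFrobeniusAt σ (C.qv i) → LinearMap.det (x.r.ρ σ) = ((C.qv i) : B) :=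
    fun σ hσ => det_frobenius x.r hp x.lift.det (C.prime i) hqp hA hσ
  have hqres : residue B ((C.qv i) : B) = 1 := by
    obtain ⟨c, hc⟩ := C.one_mod i
    have h1 : (C.qv i) = p * c + 1 := by have := (C.prime i).one_lt; omega
    rw [h1, Nat.cast_add, Nat.cast_mul, Nat.cast_one, map_add, map_mul, map_one,
      (residue_eq_zero_iff _).2 hpB, zero_mul, zero_add]
  obtain ⟨u, hu, hua⟩ := exists_quadratic_root (x.r.trace φ) ((C.qv i) : B) a₀
    (by
      rw [← residue_eq_zero_iff, map_add, map_sub, map_mul, map_pow, hra₀, hrt, hqres,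
        ← map_pow, ← map_mul, ← map_sub, ← map_one (ResidueField.map (algebraMap O B)), ← map_add,
        C.α_root i, map_zero])
    (by
      rw [← residue_ne_zero_iff_isUnit, map_sub, map_mul, map_ofNat, hra₀, hrt,
        ← map_ofNat (ResidueField.map (algebraMap O B)) 2, ← map_mul, ← map_sub]
      exact (_root_.map_ne_zero _).2 (sub_ne_zero.2 (C.α_simple i)))
  have hur : residue B u = ResidueField.map (algebraMap O B) (C.α i) := by
    rw [← hra₀, ← sub_eq_zero, ← map_sub]
    exact (residue_eq_zero_iff _).2 hua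
  have hu0 : u ≠ 0 := fun h => (C.prime i).ne_zero (by
    rw [h] at hu
    simpa using hu)
  -- the eigenclass
  obtain ⟨O₂, _, _, _, _, _, _, ι, j₂, χ₂, lam, y, hιloc, -, hj₂, hjι, hχ₂, hy, heig, hT, hcong⟩ :=
    exists_supplyEigen hp2 hpO C (v := v) (Y.ev j) (algebraMap B K) hj
  refine Exists.elim (C.exists_diamondPoint (Y.ev j)) fun ψA hψA => ?_
  have hjj : ∀ b : B, j₂ (ι b) = algebraMap B K b := fun b => RingHom.congr_fun hjι b
  have hcd : ∀ d, ψA (charDiamond O (C.char v) (C.delta v) d : DiamondRing O C.Δ) =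
      algebraMap O B (C.char v d) * Y.ev j (C.diamond v (C.delta v d)) := fun d => by
    exact (congrArg ψA (coe_charDiamond O _ _ d)).trans
      ((map_mul ψA _ _).trans (congr_arg₂ (· * ·) (ψA.commutes _) (hψA _)))
  have hχd : ∀ d, (χ₂ d : O₂) =
      ι (ψA (charDiamond O (C.char v) (C.delta v) d : DiamondRing O C.Δ)) := fun d => by
    exact (hχ₂ d).trans ((map_mul ι _ _).symm.trans (congrArg ι (hcd d).symm))
  let D := C.twistData v
  let ψr : (n : ℕ) → (ZMod n)ˣ →* Bˣ := fun n =>
    (Units.map (ψA : DiamondRing O C.Δ →* B)).comp (D.psi n)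
  have hval : ∀ n : ℕ, n.Coprime (C.level v) →
      (∏ s ∈ D.Qs, MulChar.ofUnitHom (ψr s) (n : ZMod s)) = ψA (D.val n) := by
    intro n hn
    rw [TwistData.val, map_prod]
    refine Finset.prod_congr rfl fun s hs => ?_
    rw [TwistData.ofUnitHom_apply_natCast (D.coprime_of_mem hs hn),
      TwistData.ofUnitHom_apply_natCast (D.coprime_of_mem hs hn)]
    rfl
  have hψp : ∀ s ∈ D.Qs, ψr s ^ p ^ D.e = 1 := fun s hs => by
    refine MonoidHom.ext fun w => ?_
    rw [MonoidHom.pow_apply, MonoidHom.comp_apply, ← map_pow, ← MonoidHom.pow_apply,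
      D.psi_pow hs, MonoidHom.one_apply, map_one, MonoidHom.one_apply]
  let χK : (ZMod (C.level v))ˣ →* Kˣ := (Units.map j₂.toMonoidHom).comp χ₂
  have hχK : ∀ (n : ℕ) (hn : n.Coprime (C.level v)),
      (χK (ZMod.unitOfCoprime n hn) : K) *
        algebraMap B K (∏ s ∈ D.Qs, MulChar.ofUnitHom (ψr s) (n : ZMod s)) ^ 2 = 1 := by
    intro n hn
    show j₂ (χ₂ (ZMod.unitOfCoprime n hn) : O₂) * _ = 1
    rw [hχd, hjj, hval n hn, ← map_pow, ← map_mul, ← map_pow ψA, ← map_mul ψA,
      D.chi_mul_val_sq (hp.odd_of_ne_two hp2) hn, map_one, map_one]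
  have hgood : ∀ l : Nat.Primes, ¬ (l : ℕ) ∣ p * C.level v → (l : ℕ) ∉ C.exc v :=
    fun l hl h => hl (Nat.mem_primeFactors.1 h).2.1
  have htr : ∀ l : Nat.Primes, ¬ (l : ℕ) ∣ p * C.level v →
      ∀ R : ValuationSubring (AlgebraicClosure ℚ), R.LiesOverPrime (l : ℕ) → ∀ σ : Γℚ,
        R.IsFrobeniusAt σ (l : ℕ) → algebraMap B K (x.r.trace σ) = algebraMap B K
          (∏ s ∈ D.Qs, MulChar.ofUnitHom (ψr s) ((l : ℕ) : ZMod s)) * j₂ (lam l) := by
    intro l hl R hR σ hσ
    have hcop : (l : ℕ).Coprime (C.level v) :=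
      l.2.coprime_iff_not_dvd.2 fun h => hl (h.mul_left p)
    refine ((congrArg (algebraMap B K) (Y.t_spec j l l.2 (hgood l hl) R hR σ hσ)).trans
      ((hjj _).symm.trans (congrArg j₂ (hT l hcop (hgood l hl))))).trans ?_
    rw [hval _ hcop, C.val_twistData _ hcop, map_mul, map_pow, hχd, hjj, ← map_pow, ← map_pow ψA]
    exact congrArg (fun z => algebraMap B K (ψA z) * j₂ (lam l)) (show C.twist v (l : ℕ) = _ from dif_pos hcop).symm
  have hirr : x.r.residual.IsAbsolutelyIrreducible := x.residual_irred hres.absIrred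
  have hqmem : (C.qv i) ∈ D.Qs :=
    Finset.mem_union_right _ (Finset.mem_image_of_mem _ (Finset.mem_univ i))
  -- the diamond
  let w := modCycloChar (C.qv i) τ
  have hw : w = modCycloChar (C.qv i) τ := rfl
  have hdiam : (ψr (C.qv i) w : B) ^ 2 *
      Y.ev j (C.diamond v (Pi.mulSingle i (C.f i w))) = 1 := by
    have hc : D.c (C.qv i) w = diamondOf O C.Δ (Pi.mulSingle i (C.f i w)) := by
      show (C.tChar v (C.qv i) * C.qChar (C.qv i)) w = _
      rw [MonoidHom.mul_apply, show C.tChar v (C.qv i) = 1 from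
        dif_neg fun h => C.not_exists_qv_of_mem_tSet h ⟨i, rfl⟩, MonoidHom.one_apply, one_mul]
      exact C.qChar_qv i w
    have hk : p ^ D.e % 2 = 1 := Nat.odd_iff.1 (hp.odd_of_ne_two hp2).pow
    have h1 : (D.psi (C.qv i) w) ^ 2 * D.c (C.qv i) w = 1 := by
      rw [TwistData.psi, MonoidHom.pow_apply, ← pow_mul, ← pow_succ,
        show (p ^ D.e - 1) / 2 * 2 + 1 = p ^ D.e by omega, ← MonoidHom.pow_apply,
        D.pow_eq_one (C.qv i) hqmem, MonoidHom.one_apply]
    have h2 := congrArg (fun z : (DiamondRing O C.Δ)ˣ => ψA (z : DiamondRing O C.Δ)) h1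
    simp only [Units.val_mul, Units.val_pow_eq_pow_val, Units.val_one, map_mul, map_pow, map_one,
      hc] at h2
    rw [← hψA]
    exact h2
  have hdd : (ψr (C.qv i) w : B) * (((ψr (C.qv i) w)⁻¹ : Bˣ) : B) = 1 := Units.mul_inv _
  refine ⟨_, _, u, (by rw [hdetF φ hφ]; exact hu), hur, hdd, ?_, ?_, hdiam⟩
  · -- the trace of inertia
    by_cases hψq : ψr (C.qv i) = 1
    · rw [hψq, MonoidHom.one_apply, inv_one, Units.val_one, one_add_one_eq_two]
      exact (trace_det_of_charpoly_eq x.r (isUnipotentOnInertiaAt_component (K := K) hj hp2 hpB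
        hqp D.Qs D.exactly ψr D.e hψp χK hχK hqmem hψq hy (fun l => j₂ (lam l)) heig x.r hirr
        x.lift.det htr A hA τ hτ)).1
    · exact trace_inertia_component (K := K) hj hp2 hpB hqp D.Qs D.exactly ψr D.e hψp χK hχK
        hqmem hψq hy (fun l => j₂ (lam l)) (fun l _ => heig l) x.r hirr x.lift.det htr
        (C.ell_harmless v x) hA hτ
  · -- the trace of inertia times Frobenius
    by_cases hψq : ψr (C.qv i) = 1
    · have hunip := isUnipotentOnInertiaAt_component (K := K) hj hp2 hpB
        hqp D.Qs D.exactly ψr D.e hψp χK hχK hqmem hψq hy (fun l => j₂ (lam l)) heig x.r hirr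
        x.lift.det htr
      obtain ⟨h1, h2⟩ := trace_det_of_charpoly_eq x.r (hunip A hA τ hτ)
      rw [hψq, MonoidHom.one_apply, inv_one, Units.val_one, one_mul, one_mul, add_sub_cancel,
        trace_mul_of_unipotent x.r h2 h1 (trace_det_of_charpoly_eq x.r (hunip A hA _ (mul_mem hτ
          (frobenius_inv_mul_mem_inertia hφ (isFrobeniusAt_inertia_mul hφ hτ))))).1]
    · obtain ⟨M, hM, lam₂, y', hsys, hU⟩ := exists_lgcSystem_component (K := K) hj hp2 hpB D.Qs
        D.exactly ψr D.e hψp χK hχK hqmem hψq hy (fun l => j₂ (lam l)) (fun l _ => heig l) x.r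
        hirr x.lift.det htr (C.ell_harmless v x)
      haveI := hM
      obtain ⟨μ, hμ⟩ : ∃ μ : O₂, μ = ι (∏ s ∈ D.Qs.erase (C.qv i),
          MulChar.ofUnitHom (ψr s) ((C.qv i) : ZMod s)) * lam ⟨(C.qv i), C.prime i⟩ := ⟨_, rfl⟩
      -- a root for every Frobenius element
      have hroot : ∀ σ : Γℚ, A.IsFrobeniusAt σ (C.qv i) →
          (ι (ψr (C.qv i) (modCycloChar (C.qv i) σ) : B) * μ) ^ 2 -
            ι (x.r.trace σ) * (ι (ψr (C.qv i) (modCycloChar (C.qv i) σ) : B) * μ) + ι ((C.qv i) : B) = 0 := by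
        intro σ hσ
        have h := LGC.eval_charpoly_U hj hqp hsys hA hσ (u := j₂ μ) (by
          rw [hU (j₂ (lam ⟨(C.qv i), C.prime i⟩)) (heig ⟨(C.qv i), C.prime i⟩), hμ, map_mul, hjj])
        rw [Two.charpoly_twistAdic, componentTwist_apply, hdetF σ hσ] at h
        simp only [Polynomial.map_add, Polynomial.map_sub, Polynomial.map_mul, Polynomial.map_pow,
          map_X, map_C, eval_add, eval_sub, eval_mul, eval_pow, eval_X, eval_C, map_mul,
          map_pow] at h
        refine hj₂ ?_
        simp only [map_zero, map_add, map_sub, map_pow, map_mul, hjj]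
        have hc : algebraMap B K (ψr (C.qv i) (modCycloChar (C.qv i) σ) : B) *
            algebraMap B K (((ψr (C.qv i) (modCycloChar (C.qv i) σ))⁻¹ : Bˣ) : B) = 1 := by
          rw [← map_mul, Units.mul_inv, map_one]
        linear_combination (algebraMap B K (ψr (C.qv i) (modCycloChar (C.qv i) σ) : B)) ^ 2 * h +
          (algebraMap B K (x.r.trace σ) *
              algebraMap B K (ψr (C.qv i) (modCycloChar (C.qv i) σ) : B) * j₂ μ -
            algebraMap B K (C.qv i : B) *
              (algebraMap B K (ψr (C.qv i) (modCycloChar (C.qv i) σ) : B) *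
                algebraMap B K (((ψr (C.qv i) (modCycloChar (C.qv i) σ))⁻¹ : Bˣ) : B) + 1)) * hc
      -- the root of `φ` is `u`
      have hιinj : Function.Injective ι := fun a b h => hj (by rw [← hjj, h, hjj])
      have hone : ∀ b : B, b ^ p ^ D.e = 1 → residue O₂ (ι b) = 1 := fun b hb =>
        residue_eq_one_of_pow_prime hp (by
          rw [← map_natCast ι]
          exact map_nonunit ι _ hpB) (n := D.e) (by rw [← map_pow, hb, map_one])
      have hpow : ∀ s ∈ D.Qs, ∀ z, (ψr s z : B) ^ p ^ D.e = 1 := fun s hs z => by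
        rw [← Units.val_pow_eq_pow_val, ← MonoidHom.pow_apply, hψp s hs, MonoidHom.one_apply,
          Units.val_one]
      refine Exists.elim (exists_eq : ∃ z, z = ι (ψr (C.qv i) (modCycloChar (C.qv i) φ) : B) * μ)
        fun z hz => ?_
      have hzres : residue O₂ z = residue O₂ (ι a₀) := by
        rw [hz, hμ, map_mul, map_mul, hone _ (hpow (C.qv i) hqmem _), one_mul, hone, one_mul]
        · rw [← sub_eq_zero, ← map_sub]
          refine (residue_eq_zero_iff _).2 (hcong ⟨(C.qv i), C.prime i⟩ (Or.inl hqdvd) αt ?_)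
          rw [hαt]
          exact ((residualRaiseSet_X_of_mem (P.baseTheta v) C.rootFun (q := (⟨C.qv i, C.prime i⟩ : Nat.Primes))
            (C.mem_qPrimes.2 ⟨i, rfl⟩)).trans (C.rootFun_qv i)).symm
        · rw [← Finset.prod_pow]
          refine Finset.prod_eq_one fun s hs => ?_
          have hs' := Finset.mem_of_mem_erase hs
          rw [ofUnitHom_natCast_unit ((Nat.coprime_primes (C.prime i) (D.exactly s hs').1).2
            (Finset.ne_of_mem_erase hs).symm)]
          exact hpow s hs' _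
      have hzu : z = ι u := by
        have h0 : (z - ι u) * (z - ι ((x.r.trace φ) - u)) = 0 := by
          have h1 := congrArg ι hu
          rw [map_add, map_sub, map_mul, map_pow, map_zero] at h1
          rw [map_sub]
          rw [hz]
          linear_combination hroot φ hφ - h1
        refine sub_eq_zero.1 ((mul_eq_zero.1 h0).resolve_right fun h1 => C.α_simple i ?_)
        have h2 : residue O₂ (ι ((x.r.trace φ) - u - a₀)) = 0 := by
          rw [map_sub, map_sub, ← hzres, sub_eq_zero.1 h1, sub_self]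
        rw [residue_eq_zero_iff] at h2
        have h3 : (x.r.trace φ) - u - a₀ ∈ maximalIdeal B := fun hun => h2 (hun.map ι)
        rw [← residue_eq_zero_iff, map_sub, map_sub, hrt, hur, hra₀, sub_sub, ← two_mul,
          sub_eq_zero, ← map_ofNat (ResidueField.map (algebraMap O B)) 2, ← map_mul] at h3
        exact ((ResidueField.map (algebraMap O B)).injective h3).symm
      have h4 := hroot (τ * φ) (isFrobeniusAt_inertia_mul hφ hτ)
      rw [map_mul (modCycloChar (C.qv i)), map_mul (ψr (C.qv i)), Units.val_mul, map_mul ι, mul_assoc, ← hz,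
        hzu, ← hw, ← map_mul ι, ← map_mul ι, ← map_pow ι, ← map_sub ι, ← map_add ι,
        map_eq_zero_iff ι hιinj] at h4
      have hd0 : (ψr (C.qv i) w : B) ≠ 0 := Units.ne_zero _
      refine mul_left_cancel₀ (mul_ne_zero hd0 hu0) ?_
      show (ψr (C.qv i) w : B) * u * x.r.trace (τ * φ) = _
      linear_combination -h4 + hu - (u * (x.r.trace φ) - u ^ 2) * hdd

end FermatLib.MLT.Odd

end
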