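import Fermat.Agent.MLT.Odd.SupplyModulesRank

/-!
# The maps of the levels to level zero
-/

set_option autoImplicit false
set_option linter.style.haveILetI false
set_option linter.unusedSectionVars false

noncomputable section

namespace FermatLib.MLT.Odd

open IsLocalRing MvPolynomial

variable {O : Type} [CommRing O] [IsDomain O] [IsDiscreteValuationRing O]
  [IsAdicComplete (maximalIdeal O) O] [Finite (ResidueField O)] [CharZero O] {p : ℕ} [Fact p.Prime]
  {ρbar : ResidualGaloisRep (ResidueField O)} {S : OddPrimes p ρbar} {tp : S.TamePairs}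
  {P : SupplyParams S tp}

variable {Q : Finset ℕ} {r e : ℕ}

/-- The exponent of the twist acts on `p`-th roots of unity as the one of level zero. -/
theorem pow_twist_exp {G : Type*} [Monoid G] (hp2 : p ≠ 2) (e : ℕ) {x : G} (hx : x ^ p = 1) :
    x ^ ((p ^ (e + 1) - 1) / 2) = x ^ ((p - 1) / 2) := by
  obtain ⟨j, hj⟩ := (Fact.out : p.Prime).odd_of_ne_two hp2
  obtain ⟨m, hm⟩ := ((Fact.out : p.Prime).odd_of_ne_two hp2).pow (n := e)
  have h : p ^ (e + 1) = 2 * (p * m + j) + 1 := by rw [pow_succ, hm, hj]; ring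
  have h' : (p - 1) / 2 = j := by omega
  rw [h, Nat.add_sub_cancel, Nat.mul_div_cancel_left _ two_pos, h', pow_add, pow_mul, hx, one_pow,
    one_mul]

namespace SupplyLevel

variable (C : SupplyLevel P Q r e)

theorem coprime_of_notMem_exc {v : OddVariant} {ℓ : ℕ} (hℓ : ℓ.Prime) (h : ℓ ∉ C.exc v) :
    ℓ.Coprime (C.level v) :=
  hℓ.coprime_iff_not_dvd.2 fun hd => h (Nat.mem_primeFactors.2
    ⟨hℓ, hd.mul_left _, mul_ne_zero (Fact.out : p.Prime).ne_zero (NeZero.ne _)⟩)

/-- The augmentation of the twist. -/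
theorem diamondAug_twist (hp2 : p ≠ 2) {v : OddVariant} {ℓ : ℕ} (h : ℓ.Coprime (C.level v)) :
    diamondAug O C.Δ (C.twist v ℓ) = ((P.baseChar v
      (ZMod.unitOfCoprime ℓ (h.coprime_dvd_right (C.baseLevel_dvd v)))) : O) ^ ((p - 1) / 2) := by
  rw [twist, dif_pos h, map_pow, coe_charDiamond, map_mul, diamondAug_of, mul_one,
    AlgHom.commutes, C.char_eq_baseChar v, MonoidHom.comp_apply, Algebra.algebraMap_self_apply,
    show ZMod.unitsMap (C.baseLevel_dvd v) (ZMod.unitOfCoprime ℓ h) =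
      ZMod.unitOfCoprime ℓ (h.coprime_dvd_right (C.baseLevel_dvd v)) from
      Units.ext (by simp [ZMod.unitsMap_def])]
  refine pow_twist_exp hp2 e ?_
  rw [← Units.val_pow_eq_pow_val, ← Units.val_one]
  congr 1
  cases v with
  | chi =>
    rw [SupplyParams.baseChar, MonoidHom.finsetProd_apply, ← Finset.prod_pow]
    exact Finset.prod_eq_one fun q _ => P.χT_pow q _
  | std => exact one_pow _
  | old _ => exact one_pow _

/-- The map of a variant to its base level. -/
theorem exists_baseMap (hp2 : p ≠ 2) (hpO : (p : O) ∈ maximalIdeal O) (v : OddVariant) :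
    ∃ g : C.Mod v →+ BettiResLoc (P.baseChar v) S.supplyPrimes (P.baseTheta v),
      Function.Surjective g ∧ (∀ (c : O) m, g (c • m) = c • g m) ∧
      (∀ ℓ (hℓ : ℓ.Prime), ∀ h : ℓ ∉ C.exc v, ∀ m, g (C.tElt v ℓ • m) =
        (MvPolynomial.C ((P.baseChar v (ZMod.unitOfCoprime ℓ
          ((C.coprime_of_notMem_exc hℓ h).coprime_dvd_right (C.baseLevel_dvd v)))) : O) ^
            ((p - 1) / 2) * X ⟨ℓ, hℓ⟩ : BettiHeckeAlg O) • g m) ∧
      (∀ a m, g (MonoidAlgebra.of O C.Δ a • m) = g m) ∧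
      ∀ m, g m = 0 → m ∈ Ideal.span (Set.range fun i => MonoidAlgebra.of O C.Δ (twGen i) - 1) •
        (⊤ : Submodule (DiamondRing O C.Δ) (C.Mod v)) := by
  haveI : NeZero (p ^ e) := ⟨pow_ne_zero _ (Fact.out : p.Prime).ne_zero⟩
  have hndvd : ∀ q ∈ C.qPrimes, ¬ (q : ℕ) ∣ p * S.level := fun q hq => by
    obtain ⟨i, hi⟩ := C.mem_qPrimes.1 hq
    exact hi ▸ C.not_dvd_qv i
  have hQ : ∀ q ∈ C.qPrimes, ¬ (q : ℕ) ∣ S.baseLevel v := fun q hq h =>
    hndvd q hq ((h.trans (baseLevel_dvd_level S v)).mul_left _)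
  have hone : ∀ q ∈ C.qPrimes, ((q : ℕ) : ResidueField O) = 1 := fun q hq => by
    obtain ⟨i, hi⟩ := C.mem_qPrimes.1 hq
    obtain ⟨c, hc⟩ := C.one_mod i
    rw [← hi, show C.qv i = p * c + 1 by have := (C.prime i).one_le; omega, Nat.cast_add,
      Nat.cast_mul, supply_residue_natCast hpO, zero_mul, zero_add, Nat.cast_one]
  have hαq : ∀ q ∈ C.qPrimes, C.rootFun q ^ 2 - P.baseTheta v (X q) * C.rootFun q + 1 = 0 ∧
      2 * C.rootFun q ≠ P.baseTheta v (X q) := fun q hq => by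
    obtain ⟨i, hi⟩ := C.mem_qPrimes.1 hq
    obtain rfl : q = ⟨C.qv i, C.prime i⟩ := Subtype.ext hi.symm
    rw [baseTheta_X_of_not_dvd P v (hndvd _ hq), C.rootFun_qv]
    exact ⟨C.α_root i, C.α_simple i⟩
  have hα0 : ∀ q ∈ C.qPrimes, C.rootFun q ≠ 0 := fun q hq h => by
    have := (hαq q hq).1
    rw [h] at this
    simp at this
  have hnew : ∀ (q : Nat.Primes) (h : q ∈ C.qPrimes), C.rootFun q ^ 2 ≠
      P.baseTheta v (MvPolynomial.C (P.baseChar v (levelUnit (hQ q h)) : O)) := fun q hq => by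
    rw [baseTheta_C, residue_baseChar hpO]
    intro h2
    refine (hαq q hq).2 (mul_right_cancel₀ (hα0 q hq) ?_)
    linear_combination (hαq q hq).1 + h2
  obtain ⟨φ, g, -, hφX, -, hsurj, hP, ha, hker, -⟩ := exists_gammaHChar_levelMap O (C.delta v)
    S.supplyPrimes (P.baseTheta v) (fun a ha => by
      rw [baseTheta_C]; exact (residue_eq_zero_iff _).2 ha) (C.delta_neg_one hp2 v)
    (P.baseChar v) (C.baseLevel_dvd v) (fun c =>
      (residue_surjective c).imp fun a ha => (baseTheta_C P v a).trans ha)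
    C.qPrimes (by rw [C.prod_qPrimes]; rfl) hQ (fun q hq => Or.inl (hndvd q hq)) C.rootFun
    (fun q hq => by
      rw [baseTheta_C, map_mul, residue_baseChar hpO, map_natCast, hone q hq, mul_one]
      exact (hαq q hq).1)
    hα0 (fun q hq => (hαq q hq).2) hnew (baseChar_neg_one hp2 v)
    (C.ellipticHarmless_theta hp2 hpO v)
  have key : ∀ χ : (ZMod (C.level v))ˣ →* Oˣ,
      χ = (P.baseChar v).comp (ZMod.unitsMap (C.baseLevel_dvd v)) →
      ∃ g : GammaHCharMod O χ (C.delta v) S.supplyPrimes (C.theta v) →+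
          BettiResLoc (P.baseChar v) S.supplyPrimes (P.baseTheta v),
        Function.Surjective g ∧
        (∀ R x, g (R • x) = φ (MvPolynomial.map (algebraMap (DiamondRing O C.Δ) O) R) • g x) ∧
        (∀ a x, g (a • x) = diamondAug O C.Δ a • g x) ∧
        ∀ x, g x = 0 → x ∈ RingHom.ker (algebraMap (DiamondRing O C.Δ) O) •
          (⊤ : Submodule (DiamondRing O C.Δ)
            (GammaHCharMod O χ (C.delta v) S.supplyPrimes (C.theta v))) := by
    rintro χ rfl
    exact ⟨g, hsurj, hP, ha, fun x => (hker x).1⟩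
  obtain ⟨g', hsurj', hP', ha', hker'⟩ := key (C.char v) (C.char_eq_baseChar v)
  refine ⟨g', hsurj', fun c m => ?_, fun ℓ hℓ h m => ?_, fun a m => ?_, fun m hm => ?_⟩
  · rw [← algebraMap_smul (DiamondRing O C.Δ) c m, ha', AlgHom.commutes,
      Algebra.algebraMap_self_apply]
  · have hnq : (⟨ℓ, hℓ⟩ : Nat.Primes) ∉ C.qPrimes := fun hq => by
      obtain ⟨i, hi⟩ := C.mem_qPrimes.1 hq
      exact hℓ.coprime_iff_not_dvd.1 (C.coprime_of_notMem_exc hℓ h)
        ((show C.qv i = ℓ from hi) ▸ C.qv_dvd_level v i)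
    rw [C.tElt_smul hℓ h, hP']
    congr 1
    rw [SupplyLevel.opT, dif_pos hℓ]
    refine (congrArg φ (map_mul _ _ _)).trans ((map_mul φ _ _).trans ?_)
    refine congrArg₂ (· * ·) ?_ ((congrArg φ (MvPolynomial.map_X _ _)).trans (hφX _ hnq))
    refine (congrArg φ (MvPolynomial.map_C _ _)).trans ?_
    show φ (MvPolynomial.C (diamondAug O C.Δ (C.twist v ℓ))) = _
    rw [C.diamondAug_twist hp2 (C.coprime_of_notMem_exc hℓ h), ← MvPolynomial.algebraMap_eq,
      AlgHom.commutes, map_pow]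
  · rw [ha', diamondAug_of, one_smul]
  · have hm' := hker' m hm
    have hle : RingHom.ker (algebraMap (DiamondRing O C.Δ) O) ≤
        Ideal.span (Set.range fun i => MonoidAlgebra.of O C.Δ (twGen i) - 1) := by
      rw [ker_diamondAug, Ideal.span_le]
      rintro _ ⟨x, rfl⟩
      obtain ⟨a, rfl⟩ := (twGen_bijective r (p ^ e)).2 x
      rw [SetLike.mem_coe, ← Ideal.Quotient.eq, map_prod, map_prod, map_one]
      refine Finset.prod_eq_one fun i _ => ?_
      rw [map_pow, map_pow, (Ideal.Quotient.eq.2 (Ideal.subset_span ⟨i, rfl⟩) :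
        Ideal.Quotient.mk (Ideal.span (Set.range fun i => MonoidAlgebra.of O C.Δ (twGen i) - 1))
          (MonoidAlgebra.of O C.Δ (twGen i)) = Ideal.Quotient.mk _ 1), map_one, one_pow]
    exact Submodule.smul_mono_left hle hm'

end SupplyLevel

/-- The map to level zero. -/
theorem exists_supplyLevelMap_zero (hp2 : p ≠ 2) (hpO : (p : O) ∈ maximalIdeal O)
    (C : SupplyLevel P Q r e) (v : OddVariant) :
    ∃ g : C.Mod v →ₗ[O] (SupplyLevel.zero P).Mod v, Function.Surjective g ∧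
      (∀ ℓ : ℕ, ℓ.Prime → ℓ ∉ C.exc v ∪ (SupplyLevel.zero P).exc v → ∀ m,
        g (C.tElt v ℓ • m) = (SupplyLevel.zero P).tElt v ℓ • g m) ∧
      (∀ a m, g (MonoidAlgebra.of O C.Δ a • m) = g m) ∧
      ∀ m, g m = 0 → m ∈ Ideal.span
          (Set.range fun i => MonoidAlgebra.of O C.Δ (twGen i) - 1) •
        (⊤ : Submodule (DiamondRing O C.Δ) (C.Mod v)) := by
  obtain ⟨g, hg, hgc, hgt, hga, hgk⟩ := C.exists_baseMap hp2 hpO v
  obtain ⟨g₀, hg₀, hgc₀, hgt₀, -, hgk₀⟩ := (SupplyLevel.zero P).exists_baseMap hp2 hpO v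
  have hinj : Function.Injective g₀ := (injective_iff_map_eq_zero g₀).2 fun m hm => by
    simpa using hgk₀ m hm
  let E := Equiv.ofBijective g₀ ⟨hinj, hg₀⟩
  have hE : ∀ b, g₀ (E.symm b) = b := E.apply_symm_apply
  let G : C.Mod v →ₗ[O] (SupplyLevel.zero P).Mod v :=
    { toFun := fun m => E.symm (g m)
      map_add' := fun x y => hinj (by rw [map_add g₀, hE, hE, hE, map_add])
      map_smul' := fun c x => hinj (by rw [RingHom.id_apply, hgc₀, hE, hE, hgc]) }
  refine ⟨G, E.symm.surjective.comp hg, fun ℓ hℓ hℓE m => hinj ?_,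
    fun a m => congrArg E.symm (hga a m), fun m hm => hgk m ?_⟩
  · rw [Finset.mem_union, not_or] at hℓE
    show g₀ (E.symm (g _)) = g₀ (_ • E.symm (g m))
    rw [hgt₀ ℓ hℓ hℓE.2, hE, hE, hgt ℓ hℓ hℓE.1]
  · rw [← hE (g m), show E.symm (g m) = 0 from hm, map_zero]

end FermatLib.MLT.Odd

end
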