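import Fermat.Agent.MLT.Odd.SupplyDefs
import Fermat.Agent.MLT.Odd.SupplyBase
import Fermat.Agent.MLT.Odd.SeedClass
import Fermat.Agent.MLT.Odd.SeedPrimes

/-!
# The parameters of the levels from a seed

The seed gives the residual eigenvalues at level `S.level` and the nonzero module, the tame
generators at `T` the characters.
-/

set_option autoImplicit false
set_option linter.style.haveILetI false
set_option linter.unusedSectionVars false

noncomputable section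

open IsLocalRing MvPolynomial

namespace FermatLib.MLT.Odd

local notation "Qbar" => AlgebraicClosure ℚ
local notation "Γℚ" => (AlgebraicClosure ℚ ≃ₐ[ℚ] AlgebraicClosure ℚ)

variable {O : Type} [CommRing O] [IsDomain O] [IsDiscreteValuationRing O]
  [IsAdicComplete (maximalIdeal O) O] [Finite (ResidueField O)] [CharZero O] {p : ℕ}
  [Fact p.Prime] {ρbar : ResidualGaloisRep (ResidueField O)} {S : OddPrimes p ρbar}

/-- The values of a seed: `T l` or `U l` where it is recorded, zero at the excluded primes. -/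
def seedValue {N : ℕ} [NeZero N]
    (θ : ↥(CuspForm.heckeAlgebra N 2 S.seedExcluded) →+* ResidueField O) (l : Nat.Primes) :
    ResidueField O := by
  classical
  exact if hE : (l : ℕ) ∈ S.seedExcluded then 0
    else if hN : (l : ℕ) ∣ N then θ (CuspForm.heckeAlgebra.U l.2 hN hE)
    else θ (CuspForm.heckeAlgebra.T l.2 hN hE)

theorem seedExcluded_subset : S.seedExcluded ⊆ insert p (S.all : Set ℕ) := by
  rw [OddPrimes.seedExcluded]
  split_ifs
  exacts [Set.subset_insert _ _, subset_rfl]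

theorem all_subset_seedExcluded : (S.all : Set ℕ) ⊆ S.seedExcluded := by
  rw [OddPrimes.seedExcluded]
  split_ifs
  exacts [subset_rfl, Set.subset_insert _ _]

theorem seedValue_excluded {N : ℕ} [NeZero N]
    (θ : ↥(CuspForm.heckeAlgebra N 2 S.seedExcluded) →+* ResidueField O) {l : Nat.Primes}
    (hE : (l : ℕ) ∈ S.seedExcluded) : seedValue θ l = 0 := by
  classical
  simp [seedValue, hE]

theorem seedValue_T {N : ℕ} [NeZero N]
    (θ : ↥(CuspForm.heckeAlgebra N 2 S.seedExcluded) →+* ResidueField O) {l : Nat.Primes}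
    (hE : (l : ℕ) ∉ S.seedExcluded) (hN : ¬ (l : ℕ) ∣ N) :
    seedValue θ l = θ (CuspForm.heckeAlgebra.T l.2 hN hE) := by
  classical
  simp [seedValue, hE, hN]

theorem seedValue_U {N : ℕ} [NeZero N]
    (θ : ↥(CuspForm.heckeAlgebra N 2 S.seedExcluded) →+* ResidueField O) {l : Nat.Primes}
    (hE : (l : ℕ) ∉ S.seedExcluded) (hN : (l : ℕ) ∣ N) :
    seedValue θ l = θ (CuspForm.heckeAlgebra.U l.2 hN hE) := by
  classical
  simp [seedValue, hE, hN]

theorem seed_squarefree_level : Squarefree S.level := by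
  have hp : p.Prime := Fact.out
  have hsq : Squarefree (∏ q ∈ S.all, q) :=
    Finset.squarefree_prod_of_pairwise_isCoprime (fun a ha b hb hab =>
      Nat.coprime_iff_isRelPrime.1 ((Nat.coprime_primes (S.prime_of_mem a ha)
        (S.prime_of_mem b hb)).2 hab)) fun q hq => (S.prime_of_mem q hq).squarefree
  unfold OddPrimes.level
  split_ifs with h
  · rwa [mul_one]
  · refine Nat.squarefree_mul_iff.2 ⟨?_, hsq, hp.squarefree⟩
    exact Nat.Coprime.prod_left fun q hq =>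
      (Nat.coprime_primes (S.prime_of_mem q hq) hp).2 (S.ne_p q hq)

theorem seed_dvd_level_of_mem_all {q : ℕ} (hq : q ∈ S.all) : q ∣ S.level :=
  (Finset.dvd_prod_of_mem _ hq).mul_right _

theorem p_dvd_level (h : S.pCase ≠ PCase.flat) : p ∣ S.level := by
  unfold OddPrimes.level
  rw [if_neg h]
  exact dvd_mul_left p _

/-- The character at a prime of `T` with the prescribed value at the tame generator. -/
theorem exists_chiT {p : ℕ} [Fact p.Prime] {q : ℕ} [NeZero q] (hq : q.Prime) (h1 : q ≡ 1 [MOD p])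
    (t : TamePair p q) (ζu : Oˣ) (hζu : ζu ^ p = 1) :
    ∃ χ : (ZMod q)ˣ →* Oˣ, (∀ u, χ u ^ p = 1) ∧
      χ (Galois.modCycloChar q t.gen) = ζu := by
  have hp : p.Prime := Fact.out
  have hdvd : p ∣ q - 1 := (Nat.modEq_iff_dvd' hq.one_le).1 h1.symm
  obtain ⟨f, hf⟩ := exists_units_surjective (N := p) hq hdvd
  set ψ : Γℚ →* Multiplicative (ZMod p) := f.comp (Galois.modCycloChar q) with hψ
  obtain ⟨F, hF, hF1⟩ := Galois.exists_finite_level_modCycloChar q
  have hfac : GaloisFactorsThroughFiniteLevel ψ := ⟨F, hF, fun σ hσ => by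
    rw [hψ, MonoidHom.comp_apply, hF1 σ ((IntermediateField.mem_fixingSubgroup_iff _ _).2 hσ),
      map_one]⟩
  have hpow : ∀ x : Multiplicative (ZMod p), x ^ p = 1 := fun x => by
    rw [← ofAdd_toAdd x, ← ofAdd_nsmul]
    simp
  obtain ⟨hin, -, -⟩ := t.tame _ ψ hfac fun σ _ => ⟨1, by rw [pow_one, hpow]⟩
  obtain ⟨u, hu⟩ := hf (Multiplicative.ofAdd 1)
  haveI : NeZero (q ^ 1) := ⟨by rw [pow_one]; exact NeZero.ne q⟩
  have hne : Multiplicative.toAdd (ψ t.gen) ≠ 0 := by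
    intro h0
    have hg1 : ψ t.gen = 1 := Multiplicative.toAdd.injective (by rw [h0, toAdd_one])
    obtain ⟨σ, hσ, hσu⟩ : ∃ σ ∈ t.A.inertiaSubgroupIn ℚ, Galois.modCycloChar q σ = u := by
      have key : ∀ n : ℕ, n = q ^ 1 → ∀ [NeZero n] (v : (ZMod n)ˣ),
          ∃ σ ∈ t.A.inertiaSubgroupIn ℚ, Galois.modCycloChar n σ = v := by
        intro n hn _ v
        subst hn
        exact Galois.exists_inertia_modCycloChar_eq hq 1 t.liesOver v
      exact key q (pow_one q).symm u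
    have h2 := hin σ hσ
    rw [hg1, Subgroup.zpowers_one_eq_bot, Subgroup.mem_bot, hψ, MonoidHom.comp_apply, hσu, hu,
      ofAdd_eq_one] at h2
    exact one_ne_zero h2
  set d := (Multiplicative.toAdd (ψ t.gen))⁻¹ with hd
  let E : Multiplicative (ZMod p) →* Oˣ :=
    { toFun := fun x => ζu ^ (Multiplicative.toAdd x * d).val
      map_one' := by simp
      map_mul' := fun x y => by
        rw [toAdd_mul, add_mul, ZMod.val_add, ← pow_add]
        exact (pow_eq_pow_mod _ hζu).symm }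
  refine ⟨E.comp f, fun x => ?_, ?_⟩
  · show (ζu ^ _) ^ p = 1
    rw [← pow_mul, mul_comm, pow_mul, hζu, one_pow]
  · show ζu ^ (Multiplicative.toAdd (ψ t.gen) * d).val = ζu
    rw [hd, mul_inv_cancel₀ hne, ZMod.val_one, pow_one]

/-- **The parameters exist.** -/
theorem nonempty_supplyParams_of_seed (hp2 : p ≠ 2) (hpO : (p : O) ∈ maximalIdeal O)
    (hζ : ∃ ζ : O, ζ ^ p = 1 ∧ ζ ≠ 1) (hres : OddResidual p ρbar) (hseed : HasSeed S)
    (tp : S.TamePairs) : Nonempty (SupplyParams S tp) := by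
  classical
  have hp : p.Prime := Fact.out
  haveI : CharP (ResidueField O) p := (CharP.charP_iff_prime_eq_zero hp).2 (by
    rw [← map_natCast (residue O), residue_eq_zero_iff]; exact hpO)
  have hk2 : (2 : ResidueField O) ≠ 0 := by
    rw [← Nat.cast_two, Ne, CharP.cast_eq_zero_iff (ResidueField O) p]
    exact fun h => hp2 ((Nat.prime_dvd_prime_iff_eq hp Nat.prime_two).1 h)
  obtain ⟨N, hN0, hNsq, hNmem, θ, hθ, hUp⟩ := hseed
  haveI := hN0
  have hEfin : S.seedExcluded.Finite :=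
    ((Finset.finite_toSet S.all).insert p).subset seedExcluded_subset
  -- the primes of the seed
  have hmemall : ∀ q : ℕ, q.Prime → q ∣ N → q ≠ p → q ∈ S.Smin ∪ S.T := fun q hq hqN hqp =>
    (hNmem q hq hqN).resolve_right fun h => hqp h.1
  have hsub : N.primeFactors ⊆ S.level.primeFactors := fun q hq => by
    obtain ⟨hqP, hqN, -⟩ := Nat.mem_primeFactors.1 hq
    refine Nat.mem_primeFactors.2 ⟨hqP, ?_, NeZero.ne _⟩
    rcases hNmem q hqP hqN with h | ⟨rfl, h⟩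
    · exact seed_dvd_level_of_mem_all (Finset.mem_union_left _ h)
    · exact p_dvd_level h
  -- good primes
  have hgood : ∀ l : Nat.Primes, ¬ (l : ℕ) ∣ p * S.level →
      ¬ (l : ℕ) ∣ N ∧ (l : ℕ) ≠ p ∧ (l : ℕ) ∉ S.seedExcluded := fun l hl => by
    have hlp : (l : ℕ) ≠ p := fun h => hl (dvd_mul_of_dvd_left (dvd_of_eq h) _)
    refine ⟨fun h => hl (dvd_mul_of_dvd_right (Nat.dvd_of_mem_primeFactors
      (hsub (Nat.mem_primeFactors.2 ⟨l.2, h, NeZero.ne N⟩))) p), hlp, fun h => ?_⟩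
    rcases seedExcluded_subset h with h | h
    · exact hlp h
    · exact hl (dvd_mul_of_dvd_right (seed_dvd_level_of_mem_all h) p)
  -- localising primes in `F`
  have hF : ∀ l : Nat.Primes, (l : ℕ) ∈ S.F →
      ¬ (l : ℕ) ∣ N ∧ (l : ℕ) ≠ p ∧ (l : ℕ) ∈ S.seedExcluded := fun l hl => by
    have hall : (l : ℕ) ∈ S.all := Finset.mem_union_right _ hl
    refine ⟨fun h => ?_, S.ne_p _ hall, all_subset_seedExcluded hall⟩
    rcases Finset.mem_union.1 (hmemall _ l.2 h (S.ne_p _ hall)) with h' | h'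
    · exact Finset.disjoint_left.1 S.disjoint_min_F h' hl
    · exact Finset.disjoint_left.1 S.disjoint_T_F h' hl
  set a₀ : Nat.Primes → ResidueField O := seedValue θ with ha₀
  have ha₀good : ∀ l : Nat.Primes, ¬ (l : ℕ) ∣ p * S.level →
      ∀ A : ValuationSubring Qbar, A.LiesOverPrime (l : ℕ) → ∀ σ : Γℚ,
        A.IsFrobeniusAt σ (l : ℕ) →
          LinearMap.trace (ResidueField O) ρbar.V (ρbar.ρ σ) = a₀ l := fun l hl A hA σ hσ => by
    obtain ⟨hlN, hlp, hlE⟩ := hgood l hl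
    rw [ha₀, seedValue_T θ hlE hlN]
    exact hθ l l.2 hlN hlE hlp A hA σ hσ
  have ha₀F : ∀ l : Nat.Primes, (l : ℕ) ∈ S.F → a₀ l = 0 := fun l hl => by
    rw [ha₀, seedValue_excluded θ (hF l hl).2.2]
  have hmixedE : S.pCase = PCase.mixed → p ∉ S.seedExcluded := fun h hpE => by
    rw [OddPrimes.seedExcluded, if_pos h] at hpE
    exact S.ne_p p (Finset.mem_coe.1 hpE) rfl
  have ha₀p : S.pCase = PCase.mixed → a₀ ⟨p, hp⟩ ^ 2 = 1 := fun h => by
    by_cases hpN : p ∣ N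
    · rw [ha₀, seedValue_U θ (l := ⟨p, hp⟩) (hmixedE h) hpN]
      exact (hUp hp (hmixedE h)).1 hpN
    · rw [ha₀, seedValue_T θ (l := ⟨p, hp⟩) (hmixedE h) hpN]
      exact (hUp hp (hmixedE h)).2 hpN
  set Pr := S.supplyPrimes with hPr
  have hloc : ∀ l : Nat.Primes, l ∈ Pr → ¬ (l : ℕ) ∣ p * S.level ∨
      ((l : ℕ) ∈ S.F ∧ p ∣ (l : ℕ) + 1) ∨ ((l : ℕ) = p ∧ S.pCase = PCase.mixed) := fun l hl => by
    rcases hl with hl | hl
    · exact Or.inl hl
    · rcases Finset.mem_union.1 hl with hl | hl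
      · exact Or.inr (Or.inl (Finset.mem_filter.1 hl))
      · by_cases hc : S.pCase = PCase.mixed
        · rw [if_pos hc, Finset.mem_singleton] at hl
          exact Or.inr (Or.inr ⟨hl, hc⟩)
        · rw [if_neg hc] at hl
          exact absurd hl (Finset.notMem_empty _)
  -- the primes to be added
  set R : Finset Nat.Primes := (S.level.primeFactors \ N.primeFactors).subtype Nat.Prime with hR
  have hmemR : ∀ l : Nat.Primes, l ∈ R ↔ (l : ℕ) ∣ S.level ∧ ¬ (l : ℕ) ∣ N := fun l => by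
    rw [hR]
    refine Finset.mem_subtype.trans (Finset.mem_sdiff.trans ?_)
    exact and_congr ⟨Nat.dvd_of_mem_primeFactors, fun h =>
        Nat.mem_primeFactors.2 ⟨l.2, h, NeZero.ne _⟩⟩
      (not_congr ⟨Nat.dvd_of_mem_primeFactors, fun h =>
        Nat.mem_primeFactors.2 ⟨l.2, h, NeZero.ne N⟩⟩)
  have hlevel : N * ∏ q ∈ R, (q : ℕ) = S.level := by
    have e : ∏ q ∈ R, (q : ℕ) = ∏ q ∈ S.level.primeFactors \ N.primeFactors, q := by
      rw [hR]
      exact Finset.prod_subtype_of_mem (fun q => q) fun q hq =>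
        Nat.prime_of_mem_primeFactors (Finset.mem_sdiff.1 hq).1
    calc N * ∏ q ∈ R, (q : ℕ)
        = (∏ q ∈ N.primeFactors, q) * ∏ q ∈ S.level.primeFactors \ N.primeFactors, q := by
          rw [e, Nat.prod_primeFactors_of_squarefree hNsq]
      _ = ∏ q ∈ S.level.primeFactors, q := by rw [mul_comm, Finset.prod_sdiff hsub]
      _ = S.level := Nat.prod_primeFactors_of_squarefree seed_squarefree_level
  have hgoodR : ∀ l : Nat.Primes, ¬ (l : ℕ) ∣ p * S.level → l ∉ R := fun l hl h =>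
    hl (dvd_mul_of_dvd_right ((hmemR l).1 h).1 p)
  -- the eigenvalues
  set α : Nat.Primes → ResidueField O := fun l =>
    if (l : ℕ) ∈ S.F then (S.ε (l : ℕ) : ResidueField O) else a₀ l with hα
  set θX : Nat.Primes → ResidueField O := fun l =>
    if l ∈ R.filter (· ∈ Pr) then α l else a₀ l with hθX
  have hθXgood : ∀ l : Nat.Primes, ¬ (l : ℕ) ∣ p * S.level → θX l = a₀ l := fun l hl => by
    rw [hθX]
    exact if_neg fun h => hgoodR l hl (Finset.mem_filter.1 h).1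
  have hθXF : ∀ l : Nat.Primes, (l : ℕ) ∈ S.F → p ∣ (l : ℕ) + 1 →
      θX l = (S.ε (l : ℕ) : ResidueField O) := fun l hl hl1 => by
    have hmem : l ∈ R.filter (· ∈ Pr) := Finset.mem_filter.2
      ⟨(hmemR l).2 ⟨seed_dvd_level_of_mem_all (Finset.mem_union_right _ hl), (hF l hl).1⟩,
        Or.inr (Finset.mem_union_left _ (Finset.mem_filter.2 ⟨hl, hl1⟩))⟩
    rw [hθX]
    exact (if_pos hmem).trans (if_pos hl)
  have hθXp : S.pCase = PCase.mixed → θX ⟨p, hp⟩ ^ 2 = 1 := fun h => by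
    have hpF : p ∉ S.F := fun h' => S.ne_p p (Finset.mem_union_right _ h') rfl
    have : α ⟨p, hp⟩ = a₀ ⟨p, hp⟩ := if_neg hpF
    rw [hθX]
    dsimp only
    split_ifs
    · rw [this, ha₀p h]
    · exact ha₀p h
  -- auxiliary primes
  obtain ⟨ℓ₀, hℓ₀, hℓ₀T, -, -, -, A₀, hA₀, σ₀, hσ₀, hne₀⟩ :=
    HeckeRep.exists_frobenius_trace_ne hres.absIrred hp hres.det 1 (p * S.level).primeFactors
  have hnotdvd : ∀ {ℓ : ℕ}, ℓ.Prime → ℓ ∉ (p * S.level).primeFactors → ¬ ℓ ∣ p * S.level :=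
    fun hℓ h h' => h (Nat.mem_primeFactors.2 ⟨hℓ, h', mul_ne_zero hp.ne_zero (NeZero.ne _)⟩)
  have hlne : a₀ ⟨ℓ₀, hℓ₀⟩ ≠ (ℓ₀ : ResidueField O) + 1 := by
    rw [← ha₀good ⟨ℓ₀, hℓ₀⟩ (hnotdvd hℓ₀ hℓ₀T) A₀ hA₀ σ₀ hσ₀]
    exact hne₀
  obtain ⟨ell, hell_good, hell_spec⟩ : ∃ ell : Nat.Primes, ¬ (ell : ℕ) ∣ p * S.level ∧
      (IsUnit (3 : O) ∨ ((ell : ℕ) % 3 = 2 ∧ a₀ ell ≠ 0)) := by
    by_cases h3 : IsUnit (3 : O)
    · exact ⟨⟨ℓ₀, hℓ₀⟩, hnotdvd hℓ₀ hℓ₀T, Or.inl h3⟩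
    · obtain ⟨ℓ, hℓ, hℓT, hℓ3, A, hA, σ, hσ, hne⟩ :=
        exists_prime_mod_three_trace_ne_zero hres (p * S.level).primeFactors
      refine ⟨⟨ℓ, hℓ⟩, hnotdvd hℓ hℓT, Or.inr ⟨hℓ3, ?_⟩⟩
      rwa [← ha₀good ⟨ℓ, hℓ⟩ (hnotdvd hℓ hℓT) A hA σ hσ]
  have h2O : IsUnit (2 : O) := by
    by_contra hn
    exact hk2 (by rw [← map_ofNat (residue O) 2, residue_eq_zero_iff]; exact hn)
  -- the base level
  set θ₀ : BettiHeckeAlg O →+* ResidueField O := eval₂Hom (residue O) a₀ with hθ₀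
  have hC : ∀ r, θ₀ (C r) = residue O r := fun r => eval₂Hom_C _ _ r
  have hX : ∀ l, θ₀ (X l) = a₀ l := fun l => eval₂Hom_X' _ _ l
  have hell₀ : EllipticHarmless N (Pr \ (R : Set Nat.Primes)) θ₀ := by
    rcases hell_spec with h | ⟨h, h'⟩
    · exact Or.inl ⟨Or.inl h2O, Or.inl h⟩
    · exact Or.inr (Or.inl ⟨Or.inl h2O, ell,
        ⟨Or.inl hell_good, fun hR' => hgoodR ell hell_good hR'⟩, h, by rwa [hX]⟩)
  obtain ⟨ψ, hψ0, hψc, hψe⟩ := exists_seed_cuspidalHom hEfin θ hθ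
  have hbase : Nontrivial (BettiResLoc (1 : (ZMod N)ˣ →* Oˣ) Pr θ₀) := by
    refine nontrivial_bettiResLoc_of_hom Pr θ₀ hC (hell₀.of_agree Set.sdiff_subset fun _ _ => rfl)
      ψ hψ0 hψc fun l hl => hψe l _ ?_
    rw [hX]
    rcases hloc l hl with hl' | ⟨hl', hl1⟩ | ⟨hlp, hc⟩
    · obtain ⟨hlN, hlp, -⟩ := hgood l hl'
      obtain ⟨A, hA⟩ := Basic.exists_liesOverPrime l.2
      obtain ⟨σ, hσ⟩ := Basic.exists_isFrobeniusAt l.2 A hA
      exact Or.inl ⟨hlN, hlp, A, hA, σ, hσ, ha₀good l hl' A hA σ hσ⟩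
    · obtain ⟨hlN, hlp, -⟩ := hF l hl'
      obtain ⟨A, hA⟩ := Basic.exists_liesOverPrime l.2
      obtain ⟨σ, hσ⟩ := Basic.exists_isFrobeniusAt l.2 A hA
      refine Or.inl ⟨hlN, hlp, A, hA, σ, hσ, ?_⟩
      rw [S.trace_F _ hl' A hA σ hσ, ha₀F l hl', ← Nat.cast_succ,
        (CharP.cast_eq_zero_iff (ResidueField O) p _).2 hl1, mul_zero]
    · have hlE : (l : ℕ) ∉ S.seedExcluded := hlp ▸ hmixedE hc
      by_cases hlN : (l : ℕ) ∣ N
      · exact Or.inr (Or.inr ⟨hlN, hlE, (seedValue_U θ hlE hlN).symm⟩)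
      · exact Or.inr (Or.inl ⟨hlN, hlE, (seedValue_T θ hlE hlN).symm⟩)
  -- up to the level
  have hroot : ∀ q ∈ R, q ∈ Pr →
      α q ^ 2 - θ₀ (X q) * α q + ((q : ℕ) : ResidueField O) = 0 ∧ α q ≠ 0 ∧
        2 * α q ≠ θ₀ (X q) := by
    intro q hq hqPr
    rw [hX]
    rcases hloc q hqPr with hl' | ⟨hl', hl1⟩ | ⟨hlp, hc⟩
    · exact absurd hq (hgoodR q hl')
    · have hαq : α q = (S.ε (q : ℕ) : ResidueField O) := if_pos hl'
      have hsq : (S.ε (q : ℕ) : ResidueField O) ^ 2 = 1 := by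
        rcases S.sign_F _ hl' with h | h <;> simp [h]
      have hne : (S.ε (q : ℕ) : ResidueField O) ≠ 0 := fun h => by simp [h] at hsq
      rw [hαq, ha₀F q hl']
      refine ⟨?_, hne, mul_ne_zero hk2 hne⟩
      rw [zero_mul, sub_zero, hsq, add_comm, ← Nat.cast_succ]
      exact (CharP.cast_eq_zero_iff (ResidueField O) p _).2 hl1
    · obtain rfl : q = ⟨p, hp⟩ := Subtype.ext hlp
      have hpF : p ∉ S.F := fun h' => S.ne_p p (Finset.mem_union_right _ h') rfl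
      have hαq : α ⟨p, hp⟩ = a₀ ⟨p, hp⟩ := if_neg hpF
      have hne : a₀ ⟨p, hp⟩ ≠ 0 := fun h => by simpa [h] using ha₀p hc
      rw [hαq]
      refine ⟨by rw [CharP.cast_eq_zero, sq, sub_self, add_zero], hne, fun h => hne ?_⟩
      linear_combination h
  have hne : ∀ M : ℕ, M ≠ 0 → ∃ l ∈ Pr, l ∉ R ∧ ((l : ℕ) : ZMod M) = 1 ∧
      θ₀ (X l) ≠ ((l : ℕ) : ResidueField O) + 1 := fun M hM => by
    haveI : NeZero M := ⟨hM⟩
    obtain ⟨ℓ, hℓ, hℓT, -, -, hℓ1, A, hA, σ, hσ, hne⟩ :=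
      HeckeRep.exists_frobenius_trace_ne hres.absIrred hp hres.det M (p * S.level).primeFactors
    refine ⟨⟨ℓ, hℓ⟩, Or.inl (hnotdvd hℓ hℓT), hgoodR _ (hnotdvd hℓ hℓT), hℓ1, ?_⟩
    exact fun h => hne ((ha₀good ⟨ℓ, hℓ⟩ (hnotdvd hℓ hℓT) A hA σ hσ).trans ((hX _).symm.trans h))
  have hnt := nontrivial_bettiResLoc_raise Pr θ₀ hC α R (fun q hq => ((hmemR q).1 hq).2) hroot
    hell₀ hne hbase
  have hθeq : residualRaiseSet θ₀ (R.filter (· ∈ Pr)) α = eval₂Hom (residue O) θX := by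
    refine ringHom_ext (fun r => ?_) fun l => ?_
    · rw [residualRaiseSet_C, hC, eval₂Hom_C]
    · rw [eval₂Hom_X', hθX]
      dsimp only
      split_ifs with h
      · exact residualRaiseSet_X_of_mem _ _ h
      · rw [residualRaiseSet_X_of_notMem _ _ h, hX]
  have hnt' : Nontrivial (GammaHBase O S.supplyPrimes (eval₂Hom (residue O) θX) S.level) := by
    rw [hθeq] at hnt
    have key : ∀ {M : ℕ}, Nontrivial (BettiResLoc (1 : (ZMod M)ˣ →* Oˣ) Pr
        (eval₂Hom (residue O) θX)) → M = S.level →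
        Nontrivial (GammaHBase O S.supplyPrimes (eval₂Hom (residue O) θX) S.level) := by
      intro M h e; subst e; exact h
    exact key hnt hlevel
  -- the characters at `T`
  obtain ⟨ζ₀, hζ₀, hζ₁⟩ := hζ
  have hζu : IsUnit ζ₀ := IsUnit.of_pow_eq_one hζ₀ hp.ne_zero
  have hζu2 : (hζu.unit ^ 2) ^ p = 1 := Units.ext (by
    rw [← pow_mul, Units.val_pow_eq_pow_val, IsUnit.unit_spec, mul_comm, pow_mul, hζ₀, one_pow,
      Units.val_one])
  have hchi : ∀ q : S.T, ∃ χ : (ZMod (q : ℕ))ˣ →* Oˣ, (∀ u, χ u ^ p = 1) ∧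
      haveI : NeZero (q : ℕ) :=
        ⟨(S.prime_of_mem q (Finset.mem_union_left _ (Finset.mem_union_right _ q.2))).ne_zero⟩
      χ (Galois.modCycloChar (q : ℕ) (tp.atT q).gen) = hζu.unit ^ 2 := fun q => by
    have hq := S.prime_of_mem q (Finset.mem_union_left _ (Finset.mem_union_right _ q.2))
    haveI : NeZero (q : ℕ) := ⟨hq.ne_zero⟩
    exact exists_chiT hq (S.one_mod_T q q.2) (tp.atT q) _ hζu2
  choose χT hχT₁ hχT₂ using hchi
  exact ⟨{
    θX := θX
    θX_good := fun l hl A hA σ hσ => (hθXgood l hl).trans (ha₀good l hl A hA σ hσ).symm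
    θX_F := hθXF
    θX_p := hθXp
    nontrivial := hnt'
    ell := ell
    ell_good := hell_good
    ell_spec := hell_spec.imp_right fun h => ⟨h.1, by rw [hθXgood ell hell_good]; exact h.2⟩
    lne := ⟨ℓ₀, hℓ₀⟩
    lne_good := hnotdvd hℓ₀ hℓ₀T
    lne_spec := fun h => hlne ((hθXgood _ (hnotdvd hℓ₀ hℓ₀T)).symm.trans h)
    χT := χT
    χT_pow := hχT₁
    ζ := fun _ => ζ₀
    ζ_spec := fun _ _ => ⟨hζ₀, hζ₁⟩
    ζ_eq := fun q => by rw [hχT₂ q, Units.val_pow_eq_pow_val, IsUnit.unit_spec] }⟩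

end FermatLib.MLT.Odd

end
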