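import Fermat.Agent.MLT.Odd.SupplyDefs
import Fermat.Agent.MLT.Odd.SupplyExists
import Fermat.Agent.MLT.Odd.SupplyModulesLevel
import Fermat.Agent.MLT.Odd.SupplyModulesRank
import Fermat.Agent.MLT.Odd.SupplyParamsExists

/-!
# The modules of the levels: parameters, freeness, congruence and maps to level zero
-/

set_option autoImplicit false

noncomputable section

namespace FermatLib.MLT.Odd

open IsLocalRing

variable {O : Type} [CommRing O] [IsDomain O] [IsDiscreteValuationRing O]
  [IsAdicComplete (maximalIdeal O) O] [Finite (ResidueField O)] [CharZero O] {p : ℕ}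
  [Fact p.Prime] {ρbar : ResidualGaloisRep (ResidueField O)} {S : OddPrimes p ρbar}
  {tp : S.TamePairs}

/-- The parameters exist. -/
theorem nonempty_supplyParams (hp2 : p ≠ 2) (hpO : (p : O) ∈ maximalIdeal O)
    (hζ : ∃ ζ : O, ζ ^ p = 1 ∧ ζ ≠ 1) (hres : OddResidual p ρbar) (hseed : HasSeed S)
    (tp : S.TamePairs) : Nonempty (SupplyParams S tp) :=
  nonempty_supplyParams_of_seed hp2 hpO hζ hres hseed tp

/-- An auxiliary family outside the avoided primes gives a level. -/
theorem exists_supplyLevel (hres : OddResidual p ρbar) (P : SupplyParams S tp) {n r : ℕ}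
    {qv : Fin r → ℕ} (h : IsTWFamily S n qv) (havoid : ∀ i, qv i ∉ P.avoid) :
    ∃ C : SupplyLevel P (Finset.univ.image qv) r (n + 1), C.qv = qv := by
  exact exists_supplyLevel_proof hres P h havoid

variable {P : SupplyParams S tp} {Q : Finset ℕ} {r e : ℕ}

/-- The rank of a variant: its rank at level zero. -/
def SupplyParams.rank (P : SupplyParams S tp) (v : OddVariant) : ℕ :=
  Module.finrank (DiamondRing O (SupplyLevel.zero P).Δ) ((SupplyLevel.zero P).Mod v)

/-- The module of level zero is not zero. -/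
theorem rank_std_pos (hp2 : p ≠ 2) (hpO : (p : O) ∈ maximalIdeal O) (P : SupplyParams S tp) :
    0 < P.rank .std :=
  supply_rank_std_pos hp2 hpO P

/-- The modules are free over the diamonds, of the rank of level zero. -/
theorem nonempty_supplyBasis (hp2 : p ≠ 2) (hpO : (p : O) ∈ maximalIdeal O)
    (hres : OddResidual p ρbar) (C : SupplyLevel P Q r e) {v : OddVariant}
    (hv : ∀ s, v = .old s → S.HasOld s) :
    Nonempty (Module.Basis (Fin (P.rank v)) (DiamondRing O C.Δ) (C.Mod v)) :=
  nonempty_supplyBasis_rank hp2 hpO C v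

/-- The full and the twisted module are congruent modulo the constants. -/
theorem exists_supplyTheta (hp2 : p ≠ 2) (hpO : (p : O) ∈ maximalIdeal O)
    (C : SupplyLevel P Q r e) :
    ∃ θ : (C.Mod .std ⧸ (maximalIdeal O • ⊤ : Submodule O (C.Mod .std))) ≃ₗ[O]
        (C.Mod .chi ⧸ (maximalIdeal O • ⊤ : Submodule O (C.Mod .chi))),
      ∀ ℓ : ℕ, ℓ.Prime → ℓ ∉ C.exc .std ∪ C.exc .chi → ∀ x y,
        θ (Submodule.Quotient.mk x) = Submodule.Quotient.mk y →
          θ (Submodule.Quotient.mk (C.tElt .std ℓ • x)) =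
            Submodule.Quotient.mk (C.tElt .chi ℓ • y) :=
  exists_supplyTheta_congr hp2 hpO C

/-- The map to level zero. -/
theorem exists_supplyLevelMap (hp2 : p ≠ 2) (hpO : (p : O) ∈ maximalIdeal O)
    (hres : OddResidual p ρbar) (C : SupplyLevel P Q r e) {v : OddVariant}
    (hv : ∀ s, v = .old s → S.HasOld s) :
    ∃ g : C.Mod v →ₗ[O] (SupplyLevel.zero P).Mod v, Function.Surjective g ∧
      (∀ ℓ : ℕ, ℓ.Prime → ℓ ∉ C.exc v ∪ (SupplyLevel.zero P).exc v → ∀ m,
        g (C.tElt v ℓ • m) = (SupplyLevel.zero P).tElt v ℓ • g m) ∧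
      (∀ a m, g (MonoidAlgebra.of O C.Δ a • m) = g m) ∧
      ∀ m, g m = 0 → m ∈ Ideal.span
          (Set.range fun i => MonoidAlgebra.of O C.Δ (twGen i) - 1) •
        (⊤ : Submodule (DiamondRing O C.Δ) (C.Mod v)) :=
  exists_supplyLevelMap_zero hp2 hpO C v

end FermatLib.MLT.Odd
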