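import Fermat.Agent.MLT.Odd.HeckeRepStrict
import Fermat.Agent.Modular.TwistSystemEigen
import Fermat.Agent.Modular.Newforms.OldRoot
import Fermat.Agent.Modular.HeckeStrictBound

/-!
# A point with `U_p ^ 2 = 1` is new at `p`

If the values away from `E` of a point of level `p M` with `U_p ^ 2 = 1` were those of a point of
level `M`, an eigenform of level `M` would have `a_p = ± (p + 1)`, against the strict bound.
-/

set_option autoImplicit false
set_option linter.style.haveILetI false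

noncomputable section

open CuspForm ModularFormClass FermatLib.Galois
open CongruenceSubgroup (Gamma0)

namespace FermatLib.MLT.Odd

open FermatLib.MLT.HeckeRep FermatLib.Modular

/-- A point of an anemic Hecke algebra in `ℂ` is the system of an eigenform. -/
theorem exists_eigenform_of_anemic_point {M : ℕ} [NeZero M] {E : Set ℕ}
    (ξ : heckeAlgebra M 2 E →+* ℂ) :
    ∃ g : CuspForm (Gamma0 M) 2, g.IsNormalizedEigenform ∧
      ∀ (ℓ : ℕ) (hℓ : ℓ.Prime) (hℓM : ¬ ℓ ∣ M) (hℓE : ℓ ∉ E),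
        qCoeff ⇑g ℓ = ξ (heckeAlgebra.T hℓ hℓM hℓE) := by
  have hle : heckeAlgebra M 2 E ≤ heckeAlgebra M 2 (∅ : Set ℕ) :=
    heckeAlgebra_mono (Set.empty_subset E)
  let incl := Subalgebra.inclusion hle
  letI : Algebra (heckeAlgebra M 2 E) (heckeAlgebra M 2 (∅ : Set ℕ)) := incl.toRingHom.toAlgebra
  haveI : Module.Finite ℤ (heckeAlgebra M 2 (∅ : Set ℕ)) := heckeAlgebra_moduleFinite M 2 ∅
  haveI : IsScalarTower ℤ (heckeAlgebra M 2 E) (heckeAlgebra M 2 (∅ : Set ℕ)) :=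
    IsScalarTower.of_algebraMap_eq fun n => (incl.commutes n).symm
  haveI : Algebra.IsIntegral (heckeAlgebra M 2 E) (heckeAlgebra M 2 (∅ : Set ℕ)) :=
    Algebra.IsIntegral.tower_top ℤ
  obtain ⟨ξ', hξ'⟩ := Twist.exists_ringHom_extends_field (K := ℂ)
    (A := heckeAlgebra M 2 E) (B := heckeAlgebra M 2 (∅ : Set ℕ))
    (Subalgebra.inclusion_injective hle) ξ
  obtain ⟨g, hg, -, hT, -⟩ := Newforms.exists_normalizedEigenform_of_character ξ'
  refine ⟨g, hg, fun ℓ hℓ hℓM hℓE => ?_⟩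
  rw [hT ℓ hℓ hℓM, ← hξ']
  rfl

/-- An eigenform of level prime to `p` has `a_p ≠ ± (p + 1)`. -/
theorem qCoeff_ne_sign_mul_succ {M p : ℕ} [NeZero M] (hp : p.Prime) (hpM : ¬ p ∣ M)
    {g : CuspForm (Gamma0 M) 2} (hg : g.IsNormalizedEigenform) {ε : ℤ} (hε : ε ^ 2 = 1) :
    qCoeff ⇑g p ≠ (ε : ℂ) * ((p : ℂ) + 1) := fun h =>
  hg.ne_zero (eq_zero_of_heckeTLin_eq_sign_smul hp hpM hε (by
    rw [FermatLib.Galois.heckeTLin_apply_eigenform hg hp hpM, h]))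

attribute [local instance] FermatLib.Modular.Corr.neZero_mul'

/-- **A point with `U_p ^ 2 = 1` is new at `p`.** -/
theorem isNewPointAt_of_U_sq {K : Type} [Field K] [CharZero K] [IsAlgClosed K] {p M : ℕ}
    [Fact p.Prime] [NeZero p] [NeZero M] (hpM : ¬ p ∣ M)
    (θ : heckeAlgebra (p * M) 2 (∅ : Set ℕ) →+* K)
    (hU : θ (heckeAlgebra.U (Fact.out : p.Prime) (dvd_mul_right p M) (Set.notMem_empty p)) ^ 2 = 1)
    {E : Finset ℕ} {R : Type} [CommRing R] (j : R →+* K)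
    (χ₀ : heckeAlgebra (p * M) 2 (↑E : Set ℕ) →+* R)
    (hNE : ∀ q : ℕ, q.Prime → q ∣ p * M → q ∈ E)
    (hT : ∀ (ℓ : ℕ) (hℓ : ℓ.Prime) (hℓN : ¬ ℓ ∣ p * M) (hℓE : ℓ ∉ (↑E : Set ℕ)),
      j (χ₀ (heckeAlgebra.T hℓ hℓN hℓE)) =
        θ (heckeAlgebra.T hℓ hℓN (Set.notMem_empty ℓ))) :
    IsNewPointAt p M χ₀ := by
  classical
  have hp : p.Prime := Fact.out
  by_contra hnew
  obtain ⟨χ₁, hχ₁⟩ := exists_point_of_not_new hnew
  obtain ⟨f, ι, hf, hfT, hfU⟩ := Twist.exists_eigenform_embedding θ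
  obtain ⟨a, ha, hιa⟩ := hfU p hp (dvd_mul_right p M)
  have hιinj : Function.Injective ι := by
    refine (RingHom.injective_iff_ker_eq_bot ι).2 (Ideal.eq_bot_of_comap_eq_bot (R := ℤ) ?_)
    refine eq_bot_iff.2 fun n hn => ?_
    rw [Ideal.mem_comap, RingHom.mem_ker, eq_intCast, map_intCast, Int.cast_eq_zero] at hn
    exact hn
  -- the values away from `E` in the algebraic integers
  have hval : ∀ t, j (χ₁ t) ∈ ι.range := by
    rintro ⟨t, ht⟩
    induction ht using Algebra.adjoin_induction with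
    | mem u hu =>
      rcases hu with ⟨ℓ, hℓ, hℓM, hℓE, rfl⟩ | ⟨q, hqM, hq, hqE, rfl⟩
      · have hℓN : ¬ ℓ ∣ p * M := fun h => hℓE (Finset.mem_coe.2 (hNE ℓ hℓ h))
        obtain ⟨b, -, hb⟩ := hfT ℓ hℓ hℓN
        exact ⟨b, hb.trans ((hT ℓ hℓ hℓN hℓE).symm.trans
          (congrArg j (hχ₁ ℓ hℓ hℓM hℓN hℓE).symm))⟩
      · exact absurd (Finset.mem_coe.2 (hNE q hq (hqM.mul_left p))) hqE
    | algebraMap n => exact ⟨(n : integralClosure ℤ ℂ), by
        rw [map_intCast]; exact ((congrArg j (map_intCast χ₁ n)).trans (map_intCast j n)).symm⟩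
    | add u v hu hv ihu ihv =>
      exact (congrArg (· ∈ ι.range) ((congrArg j (map_add χ₁ ⟨u, hu⟩ ⟨v, hv⟩)).trans
        (map_add j _ _))).mpr (add_mem ihu ihv)
    | mul u v hu hv ihu ihv =>
      exact (congrArg (· ∈ ι.range) ((congrArg j (map_mul χ₁ ⟨u, hu⟩ ⟨v, hv⟩)).trans
        (map_mul j _ _))).mpr (mul_mem ihu ihv)
  let e := RingEquiv.ofBijective ι.rangeRestrict
    ⟨fun x y h => hιinj (congrArg Subtype.val h), ι.rangeRestrict_surjective⟩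
  let ξ : heckeAlgebra M 2 (↑E : Set ℕ) →+* ℂ :=
    (integralClosure ℤ ℂ).val.toRingHom.comp
      (e.symm.toRingHom.comp ((j.comp χ₁).codRestrict ι.range hval))
  obtain ⟨g, hg, hgT⟩ := exists_eigenform_of_anemic_point ξ
  have hgf : ∀ (ℓ : ℕ), ℓ.Prime → ℓ ∉ E → qCoeff ⇑g ℓ = qCoeff ⇑f ℓ := by
    intro ℓ hℓ hℓE
    have hℓE' : ℓ ∉ (↑E : Set ℕ) := fun h => hℓE (Finset.mem_coe.1 h)
    have hℓN : ¬ ℓ ∣ p * M := fun h => hℓE (hNE ℓ hℓ h)
    have hℓM : ¬ ℓ ∣ M := fun h => hℓN (h.mul_left p)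
    obtain ⟨b, hb, hb'⟩ := hfT ℓ hℓ hℓN
    rw [hgT ℓ hℓ hℓM hℓE', ← hb]
    refine congrArg (fun z : integralClosure ℤ ℂ => (z : ℂ)) ((RingEquiv.symm_apply_eq e).2 ?_)
    refine Subtype.ext ((congrArg j (hχ₁ ℓ hℓ hℓM hℓN hℓE')).trans ((hT ℓ hℓ hℓN hℓE').trans ?_))
    exact hb'.symm
  -- a larger level containing `E`
  set s : Finset ℕ := E.filter (fun q => q.Prime ∧ q ≠ p) with hs
  set M₂ := M * ∏ q ∈ s, q with hM₂
  have hsm : ∀ q ∈ s, q.Prime ∧ q ≠ p := fun q hq => (Finset.mem_filter.1 hq).2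
  have hM₂0 : M₂ ≠ 0 :=
    mul_ne_zero (NeZero.ne M) (Finset.prod_ne_zero_iff.2 fun q hq => (hsm q hq).1.ne_zero)
  haveI : NeZero M₂ := ⟨hM₂0⟩
  have hpM₂ : ¬ p ∣ M₂ := fun h => by
    rcases hp.dvd_mul.1 h with h | h
    · exact hpM h
    · obtain ⟨q, hq, hd⟩ := (hp.prime.dvd_finsetProd_iff _).1 h
      exact (hsm q hq).2 ((Nat.prime_dvd_prime_iff_eq hp (hsm q hq).1).1 hd).symm
  obtain ⟨f₂, hf₂, hf₂c⟩ := exists_eigenform_of_dvd (N := p * M₂) (M := p * M)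
    (mul_ne_zero hp.ne_zero hM₂0) (mul_dvd_mul_left p (dvd_mul_right M _)) hf
  have hfp : qCoeff ⇑f₂ p = (a : ℂ) := by
    rw [hf₂c p hp (Or.inl (dvd_mul_right p M)), ha]
  have hroot := Newforms.qCoeff_root_of_lower hp hpM₂ (dvd_mul_right M _) hf₂ hg
    fun ℓ hℓ hℓN => by
      have hℓE : ℓ ∉ E := fun h => by
        by_cases hℓp : ℓ = p
        · exact hℓN (hℓp ▸ dvd_mul_right p M₂)
        · exact hℓN (((Finset.dvd_prod_of_mem _
            (Finset.mem_filter.2 ⟨h, hℓ, hℓp⟩)).mul_left M).mul_left p)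
      rw [hgf ℓ hℓ hℓE, hf₂c ℓ hℓ (Or.inr hℓN)]
  have hasq : a ^ 2 = 1 := hιinj (by rw [map_pow, hιa, hU, map_one])
  have hu2 : (a : ℂ) ^ 2 = 1 := by
    have := congrArg (fun z : integralClosure ℤ ℂ => (z : ℂ)) hasq
    simpa using this
  rw [hfp] at hroot
  rcases sq_eq_one_iff.1 hu2 with h | h <;> rw [h] at hroot
  · exact qCoeff_ne_sign_mul_succ hp hpM hg (ε := 1) (one_pow 2)
      (by push_cast; linear_combination -hroot)
  · exact qCoeff_ne_sign_mul_succ hp hpM hg (ε := -1) (by norm_num)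
      (by push_cast; linear_combination hroot)

end FermatLib.MLT.Odd

end
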