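import Fermat.Agent.MLT.Odd.SystemLocalP
import Fermat.Agent.Galois.AttachmentProved
import Fermat.Agent.Modular.HeckeStrictBound
import Fermat.Agent.Galois.MazurP.LevelMKill
import Fermat.Agent.Igusa.TorsionModel.JZeroModel
import Fermat.Agent.Igusa.TorsionModel.X0SpecData
import Fermat.Agent.MLT.Ordinary.Basic
import Fermat.Agent.Basic.FrobeniusExists

/-!
# Systems of level prime to `p` are not strictly ordinary at `p`

The relation `(1 - e) Q (F) = 0` on `J₀(N)[p ^ k]` passes to the representation of a point.  If this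
is strictly ordinary, `e` is `0` and `F` is `± 1` on the unramified quotient, so `Q (± 1) = 0`,
which is false.  This is the second half of the field `old_p` of the data of a level.
-/

set_option autoImplicit false
set_option linter.style.haveILetI false

noncomputable section

namespace FermatLib.MLT.Odd

open IsLocalRing FermatLib.Galois FermatLib.Galois.DeformLocal FermatLib.MLT.HeckeRep CuspForm
  ModularCurve Polynomial

local notation "Qbar" => AlgebraicClosure ℚ
local notation "Γℚ" => (AlgebraicClosure ℚ ≃ₐ[ℚ] AlgebraicClosure ℚ)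

/-- Group-algebra identities on `J₀(N)[p^k]` hold for `ρ` to high order, for `k` large. -/
def TransfersFromJZero (N p : ℕ) [NeZero N] {T : Type} [CommRing T] [IsLocalRing T]
    (ρ : GaloisRepAdic T) : Prop :=
  ∀ n : ℕ, ∃ k : ℕ, ∀ f : MonoidAlgebra ℤ Γℚ,
    (∀ x : JZero N, p ^ k • x = 0 → Ordinary.actHom Γℚ (JZero N) f x = 0) →
      ∀ v : ρ.V, Ordinary.repHom ρ f v ∈ maximalIdeal T ^ n • (⊤ : Submodule T ρ.V)

variable {N p : ℕ} [NeZero N] {A B : Type} [CommRing A] [IsLocalRing A] [CommRing B]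
  [IsLocalRing B]

/-- Transfer passes to a change of coefficients. -/
theorem TransfersFromJZero.baseChange {ρ : GaloisRepAdic A} (h : TransfersFromJZero N p ρ)
    (φ : A →+* B) (hφ : IsLocalHom φ) : TransfersFromJZero N p (ρ.baseChangeAlong φ hφ) := by
  intro n
  obtain ⟨k, hk⟩ := h n
  refine ⟨k, fun f hf => ?_⟩
  letI : Algebra A B := φ.toAlgebra
  intro v
  have hcomm : ∀ (f : MonoidAlgebra ℤ Γℚ) (c : B) (w : ρ.V),
      Ordinary.repHom (ρ.baseChangeAlong φ hφ) f (c ⊗ₜ[A] w) =
        c ⊗ₜ[A] Ordinary.repHom ρ f w := by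
    intro f
    induction f using MonoidAlgebra.induction_linear with
    | zero =>
      intro c w
      rw [map_zero, map_zero]
      exact (TensorProduct.tmul_zero ρ.V c).symm
    | add a b ha hb =>
      intro c w
      rw [map_add, map_add, LinearMap.add_apply, LinearMap.add_apply, TensorProduct.tmul_add]
      exact congrArg₂ (· + ·) (ha c w) (hb c w)
    | single g m =>
      intro c w
      rw [Ordinary.repHom_single, Ordinary.repHom_single, LinearMap.smul_apply,
        LinearMap.smul_apply, TensorProduct.tmul_smul]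
      rfl
  have hpow : ∀ r ∈ maximalIdeal A ^ n, algebraMap A B r ∈ maximalIdeal B ^ n := fun r hr => by
    have : (maximalIdeal A ^ n).map φ ≤ maximalIdeal B ^ n := by
      rw [Ideal.map_pow]
      exact Ideal.pow_right_mono (((IsLocalRing.local_hom_TFAE φ).out 0 2).mp hφ) n
    exact this (Ideal.mem_map_of_mem φ hr)
  let F : TensorProduct A B ρ.V →ₗ[B] TensorProduct A B ρ.V :=
    Ordinary.repHom (ρ.baseChangeAlong φ hφ) f
  suffices hall : ∀ v : TensorProduct A B ρ.V,
      F v ∈ maximalIdeal B ^ n • (⊤ : Submodule B (TensorProduct A B ρ.V)) from hall v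
  intro v
  induction v using TensorProduct.induction_on with
  | zero => rw [map_zero]; exact zero_mem _
  | add x y hx hy => rw [map_add]; exact add_mem hx hy
  | tmul c w =>
    rw [show F (c ⊗ₜ[A] w) = c ⊗ₜ[A] Ordinary.repHom ρ f w from hcomm f c w]
    refine Submodule.smul_induction_on (hk f hf w) (fun r hr u _ => ?_) fun u u' hu hu' => ?_
    · rw [TensorProduct.tmul_smul, ← algebraMap_smul B r]
      exact Submodule.smul_mem_smul (hpow r hr) Submodule.mem_top
    · rw [TensorProduct.tmul_add]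
      exact add_mem hu hu'

omit [NeZero N] in
/-- Exponents of an automorphism on `μ_{p^n}`, prime to `p`. -/
theorem exists_exponent_coprime (hp : p.Prime) (σ : Γℚ) (n : ℕ) :
    ∃ a : ℕ, ¬ p ∣ a ∧ ∀ μ : Qbar, μ ^ p ^ (n + 1) = 1 → σ μ = μ ^ a := by
  haveI : NeZero (p ^ (n + 1)) := ⟨pow_ne_zero _ hp.ne_zero⟩
  obtain ⟨ζ, hζ⟩ := HasEnoughRootsOfUnity.exists_primitiveRoot Qbar (p ^ (n + 1))
  obtain ⟨a, -, ha⟩ := hζ.eq_pow_of_pow_eq_one
    (show σ ζ ^ p ^ (n + 1) = 1 by rw [← map_pow, hζ.pow_eq_one, map_one])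
  refine ⟨a, fun hdvd => ?_, fun μ hμ => ?_⟩
  · have hprim : IsPrimitiveRoot (ζ ^ a) (p ^ (n + 1)) :=
      ha.symm ▸ hζ.map_of_injective σ.injective
    have hcop := (hζ.pow_iff_coprime (pow_pos hp.pos _) a).1 hprim
    exact Nat.not_coprime_of_dvd_of_dvd hp.one_lt hdvd (dvd_pow_self p n.succ_ne_zero) hcop
  · obtain ⟨i, -, rfl⟩ := hζ.eq_pow_of_pow_eq_one hμ
    rw [map_pow, ← ha, ← pow_mul, ← pow_mul, mul_comm]

end FermatLib.MLT.Odd
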