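/-
A system with a new point of level exactly divisible by `p` is strictly ordinary at `p`.
-/
import Fermat.Agent.MLT.Odd.SystemNotStrict
import Fermat.Agent.MLT.Odd.SystemLocalPStrict

/-!
# Systems whose point is new at `p` are strictly ordinary at `p`

The representation of the point is strictly ordinary; strictness of an ordinary representation
descends along an injective change of coefficients, as the square of the value of Frobenius on the
quotient by the line does not see the coefficients.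
-/

set_option autoImplicit false
set_option linter.style.haveILetI false

noncomputable section

namespace FermatLib.MLT.Odd

open IsLocalRing FermatLib.Galois FermatLib.Galois.DeformLocal FermatLib.MLT.HeckeRep CuspForm
  ModularCurve
open scoped TensorProduct

local notation "Qbar" => AlgebraicClosure ℚ
local notation "Γℚ" => (AlgebraicClosure ℚ ≃ₐ[ℚ] AlgebraicClosure ℚ)

section Descend

variable {A B : Type} [CommRing A] [IsLocalRing A] [CommRing B] [IsLocalRing B] {p : ℕ}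

/-- An exponent prime to `p` is a unit where `p` is not. -/
theorem isUnit_natCast_of_not_dvd (hp : p.Prime) (hpA : (p : A) ∈ maximalIdeal A) {a : ℕ}
    (ha : ¬ p ∣ a) : IsUnit (a : A) := by
  by_contra hu
  obtain ⟨u, v, huv⟩ := Int.isCoprime_iff_nat_coprime.2
    (show (a : ℤ).natAbs.Coprime (p : ℤ).natAbs by
      simpa using ((hp.coprime_iff_not_dvd).2 ha).symm)
  refine (maximalIdeal.isMaximal A).ne_top ((Ideal.eq_top_iff_one _).2 ?_)
  have h1 : ((u * a + v * p : ℤ) : A) = 1 := by rw [huv, Int.cast_one]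
  rw [← h1]
  push_cast
  exact add_mem (Ideal.mul_mem_left _ _ ((mem_maximalIdeal _).2 hu)) (Ideal.mul_mem_left _ _ hpA)

/-- Scalars `x`, `z` of a strictly ordinary line with cyclotomic determinant have `z ^ 2 = 1`. -/
theorem sq_eq_one_of_strict_scalars [IsNoetherianRing A] (hp : p.Prime) {ρ : GaloisRepAdic A}
    (hdet : ρ.DetIsCyclotomic p) {σ : Γℚ} {x z : A} (hd : LinearMap.det (ρ.ρ σ) = x * z)
    (hc : ∀ (n a : ℕ), (∀ μ : Qbar, μ ^ p ^ n = 1 → σ μ = μ ^ a) →
      x - (a : A) * z ∈ Ideal.span {((p ^ n : ℕ) : A)}) : z ^ 2 = 1 := by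
  rw [← sub_eq_zero, ← Ideal.mem_bot, ← Ideal.iInf_pow_eq_bot_of_isLocalRing (maximalIdeal A)
    (maximalIdeal.isMaximal A).ne_top]
  refine Ideal.mem_iInf.mpr fun n => ?_
  obtain ⟨a, hpa, ha⟩ := exists_exponent_coprime (p := p) hp σ n
  have h1 := hdet.2 (n + 1) σ a ha
  rw [hd] at h1
  have h3 : (a : A) * (z ^ 2 - 1) ∈ Ideal.span {((p ^ (n + 1) : ℕ) : A)} := by
    rw [show (a : A) * (z ^ 2 - 1) = (x * z - (a : A)) - z * (x - (a : A) * z) by ring]
    exact sub_mem h1 (Ideal.mul_mem_left _ _ (hc (n + 1) a ha))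
  have hle : Ideal.span {((p ^ (n + 1) : ℕ) : A)} ≤ maximalIdeal A ^ n := by
    rw [Ideal.span_singleton_le_iff_mem, Nat.cast_pow]
    exact Ideal.pow_le_pow_right n.le_succ (Ideal.pow_mem_pow hdet.1 _)
  exact (Ideal.unit_mul_mem_iff_mem _ (isUnit_natCast_of_not_dvd hp hdet.1 hpa)).1 (hle h3)

/-- Some inertia element at `p` has determinant different from `1`. -/
theorem exists_inertia_det_ne_one (hp : p.Prime) (hp2 : p ≠ 2) {ρ : GaloisRepAdic A}
    (hdet : ρ.DetIsCyclotomic p) {P : ValuationSubring Qbar} (hP : P.LiesOverPrime p) :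
    ∃ τ ∈ P.inertiaSubgroupIn ℚ, LinearMap.det (ρ.ρ τ) ≠ 1 := by
  obtain ⟨τ, hτ, ζ, hζ, hne⟩ := Ordinary.exists_inertia_apply_root_ne hp hp2 hP
  refine ⟨τ, hτ, fun h1 => ?_⟩
  obtain ⟨a, -, ha⟩ := exists_exponent_coprime (p := p) hp τ 0
  have h2 := hdet.2 (0 + 1) τ a ha
  rw [h1, zero_add, pow_one] at h2
  have h3 : (1 : A) - (a : A) ∈ maximalIdeal A :=
    (Ideal.span_singleton_le_iff_mem (maximalIdeal A)).2 hdet.1 h2
  have hdvd : (p : ℤ) ∣ 1 - (a : ℤ) := by
    by_contra hndvd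
    obtain ⟨u, v, huv⟩ := (Prime.coprime_iff_not_dvd (Nat.prime_iff_prime_int.1 hp)).2 hndvd
    refine (maximalIdeal.isMaximal A).ne_top ((Ideal.eq_top_iff_one _).2 ?_)
    rw [← Int.cast_one, ← huv]
    push_cast
    exact add_mem (Ideal.mul_mem_left _ _ hdet.1) (Ideal.mul_mem_left _ _ h3)
  refine hne ?_
  rw [ha ζ (by rw [zero_add, pow_one, hζ.pow_eq_one])]
  have hmod : a % p = 1 % p := by
    have h := (Nat.modEq_iff_dvd.2 (show ((p : ℕ) : ℤ) ∣ ((1 : ℕ) : ℤ) - (a : ℤ) by simpa using hdvd) :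
      a ≡ 1 [MOD p])
    exact h
  conv_lhs => rw [← Nat.mod_add_div a p, hmod, Nat.mod_eq_of_lt hp.one_lt, pow_add, pow_mul,
    hζ.pow_eq_one, one_pow, pow_one, mul_one]

/-- **Strictness of an ordinary representation descends along an injection of coefficients.** -/
theorem isStrictOrdinaryAt_of_baseChange [IsNoetherianRing A] [IsDomain B] [IsNoetherianRing B]
    (hp : p.Prime) (hp2 : p ≠ 2) (φ : A →+* B) (hφ : IsLocalHom φ) (hinj : Function.Injective φ)
    {ρ : GaloisRepAdic A} (hdet : ρ.DetIsCyclotomic p) (hord : ρ.IsOrdinaryAt p)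
    (h : (ρ.baseChangeAlong φ hφ).IsStrictOrdinaryAt p) : ρ.IsStrictOrdinaryAt p := by
  refine Ordinary.isStrictOrdinaryAt_of_sq hp hdet hord fun P hP F hF b hD hI => ?_
  letI : Algebra A B := φ.toAlgebra
  have hdetB : (ρ.baseChangeAlong φ hφ).DetIsCyclotomic p :=
    detIsCyclotomic_baseChange _ hφ hdet
  obtain ⟨L, ⟨c, hc⟩, -, hLI, hxz⟩ := h.2 P hP
  have hFD := hF.mem_decompositionSubgroup
  obtain ⟨x', z', hx', hz', hcyc⟩ := hxz F hFD
  obtain ⟨xF, hxF⟩ := Submodule.mem_span_singleton.mp (hD F hFD)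
  obtain ⟨τ, hτ, hτne⟩ := exists_inertia_det_ne_one hp hp2 hdet hP
  obtain ⟨xτ, hxτ⟩ := Submodule.mem_span_singleton.mp
    (hD τ (inertiaSubgroupIn_le_decompositionSubgroup hτ))
  have hxτdet : LinearMap.det (ρ.ρ τ) = xτ := by
    rw [MLT.det_eq_mul_of_triangular b _ hxτ.symm (z := 1)
      (by rw [one_smul]; exact hI τ hτ (b 1)), mul_one]
  -- the image of the line lies in the strict one
  let bB : Module.Basis (Fin 2) B (B ⊗[A] ρ.V) := Algebra.TensorProduct.basis B b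
  let L' : Submodule B (B ⊗[A] ρ.V) := L
  have hLI' : ∀ v : B ⊗[A] ρ.V, (ρ.ρ τ).baseChange B v - v ∈ L' := fun v => hLI τ hτ v
  have hx'' : ∀ w ∈ L', (ρ.ρ F).baseChange B w = x' • w := hx'
  have hsm : ∀ a : A, ((1 : B) ⊗ₜ[A] (a • b 0)) = φ a • ((1 : B) ⊗ₜ[A] b 0) := fun a => by
    rw [TensorProduct.tmul_smul, ← algebraMap_smul B a]
    rfl
  have hw : φ (xτ - 1) • ((1 : B) ⊗ₜ[A] b 0) ∈ L' := by
    have h1 := hLI' ((1 : B) ⊗ₜ[A] b 0)
    have h2 : φ (xτ - 1) • ((1 : B) ⊗ₜ[A] b 0) =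
        (ρ.ρ τ).baseChange B ((1 : B) ⊗ₜ[A] b 0) - (1 : B) ⊗ₜ[A] b 0 := by
      rw [LinearMap.baseChange_tmul, ← hxτ, hsm, map_sub, map_one]
      exact (sub_smul (φ xτ) (1 : B) ((1 : B) ⊗ₜ[A] b 0)).trans (congrArg (fun y => φ xτ • ((1 : B) ⊗ₜ[A] b 0) - y) (one_smul B _))
    rw [h2]
    exact h1
  have hne : φ (xτ - 1) ≠ 0 := by
    rw [map_ne_zero_iff φ hinj, sub_ne_zero]
    exact hxτdet ▸ hτne
  have hxx : φ xF = x' := by
    have h1 := hx'' _ hw
    have h2 : (ρ.ρ F).baseChange B (φ (xτ - 1) • ((1 : B) ⊗ₜ[A] b 0)) =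
        φ (xτ - 1) • (φ xF • ((1 : B) ⊗ₜ[A] b 0)) := by
      rw [map_smul, LinearMap.baseChange_tmul, ← hxF, hsm]
    have h3 := h2.symm.trans h1
    rw [show ((1 : B) ⊗ₜ[A] b 0) = bB 0 by simp [bB]] at h3
    have h4 := congrArg (fun y : B ⊗[A] ρ.V => bB.repr y 0) h3
    simp only [map_smul, Finsupp.smul_apply, Module.Basis.repr_self, Finsupp.single_eq_same,
      smul_eq_mul, mul_one] at h4
    exact mul_left_cancel₀ hne (h4.trans (mul_comm _ _))
  -- the determinants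
  set zF := b.repr (ρ.ρ F (b 1)) 1 with hzF
  have hz1 : ρ.ρ F (b 1) - zF • b 1 ∈ A ∙ b 0 := by
    refine Submodule.mem_span_singleton.mpr ⟨b.repr (ρ.ρ F (b 1)) 0, eq_sub_of_add_eq ?_⟩
    conv_rhs => rw [← b.sum_repr (ρ.ρ F (b 1)), Fin.sum_univ_two]
  have hdF : LinearMap.det (ρ.ρ F) = xF * zF := MLT.det_eq_mul_of_triangular b _ hxF.symm hz1
  have hdB : LinearMap.det ((ρ.baseChangeAlong φ hφ).ρ F) = x' * z' :=
    MLT.det_eq_mul_of_triangular c _ (hx' _ (hc ▸ Submodule.mem_span_singleton_self _))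
      (hc ▸ hz' (c 1))
  have hdB' : LinearMap.det ((ρ.baseChangeAlong φ hφ).ρ F) = φ xF * φ zF := by
    rw [← map_mul, ← hdF]
    exact LinearMap.det_baseChange (A := B) (ρ.ρ F)
  have hunit : IsUnit (x' * z') := hdB ▸ ((Group.isUnit F).map _).map LinearMap.det
  have hzz : φ zF = z' := by
    rw [hxx, hdB] at hdB'
    exact mul_left_cancel₀ (fun h0 => hunit.ne_zero (by rw [h0, zero_mul])) hdB'.symm
  refine hinj ?_
  rw [map_pow, hzz, map_one]
  exact sq_eq_one_of_strict_scalars hp hdetB hdB hcyc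

end Descend

variable {O : Type} [CommRing O] [IsDomain O] [IsDiscreteValuationRing O] {p : ℕ}
  {ρbar : ResidualGaloisRep (ResidueField O)} {S : OddPrimes p ρbar} {Q : Finset ℕ}

/-- **A system whose point of level exactly divisible by `p` is new at `p` is strictly ordinary
at `p`.** -/
theorem OddSystem.isStrictOrdinaryAt_of_newPoint [IsAdicComplete (maximalIdeal O) O]
    [Finite (ResidueField O)] [Fact p.Prime] (hp2 : p ≠ 2) (hpO : (p : O) ∈ maximalIdeal O)
    (habs : ρbar.IsAbsolutelyIrreducible)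
    (hdetbar : (GaloisRepAdic.ofResidualGaloisRep ρbar).DetIsCyclotomic p)
    (hord : (GaloisRepAdic.ofResidualGaloisRep ρbar).IsOrdinaryAt p)
    {M : ℕ} [NeZero p] [NeZero M] (hpM : ¬ p ∣ M) (hR : Ordinary.HasStrictReductionKernel p M)
    {E : Finset ℕ} (hpE : p ∈ E) (hNE : ∀ q : ℕ, q.Prime → q ∣ p * M → q ∈ E)
    (x : OddSystem S Q) (hordx : x.r.IsOrdinaryAt p)
    (χ₀ : heckeAlgebra (p * M) 2 (E : Set ℕ) →+* x.O')
    (htr : ∀ (ℓ : ℕ) (hℓ : ℓ.Prime) (hℓN : ¬ ℓ ∣ p * M) (hℓE : ℓ ∉ (E : Set ℕ)),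
      ∀ P : ValuationSubring Qbar, P.LiesOverPrime ℓ → ∀ σ : Γℚ, P.IsFrobeniusAt σ ℓ →
        x.r.trace σ = χ₀ (heckeAlgebra.T hℓ hℓN hℓE))
    (hnew : IsNewPointAt p M χ₀) : x.r.IsStrictOrdinaryAt p := by
  have hp : p.Prime := Fact.out
  obtain ⟨L⟩ := nonempty_pointLift padicAttachment hp2 hpO habs hdetbar hpE hNE
    (pointInputs_level (p * M) hp2 fun M' _ _ hNM _ => by
      obtain rfl : M = M' := Nat.eq_of_mul_eq_mul_left hp.pos hNM
      exact hR.hasReductionKernel) χ₀ fun ℓ hℓ hℓN hℓE P hP σ hσ => by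
      rw [← htr ℓ hℓ hℓN hℓE P hP σ hσ, x.residue_trace]
  set φ := L.ι.toRingHom with hφdef
  have hloc : IsLocalHom φ := isLocalHom_of_injective_algHom L.ι L.ι_injective
  let f : ResidueField O →+* ResidueField L.O' := ResidueField.map (algebraMap O L.O')
  have hfloc : IsLocalHom f := inferInstance
  have hirr : L.r.residual.IsAbsolutelyIrreducible :=
    isAbsolutelyIrreducible_of_trace_eq ((isAbsolutelyIrreducible_baseChangeAlong_iff f ρbar).2
      habs) fun σ => by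
      rw [trace_residual, L.residue_trace]
      letI : Algebra (ResidueField O) (ResidueField L.O') := f.toAlgebra
      exact LinearMap.trace_baseChange (ρbar.ρ σ) (ResidueField L.O')
  obtain ⟨e⟩ := L.isLiftOf
  have hres : (GaloisRepAdic.ofResidualGaloisRep L.r.residual).IsOrdinaryAt p :=
    OrdinaryCondition.isOrdinaryAt_of_isEquiv
      (ρ := GaloisRepAdic.ofResidualGaloisRep (ρbar.baseChangeAlong f))
      ⟨⟨e.toLinearEquiv.symm, fun σ x => e.symm.map_apply σ x⟩⟩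
      (OrdinaryCondition.isOrdinaryAt_baseChange hp hp2 f hfloc hdetbar hord)
  have hp𝒪 : (p : L.O') ∈ maximalIdeal L.O' := by
    rw [← map_natCast (algebraMap O L.O')]
    exact map_nonunit _ _ hpO
  -- the representation of the point is strict
  have hnew' : IsNewPointAt p M (φ.comp χ₀) := by
    obtain ⟨t, ht0, htχ⟩ := hnew
    exact ⟨t, ht0, fun h0 => htχ (L.ι_injective (h0.trans (map_zero φ).symm))⟩
  have hstrict : L.r.IsStrictOrdinaryAt p :=
    isStrictOrdinaryAt_point_new (𝒪 := L.O') padicAttachment hp2 hp𝒪 hpE hNE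
      (χ₀ := φ.comp χ₀) (fun ℓ hℓ hℓN hℓS P hP σ hσ => L.charpoly_frob ℓ hℓ hℓN hℓS P hP σ hσ)
      hirr Function.injective_id hpM (torsionGaloisInputs_level (p * M) p)
      (hasModelAt_pointLevel M p hpM) hR hres hnew'
  have he : L.r.IsEquiv (x.r.baseChangeAlong φ hloc) := by
    refine adic_isEquiv_of_charpoly_eq hirr
      (adic_charpoly_eq_of_frobenius _ _ (insert p E) fun ℓ hℓ hℓE P hP σ hσ => ?_)
    rw [Finset.mem_insert, not_or] at hℓE
    have hℓN : ¬ ℓ ∣ p * M := fun h => hℓE.2 (hNE ℓ hℓ h)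
    rw [adic_charpoly_eq, adic_charpoly_eq, det_frobenius _ hp L.det hℓ hℓE.1 hP hσ,
      det_frobenius _ hp (detIsCyclotomic_baseChange _ hloc x.lift.det) hℓ hℓE.1 hP hσ,
      trace_baseChangeAlong_apply, htr ℓ hℓ hℓN hℓE.2 P hP σ hσ, L.trace_frob hℓ hℓN hℓE.2 hP hσ]
    rfl
  obtain ⟨e'⟩ := he
  exact isStrictOrdinaryAt_of_baseChange hp hp2 φ hloc L.ι_injective x.lift.det hordx
    (isStrictOrdinaryAt_of_equiv e' hstrict)

end FermatLib.MLT.Odd

end
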