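import Fermat.Agent.MLT.Odd.SupplyPEigen
import Fermat.Agent.MLT.Odd.SupplyPNewPoint
import Fermat.Agent.MLT.Odd.RaiseCokerFields
import Fermat.Agent.MLT.Odd.SystemStrictDescend

/-!
# The cokernel of raising at `p`

An element of the Hecke algebra of the full module vanishing at the strictly ordinary systems maps
the module into any stable submodule with torsion-free quotient on which the twisted `U_p` has
square one.
-/

set_option autoImplicit false
set_option linter.style.haveILetI false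

noncomputable section

namespace FermatLib.MLT.Odd

open IsLocalRing
open scoped TensorProduct

variable {O : Type} [CommRing O] [IsDomain O] [IsDiscreteValuationRing O]
  [IsAdicComplete (maximalIdeal O) O] [Finite (ResidueField O)] [CharZero O] {p : ℕ}
  [Fact p.Prime] {ρbar : ResidualGaloisRep (ResidueField O)} {S : OddPrimes p ρbar}
  {tp : S.TamePairs} {P : SupplyParams S tp} {Q : Finset ℕ} {r e : ℕ}

namespace SupplyLevel

variable (C : SupplyLevel P Q r e)

attribute [local instance] FermatLib.Modular.Corr.neZero_mul'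

/-- A system carrying an eigenvector with twisted `U_p ^ 2 = 1` is strictly ordinary at `p`. -/
theorem isStrictOrdinaryAt_of_eigen (hp2 : p ≠ 2) (hpO : (p : O) ∈ maximalIdeal O)
    (hres : OddResidual p ρbar) (hc : S.pCase = PCase.mixed) (Y : SupplySystems C .std) (j : Y.κ)
    {F : Type} [Field F] [IsAlgClosed F] [Algebra O F] (ι' : (Y.y j).O' →+* F)
    (hι : Function.Injective ι') (hιd : ∀ d : O, ι' (algebraMap O _ d) = algebraMap O F d)
    (α : F) (hα : α ^ 2 = 1) (v : F ⊗[O] C.Mod .std) (hv : v ≠ 0)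
    (ht : ∀ t : C.hecke .std,
      (t : Module.End O (C.Mod .std)).baseChange F v = ι' (Y.ev j t) • v)
    (hu : (C.usEnd p).baseChange F v = α • v) : (Y.y j).r.IsStrictOrdinaryAt p := by
  have hp : p.Prime := Fact.out
  have hs : S.HasOld p := Or.inr ⟨rfl, hc⟩
  haveI : CharZero F := charZero_of_injective_ringHom hι
  let χ : C.hecke .std →ₐ[O] F :=
    { ι'.comp (Y.ev j).toRingHom with
      commutes' := fun d => by
        show ι' (Y.ev j (algebraMap O (C.hecke .std) d)) = _
        rw [AlgHom.commutes, hιd] }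
  obtain ⟨Qs, hQs, hθ⟩ :=
    C.exists_point_of_eigen hp2 hpO hres hs (hs.kap_eq_one_iff.2 (Or.inl rfl)) χ α v hv ht hu
  set M := C.level (.old p) * ∏ q ∈ Qs, q with hM
  have hQp : ∀ q ∈ Qs, q.Prime ∧ q ≠ p ∧ q ∣ C.level .std := fun q hq => by
    obtain ⟨i, rfl⟩ := hQs q hq
    exact ⟨C.prime i, fun h => C.notMem i (by rw [h]; exact Finset.mem_insert_self _ _),
      C.qv_dvd_level .std i⟩
  haveI : NeZero M := ⟨mul_ne_zero (NeZero.ne _)
    (Finset.prod_ne_zero_iff.2 fun q hq => (hQp q hq).1.ne_zero)⟩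
  haveI : NeZero p := ⟨hp.ne_zero⟩
  have hpM : ¬ p ∣ M := fun h => by
    rcases hp.dvd_mul.1 h with h | h
    · exact C.not_dvd_level_old hs h
    · obtain ⟨q, hq, hd⟩ := (hp.prime.dvd_finsetProd_iff _).1 h
      exact (hQp q hq).2.1 ((Nat.prime_dvd_prime_iff_eq hp (hQp q hq).1).1 hd).symm
  have hN : p * M = C.level .std * ∏ q ∈ Qs, q := by
    rw [hM, C.level_std_eq hs]
    ring
  obtain ⟨θ, hθU, hθT⟩ := hθ (p * M) (dvd_mul_right p M) hN
  set E := C.exc .std with hE
  have hpE : p ∈ E := Nat.mem_primeFactors.2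
    ⟨hp, dvd_mul_right _ _, mul_ne_zero hp.ne_zero (NeZero.ne _)⟩
  have hNE : ∀ q : ℕ, q.Prime → q ∣ p * M → q ∈ E := fun q hq hd => by
    refine Nat.mem_primeFactors.2 ⟨hq, Dvd.dvd.mul_left ?_ p,
      mul_ne_zero hp.ne_zero (NeZero.ne _)⟩
    rw [hN] at hd
    rcases hq.dvd_mul.1 hd with hd | hd
    · exact hd
    · obtain ⟨s, hs', hsd⟩ := (hq.prime.dvd_finsetProd_iff _).1 hd
      rw [(Nat.prime_dvd_prime_iff_eq hq (hQp s hs').1).1 hsd]
      exact (hQp s hs').2.2
  have hle := CuspForm.heckeAlgebra_mono (N := p * M) (k := 2) (Set.empty_subset (↑E : Set ℕ))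
  let θE : CuspForm.heckeAlgebra (p * M) 2 (↑E : Set ℕ) →+* F :=
    θ.comp (Subalgebra.inclusion hle).toRingHom
  have hval : ∀ t, θE t ∈ ι'.range := by
    rintro ⟨t, ht'⟩
    induction ht' using Algebra.adjoin_induction with
    | mem u hu' =>
      rcases hu' with ⟨ℓ, hℓ, hℓN, hℓE, rfl⟩ | ⟨q, hqN, hq, hqE, rfl⟩
      · exact ⟨Y.ev j (C.tElt .std ℓ),
          (hθT ℓ hℓ hℓN fun h => hℓE (Finset.mem_coe.2 h)).symm⟩
      · exact absurd (Finset.mem_coe.2 (hNE q hq hqN)) hqE
    | algebraMap n => exact ⟨(n : (Y.y j).O'), (map_intCast ι' n).trans (map_intCast θE n).symm⟩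
    | add u w hu' hw' ihu ihw =>
      show θE (⟨u, hu'⟩ + ⟨w, hw'⟩) ∈ ι'.range
      rw [map_add]
      exact add_mem ihu ihw
    | mul u w hu' hw' ihu ihw =>
      show θE (⟨u, hu'⟩ * ⟨w, hw'⟩) ∈ ι'.range
      rw [map_mul]
      exact mul_mem ihu ihw
  let eι := RingEquiv.ofBijective ι'.rangeRestrict
    ⟨fun x y h => hι (congrArg Subtype.val h), ι'.rangeRestrict_surjective⟩
  let χ₀ : CuspForm.heckeAlgebra (p * M) 2 (↑E : Set ℕ) →+* (Y.y j).O' :=
    eι.symm.toRingHom.comp (θE.codRestrict ι'.range hval)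
  have hχ₀ : ∀ t, ι' (χ₀ t) = θE t := fun t =>
    congrArg Subtype.val (eι.apply_symm_apply (θE.codRestrict ι'.range hval t))
  have hord : (Y.y j).r.IsOrdinaryAt p := by
    have h := (Y.y j).lift.at_p
    rw [hc] at h
    exact h
  refine (Y.y j).isStrictOrdinaryAt_of_newPoint hp2 hpO hres.absIrred hres.det
    (S.strict_p (by rw [hc]; decide)).isOrdinaryAt hpM (hasStrictReductionKernel_holds hpM)
    hpE hNE hord χ₀ (fun ℓ hℓ hℓN hℓE A hA σ hσ => hι ?_)
    (isNewPointAt_of_U_sq hpM θ (by rw [hθU, hα]) ι' χ₀ hNE fun ℓ hℓ hℓN hℓE => hχ₀ _)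
  rw [Y.t_spec j ℓ hℓ (fun h => hℓE (Finset.mem_coe.2 h)) A hA σ hσ, hχ₀]
  exact (hθT ℓ hℓ hℓN fun h => hℓE (Finset.mem_coe.2 h)).symm

/-- **What vanishes at the strictly ordinary systems kills the cokernel at `p`.** -/
theorem smul_mem_of_strict (hp2 : p ≠ 2) (hpO : (p : O) ∈ maximalIdeal O)
    (hres : OddResidual p ρbar) (hc : S.pCase = PCase.mixed) (Y : SupplySystems C .std)
    (N : Submodule O (C.Mod .std))
    (hstable : ∀ (T : BettiHeckeAlg (DiamondRing O C.Δ)) (m : C.Mod .std), m ∈ N → T • m ∈ N)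
    (htf : ∀ d : O, d ≠ 0 → ∀ m : C.Mod .std, d • m ∈ N → m ∈ N)
    (hsq : ∀ m : C.Mod .std, C.opT (.old p) p ^ 2 • m - m ∈ N)
    (z : C.hecke .std) (hz : ∀ j, (Y.y j).r.IsStrictOrdinaryAt p → Y.ev j z = 0)
    (m : C.Mod .std) : z • m ∈ N := by
  obtain ⟨hfree, hfin, -, -⟩ := C.free_mod hp2 hpO .std
  haveI := hfree
  haveI := hfin
  haveI := C.finite_Δ
  haveI : Module.Finite O (DiamondRing O C.Δ) := inferInstance
  haveI : Module.Finite O (C.Mod .std) := Module.Finite.trans (DiamondRing O C.Δ) _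
  haveI : Module.Free O (C.Mod .std) := Module.Free.trans (S := DiamondRing O C.Δ)
  let A : SystemModule Y.y :=
    { M := C.Mod .std
      T := C.hecke .std
      κ := Y.κ
      sys := id
      ev := Y.ev
      ev_inj := Y.ev_inj
      E := C.exc .std
      t := C.tElt .std
      t_spec := Y.t_spec }
  have hR : ∀ t : C.hecke .std, ∃ R : C.polys .std, ∀ w : C.Mod .std,
      t • w = (R : BettiHeckeAlg (DiamondRing O C.Δ)) • w := by
    rintro ⟨-, R, rfl⟩
    exact ⟨R, fun w => rfl⟩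
  let Nt : Submodule A.T A.M :=
    { carrier := (N : Set (C.Mod .std))
      add_mem' := fun ha hb => N.add_mem ha hb
      zero_mem' := N.zero_mem
      smul_mem' := fun t w hw => by
        obtain ⟨R, hR⟩ := hR t
        show t • w ∈ N
        rw [hR]
        exact hstable _ _ hw }
  let u : Module.End A.T A.M :=
    { toFun := fun w => C.opT (.old p) p • w
      map_add' := fun a b => smul_add _ a b
      map_smul' := fun t w => by
        obtain ⟨R, hR⟩ := hR t
        show C.opT (.old p) p • t • w = t • C.opT (.old p) p • w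
        rw [hR, hR, smul_comm] }
  refine A.smul_mem_of_eigen Nt htf u (fun w hw => hstable _ _ hw) 1 (fun w => ?_)
    (fun F _ _ _ j ι' α v hι hιd hv ht hu hα => hz j ?_) m
  · show C.opT (.old p) p • C.opT (.old p) p • w - (1 : O) • w ∈ N
    rw [one_smul, smul_smul, ← sq]
    exact hsq w
  · exact C.isStrictOrdinaryAt_of_eigen hp2 hpO hres hc Y j ι' hι hιd α
      (by rw [hα, map_one]) v hv ht hu

end SupplyLevel

end FermatLib.MLT.Odd

end
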