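import Fermat.Agent.MLT.Odd.SupplyRaiseMaps
import Fermat.Agent.MLT.Odd.SupplyRaiseP
import Fermat.Agent.MLT.Odd.SupplyCokerF

/-!
# Raising maps between the old and the full modules
-/

set_option autoImplicit false

noncomputable section

namespace FermatLib.MLT.Odd

open IsLocalRing

variable {O : Type} [CommRing O] [IsDomain O] [IsDiscreteValuationRing O]
  [IsAdicComplete (maximalIdeal O) O] [Finite (ResidueField O)] [CharZero O] {p : ℕ}
  [Fact p.Prime] {ρbar : ResidualGaloisRep (ResidueField O)} {S : OddPrimes p ρbar}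
  {tp : S.TamePairs} {P : SupplyParams S tp} {Q : Finset ℕ} {r e : ℕ}

set_option genSizeOf false in
set_option genInjectivity false in
/-- The raising maps at a prime `s` with an old module. -/
structure SupplyRaise {C : SupplyLevel P Q r e} (Y : SupplySystems C .std) (s : ℕ) : Type where
  up : (Fin (S.kap s) → C.Mod (.old s)) →ₗ[O] C.Mod .std
  up_t : ∀ ℓ : ℕ, ℓ.Prime → ℓ ∉ C.exc (.old s) ∪ C.exc .std → ∀ v,
    up (fun a => C.tElt (.old s) ℓ • v a) = C.tElt .std ℓ • up v
  up_injective_mod : ∀ v, up v ∈ C.augIdeal • (⊤ : Submodule (DiamondRing O C.Δ) (C.Mod .std)) →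
    ∀ a, v a ∈ C.augIdeal • (⊤ : Submodule (DiamondRing O C.Δ) (C.Mod (.old s)))
  down : C.Mod .std →ₗ[O] (Fin (S.kap s) → C.Mod (.old s))
  down_t : ∀ ℓ : ℕ, ℓ.Prime → ℓ ∉ C.exc (.old s) ∪ C.exc .std → ∀ m a,
    down (C.tElt .std ℓ • m) a = C.tElt (.old s) ℓ • down m a
  down_surjective : s ∈ S.F → Function.Surjective down
  /-- `down ∘ up` is the Gram matrix: `(T'-ε(s+1))·w` for one copy, `(s+1, T'; T', s+1)` for
  two. -/
  down_up : s ∈ S.F → ∃ G : Matrix (Fin (S.kap s)) (Fin (S.kap s)) (C.hecke (.old s)),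
    (∀ v a, down (up v) a = ∑ b, G a b • v b) ∧
    ((S.kap s = 1 ∧ ∀ a b, ∃ w, G a b =
        (C.tElt (.old s) s - (S.ε s : C.hecke (.old s)) * ((s : C.hecke (.old s)) + 1)) * w) ∨
      (S.kap s = 2 ∧ ∀ a b, G a b =
        if a = b then (s : C.hecke (.old s)) + 1 else C.tElt (.old s) s))
  coker_F : ∀ hs : s ∈ S.F, ∀ z : C.hecke .std,
    (∀ j, Y.ev j z = (Y.y j).r.trace (tp.atF ⟨s, hs⟩).frob -
      (S.ε s : (Y.y j).O') * (((s : ℕ) : (Y.y j).O') + 1)) →
    ∀ m : C.Mod .std, z • m ∈ LinearMap.range up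
  coker_p : s = p → S.pCase = PCase.mixed → ∀ z : C.hecke .std,
    (∀ j, (Y.y j).r.IsStrictOrdinaryAt p → Y.ev j z = 0) →
    ∀ m : C.Mod .std, z • m ∈ LinearMap.range up

variable {C : SupplyLevel P Q r e} {s : ℕ}

/-- At a prime of `F` the kernel of the twisted `T s - ε (s + 1)` maps into the old part. -/
theorem SupplyRaiseCore.coker_F (hp2 : p ≠ 2) (hpO : (p : O) ∈ maximalIdeal O)
    (hres : OddResidual p ρbar) (D : SupplyRaiseCore C s) (Y : SupplySystems C .std)
    (hs : s ∈ S.F) (z : C.hecke .std)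
    (hz : ∀ j, Y.ev j z = (Y.y j).r.trace (tp.atF ⟨s, hs⟩).frob -
      (S.ε s : (Y.y j).O') * (((s : ℕ) : (Y.y j).O') + 1)) (m : C.Mod .std) :
    z • m ∈ LinearMap.range D.up :=
  D.smul_mem_range_F hp2 hpO hres Y hs z hz m

/-- At `p` what vanishes at the strictly ordinary systems maps into the old part. -/
theorem SupplyRaiseCore.coker_p (hp2 : p ≠ 2) (hpO : (p : O) ∈ maximalIdeal O)
    (hres : OddResidual p ρbar) (D : SupplyRaiseCore C s) (Y : SupplySystems C .std) (hsp : s = p)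
    (hc : S.pCase = PCase.mixed) (z : C.hecke .std)
    (hz : ∀ j, (Y.y j).r.IsStrictOrdinaryAt p → Y.ev j z = 0) (m : C.Mod .std) :
    z • m ∈ LinearMap.range D.up := by
  subst hsp
  exact C.smul_mem_of_strict hp2 hpO hres hc Y _ D.range_smul D.torsion_free D.sq_sub_mem z hz m

/-- **The raising maps exist.** -/
theorem nonempty_supplyRaise (hp2 : p ≠ 2) (hpO : (p : O) ∈ maximalIdeal O)
    (hres : OddResidual p ρbar) {C : SupplyLevel P Q r e} (Y : SupplySystems C .std) {s : ℕ}
    (hs : S.HasOld s) : Nonempty (SupplyRaise Y s) := by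
  obtain ⟨D⟩ := C.nonempty_supplyRaiseCore hp2 hpO hres hs
  exact ⟨{
    up := D.up
    up_t := D.up_t
    up_injective_mod := D.up_injective_mod
    down := D.down
    down_t := D.down_t
    down_surjective := D.down_surjective
    down_up := D.down_up
    coker_F := fun hs' z hz m => D.coker_F hp2 hpO hres Y hs' z hz m
    coker_p := fun hsp hc z hz m => D.coker_p hp2 hpO hres Y hsp hc z hz m }⟩

/-- In the mixed case the old part at `p` is proper. -/
theorem rank_old_p_lt (hp2 : p ≠ 2) (hpO : (p : O) ∈ maximalIdeal O) (hres : OddResidual p ρbar)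
    (hc : S.pCase = PCase.mixed) (P : SupplyParams S tp) :
    S.kap p * P.rank (.old p) < P.rank .std :=
  SupplyLevel.rank_old_p_lt' hp2 hpO hres hc P

end FermatLib.MLT.Odd
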