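import Fermat.Agent.MLT.Odd.SupplyEigenPoint
import Fermat.Agent.MLT.Odd.SupplyModulesRank
import Fermat.Agent.MLT.Odd.HeckeRepNonEisenstein

/-!
# The systems of the full module at level zero are of the level of the problem

At level zero the character and the diamonds are trivial, so the eigenclass of a point is one of
`Γ₀(S.level)` with trivial character; its values away from `p` and the level are traces of the
system and so lie in its coefficients.
-/

set_option autoImplicit false
set_option linter.style.haveILetI false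

noncomputable section

namespace FermatLib.MLT.Odd

open IsLocalRing MvPolynomial FermatLib.Modular.Twist

local notation "Γℚ" => (AlgebraicClosure ℚ ≃ₐ[ℚ] AlgebraicClosure ℚ)

variable {O : Type} [CommRing O] [IsDomain O] [IsDiscreteValuationRing O] {p : ℕ}
  [Fact p.Prime] {ρbar : ResidualGaloisRep (ResidueField O)} {S : OddPrimes p ρbar}

/-- A point of the full Hecke algebra of the level whose good values are traces of the system
makes it a system of the level. -/
theorem isSystemOfLevel_of_fullPoint {Q : Finset ℕ} (x : OddSystem S Q) {K : Type} [Field K]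
    {j : x.O' →+* K} (hj : Function.Injective j) {N : ℕ} [NeZero N] (hN : N = S.level)
    (θ : CuspForm.heckeAlgebra N 2 (∅ : Set ℕ) →+* K)
    (hθ : ∀ (ℓ : ℕ) (hℓ : ℓ.Prime) (hℓN : ¬ ℓ ∣ N), ℓ ∉ insert p (S.all : Set ℕ) →
      ∀ B : ValuationSubring (AlgebraicClosure ℚ), B.LiesOverPrime ℓ →
        ∀ σ : Γℚ, B.IsFrobeniusAt σ ℓ →
          θ (CuspForm.heckeAlgebra.T hℓ hℓN (Set.notMem_empty ℓ)) = j (x.r.trace σ)) :
    IsSystemOfLevel S x.r := by
  subst hN
  have hp : p.Prime := Fact.out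
  let incl := Subalgebra.inclusion (CuspForm.heckeAlgebra_mono (N := S.level) (k := 2)
    (Set.empty_subset (insert p (S.all : Set ℕ))))
  let θ₀ : CuspForm.heckeAlgebra S.level 2 (insert p (S.all : Set ℕ)) →+* K := θ.comp incl.toRingHom
  have hT : ∀ (ℓ : ℕ) (hℓ : ℓ.Prime) (hℓN : ¬ ℓ ∣ S.level) (hℓE : ℓ ∉ insert p (S.all : Set ℕ)),
      ∀ B : ValuationSubring (AlgebraicClosure ℚ), B.LiesOverPrime ℓ →
        ∀ σ : Γℚ, B.IsFrobeniusAt σ ℓ →
          θ₀ (CuspForm.heckeAlgebra.T hℓ hℓN hℓE) = j (x.r.trace σ) :=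
    fun ℓ hℓ hℓN hℓE B hB σ hσ => hθ ℓ hℓ hℓN hℓE B hB σ hσ
  have hlev : ∀ q : ℕ, q.Prime → q ∣ S.level → q ∈ insert p (S.all : Set ℕ) := fun q hq hd => by
    rw [OddPrimes.level] at hd
    rcases hq.dvd_mul.1 hd with h | h
    · obtain ⟨l, hl, hd'⟩ := (Prime.dvd_finsetProd_iff hq.prime _).1 h
      exact Set.mem_insert_of_mem _
        (((Nat.prime_dvd_prime_iff_eq hq (S.prime_of_mem l hl)).1 hd') ▸ hl)
    · split_ifs at h with hf
      · exact absurd (Nat.dvd_one.1 h) hq.ne_one
      · exact Set.mem_insert_iff.2 (Or.inl ((Nat.prime_dvd_prime_iff_eq hq hp).1 h))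
  have hmem : ∀ t, θ₀ t ∈ j.range := by
    rintro ⟨t, ht⟩
    induction ht using Algebra.adjoin_induction with
    | mem T hT' =>
      rcases hT' with ⟨ℓ, hℓ, hℓN, hℓE, rfl⟩ | ⟨q, hqN, hq, hqE, rfl⟩
      · obtain ⟨B, hB⟩ := Basic.exists_liesOverPrime hℓ
        obtain ⟨σ, hσ⟩ := Basic.exists_isFrobeniusAt hℓ B hB
        exact ⟨x.r.trace σ, (hT ℓ hℓ hℓN hℓE B hB σ hσ).symm⟩
      · exact absurd (hlev q hq hqN) hqE
    | algebraMap n =>
      exact ⟨(n : x.O'), by
        rw [map_intCast]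
        exact (map_intCast θ₀ n).symm⟩
    | add a b ha hb iha ihb =>
      have h := add_mem iha ihb
      rwa [← map_add] at h
    | mul a b ha hb iha ihb =>
      have h := mul_mem iha ihb
      rwa [← map_mul] at h
  let e := RingEquiv.ofBijective j.rangeRestrict
    ⟨fun a b hab => hj (congrArg Subtype.val hab), j.rangeRestrict_surjective⟩
  refine ⟨e.symm.toRingHom.comp (θ₀.codRestrict j.range hmem), fun ℓ hℓ hℓN hℓE B hB σ hσ => hj ?_⟩
  rw [← hT ℓ hℓ hℓN hℓE B hB σ hσ]
  exact (congrArg Subtype.val (e.apply_symm_apply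
    ⟨θ₀ (CuspForm.heckeAlgebra.T hℓ hℓN hℓE), hmem _⟩)).symm

variable [IsAdicComplete (maximalIdeal O) O] [Finite (ResidueField O)] [CharZero O]
  {tp : S.TamePairs} {P : SupplyParams S tp}

/-- Without auxiliary primes the systems of the full module are of the level `S.level`. -/
theorem isSystemOfLevel_of_noAux {Q : Finset ℕ} {e : ℕ} (hp2 : p ≠ 2)
    (hpO : (p : O) ∈ maximalIdeal O) (hres : OddResidual p ρbar) (C : SupplyLevel P Q 0 e)
    (Y : SupplySystems C .std) (j : Y.κ) : IsSystemOfLevel S (Y.y j).r := by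
  classical
  have hp : p.Prime := Fact.out
  let A : Type := (Y.y j).O'
  let K : Type := AlgebraicClosure (FractionRing A)
  have hj : Function.Injective (algebraMap A K) := by
    rw [IsScalarTower.algebraMap_eq A (FractionRing A) K]
    exact (FaithfulSMul.algebraMap_injective (FractionRing A) K).comp
      (IsFractionRing.injective A (FractionRing A))
  haveI : CharZero K := charZero_of_injective_ringHom hj
  have hlevel : C.level .std = S.level := by
    rw [SupplyLevel.level, Finset.univ_eq_empty, Finset.prod_empty, mul_one]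
    rfl
  have hcd : ∀ d, (charDiamond O (C.char .std) (C.delta .std) d : DiamondRing O C.Δ) = 1 :=
    fun d => by
      rw [coe_charDiamond, show C.delta .std d = 1 from funext fun i => i.elim0, map_one, mul_one]
      show algebraMap O (DiamondRing O C.Δ) ((1 : (ZMod (C.level .std))ˣ →* Oˣ) d : O) = 1
      rw [MonoidHom.one_apply, Units.val_one, map_one]
  have hlne : ¬ (P.lne : ℕ) ∣ C.level .std := fun h =>
    P.lne_good ((hlevel ▸ h).mul_left p)
  obtain ⟨-, ψ, lam, y, hy, heig, -, -, -, -, hψT⟩ := C.exists_eigenclass_point .std hpO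
    (by rw [SupplyLevel.char]; rfl) (funext fun i => i.elim0)
    (C.ellipticHarmless_theta hp2 hpO .std) P.lne (Or.inl P.lne_good)
    (by
      rw [C.theta_const, residue_heckeDegree (fun d => by
          rw [C.char_eq_baseChar, MonoidHom.comp_apply]; exact residue_baseChar hpO _ _) P.lne hlne,
        SupplyLevel.theta, residualRaiseSet_X_of_notMem _ _ C.lne_notMem,
        baseTheta_X_of_not_dvd P _ P.lne_good]
      exact P.lne_spec)
    ((algebraMap A K).comp (Y.ev j).toRingHom)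
  have hlam : ∀ (ℓ : ℕ) (hℓ : ℓ.Prime), ℓ ≠ p → ¬ ℓ ∣ C.level .std →
      ∀ B : ValuationSubring (AlgebraicClosure ℚ), B.LiesOverPrime ℓ →
        ∀ σ : Γℚ, B.IsFrobeniusAt σ ℓ →
          lam ⟨ℓ, hℓ⟩ = algebraMap A K ((Y.y j).r.trace σ) := by
    intro ℓ hℓ hℓp hℓN B hB σ hσ
    have hexc : ℓ ∉ C.exc .std := fun h => by
      rcases hℓ.dvd_mul.1 (Nat.mem_primeFactors.1 h).2.1 with h | h
      · exact hℓp ((Nat.prime_dvd_prime_iff_eq hℓ hp).1 h)
      · exact hℓN h
    have h1 := hψT ℓ hℓ hexc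
    rw [show C.twist .std ℓ = 1 by
      rw [SupplyLevel.twist, dif_pos (hℓ.coprime_iff_not_dvd.2 hℓN), hcd, one_pow],
      map_one, one_mul] at h1
    rw [h1, Y.t_spec j ℓ hℓ hexc B hB σ hσ]
    rfl
  haveI : NeZero (C.level .std * ∏ q ∈ (∅ : Finset ℕ), q) := ⟨by
    rw [Finset.prod_empty, mul_one]; exact NeZero.ne _⟩
  have hnE : ∃ l : Nat.Primes, ((l : ℕ) : ZMod (C.level .std * ∏ q ∈ (∅ : Finset ℕ), q)) = 1 ∧
      lam l ≠ (l : ℕ) + 1 := by
    obtain ⟨ℓ, hℓ, -, hℓN, hℓp, hℓ1, B, hB, σ, hσ, hne⟩ := HeckeRep.exists_frobenius_trace_ne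
      hres.absIrred hp hres.det (C.level .std * ∏ q ∈ (∅ : Finset ℕ), q) ∅
    refine ⟨⟨ℓ, hℓ⟩, hℓ1, fun he => hne ?_⟩
    rw [hlam ℓ hℓ hℓp (fun h => hℓN (h.mul_right _)) B hB σ hσ] at he
    have h2 : (Y.y j).r.trace σ = ((ℓ : A) + 1) :=
      hj (by rw [he, map_add, map_natCast, map_one])
    refine (ResidueField.map (algebraMap O A)).injective ?_
    rw [← (Y.y j).residue_trace σ, h2, map_add, map_natCast, map_one, map_add, map_natCast, map_one]
  obtain ⟨θ, hθT, -, -⟩ := exists_twist_point (Q := (∅ : Finset ℕ)) (ψ := fun _ => 1)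
    (fun q hq => absurd hq (Finset.notMem_empty q)) (fun q hq => absurd hq (Finset.notMem_empty q))
    (fun n hn => by
      show ψ (charDiamond O (C.char .std) (C.delta .std) (ZMod.unitOfCoprime n hn) :
        DiamondRing O C.Δ) * twistFactor (∅ : Finset ℕ) (fun _ => (1 : _ →* Kˣ)) n ^ 2 = 1
      rw [hcd, map_one, twistFactor, Finset.prod_empty, one_pow, one_mul])
    hy lam (fun l _ => (BettiMod.X_smul l y).symm.trans (heig l)) hnE
  refine isSystemOfLevel_of_fullPoint (Y.y j) hj
    (N := C.level .std * ∏ q ∈ (∅ : Finset ℕ), q)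
    (by rw [Finset.prod_empty, mul_one, hlevel]) θ fun ℓ hℓ hℓN hℓE B hB σ hσ => ?_
  rw [hθT ℓ hℓ hℓN, twistFactor, Finset.prod_empty, one_mul]
  exact hlam ℓ hℓ (fun h => hℓE (Set.mem_insert_iff.2 (Or.inl h))) (fun h => hℓN (h.mul_right _)) B hB σ hσ

/-- **The systems of the full module at level zero are of the level `S.level`.** -/
theorem supply_isSystemOfLevel_zero (hp2 : p ≠ 2) (hpO : (p : O) ∈ maximalIdeal O)
    (hres : OddResidual p ρbar) (Y : SupplySystems (SupplyLevel.zero P) .std) (j : Y.κ) :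
    IsSystemOfLevel S (Y.y j).r :=
  isSystemOfLevel_of_noAux hp2 hpO hres _ Y j

end FermatLib.MLT.Odd

end
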