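import Fermat.Agent.MLT.BettiBaseChange
import Fermat.Agent.MLT.BettiResidual
import Mathlib.LinearAlgebra.Pi
import Mathlib.RingTheory.Artinian.Module

/-!
# Localised Betti cohomology seen at the characters of the coefficients

For enough characters `A → K` to separate `A` the localised cohomology over `A` embeds in the
product of the localised cohomologies over `K`, and each of these is spanned by the image.
-/

set_option autoImplicit false
set_option linter.style.haveILetI false

noncomputable section

open scoped MatrixGroups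
open CongruenceSubgroup

namespace FermatLib.MLT.Odd

variable {O A K : Type} [CommRing O] [CommRing A] [Algebra O A] [Field K] [Algebra O K] {L : ℕ}
  {χ : (ZMod L)ˣ →* Aˣ} {S : Submonoid (BettiHeckeAlg A)}

/-- **Separation by the characters of the coefficients.** -/
theorem eq_zero_of_bettiLocReduce_eq_zero (hE : BettiNonEisenstein L χ S) [Finite (A →ₐ[O] K)]
    (hsep : ∀ a : A, (∀ σ : A →ₐ[O] K, σ a = 0) → a = 0) (x : BettiLoc L χ A S)
    (hx : ∀ σ : A →ₐ[O] K, (letI := σ.toRingHom.toAlgebra; bettiLocReduce K χ S x) = 0) :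
    x = 0 := by
  classical
  haveI := Fintype.ofFinite (A →ₐ[O] K)
  let V : Type := (A →ₐ[O] K) → K
  letI : Module A V := Module.compHom V (RingHom.pi fun σ : A →ₐ[O] K => σ.toRingHom)
  let F : A →ₗ[A] V := LinearMap.toSpanSingleton A V fun _ => 1
  have hF : ∀ a σ, F a σ = σ a := fun a σ => mul_one (σ a)
  have hFi : Function.Injective F := (injective_iff_map_eq_zero _).2 fun a ha =>
    hsep a fun σ => by rw [← hF, ha]; rfl
  refine BettiLoc.map_injective hE hFi ?_
  rw [map_zero]
  set y := BettiLoc.map S F x with hy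
  have hpart : ∀ σ : A →ₐ[O] K, ∃ P : V →ₗ[A] V, (∀ v τ, P v τ = if τ = σ then v σ else 0) ∧
      BettiLoc.map S P y = 0 := by
    intro σ
    letI := σ.toRingHom.toAlgebra
    let proj : V →ₗ[A] K :=
      { toFun := fun v => v σ, map_add' := fun _ _ => rfl, map_smul' := fun _ _ => rfl }
    let inc : K →ₗ[A] V :=
      { toFun := fun c τ => if τ = σ then c else 0
        map_add' := fun c d => funext fun τ => by
          show (if τ = σ then c + d else 0) = (if τ = σ then c else 0) + (if τ = σ then d else 0)
          by_cases h : τ = σ <;> simp [h]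
        map_smul' := fun a c => funext fun τ => by
          show (if τ = σ then σ a * c else 0) = τ a * (if τ = σ then c else 0)
          by_cases h : τ = σ <;> simp [h] }
    have hlin : proj.comp F = Algebra.linearMap A K := LinearMap.ext fun a => hF a σ
    have h := hx σ
    rw [bettiLocReduce_eq, ← hlin, BettiLoc.map_comp, ← hy,
      ← map_zero (bettiLocBaseMap K χ S K)] at h
    refine ⟨inc.comp proj, fun v τ => rfl, ?_⟩
    rw [BettiLoc.map_comp, (bettiLocBaseMap_bijective χ S K).1 h, map_zero]
  choose P hP hP0 using hpart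
  have hsum : ∑ σ, P σ = (LinearMap.id : V →ₗ[A] V) := LinearMap.ext fun v => funext fun τ => by
    rw [LinearMap.sum_apply, Finset.sum_apply, LinearMap.id_apply,
      Finset.sum_eq_single τ (fun σ _ hσ => by rw [hP, if_neg hσ.symm])
        (fun h => absurd (Finset.mem_univ τ) h), hP, if_pos rfl]
  rw [← BettiLoc.map_id (S := S) y, ← hsum, ← BettiLoc.mapLin_apply, map_sum, LinearMap.sum_apply]
  exact Finset.sum_eq_zero fun σ _ => by rw [BettiLoc.mapLin_apply, hP0]

section span

variable [Algebra A K]

/-- The multiple of the reduction of a class by a scalar. -/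
theorem bettiBaseEquiv_map_toSpanSingleton (c : K) (m : BettiMod L χ A) :
    bettiBaseEquiv (B := K) χ K (BettiMod.map (LinearMap.toSpanSingleton A K c) m) =
      c • bettiBaseEquiv (B := K) χ K (BettiMod.map (Algebra.linearMap A K) m) := by
  obtain ⟨z, rfl⟩ := BettiMod.mk_surjective m
  rw [BettiMod.map_mk, BettiMod.map_mk, bettiBaseEquiv_mk, bettiBaseEquiv_mk, ← map_smul]
  refine congrArg BettiMod.mk (Subtype.ext (funext fun γ => ?_))
  show (z : Gamma0 L → A) γ • c = c • algebraMap A K ((z : Gamma0 L → A) γ)
  rw [Algebra.smul_def, smul_eq_mul, mul_comm]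

/-- **The reductions span**: what kills the localised module over `A` kills it over `K`. -/
theorem map_smul_eq_zero_of_forall_smul_eq_zero [NeZero L] (hR : BettiRightExact L χ S)
    {P : BettiHeckeAlg A} (hP : ∀ x : BettiLoc L χ A S, P • x = 0)
    (w : BettiLoc L (bettiBaseChar K χ) K (S.map (MvPolynomial.map (algebraMap A K)))) :
    MvPolynomial.map (algebraMap A K) P • w = 0 := by
  classical
  induction w using LocalizedModule.induction_on with
  | h m s =>
  obtain ⟨z, rfl⟩ : ∃ z, bettiBaseEquiv (B := K) χ K z = m := ⟨_, LinearEquiv.apply_symm_apply _ m⟩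
  obtain ⟨c, rfl⟩ := BettiMod.mk_surjective z
  haveI := Modular.gamma0_fg L
  obtain ⟨S₀, hS₀, hS₀f⟩ := Group.fg_iff.1 ‹Group.FG (Gamma0 L)›
  haveI := hS₀f.fintype
  let V' : Submodule A K := Submodule.span A (Set.range fun g : S₀ => (c : Gamma0 L → K) g)
  have hval : ∀ γ, (c : Gamma0 L → K) γ ∈ V' := by
    intro γ
    have hγ : γ ∈ Subgroup.closure S₀ := by rw [hS₀]; exact Subgroup.mem_top γ
    induction hγ using Subgroup.closure_induction with
    | mem g hg => exact Submodule.subset_span ⟨⟨g, hg⟩, rfl⟩
    | one =>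
      have h := bettiCocycles.map_mul c 1 1
      rw [one_mul, map_one, Units.val_one, one_smul, left_eq_add] at h
      rw [h]
      exact zero_mem _
    | mul g g' _ _ hg hg' =>
      rw [bettiCocycles.map_mul]
      exact add_mem hg (Submodule.smul_mem _ _ hg')
    | inv g _ hg =>
      have h := bettiCocycles.map_mul c g⁻¹ g
      have h1 := bettiCocycles.map_mul c 1 1
      rw [one_mul, map_one, Units.val_one, one_smul, left_eq_add] at h1
      rw [inv_mul_cancel, h1, eq_comm, add_eq_zero_iff_eq_neg] at h
      rw [h]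
      exact neg_mem (Submodule.smul_mem _ _ hg)
  let c' : bettiCocycles (Gamma0 L) (nebenChar χ) V' :=
    ⟨fun γ => ⟨_, hval γ⟩, mem_bettiCocycles.2 ⟨fun a b =>
      Subtype.ext (bettiCocycles.map_mul c a b),
      fun a ha => Subtype.ext ((mem_bettiCocycles.1 c.2).2 a ha)⟩⟩
  have hmem : ∀ g : S₀, (c : Gamma0 L → K) g ∈ V' := fun g => Submodule.subset_span ⟨g, rfl⟩
  let g : (S₀ → A) →ₗ[A] V' :=
    Fintype.linearCombination A fun g => ⟨_, hmem g⟩
  have hg : Function.Surjective g := by
    rintro ⟨v, hv⟩
    obtain ⟨a, ha⟩ := (Submodule.mem_span_range_iff_exists_fun A).1 hv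
    refine ⟨a, Subtype.ext ?_⟩
    simpa [g, Fintype.linearCombination_apply] using ha
  obtain ⟨t, ht, y, hy⟩ := hR _ _ g hg (BettiMod.mk c')
  have hdec : LocalizedModule.mk (S := S.map (MvPolynomial.map (algebraMap A K)))
      (bettiBaseEquiv (B := K) χ K (t • BettiMod.mk c)) 1 = ∑ i, (c : Gamma0 L → K) (i : S₀) •
        bettiLocReduce K χ S (LocalizedModule.mk
          (BettiMod.map (LinearMap.proj i : (S₀ → A) →ₗ[A] A) y) 1) := by
    have h1 : t • BettiMod.mk c = BettiMod.map (V'.subtype.comp g) y := by
      have h := congrArg (BettiMod.map V'.subtype) hy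
      rw [map_smul, BettiMod.map_mk,
        show bettiCocyclesMap _ _ V'.subtype c' = c from Subtype.ext rfl] at h
      rw [← h]
      obtain ⟨d, rfl⟩ := BettiMod.mk_surjective y
      rfl
    have h2 : V'.subtype.comp g = ∑ i, (LinearMap.toSpanSingleton A K
        ((c : Gamma0 L → K) (i : S₀))).comp (LinearMap.proj i : (S₀ → A) →ₗ[A] A) :=
      LinearMap.ext fun a => by simp [g, Fintype.linearCombination_apply]
    have h3 : ∀ (ι : Type) (s : Finset ι) (f : ι → (S₀ → A) →ₗ[A] K),
        BettiMod.map (∑ i ∈ s, f i) y = ∑ i ∈ s, BettiMod.map (f i) y := by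
      intro ι s f
      induction s using Finset.induction_on with
      | empty =>
        rw [Finset.sum_empty, Finset.sum_empty, ← zero_smul A (0 : (S₀ → A) →ₗ[A] K),
          BettiMod.map_smul_map, zero_smul]
        rfl
      | insert i s his ih =>
        rw [Finset.sum_insert his, Finset.sum_insert his, BettiMod.map_add_map,
          LinearMap.add_apply, ih]
    rw [h1, h2, h3, map_sum, ← LocalizedModule.mkLinearMap_apply, map_sum]
    refine Finset.sum_congr rfl fun i _ => ?_
    rw [show BettiMod.map ((LinearMap.toSpanSingleton A K ((c : Gamma0 L → K) (i : S₀))).comp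
        (LinearMap.proj i : (S₀ → A) →ₗ[A] A)) y = BettiMod.map (LinearMap.toSpanSingleton A K
          ((c : Gamma0 L → K) (i : S₀))) (BettiMod.map (LinearMap.proj i) y) by
      obtain ⟨d, rfl⟩ := BettiMod.mk_surjective y; rfl,
      bettiBaseEquiv_map_toSpanSingleton, LocalizedModule.mkLinearMap_apply, bettiLocReduce_mk,
      map_one, LocalizedModule.smul'_mk]
  have h0 : MvPolynomial.map (algebraMap A K) P • LocalizedModule.mk
      (S := S.map (MvPolynomial.map (algebraMap A K)))
      (bettiBaseEquiv (B := K) χ K (t • BettiMod.mk c)) 1 = 0 := by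
    rw [hdec, Finset.smul_sum]
    refine Finset.sum_eq_zero fun i _ => ?_
    rw [smul_comm, ← bettiLocReduce_smul, hP, map_zero, smul_zero]
  rw [bettiBaseEquiv_smul, LocalizedModule.smul'_mk, ← LocalizedModule.zero_mk
    (1 : S.map (MvPolynomial.map (algebraMap A K))), LocalizedModule.mk_eq] at h0
  obtain ⟨u, hu⟩ := h0
  rw [LocalizedModule.smul'_mk, ← LocalizedModule.zero_mk s, LocalizedModule.mk_eq]
  refine ⟨u * ⟨_, Submonoid.mem_map_of_mem _ ht⟩, ?_⟩
  simp only [Submonoid.smul_def, one_smul, smul_zero, Submonoid.coe_mul,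
    smul_smul] at hu ⊢
  refine (congrArg (· • _) (?_ : _ = (s : BettiHeckeAlg K) * ((u : BettiHeckeAlg K) *
    (MvPolynomial.map (algebraMap A K) P * MvPolynomial.map (algebraMap A K) t)))).trans ?_
  · ring
  · show _ • bettiBaseEquiv (B := K) χ K (BettiMod.mk c) = 0
    rw [mul_smul, hu, smul_zero]

end span

/-- Over a field localisations of finite dimensional modules are quotients. -/
theorem mkLinearMap_surjective_of_finite {K R M : Type*} [Field K] [CommRing R] [Algebra K R]
    [AddCommGroup M] [Module K M] [Module R M] [IsScalarTower K R M] [FiniteDimensional K M]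
    (S : Submonoid R) : Function.Surjective (LocalizedModule.mkLinearMap S M) := by
  intro w
  induction w using LocalizedModule.induction_on with
  | h m s =>
  let f : Module.End K M := Algebra.lsmul K K M (s : R)
  obtain ⟨n, hn⟩ := IsArtinian.monotone_stabilizes f.iterateRange
  have hmem : (f ^ n) m ∈ LinearMap.range (f ^ (n + 1)) := by
    have h : LinearMap.range (f ^ n) = LinearMap.range (f ^ (n + 1)) := hn (n + 1) (Nat.le_succ n)
    rw [← h]
    exact ⟨m, rfl⟩
  obtain ⟨m', hm'⟩ := hmem
  refine ⟨m', ?_⟩
  rw [LocalizedModule.mkLinearMap_apply, LocalizedModule.mk_eq]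
  refine ⟨s ^ n, ?_⟩
  have hf : ∀ (j : ℕ) (z : M), (f ^ j) z = (s : R) ^ j • z := fun j z => by
    rw [← map_pow]; rfl
  simp only [Submonoid.smul_def, one_smul, SubmonoidClass.coe_pow]
  rw [hf, hf] at hm'
  rw [smul_smul, ← pow_succ, hm']

instance finiteDimensional_bettiMod_field (L : ℕ) [NeZero L] (χ : (ZMod L)ˣ →* Kˣ) :
    Module.Finite K (BettiMod L χ K) :=
  bettiH1_gamma0_finite (A := K) (V := K) L (nebenChar χ)

theorem finiteDimensional_bettiLoc_field [NeZero L] (χ : (ZMod L)ˣ →* Kˣ)
    (S : Submonoid (BettiHeckeAlg K)) : Module.Finite K (BettiLoc L χ K S) :=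
  Module.Finite.of_surjective ((LocalizedModule.mkLinearMap S _).restrictScalars K)
    (mkLinearMap_surjective_of_finite (K := K) S)

end FermatLib.MLT.Odd

end
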