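import Mathlib.Algebra.Algebra.Subalgebra.Lattice
import Mathlib.Algebra.Module.LocalizedModule.Basic
import Mathlib.LinearAlgebra.Eigenspace.Semisimple

/-!
# Common eigenvectors of commuting semisimple operators

Over an algebraically closed field an element of the algebra generated by commuting semisimple
operators is zero as soon as it kills every common eigenvector; eigenvectors in a localisation of
a module lift to eigenvectors not killed by the multiplicative set.
-/

set_option autoImplicit false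

noncomputable section

namespace FermatLib.MLT.Odd

open Module

section common

variable {K W : Type*} [Field K] [IsAlgClosed K] [AddCommGroup W] [Module K W]
  [FiniteDimensional K W]

/-- Commuting operators have a common eigenvector in any nonzero stable subspace. -/
theorem exists_common_eigenvector (G : Set (Module.End K W))
    (hcomm : ∀ f ∈ G, ∀ g ∈ G, f * g = g * f) (p : Submodule K W) (hp : p ≠ ⊥)
    (hstab : ∀ f ∈ G, ∀ v ∈ p, f v ∈ p) :
    ∃ v ∈ p, v ≠ 0 ∧ ∀ f ∈ G, ∃ μ : K, f v = μ • v := by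
  obtain ⟨q, ⟨hqp, hq, hqs⟩, hmin⟩ := (wellFounded_lt (α := Submodule K W)).has_min
    {q | q ≤ p ∧ q ≠ ⊥ ∧ ∀ f ∈ G, ∀ v ∈ q, f v ∈ q} ⟨p, le_rfl, hp, hstab⟩
  obtain ⟨v, hv, hv0⟩ := q.exists_mem_ne_zero_of_ne_bot hq
  refine ⟨v, hqp hv, hv0, fun f hf => ?_⟩
  have : Nontrivial q := (Submodule.nontrivial_iff_ne_bot).2 hq
  obtain ⟨μ, hμ⟩ := Module.End.exists_eigenvalue (f.restrict (hqs f hf))
  obtain ⟨w, hw⟩ := hμ.exists_hasEigenvector
  let q' : Submodule K W := q ⊓ Module.End.eigenspace f μ
  have hw' : (w : W) ∈ q' := ⟨w.2, Module.End.mem_eigenspace_iff.2 (by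
    have := congrArg Subtype.val hw.apply_eq_smul
    simpa using this)⟩
  have hq' : q' ∈ {q | q ≤ p ∧ q ≠ ⊥ ∧ ∀ f ∈ G, ∀ v ∈ q, f v ∈ q} := by
    refine ⟨inf_le_left.trans hqp, fun h => hw.2 (Subtype.ext ?_), fun g hg u hu => ?_⟩
    · simpa [h] using hw'
    · refine ⟨hqs g hg u hu.1, Module.End.mem_eigenspace_iff.2 ?_⟩
      rw [← Module.End.mul_apply, hcomm f hf g hg, Module.End.mul_apply,
        Module.End.mem_eigenspace_iff.1 hu.2, map_smul]
  have heq : q' = q := by
    by_contra h
    exact hmin q' hq' (lt_of_le_of_ne inf_le_left h)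
  refine ⟨μ, Module.End.mem_eigenspace_iff.1 ?_⟩
  exact (show v ∈ q' by rw [heq]; exact hv).2

omit [IsAlgClosed K] in
/-- The algebra generated by commuting semisimple operators is semisimple. -/
theorem isSemisimple_of_mem_adjoin [PerfectField K] {G : Set (Module.End K W)}
    (hcomm : ∀ f ∈ G, ∀ g ∈ G, f * g = g * f) (hss : ∀ f ∈ G, f.IsSemisimple)
    {a : Module.End K W} (ha : a ∈ Algebra.adjoin K G) : a.IsSemisimple := by
  have := Algebra.isMulCommutative_adjoin K hcomm
  have hc : ∀ x ∈ Algebra.adjoin K G, ∀ y ∈ Algebra.adjoin K G, Commute x y := fun x hx y hy =>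
    congrArg Subtype.val (isMulCommutative_iff.1 ‹_› (⟨x, hx⟩ : Algebra.adjoin K G) ⟨y, hy⟩)
  induction ha using Algebra.adjoin_induction with
  | mem f hf => exact hss f hf
  | algebraMap c =>
    refine Module.End.isSemisimple_of_squarefree_aeval_eq_zero
      (p := Polynomial.X - Polynomial.C c) (Polynomial.irreducible_X_sub_C c).squarefree ?_
    simp
  | add x y hx hy ihx ihy => exact ihx.add_of_commute (hc x hx y hy) ihy
  | mul x y hx hy ihx ihy => exact ihx.mul_of_commute (hc x hx y hy) ihy

/-- **Separation by common eigenvectors.** -/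
theorem eq_zero_of_forall_common_eigenvector [PerfectField K] {G : Set (Module.End K W)}
    (hcomm : ∀ f ∈ G, ∀ g ∈ G, f * g = g * f) (hss : ∀ f ∈ G, f.IsSemisimple)
    {a : Module.End K W} (ha : a ∈ Algebra.adjoin K G)
    (h : ∀ v : W, v ≠ 0 → (∀ f ∈ G, ∃ μ : K, f v = μ • v) → a v = 0) : a = 0 := by
  have := Algebra.isMulCommutative_adjoin K hcomm
  rw [(isSemisimple_of_mem_adjoin hcomm hss ha).eq_zero_iff_forall_eigenvalue]
  intro μ hμ
  have hca : ∀ f ∈ G, a * f = f * a := fun f hf =>
    congrArg Subtype.val (isMulCommutative_iff.1 ‹_›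
      (⟨a, ha⟩ : Algebra.adjoin K G) ⟨f, Algebra.subset_adjoin hf⟩)
  obtain ⟨v, hv, hv0, hveig⟩ := exists_common_eigenvector G hcomm (Module.End.eigenspace a μ)
    (Module.End.hasEigenvalue_iff.1 hμ) fun f hf u hu => by
      rw [Module.End.mem_eigenspace_iff] at hu ⊢
      rw [← Module.End.mul_apply, hca f hf, Module.End.mul_apply, hu, map_smul]
  have h0 := h v hv0 hveig
  rw [Module.End.mem_eigenspace_iff.1 hv] at h0
  exact (smul_eq_zero.1 h0).resolve_right hv0

end common

/-- **Lifting an eigenvector of a localisation.** -/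
theorem exists_eigen_lift {K R M : Type*} [Field K] [CommRing R] [Algebra K R] [AddCommGroup M]
    [Module K M] [Module R M] [IsScalarTower K R M] [FiniteDimensional K M] (S : Submonoid R)
    {w : LocalizedModule S M} (hw : w ≠ 0) :
    ∃ m : M, (∀ s ∈ S, s • m ≠ 0) ∧
      ∀ (r : R) (c : K), r • w = algebraMap K R c • w → r • m = c • m := by
  classical
  induction w using LocalizedModule.induction_on with
  | h m s =>
  let N : Submodule K M :=
    (LinearMap.ker (LocalizedModule.mkLinearMap S M)).restrictScalars K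
  obtain ⟨T, hT⟩ := (IsNoetherian.noetherian N : N.FG)
  have hu : ∀ x ∈ T, ∃ u ∈ S, u • x = 0 := fun x hx => by
    have hx' : x ∈ N := hT ▸ Submodule.subset_span hx
    rw [Submodule.restrictScalars_mem, LinearMap.mem_ker, LocalizedModule.mkLinearMap_apply,
      ← LocalizedModule.zero_mk (1 : S), LocalizedModule.mk_eq] at hx'
    obtain ⟨u, hu⟩ := hx'
    exact ⟨u, u.2, by simpa [Submonoid.smul_def] using hu⟩
  choose! u huS hux using hu
  set u₀ := ∏ x ∈ T, u x with hu₀
  have hu₀S : u₀ ∈ S := prod_mem huS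
  have hkill : ∀ x ∈ N, u₀ • x = 0 := by
    intro x hx
    rw [← hT] at hx
    induction hx using Submodule.span_induction with
    | mem x hx =>
      obtain ⟨d, hd⟩ : u x ∣ u₀ := Finset.dvd_prod_of_mem u hx
      rw [hd, mul_comm, mul_smul, hux x hx, smul_zero]
    | zero => rw [smul_zero]
    | add x y _ _ hx hy => rw [smul_add, hx, hy, add_zero]
    | smul c x _ hx => rw [smul_comm, hx, smul_zero]
  refine ⟨u₀ • m, fun t ht h => hw ?_, fun r c hrc => ?_⟩
  · rw [← LocalizedModule.zero_mk s, LocalizedModule.mk_eq]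
    refine ⟨⟨t * u₀, mul_mem ht hu₀S⟩, ?_⟩
    simp [Submonoid.smul_def, mul_smul, h, smul_comm (t * u₀)]
  · rw [LocalizedModule.smul'_mk, LocalizedModule.smul'_mk, LocalizedModule.mk_eq] at hrc
    obtain ⟨v, hv⟩ := hrc
    have hN : r • m - c • m ∈ N := by
      rw [Submodule.restrictScalars_mem, LinearMap.mem_ker, LocalizedModule.mkLinearMap_apply,
        ← LocalizedModule.zero_mk (1 : S), LocalizedModule.mk_eq]
      refine ⟨v * s, ?_⟩
      simp only [Submonoid.smul_def, one_smul, smul_zero, mul_smul, algebraMap_smul] at hv ⊢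
      rw [smul_sub, smul_sub, hv, sub_self]
    have := hkill _ hN
    rwa [smul_sub, sub_eq_zero, smul_comm u₀ r, smul_comm u₀ c] at this

end FermatLib.MLT.Odd

end
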