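import Fermat.Agent.Modular.TwistSystemEigen
import Fermat.Agent.Modular.PeterssonHecke
import Mathlib.RingTheory.Polynomial.Radical
import Mathlib.RingTheory.Localization.Integral
import Mathlib.FieldTheory.Perfect

/-!
# Good Hecke operators on twisted classes are semisimple away from the Eisenstein part

A separable polynomial with rational coefficients kills `T l` on cuspidal homomorphisms of
`Γ₀(N)`, the good Hecke algebra being reduced.  Through the twist it kills `ψ(l) T l` on the image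
of `T l₀ - (l₀ + 1)`, `l₀ ≡ 1 (mod N)`, in the cohomology with nebentype.
-/

set_option autoImplicit false

noncomputable section

open scoped MatrixGroups
open CongruenceSubgroup Polynomial FermatLib.MLT FermatLib.Modular ModularCurve

namespace FermatLib.Modular.Twist

/-- In a reduced ring an integral element is killed by a separable polynomial. -/
theorem exists_separable_eval₂_eq_zero {H : Type*} [CommRing H] [IsReduced H] (t : H)
    (ht : ∃ P : ℤ[X], P.Monic ∧ P.eval₂ (Int.castRingHom H) t = 0) :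
    ∃ R : ℤ[X], (R.map (Int.castRingHom ℚ)).Separable ∧
      R.eval₂ (Int.castRingHom H) t = 0 := by
  classical
  obtain ⟨P, hPm, hP⟩ := ht
  set f := Int.castRingHom ℚ with hf
  have hfi : Function.Injective f := Int.cast_injective
  have hPq : P.map f ≠ 0 := (hPm.map f).ne_zero
  set r := UniqueFactorizationMonoid.radical (P.map f) with hr
  obtain ⟨b, hb, hbr⟩ := IsLocalization.integerNormalization_spec (nonZeroDivisors ℤ) r
  set R := IsLocalization.integerNormalization (nonZeroDivisors ℤ) r with hR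
  have hb0 : (b : ℚ) ≠ 0 := by exact_mod_cast nonZeroDivisors.ne_zero hb
  have hmap : R.map f = C (b : ℚ) * r := by
    rw [show f = algebraMap ℤ ℚ from rfl, hbr, ← Polynomial.smul_eq_C_mul, Int.cast_smul_eq_zsmul]
  refine ⟨R, ?_, ?_⟩
  · rw [hmap]
    exact Polynomial.Separable.unit_mul (isUnit_C.2 hb0.isUnit)
      (PerfectField.separable_iff_squarefree.2 UniqueFactorizationMonoid.squarefree_radical)
  obtain ⟨n, hn⟩ := UniqueFactorizationMonoid.exists_dvd_radical_self_pow hPq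
  obtain ⟨Q, hQ⟩ : P ∣ R ^ n := by
    rw [← Polynomial.map_dvd_map f hfi hPm, Polynomial.map_pow, hmap, mul_pow]
    exact hn.mul_left _
  refine IsNilpotent.eq_zero ⟨n, ?_⟩
  rw [← eval₂_pow, hQ, eval₂_mul, hP, zero_mul]

/-- A separable polynomial killing a good operator in the Hecke algebra. -/
theorem exists_separable_intPoly_killing {N : ℕ} [NeZero N] (l : Nat.Primes)
    (hl : ¬ (l : ℕ) ∣ N) :
    ∃ (R : ℤ[X]), (R.map (Int.castRingHom ℚ)).Separable ∧
      CuspForm.heckeEvalForms N 2 (aeval (MvPolynomial.X l : HeckeAlg) R) = 0 := by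
  have : Module.Finite ℤ (CuspForm.heckeAlgebra N 2 {q | q ∣ N}) := heckeAlgebra_moduleFinite N 2 _
  have : IsReduced (CuspForm.heckeAlgebra N 2 {q | q ∣ N}) :=
    isReduced_heckeAlgebra fun q _ h => h
  obtain ⟨R, hR, hR0⟩ := exists_separable_eval₂_eq_zero
    (H := CuspForm.heckeAlgebra N 2 {q | q ∣ N}) (CuspForm.heckeAlgebra.T l.2 hl hl) (by
      obtain ⟨P, hPm, hP⟩ := Algebra.IsIntegral.isIntegral (R := ℤ)
        (CuspForm.heckeAlgebra.T l.2 hl hl : CuspForm.heckeAlgebra N 2 {q | q ∣ N})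
      exact ⟨P, hPm, by rwa [RingHom.ext_int (Int.castRingHom _) (algebraMap ℤ _)]⟩)
  refine ⟨R, hR, Subtype.val_injective ?_⟩
  let ι := (CuspForm.heckeAlgebra N 2 {q | q ∣ N}).val.toRingHom
  let ι₀ := (CuspForm.heckeAlgebra N 2 (∅ : Set ℕ)).val.toRingHom
  show ι₀ (CuspForm.heckeEvalForms N 2 (aeval (MvPolynomial.X l : HeckeAlg) R)) = ι₀ 0
  have h1 := congrArg ι hR0
  rw [hom_eval₂, map_zero, RingHom.ext_int (ι.comp (Int.castRingHom _))
    (Int.castRingHom _)] at h1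
  rw [aeval_def, hom_eval₂, hom_eval₂, map_zero,
    show (MvPolynomial.X l : HeckeAlg) = heckeGen l from rfl,
    CuspForm.heckeEvalForms_heckeGen_of_not_dvd hl]
  rw [RingHom.ext_int (ι₀.comp ((CuspForm.heckeEvalForms N 2).comp (algebraMap ℤ HeckeAlg)))
    (Int.castRingHom _)]
  exact h1

variable {N : ℕ} [NeZero N] {K : Type} [Field K] [CharZero K]

omit [NeZero N] [CharZero K] in
/-- The class of a cocycle with trivial character is killed as soon as its homomorphism is. -/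
theorem eq_zero_of_cocycleHom {c : bettiCocycles (Gamma0 N) (nebenChar (1 : (ZMod N)ˣ →* Kˣ)) K}
    (h : cocycleHom c = 0) :
    (Submodule.Quotient.mk c : bettiH1 (Gamma0 N) (nebenChar (1 : (ZMod N)ˣ →* Kˣ)) K) = 0 :=
  (Submodule.Quotient.mk_eq_zero _).2 (mem_bettiBoundaries.2 ⟨0, fun γ => by
    rw [smul_zero, sub_zero]
    exact (DFunLike.congr_fun h (Additive.ofMul γ)).symm⟩)

omit [NeZero N] [CharZero K] in
/-- A polynomial in `T l` on classes with trivial character, read on homomorphisms. -/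
theorem exists_cocycle_aeval (l : Nat.Primes) (R : ℤ[X])
    (c : bettiCocycles (Gamma0 N) (nebenChar (1 : (ZMod N)ˣ →* Kˣ)) K) :
    ∃ c', aeval (bettiHeckeOp N K (1 : (ZMod N)ˣ →* Kˣ) l) R (Submodule.Quotient.mk c) =
        Submodule.Quotient.mk c' ∧
      cocycleHom c' = heckeHomEval N K K (aeval (MvPolynomial.X l : HeckeAlg) R) (cocycleHom c) := by
  induction R using Polynomial.induction_on' generalizing c with
  | add R R' hR hR' =>
    obtain ⟨c₁, h1, e1⟩ := hR c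
    obtain ⟨c₂, h2, e2⟩ := hR' c
    refine ⟨c₁ + c₂, ?_, ?_⟩
    · rw [map_add, LinearMap.add_apply, h1, h2]
      exact (map_add (bettiBoundaries (Gamma0 N) (nebenChar (1 : (ZMod N)ˣ →* Kˣ)) K).mkQ c₁ c₂).symm
    · rw [map_add, map_add, LinearMap.add_apply, ← e1, ← e2]
      exact AddMonoidHom.ext fun γ => rfl
  | monomial n a =>
    have key : ∃ c', (bettiHeckeOp N K (1 : (ZMod N)ˣ →* Kˣ) l ^ n) (Submodule.Quotient.mk c) =
        Submodule.Quotient.mk c' ∧ cocycleHom c' =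
          heckeHomEval N K K ((MvPolynomial.X l : HeckeAlg) ^ n) (cocycleHom c) := by
      induction n with
      | zero => exact ⟨c, rfl, by rw [pow_zero, map_one, Module.End.one_apply]⟩
      | succ n ih =>
        obtain ⟨c', h', e'⟩ := ih
        refine ⟨(bettiHeckeSystem N l).transferCocycles K (isWeight_heckeWeight 1 l) c', ?_, ?_⟩
        · rw [pow_succ', Module.End.mul_apply, h', bettiHeckeOp, CosetSystem.transfer_mk]
        · rw [pow_succ', map_mul, Module.End.mul_apply, ← e', heckeHomEval_X_apply,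
            heckeHomOp_cocycleHom]
    obtain ⟨c', h', e'⟩ := key
    refine ⟨a • c', ?_, ?_⟩
    · rw [aeval_monomial, ← Algebra.smul_def, LinearMap.smul_apply, h']
      exact (map_zsmul (bettiBoundaries (Gamma0 N) (nebenChar (1 : (ZMod N)ˣ →* Kˣ)) K).mkQ a c').symm
    · rw [aeval_monomial, ← Algebra.smul_def, map_zsmul, LinearMap.smul_apply, ← e']
      exact AddMonoidHom.ext fun γ => rfl

/-- `T l₀ - (l₀ + 1)` makes a homomorphism cuspidal when `l₀ ≡ 1 (mod N)`. -/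
theorem isCuspidalHom_heckeHomOp_sub (φ : Additive (Gamma0 N) →+ K) (l₀ : Nat.Primes)
    (hl₀ : ((l₀ : ℕ) : ZMod N) = 1) :
    IsCuspidalHom (heckeHomOp N K K l₀ φ - ((l₀ : ℕ) + 1 : K) • φ) := by
  refine isCuspidalHom_of_isParabolicHom fun γ hγ => ?_
  obtain ⟨g, m, hg⟩ := exists_eq_conj_of_trace_sq_eq_four hγ
  have hmem : g * ModularGroup.T ^ (N : ℤ) * g⁻¹ ∈ Gamma0 N := by
    have h1 : g * ModularGroup.T ^ (N : ℤ) * g⁻¹ ∈ Gamma N :=
      (Gamma_normal N).conj_mem _ (ModularGroup_T_pow_mem_Gamma N N dvd_rfl) g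
    exact Gamma0_mem.2 (Gamma_mem.1 h1).2.2.1
  set u : Gamma0 N := ⟨_, hmem⟩ with hu
  set ψ := heckeHomOp N K K l₀ φ - ((l₀ : ℕ) + 1 : K) • φ with hψ
  have h0 : ψ (Additive.ofMul u) = 0 := by
    rw [hψ, AddMonoidHom.sub_apply, heckeHomOp_apply_conj_T (R := K) l₀ hl₀ g u rfl φ,
      AddMonoidHom.coe_smul, Pi.smul_apply, smul_eq_mul, nsmul_eq_mul]
    push_cast
    ring
  have hsq : (γ ^ 2) ^ (N : ℤ) = u ^ (2 * m) := by
    refine Subtype.ext ?_
    have hg2 : (γ : SL(2, ℤ)) ^ 2 = g * ModularGroup.T ^ (2 * m) * g⁻¹ := by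
      rw [two_mul, zpow_add, pow_two]
      rcases hg with h | h <;> rw [h]
      · group
      · rw [neg_mul_neg]
        group
    rw [SubgroupClass.coe_zpow, SubgroupClass.coe_zpow, SubmonoidClass.coe_pow, hg2]
    show _ = (g * ModularGroup.T ^ (N : ℤ) * g⁻¹) ^ (2 * m)
    rw [conj_zpow, conj_zpow, ← zpow_mul, ← zpow_mul, mul_comm]
  have h3 := congrArg (fun z => ψ (Additive.ofMul z)) hsq
  simp only [ofMul_zpow, ofMul_pow, map_zsmul, map_nsmul, h0, smul_zero] at h3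
  simpa [NeZero.ne N] using h3

/-- **Semisimplicity on classes with trivial character.** -/
theorem exists_separable_killing (l : Nat.Primes) (hl : ¬ (l : ℕ) ∣ N) (l₀ : Nat.Primes)
    (hl₀ : ((l₀ : ℕ) : ZMod N) = 1) :
    ∃ R : ℤ[X], (R.map (Int.castRingHom ℚ)).Separable ∧
      ∀ x : bettiH1 (Gamma0 N) (nebenChar (1 : (ZMod N)ˣ →* Kˣ)) K,
        aeval (bettiHeckeOp N K (1 : (ZMod N)ˣ →* Kˣ) l) R
          (bettiHeckeOp N K (1 : (ZMod N)ˣ →* Kˣ) l₀ x - ((l₀ : ℕ) + 1 : K) • x) = 0 := by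
  obtain ⟨R, hR, hkill⟩ := exists_separable_intPoly_killing l hl
  refine ⟨R, hR, fun x => ?_⟩
  obtain ⟨c, rfl⟩ := Submodule.Quotient.mk_surjective _ x
  have e0 : bettiHeckeOp N K (1 : (ZMod N)ˣ →* Kˣ) l₀ (Submodule.Quotient.mk c) =
      Submodule.Quotient.mk
        ((bettiHeckeSystem N l₀).transferCocycles K (isWeight_heckeWeight 1 l₀) c) := by
    rw [bettiHeckeOp, CosetSystem.transfer_mk]
  rw [e0, ← Submodule.Quotient.mk_smul, ← Submodule.Quotient.mk_sub]
  set d := (bettiHeckeSystem N l₀).transferCocycles K (isWeight_heckeWeight 1 l₀) c -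
    ((l₀ : ℕ) + 1 : K) • c with hd
  obtain ⟨c', h1, h2⟩ := exists_cocycle_aeval l R d
  rw [h1]
  refine eq_zero_of_cocycleHom ?_
  have hcusp : IsCuspidalHom (cocycleHom d) := by
    have : cocycleHom d = heckeHomOp N K K l₀ (cocycleHom c) -
        ((l₀ : ℕ) + 1 : K) • cocycleHom c := by
      rw [heckeHomOp_cocycleHom]
      exact AddMonoidHom.ext fun γ => rfl
    rw [this]
    exact isCuspidalHom_heckeHomOp_sub _ l₀ hl₀
  rw [h2, heckeHomEval_eq_zero hkill hcusp]

omit [NeZero N] in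
/-- **Semisimplicity with nebentype**: a separable polynomial kills `ψ(l) T l` on the image of
`T l₀ - (l₀ + 1)`. -/
theorem exists_twist_separable_killing {L : ℕ} [NeZero L] {χ : (ZMod L)ˣ →* Kˣ} {Q : Finset ℕ}
    {ψ : (q : ℕ) → (ZMod q)ˣ →* Kˣ} (hQ : ∀ q ∈ Q, q.Prime ∧ q ∣ L ∧ ¬ q ^ 2 ∣ L)
    (hψ : ∀ q ∈ Q, ψ q ^ 2 ≠ 1)
    (hχ : ∀ (n : ℕ) (hn : n.Coprime L),
      (χ (ZMod.unitOfCoprime n hn) : K) * twistFactor Q ψ n ^ 2 = 1)
    (l : Nat.Primes) (hl : ¬ (l : ℕ) ∣ L) (l₀ : Nat.Primes)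
    (hl₀ : ((l₀ : ℕ) : ZMod (L * ∏ q ∈ Q, q)) = 1) :
    ∃ R : ℤ[X], (R.map (Int.castRingHom ℚ)).Separable ∧
      ∀ x : bettiH1 (Gamma0 L) (nebenChar χ) K,
        aeval (twistFactor Q ψ (l : ℕ) • bettiHeckeOp L K χ l) R
          (bettiHeckeOp L K χ l₀ x - ((l₀ : ℕ) + 1 : K) • x) = 0 := by
  have : NeZero (L * ∏ q ∈ Q, q) :=
    ⟨mul_ne_zero (NeZero.ne L) (Finset.prod_ne_zero_iff.2 fun q hq => (hQ q hq).1.ne_zero)⟩
  have hdvd : ∀ q ∈ Q, q ∣ L * ∏ q ∈ Q, q := fun q hq =>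
    (Finset.dvd_prod_of_mem _ hq).mul_left L
  have hlN : ¬ (l : ℕ) ∣ L * ∏ q ∈ Q, q := fun h => by
    rcases l.2.dvd_mul.1 h with h | h
    · exact hl h
    · obtain ⟨q, hq, hd⟩ := (Prime.dvd_finsetProd_iff l.2.prime _).1 h
      exact hl (((Nat.prime_dvd_prime_iff_eq l.2 (hQ q hq).1).1 hd) ▸ (hQ q hq).2.1)
  have hlQ : (l : ℕ) ∉ Q := fun h => hlN (hdvd _ h)
  have hl₀Q : (l₀ : ℕ) ∉ Q := fun h => by
    have := congrArg (ZMod.castHom (hdvd _ h) (ZMod (l₀ : ℕ))) hl₀
    rw [map_natCast, ZMod.natCast_self, map_one] at this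
    have := Fact.mk l₀.2
    exact zero_ne_one (α := ZMod (l₀ : ℕ)) (by assumption)
  obtain ⟨Φ, hΦi, hΦl, -⟩ := exists_bettiTwist (V := K) Q L χ ψ hQ hψ hχ _ rfl
  obtain ⟨R, hR, hkill⟩ := exists_separable_killing (K := K) l hlN l₀ hl₀
  refine ⟨R, hR, fun x => hΦi ?_⟩
  rw [map_zero]
  have key : ∀ (R : ℤ[X]) (z : bettiH1 (Gamma0 L) (nebenChar χ) K),
      Φ (aeval (twistFactor Q ψ (l : ℕ) • bettiHeckeOp L K χ l) R z) =
        aeval (bettiHeckeOp _ K (1 : (ZMod (L * ∏ q ∈ Q, q))ˣ →* Kˣ) l) R (Φ z) := by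
    intro R
    induction R using Polynomial.induction_on with
    | C a => intro z; simp [map_zsmul]
    | add R R' hR hR' => intro z; simp only [map_add, LinearMap.add_apply, hR, hR']
    | monomial n a ih =>
      intro z
      simp only [pow_succ, ← mul_assoc, map_mul, aeval_X, Module.End.mul_apply] at ih ⊢
      rw [ih, LinearMap.smul_apply, map_smul, hΦl l hlQ]
  rw [key, map_sub, map_smul]
  have h2 : Φ (bettiHeckeOp L K χ l₀ x) = bettiHeckeOp _ K 1 l₀ (Φ x) := by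
    rw [hΦl l₀ hl₀Q, twistFactor_eq_one_of_modEq hdvd hl₀, one_smul]
  rw [h2]
  exact hkill (Φ x)

end FermatLib.Modular.Twist

end
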