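import Fermat.Agent.MLT.Hecke.GammaHHecke
import Fermat.Agent.MLT.Odd.SystemFamilyEmbed
import Fermat.Agent.MLT.Odd.SystemFamilyLinear
import Fermat.Agent.MLT.Odd.SystemFamilySemisimple
import Fermat.Agent.MLT.Odd.SystemFamilyTwist

/-!
# The eigen systems of a localised module with nebentype of odd `p`-power order

The algebra generated by the good Hecke operators on the localised module is separated by the
systems of eigenvalues of classes over an algebraically closed field, one character of the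
coefficients at a time.
-/

set_option autoImplicit false
set_option linter.style.haveILetI false

noncomputable section

open scoped MatrixGroups
open CongruenceSubgroup FermatLib.Modular.Twist

namespace FermatLib.MLT.Odd

section semisimple

variable {A K : Type} [CommRing A] [Field K] [CharZero K] [Algebra A K] {p L : ℕ} [NeZero L]
  {χ : (ZMod L)ˣ →* Aˣ}

/-- **Semisimplicity of the good operators on the localisation over `K`.** -/
theorem isSemisimple_loc_X (hp : Odd p) (D : TwistData A p L χ)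
    (S' : Submonoid (BettiHeckeAlg K)) (l₀ : Nat.Primes)
    (hl₀ : ((l₀ : ℕ) : ZMod (L * ∏ q ∈ D.Qs, q)) = 1)
    (hl₀S : (MvPolynomial.X l₀ - MvPolynomial.C ((l₀ : ℕ) + 1 : K) : BettiHeckeAlg K) ∈ S')
    (l : Nat.Primes) (hl : ¬ (l : ℕ) ∣ L) :
    (Algebra.lsmul K K (BettiLoc L (bettiBaseChar K χ) K S') (MvPolynomial.X l : BettiHeckeAlg K) :
      Module.End K (BettiLoc L (bettiBaseChar K χ) K S')).IsSemisimple := by
  haveI := finiteDimensional_bettiLoc_field (bettiBaseChar K χ) S'
  let σ : A →+* K := algebraMap A K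
  have hpne : p ≠ 0 := fun h => by simp [h] at hp
  have hcop : (l : ℕ).Coprime L := l.2.coprime_iff_not_dvd.2 hl
  obtain ⟨R, hR, hkill⟩ := exists_twist_separable_killing (χ := bettiBaseChar K χ)
    (D.exactly_primesAt σ) (D.psiAt_sq_ne_one σ hp) (D.chi_mul_twistFactor_sq σ hp) l hl l₀
    (D.modEq_one_primesAt σ hl₀)
  set a : K := twistFactor (D.primesAt σ) (D.psiAt σ) (l : ℕ) with ha
  have ha0 : a ≠ 0 := by
    rw [ha, D.twistFactor_primesAt σ hcop]
    exact ((D.isUnit_val hpne hcop).map σ).ne_zero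
  set E₀ : BettiHeckeAlg K := MvPolynomial.X l₀ - MvPolynomial.C ((l₀ : ℕ) + 1 : K) with hE₀
  set Y : BettiHeckeAlg K := a • MvPolynomial.X l with hY
  let act : BettiHeckeAlg K →ₐ[K] Module.End K (BettiLoc L (bettiBaseChar K χ) K S') :=
    Algebra.lsmul K K _
  have hsep : (R.map (Int.castRingHom K)).Separable := by
    have h := hR.map (f := Rat.castHom K)
    rwa [Polynomial.map_map, RingHom.ext_int ((Rat.castHom K).comp (Int.castRingHom ℚ))
      (Int.castRingHom K)] at h
  suffices h : (act Y).IsSemisimple by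
    rwa [hY, map_smul, Module.End.IsSemisimple_smul_iff ha0] at h
  refine Module.End.isSemisimple_of_squarefree_aeval_eq_zero hsep.squarefree ?_
  rw [Polynomial.aeval_algHom_apply]
  refine LinearMap.ext fun w => ?_
  induction w using LocalizedModule.induction_on with
  | h m s =>
  show (Polynomial.aeval Y (R.map (Int.castRingHom K)) : BettiHeckeAlg K) •
    LocalizedModule.mk m s = (0 : BettiLoc L (bettiBaseChar K χ) K S')
  rw [LocalizedModule.smul'_mk, ← LocalizedModule.zero_mk s, LocalizedModule.mk_eq]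
  refine ⟨⟨E₀, hl₀S⟩, ?_⟩
  rw [smul_zero, smul_zero, Submonoid.smul_def, Submonoid.smul_def,
    smul_comm (s : BettiHeckeAlg K)]
  have key : ∀ z : BettiMod L (bettiBaseChar K χ) K, (Polynomial.aeval Y
      (R.map (Int.castRingHom K)) : BettiHeckeAlg K) • z =
      Polynomial.aeval (a • bettiHeckeOp L K (bettiBaseChar K χ) l) R z := fun z => by
    rw [BettiMod.hecke_smul, ← Polynomial.aeval_algHom_apply, hY, map_smul, bettiEval_X,
      show Int.castRingHom K = algebraMap ℤ K from rfl, Polynomial.aeval_map_algebraMap]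
  rw [smul_comm E₀ (Polynomial.aeval Y (R.map (Int.castRingHom K))), key]
  have h := hkill ((s : BettiHeckeAlg K) • m)
  rw [← BettiMod.X_smul] at h
  refine Eq.trans ?_ h
  congr 1
  rw [hE₀, sub_smul, ← MvPolynomial.algebraMap_eq, algebraMap_smul]
  rfl

end semisimple

variable {O A : Type} [CommRing O] [CommRing A] [Algebra O A] {L : ℕ}
  {k : Type} [Field k] (χ : (ZMod L)ˣ →* Aˣ) (Pr : Set Nat.Primes) (θ : BettiHeckeAlg A →+* k)
  {K : Type} [Field K]

/-- The eigenvalues of an eigenclass over `K` seen by the localised module: what kills the module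
has value zero and what is inverted has nonzero value. -/
structure IsEigenSystem (σ : A →+* K) (lam : Nat.Primes → K) : Prop where
  exists_class : ∃ x : BettiMod L ((Units.map (σ : A →* K)).comp χ) K, x ≠ 0 ∧
    ∀ l, (MvPolynomial.X l : BettiHeckeAlg K) • x = lam l • x
  eq_zero_of_kills : ∀ P : BettiHeckeAlg A, (∀ y : BettiResLoc χ Pr θ, P • y = 0) →
    MvPolynomial.eval₂Hom σ lam P = 0
  ne_zero : ∀ s ∈ bettiResidualSubmonoid Pr θ, MvPolynomial.eval₂Hom σ lam s ≠ 0

/-- An eigenclass for all `X l` is one for all Hecke polynomials. -/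
theorem smul_eq_eval₂_smul {R M : Type} [CommRing R] [AddCommGroup M] [Module K M]
    [Module (BettiHeckeAlg K) M] [IsScalarTower K (BettiHeckeAlg K) M] (σ : R →+* K) {w : M}
    {lam : Nat.Primes → K} (h : ∀ l, (MvPolynomial.X l : BettiHeckeAlg K) • w = lam l • w)
    (P : BettiHeckeAlg R) :
    MvPolynomial.map σ P • w = MvPolynomial.eval₂Hom σ lam P • w := by
  induction P using MvPolynomial.induction_on with
  | C a =>
    rw [MvPolynomial.map_C, MvPolynomial.eval₂Hom_C, ← MvPolynomial.algebraMap_eq,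
      algebraMap_smul]
  | add P Q hP hQ => rw [map_add, map_add, add_smul, add_smul, hP, hQ]
  | mul_X P l hP =>
    rw [map_mul, map_mul, MvPolynomial.map_X, MvPolynomial.eval₂Hom_X', mul_smul, h, smul_comm,
      hP, smul_smul, mul_comm]

variable [Algebra O K] [CharZero K] [IsAlgClosed K] {p : ℕ} [NeZero L] {χ Pr θ}

/-- **The good operators are separated by eigen systems.** -/
theorem exists_eigenSystem_ne_zero (hp : Odd p) (D : TwistData A p L χ)
    [Finite (A →ₐ[O] K)] (hsep : ∀ a : A, (∀ σ : A →ₐ[O] K, σ a = 0) → a = 0)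
    (hE : BettiNonEisenstein L χ (bettiResidualSubmonoid Pr θ))
    (hR : BettiRightExact L χ (bettiResidualSubmonoid Pr θ))
    {Good : Set Nat.Primes} (hGood : ∀ l ∈ Good, ¬ (l : ℕ) ∣ L) (l₀ : Nat.Primes)
    (hl₀ : ((l₀ : ℕ) : ZMod (L * ∏ q ∈ D.Qs, q)) = 1)
    (hl₀S : (MvPolynomial.X l₀ - MvPolynomial.C (((l₀ : ℕ) : A) + 1) : BettiHeckeAlg A) ∈
      bettiResidualSubmonoid Pr θ)
    {P : BettiHeckeAlg A} (hPgood : P ∈ MvPolynomial.supported A Good)
    {y : BettiResLoc χ Pr θ} (hy : P • y ≠ 0) :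
    ∃ (σ : A →ₐ[O] K) (lam : Nat.Primes → K), IsEigenSystem χ Pr θ σ.toRingHom lam ∧
      MvPolynomial.eval₂Hom σ.toRingHom lam P ≠ 0 := by
  classical
  set S := bettiResidualSubmonoid Pr θ with hS
  obtain ⟨σ, hσ⟩ : ∃ σ : A →ₐ[O] K, ¬ (letI := σ.toRingHom.toAlgebra
      bettiLocReduce K χ S (P • y) = 0) := by
    by_contra h
    push Not at h
    exact hy (eq_zero_of_bettiLocReduce_eq_zero hE hsep _ h)
  letI := σ.toRingHom.toAlgebra
  set S' := S.map (MvPolynomial.map (algebraMap A K)) with hS'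
  haveI := finiteDimensional_bettiLoc_field (bettiBaseChar K χ) S'
  let act : BettiHeckeAlg K →ₐ[K] Module.End K (BettiLoc L (bettiBaseChar K χ) K S') :=
    Algebra.lsmul K K _
  have hcomm : ∀ P Q : BettiHeckeAlg K, act P * act Q = act Q * act P := fun P Q => by
    rw [← map_mul, ← map_mul, mul_comm]
  let G : Set (Module.End K (BettiLoc L (bettiBaseChar K χ) K S')) :=
    (fun l => act (MvPolynomial.X l)) '' Good
  have hGc : ∀ f ∈ G, ∀ g ∈ G, f * g = g * f := by
    rintro _ ⟨l, -, rfl⟩ _ ⟨l', -, rfl⟩; exact hcomm _ _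
  have hl₀S' : (MvPolynomial.X l₀ - MvPolynomial.C ((l₀ : ℕ) + 1 : K) : BettiHeckeAlg K) ∈ S' := by
    refine ⟨_, hl₀S, ?_⟩
    simp
  have hss : ∀ f ∈ G, f.IsSemisimple := by
    rintro _ ⟨l, hl, rfl⟩
    exact isSemisimple_loc_X hp D S' l₀ hl₀ hl₀S' l (hGood l hl)
  set a := act (MvPolynomial.map (algebraMap A K) P) with ha
  have haG : a ∈ Algebra.adjoin K G := by
    rw [ha]
    clear_value a
    clear ha hy hσ
    induction hPgood using Algebra.adjoin_induction with
    | mem u hu =>
      obtain ⟨l, hl, rfl⟩ := hu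
      rw [MvPolynomial.map_X]
      exact Algebra.subset_adjoin ⟨l, hl, rfl⟩
    | algebraMap c =>
      rw [MvPolynomial.algebraMap_eq, MvPolynomial.map_C, ← MvPolynomial.algebraMap_eq,
        AlgHom.commutes]
      exact Subalgebra.algebraMap_mem _ _
    | add u v _ _ hu hv => rw [map_add, map_add]; exact add_mem hu hv
    | mul u v _ _ hu hv => rw [map_mul, map_mul]; exact mul_mem hu hv
  have ha0 : a ≠ 0 := fun h => hσ (by
    rw [bettiLocReduce_smul]
    exact LinearMap.congr_fun h (bettiLocReduce K χ S y))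
  obtain ⟨v, hv0, hveig, hav⟩ : ∃ v, v ≠ 0 ∧ (∀ f ∈ G, ∃ μ : K, f v = μ • v) ∧ a v ≠ 0 := by
    by_contra h
    push Not at h
    exact ha0 (eq_zero_of_forall_common_eigenvector hGc hss haG h)
  obtain ⟨c, hc⟩ : ∃ c : K, a v = c • v := by
    clear hav ha0
    clear_value a
    clear ha
    induction haG using Algebra.adjoin_induction with
    | mem f hf => exact hveig f hf
    | algebraMap c => exact ⟨c, rfl⟩
    | add f g _ _ hf hg =>
      obtain ⟨c, hc⟩ := hf
      obtain ⟨d, hd⟩ := hg
      exact ⟨c + d, by rw [LinearMap.add_apply, hc, hd, add_smul]⟩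
    | mul f g _ _ hf hg =>
      obtain ⟨c, hc⟩ := hf
      obtain ⟨d, hd⟩ := hg
      exact ⟨d * c, by rw [Module.End.mul_apply, hd, map_smul, hc, smul_smul]⟩
  have hc0 : c ≠ 0 := fun h => hav (by rw [hc, h, zero_smul])
  let q : Submodule K (BettiLoc L (bettiBaseChar K χ) K S') := Module.End.eigenspace a c
  obtain ⟨w, hw, hw0, hweig⟩ := exists_common_eigenvector
    (Set.range fun l => act (MvPolynomial.X l)) (by rintro _ ⟨l, rfl⟩ _ ⟨l', rfl⟩; exact hcomm _ _)
    q (fun h => hv0 (by
      have : v ∈ q := Module.End.mem_eigenspace_iff.2 hc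
      rw [h, Submodule.mem_bot] at this
      exact this))
    (by
      rintro _ ⟨l, rfl⟩ u hu
      rw [Module.End.mem_eigenspace_iff] at hu ⊢
      rw [← Module.End.mul_apply, ha, hcomm, Module.End.mul_apply, ← ha, hu, map_smul])
  choose lam hlam using fun l => hweig _ ⟨l, rfl⟩
  obtain ⟨m, hmS, hm⟩ := exists_eigen_lift (K := K) S' hw0
  have hmX : ∀ l, (MvPolynomial.X l : BettiHeckeAlg K) • m = lam l • m := fun l =>
    hm _ _ (by rw [algebraMap_smul]; exact hlam l)
  have hm0 : m ≠ 0 := fun h => hmS 1 (one_mem _) (by rw [h, smul_zero])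
  have hwev := smul_eq_eval₂_smul (algebraMap A K) (w := w) hlam
  refine ⟨σ, lam, ⟨⟨m, hm0, hmX⟩, fun Q hQ => ?_, fun s hs h => ?_⟩, fun h0 => ?_⟩
  · have h0 := map_smul_eq_zero_of_forall_smul_eq_zero (K := K) hR hQ w
    rw [hwev] at h0
    exact (smul_eq_zero.1 h0).resolve_right hw0
  · refine hmS _ (Submonoid.mem_map_of_mem _ hs) ?_
    rw [smul_eq_eval₂_smul (algebraMap A K) hmX, show algebraMap A K = σ.toRingHom from rfl, h,
      zero_smul]
  · have h1 : a w = 0 := by
      show MvPolynomial.map (algebraMap A K) P • w = 0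
      rw [hwev]
      exact smul_eq_zero_of_left h0 _
    rw [Module.End.mem_eigenspace_iff.1 hw] at h1
    exact hw0 ((smul_eq_zero.1 h1).resolve_left hc0)

end FermatLib.MLT.Odd

end
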