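import Fermat.Agent.MLT.Odd.SupplyEigenPoint
import Fermat.Agent.MLT.Odd.SupplyTwist
import Fermat.Agent.MLT.Odd.SupplyPointInputs
import Fermat.Agent.MLT.Odd.SystemFamilyPoints
import Fermat.Agent.MLT.Odd.HeckeRepNonEisenstein
import Fermat.Agent.Galois.AttachmentProved
import Mathlib.FieldTheory.IsAlgClosed.AlgebraicClosure

/-!
# A system of a variant is a point of a Hecke algebra of trivial character

The traces of a system at good Frobenius elements are the values of a point of the Hecke algebra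
of a twisted level, with the primes of the level of the variant and the exponent of a prime off the
twisted ones at most one, in the coefficients of the system.  So inertia at such a prime is
unipotent, and trivial off the level.
-/

set_option autoImplicit false
set_option linter.style.haveILetI false
set_option linter.unusedSectionVars false

noncomputable section

namespace FermatLib.MLT.Odd

open IsLocalRing CuspForm FermatLib.Galois FermatLib.Galois.DeformLocal FermatLib.MLT.HeckeRep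
  FermatLib.Modular.Twist

local notation "Qbar" => AlgebraicClosure ℚ
local notation "Γℚ" => (AlgebraicClosure ℚ ≃ₐ[ℚ] AlgebraicClosure ℚ)

variable {O : Type} [CommRing O] [IsDomain O] [IsDiscreteValuationRing O]
  [IsAdicComplete (maximalIdeal O) O] [Finite (ResidueField O)] [CharZero O] {p : ℕ}
  [Fact p.Prime] {ρbar : ResidualGaloisRep (ResidueField O)} {S : OddPrimes p ρbar}
  {tp : S.TamePairs} {P : SupplyParams S tp} {Q : Finset ℕ} {r e : ℕ} {C : SupplyLevel P Q r e}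

/-- A ring map at `g - (n + 1)`. -/
private theorem map_sub_natCast_add_one {R T : Type} [CommRing R] [CommRing T] (f : R →+* T)
    (g : R) (n : ℕ) : f (g - ((n : R) + 1)) = f g - ((n : T) + 1) := by
  rw [map_sub, map_add, map_natCast, map_one]

/-- **A system is a point of a twisted level.** -/
theorem SupplySystems.exists_point_twist (hp2 : p ≠ 2) (hpO : (p : O) ∈ maximalIdeal O)
    (hres : OddResidual p ρbar) {v : OddVariant} (Y : SupplySystems C v)
    (j : Y.κ) :
    ∃ (N : ℕ) (_ : NeZero N) (χ₀ : heckeAlgebra N 2 (C.exc v : Set ℕ) →+* (Y.y j).O'),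
      C.level v ∣ N ∧
      (∀ q : ℕ, q.Prime → q ∣ N → q ∣ C.level v) ∧
      (∀ q : ℕ, q.Prime → q ∉ (C.twistData v).Qs → ¬ q ^ 2 ∣ N) ∧
      ∀ (ℓ : ℕ) (hℓ : ℓ.Prime) (hℓN : ¬ ℓ ∣ N) (hℓE : ℓ ∉ (C.exc v : Set ℕ)),
        χ₀ (heckeAlgebra.T hℓ hℓN hℓE) = Y.ev j (C.tElt v ℓ) := by
  classical
  have hp : p.Prime := Fact.out
  have hodd : Odd p := hp.odd_of_ne_two hp2
  haveI : NeZero (p ^ e) := ⟨pow_ne_zero _ hp.ne_zero⟩
  let K : Type := AlgebraicClosure (FractionRing (Y.y j).O')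
  let ι : (Y.y j).O' →+* K :=
    (algebraMap (FractionRing (Y.y j).O') K).comp (algebraMap (Y.y j).O' _)
  have hι : Function.Injective ι :=
    (algebraMap (FractionRing (Y.y j).O') K).injective.comp (IsFractionRing.injective _ _)
  haveI : CharZero K := (RingHom.charZero_iff hι).1 inferInstance
  haveI : NeZero (C.level v * ∏ q ∈ (C.twistData v).Qs, q) :=
    ⟨mul_ne_zero (NeZero.ne _) (Finset.prod_ne_zero_iff.2 fun q hq => ((C.twistData v).exactly q hq).1.ne_zero)⟩
  -- a prime which is not Eisenstein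
  obtain ⟨ℓ₀, hℓ₀, hℓ₀T, hℓ₀N, -, hℓ₀1, A₀, hA₀, σ₀, hσ₀, hne₀⟩ :=
    HeckeRep.exists_frobenius_trace_ne hres.absIrred hp hres.det
      (C.level v * ∏ q ∈ (C.twistData v).Qs, q) (p * S.level).primeFactors
  have hgood : ¬ ℓ₀ ∣ p * S.level := fun h => hℓ₀T (Nat.mem_primeFactors.2
    ⟨hℓ₀, h, mul_ne_zero hp.ne_zero (NeZero.ne _)⟩)
  have hℓ₀L : ¬ ℓ₀ ∣ C.level v := fun h => hℓ₀N (h.mul_right _)
  let l₀ : Nat.Primes := ⟨ℓ₀, hℓ₀⟩
  have hl₀ : l₀ ∈ S.supplyPrimes := Or.inl hgood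
  have hnot : l₀ ∉ C.qPrimes := fun hm => by
    obtain ⟨i, hi⟩ := C.mem_qPrimes.1 hm
    exact hℓ₀L (show (l₀ : ℕ) ∣ C.level v from hi ▸ C.qv_dvd_level v i)
  have hX : C.theta v (MvPolynomial.X l₀) ≠ (ℓ₀ : ResidueField O) + 1 := by
    rw [SupplyLevel.theta, residualRaiseSet_X_of_notMem _ _ hnot,
      baseTheta_X_of_not_dvd P v (by exact hgood), P.θX_good l₀ hgood A₀ hA₀ σ₀ hσ₀]
    exact hne₀
  have hne : C.theta v (MvPolynomial.X l₀) ≠
      C.theta v (MvPolynomial.C (heckeDegree (C.char v) l₀)) := by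
    rw [C.theta_const v, residue_heckeDegree (fun d => ?_) l₀ hℓ₀L]
    · exact hX
    · rw [C.char_eq_baseChar v, MonoidHom.comp_apply]
      exact residue_baseChar hpO v _
  have hχ : C.char v (-1) = 1 := by
    rw [C.char_eq_baseChar v, MonoidHom.comp_apply,
      show ZMod.unitsMap (C.baseLevel_dvd v) (-1) = -1 from Units.ext (by simp [ZMod.unitsMap_def]),
      baseChar_neg_one hp2]
  -- the eigenclass
  obtain ⟨F, σR, lam, x, hx, heig, hFψ, hlam, -, -, htw⟩ := C.exists_eigenclass_point v hpO hχ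
    (C.delta_neg_one hp2 v) (C.ellipticHarmless_theta hp2 hpO v) l₀ hl₀ hne
    (K := K) (ι.comp (Y.ev j).toRingHom)
  haveI := diamond_isLocalRing O C.Δ hpO (isPGroup_twGroup r)
  haveI := diamond_isAdicComplete O C.Δ
  have hθd : ∀ a ∈ maximalIdeal (DiamondRing O C.Δ), (gammaHTheta O (C.theta v) C.Δ) (MvPolynomial.C a) = 0 :=
    gammaHTheta_maximal (Δ := C.Δ) O (C.theta v) (C.theta_maximal v)
  haveI : Nontrivial (BettiResLoc (charDiamond O (C.char v) (C.delta v)) S.supplyPrimes (gammaHTheta O (C.theta v) C.Δ)) := by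
    by_contra hnt
    rw [not_nontrivial_iff_subsingleton] at hnt
    have h10 : (1 : bettiFullHecke (charDiamond O (C.char v) (C.delta v)) S.supplyPrimes (gammaHTheta O (C.theta v) C.Δ)) = 0 :=
      Subtype.ext (LinearMap.ext fun _ => Subsingleton.elim _ _)
    exact one_ne_zero (α := K) ((map_one F).symm.trans ((congrArg F h10).trans (map_zero F)))
  haveI : IsLocalRing (bettiResHecke (charDiamond O (C.char v) (C.delta v)) S.supplyPrimes (gammaHTheta O (C.theta v) C.Δ)) :=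
    bettiResHecke_isLocalRing (charDiamond O (C.char v) (C.delta v)) _ (gammaHTheta O (C.theta v) C.Δ) hθd
  have hnE : lam l₀ ≠ (ℓ₀ : K) + 1 := fun he => by
    have hu : IsUnit (bettiResGen (charDiamond O (C.char v) (C.delta v)) S.supplyPrimes (gammaHTheta O (C.theta v) C.Δ) ⟨l₀, hl₀⟩ - ((ℓ₀ : ℕ) + 1)) := by
      refine notMem_maximalIdeal.1 fun hm => hX ?_
      have h2 := (map_sub_natCast_add_one _ _ _).symm.trans
        ((bettiResHecke_mem_maximalIdeal_iff (charDiamond O (C.char v) (C.delta v)) _ (gammaHTheta O (C.theta v) C.Δ) hθd _).1 hm)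
      rw [bettiResChar_gen, sub_eq_zero, gammaHTheta_X] at h2
      exact h2
    let toFull : bettiResHecke (charDiamond O (C.char v) (C.delta v)) S.supplyPrimes (gammaHTheta O (C.theta v) C.Δ) →ₐ[DiamondRing O C.Δ]
        bettiFullHecke (charDiamond O (C.char v) (C.delta v)) S.supplyPrimes (gammaHTheta O (C.theta v) C.Δ) :=
      Subalgebra.inclusion (by rintro _ ⟨R, rfl⟩; exact ⟨(R : BettiHeckeAlg (DiamondRing O C.Δ)), rfl⟩)
    have hgen : toFull (bettiResGen (charDiamond O (C.char v) (C.delta v)) S.supplyPrimes (gammaHTheta O (C.theta v) C.Δ) ⟨l₀, hl₀⟩) =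
        bettiFullQuot (charDiamond O (C.char v) (C.delta v)) S.supplyPrimes (gammaHTheta O (C.theta v) C.Δ) (MvPolynomial.X l₀) := Subtype.ext rfl
    exact (hu.map (F.comp toFull.toRingHom)).ne_zero ((map_sub_natCast_add_one _ _ _).trans
      (sub_eq_zero.2 (((congrArg F hgen).trans (hlam l₀).symm).trans he)))
  -- the twisted point
  haveI : NeZero (C.level v * ∏ q ∈ (C.twistData v).primesAt σR, q) :=
    ⟨mul_ne_zero (NeZero.ne _) (Finset.prod_ne_zero_iff.2 fun q hq =>
      ((C.twistData v).exactly_primesAt σR q hq).1.ne_zero)⟩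
  obtain ⟨θK, hθT, -, -⟩ := exists_twist_point ((C.twistData v).exactly_primesAt σR)
    ((C.twistData v).psiAt_sq_ne_one σR hodd) ((C.twistData v).chi_mul_twistFactor_sq σR hodd) (x := x) hx lam
    (fun l _ => by
      have := heig l
      rwa [BettiMod.hecke_smul, bettiEval_X] at this)
    ⟨l₀, (C.twistData v).modEq_one_primesAt σR hℓ₀1, hnE⟩
  let N := C.level v * ∏ q ∈ (C.twistData v).primesAt σR, q
  have hdvdN : C.level v ∣ N := dvd_mul_right _ _
  have hprimesN : ∀ q : ℕ, q.Prime → q ∣ N → q ∣ C.level v := fun q hq hqN => by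
    rcases hq.dvd_mul.1 hqN with hd | hd
    · exact hd
    · obtain ⟨s, hs, hqs⟩ := (Prime.dvd_finsetProd_iff hq.prime _).1 hd
      rw [(Nat.prime_dvd_prime_iff_eq hq ((C.twistData v).exactly_primesAt σR s hs).1).1 hqs]
      exact ((C.twistData v).exactly_primesAt σR s hs).2.1
  have hsqN : ∀ q : ℕ, q.Prime → q ∉ (C.twistData v).Qs → ¬ q ^ 2 ∣ N := fun q hq hqs h2 =>
    C.not_sq_dvd_level v hq ((Nat.Coprime.prod_right fun s hs =>
      Nat.Coprime.pow_left 2 ((Nat.coprime_primes hq ((C.twistData v).exactly_primesAt σR s hs).1).2 fun he =>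
        hqs (he ▸ (C.twistData v).primesAt_subset σR hs))).dvd_of_dvd_mul_right h2)
  -- its values are in the coefficients
  let incl : heckeAlgebra N 2 (C.exc v : Set ℕ) →+* K := θK.comp
    (Subalgebra.inclusion
      (CuspForm.heckeAlgebra_mono (Set.empty_subset (C.exc v : Set ℕ)))).toRingHom
  have hT : ∀ (ℓ : ℕ) (hℓ : ℓ.Prime) (hℓN : ¬ ℓ ∣ N) (hℓE : ℓ ∉ (C.exc v : Set ℕ)),
      incl (heckeAlgebra.T hℓ hℓN hℓE) = ι (Y.ev j (C.tElt v ℓ)) := fun ℓ hℓ hℓN hℓE => by
    have hcop : ℓ.Coprime (C.level v) :=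
      hℓ.coprime_iff_not_dvd.2 fun hd => hℓN (hd.trans hdvdN)
    show θK (heckeAlgebra.T hℓ hℓN (Set.notMem_empty ℓ)) = _
    refine ((hθT ℓ hℓ hℓN).trans ?_).trans (htw ℓ hℓ (by exact_mod_cast hℓE))
    rw [(C.twistData v).twistFactor_primesAt σR hcop, C.val_twistData v hcop]
  have hmem : ∀ a, incl a ∈ ι.range := by
    rintro ⟨a, ha⟩
    induction ha using Algebra.adjoin_induction with
    | mem a ha =>
      rcases ha with ⟨ℓ, hℓ, hℓN, hℓE, rfl⟩ | ⟨q, hqN, hq, hqE, rfl⟩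
      · exact ⟨_, (hT ℓ hℓ hℓN hℓE).symm⟩
      · exact absurd (Nat.mem_primeFactors.2 ⟨hq, (hprimesN q hq hqN).mul_left p,
          mul_ne_zero hp.ne_zero (NeZero.ne _)⟩) (by exact_mod_cast hqE)
    | algebraMap c =>
      refine ⟨(c : (Y.y j).O'), ?_⟩
      rw [map_intCast]
      exact (map_intCast incl c).symm
    | add a b hha hhb iha ihb =>
      rw [show (⟨a + b, _⟩ : heckeAlgebra N 2 (C.exc v : Set ℕ)) = ⟨a, hha⟩ + ⟨b, hhb⟩ from rfl,
        map_add]
      exact add_mem iha ihb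
    | mul a b hha hhb iha ihb =>
      rw [show (⟨a * b, _⟩ : heckeAlgebra N 2 (C.exc v : Set ℕ)) = ⟨a, hha⟩ * ⟨b, hhb⟩ from rfl,
        map_mul]
      exact mul_mem iha ihb
  obtain ⟨χ₀, hχ₀⟩ := exists_ringHom_of_mem_range ι hι incl hmem
  exact ⟨N, inferInstance, χ₀, hdvdN, hprimesN, hsqN, fun ℓ hℓ hℓN hℓE => hι
    ((hχ₀ _).trans (hT ℓ hℓ hℓN hℓE))⟩

/-- **Inertia of a system**: unipotent at a prime off the twisted ones, trivial off the level. -/
theorem SupplySystems.inertia_of_point (hp2 : p ≠ 2) (hpO : (p : O) ∈ maximalIdeal O)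
    (hres : OddResidual p ρbar) {v : OddVariant} (Y : SupplySystems C v)
    (j : Y.κ) {q : ℕ} (hq : q.Prime) (hqp : q ≠ p) :
    (q ∉ (C.twistData v).Qs → (Y.y j).r.IsUnipotentOnInertiaAt q) ∧
      (¬ q ∣ C.level v → (Y.y j).r.IsUnramifiedAt q) := by
  classical
  have hp : p.Prime := Fact.out
  set x := Y.y j with hx
  obtain ⟨N, hN0, χ₀, -, hprimesN, hsqN, hT⟩ := Y.exists_point_twist hp2 hpO hres j
  have hpE : p ∈ C.exc v := Nat.mem_primeFactors.2
    ⟨hp, dvd_mul_right _ _, mul_ne_zero hp.ne_zero (NeZero.ne _)⟩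
  have hNE : ∀ s : ℕ, s.Prime → s ∣ N → s ∈ C.exc v := fun s hs hsN => Nat.mem_primeFactors.2
    ⟨hs, (hprimesN s hs hsN).mul_left p, mul_ne_zero hp.ne_zero (NeZero.ne _)⟩
  have htr : ∀ (ℓ : ℕ) (hℓ : ℓ.Prime) (hℓN : ¬ ℓ ∣ N) (hℓE : ℓ ∉ (C.exc v : Set ℕ)),
      ∀ A : ValuationSubring Qbar, A.LiesOverPrime ℓ → ∀ σ : Γℚ, A.IsFrobeniusAt σ ℓ →
        x.r.trace σ = χ₀ (heckeAlgebra.T hℓ hℓN hℓE) := fun ℓ hℓ hℓN hℓE A hA σ hσ => by
    rw [hT ℓ hℓ hℓN hℓE]
    exact Y.t_spec j ℓ hℓ (by exact_mod_cast hℓE) A hA σ hσ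
  obtain ⟨L⟩ := nonempty_pointLift padicAttachment hp2 hpO hres.absIrred hres.det hpE hNE
    (pointInputs_holds N hp2) χ₀ fun ℓ hℓ hℓN hℓE A hA σ hσ => by
      rw [← htr ℓ hℓ hℓN hℓE A hA σ hσ, x.residue_trace]
  set φ := L.ι.toRingHom with hφdef
  have hloc : IsLocalHom φ := isLocalHom_of_injective_algHom L.ι L.ι_injective
  have hirr : L.r.residual.IsAbsolutelyIrreducible :=
    isAbsolutelyIrreducible_of_trace_eq ((isAbsolutelyIrreducible_baseChangeAlong_iff
      (ResidueField.map (algebraMap O L.O')) ρbar).2 hres.absIrred) fun σ => by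
      rw [trace_residual, L.residue_trace]
      letI : Algebra (ResidueField O) (ResidueField L.O') :=
        (ResidueField.map (algebraMap O L.O')).toAlgebra
      exact LinearMap.trace_baseChange (ρbar.ρ σ) (ResidueField L.O')
  have he : L.r.IsEquiv (x.r.baseChangeAlong φ hloc) := by
    refine adic_isEquiv_of_charpoly_eq hirr
      (adic_charpoly_eq_of_frobenius _ _ (C.exc v) fun ℓ hℓ hℓE A hA σ hσ => ?_)
    have hℓN : ¬ ℓ ∣ N := fun h => hℓE (hNE ℓ hℓ h)
    have hℓp : ℓ ≠ p := fun h => hℓE (h ▸ hpE)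
    rw [adic_charpoly_eq, adic_charpoly_eq, det_frobenius _ hp L.det hℓ hℓp hA hσ,
      det_frobenius _ hp (detIsCyclotomic_baseChange _ hloc x.lift.det) hℓ hℓp hA hσ,
      trace_baseChangeAlong_apply, htr ℓ hℓ hℓN (by exact_mod_cast hℓE) A hA σ hσ,
      L.trace_frob hℓ hℓN (by exact_mod_cast hℓE) hA hσ]
    rfl
  refine ⟨fun hqQ => ?_, fun hqL => ?_⟩
  · have h := isUnipotentOnInertiaAt_of_isEquiv he (L.unipotent q hq hqp (hsqN q hq hqQ))
    exact isUnipotentOnInertiaAt_of_jointly_injective φ hloc φ hloc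
      (fun a ha _ => L.ι_injective (ha.trans (map_zero _).symm)) h h
  · have h := isUnramifiedAt_of_isEquiv he
      (L.unramified q hq (fun hqN => hqL (hprimesN q hq hqN)) hqp)
    exact isUnramifiedAt_of_jointly_injective φ hloc φ hloc
      (fun a ha _ => L.ι_injective (ha.trans (map_zero _).symm)) h h

end FermatLib.MLT.Odd

end
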