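import Fermat.Agent.MLT.Odd.SupplyPoint
import Fermat.Agent.MLT.Odd.SupplyValuesPoint

/-!
# The old systems at a prime of `F` are unramified there

The level of the variant old at `s` is prime to `s`.
-/

set_option autoImplicit false
set_option linter.style.haveILetI false

noncomputable section

namespace FermatLib.MLT.Odd

open IsLocalRing

variable {O : Type} [CommRing O] [IsDomain O] [IsDiscreteValuationRing O]
  [IsAdicComplete (maximalIdeal O) O] [Finite (ResidueField O)] [CharZero O] {p : ℕ}
  [Fact p.Prime] {ρbar : ResidualGaloisRep (ResidueField O)} {S : OddPrimes p ρbar}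
  {tp : S.TamePairs} {P : SupplyParams S tp} {Q : Finset ℕ} {r e : ℕ}

/-- The old systems at a prime of `F` are unramified there. -/
theorem supply_old_F_proof (hp2 : p ≠ 2) (hpO : (p : O) ∈ maximalIdeal O)
    (hres : OddResidual p ρbar) {C : SupplyLevel P Q r e} {s : ℕ} (hs : s ∈ S.F)
    (Y : SupplySystems C (.old s)) (j : Y.κ) : (Y.y j).r.IsUnramifiedAt s :=
  (Y.inertia_of_point hp2 hpO hres j (S.prime_of_mem s (Finset.mem_union_right _ hs))
    (S.ne_p s (Finset.mem_union_right _ hs))).2 (C.not_dvd_level_old_F hs)

end FermatLib.MLT.Odd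

end
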