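import Fermat.Agent.MLT.Odd.SupplyValuesPoint

/-!
# The systems of the full module at `T`

A prime of `T` divides the level of the full module exactly and is not twisted, so inertia there is
unipotent.
-/

set_option autoImplicit false
set_option linter.style.haveILetI false
set_option linter.unusedSectionVars false

noncomputable section

namespace FermatLib.MLT.Odd

open IsLocalRing FermatLib.Galois

variable {O : Type} [CommRing O] [IsDomain O] [IsDiscreteValuationRing O]
  [IsAdicComplete (maximalIdeal O) O] [Finite (ResidueField O)] [CharZero O] {p : ℕ}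
  [Fact p.Prime] {ρbar : ResidualGaloisRep (ResidueField O)} {S : OddPrimes p ρbar}
  {tp : S.TamePairs} {P : SupplyParams S tp} {Q : Finset ℕ} {r e : ℕ}

/-- Inertia of a system of the full module at `T` is unipotent. -/
theorem SupplySystems.isUnipotentOnInertiaAt_std (hp2 : p ≠ 2) (hpO : (p : O) ∈ maximalIdeal O)
    (hres : OddResidual p ρbar) {C : SupplyLevel P Q r e} (Y : SupplySystems C .std) (q : S.T)
    (j : Y.κ) : (Y.y j).r.IsUnipotentOnInertiaAt (q : ℕ) := by
  have hall : (q : ℕ) ∈ S.all := Finset.mem_union_left _ (Finset.mem_union_right _ q.2)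
  refine (Y.inertia_of_point hp2 hpO hres j (S.prime_of_mem _ hall)
    (S.ne_p _ hall)).1 fun h => ?_
  rcases Finset.mem_union.1 h with h | h
  · exact Finset.notMem_empty _ h
  · obtain ⟨i, -, hi⟩ := Finset.mem_image.1 h
    exact C.notMem i (hi ▸ Finset.mem_insert_of_mem hall)

/-- **The trace of the tame generator on a system of the full module is `2`.** -/
theorem SupplySystems.trace_gen_std (hp2 : p ≠ 2) (hpO : (p : O) ∈ maximalIdeal O)
    (hres : OddResidual p ρbar) {C : SupplyLevel P Q r e} (Y : SupplySystems C .std) (q : S.T)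
    (j : Y.κ) : (Y.y j).r.trace (tp.atT q).gen = 2 := by
  have h := Y.isUnipotentOnInertiaAt_std hp2 hpO hres q j (tp.atT q).A (tp.atT q).liesOver
    (tp.atT q).gen (tp.atT q).gen_mem
  refine (FermatLib.MLT.HeckeRep.det_of_charpoly_eq (d := 1) (t := 2) (Y.y j).r (h.trans ?_)).2
  rw [map_one, map_ofNat]
  ring

end FermatLib.MLT.Odd

end
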