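import Fermat.Agent.MLT.Odd.SupplyFamily
import Fermat.Agent.MLT.Odd.SupplySystemOfLevel
import Fermat.Agent.MLT.Odd.SupplyValuesStd
import Fermat.Agent.MLT.Odd.SupplyValuesChi
import Fermat.Agent.MLT.Odd.SupplyValuesOld
import Fermat.Agent.MLT.Odd.SupplyInertiaQ

/-!
# The systems of the levels and their local values
-/

set_option autoImplicit false
set_option linter.style.haveILetI false

noncomputable section

namespace FermatLib.MLT.Odd

open IsLocalRing

local notation "Γℚ" => (AlgebraicClosure ℚ ≃ₐ[ℚ] AlgebraicClosure ℚ)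

variable {O : Type} [CommRing O] [IsDomain O] [IsDiscreteValuationRing O]
  [IsAdicComplete (maximalIdeal O) O] [Finite (ResidueField O)] [CharZero O] {p : ℕ}
  [Fact p.Prime] {ρbar : ResidualGaloisRep (ResidueField O)} {S : OddPrimes p ρbar}
  {tp : S.TamePairs} {P : SupplyParams S tp} {Q : Finset ℕ} {r e : ℕ}

/-- **Every variant has its systems.** -/
theorem nonempty_supplySystems (hp2 : p ≠ 2) (hpO : (p : O) ∈ maximalIdeal O)
    (hres : OddResidual p ρbar) (C : SupplyLevel P Q r e) {v : OddVariant}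
    (hv : ∀ s, v = .old s → S.HasOld s) : Nonempty (SupplySystems C v) :=
  C.nonempty_systems hp2 hpO hres v

/-- The full module has unipotent inertia at `T`. -/
theorem supply_std_T (hp2 : p ≠ 2) (hpO : (p : O) ∈ maximalIdeal O) (hres : OddResidual p ρbar)
    {C : SupplyLevel P Q r e} (Y : SupplySystems C .std) (q : S.T) (j : Y.κ) :
    (Y.y j).r.trace (tp.atT q).gen = 2 :=
  Y.trace_gen_std hp2 hpO hres q j

/-- The twisted module has inertia eigenvalues `ζ`, `ζ⁻¹` at `T`. -/
theorem supply_chi_T (hp2 : p ≠ 2) (hpO : (p : O) ∈ maximalIdeal O) (hres : OddResidual p ρbar)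
    {C : SupplyLevel P Q r e} (Y : SupplySystems C .chi) (q : S.T) (j : Y.κ) :
    (Y.y j).r.trace (tp.atT q).gen =
      algebraMap O _ (P.ζ q + Ring.inverse (P.ζ q)) :=
  C.trace_gen_chi hp2 hpO hres Y q j

/-- The old systems at a prime of `F` are unramified there. -/
theorem supply_old_F (hp2 : p ≠ 2) (hpO : (p : O) ∈ maximalIdeal O) (hres : OddResidual p ρbar)
    {C : SupplyLevel P Q r e} {s : ℕ} (hs : s ∈ S.F) (Y : SupplySystems C (.old s)) (j : Y.κ) :
    (Y.y j).r.IsUnramifiedAt s :=
  supply_old_F_proof hp2 hpO hres hs Y j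

/-- The systems of the full module at level zero are of the level `S.level`. -/
theorem supply_isSystemOfLevel (hp2 : p ≠ 2) (hpO : (p : O) ∈ maximalIdeal O)
    (hres : OddResidual p ρbar) (Y : SupplySystems (SupplyLevel.zero P) .std) (j : Y.κ) :
    IsSystemOfLevel S (Y.y j).r :=
  supply_isSystemOfLevel_zero hp2 hpO hres Y j

/-- **The diamonds from inertia at an auxiliary prime.** `φ` is a Frobenius, `τ` an inertia element
with cyclotomic value `a`: the root `u` over the chosen residual root, and the inertia value `d`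
whose square is inverse to the diamond of `a`. -/
theorem supply_inertia_Q (hp2 : p ≠ 2) (hpO : (p : O) ∈ maximalIdeal O) (hres : OddResidual p ρbar)
    {C : SupplyLevel P Q r e} {v : OddVariant} (hv : ∀ s, v = .old s → S.HasOld s)
    (Y : SupplySystems C v) (j : Y.κ) (i : Fin r) {A : ValuationSubring (AlgebraicClosure ℚ)}
    (hA : A.LiesOverPrime (C.qv i)) {φ τ : Γℚ} (hφ : A.IsFrobeniusAt φ (C.qv i))
    (hτ : τ ∈ A.inertiaSubgroupIn ℚ) :
    haveI : NeZero (C.qv i) := ⟨(C.prime i).ne_zero⟩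
    ∃ d d' u : (Y.y j).O',
      u ^ 2 - (Y.y j).r.trace φ * u + LinearMap.det ((Y.y j).r.ρ φ) = 0 ∧
      residue (Y.y j).O' u = ResidueField.map (algebraMap O (Y.y j).O') (C.α i) ∧
      d * d' = 1 ∧
      (Y.y j).r.trace τ = d + d' ∧
      (Y.y j).r.trace (τ * φ) = d * u + d' * ((Y.y j).r.trace φ - u) ∧
      d ^ 2 * Y.ev j (C.diamond v (Pi.mulSingle i (C.f i (Galois.modCycloChar (C.qv i) τ)))) = 1 :=
  C.inertia_aux_prime hp2 hpO hres Y j i hA hφ hτ

end FermatLib.MLT.Odd
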