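import Fermat.Agent.MLT.Odd.SupplyAux
import Fermat.Agent.MLT.Odd.SupplyModules
import Fermat.Agent.MLT.Odd.SupplySystems
import Fermat.Agent.MLT.Odd.SupplyRaising
import Fermat.Agent.MLT.Odd.LevelDiamond

/-!
# The data of a level from the systems and raising maps of its variants
-/

set_option autoImplicit false
set_option linter.style.haveILetI false

noncomputable section

namespace FermatLib.MLT.Odd

open IsLocalRing

local notation "Γℚ" => (AlgebraicClosure ℚ ≃ₐ[ℚ] AlgebraicClosure ℚ)

variable {O : Type} [CommRing O] [IsDomain O] [IsDiscreteValuationRing O] {p : ℕ} [Fact p.Prime]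
  {ρbar : ResidualGaloisRep (ResidueField O)} {S : OddPrimes p ρbar}

/-- The primes with an old module. -/
def OddPrimes.oldSet (S : OddPrimes p ρbar) : Finset ℕ :=
  S.F ∪ if S.pCase = PCase.mixed then {p} else ∅

theorem OddPrimes.mem_oldSet {s : ℕ} : s ∈ S.oldSet ↔ S.HasOld s := by
  unfold OddPrimes.oldSet OddPrimes.HasOld
  split_ifs with h <;> simp [h, or_comm]

/-- Having an old module is decidable. -/
def OddPrimes.decHasOld (S : OddPrimes p ρbar) (s : ℕ) : Decidable (S.HasOld s) :=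
  decidable_of_iff _ S.mem_oldSet

/-- A prime of `F` divides the level exactly once. -/
theorem OddPrimes.not_dvd_baseLevel_old {s : ℕ} (hs : s ∈ S.F) :
    ¬ s ∣ S.baseLevel (.old s) := by
  classical
  have hsp : s.Prime := S.prime_of_mem s (Finset.mem_union_right _ hs)
  have hall : s ∈ S.all := Finset.mem_union_right _ hs
  have hne : s ≠ p := S.ne_p s (Finset.mem_union_right _ hs)
  have hlev : S.level = s * ((∏ q ∈ S.all.erase s, q) * if S.pCase = PCase.flat then 1 else p) := by
    unfold OddPrimes.level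
    rw [← Finset.mul_prod_erase _ _ hall, mul_assoc]
  have hdvd : s ∣ S.level := ⟨_, hlev⟩
  show ¬ s ∣ S.level / Nat.gcd s S.level
  rw [Nat.gcd_eq_left hdvd, hlev, Nat.mul_div_cancel_left _ hsp.pos]
  intro h
  rcases (Nat.Prime.dvd_mul hsp).1 h with h | h
  · obtain ⟨q, hq, hd⟩ := (Prime.dvd_finsetProd_iff hsp.prime _).1 h
    obtain ⟨hqs, hqall⟩ := Finset.mem_erase.1 hq
    exact hqs ((Nat.prime_dvd_prime_iff_eq hsp (S.prime_of_mem q hqall)).1 hd).symm
  · split_ifs at h
    · exact hsp.ne_one (Nat.dvd_one.1 h)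
    · exact hne ((Nat.prime_dvd_prime_iff_eq hsp (Fact.out : p.Prime)).1 h)

variable {tp : S.TamePairs} {P : SupplyParams S tp} {Q : Finset ℕ} {r e : ℕ}

/-- The rank of a variant, zero for a missing old module. -/
def SupplyParams.oldRank (P : SupplyParams S tp) (s : ℕ) : Decidable (S.HasOld s) → ℕ
  | .isTrue _ => P.rank (.old s)
  | .isFalse _ => 0

/-- The ranks of the variants. -/
def SupplyParams.ranks (P : SupplyParams S tp) : OddVariant → ℕ
  | .std => P.rank .std
  | .chi => P.rank .chi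
  | .old s => P.oldRank s (S.decHasOld s)

namespace SupplyLevel

variable {C : SupplyLevel P Q r e}

theorem prime_exc_of_F {s : ℕ} (hs : s ∈ S.F) : s ∉ C.exc (.old s) := by
  intro h
  have hsp : s.Prime := S.prime_of_mem s (Finset.mem_union_right _ hs)
  rcases (Nat.Prime.dvd_mul hsp).1 (Nat.dvd_of_mem_primeFactors h) with h | h
  · exact S.ne_p s (Finset.mem_union_right _ hs)
      ((Nat.prime_dvd_prime_iff_eq hsp (Fact.out : p.Prime)).1 h)
  rcases (Nat.Prime.dvd_mul hsp).1 h with h | h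
  · exact S.not_dvd_baseLevel_old hs h
  · obtain ⟨i, -, hd⟩ := (Prime.dvd_finsetProd_iff hsp.prime _).1 h
    refine C.notMem i (Finset.mem_insert_of_mem ?_)
    rw [← (Nat.prime_dvd_prime_iff_eq hsp (C.prime i)).1 hd]
    exact Finset.mem_union_right _ hs

theorem diamond_mul (v : OddVariant) (g g' : C.Δ) :
    C.diamond v (g * g') = C.diamond v g * C.diamond v g' := by
  unfold diamond
  rw [← map_mul]
  exact congrArg _ (Subtype.ext (by
    show MvPolynomial.C _ = MvPolynomial.C _ * MvPolynomial.C _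
    rw [map_mul, map_mul]))

theorem diamond_one (v : OddVariant) : C.diamond v 1 = 1 := by
  unfold diamond
  rw [← map_one (C.toHecke v)]
  exact congrArg _ (Subtype.ext (by
    show MvPolynomial.C _ = 1
    rw [map_one, map_one]))

/-- The diamonds as a homomorphism. -/
def diamondHom (v : OddVariant) : C.Δ →* C.hecke v where
  toFun := C.diamond v
  map_one' := diamond_one v
  map_mul' := diamond_mul v

theorem twGen_pow (i : Fin r) : (twGen i : C.Δ) ^ p ^ e = 1 := by
  funext j
  rw [Pi.pow_apply, Pi.one_apply, ← ofAdd_toAdd (twGen i j), ← ofAdd_nsmul]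
  simp

theorem diamond_pow (v : OddVariant) (g : C.Δ) (n : ℕ) :
    C.diamond v (g ^ n) = C.diamond v g ^ n :=
  map_pow_of_mul (C.diamond v) (diamond_one v) (diamond_mul v) g n

theorem diamond_twGen_pow (v : OddVariant) (i : Fin r) :
    C.diamond v (twGen i) ^ p ^ e = 1 :=
  (diamond_pow v (twGen i) (p ^ e)).symm.trans
    ((congrArg (C.diamond v) (twGen_pow i)).trans (diamond_one v))

/-- A subalgebra containing the diamonds and the twisted operators is everything. -/
theorem hecke_eq_top {v : OddVariant} {B : Subalgebra O (C.hecke v)}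
    (hg : ∀ g, C.diamond v g ∈ B) (ht : ∀ ℓ, ℓ.Prime → ℓ ∉ C.exc v → C.tElt v ℓ ∈ B) :
    B = ⊤ := by
  rw [eq_top_iff]
  rintro a -
  obtain ⟨⟨P₀, hP⟩, rfl⟩ :=
    AlgHom.rangeRestrict_surjective ((Algebra.lsmul O O (C.Mod v)).comp (C.polys v).val) a
  show C.toHecke v ⟨P₀, hP⟩ ∈ B
  induction hP using Algebra.adjoin_induction with
  | mem y hy =>
    rcases hy with ⟨g, rfl⟩ | ⟨ℓ, hℓ, rfl⟩
    · exact hg g
    · have h := ht ℓ hℓ.1 hℓ.2
      rw [tElt, dif_pos (show ℓ.Prime ∧ ℓ ∉ C.exc v from hℓ)] at h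
      exact h
  | algebraMap c =>
    exact (show C.toHecke v (algebraMap O _ c) = algebraMap O _ c from AlgHom.commutes _ c) ▸
      Subalgebra.algebraMap_mem B c
  | add y y' hy hy' ihy ihy' =>
    exact (show C.toHecke v (⟨y, hy⟩ + ⟨y', hy'⟩) = _ from map_add _ _ _) ▸ add_mem ihy ihy'
  | mul y y' hy hy' ihy ihy' =>
    exact (show C.toHecke v (⟨y, hy⟩ * ⟨y', hy'⟩) = _ from map_mul _ _ _) ▸ mul_mem ihy ihy'

end SupplyLevel

/-- The systems and maps of all the variants of a level. -/
structure LevelPack (C : SupplyLevel P Q r e) : Type 1 where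
  std : SupplySystems C .std
  chi : SupplySystems C .chi
  old : ∀ s : S.oldSet, SupplySystems C (.old (s : ℕ))
  raise : ∀ s : S.oldSet, SupplyRaise std (s : ℕ)

namespace SupplySystems

variable {C : SupplyLevel P Q r e} {v : OddVariant}

/-- The system module of the systems of a variant. -/
def module (Y : SupplySystems C v) : SystemModule Y.y where
  M := C.Mod v
  T := C.hecke v
  κ := Y.κ
  sys j := j
  ev := Y.ev
  ev_inj := Y.ev_inj
  E := C.exc v
  t := C.tElt v
  t_spec := Y.t_spec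

end SupplySystems

namespace LevelPack

variable {C : SupplyLevel P Q r e} (K : LevelPack C) {ι' : Type} (x' : ι' → OddSystem S ∅)

/-- The indices of the family. -/
inductive Idx (K : LevelPack C) (ι' : Type) : Type
  | std (j : K.std.κ)
  | chi (j : K.chi.κ)
  | old (s : S.oldSet) (j : (K.old s).κ)
  | extra (i : ι')

instance finite_idx [Finite ι'] : Finite (K.Idx ι') :=
  Finite.of_surjective
    (fun a : ((K.std.κ ⊕ K.chi.κ) ⊕ (Σ s : S.oldSet, (K.old s).κ)) ⊕ ι' =>
      match a with
      | .inl (.inl (.inl j)) => Idx.std j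
      | .inl (.inl (.inr j)) => Idx.chi j
      | .inl (.inr j) => Idx.old j.1 j.2
      | .inr i => Idx.extra i)
    fun b => by
      cases b with
      | std j => exact ⟨.inl (.inl (.inl j)), rfl⟩
      | chi j => exact ⟨.inl (.inl (.inr j)), rfl⟩
      | old s j => exact ⟨.inl (.inr ⟨s, j⟩), rfl⟩
      | extra i => exact ⟨.inr i, rfl⟩

/-- The family of systems. -/
def fam : K.Idx ι' → OddSystem S Q
  | .std j => K.std.y j
  | .chi j => K.chi.y j
  | .old s j => (K.old s).y j
  | .extra i => (x' i).weaken (Finset.empty_subset Q)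

/-- The full module. -/
def stdMod : SystemModule (K.fam x') :=
  SystemModule.pushFamily (K.fam x') Idx.std K.std.module

/-- The twisted module. -/
def chiMod : SystemModule (K.fam x') :=
  SystemModule.pushFamily (K.fam x') Idx.chi K.chi.module

/-- An old module. -/
def oldModule (s : ℕ) : Decidable (S.HasOld s) → SystemModule (K.fam x')
  | .isTrue h => SystemModule.pushFamily (K.fam x') (Idx.old ⟨s, S.mem_oldSet.2 h⟩)
      (K.old ⟨s, S.mem_oldSet.2 h⟩).module
  | .isFalse _ => SystemModule.zeroModule (K.fam x')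

/-- The modules. -/
def mods : OddVariant → SystemModule (K.fam x')
  | .std => K.stdMod x'
  | .chi => K.chiMod x'
  | .old s => K.oldModule x' s (S.decHasOld s)

/-- The raising map. -/
def upMap (s : ℕ) : ∀ dec : Decidable (S.HasOld s),
    ((K.oldModule x' s dec).pow (S.kap s)).M →+ (K.stdMod x').M
  | .isTrue h => (K.raise ⟨s, S.mem_oldSet.2 h⟩).up.toAddMonoidHom
  | .isFalse _ => 0

/-- The trace map. -/
def downMap (s : ℕ) : ∀ dec : Decidable (S.HasOld s),
    (K.stdMod x').M →+ ((K.oldModule x' s dec).pow (S.kap s)).M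
  | .isTrue h => (K.raise ⟨s, S.mem_oldSet.2 h⟩).down.toAddMonoidHom
  | .isFalse _ => 0

theorem upMap_trace (s : ℕ) (dec : Decidable (S.HasOld s)) :
    SystemModule.IsTraceMap ((K.oldModule x' s dec).pow (S.kap s)) (K.stdMod x')
      (K.upMap x' s dec) := by
  cases dec with
  | isFalse _ =>
    exact ⟨fun c m => (smul_zero (A := (K.stdMod x').M) (algebraMap O (K.stdMod x').T c)).symm,
      fun ℓ _ _ m => (smul_zero (A := (K.stdMod x').M) ((K.stdMod x').t ℓ)).symm⟩
  | isTrue h =>
    refine ⟨fun c (m : Fin (S.kap s) → C.Mod (.old s)) => ?_,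
      fun ℓ hℓ hℓE m => (K.raise ⟨s, _⟩).up_t ℓ hℓ hℓE m⟩
    show (K.raise ⟨s, _⟩).up (fun a => algebraMap O (C.hecke (.old s)) c • m a) =
      algebraMap O (C.hecke .std) c • (K.raise ⟨s, _⟩).up m
    exact (congrArg (K.raise ⟨s, _⟩).up
      (funext fun a => algebraMap_smul (C.hecke (.old s)) c (m a))).trans
      (((K.raise ⟨s, _⟩).up.map_smul c m).trans (algebraMap_smul _ c _).symm)

theorem downMap_trace (s : ℕ) (dec : Decidable (S.HasOld s)) :
    SystemModule.IsTraceMap (K.stdMod x') ((K.oldModule x' s dec).pow (S.kap s))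
      (K.downMap x' s dec) := by
  cases dec with
  | isFalse _ =>
    exact ⟨fun c m => (smul_zero _).symm, fun ℓ _ _ m => (smul_zero _).symm⟩
  | isTrue h =>
    refine ⟨fun c (m : C.Mod .std) => ?_, fun ℓ hℓ hℓE (m : C.Mod .std) => funext fun a => ?_⟩
    · refine funext fun a => ?_
      show (K.raise ⟨s, _⟩).down (algebraMap O (C.hecke .std) c • m) a =
        algebraMap O (C.hecke (.old s)) c • (K.raise ⟨s, _⟩).down m a
      exact ((congrArg (fun z => (K.raise ⟨s, _⟩).down z a)
        (algebraMap_smul (C.hecke .std) c m)).trans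
        (congrFun ((K.raise ⟨s, _⟩).down.map_smul c m) a)).trans (algebraMap_smul _ c _).symm
    · exact (K.raise ⟨s, _⟩).down_t ℓ hℓ (by rwa [Finset.union_comm] at hℓE) m a

variable [IsAdicComplete (maximalIdeal O) O] [Finite (ResidueField O)] [CharZero O]

/-- At an auxiliary prime: a Frobenius and an inertia element with diamond the standard
generator. -/
theorem exists_frob_inertia (i : Fin r) :
    ∃ (A : ValuationSubring (AlgebraicClosure ℚ)) (φ τ : Γℚ), A.LiesOverPrime (C.qv i) ∧
      A.IsFrobeniusAt φ (C.qv i) ∧ τ ∈ A.inertiaSubgroupIn ℚ ∧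
      (haveI : NeZero (C.qv i) := ⟨(C.prime i).ne_zero⟩
       C.f i (Galois.modCycloChar (C.qv i) τ) = Multiplicative.ofAdd 1) := by
  haveI : Fact (C.qv i).Prime := ⟨C.prime i⟩
  obtain ⟨A, hA⟩ := Basic.exists_liesOverPrime (C.prime i)
  obtain ⟨φ, hφ⟩ := Basic.exists_isFrobeniusAt (C.prime i) A hA
  obtain ⟨a, ha⟩ := C.f_surjective i (Multiplicative.ofAdd 1)
  obtain ⟨τ, hτ, hτa⟩ := Galois.exists_inertia_cycloChar_eq hA a
  refine ⟨A, φ, τ, hA, hφ, hτ, ?_⟩
  rw [← ha, ← hτa]
  rfl

/-- A system of level zero at an auxiliary prime: the root over the chosen residual root, and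
trivial inertia. -/
theorem exists_extra_values (hres : OddResidual p ρbar) (x : OddSystem S ∅) (i : Fin r)
    {A : ValuationSubring (AlgebraicClosure ℚ)} (hA : A.LiesOverPrime (C.qv i)) {φ τ : Γℚ}
    (hφ : A.IsFrobeniusAt φ (C.qv i)) (hτ : τ ∈ A.inertiaSubgroupIn ℚ) :
    ∃ u : x.O', u ^ 2 - x.r.trace φ * u + LinearMap.det (x.r.ρ φ) = 0 ∧
      residue x.O' u = ResidueField.map (algebraMap O x.O') (C.α i) ∧
      x.r.trace τ = 1 + 1 ∧ x.r.trace (τ * φ) = 1 * u + 1 * (x.r.trace φ - u) := by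
  have hp : p.Prime := Fact.out
  have hq := C.prime i
  have hqn := C.notMem i
  rw [Finset.mem_insert, not_or] at hqn
  have hqlev : ¬ C.qv i ∣ p * S.level := by
    intro h
    rcases (Nat.Prime.dvd_mul hq).1 h with h | h
    · exact hqn.1 ((Nat.prime_dvd_prime_iff_eq hq hp).1 h)
    · rcases Set.mem_insert_iff.1 (level_dvd_mem hq h) with h | h
      · exact hqn.1 h
      · exact hqn.2 h
  have hunr : x.r.ρ τ = 1 := x.lift.unramified (C.qv i) hq hqn.1
    (fun h => hqn.2 (by simpa using h)) A hA τ hτ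
  obtain ⟨a, ha⟩ := residue_surjective (C.α i)
  set f := ResidueField.map (algebraMap O x.O') with hf
  have hau : residue x.O' (algebraMap O x.O' a) = f (C.α i) := by
    rw [hf, ← ha, ResidueField.map_residue]
  have hqO : ((C.qv i : ℕ) : ResidueField x.O') = 1 := by
    obtain ⟨k, hk⟩ := C.one_mod i
    have h1 : (C.qv i : ℕ) = p * k + 1 := by
      rw [← hk, Nat.sub_add_cancel hq.one_lt.le]
    rw [h1, Nat.cast_add, Nat.cast_mul, Nat.cast_one,
      show ((p : ℕ) : ResidueField x.O') = 0 from by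
        rw [← map_natCast (residue x.O'), residue_eq_zero_iff]; exact x.lift.det.1,
      zero_mul, zero_add]
  have hdet : residue x.O' (LinearMap.det (x.r.ρ φ)) = 1 := by
    rw [MLT.HeckeRep.det_frobenius x.r hp x.lift.det hq hqn.1 hA hφ, map_natCast, hqO]
  have htr : residue x.O' (x.r.trace φ) = f (P.θX ⟨C.qv i, C.prime i⟩) := by
    rw [x.residue_trace, P.θX_good ⟨C.qv i, C.prime i⟩ hqlev A hA φ hφ]
  obtain ⟨u, hu, hua⟩ := exists_quadratic_root (x.r.trace φ) (LinearMap.det (x.r.ρ φ))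
    (algebraMap O x.O' a) (by
      rw [← residue_eq_zero_iff, map_add, map_sub, map_pow, map_mul, hau, hdet, htr, ← map_pow,
        ← map_mul, ← map_sub, ← map_one f, ← map_add, C.α_root i, map_zero]) (by
      rw [← residue_ne_zero_iff_isUnit, map_sub, map_mul, map_ofNat, hau, htr, ← map_ofNat f 2,
        ← map_mul, ← map_sub, ne_eq, map_eq_zero]
      exact sub_ne_zero.2 (C.α_simple i))
  refine ⟨u, hu, ?_, ?_, ?_⟩
  · rw [← residue_eq_zero_iff, map_sub, sub_eq_zero, hau] at hua
    exact hua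
  · rw [GaloisRepAdic.trace, hunr]
    show LinearMap.trace x.O' x.r.V LinearMap.id = 1 + 1
    rw [LinearMap.trace_id, x.r.finrank_eq]
    norm_num
  · rw [GaloisRepAdic.trace, map_mul, hunr, one_mul, one_mul, one_mul, add_sub_cancel]
    rfl

/-- The residual eigenvalues at an auxiliary prime. -/
theorem exists_residual_charpoly (hres : OddResidual p ρbar) (i : Fin r)
    {A : ValuationSubring (AlgebraicClosure ℚ)} (hA : A.LiesOverPrime (C.qv i)) {φ : Γℚ}
    (hφ : A.IsFrobeniusAt φ (C.qv i)) :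
    ∃ β, C.α i ≠ β ∧ LinearMap.charpoly (ρbar.ρ φ) =
      (Polynomial.X - Polynomial.C (C.α i)) * (Polynomial.X - Polynomial.C β) := by
  have hp : p.Prime := Fact.out
  have hq := C.prime i
  have hqn := C.notMem i
  rw [Finset.mem_insert, not_or] at hqn
  have hqlev : ¬ C.qv i ∣ p * S.level := by
    intro h
    rcases (Nat.Prime.dvd_mul hq).1 h with h | h
    · exact hqn.1 ((Nat.prime_dvd_prime_iff_eq hq hp).1 h)
    · rcases Set.mem_insert_iff.1 (level_dvd_mem hq h) with h | h
      · exact hqn.1 h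
      · exact hqn.2 h
  have htr : LinearMap.trace (ResidueField O) ρbar.V (ρbar.ρ φ) = P.θX ⟨C.qv i, C.prime i⟩ :=
    (P.θX_good ⟨C.qv i, C.prime i⟩ hqlev A hA φ hφ).symm
  refine ⟨P.θX ⟨C.qv i, C.prime i⟩ - C.α i,
    fun h => C.α_simple i (by linear_combination h), ?_⟩
  have hdet : LinearMap.det (ρbar.ρ φ) = 1 := by
    have h := MLT.HeckeRep.det_frobenius (GaloisRepAdic.ofResidualGaloisRep ρbar) hp hres.det hq hqn.1
      hA hφ
    obtain ⟨k, hk⟩ := C.one_mod i
    have h1 : (C.qv i : ℕ) = p * k + 1 := by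
      rw [← hk, Nat.sub_add_cancel hq.one_lt.le]
    have hp0 : ((p : ℕ) : ResidueField O) = 0 := by
      have := hres.det.1
      rwa [← residue_eq_zero_iff, map_natCast, ← map_natCast (algebraMap (ResidueField O)
        (ResidueField (ResidueField O))), map_eq_zero] at this
    exact h.trans (by rw [h1, Nat.cast_add, Nat.cast_mul, Nat.cast_one, hp0, zero_mul, zero_add])
  have key := Galois.adic_charpoly_eq (GaloisRepAdic.ofResidualGaloisRep ρbar) φ
  refine key.trans ?_
  show Polynomial.X ^ 2 - Polynomial.C (LinearMap.trace (ResidueField O) ρbar.V (ρbar.ρ φ)) *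
    Polynomial.X + Polynomial.C (LinearMap.det (ρbar.ρ φ)) = _
  rw [htr, hdet]
  have h2 : C.α i * (P.θX ⟨C.qv i, C.prime i⟩ - C.α i) = 1 := by
    linear_combination -(C.α_root i)
  rw [← h2, map_mul, map_sub]
  ring

/-- The values at one system which interpolate to the diamond of the value `g`. -/
def HasDiamondValues (N : ℕ) (x : OddSystem S Q) (φ τ : Γℚ) (α : ResidueField O) (g : x.O') :
    Prop :=
  ∃ d d' u : x.O', u ^ 2 - x.r.trace φ * u + LinearMap.det (x.r.ρ φ) = 0 ∧
    residue x.O' u = ResidueField.map (algebraMap O x.O') α ∧ x.r.trace τ = d + d' ∧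
    x.r.trace (τ * φ) = d * u + d' * (x.r.trace φ - u) ∧ d ^ 2 * g = 1 ∧ g ^ N = 1

/-- The systems of a variant have the values of their diamonds. -/
theorem hasDiamondValues_systems (hp2 : p ≠ 2) (hpO : (p : O) ∈ maximalIdeal O)
    (hres : OddResidual p ρbar) {v : OddVariant} (hv : ∀ s, v = .old s → S.HasOld s)
    (Y : SupplySystems C v) (i : Fin r) {A : ValuationSubring (AlgebraicClosure ℚ)}
    (hA : A.LiesOverPrime (C.qv i)) {φ τ : Γℚ} (hφ : A.IsFrobeniusAt φ (C.qv i))
    (hτ : τ ∈ A.inertiaSubgroupIn ℚ)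
    (hfτ : haveI : NeZero (C.qv i) := ⟨(C.prime i).ne_zero⟩
      C.f i (Galois.modCycloChar (C.qv i) τ) = Multiplicative.ofAdd 1) (j : Y.κ) :
    HasDiamondValues (p ^ e) (Y.y j) φ τ (C.α i) (Y.ev j (C.diamond v (twGen i))) := by
  obtain ⟨d, d', u, h1, h2, -, h4, h5, h6⟩ := supply_inertia_Q hp2 hpO hres hv Y j i hA hφ hτ
  rw [hfτ] at h6
  refine ⟨d, d', u, h1, h2, h4, h5, h6, ?_⟩
  exact ((map_pow (Y.ev j) _ _).symm.trans
    (congrArg (Y.ev j) (SupplyLevel.diamond_twGen_pow v i))).trans (map_one (Y.ev j))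

/-- The diamond value of a member of the family. -/
def diamondValue (i : Fin r) : ∀ a : K.Idx ι', (K.fam x' a).O'
  | .std j => K.std.ev j (C.diamond .std (twGen i))
  | .chi j => K.chi.ev j (C.diamond .chi (twGen i))
  | .old s j => (K.old s).ev j (C.diamond (.old (s : ℕ)) (twGen i))
  | .extra _ => 1

variable [Finite ι'] [Nonempty ι']

/-- **The diamonds of the level.** -/
theorem exists_delta (hp2 : p ≠ 2) (hpO : (p : O) ∈ maximalIdeal O) (hres : OddResidual p ρbar)
    (i : Fin r) :
    ∃ δ : LevelRing (K.fam x'), ∀ a, levelEval (K.fam x') a δ = K.diamondValue x' i a ∧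
      K.diamondValue x' i a ^ p ^ e = 1 := by
  obtain ⟨A, φ, τ, hA, hφ, hτ, hfτ⟩ := exists_frob_inertia (C := C) i
  obtain ⟨β, hαβ, hchar⟩ := exists_residual_charpoly hres i hA hφ
  haveI : Nonempty (K.Idx ι') := ‹Nonempty ι'›.map Idx.extra
  obtain ⟨ρ, -, -, -, -, hequiv⟩ :=
    exists_levelRep (K.fam x') (Fact.out : p.Prime) hp2 hres.absIrred
  have hvals : ∀ a, HasDiamondValues (p ^ e) (K.fam x' a) φ τ (C.α i)
      (K.diamondValue x' i a) := by
    intro a
    cases a with
    | std j => exact hasDiamondValues_systems hp2 hpO hres (fun s h => by cases h) K.std i hA hφ hτ hfτ j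
    | chi j => exact hasDiamondValues_systems hp2 hpO hres (fun s h => by cases h) K.chi i hA hφ hτ hfτ j
    | old s j =>
      exact hasDiamondValues_systems hp2 hpO hres (fun s' h => by
        obtain rfl : (s : ℕ) = s' := OddVariant.old.inj h
        exact S.mem_oldSet.1 s.2) (K.old s) i hA hφ hτ hfτ j
    | extra i' =>
      obtain ⟨u, h1, h2, h3, h4⟩ := exists_extra_values hres (x' i') i hA hφ hτ
      exact ⟨(1 : (x' i').O'), (1 : (x' i').O'), u, h1, h2, h3, h4,
        (by rw [one_pow]; exact one_mul 1 : (1 : (x' i').O') ^ 2 * 1 = 1), one_pow _⟩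
  choose d d' u h1 h2 h3 h4 h5 h6 using hvals
  obtain ⟨D, hD⟩ := exists_levelDiamond (K.fam x') hequiv φ τ hαβ hchar d d' u h1 h2 h3 h4
  refine ⟨D ^ (2 * (p ^ e - 1)), fun a => ⟨?_, h6 a⟩⟩
  rw [map_pow, hD]
  exact eq_of_sq_mul_eq_one
    (Nat.pos_of_ne_zero (pow_ne_zero e (Fact.out : p.Prime).ne_zero)) (h5 a) (h6 a)

end LevelPack

end FermatLib.MLT.Odd
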