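import Fermat.Agent.MLT.Odd.SupplyLevelData

/-!
# The data of a level and its map to level zero
-/

set_option autoImplicit false
set_option linter.style.haveILetI false

noncomputable section

namespace FermatLib.MLT.Odd

open IsLocalRing

local notation "Γℚ" => (AlgebraicClosure ℚ ≃ₐ[ℚ] AlgebraicClosure ℚ)

variable {O : Type} [CommRing O] [IsDomain O] [IsDiscreteValuationRing O]
  [IsAdicComplete (maximalIdeal O) O] [Finite (ResidueField O)] [CharZero O]
  {p : ℕ} [Fact p.Prime] {ρbar : ResidualGaloisRep (ResidueField O)} {S : OddPrimes p ρbar}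
  {tp : S.TamePairs} {P : SupplyParams S tp} {Q : Finset ℕ} {r e : ℕ}

section LocalInstances

variable (C : SupplyLevel P Q r e) (v : OddVariant)

omit [IsAdicComplete (maximalIdeal O) O] [Finite (ResidueField O)] [CharZero O]

/-- The Hecke algebra and the constants act compatibly; found once, as the search is slow. -/
private theorem heckeTower : IsScalarTower O (C.hecke v) (C.Mod v) := inferInstance

/-- The Hecke algebra acts compatibly with itself; found once, as the search is slow. -/
private theorem heckeSelfTower : IsScalarTower (C.hecke v) (C.hecke v) (C.Mod v) := inferInstance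

end LocalInstances

attribute [local instance] heckeTower heckeSelfTower

namespace LevelPack

variable {C : SupplyLevel P Q r e} (K : LevelPack C) {ι' : Type} [Finite ι'] [Nonempty ι']
  (x' : ι' → OddSystem S ∅) (hp2 : p ≠ 2) (hpO : (p : O) ∈ maximalIdeal O)
  (hres : OddResidual p ρbar)

/-- The diamonds. -/
def delta (i : Fin r) : LevelRing (K.fam x') := (K.exists_delta x' hp2 hpO hres i).choose

theorem levelEval_delta (i : Fin r) (a : K.Idx ι') :
    levelEval (K.fam x') a (K.delta x' hp2 hpO hres i) = K.diamondValue x' i a :=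
  ((K.exists_delta x' hp2 hpO hres i).choose_spec a).1

theorem delta_pow (i : Fin r) (a : K.Idx ι') :
    levelEval (K.fam x') a (K.delta x' hp2 hpO hres i) ^ p ^ e = 1 := by
  rw [levelEval_delta]
  exact ((K.exists_delta x' hp2 hpO hres i).choose_spec a).2

theorem action_delta_std (i : Fin r) :
    (K.stdMod x').action (K.delta x' hp2 hpO hres i) = C.diamond .std (twGen i) :=
  (K.stdMod x').action_eq fun j => (K.levelEval_delta x' hp2 hpO hres i (.std j)).symm

theorem action_delta_chi (i : Fin r) :
    (K.chiMod x').action (K.delta x' hp2 hpO hres i) = C.diamond .chi (twGen i) :=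
  (K.chiMod x').action_eq fun j => (K.levelEval_delta x' hp2 hpO hres i (.chi j)).symm

theorem action_delta_old (s : ℕ) (h : S.HasOld s) (i : Fin r) :
    (K.oldModule x' s (.isTrue h)).action (K.delta x' hp2 hpO hres i) =
      C.diamond (.old s) (twGen i) :=
  (K.oldModule x' s (.isTrue h)).action_eq fun j =>
    (K.levelEval_delta x' hp2 hpO hres i (.old ⟨s, S.mem_oldSet.2 h⟩ j)).symm

include hp2 hpO hres in
/-- A module of a variant is free over its diamonds. -/
theorem free_variant {v : OddVariant} (hv : ∀ s, v = .old s → S.HasOld s) (A : Fin r → C.hecke v)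
    (hA : ∀ i, A i = C.diamond v (twGen i)) :
    IsFreeOverDiamonds (O := O) A (p ^ e) (P.rank v) (C.Mod v) := by
  obtain ⟨b⟩ := nonempty_supplyBasis hp2 hpO hres C hv
  exact isFreeOverDiamonds_of_basis (Δ := C.Δ) twGen A (twGen_bijective r (p ^ e))
    (fun c m => by rw [algebraMap_smul, algebraMap_smul])
    (fun i m => by rw [hA, SupplyLevel.diamond_smul]) b

omit [Finite ι'] [Nonempty ι'] in
/-- A missing old module is free of rank zero. -/
theorem free_zeroModule (A : Fin r → (SystemModule.zeroModule (K.fam x')).T) :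
    IsFreeOverDiamonds (O := O) A (p ^ e) 0 (SystemModule.zeroModule (K.fam x')).M :=
  ⟨fun j => j.elim0, ⟨fun c c' _ => funext fun j => j.elim0,
    fun m => ⟨fun j => j.elim0, (@Subsingleton.elim PUnit.{1} _ _ m)⟩⟩⟩

include hp2 hpO hres in
theorem free_old (s : ℕ) (dec : Decidable (S.HasOld s)) :
    IsFreeOverDiamonds (O := O)
      (fun i => (K.oldModule x' s dec).action (K.delta x' hp2 hpO hres i)) (p ^ e)
      (P.oldRank s dec) (K.oldModule x' s dec).M := by
  cases dec with
  | isFalse _ => exact K.free_zeroModule x' _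
  | isTrue h =>
    exact free_variant hp2 hpO hres (fun s' hs' => by cases hs'; exact h) _
      (K.action_delta_old x' hp2 hpO hres s h)

omit [IsAdicComplete (maximalIdeal O) O] [Finite (ResidueField O)] [CharZero O] in
/-- The ideal of the constants and diamonds acts as the one of the diamond algebra. -/
theorem mem_diamAug_iff {v : OddVariant} (B : Fin r → C.hecke v)
    (hB : ∀ i, B i = C.diamond v (twGen i)) (m : C.Mod v) :
    m ∈ ((maximalIdeal O).map (algebraMap O (C.hecke v)) ⊔
        Ideal.span (Set.range fun i => B i - 1)) • (⊤ : Submodule (C.hecke v) (C.Mod v)) ↔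
      m ∈ C.augIdeal • (⊤ : Submodule (DiamondRing O C.Δ) (C.Mod v)) := by
  refine (iff_of_eq (congrArg (fun I : Ideal (C.hecke v) =>
      m ∈ I • (⊤ : Submodule (C.hecke v) (C.Mod v))) (map_sup_span_eq _ _))).trans
    ((span_smul_top_eq _ _ (fun a w => ?_) m).trans
      (iff_of_eq (congrArg (fun I : Ideal (DiamondRing O C.Δ) =>
        m ∈ I • (⊤ : Submodule (DiamondRing O C.Δ) (C.Mod v))) (map_sup_span_eq _ _))).symm)
  rcases a with a | i
  · exact (algebraMap_smul _ (a : O) w).trans (algebraMap_smul _ (a : O) w).symm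
  · exact ((sub_smul _ _ w).trans (congrArg₂ (fun x y => x - y)
        ((congrArg (fun b : C.hecke v => b • w) (hB i)).trans
          (SupplyLevel.diamond_smul C v (twGen i) w)) (one_smul _ w))).trans
      ((sub_smul _ _ w).trans (congrArg₂ (fun x y => x - y) rfl (one_smul _ w))).symm

omit [IsAdicComplete (maximalIdeal O) O] [Finite (ResidueField O)] [CharZero O] in
/-- `𝔪 M` through the Hecke algebra and through the constants. -/
theorem map_smul_top_iff (C : SupplyLevel P Q r e) (v : OddVariant) (m : C.Mod v) :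
    m ∈ (maximalIdeal O).map (algebraMap O (C.hecke v)) • (⊤ : Submodule (C.hecke v) (C.Mod v)) ↔
      m ∈ maximalIdeal O • (⊤ : Submodule O (C.Mod v)) := by
  have h := span_smul_top_eq (fun a : maximalIdeal O => algebraMap O (C.hecke v) (a : O))
    (fun a : maximalIdeal O => (a : O)) (fun a (w : C.Mod v) => algebraMap_smul _ (a : O) w) m
  have e₁ : Ideal.span (Set.range fun a : maximalIdeal O => (a : O)) = maximalIdeal O :=
    (congrArg Ideal.span Subtype.range_coe).trans (Ideal.span_eq _)
  have e₂ : Ideal.span (Set.range fun a : maximalIdeal O => algebraMap O (C.hecke v) (a : O)) =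
      (maximalIdeal O).map (algebraMap O (C.hecke v)) :=
    congrArg Ideal.span (Set.range_comp' _ _ |>.trans (congrArg _ Subtype.range_coe))
  exact ((iff_of_eq (congrArg (fun I : Ideal (C.hecke v) =>
      m ∈ I • (⊤ : Submodule (C.hecke v) (C.Mod v))) e₂)).symm.trans h).trans
    (iff_of_eq (congrArg (fun I : Ideal O => m ∈ I • (⊤ : Submodule O (C.Mod v))) e₁))

/-- The identification of `M / 𝔪 M` over the Hecke algebra and over the constants. -/
def redEquiv (C : SupplyLevel P Q r e) (v : OddVariant) :
    (C.Mod v ⧸ ((maximalIdeal O).map (algebraMap O (C.hecke v)) • ⊤ :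
        Submodule (C.hecke v) (C.Mod v))) ≃+
      C.Mod v ⧸ (maximalIdeal O • ⊤ : Submodule O (C.Mod v)) :=
  QuotientAddGroup.quotientAddEquivOfEq
    (M := ((maximalIdeal O).map (algebraMap O (C.hecke v)) • ⊤ :
      Submodule (C.hecke v) (C.Mod v)).toAddSubgroup)
    (N := (maximalIdeal O • ⊤ : Submodule O (C.Mod v)).toAddSubgroup)
    (SetLike.ext fun m => map_smul_top_iff C v m)

theorem redEquiv_mk (C : SupplyLevel P Q r e) (v : OddVariant) (m : C.Mod v) :
    redEquiv C v (Submodule.Quotient.mk m) = Submodule.Quotient.mk m :=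
  QuotientAddGroup.quotientAddEquivOfEq_mk _ m

/-- `M / 𝔪 M` over the Hecke algebra. -/
abbrev HeckeRed (C : SupplyLevel P Q r e) (v : OddVariant) : Type :=
  C.Mod v ⧸ ((maximalIdeal O).map (algebraMap O (C.hecke v)) • ⊤ :
    Submodule (C.hecke v) (C.Mod v))

omit [IsAdicComplete (maximalIdeal O) O] [Finite (ResidueField O)] [CharZero O] in
/-- The scalar action on a reduction; found once, as the search is slow. -/
private abbrev heckeRedSMul (C : SupplyLevel P Q r e) (v : OddVariant) :
    SMul (C.hecke v) (HeckeRed C v) := inferInstance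

attribute [local instance] heckeRedSMul

/-- The congruence on the reductions. -/
def thetaRed (C : SupplyLevel P Q r e) : HeckeRed C .std ≃+ HeckeRed C .chi :=
  (redEquiv C .std).trans
    ((exists_supplyTheta hp2 hpO C).choose.toAddEquiv.trans (redEquiv C .chi).symm)

theorem thetaRed_mk {m : C.Mod .std} {n : C.Mod .chi}
    (h : (exists_supplyTheta hp2 hpO C).choose (Submodule.Quotient.mk m) =
      Submodule.Quotient.mk n) :
    thetaRed hp2 hpO C (Submodule.Quotient.mk m) = Submodule.Quotient.mk n := by
  refine (AddEquiv.trans_apply (redEquiv C .std)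
    ((exists_supplyTheta hp2 hpO C).choose.toAddEquiv.trans (redEquiv C .chi).symm)
    (Submodule.Quotient.mk m)).trans ?_
  refine (congrArg _ (redEquiv_mk C .std m)).trans ?_
  refine (AddEquiv.trans_apply (exists_supplyTheta hp2 hpO C).choose.toAddEquiv
    (redEquiv C .chi).symm (Submodule.Quotient.mk m)).trans ?_
  exact (congrArg (redEquiv C .chi).symm (h.trans (redEquiv_mk C .chi n).symm)).trans
    ((redEquiv C .chi).symm_apply_apply _)

theorem thetaRed_smul_const (c : O) (z : HeckeRed C .std) :
    thetaRed hp2 hpO C (algebraMap O (C.hecke .std) c • z) =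
      algebraMap O (C.hecke .chi) c • thetaRed hp2 hpO C z :=
  map_algebraMap_smul_of_mk (thetaRed hp2 hpO C).toAddMonoidHom
    (exists_supplyTheta hp2 hpO C).choose.toLinearMap (fun _ _ h => thetaRed_mk hp2 hpO h) c z

theorem thetaRed_smul_tElt {ℓ : ℕ} (hℓ : ℓ.Prime) (hℓE : ℓ ∉ C.exc .std ∪ C.exc .chi)
    (z : HeckeRed C .std) :
    thetaRed hp2 hpO C (C.tElt .std ℓ • z) = C.tElt .chi ℓ • thetaRed hp2 hpO C z := by
  refine Submodule.Quotient.induction_on _ z fun m => ?_
  refine Exists.elim (Submodule.Quotient.mk_surjective _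
    ((exists_supplyTheta hp2 hpO C).choose (Submodule.Quotient.mk m))) fun n hn => ?_
  exact (thetaRed_mk hp2 hpO
      ((exists_supplyTheta hp2 hpO C).choose_spec ℓ hℓ hℓE m n hn.symm)).trans
    (congrArg (fun w => C.tElt .chi ℓ • w) (thetaRed_mk hp2 hpO hn.symm)).symm

/-- The congruence between the full and the twisted module. -/
def theta : (K.stdMod x').red.M ≃+ (K.chiMod x').red.M := thetaRed hp2 hpO C

theorem theta_trace : SystemModule.IsTraceMap (K.stdMod x').red (K.chiMod x').red
    (K.theta x' hp2 hpO).toAddMonoidHom :=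
  ⟨fun c z => thetaRed_smul_const hp2 hpO c z,
    fun _ hℓ hℓE z => thetaRed_smul_tElt hp2 hpO hℓ hℓE z⟩

omit [IsAdicComplete (maximalIdeal O) O] [Finite (ResidueField O)] [CharZero O]
  [IsDomain O] [IsDiscreteValuationRing O] in
/-- An algebra map on the entries of a Gram matrix for one copy. -/
theorem map_gram_one {R T : Type} [CommRing R] [CommRing T] [Algebra O R] [Algebra O T]
    (φ : R →ₐ[O] T) {τ : R} {t : T} (h : φ τ = t) (ε : ℤ) (n : ℕ) {w : R} {w₀ : T}
    (hw : φ w = w₀) :
    φ ((τ - (ε : R) * ((n : R) + 1)) * w) = (t - (ε : T) * ((n : T) + 1)) * w₀ := by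
  rw [map_mul, map_sub, map_mul, map_add, map_intCast, map_natCast, map_one, h, hw]

omit [IsAdicComplete (maximalIdeal O) O] [Finite (ResidueField O)] [CharZero O]
  [IsDomain O] [IsDiscreteValuationRing O] in
/-- An algebra map on the entries of a Gram matrix for two copies. -/
theorem map_gram_two {R T : Type} [CommRing R] [CommRing T] [Algebra O R] [Algebra O T]
    (φ : R →ₐ[O] T) {τ : R} {t : T} (h : φ τ = t) (n : ℕ) (c : Prop) [Decidable c] :
    φ (if c then (n : R) + 1 else τ) = if c then (n : T) + 1 else t := by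
  split_ifs
  · rw [map_add, map_natCast, map_one]
  · exact h

omit [IsAdicComplete (maximalIdeal O) O] [Finite (ResidueField O)] [CharZero O]
  [IsDomain O] [IsDiscreteValuationRing O] in
/-- A Gram relation read through a map of scalars. -/
private theorem sum_smul_of_eq {R T M ι : Type} [CommRing R] [CommRing T] [Algebra O R]
    [Algebra O T] [AddCommGroup M] [Module T M] [Fintype ι] (φ : R →ₐ[O] T) (G₀ : ι → ι → T)
    (G : ι → ι → R) (h : ∀ a b, G₀ a b = φ (G a b)) (v : ι → M) (a : ι) (x : M)
    (hx : x = ∑ b, G₀ a b • v b) : x = ∑ b, φ (G a b) • v b :=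
  hx.trans (Finset.sum_congr rfl fun b _ => congrArg (fun t : T => t • v b) (h a b))

include hp2 hpO hres in
theorem upMap_injective_mod (s : ℕ) (hs : S.HasOld s) (dec : Decidable (S.HasOld s)) :
    ∀ v : Fin (S.kap s) → (K.oldModule x' s dec).M,
      K.upMap x' s dec v ∈ (K.stdMod x').diamAug (K.delta x' hp2 hpO hres) •
          (⊤ : Submodule (K.stdMod x').T (K.stdMod x').M) →
        ∀ a, v a ∈ (K.oldModule x' s dec).diamAug (K.delta x' hp2 hpO hres) •
          (⊤ : Submodule (K.oldModule x' s dec).T (K.oldModule x' s dec).M) := by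
  cases dec with
  | isFalse h => exact absurd hs h
  | isTrue h =>
    intro v hv a
    refine (mem_diamAug_iff _ (K.action_delta_old x' hp2 hpO hres s h) _).2 ?_
    exact (K.raise ⟨s, S.mem_oldSet.2 h⟩).up_injective_mod v
      ((mem_diamAug_iff _ (K.action_delta_std x' hp2 hpO hres) _).1 hv) a

omit [Nonempty ι'] in
theorem downMap_surjective (s : ℕ) (hs : s ∈ S.F) (dec : Decidable (S.HasOld s)) :
    Function.Surjective (K.downMap x' s dec) := by
  cases dec with
  | isFalse h => exact absurd (Or.inl hs) h
  | isTrue h => exact (K.raise ⟨s, S.mem_oldSet.2 h⟩).down_surjective hs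

include hp2 hpO hres in
/-- The action on an old module is onto. -/
theorem action_old_surjective (s : ℕ) (h : S.HasOld s) :
    Function.Surjective (K.oldModule x' s (.isTrue h)).action := by
  have htop : (K.oldModule x' s (.isTrue h)).action.range = ⊤ := by
    refine SupplyLevel.hecke_eq_top (C := C) (fun g => ?_) fun ℓ hℓ hℓE => ?_
    · obtain ⟨a, rfl⟩ := (twGen_bijective r (p ^ e)).2 g
      refine ⟨∏ i, K.delta x' hp2 hpO hres i ^ (a i : ℕ), ?_⟩
      show (K.oldModule x' s (.isTrue h)).action (∏ i, K.delta x' hp2 hpO hres i ^ (a i : ℕ)) =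
        C.diamond (.old s) (∏ i, twGen i ^ (a i : ℕ))
      simp only [map_prod, map_pow, K.action_delta_old x' hp2 hpO hres s h]
      show ∏ i, (SupplyLevel.diamondHom (.old s) (twGen i : C.Δ)) ^ (a i : ℕ) =
        SupplyLevel.diamondHom (.old s) (∏ i, (twGen i : C.Δ) ^ (a i : ℕ))
      simp only [map_prod, map_pow]
    · obtain ⟨A, hA⟩ := Basic.exists_liesOverPrime hℓ
      obtain ⟨σ, hσ⟩ := Basic.exists_isFrobeniusAt hℓ A hA
      exact ⟨levelTrace (K.fam x') σ, (K.oldModule x' s (.isTrue h)).action_eq fun j =>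
        ((K.old ⟨s, _⟩).t_spec j ℓ hℓ hℓE A hA σ hσ).symm⟩
  intro a
  exact (AlgHom.mem_range _).1 (htop.ge (Algebra.mem_top : a ∈ ⊤))

include hp2 hpO hres in
/-- The Gram matrix in the level ring. -/
theorem exists_gram (s : ℕ) (dec : Decidable (S.HasOld s)) :
    ∃ G : Matrix (Fin (S.kap s)) (Fin (S.kap s)) (LevelRing (K.fam x')),
      ∀ hs : s ∈ S.F,
        (∀ (v : Fin (S.kap s) → (K.oldModule x' s dec).M) (a : Fin (S.kap s)),
          (K.downMap x' s dec (K.upMap x' s dec v) :
            Fin (S.kap s) → (K.oldModule x' s dec).M) a =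
            ∑ b, (K.oldModule x' s dec).action (G a b) • v b) ∧
        levelTrace (K.fam x') (tp.atF ⟨s, hs⟩).frob -
          (S.ε s : LevelRing (K.fam x')) * ((s : LevelRing (K.fam x')) + 1) ∣ G.det := by
  classical
  by_cases hs : s ∈ S.F
  swap
  · exact ⟨0, fun h => absurd h hs⟩
  cases dec with
  | isFalse h => exact absurd (Or.inl hs) h
  | isTrue h =>
    let fs := tp.atF ⟨s, hs⟩
    let A := K.oldModule x' s (.isTrue h)
    have hsp : s.Prime := S.prime_of_mem s (Finset.mem_union_right _ hs)
    have ht : A.action (levelTrace (K.fam x') fs.frob) = C.tElt (.old s) s :=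
      A.action_eq fun j => ((K.old ⟨s, S.mem_oldSet.2 h⟩).t_spec j s hsp
        (SupplyLevel.prime_exc_of_F hs) fs.A fs.liesOver fs.frob fs.frob_spec).symm
    refine Exists.elim ((K.raise ⟨s, S.mem_oldSet.2 h⟩).down_up hs) fun G₀ hG => ?_
    have hG₀ := hG.1
    suffices hGram : ∃ G : Matrix (Fin (S.kap s)) (Fin (S.kap s)) (LevelRing (K.fam x')),
        (∀ a b, G₀ a b = A.action (G a b)) ∧
          levelTrace (K.fam x') fs.frob -
            (S.ε s : LevelRing (K.fam x')) * ((s : LevelRing (K.fam x')) + 1) ∣ G.det by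
      refine Exists.elim hGram fun G hG' => ⟨G, fun _ => ⟨fun v a => ?_, hG'.2⟩⟩
      exact sum_smul_of_eq (M := A.M) A.action G₀ G hG'.1 v a _ (hG₀ v a)
    rcases hG.2 with ⟨hk, hG⟩ | ⟨hk, hG⟩
    · choose w hw using hG
      choose w' hw' using fun a b => K.action_old_surjective x' hp2 hpO hres s h (w a b)
      exact ⟨Matrix.of fun a b => (levelTrace (K.fam x') fs.frob -
          (S.ε s : LevelRing (K.fam x')) * ((s : LevelRing (K.fam x')) + 1)) * w' a b,
        fun a b => (hw a b).trans (map_gram_one A.action ht (S.ε s) s (hw' a b)).symm,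
        dvd_det_one hk _ fun a b => dvd_mul_right _ _⟩
    · refine ⟨Matrix.of fun a b => if a = b then (s : LevelRing (K.fam x')) + 1 else
          levelTrace (K.fam x') fs.frob,
        fun a b => (hG a b).trans (map_gram_two A.action ht s (a = b)).symm, ?_⟩
      refine dvd_det_gram_two hk _ ?_ fun a b => Matrix.of_apply _ a b
      rcases S.sign_F s hs with h' | h'
      · rw [h', Int.cast_one, one_pow]
      · rw [h', Int.cast_neg, Int.cast_one]; ring

theorem coker_upMap_F (s : ℕ) (hs : s ∈ S.F) (dec : Decidable (S.HasOld s))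
    (m : (K.stdMod x').M) :
    (K.stdMod x').action (levelTrace (K.fam x') (tp.atF ⟨s, hs⟩).frob -
      (S.ε s : LevelRing (K.fam x')) * ((s : LevelRing (K.fam x')) + 1)) • m ∈
        (K.upMap x' s dec).range := by
  cases dec with
  | isFalse h => exact absurd (Or.inl hs) h
  | isTrue h =>
    exact (K.raise ⟨s, S.mem_oldSet.2 h⟩).coker_F hs _ (fun j => by
      refine ((K.stdMod x').ev_action _ j).trans ?_
      rw [map_sub, map_mul, map_add, map_intCast, map_natCast, map_one, levelEval_levelTrace]
      rfl) m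

omit [Nonempty ι'] in
theorem coker_upMap_p (hc : S.pCase = PCase.mixed) (dec : Decidable (S.HasOld p))
    (a : (K.stdMod x').T)
    (ha : ∀ j, (K.fam x' ((K.stdMod x').sys j)).r.IsStrictOrdinaryAt p →
      (K.stdMod x').ev j a = 0) (m : (K.stdMod x').M) :
    a • m ∈ (K.upMap x' p dec).range := by
  cases dec with
  | isFalse h => exact absurd (Or.inr ⟨rfl, hc⟩) h
  | isTrue h => exact (K.raise ⟨p, S.mem_oldSet.2 h⟩).coker_p rfl hc a ha m

include hp2 hpO hres in
theorem old_unramified (s : ℕ) (hs : s ∈ S.F) (dec : Decidable (S.HasOld s)) :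
    ∀ j, (K.fam x' ((K.oldModule x' s dec).sys j)).r.IsUnramifiedAt s := by
  cases dec with
  | isFalse h => exact absurd (Or.inl hs) h
  | isTrue h => exact fun j => supply_old_F hp2 hpO hres hs (K.old ⟨s, S.mem_oldSet.2 h⟩) j

/-- **The data of the level.** -/
def data : LevelData S (K.fam x') r (p ^ e) P.ranks tp P.ζ where
  δ := K.delta x' hp2 hpO hres
  δ_pow := K.delta_pow x' hp2 hpO hres
  δ_residue i a := residue_eq_one_of_pow_prime_pow (K.fam x' a).lift.det.1
    (K.delta_pow x' hp2 hpO hres i a)
  mods := K.mods x'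
  free v := match v with
    | .std => free_variant hp2 hpO hres (fun s h => by cases h) _
        (K.action_delta_std x' hp2 hpO hres)
    | .chi => free_variant hp2 hpO hres (fun s h => by cases h) _
        (K.action_delta_chi x' hp2 hpO hres)
    | .old s => K.free_old x' hp2 hpO hres s (S.decHasOld s)
  std_T q j := supply_std_T hp2 hpO hres K.std q j
  chi_T q j := supply_chi_T hp2 hpO hres K.chi q j
  θ := K.theta x' hp2 hpO
  θ_trace := K.theta_trace x' hp2 hpO
  up s := K.upMap x' s (S.decHasOld s)
  up_trace s := K.upMap_trace x' s (S.decHasOld s)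
  up_injective_mod s hs := K.upMap_injective_mod x' hp2 hpO hres s hs (S.decHasOld s)
  down s := K.downMap x' s (S.decHasOld s)
  down_trace s := K.downMap_trace x' s (S.decHasOld s)
  down_surjective s hs := K.downMap_surjective x' s hs (S.decHasOld s)
  G s := (K.exists_gram x' hp2 hpO hres s (S.decHasOld s)).choose
  down_up s hs := ((K.exists_gram x' hp2 hpO hres s (S.decHasOld s)).choose_spec hs).1
  det_G s := ((K.exists_gram x' hp2 hpO hres s (S.decHasOld s)).choose_spec s.2).2
  coker_F s m := K.coker_upMap_F x' (s : ℕ) s.2 (S.decHasOld s) m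
  old_F s hs := K.old_unramified x' hp2 hpO hres s hs (S.decHasOld s)
  coker_p hc a ha m := K.coker_upMap_p x' hc (S.decHasOld p) a ha m

end LevelPack

end FermatLib.MLT.Odd
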