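import Fermat.Agent.MLT.Odd.SupplyModules
import Fermat.Agent.MLT.Odd.GeneratorsDefs
import Fermat.Agent.MLT.Odd.HeckeRepNonEisenstein
import Fermat.Agent.MLT.Hecke.RaiseOne

/-!
# Raising maps of the supplied levels

At a prime `s` with an old module the raising data of the Hecke modules, in the normalisation
with cyclotomic determinant.  `U s` twisted by the inverse square root of the diamond of `s` has
square one modulo the old part.
-/

set_option autoImplicit false
set_option linter.style.haveILetI false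

noncomputable section

namespace FermatLib.MLT.Odd

open IsLocalRing MvPolynomial

variable {O : Type} [CommRing O] [IsDomain O] [IsDiscreteValuationRing O] {p : ℕ} [Fact p.Prime]
  {ρbar : ResidualGaloisRep (ResidueField O)} {S : OddPrimes p ρbar} {tp : S.TamePairs}
  {P : SupplyParams S tp} {Q : Finset ℕ} {r e : ℕ}

/-- The ideal of the constants' maximal ideal and of the augmentation. -/
def SupplyLevel.augIdeal (C : SupplyLevel P Q r e) : Ideal (DiamondRing O C.Δ) :=
  (maximalIdeal O).map (algebraMap O (DiamondRing O C.Δ)) ⊔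
    Ideal.span (Set.range fun i => MonoidAlgebra.of O C.Δ (twGen i) - 1)

/-! ## The primes with an old module -/

namespace OddPrimes.HasOld

variable {s : ℕ} (hs : S.HasOld s)
include hs

theorem prime : s.Prime := by
  rcases hs with h | ⟨rfl, -⟩
  · exact S.prime_of_mem s (Finset.mem_union_right _ h)
  · exact Fact.out

/-- `s` as a prime. -/
abbrev toPrime : Nat.Primes := ⟨s, hs.prime⟩

@[simp] theorem coe_toPrime : ((hs.toPrime : Nat.Primes) : ℕ) = s := rfl

theorem mem_insert : s ∈ insert p S.all := by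
  rcases hs with h | ⟨rfl, -⟩
  · exact Finset.mem_insert_of_mem (Finset.mem_union_right _ h)
  · exact Finset.mem_insert_self _ _

theorem dvd_level : s ∣ S.level := by
  rcases hs with h | ⟨rfl, hc⟩
  · exact Dvd.dvd.mul_right (Finset.dvd_prod_of_mem _ (Finset.mem_union_right _ h)) _
  · rw [OddPrimes.level, hc, if_neg (by simp)]
    exact dvd_mul_left s _

theorem not_dvd_div : ¬ s ∣ S.level / s := by
  have hsp := hs.prime
  rcases hs with h | ⟨rfl, hc⟩
  · have hne : s ≠ p := S.ne_p s (Finset.mem_union_right _ h)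
    have hmem : s ∈ S.all := Finset.mem_union_right _ h
    rw [OddPrimes.level, ← Finset.mul_prod_erase _ _ hmem, mul_assoc,
      Nat.mul_div_cancel_left _ hsp.pos]
    intro hd
    rcases (Nat.Prime.dvd_mul hsp).1 hd with hd | hd
    · obtain ⟨q', hq', hd⟩ := (Prime.dvd_finsetProd_iff hsp.prime _).1 hd
      exact (Finset.mem_erase.1 hq').1 ((Nat.prime_dvd_prime_iff_eq hsp
        (S.prime_of_mem q' (Finset.mem_erase.1 hq').2)).1 hd).symm
    · split_ifs at hd
      · exact hsp.ne_one (Nat.dvd_one.1 hd)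
      · exact hne ((Nat.prime_dvd_prime_iff_eq hsp Fact.out).1 hd)
  · rw [OddPrimes.level, hc, if_neg (by simp), Nat.mul_div_cancel _ hsp.pos]
    intro hd
    obtain ⟨q', hq', hd⟩ := (Prime.dvd_finsetProd_iff hsp.prime _).1 hd
    exact S.ne_p q' hq' ((Nat.prime_dvd_prime_iff_eq hsp (S.prime_of_mem q' hq')).1 hd).symm

theorem baseLevel_mul : S.baseLevel .std = S.baseLevel (.old s) * s := by
  show S.level = S.level / Nat.gcd s S.level * s
  rw [Nat.gcd_eq_left hs.dvd_level, Nat.div_mul_cancel hs.dvd_level]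

theorem kap_eq_one_iff : S.kap s = 1 ↔ (s = p ∨ p ∣ s + 1) := by
  unfold OddPrimes.kap
  by_cases h : s = p ∨ p ∣ s + 1 <;> simp [h]

theorem kap_eq_two_iff : S.kap s = 2 ↔ ¬ (s = p ∨ p ∣ s + 1) := by
  unfold OddPrimes.kap
  by_cases h : s = p ∨ p ∣ s + 1 <;> simp [h]

theorem ne_p_of_kap_two (hk : S.kap s = 2) : s ≠ p ∧ ¬ p ∣ s + 1 :=
  not_or.1 (hs.kap_eq_two_iff.1 hk)

theorem mem_F_of_ne (h : s ≠ p) : s ∈ S.F := hs.resolve_right fun h' => h h'.1

theorem mem_locPrimes_iff : s ∈ S.locPrimes ↔ S.kap s = 1 := by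
  rw [hs.kap_eq_one_iff, OddPrimes.locPrimes, Finset.mem_union, Finset.mem_filter]
  constructor
  · rintro (⟨-, h⟩ | h)
    · exact Or.inr h
    · split_ifs at h
      · exact Or.inl (Finset.mem_singleton.1 h)
      · exact absurd h (Finset.notMem_empty s)
  · intro h
    by_cases hp : s = p
    · rcases hs with h' | ⟨-, hc⟩
      · exact absurd hp (S.ne_p s (Finset.mem_union_right _ h'))
      · exact Or.inr (by rw [if_pos hc]; exact Finset.mem_singleton.2 hp)
    · exact Or.inl ⟨hs.mem_F_of_ne hp, h.resolve_left hp⟩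

end OddPrimes.HasOld

namespace SupplyLevel

variable (C : SupplyLevel P Q r e)

/-- The residual character on the polynomials over the diamonds. -/
abbrev gTheta (v : OddVariant) : BettiHeckeAlg (DiamondRing O C.Δ) →+* ResidueField O :=
  gammaHTheta O (C.theta v) C.Δ

theorem qv_ne_of_hasOld {s : ℕ} (hs : S.HasOld s) (i : Fin r) : C.qv i ≠ s := fun h =>
  C.notMem i (h ▸ hs.mem_insert)

theorem level_std_eq {s : ℕ} (hs : S.HasOld s) : C.level .std = C.level (.old s) * s := by
  rw [level, level, hs.baseLevel_mul, mul_right_comm]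

theorem level_old_dvd {s : ℕ} (hs : S.HasOld s) : C.level (.old s) ∣ C.level .std :=
  ⟨s, C.level_std_eq hs⟩

theorem not_dvd_level_old {s : ℕ} (hs : S.HasOld s) : ¬ s ∣ C.level (.old s) := by
  intro h
  rw [level] at h
  rcases (Nat.Prime.dvd_mul hs.prime).1 h with h | h
  · refine hs.not_dvd_div ?_
    rwa [OddPrimes.baseLevel, Nat.gcd_eq_left hs.dvd_level] at h
  · obtain ⟨i, -, hd⟩ := (Prime.dvd_finsetProd_iff hs.prime.prime _).1 h
    exact C.qv_ne_of_hasOld hs i ((Nat.prime_dvd_prime_iff_eq hs.prime (C.prime i)).1 hd).symm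

theorem coprime_level_old {s : ℕ} (hs : S.HasOld s) : s.Coprime (C.level (.old s)) :=
  (hs.prime.coprime_iff_not_dvd).2 (C.not_dvd_level_old hs)

theorem not_mem_exc {v : OddVariant} {l : ℕ} (hl : l.Prime) (h : l ∉ C.exc v) :
    ¬ l ∣ p * C.level v := fun hd =>
  h (Nat.mem_primeFactors.2 ⟨hl, hd, mul_ne_zero (Fact.out : p.Prime).ne_zero (NeZero.ne _)⟩)

theorem coprime_of_not_mem_exc {v : OddVariant} {l : ℕ} (hl : l.Prime) (h : l ∉ C.exc v) :
    l.Coprime (C.level v) :=
  hl.coprime_iff_not_dvd.2 fun hd => C.not_mem_exc hl h (hd.mul_left p)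

theorem not_mem_exc_old {s : ℕ} (hs : S.HasOld s) (hsp : s ≠ p) : s ∉ C.exc (.old s) := by
  intro h
  rcases (Nat.Prime.dvd_mul hs.prime).1 (Nat.mem_primeFactors.1 h).2.1 with h | h
  · exact hsp ((Nat.prime_dvd_prime_iff_eq hs.prime Fact.out).1 h)
  · exact C.not_dvd_level_old hs h

theorem delta_std {s : ℕ} (hs : S.HasOld s) :
    C.delta .std = (C.delta (.old s)).comp (ZMod.unitsMap (C.level_old_dvd hs)) := by
  refine MonoidHom.ext fun u => funext fun i => ?_
  show C.f i (ZMod.unitsMap _ u) = C.f i (ZMod.unitsMap _ (ZMod.unitsMap _ u))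
  exact congrArg (C.f i) (DFunLike.congr_fun (ZMod.unitsMap_comp _ _) u).symm

theorem charDiamond_std {s : ℕ} (hs : S.HasOld s) :
    charDiamond O (C.char .std) (C.delta .std) =
      (charDiamond O (C.char (.old s)) (C.delta (.old s))).comp
        (ZMod.unitsMap (C.level_old_dvd hs)) := by
  refine MonoidHom.ext fun u => Units.ext ?_
  rw [MonoidHom.comp_apply, coe_charDiamond, coe_charDiamond, C.delta_std hs]
  simp [char]

theorem coe_charDiamond_old (s : ℕ) (u : (ZMod (C.level (.old s)))ˣ) :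
    (charDiamond O (C.char (.old s)) (C.delta (.old s)) u : DiamondRing O C.Δ) =
      MonoidAlgebra.of O C.Δ (C.delta (.old s) u) := by
  simp [coe_charDiamond, char]

theorem diamondAug_charDiamond_old (s : ℕ) (u : (ZMod (C.level (.old s)))ˣ) :
    diamondAug O C.Δ (charDiamond O (C.char (.old s)) (C.delta (.old s)) u) = 1 := by
  rw [C.coe_charDiamond_old, diamondAug_of]

theorem charDiamond_old_neg_one (hp2 : p ≠ 2) (s : ℕ) :
    charDiamond O (C.char (.old s)) (C.delta (.old s)) (-1) = 1 :=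
  charDiamond_neg_one O _ _ rfl (map_neg_one_of_odd
    ((Fact.out : p.Prime).odd_of_ne_two hp2).pow _)

theorem finite_Δ : Finite C.Δ := by
  haveI : NeZero (p ^ e) := ⟨pow_ne_zero _ (Fact.out : p.Prime).ne_zero⟩
  infer_instance

theorem isLocalRing_diamond (hpO : (p : O) ∈ maximalIdeal O) :
    IsLocalRing (DiamondRing O C.Δ) :=
  haveI := C.finite_Δ
  diamond_isLocalRing O C.Δ hpO (isPGroup_twGroup r)

theorem charDiamond_old_sub_one_mem [IsLocalRing (DiamondRing O C.Δ)] (s : ℕ)
    (u : (ZMod (C.level (.old s)))ˣ) :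
    (charDiamond O (C.char (.old s)) (C.delta (.old s)) u : DiamondRing O C.Δ) - 1 ∈
      maximalIdeal (DiamondRing O C.Δ) := by
  rw [diamond_mem_maximalIdeal_iff, map_sub, map_one, C.diamondAug_charDiamond_old, sub_self]
  exact zero_mem _

theorem augIdeal_eq_maximalIdeal (_hpO : (p : O) ∈ maximalIdeal O)
    [IsLocalRing (DiamondRing O C.Δ)] : C.augIdeal = maximalIdeal (DiamondRing O C.Δ) := by
  haveI : NeZero (p ^ e) := ⟨pow_ne_zero _ (Fact.out : p.Prime).ne_zero⟩
  apply le_antisymm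
  · refine sup_le (Ideal.map_le_iff_le_comap.2 fun a ha => ?_) (Ideal.span_le.2 ?_)
    · rw [Ideal.mem_comap, diamond_mem_maximalIdeal_iff, AlgHom.commutes]
      exact ha
    · rintro _ ⟨i, rfl⟩
      rw [SetLike.mem_coe, diamond_mem_maximalIdeal_iff, map_sub, map_one, diamondAug_of, sub_self]
      exact zero_mem _
  · intro x hx
    rw [diamond_mem_maximalIdeal_iff] at hx
    have hker : x - algebraMap O _ (diamondAug O C.Δ x) ∈
        RingHom.ker (algebraMap (DiamondRing O C.Δ) O) := by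
      show diamondAug O C.Δ _ = 0
      rw [map_sub, AlgHom.commutes]
      exact sub_self _
    have hgen : RingHom.ker (algebraMap (DiamondRing O C.Δ) O) ≤
        Ideal.span (Set.range fun i => MonoidAlgebra.of O C.Δ (twGen i) - 1) := by
      rw [ker_diamondAug, Ideal.span_le]
      rintro _ ⟨d, rfl⟩
      obtain ⟨a, rfl⟩ := (twGen_bijective r (p ^ e)).2 d
      rw [SetLike.mem_coe, ← Ideal.Quotient.eq_zero_iff_mem, map_sub, map_one, sub_eq_zero,
        map_prod, map_prod]
      refine Finset.prod_eq_one fun i _ => ?_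
      rw [map_pow, map_pow, show Ideal.Quotient.mk (Ideal.span (Set.range fun i =>
          MonoidAlgebra.of O C.Δ (twGen i) - 1)) (MonoidAlgebra.of O C.Δ (twGen i)) = 1 from
        sub_eq_zero.1 (by
          rw [← map_one (Ideal.Quotient.mk _), ← map_sub, Ideal.Quotient.eq_zero_iff_mem]
          exact Ideal.subset_span ⟨i, rfl⟩), one_pow]
    have h1 := Ideal.add_mem _
      (Ideal.mem_sup_left (T := Ideal.span (Set.range fun i =>
        MonoidAlgebra.of O C.Δ (twGen i) - 1))
        (Ideal.mem_map_of_mem (algebraMap O (DiamondRing O C.Δ)) hx))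
      (Ideal.mem_sup_right (hgen hker))
    rwa [add_sub_cancel] at h1

/-! ## The twists -/

theorem twist_of_coprime {v : OddVariant} {l : ℕ} (h : l.Coprime (C.level v)) :
    C.twist v l = (charDiamond O (C.char v) (C.delta v) (ZMod.unitOfCoprime l h) :
      DiamondRing O C.Δ) ^ ((p ^ (e + 1) - 1) / 2) := by
  rw [twist, dif_pos h]

theorem twist_old_eq_std {s : ℕ} (hs : S.HasOld s) {l : ℕ} (h : l.Coprime (C.level .std)) :
    C.twist .std l = C.twist (.old s) l := by
  have hL : l.Coprime (C.level (.old s)) := h.of_dvd_right (C.level_old_dvd hs)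
  rw [C.twist_of_coprime h, C.twist_of_coprime hL, C.charDiamond_std hs, MonoidHom.comp_apply]
  congr 3
  exact Units.ext (by simp [ZMod.unitsMap_def])

theorem opT_old_eq_std {s : ℕ} (hs : S.HasOld s) {l : ℕ} (h : l.Coprime (C.level .std)) :
    C.opT (.old s) l = C.opT .std l := by
  rw [opT, opT, C.twist_old_eq_std hs h]

theorem twist_old_sq_mul (hp2 : p ≠ 2) {s : ℕ} (hs : S.HasOld s) :
    C.twist (.old s) s ^ 2 * (charDiamond O (C.char (.old s)) (C.delta (.old s))
      (levelUnit (q := hs.toPrime) (C.not_dvd_level_old hs)) : DiamondRing O C.Δ) = 1 := by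
  rw [C.twist_of_coprime (C.coprime_level_old hs),
    show ZMod.unitOfCoprime s (C.coprime_level_old hs) =
      levelUnit (q := hs.toPrime) (C.not_dvd_level_old hs) from Units.ext rfl,
    C.coe_charDiamond_old, ← pow_mul, ← pow_succ, ← map_pow]
  have hodd : (p ^ (e + 1) - 1) / 2 * 2 + 1 = p ^ (e + 1) := by
    obtain ⟨k, hk⟩ := ((Fact.out : p.Prime).odd_of_ne_two hp2).pow (n := e + 1)
    omega
  rw [hodd, pow_succ p e, pow_mul]
  have h1 : ∀ g : C.Δ, g ^ p ^ e = 1 := fun g => funext fun i => by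
    rw [Pi.pow_apply, Pi.one_apply, ← ofAdd_toAdd (g i), ← ofAdd_nsmul]
    simp
  rw [h1, one_pow, map_one]

theorem diamondAug_twist_old {s l : ℕ} (h : l.Coprime (C.level (.old s))) :
    diamondAug O C.Δ (C.twist (.old s) l) = 1 := by
  rw [C.twist_of_coprime h, map_pow, C.diamondAug_charDiamond_old, one_pow]

/-! ## The residual characters -/

theorem theta_C (v : OddVariant) (a : O) : C.theta v (MvPolynomial.C a) = residue O a := by
  rw [theta, residualRaiseSet_C, SupplyParams.baseTheta, eval₂Hom_C]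

theorem theta_C_maximal (v : OddVariant) :
    ∀ a ∈ maximalIdeal O, C.theta v (MvPolynomial.C a) = 0 := fun a ha => by
  rw [C.theta_C]
  exact (residue_eq_zero_iff a).2 ha

theorem gTheta_X (v : OddVariant) (l : Nat.Primes) : C.gTheta v (X l) = C.theta v (X l) :=
  gammaHTheta_X O _ l

theorem gTheta_C (v : OddVariant) (a : DiamondRing O C.Δ) :
    C.gTheta v (MvPolynomial.C a) = residue O (diamondAug O C.Δ a) := by
  show gammaHTheta O (C.theta v) C.Δ (MvPolynomial.C a) = _
  rw [gammaHTheta_C, C.theta_C]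

theorem gTheta_surjective (v : OddVariant) :
    Function.Surjective ((C.gTheta v).comp MvPolynomial.C) := fun x => by
  obtain ⟨a, rfl⟩ := residue_surjective x
  exact ⟨algebraMap O _ a, by rw [RingHom.comp_apply, C.gTheta_C, AlgHom.commutes]; rfl⟩

theorem theta_X_of_notMem (v : OddVariant) {l : Nat.Primes} (hl : ∀ i, C.qv i ≠ (l : ℕ)) :
    C.theta v (X l) = P.baseTheta v (X l) :=
  residualRaiseSet_X_of_notMem _ _ fun h => by
    obtain ⟨i, -, hi⟩ := Finset.mem_image.1 h
    exact hl i (congrArg Subtype.val hi)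

theorem baseTheta_old_X_of_ne {s : ℕ} {l : Nat.Primes} (hl : (l : ℕ) ≠ s) :
    P.baseTheta (.old s) (X l) = P.θX l := by
  simp [SupplyParams.baseTheta, hl]

theorem gTheta_old_X_of_ne {s : ℕ} {l : Nat.Primes} (hq : ∀ i, C.qv i ≠ (l : ℕ))
    (hl : (l : ℕ) ≠ s) : C.gTheta (.old s) (X l) = P.θX l := by
  rw [C.gTheta_X, C.theta_X_of_notMem _ hq, baseTheta_old_X_of_ne hl]

theorem theta_std_of_kap_two {s : ℕ} (hs : S.HasOld s) (hk : S.kap s = 2) :
    C.theta .std = C.theta (.old s) := by
  have hns : s ∉ S.locPrimes := fun h => by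
    have := hs.mem_locPrimes_iff.1 h
    omega
  have h : P.baseTheta .std = P.baseTheta (.old s) := by
    refine ringHom_ext (fun a => by simp [SupplyParams.baseTheta]) fun l => ?_
    simp only [SupplyParams.baseTheta, eval₂Hom_X']
    rw [if_neg]
    rintro ⟨-, h⟩
    exact hns h
  rw [theta, theta, h]

theorem gTheta_old_X_self {s : ℕ} (hs : S.HasOld s) (hk : S.kap s = 1) :
    C.gTheta (.old s) (X hs.toPrime) =
      P.θX hs.toPrime + (s : ResidueField O) / P.θX hs.toPrime := by
  rw [C.gTheta_X, C.theta_X_of_notMem _ fun i => C.qv_ne_of_hasOld hs i]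
  simp [SupplyParams.baseTheta, hs.mem_locPrimes_iff.2 hk]

theorem gTheta_std_of_kap_one {s : ℕ} (hs : S.HasOld s) (hk : S.kap s = 1) :
    C.gTheta .std = residualRaise (C.gTheta (.old s)) hs.toPrime (P.θX hs.toPrime) := by
  refine ringHom_ext (fun a => ?_) fun l => ?_
  · rw [residualRaise_C, C.gTheta_C, C.gTheta_C]
  · by_cases hl : l = hs.toPrime
    · subst hl
      rw [residualRaise_X_self, C.gTheta_X, C.theta_X_of_notMem _
        fun i => C.qv_ne_of_hasOld hs i]
      simp [SupplyParams.baseTheta]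
    · have hl' : (l : ℕ) ≠ s := fun h => hl (Subtype.ext h)
      rw [residualRaise_X_of_ne _ _ hl, C.gTheta_X, C.gTheta_X, theta, theta]
      by_cases hQ : l ∈ C.qPrimes
      · rw [residualRaiseSet_X_of_mem _ _ hQ, residualRaiseSet_X_of_mem _ _ hQ]
      · rw [residualRaiseSet_X_of_notMem _ _ hQ, residualRaiseSet_X_of_notMem _ _ hQ,
          baseTheta_old_X_of_ne hl']
        simp [SupplyParams.baseTheta]

theorem supplyPrimes_of_not_dvd {l : Nat.Primes} (h : ¬ (l : ℕ) ∣ p * S.level) :
    l ∈ S.supplyPrimes := Or.inl h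

theorem not_mem_supplyPrimes {s : ℕ} (hs : S.HasOld s) (hk : S.kap s = 2) :
    (hs.toPrime : Nat.Primes) ∉ S.supplyPrimes := by
  rintro (h | h)
  · exact h (hs.dvd_level.mul_left p)
  · have := hs.mem_locPrimes_iff.1 h
    omega

theorem mem_supplyPrimes {s : ℕ} (hs : S.HasOld s) (hk : S.kap s = 1) :
    (hs.toPrime : Nat.Primes) ∈ S.supplyPrimes := Or.inr (hs.mem_locPrimes_iff.2 hk)

theorem isUnit_two (hp2 : p ≠ 2) (hpO : (p : O) ∈ maximalIdeal O) : IsUnit (2 : O) := by
  obtain ⟨k, hk⟩ := (Fact.out : p.Prime).odd_of_ne_two hp2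
  by_contra h
  refine (maximalIdeal.isMaximal O).ne_top ((Ideal.eq_top_iff_one _).2 ?_)
  have h2 : (2 : O) ∈ maximalIdeal O := (mem_maximalIdeal _).2 h
  have h3 := Ideal.sub_mem _ hpO (Ideal.mul_mem_right (k : O) _ h2)
  rwa [hk, Nat.cast_add, Nat.cast_mul, Nat.cast_ofNat, Nat.cast_one, add_sub_cancel_left] at h3

theorem two_ne_zero_residue (hp2 : p ≠ 2) (hpO : (p : O) ∈ maximalIdeal O) :
    (2 : ResidueField O) ≠ 0 := by
  rw [← map_ofNat (residue O) 2]
  exact ((isUnit_two hp2 hpO).map (residue O)).ne_zero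

theorem ellipticHarmless_old (hp2 : p ≠ 2) (hpO : (p : O) ∈ maximalIdeal O) {s : ℕ}
    (hs : S.HasOld s) {Pr : Set Nat.Primes}
    (hPr : ∀ l : Nat.Primes, l ∈ S.supplyPrimes → (l : ℕ) ≠ s → l ∈ Pr) :
    EllipticHarmless (C.level (.old s)) Pr (C.gTheta (.old s)) := by
  refine ellipticHarmless_diamond O Pr _ ?_
  rcases P.ell_spec with h3 | ⟨h3, hne⟩
  · exact Or.inl ⟨Or.inl (isUnit_two hp2 hpO), Or.inl h3⟩
  · have hns : (P.ell : ℕ) ≠ s := fun h => P.ell_good (h ▸ hs.dvd_level.mul_left p)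
    refine Or.inr (Or.inl ⟨Or.inl (isUnit_two hp2 hpO), P.ell,
      hPr _ (supplyPrimes_of_not_dvd P.ell_good) hns, h3, ?_⟩)
    rwa [C.theta_X_of_notMem _ fun i h => C.notAvoid i (by simp [SupplyParams.avoid, h]),
      baseTheta_old_X_of_ne hns]

/-- A prime for Ihara's lemma. -/
theorem exists_iharaPrime (hres : OddResidual p ρbar) {s : ℕ} (hs : S.HasOld s) :
    ∃ l : Nat.Primes, ((l : ℕ) : ZMod (Modular.Ihara.iharaLevel (C.level (.old s)) s)) = 1 ∧
      l ∈ S.supplyPrimes ∧ C.gTheta (.old s) (X l) ≠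
        C.gTheta (.old s) (MvPolynomial.C (((l : ℕ) : DiamondRing O C.Δ) + 1)) := by
  haveI : NeZero (Modular.Ihara.iharaLevel (C.level (.old s)) s) :=
    ⟨(Modular.Ihara.iharaLevel_pos (Nat.pos_of_ne_zero (NeZero.ne _)) hs.prime).ne'⟩
  obtain ⟨l, hl, hlT, -, -, hl1, A, hA, σ, hσ, hne⟩ :=
    HeckeRep.exists_frobenius_trace_ne hres.absIrred Fact.out hres.det
      (Modular.Ihara.iharaLevel (C.level (.old s)) s)
      ((p * S.level).primeFactors ∪ Finset.univ.image C.qv)
  rw [Finset.mem_union, not_or] at hlT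
  have hgood : ¬ l ∣ p * S.level := fun h => hlT.1
    (Nat.mem_primeFactors.2 ⟨hl, h, mul_ne_zero (Fact.out : p.Prime).ne_zero (NeZero.ne _)⟩)
  obtain ⟨L, rfl⟩ : ∃ L : Nat.Primes, (L : ℕ) = l := ⟨⟨l, hl⟩, rfl⟩
  refine ⟨L, hl1, supplyPrimes_of_not_dvd hgood, ?_⟩
  rw [C.gTheta_old_X_of_ne (fun i h => hlT.2 (Finset.mem_image.2 ⟨i, Finset.mem_univ _, h⟩))
    (fun h : (L : ℕ) = s => hgood (h ▸ hs.dvd_level.mul_left p)), P.θX_good L hgood A hA σ hσ,
    C.gTheta_C]
  simpa using hne

/-- An operator with nonzero residual value is invertible on the module. -/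
theorem isUnit_end {v : OddVariant} {x : BettiHeckeAlg (DiamondRing O C.Δ)}
    (hx : x ∈ supported (DiamondRing O C.Δ) S.supplyPrimes) (hne : C.gTheta v x ≠ 0) :
    IsUnit (algebraMap (BettiHeckeAlg (DiamondRing O C.Δ))
      (Module.End (BettiHeckeAlg (DiamondRing O C.Δ)) (C.Mod v)) x) :=
  IsLocalizedModule.map_units
    (LocalizedModule.mkLinearMap (bettiResidualSubmonoid S.supplyPrimes (C.gTheta v))
      (BettiMod (C.level v) (charDiamond O (C.char v) (C.delta v)) (DiamondRing O C.Δ)))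
    ⟨x, mem_bettiResidualSubmonoid.2 ⟨hx, hne⟩⟩

variable [IsAdicComplete (maximalIdeal O) O]

/-- Raising with two copies. -/
theorem exists_raise_two (hp2 : p ≠ 2) (hpO : (p : O) ∈ maximalIdeal O)
    (hres : OddResidual p ρbar) [IsLocalRing (DiamondRing O C.Δ)] {s : ℕ} (hs : S.HasOld s)
    (hk : S.kap s = 2) :
    ∃ D : RaiseMaps hs.toPrime (Fin 2) (charDiamond O (C.char (.old s)) (C.delta (.old s)))
        (charDiamond O (C.char .std) (C.delta .std)) S.supplyPrimes (C.gTheta (.old s))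
        (C.gTheta .std) (charDiamond O (C.char (.old s)) (C.delta (.old s))
          (levelUnit (q := hs.toPrime) (C.not_dvd_level_old hs)) : DiamondRing O C.Δ),
      D.G = levelGram (charDiamond O (C.char (.old s)) (C.delta (.old s)))
        (q := hs.toPrime) (C.not_dvd_level_old hs) := by
  haveI := C.finite_Δ
  haveI := diamond_isAdicComplete O C.Δ
  obtain ⟨l, hl, hlPr, hne⟩ := C.exists_iharaPrime hres hs
  rw [C.charDiamond_std hs, show C.gTheta .std = C.gTheta (.old s) by
    rw [gTheta, gTheta, C.theta_std_of_kap_two hs hk]]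
  exact exists_raiseMaps_two _ (C.level_std_eq hs) _ (C.charDiamond_old_neg_one hp2 s)
    (C.charDiamond_old_sub_one_mem s) (gammaHTheta_maximal O _ (C.theta_C_maximal _))
    (not_mem_supplyPrimes hs hk) (C.ellipticHarmless_old hp2 hpO hs fun l hl _ => hl) hl hlPr hne

theorem theta_self_facts (hp2 : p ≠ 2) (hpO : (p : O) ∈ maximalIdeal O) (P : SupplyParams S tp)
    {s : ℕ} (hs : S.HasOld s) (hk : S.kap s = 1) :
    P.θX hs.toPrime ^ 2 = 1 ∧ (s : ResidueField O) ≠ 1 := by
  have hp0 : ((p : ℕ) : ResidueField O) = 0 := by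
    rw [← map_natCast (residue O), residue_eq_zero_iff]
    exact hpO
  by_cases hsp : s = p
  · have hc : S.pCase = PCase.mixed := by
      rcases hs with h | ⟨-, hc⟩
      · exact absurd hsp (S.ne_p s (Finset.mem_union_right _ h))
      · exact hc
    subst hsp
    exact ⟨P.θX_p hc, by rw [hp0]; exact zero_ne_one⟩
  · have hF := hs.mem_F_of_ne hsp
    have hd : p ∣ s + 1 := (hs.kap_eq_one_iff.1 hk).resolve_left hsp
    refine ⟨?_, ?_⟩
    · rw [P.θX_F hs.toPrime hF hd]
      rcases S.sign_F s hF with h | h <;> simp [h]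
    · intro h
      obtain ⟨k, hk'⟩ := hd
      have h2 : ((s + 1 : ℕ) : ResidueField O) = 0 := by rw [hk', Nat.cast_mul, hp0, zero_mul]
      rw [Nat.cast_add, Nat.cast_one, h, one_add_one_eq_two] at h2
      exact two_ne_zero_residue hp2 hpO h2

/-- Raising with one copy. -/
theorem exists_raise_one (hp2 : p ≠ 2) (hpO : (p : O) ∈ maximalIdeal O)
    (hres : OddResidual p ρbar) [IsLocalRing (DiamondRing O C.Δ)] {s : ℕ} (hs : S.HasOld s)
    (hk : S.kap s = 1) :
    ∃ (a : BettiHeckeAlg (DiamondRing O C.Δ))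
      (D : RaiseMaps hs.toPrime (Fin 1) (charDiamond O (C.char (.old s)) (C.delta (.old s)))
        (charDiamond O (C.char .std) (C.delta .std)) S.supplyPrimes (C.gTheta (.old s))
        (C.gTheta .std) (charDiamond O (C.char (.old s)) (C.delta (.old s))
          (levelUnit (q := hs.toPrime) (C.not_dvd_level_old hs)) : DiamondRing O C.Δ)),
      a ∈ supported (DiamondRing O C.Δ) S.supplyPrimes ∧
      C.gTheta (.old s) a = P.θX hs.toPrime ∧
      (∀ y : C.Mod (.old s), heckeRootPoly (q := hs.toPrime) (C.not_dvd_level_old hs)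
        (charDiamond O (C.char (.old s)) (C.delta (.old s))) a • y = 0) ∧
      D.G = Matrix.of fun _ _ => a ^ 2 - MvPolynomial.C
        (charDiamond O (C.char (.old s)) (C.delta (.old s))
          (levelUnit (q := hs.toPrime) (C.not_dvd_level_old hs)) : DiamondRing O C.Δ) := by
  haveI := C.finite_Δ
  haveI := diamond_isAdicComplete O C.Δ
  obtain ⟨l, hl, hlPr, hne⟩ := C.exists_iharaPrime hres hs
  obtain ⟨hsq, hs1⟩ := theta_self_facts hp2 hpO P hs hk
  have hα0 : P.θX hs.toPrime ≠ 0 := fun h => by simp [h] at hsq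
  rw [C.charDiamond_std hs, C.gTheta_std_of_kap_one hs hk]
  refine exists_raiseMaps_one _ (C.level_std_eq hs) _ (C.charDiamond_old_neg_one hp2 s)
    (C.charDiamond_old_sub_one_mem s) (gammaHTheta_maximal O _ (C.theta_C_maximal _))
    (C.gTheta_surjective _) (mem_supplyPrimes hs hk) (P.θX hs.toPrime) ?_ hα0 ?_
    (C.ellipticHarmless_old hp2 hpO hs fun l hl hne => ⟨hl, fun h => hne (congrArg Subtype.val h)⟩)
    hl hlPr hne
  · rw [C.gTheta_old_X_self hs hk, C.gTheta_C, map_mul, C.diamondAug_charDiamond_old, mul_one,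
      map_natCast, map_natCast]
    field_simp
    ring
  · rw [C.gTheta_old_X_self hs hk]
    intro h
    refine hs1 ?_
    have h1 : P.θX hs.toPrime = (s : ResidueField O) / P.θX hs.toPrime := by linear_combination h
    rw [eq_div_iff hα0, ← pow_two, hsq] at h1
    exact h1.symm

end SupplyLevel

/-! ## The fields -/

/-- The endomorphism turning the composite of one copy into its Gram element. -/
theorem exists_gram_end {A M : Type*} [CommRing A] [AddCommGroup M] [Module A M]
    {a t x c ε s : A} (htc : t ^ 2 * c = 1) (hε : ε ^ 2 = 1)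
    (hroot : ∀ v : M, (a ^ 2 - x * a + s * c) • v = 0)
    (hE : IsUnit (algebraMap A (Module.End A M) (t * a * (t * a + ε))))
    (hF : IsUnit (algebraMap A (Module.End A M) ((t * a - ε * s) * t ^ 2))) :
    ∃ g : Module.End A M, Function.Surjective g ∧
      ∀ v, g ((a ^ 2 - c) • v) = (t * x - ε * (s + 1)) • v := by
  obtain ⟨u, hu⟩ := hE
  refine ⟨↑u⁻¹ * algebraMap A (Module.End A M) ((t * a - ε * s) * t ^ 2),
    ((Module.End.isUnit_iff _).1 (u⁻¹.isUnit.mul hF)).2, fun v => ?_⟩
  refine ((Module.End.isUnit_iff _).1 u.isUnit).1 ?_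
  rw [← Module.End.mul_apply, Units.mul_inv_cancel_left, hu, Module.algebraMap_end_apply,
    Module.algebraMap_end_apply, smul_smul, smul_smul, ← sub_eq_zero, ← sub_smul,
    show (t * a - ε * s) * t ^ 2 * (a ^ 2 - c) - t * a * (t * a + ε) * (t * x - ε * (s + 1)) =
      (t * a + ε) * t ^ 2 * (a ^ 2 - x * a + s * c) by
    linear_combination (-(t * a - ε * s) - (t * a + ε) * s) * htc + t * a * (s + 1) * hε,
    mul_smul, hroot, smul_zero]

theorem smul_gram_two {A M : Type*} [CommRing A] [AddCommGroup M] [Module A M] {t c : A}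
    (htc : t ^ 2 * c = 1) (x k : A) (u v : M) :
    t • (x • u + (c * k) • t • v) = (t * x) • u + k • v := by
  rw [smul_add, smul_smul, smul_smul, smul_smul,
    show t * (c * k) * t = k by linear_combination k * htc]

/-- The identity behind the Gram matrix of two copies. -/
theorem C_smul_gram_two {R σ M : Type*} [CommRing R] [AddCommGroup M]
    [Module (MvPolynomial σ R) M] {t c : R} (htc : t ^ 2 * c = 1) (x : MvPolynomial σ R) (k : R)
    (u : Fin 2 → R) (h0 : u 0 = 1) (h1 : u 1 = t) (v : Fin 2 → M) (a : Fin 2) :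
    (MvPolynomial.C (u a) : MvPolynomial σ R) •
        ∑ b, (!![MvPolynomial.C k, x; x, MvPolynomial.C (c * k)] a b : MvPolynomial σ R) •
          (MvPolynomial.C (u b) : MvPolynomial σ R) • v b =
      ∑ b, (if a = b then MvPolynomial.C k else MvPolynomial.C t * x : MvPolynomial σ R) • v b := by
  rw [Fin.sum_univ_two, Fin.sum_univ_two]
  fin_cases a
  · simp [h0, h1, smul_smul, mul_comm x]
  · simp only [Fin.mk_one, Matrix.of_apply, Matrix.cons_val', Matrix.cons_val_zero,
      Matrix.cons_val_one, Matrix.cons_val_fin_one, h0, h1, map_one, one_smul, Fin.reduceEq,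
      ↓reduceIte]
    rw [MvPolynomial.C_mul]
    exact smul_gram_two (by rw [← map_pow, ← map_mul, htc, map_one]) _ _ _ _

theorem sub_intCast_mul_smul {R M : Type*} [Ring R] [AddCommGroup M] [Module R M] (x : R) (n : ℤ)
    (k : ℕ) (m : M) :
    (x - (n : R) * ((k : R) + 1)) • m = x • m - n • (k • m + m) := by
  rw [sub_smul, mul_smul, add_smul, one_smul, Int.cast_smul_eq_zsmul, Nat.cast_smul_eq_nsmul]

/-- A successor of a natural number acts the same way through two rings. -/
private theorem succ_cast_smul {R R' M : Type*} [Semiring R] [Semiring R'] [AddCommMonoid M]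
    [Module R M] [Module R' M] (n : ℕ) (m : M) : ((n : R) + 1) • m = ((n : R') + 1) • m := by
  rw [add_smul, add_smul, one_smul, one_smul, Nat.cast_smul_eq_nsmul, Nat.cast_smul_eq_nsmul]

set_option genSizeOf false in
set_option genInjectivity false in
/-- The fields of the raising maps which do not mention the systems, and the properties of the
old part behind the others. -/
structure SupplyRaiseCore (C : SupplyLevel P Q r e) (s : ℕ) : Type where
  up : (Fin (S.kap s) → C.Mod (.old s)) →ₗ[O] C.Mod .std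
  up_t : ∀ ℓ : ℕ, ℓ.Prime → ℓ ∉ C.exc (.old s) ∪ C.exc .std → ∀ v,
    up (fun a => C.tElt (.old s) ℓ • v a) = C.tElt .std ℓ • up v
  up_injective_mod : ∀ v, up v ∈ C.augIdeal • (⊤ : Submodule (DiamondRing O C.Δ) (C.Mod .std)) →
    ∀ a, v a ∈ C.augIdeal • (⊤ : Submodule (DiamondRing O C.Δ) (C.Mod (.old s)))
  down : C.Mod .std →ₗ[O] (Fin (S.kap s) → C.Mod (.old s))
  down_t : ∀ ℓ : ℕ, ℓ.Prime → ℓ ∉ C.exc (.old s) ∪ C.exc .std → ∀ m a,
    down (C.tElt .std ℓ • m) a = C.tElt (.old s) ℓ • down m a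
  down_surjective : s ∈ S.F → Function.Surjective down
  down_up : s ∈ S.F → ∃ G : Matrix (Fin (S.kap s)) (Fin (S.kap s)) (C.hecke (.old s)),
    (∀ v a, down (up v) a = ∑ b, G a b • v b) ∧
    ((S.kap s = 1 ∧ ∀ a b, ∃ w, G a b =
        (C.tElt (.old s) s - (S.ε s : C.hecke (.old s)) * ((s : C.hecke (.old s)) + 1)) * w) ∨
      (S.kap s = 2 ∧ ∀ a b, G a b =
        if a = b then (s : C.hecke (.old s)) + 1 else C.tElt (.old s) s))
  range_smul : ∀ (T : BettiHeckeAlg (DiamondRing O C.Δ)) (m : C.Mod .std),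
    m ∈ LinearMap.range up → T • m ∈ LinearMap.range up
  sq_sub_mem : ∀ m : C.Mod .std, C.opT (.old s) s ^ 2 • m - m ∈ LinearMap.range up
  torsion_free : ∀ d : O, d ≠ 0 → ∀ m : C.Mod .std,
    d • m ∈ LinearMap.range up → m ∈ LinearMap.range up

namespace SupplyLevel

variable (C : SupplyLevel P Q r e)

open scoped Classical in
/-- The core from raising data, rescaled at the source and composed at the target. -/
theorem nonempty_core (hp2 : p ≠ 2) (hpO : (p : O) ∈ maximalIdeal O)
    [IsLocalRing (DiamondRing O C.Δ)] {s : ℕ} (hs : S.HasOld s) {n : ℕ} (hn : S.kap s = n)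
    (D : RaiseMaps hs.toPrime (Fin n) (charDiamond O (C.char (.old s)) (C.delta (.old s)))
        (charDiamond O (C.char .std) (C.delta .std)) S.supplyPrimes (C.gTheta (.old s))
        (C.gTheta .std) (charDiamond O (C.char (.old s)) (C.delta (.old s))
          (levelUnit (q := hs.toPrime) (C.not_dvd_level_old hs)) : DiamondRing O C.Δ))
    (w : Fin n → (DiamondRing O C.Δ)ˣ)
    (dn : (Fin n → C.Mod (.old s)) →ₗ[BettiHeckeAlg (DiamondRing O C.Δ)]
      (Fin n → C.Mod (.old s)))
    (hdn : s ∈ S.F → Function.Surjective dn)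
    (hG : s ∈ S.F → ∃ G : Matrix (Fin n) (Fin n) (C.hecke (.old s)),
      (∀ (v : Fin n → C.Mod (.old s)) (a : Fin n), dn (D.down (D.up fun b => (w b : DiamondRing O C.Δ) • v b)) a =
        ∑ b, G a b • v b) ∧
      ((n = 1 ∧ ∀ a b, ∃ x, G a b =
          (C.tElt (.old s) s - (S.ε s : C.hecke (.old s)) * ((s : C.hecke (.old s)) + 1)) * x) ∨
        (n = 2 ∧ ∀ a b, G a b =
          if a = b then (s : C.hecke (.old s)) + 1 else C.tElt (.old s) s))) :
    Nonempty (SupplyRaiseCore C s) := by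
  subst hn
  haveI := C.finite_Δ
  let W : (Fin (S.kap s) → C.Mod (.old s)) →ₗ[DiamondRing O C.Δ]
      (Fin (S.kap s) → C.Mod (.old s)) :=
    LinearMap.pi fun a => (w a : DiamondRing O C.Δ) • LinearMap.proj a
  have hW : ∀ v, W v = fun a => (w a : DiamondRing O C.Δ) • v a := fun v => rfl
  have hWs : Function.Surjective W := fun v =>
    ⟨fun a => (↑(w a)⁻¹ : DiamondRing O C.Δ) • v a,
      (hW _).trans (funext fun a => smul_inv_smul (w a) (v a))⟩
  let up : (Fin (S.kap s) → C.Mod (.old s)) →ₗ[O] C.Mod .std :=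
    (D.up.comp W).restrictScalars O
  let down : C.Mod .std →ₗ[O] (Fin (S.kap s) → C.Mod (.old s)) :=
    (dn.restrictScalars O).comp (D.down.restrictScalars O)
  have hrange : ∀ m, m ∈ LinearMap.range up ↔ m ∈ LinearMap.range D.up := fun m => by
    constructor
    · rintro ⟨v, rfl⟩
      exact ⟨_, rfl⟩
    · rintro ⟨v, rfl⟩
      obtain ⟨u, rfl⟩ := hWs v
      exact ⟨u, rfl⟩
  have hop : ∀ ℓ : ℕ, ℓ.Prime → ℓ ∉ C.exc .std → C.opT (.old s) ℓ = C.opT .std ℓ ∧
      C.opT .std ℓ ∈ supported (DiamondRing O C.Δ) {l : Nat.Primes | l ≠ hs.toPrime} := by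
    intro ℓ hℓ hE
    refine ⟨C.opT_old_eq_std hs (C.coprime_of_not_mem_exc hℓ hE), ?_⟩
    rw [opT, dif_pos hℓ]
    refine mul_mem (C_mem_supported_set _ _) (X_mem_supported_set fun h => ?_)
    have h' : ℓ = s := congrArg Subtype.val h
    refine C.not_mem_exc hℓ hE ?_
    rw [h', C.level_std_eq hs]
    exact (dvd_mul_left s _).mul_left p
  refine ⟨{
    up := up
    up_t := fun ℓ hℓ hE v => ?_
    up_injective_mod := fun v hv a => ?_
    down := down
    down_t := fun ℓ hℓ hE m a => ?_
    down_surjective := fun hF => (hdn hF).comp D.down_surjective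
    down_up := fun hF => ?_
    range_smul := fun T m hm => (hrange _).2 (D.smul_mem_range T ((hrange _).1 hm))
    sq_sub_mem := fun m => (hrange _).2 ?_
    torsion_free := fun d hd m hm => (hrange _).2 ?_ }⟩
  · rw [Finset.mem_union, not_or] at hE
    obtain ⟨heq, hsup⟩ := hop ℓ hℓ hE.2
    rw [C.tElt_smul hℓ hE.2]
    show D.up (W fun a => C.tElt (.old s) ℓ • v a) = C.opT .std ℓ • D.up (W v)
    rw [← D.up_smul _ hsup]
    congr 1
    funext a
    show (w a : DiamondRing O C.Δ) • (C.tElt (.old s) ℓ • v a : C.Mod (.old s)) =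
      C.opT .std ℓ • ((w a : DiamondRing O C.Δ) • v a : C.Mod (.old s))
    rw [C.tElt_smul hℓ hE.1, heq]
    exact smul_comm _ _ _
  · rw [C.augIdeal_eq_maximalIdeal hpO] at hv ⊢
    have h := D.up_injective_mod _ hv a
    have h1 : ((w a : DiamondRing O C.Δ) • v a : C.Mod (.old s)) ∈
        maximalIdeal (DiamondRing O C.Δ) •
          (⊤ : Submodule (DiamondRing O C.Δ) (C.Mod (.old s))) := h
    have h2 := Submodule.smul_mem _ (↑(w a)⁻¹ : DiamondRing O C.Δ) h1
    exact (congrArg (fun z : C.Mod (.old s) => z ∈ maximalIdeal (DiamondRing O C.Δ) •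
      (⊤ : Submodule (DiamondRing O C.Δ) (C.Mod (.old s)))) (inv_smul_smul (w a) (v a))).mp h2
  · rw [Finset.mem_union, not_or] at hE
    obtain ⟨heq, hsup⟩ := hop ℓ hℓ hE.2
    rw [C.tElt_smul hℓ hE.2, C.tElt_smul hℓ hE.1, heq]
    show dn (D.down (C.opT .std ℓ • m)) a = _
    rw [D.down_smul _ hsup, map_smul]
    rfl
  · exact Exists.elim (hG hF) fun G h => ⟨G, fun v a => h.1 v a, h.2⟩
  · have key : ∀ (t c : DiamondRing O C.Δ), t ^ 2 * c = 1 → ∀ (y : C.Mod .std),
        ((MvPolynomial.C t * X hs.toPrime) ^ 2 : BettiHeckeAlg (DiamondRing O C.Δ)) • y - y =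
          (MvPolynomial.C (t ^ 2) : BettiHeckeAlg (DiamondRing O C.Δ)) •
            ((X hs.toPrime ^ 2 - MvPolynomial.C c : BettiHeckeAlg (DiamondRing O C.Δ)) • y) :=
      fun t c h y => by
        have e : ((MvPolynomial.C t * X hs.toPrime) ^ 2 - 1 : BettiHeckeAlg (DiamondRing O C.Δ)) =
            MvPolynomial.C (t ^ 2) * (X hs.toPrime ^ 2 - MvPolynomial.C c) := by
          rw [mul_sub, ← map_mul, h, map_one, mul_pow, map_pow]
        exact ((congrArg (fun z => ((MvPolynomial.C t * X hs.toPrime) ^ 2 :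
            BettiHeckeAlg (DiamondRing O C.Δ)) • y - z) (one_smul _ y).symm).trans
          ((sub_smul _ _ y).symm.trans ((congrArg (fun z => z • y) e).trans (mul_smul _ _ y))))
    rw [opT, dif_pos hs.prime, key _ _ (C.twist_old_sq_mul hp2 hs)]
    exact D.smul_mem_range _ (D.sq_sub_mem m)
  · have := D.free_coker
    haveI : Module.Free O (C.Mod .std ⧸ LinearMap.range D.up) :=
      Module.Free.trans (R := O) (S := DiamondRing O C.Δ)
    have h0 : d • (Submodule.Quotient.mk m : C.Mod .std ⧸ LinearMap.range D.up) = 0 :=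
      (Submodule.Quotient.mk_smul (LinearMap.range D.up) d m).symm.trans
        ((Submodule.Quotient.mk_eq_zero _).2 ((hrange _).1 hm))
    exact (Submodule.Quotient.mk_eq_zero _).1 ((smul_eq_zero.1 h0).resolve_left hd)

variable [IsAdicComplete (maximalIdeal O) O]

theorem tElt_old_self_smul {s : ℕ} (hs : S.HasOld s) (hsp : s ≠ p) (m : C.Mod (.old s)) :
    C.tElt (.old s) s • m =
      (MvPolynomial.C (C.twist (.old s) s) * X hs.toPrime :
        BettiHeckeAlg (DiamondRing O C.Δ)) • m := by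
  rw [C.tElt_smul hs.prime (C.not_mem_exc_old hs hsp), opT, dif_pos hs.prime]

/-- The adjoint of one copy, corrected so that the composite is the Gram element. -/
theorem exists_down_one (hp2 : p ≠ 2) (hpO : (p : O) ∈ maximalIdeal O) {s : ℕ} (hs : S.HasOld s)
    (hk : S.kap s = 1) (hsp : s ≠ p) {a : BettiHeckeAlg (DiamondRing O C.Δ)}
    (ha : a ∈ supported (DiamondRing O C.Δ) S.supplyPrimes)
    (hθa : C.gTheta (.old s) a = P.θX hs.toPrime) {t c : DiamondRing O C.Δ} (htc : t ^ 2 * c = 1)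
    (ht : diamondAug O C.Δ t = 1)
    (hroot : ∀ y : C.Mod (.old s), (a ^ 2 - X hs.toPrime * a + MvPolynomial.C
      (((s : ℕ) : DiamondRing O C.Δ) * c) : BettiHeckeAlg (DiamondRing O C.Δ)) • y = 0) :
    ∃ g : Module.End (BettiHeckeAlg (DiamondRing O C.Δ)) (C.Mod (.old s)),
      Function.Surjective g ∧ ∀ v,
        g ((a ^ 2 - MvPolynomial.C c : BettiHeckeAlg (DiamondRing O C.Δ)) • v) =
          (MvPolynomial.C t * X hs.toPrime - (S.ε s : BettiHeckeAlg (DiamondRing O C.Δ)) *
            ((s : BettiHeckeAlg (DiamondRing O C.Δ)) + 1) :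
              BettiHeckeAlg (DiamondRing O C.Δ)) • v := by
  have hF := hs.mem_F_of_ne hsp
  have hd : p ∣ s + 1 := (hs.kap_eq_one_iff.1 hk).resolve_left hsp
  obtain ⟨-, hs1⟩ := theta_self_facts hp2 hpO P hs hk
  have hεk : (S.ε s : ResidueField O) ^ 2 = 1 := by
    rcases S.sign_F s hF with h | h <;> simp [h]
  have hθt : C.gTheta (.old s) (MvPolynomial.C t) = 1 := by rw [C.gTheta_C, ht, map_one]
  rw [P.θX_F hs.toPrime hF hd, hs.coe_toPrime] at hθa
  have hm : ∀ x : DiamondRing O C.Δ,
      (MvPolynomial.C x : BettiHeckeAlg (DiamondRing O C.Δ)) ∈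
        supported (DiamondRing O C.Δ) S.supplyPrimes := fun x => C_mem_supported_set _ x
  refine exists_gram_end (A := BettiHeckeAlg (DiamondRing O C.Δ)) (a := a)
    (t := MvPolynomial.C t) (x := X hs.toPrime) (c := MvPolynomial.C c)
    (ε := (S.ε s : BettiHeckeAlg (DiamondRing O C.Δ)))
    (s := (s : BettiHeckeAlg (DiamondRing O C.Δ))) ?_ ?_ (fun y => ?_) ?_ ?_
  · rw [← map_pow, ← map_mul, htc, map_one]
  · rcases S.sign_F s hF with h | h <;> simp [h]
  · rw [← hroot y, map_mul, map_natCast]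
  · refine C.isUnit_end (mul_mem (mul_mem (hm t) ha) (add_mem (mul_mem (hm t) ha)
      (intCast_mem _ _))) ?_
    rw [map_mul, map_add, map_mul, hθt, one_mul, hθa, map_intCast,
      show (S.ε s : ResidueField O) * ((S.ε s : ResidueField O) + S.ε s) = 2 by
        linear_combination 2 * hεk]
    exact two_ne_zero_residue hp2 hpO
  · refine C.isUnit_end (mul_mem (sub_mem (mul_mem (hm t) ha) (mul_mem (intCast_mem _ _)
      (natCast_mem _ _))) (pow_mem (hm t) 2)) ?_
    rw [map_mul, map_sub, map_mul, map_mul, hθt, one_mul, hθa, map_intCast, map_natCast, map_pow,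
      hθt, one_pow, mul_one, show (S.ε s : ResidueField O) - (S.ε s : ResidueField O) * s =
        (S.ε s : ResidueField O) * (1 - s) by ring]
    refine mul_ne_zero (fun h => ?_) (sub_ne_zero.2 (Ne.symm hs1))
    rw [h] at hεk
    simp at hεk

/-- **The core exists.** -/
theorem nonempty_supplyRaiseCore (hp2 : p ≠ 2) (hpO : (p : O) ∈ maximalIdeal O)
    (hres : OddResidual p ρbar) {s : ℕ} (hs : S.HasOld s) :
    Nonempty (SupplyRaiseCore C s) := by
  classical
  haveI := C.isLocalRing_diamond hpO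
  let c : DiamondRing O C.Δ :=
    (charDiamond O (C.char (.old s)) (C.delta (.old s))
      (levelUnit (q := hs.toPrime) (C.not_dvd_level_old hs)) : DiamondRing O C.Δ)
  let t := C.twist (.old s) s
  have hcw : t ^ 2 * c = 1 := C.twist_old_sq_mul hp2 hs
  have htu : IsUnit t := IsUnit.of_mul_eq_one (t * c) (by rw [← hcw]; ring)
  by_cases hk : S.kap s = 2
  · obtain ⟨hsp, -⟩ := hs.ne_p_of_kap_two hk
    obtain ⟨D, hDG⟩ := C.exists_raise_two hp2 hpO hres hs hk
    let w : Fin 2 → (DiamondRing O C.Δ)ˣ := ![1, htu.unit]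
    let dn : (Fin 2 → C.Mod (.old s)) →ₗ[BettiHeckeAlg (DiamondRing O C.Δ)]
        (Fin 2 → C.Mod (.old s)) :=
      LinearMap.pi fun a =>
        (MvPolynomial.C (w a : DiamondRing O C.Δ) : BettiHeckeAlg (DiamondRing O C.Δ)) •
          LinearMap.proj a
    have hw : ∀ (x : DiamondRing O C.Δ) (y : C.Mod (.old s)),
        (MvPolynomial.C x : BettiHeckeAlg (DiamondRing O C.Δ)) • y = x • y := fun x y => by
      rw [← MvPolynomial.algebraMap_eq, algebraMap_smul]
    refine C.nonempty_core hp2 hpO hs hk D w dn (fun _ v => ⟨fun a =>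
      (↑(w a)⁻¹ : DiamondRing O C.Δ) • v a, funext fun a => ?_⟩) fun _ =>
      ⟨Matrix.of fun a b => if a = b then (s : C.hecke (.old s)) + 1 else C.tElt (.old s) s,
        fun v a => ?_, Or.inr ⟨rfl, fun a b => rfl⟩⟩
    · show (MvPolynomial.C (w a : DiamondRing O C.Δ) : BettiHeckeAlg (DiamondRing O C.Δ)) •
        ((↑(w a)⁻¹ : DiamondRing O C.Δ) • v a) = v a
      exact (hw _ _).trans (smul_inv_smul (w a) (v a))
    · show (MvPolynomial.C (w a : DiamondRing O C.Δ) : BettiHeckeAlg (DiamondRing O C.Δ)) •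
        D.down (D.up fun b => (w b : DiamondRing O C.Δ) • v b) a = _
      refine (congrArg
        (fun y => (MvPolynomial.C (w a : DiamondRing O C.Δ) : BettiHeckeAlg (DiamondRing O C.Δ)) • y)
        ((D.down_up _ a).trans (Finset.sum_congr rfl fun b _ => congrArg₂
          (fun (z : BettiHeckeAlg (DiamondRing O C.Δ)) (y : C.Mod (.old s)) => z • y)
          (congrFun (congrFun hDG a) b) (hw _ (v b)).symm))).trans ?_
      refine (C_smul_gram_two hcw (X hs.toPrime) (((s : ℕ) : DiamondRing O C.Δ) + 1)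
        (fun b => (w b : DiamondRing O C.Δ)) rfl rfl v a).trans
        (Finset.sum_congr rfl fun b _ => ?_)
      by_cases hab : a = b
      · exact ((congrArg (fun z : BettiHeckeAlg (DiamondRing O C.Δ) => z • v b) (if_pos hab)).trans
          (hw _ _)).trans ((succ_cast_smul s (v b)).trans
            (congrArg (fun z : C.hecke (.old s) => z • v b) (if_pos hab).symm))
      · exact (congrArg (fun z : BettiHeckeAlg (DiamondRing O C.Δ) => z • v b) (if_neg hab)).trans
          ((C.tElt_old_self_smul hs hsp (v b)).symm.trans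
            (congrArg (fun z : C.hecke (.old s) => z • v b) (if_neg hab).symm))
  · have hk1 : S.kap s = 1 :=
      hs.kap_eq_one_iff.2 (not_not.1 fun h => hk (hs.kap_eq_two_iff.2 h))
    obtain ⟨a, D, ha, hθa, hroot, hDG⟩ := C.exists_raise_one hp2 hpO hres hs hk1
    by_cases hsp : s = p
    · have hnF : s ∉ S.F := fun h => S.ne_p s (Finset.mem_union_right _ h) hsp
      exact C.nonempty_core hp2 hpO hs hk1 D 1 LinearMap.id (fun h => absurd h hnF)
        fun h => absurd h hnF
    have hF := hs.mem_F_of_ne hsp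
    have hd : p ∣ s + 1 := (hs.kap_eq_one_iff.1 hk1).resolve_left hsp
    obtain ⟨g, hg, hgv⟩ := C.exists_down_one hp2 hpO hs hk1 hsp ha hθa hcw
      (C.diamondAug_twist_old (C.coprime_level_old hs)) hroot
    refine C.nonempty_core hp2 hpO hs hk1 D 1 (LinearMap.pi fun b => g.comp (LinearMap.proj b))
      (fun _ v => ?_) fun _ =>
      ⟨Matrix.of fun _ _ =>
        C.tElt (.old s) s - (S.ε s : C.hecke (.old s)) * ((s : C.hecke (.old s)) + 1),
        fun v b => ?_, Or.inl ⟨rfl, fun a b => ⟨1, (mul_one _).symm⟩⟩⟩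
    · choose u hu using fun b => hg (v b)
      exact ⟨u, funext fun b => hu b⟩
    · show g (D.down (D.up fun b => ((1 : Fin 1 → (DiamondRing O C.Δ)ˣ) b : DiamondRing O C.Δ) •
        v b) b) = _
      obtain rfl : b = 0 := Subsingleton.elim _ _
      refine (congrArg g (((congrArg (fun u => D.down (D.up u) 0)
        (funext fun i => one_smul (DiamondRing O C.Δ) (v i))).trans (D.down_up v 0)).trans
          ((Fin.sum_univ_one _).trans (congrArg (fun z : BettiHeckeAlg (DiamondRing O C.Δ) => z • v 0)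
            (congrFun (congrFun hDG 0) 0))))).trans ?_
      refine ((hgv _).trans ?_).trans (Fin.sum_univ_one _).symm
      exact (sub_intCast_mul_smul _ (S.ε s) s _).trans ((congrArg (fun y => y - _)
        (C.tElt_old_self_smul hs hsp (v 0)).symm).trans
          (sub_intCast_mul_smul (C.tElt (.old s) s) (S.ε s) s _).symm)

variable [Finite (ResidueField O)] [CharZero O]

/-- In the mixed case the old part at `p` is proper. -/
theorem rank_old_p_lt' (hp2 : p ≠ 2) (hpO : (p : O) ∈ maximalIdeal O)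
    (hres : OddResidual p ρbar) (hc : S.pCase = PCase.mixed) (P : SupplyParams S tp) :
    S.kap p * P.rank (.old p) < P.rank .std := by
  set C := SupplyLevel.zero P with hC
  have hs : S.HasOld p := Or.inr ⟨rfl, hc⟩
  have hk : S.kap p = 1 := by simp [OddPrimes.kap]
  haveI := C.isLocalRing_diamond hpO
  obtain ⟨a, D, ha, hθa, -, hDG⟩ := C.exists_raise_one hp2 hpO hres hs hk
  obtain ⟨bo⟩ := nonempty_supplyBasis hp2 hpO hres C (v := .old p) (fun s h => by
    cases h; exact hs)
  obtain ⟨bs⟩ := nonempty_supplyBasis hp2 hpO hres C (v := .std) (fun s h => by cases h)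
  have := Module.Finite.of_basis bo
  have := Module.Free.of_basis bo
  have := Module.Finite.of_basis bs
  have := Module.Free.of_basis bs
  have : Nontrivial (C.Mod .std) :=
    Module.nontrivial_of_finrank_pos (R := DiamondRing O C.Δ) (rank_std_pos hp2 hpO P)
  have h := D.card_mul_finrank_lt fun i j => ?_
  · rw [Fintype.card_fin] at h
    rw [hk]
    exact h
  · rw [hDG, Matrix.of_apply]
    refine ⟨sub_mem (pow_mem ha 2) (C_mem_supported_set _ _), ?_⟩
    rw [map_sub, map_pow, hθa, C.gTheta_C, C.diamondAug_charDiamond_old, map_one,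
      P.θX_p hc, sub_self]

end SupplyLevel

end FermatLib.MLT.Odd

end
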