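import Fermat.Agent.MLT.Odd.SupplyEigenPoint
import Fermat.Agent.MLT.Odd.SupplyTwist
import Fermat.Agent.MLT.Odd.SupplyPointInputs
import Fermat.Agent.MLT.Odd.SupplyRaiseMaps
import Fermat.Agent.Modular.TwistSystemEigen
import Fermat.Agent.MLT.Odd.HeckeRepNonEisenstein

/-!
# An eigenvector of the twisted `U_s` is a point of trivial character

An eigenvector of the full module for the Hecke algebra and the twisted `U_s` gives a point
of the full residual Hecke algebra, hence an eigenclass, whose twist is a point of a Hecke algebra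
of trivial character with the same value at `U_s`.
-/

set_option autoImplicit false
set_option linter.style.haveILetI false

noncomputable section

namespace FermatLib.MLT.Odd

open IsLocalRing FermatLib.Modular.Twist
open scoped TensorProduct

variable {O : Type} [CommRing O] [IsDomain O] [IsDiscreteValuationRing O]
  [IsAdicComplete (maximalIdeal O) O] [Finite (ResidueField O)] [CharZero O] {p : ℕ}
  [Fact p.Prime] {ρbar : ResidualGaloisRep (ResidueField O)} {S : OddPrimes p ρbar}
  {tp : S.TamePairs} {P : SupplyParams S tp} {Q : Finset ℕ} {r e : ℕ}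

private theorem polyEval_C {R A B : Type*} [CommSemiring R] [CommSemiring A] [CommSemiring B]
    [Algebra R A] [Algebra R B] (f : A →ₐ[R] B) (b : B) (a : A) :
    ((Polynomial.aeval (R := B) b).restrictScalars R).comp (Polynomial.mapAlgHom f)
      (Polynomial.C a) = f a := by
  simp

private theorem polyEval_X {R A B : Type*} [CommSemiring R] [CommSemiring A] [CommSemiring B]
    [Algebra R A] [Algebra R B] (f : A →ₐ[R] B) (b : B) :
    ((Polynomial.aeval (R := B) b).restrictScalars R).comp (Polynomial.mapAlgHom f)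
      Polynomial.X = b := by
  simp

namespace SupplyLevel

variable (C : SupplyLevel P Q r e)

omit [IsAdicComplete (maximalIdeal O) O] [Finite (ResidueField O)] [CharZero O] in
theorem mem_supplyPrimes_of_not_mem_exc (v : OddVariant) (hv : S.level ∣ C.level v)
    (l : Nat.Primes) (h : (l : ℕ) ∉ C.exc v) : l ∈ S.supplyPrimes :=
  supplyPrimes_of_not_dvd fun hd => h (Nat.mem_primeFactors.2
    ⟨l.2, hd.trans (Nat.mul_dvd_mul_left p hv),
      mul_ne_zero (Fact.out : p.Prime).ne_zero (NeZero.ne _)⟩)

omit [IsAdicComplete (maximalIdeal O) O] [Finite (ResidueField O)] [CharZero O] in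
/-- The polynomials of the variant use only the primes of `supplyPrimes`. -/
theorem polys_le_supported (v : OddVariant)
    (hsub : ∀ l : Nat.Primes, (l : ℕ) ∉ C.exc v → l ∈ S.supplyPrimes)
    {R : BettiHeckeAlg (DiamondRing O C.Δ)} (hR : R ∈ C.polys v) :
    R ∈ MvPolynomial.supported (DiamondRing O C.Δ) S.supplyPrimes := by
  refine (Algebra.adjoin_le
    (S := (MvPolynomial.supported (DiamondRing O C.Δ) S.supplyPrimes).restrictScalars O) ?_) hR
  rintro x (⟨g, rfl⟩ | ⟨l, ⟨hl, hlE⟩, rfl⟩)
  · exact C_mem_supported_set _ _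
  · show C.opT v l ∈ MvPolynomial.supported (DiamondRing O C.Δ) S.supplyPrimes
    rw [opT, dif_pos hl]
    exact Subalgebra.mul_mem _ (C_mem_supported_set _ _)
      (X_mem_supported_set (hsub ⟨l, hl⟩ hlE))

omit [IsAdicComplete (maximalIdeal O) O] [Finite (ResidueField O)] [CharZero O] in
theorem opT_old_mem_supported {s : ℕ} (hs : S.HasOld s) (hk : S.kap s = 1) :
    C.opT (.old s) s ∈ MvPolynomial.supported (DiamondRing O C.Δ) S.supplyPrimes := by
  rw [opT, dif_pos hs.prime]
  exact Subalgebra.mul_mem _ (C_mem_supported_set _ _)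
    (X_mem_supported_set (mem_supplyPrimes hs hk))

/-- The twisted `U_s` on the full module. -/
def usEnd (s : ℕ) : Module.End O (C.Mod .std) :=
  Algebra.lsmul O O (C.Mod .std) (C.opT (.old s) s)

set_option maxHeartbeats 1600000 in
/-- **An eigenvector of the Hecke algebra and the twisted `U_s` is the twist of a point of trivial
character with that value at `U_s`.** -/
theorem exists_point_of_eigen (hp2 : p ≠ 2) (hpO : (p : O) ∈ maximalIdeal O)
    (hres : OddResidual p ρbar) {s : ℕ} (hs : S.HasOld s) (hk : S.kap s = 1) {K : Type} [Field K]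
    [IsAlgClosed K] [CharZero K] [Algebra O K] (χ : C.hecke .std →ₐ[O] K) (α : K)
    (v : K ⊗[O] C.Mod .std) (hv : v ≠ 0)
    (ht : ∀ t : C.hecke .std, (t : Module.End O (C.Mod .std)).baseChange K v = χ t • v)
    (hu : (C.usEnd s).baseChange K v = α • v) :
    ∃ Qs : Finset ℕ, (∀ q ∈ Qs, ∃ i, C.qv i = q) ∧
      ∀ (N : ℕ) [NeZero N] (hsN : s ∣ N), N = C.level .std * ∏ q ∈ Qs, q →
        ∃ θ : ↥(CuspForm.heckeAlgebra N 2 (∅ : Set ℕ)) →+* K,
          θ (CuspForm.heckeAlgebra.U hs.prime hsN (Set.notMem_empty s)) = α ∧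
          ∀ (ℓ : ℕ) (hℓ : ℓ.Prime) (hℓN : ¬ ℓ ∣ N), ℓ ∉ C.exc .std →
            θ (CuspForm.heckeAlgebra.T hℓ hℓN (Set.notMem_empty ℓ)) = χ (C.tElt .std ℓ) := by
  classical
  have hp : p.Prime := Fact.out
  have hsp : s.Prime := hs.prime
  let A := DiamondRing O C.Δ
  let χd := charDiamond O (C.char .std) (C.delta .std)
  let θd := gammaHTheta O (C.theta .std) C.Δ
  haveI := C.finite_Δ
  haveI := diamond_isLocalRing O C.Δ hpO C.isPGroup_delta
  haveI := diamond_isAdicComplete O C.Δ
  have hθd : ∀ a ∈ maximalIdeal A, θd (MvPolynomial.C a) = 0 :=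
    gammaHTheta_maximal (Δ := C.Δ) O (C.theta .std) (C.theta_maximal .std)
  let T := bettiResHecke χd S.supplyPrimes θd
  haveI : Module.Finite A T := bettiResHecke_finite χd _ θd hθd
  haveI : Module.Finite O T := Module.Finite.trans A T
  haveI : Algebra.IsIntegral O T := Algebra.IsIntegral.of_finite O T
  -- the polynomials with `U_p`
  let inc : C.polys .std →ₐ[O] (MvPolynomial.supported A S.supplyPrimes : Subalgebra A _) :=
    Subalgebra.inclusion (T := (MvPolynomial.supported A S.supplyPrimes).restrictScalars O)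
      fun _ h => C.polys_le_supported .std
        (C.mem_supplyPrimes_of_not_mem_exc .std (dvd_mul_right _ _)) h
  let U : MvPolynomial.supported A S.supplyPrimes := ⟨_, C.opT_old_mem_supported hs hk⟩
  let act : Polynomial (C.polys .std) →ₐ[O] MvPolynomial.supported A S.supplyPrimes :=
    ((Polynomial.aeval (R := MvPolynomial.supported A S.supplyPrimes) U).restrictScalars O).comp
      (Polynomial.mapAlgHom inc)
  have hactC : ∀ R, act (Polynomial.C R) = inc R := polyEval_C inc U
  have hactX : act Polynomial.X = U := polyEval_X inc U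
  let π : Polynomial (C.polys .std) →ₐ[O] K :=
    ((Polynomial.aeval (R := K) α).restrictScalars O).comp
      (Polynomial.mapAlgHom (χ.comp (C.toHecke .std)))
  have hπC : ∀ R, π (Polynomial.C R) = χ (C.toHecke .std R) := polyEval_C _ α
  have hπX : π Polynomial.X = α := polyEval_X _ α
  let L : Polynomial (C.polys .std) →ₐ[O] Module.End O (C.Mod .std) :=
    (Algebra.lsmul O O (C.Mod .std)).comp
      (((MvPolynomial.supported A S.supplyPrimes).val.restrictScalars O).comp act)
  have hLv : ∀ z, (L z).baseChange K v = π z • v := by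
    intro z
    induction z using Polynomial.induction_on' with
    | add z w hz hw =>
      rw [map_add, map_add, LinearMap.baseChange_add, LinearMap.add_apply, hz, hw, add_smul]
    | monomial n R =>
      rw [← Polynomial.C_mul_X_pow_eq_monomial, map_mul, map_mul, LinearMap.baseChange_mul,
        Module.End.mul_apply]
      have hX : ∀ k : ℕ, (L (Polynomial.X ^ k)).baseChange K v = π (Polynomial.X ^ k) • v := by
        intro k
        induction k with
        | zero =>
          rw [pow_zero, map_one, map_one, one_smul, LinearMap.baseChange_one, Module.End.one_apply]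
        | succ k ih =>
          rw [pow_succ', map_mul, map_mul, LinearMap.baseChange_mul, Module.End.mul_apply, ih,
            map_smul, show L Polynomial.X = C.usEnd s by
              refine LinearMap.ext fun m => ?_
              show ((act Polynomial.X : MvPolynomial.supported A S.supplyPrimes) :
                BettiHeckeAlg A) • m = _
              rw [hactX]
              rfl,
            hu, hπX, smul_smul, mul_comm]
      rw [hX n, map_smul, show L (Polynomial.C R) = (C.toHecke .std R : Module.End O _) by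
          refine LinearMap.ext fun m => ?_
          show ((act (Polynomial.C R) : MvPolynomial.supported A S.supplyPrimes) :
            BettiHeckeAlg A) • m = _
          rw [hactC, C.toHecke_apply]
          rfl,
        ht, hπC, smul_smul, mul_comm]
  let q : Polynomial (C.polys .std) →ₐ[O] T :=
    ((bettiResQuot χd S.supplyPrimes θd).restrictScalars O).comp act
  have hker : ∀ z, q z = 0 → π z = 0 := fun z hz => by
    have h0 : L z = 0 := LinearMap.ext fun m => by
      show ((act z : MvPolynomial.supported A S.supplyPrimes) : BettiHeckeAlg A) • m = 0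
      refine (bettiResQuot_smul χd S.supplyPrimes θd (act z) m).symm.trans ?_
      rw [show bettiResQuot χd S.supplyPrimes θd (act z) = 0 from hz]
      rfl
    have h1 := hLv z
    rw [h0, LinearMap.baseChange_zero, LinearMap.zero_apply] at h1
    exact (smul_eq_zero.1 h1.symm).resolve_right hv
  obtain ⟨F, hF⟩ := exists_point_extends (R := O) (Pl := Polynomial (C.polys .std)) (H := K) (T := T) (K := K) π q hker (RingHom.id K)
  let ψ : A →+* K := F.comp (algebraMap A T)
  letI : Algebra A K := ψ.toAlgebra
  -- a non-Eisenstein prime `≡ 1` modulo the twisted level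
  haveI : NeZero (C.level .std * ∏ i, C.qv i) :=
    ⟨mul_ne_zero (NeZero.ne _) (Finset.prod_ne_zero_iff.2 fun i _ => (C.prime i).ne_zero)⟩
  obtain ⟨l, hlp, hlT, -, -, hl1, B, hB, σ, hσ, hne⟩ :=
    HeckeRep.exists_frobenius_trace_ne hres.absIrred Fact.out hres.det
      (C.level .std * ∏ i, C.qv i) ((p * S.level).primeFactors ∪ Finset.univ.image C.qv)
  rw [Finset.mem_union, not_or] at hlT
  obtain ⟨l₀, rfl⟩ : ∃ l₀ : Nat.Primes, (l₀ : ℕ) = l := ⟨⟨l, hlp⟩, rfl⟩
  have hgood : ¬ (l₀ : ℕ) ∣ p * S.level := fun h => hlT.1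
    (Nat.mem_primeFactors.2 ⟨hlp, h, mul_ne_zero hp.ne_zero (NeZero.ne _)⟩)
  have hl₀q : l₀ ∉ C.qPrimes := fun h => by
    obtain ⟨i, hi⟩ := C.mem_qPrimes.1 h
    exact hlT.2 (Finset.mem_image.2 ⟨i, Finset.mem_univ i, hi⟩)
  have hl₀ : l₀ ∈ S.supplyPrimes := supplyPrimes_of_not_dvd hgood
  have hθl : C.theta .std (MvPolynomial.X l₀) ≠ ((l₀ : ℕ) : ResidueField O) + 1 := by
    rwa [theta, residualRaiseSet_X_of_notMem _ _ hl₀q, baseTheta_X_of_not_dvd P _ hgood,
      P.θX_good l₀ hgood B hB σ hσ]
  have hchar : C.char .std = 1 := rfl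
  have hχd : χd (-1) = 1 :=
    charDiamond_neg_one O _ _ (by rw [hchar]; rfl) (C.delta_neg_one hp2 .std)
  have hne' : θd (MvPolynomial.X l₀) ≠ θd (MvPolynomial.C (heckeDegree χd l₀)) := by
    rw [gammaHTheta_X, gammaHTheta_C, show diamondAug O C.Δ (heckeDegree χd l₀) =
      heckeDegree (C.char .std) l₀ by
        show algebraMap A O _ = _
        rw [← heckeDegree_baseChar, bettiBaseChar_charDiamond]]
    rw [show C.theta .std (MvPolynomial.C (heckeDegree (C.char .std) l₀)) =
      ((l₀ : ℕ) : ResidueField O) + 1 by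
        rw [C.theta_const .std, residue_heckeDegree (fun d => by rw [hchar]; simp) l₀ fun h => by
          rcases C.mem_of_dvd_level .std l₀.2 h with h | ⟨i, hi⟩
          · exact hgood (h.mul_left p)
          · exact hlT.2 (Finset.mem_image.2 ⟨i, Finset.mem_univ i, hi⟩)]]
    exact hθl
  obtain ⟨lam, x, hx, heig, hlam⟩ := exists_eigenclass_of_heckePoint χd hχd θd hθd
    (ellipticHarmless_diamond O _ _ (C.ellipticHarmless_theta hp2 hpO .std)) l₀ hl₀ hne'
    (K := K) { F with commutes' := fun _ => rfl }
  replace hlam : ∀ (q' : Nat.Primes) (hq : q' ∈ S.supplyPrimes),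
      lam q' = F (bettiResGen χd S.supplyPrimes θd ⟨q', hq⟩) := hlam
  -- the eigenvalues
  have hFq : ∀ R : C.polys .std, F (bettiResQuot χd S.supplyPrimes θd (inc R)) =
      χ (C.toHecke .std R) := fun R => by
    rw [← hπC, ← hactC]
    exact hF _
  have hFC : ∀ (a : A) (l' : Nat.Primes) (hl' : l' ∈ S.supplyPrimes)
      (z : MvPolynomial.supported A S.supplyPrimes),
      (z : BettiHeckeAlg A) = MvPolynomial.C a * MvPolynomial.X l' →
        F (bettiResQuot χd S.supplyPrimes θd z) = ψ a * lam l' := by
    intro a l' hl' z hz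
    rw [show z = algebraMap A _ a * (⟨MvPolynomial.X l', X_mem_supported_set hl'⟩ :
        MvPolynomial.supported A S.supplyPrimes) from Subtype.ext hz, map_mul, map_mul,
      AlgHom.commutes, hlam l' hl']
    rfl
  have hFU : ψ (C.twist (.old s) s) * lam ⟨s, hsp⟩ = α := by
    rw [← hπX, ← hFC _ _ (mem_supplyPrimes hs hk) U (by
      show C.opT (.old s) s = _
      rw [opT, dif_pos hsp]), ← hactX]
    exact hF _
  -- the twist to trivial character
  let D := C.twistData .std
  refine ⟨D.primesAt ψ, fun q' hq' => ?_, fun N _ hsN hN => ?_⟩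
  · rcases Finset.mem_union.1 (D.primesAt_subset ψ hq') with h | h
    · exact absurd h (Finset.notMem_empty q')
    · obtain ⟨i, -, hi⟩ := Finset.mem_image.1 h
      exact ⟨i, hi⟩
  subst hN
  have hprod : ∏ q' ∈ D.Qs, q' = ∏ i, C.qv i := by
    show ∏ q' ∈ C.tSet .std ∪ Finset.univ.image C.qv, q' = _
    rw [show C.tSet .std = ∅ from rfl, Finset.empty_union]
    rw [Finset.prod_image fun i _ k _ h => C.injective h]
  have hodd : Odd p := hp.odd_of_ne_two hp2
  obtain ⟨θ, hθT, hθU, -⟩ := exists_twist_point (K := K) (L := C.level .std)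
    (χ := (Units.map (ψ : A →* K)).comp χd) (D.exactly_primesAt ψ) (D.psiAt_sq_ne_one ψ hodd)
    (D.chi_mul_twistFactor_sq ψ hodd) (x := x) hx lam
    (fun q' _ => by
      rw [← BettiMod.X_smul]
      exact heig q')
    ⟨l₀, D.modEq_one_primesAt ψ (by rw [hprod]; exact hl1), fun h => by
      haveI : Nontrivial (BettiResLoc χd S.supplyPrimes θd) := by
        by_contra hn
        haveI : Subsingleton (C.Mod .std) := not_nontrivial_iff_subsingleton.1 hn
        exact hv (Subsingleton.elim _ _)
      let z : MvPolynomial.supported A S.supplyPrimes :=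
        ⟨MvPolynomial.X l₀, X_mem_supported_set hl₀⟩ - (((l₀ : ℕ) :
          MvPolynomial.supported A S.supplyPrimes) + 1)
      have hz : IsUnit (bettiResQuot χd S.supplyPrimes θd z) := by
        rw [isUnit_bettiResHecke_iff χd S.supplyPrimes θd hθd, bettiResChar_quot]
        have hzc : (z : BettiHeckeAlg A) =
            MvPolynomial.X l₀ - (((l₀ : ℕ) : BettiHeckeAlg A) + 1) := by
          simp [z]
        rw [hzc, map_sub, map_add, map_natCast, map_one, sub_ne_zero, gammaHTheta_X]
        exact hθl
      refine (hz.map F).ne_zero ?_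
      simp only [z, map_sub, map_add, map_natCast, map_one]
      rw [show F (bettiResQuot χd S.supplyPrimes θd
        ⟨MvPolynomial.X l₀, X_mem_supported_set hl₀⟩) = lam l₀ from (hlam l₀ hl₀).symm, h,
        sub_self]⟩
  refine ⟨θ, ?_, fun ℓ hℓ hℓN hℓE => ?_⟩
  · have hpD : ∀ q' ∈ D.Qs, s ≠ q' := fun q' hq' h => by
      subst h
      rcases Finset.mem_union.1 hq' with h | h
      · exact absurd h (Finset.notMem_empty s)
      · obtain ⟨i, -, hi⟩ := Finset.mem_image.1 h
        exact C.qv_ne_of_hasOld hs i hi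
    have hcop : s.Coprime (C.level (.old s)) := C.coprime_level_old hs
    rw [hθU s hsp hsN fun h => hpD s (D.primesAt_subset ψ h) rfl,
      D.twistFactor_primesAt_of_coprime ψ fun q' hq' =>
        (Nat.coprime_primes hsp (D.exactly q' hq').1).2 (hpD q' hq'),
      show D.val s = C.twist (.old s) s by
        rw [← C.val_twistData (.old s) hcop]
        simp only [D, TwistData.val, TwistData.psi, twistData, tSet, tChar]
        rfl, hFU]
  · have hcop : ℓ.Coprime (C.level .std) := C.coprime_of_not_mem_exc hℓ hℓE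
    have hℓs : (⟨ℓ, hℓ⟩ : Nat.Primes) ∈ S.supplyPrimes :=
      C.mem_supplyPrimes_of_not_mem_exc .std (dvd_mul_right _ _) ⟨ℓ, hℓ⟩ hℓE
    rw [hθT ℓ hℓ hℓN, D.twistFactor_primesAt ψ hcop, C.val_twistData .std hcop,
      ← hFC _ _ hℓs (inc ⟨C.opT .std ℓ, Algebra.subset_adjoin (Or.inr ⟨ℓ, ⟨hℓ, hℓE⟩, rfl⟩)⟩) (by
        show C.opT .std ℓ = _
        rw [opT, dif_pos hℓ]),
      hFq, tElt, dif_pos ⟨hℓ, hℓE⟩]

end SupplyLevel

end FermatLib.MLT.Odd

end
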