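import Fermat.Agent.MLT.BettiResidual
import Mathlib.RingTheory.IntegralClosure.IsIntegralClosure.Basic
import Mathlib.RingTheory.LocalRing.ResidueField.Basic

/-!
# The residue of an eigenvalue of a localised system

An eigenvalue at a prime of the localisation, integral over the coefficients, has the residual
value of that prime: otherwise its difference with a lift of that value is a unit `u`, with inverse
`q(u)`, and `X q(X) - 1` at the shifted variable is inverted with value zero.
-/

set_option autoImplicit false

noncomputable section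

namespace FermatLib.MLT.Odd

open IsLocalRing MvPolynomial

/-- The inverse of a unit of an integral algebra is a polynomial in it. -/
theorem exists_aeval_inverse_of_isUnit {R S : Type} [CommRing R] [CommRing S] [Algebra R S]
    [Algebra.IsIntegral R S] {u : S} (hu : IsUnit u) :
    ∃ q : Polynomial R, u * Polynomial.aeval u q = 1 := by
  let B := Algebra.adjoin R ({u} : Set S)
  have : Algebra.IsIntegral B S := Algebra.IsIntegral.tower_top R
  let b : B := ⟨u, Algebra.self_mem_adjoin_singleton R u⟩
  have hb : IsUnit b := IsUnit.of_map (algebraMap B S) b hu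
  obtain ⟨c, hc⟩ := hb.exists_right_inv
  obtain ⟨q, hq⟩ : ∃ q : Polynomial R, Polynomial.aeval u q = (c : S) :=
    AlgHom.mem_range _ |>.1 (Algebra.adjoin_singleton_eq_range_aeval R u ▸ c.2)
  exact ⟨q, by rw [hq]; exact congrArg Subtype.val hc⟩

variable {O A K O₁ : Type} [CommRing O] [IsLocalRing O] [CommRing A] [Algebra O A] [Field K]
  [Algebra O K] [CommRing O₁] [IsLocalRing O₁] [Algebra O O₁] [Algebra.IsIntegral O O₁]
  [IsLocalHom (algebraMap O O₁)]

/-- **The residue of an eigenvalue at a prime of the localisation.** -/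
theorem residue_eigenvalue_of_ne_zero {Pr : Set Nat.Primes}
    {θ : BettiHeckeAlg A →+* ResidueField O}
    (hθC : ∀ c, θ (C (algebraMap O A c)) = residue O c) (σ : A →+* K)
    (hσO : ∀ c, σ (algebraMap O A c) = algebraMap O K c) {lam : Nat.Primes → K}
    (h : ∀ s ∈ bettiResidualSubmonoid Pr θ, eval₂Hom σ lam s ≠ 0) (j : O₁ →+* K)
    (hjO : j.comp (algebraMap O O₁) = algebraMap O K) {l : Nat.Primes} (hl : l ∈ Pr) (a : O₁)
    (ha : j a = lam l) :
    residue O₁ a = ResidueField.map (algebraMap O O₁) (θ (X l)) := by
  obtain ⟨c, hc⟩ := residue_surjective (θ (X l))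
  rw [← hc, ResidueField.map_residue, ← sub_eq_zero, ← map_sub, residue_eq_zero_iff,
    mem_maximalIdeal, mem_nonunits_iff]
  intro hu
  obtain ⟨q, hq⟩ := exists_aeval_inverse_of_isUnit (R := O) hu
  let t : BettiHeckeAlg A := X l - C (algebraMap O A c)
  let φ : Polynomial O →+* BettiHeckeAlg A :=
    Polynomial.eval₂RingHom (C.comp (algebraMap O A)) t
  have ht : t ∈ supported A Pr :=
    Subalgebra.sub_mem _ (X_mem_supported_set hl) (C_mem_supported_set _ _)
  have hφ : ∀ f, φ f ∈ supported A Pr := fun f => by
    induction f using Polynomial.induction_on' with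
    | add f g hf hg => rw [map_add]; exact add_mem hf hg
    | monomial n b =>
      show Polynomial.eval₂ _ t (Polynomial.monomial n b) ∈ _
      rw [Polynomial.eval₂_monomial]
      exact Subalgebra.mul_mem _ (C_mem_supported_set _ _) (Subalgebra.pow_mem _ ht n)
  have hθt : θ t = 0 := by rw [map_sub, hθC, hc, sub_self]
  have heval : (eval₂Hom σ lam).comp φ =
      j.comp (Polynomial.aeval (a - algebraMap O O₁ c)).toRingHom := by
    refine Polynomial.ringHom_ext (fun b => ?_) ?_
    · show eval₂Hom σ lam (Polynomial.eval₂ _ t (Polynomial.C b)) =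
        j (Polynomial.aeval _ (Polynomial.C b))
      rw [Polynomial.eval₂_C, Polynomial.aeval_C, RingHom.comp_apply, eval₂Hom_C, hσO, ← hjO]
      rfl
    · show eval₂Hom σ lam (Polynomial.eval₂ _ t Polynomial.X) = j (Polynomial.aeval _ Polynomial.X)
      rw [Polynomial.eval₂_X, Polynomial.aeval_X, map_sub, map_sub, eval₂Hom_X', eval₂Hom_C,
        hσO, ha, ← hjO]
      rfl
  refine h (t * φ q - 1) (mem_bettiResidualSubmonoid.2
    ⟨Subalgebra.sub_mem _ (Subalgebra.mul_mem _ ht (hφ q)) (Subalgebra.one_mem _), ?_⟩) ?_
  · rw [map_sub, map_mul, hθt, zero_mul, map_one, zero_sub]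
    exact neg_ne_zero.2 one_ne_zero
  · rw [map_sub, map_mul, map_one, sub_eq_zero,
      show eval₂Hom σ lam (φ q) = j (Polynomial.aeval (a - algebraMap O O₁ c) q) from
        RingHom.congr_fun heval q,
      show eval₂Hom σ lam t = j (a - algebraMap O O₁ c) by
        rw [map_sub, map_sub, eval₂Hom_X', eval₂Hom_C, hσO, ha, ← hjO]; rfl,
      ← map_mul, hq, map_one]

end FermatLib.MLT.Odd

end
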