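import Fermat.Agent.MLT.Odd.SupplyTwist
import Fermat.Agent.MLT.Odd.SupplyPointInputs
import Fermat.Agent.MLT.Odd.SystemFamilyPoints
import Fermat.Agent.MLT.Odd.PointSignHecke
import Fermat.Agent.MLT.Odd.SupplyResidue
import Fermat.Agent.MLT.Two.Sys.CoeffRing

/-!
# The system of an eigen system of a variant

An eigen system of the localised module of a variant, twisted to trivial character, is a point of
the Hecke algebra of a level with the same primes; its values and those of the localised Hecke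
algebra lie in a finite extension of `O`, where the point is congruent to `ρbar`, and so it has a
system of the level of the variant.
-/

set_option autoImplicit false
set_option linter.style.haveILetI false
set_option linter.unusedSectionVars false

noncomputable section

namespace FermatLib.MLT.Odd

open IsLocalRing CuspForm FermatLib.Modular.Twist

local notation "Qbar" => AlgebraicClosure ℚ
local notation "Γℚ" => (AlgebraicClosure ℚ ≃ₐ[ℚ] AlgebraicClosure ℚ)

variable {O : Type} [CommRing O] [IsDomain O] [IsDiscreteValuationRing O]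
  [IsAdicComplete (maximalIdeal O) O] [Finite (ResidueField O)] [CharZero O] {p : ℕ}
  [Fact p.Prime] {ρbar : ResidualGaloisRep (ResidueField O)} {S : OddPrimes p ρbar}
  {tp : S.TamePairs} {P : SupplyParams S tp} {Q : Finset ℕ} {r e : ℕ} (C : SupplyLevel P Q r e)

namespace SupplyLevel

/-- A prime of `F` is not in the level of the variant old at it. -/
theorem not_dvd_level_old_F {q : ℕ} (hq : q ∈ S.F) : ¬ q ∣ C.level (.old q) := by
  have hqp : q.Prime := S.prime_of_mem q (Finset.mem_union_right _ hq)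
  have hdvd : q ∣ S.level := dvd_level_of_mem_all (Finset.mem_union_right _ hq)
  intro h
  rcases C.mem_of_dvd_level _ hqp h with h | ⟨i, hi⟩
  · refine hqp.ne_one (Nat.isUnit_iff.1 (squarefree_oddLevel S q ?_))
    have e1 : S.baseLevel (.old q) = S.level / q := by
      show S.level / Nat.gcd q S.level = _
      rw [Nat.gcd_eq_left hdvd]
    rw [e1] at h
    calc q * q ∣ q * (S.level / q) := mul_dvd_mul_left q h
      _ = S.level := Nat.mul_div_cancel' hdvd
  · exact C.notMem i (Finset.mem_insert_of_mem (Finset.mem_union_right _ (hi ▸ hq)))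

/-- The residual value at a prime of `F` of the level with `U` localised. -/
theorem theta_X_of_mem_F (v : OddVariant) {q : Nat.Primes} (hq : (q : ℕ) ∈ S.F)
    (h1 : p ∣ (q : ℕ) + 1) (hdvd : (q : ℕ) ∣ C.level v) :
    C.theta v (MvPolynomial.X q) = (S.ε (q : ℕ) : ResidueField O) := by
  have hnot : q ∉ C.qPrimes := fun h => by
    obtain ⟨i, hi⟩ := C.mem_qPrimes.1 h
    exact C.notMem i (Finset.mem_insert_of_mem (Finset.mem_union_right _ (hi ▸ hq)))
  rw [theta, residualRaiseSet_X_of_notMem _ _ hnot, SupplyParams.baseTheta,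
    MvPolynomial.eval₂Hom_X']
  cases v with
  | old s =>
    refine (if_neg fun h : (q : ℕ) = s ∧ s ∈ S.locPrimes => ?_).trans (P.θX_F q hq h1)
    obtain ⟨rfl, -⟩ := h
    exact C.not_dvd_level_old_F hq hdvd
  | std => exact P.θX_F q hq h1
  | chi => exact P.θX_F q hq h1

/-- A prime of the level is a prime of `S`, an auxiliary prime, or `p`. -/
theorem mem_of_dvd_level' (v : OddVariant) {q : ℕ} (hq : q.Prime) (h : q ∣ C.level v)
    (hqp : q ≠ p) : q ∈ S.all ∪ Q := by
  rcases C.mem_of_dvd_level v hq h with h | ⟨i, rfl⟩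
  · rcases level_dvd_mem hq (h.trans (baseLevel_dvd_level S v)) with h | h
    · exact absurd h hqp
    · exact Finset.mem_union_left _ h
  · refine Finset.mem_union_right _ ?_
    exact (Finset.ext_iff.1 C.image_eq _).1 (Finset.mem_image_of_mem _ (Finset.mem_univ i))

/-- `p` is outside the level in the flat case. -/
theorem not_p_dvd_level (v : OddVariant) (hc : S.pCase = PCase.flat) : ¬ p ∣ C.level v := by
  intro h
  rcases C.mem_of_dvd_level v Fact.out h with h | ⟨i, hi⟩
  · have h' := h.trans (baseLevel_dvd_level S v)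
    rw [OddPrimes.level, if_pos hc, mul_one] at h'
    obtain ⟨q, hq, hpq⟩ := (Prime.dvd_finsetProd_iff (Fact.out : p.Prime).prime _).1 h'
    exact S.ne_p q hq ((Nat.prime_dvd_prime_iff_eq Fact.out (S.prime_of_mem q hq)).1 hpq).symm
  · exact C.notMem i (Finset.mem_insert.2 (Or.inl hi))

theorem not_mem_Qs_of_notMem (v : OddVariant) {q : ℕ} (hT : q ∉ S.T) (hQ : ∀ i, C.qv i ≠ q) :
    q ∉ (C.twistData v).Qs := fun h => by
  rcases Finset.mem_union.1 h with h | h
  · exact hT (C.tSet_subset_T v h)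
  · obtain ⟨i, -, hi⟩ := Finset.mem_image.1 h
    exact hQ i hi

theorem qv_ne_of_mem_all {q : ℕ} (hq : q ∈ insert p S.all) (i : Fin r) : C.qv i ≠ q :=
  fun h => C.notMem i (h ▸ hq)

section point

variable {K : Type} [Field K] [Algebra O K] {v : OddVariant}
  {σ : DiamondRing O C.Δ →ₐ[O] K} {lam : Nat.Primes → K}

/-- What kills the module has value zero, as a point of the Hecke algebra of the variant. -/
theorem exists_heckePoint (h : IsEigenSystem (charDiamond O (C.char v) (C.delta v))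
    S.supplyPrimes (gammaHTheta O (C.theta v) C.Δ) σ.toRingHom lam) :
    ∃ ev : C.hecke v →ₐ[O] K, ∀ R : C.polys v, ev (C.toHecke v R) =
      MvPolynomial.eval₂Hom σ.toRingHom lam (R : BettiHeckeAlg (DiamondRing O C.Δ)) := by
  have hker : ∀ R : C.polys v, C.toHecke v R = 0 →
      MvPolynomial.eval₂Hom σ.toRingHom lam (R : BettiHeckeAlg (DiamondRing O C.Δ)) = 0 :=
    fun R hR => h.eq_zero_of_kills _ fun y =>
      LinearMap.congr_fun (congrArg Subtype.val hR) y
  let f : C.polys v →+* K :=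
    (MvPolynomial.eval₂Hom σ.toRingHom lam).comp (C.polys v).val.toRingHom
  have hsurj : Function.Surjective (C.toHecke v).toRingHom :=
    AlgHom.rangeRestrict_surjective _
  let g : C.hecke v →+* K := (C.toHecke v).toRingHom.liftOfSurjective hsurj
    ⟨f, fun R hR => hker R hR⟩
  have hg : ∀ R, g (C.toHecke v R) = f R :=
    fun R => RingHom.liftOfRightInverse_comp_apply _ _ _ _ R
  refine ⟨{ g with commutes' := fun c => ?_ }, hg⟩
  show g (algebraMap O (C.hecke v) c) = _
  rw [← AlgHom.commutes (C.toHecke v) c, hg]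
  show MvPolynomial.eval₂Hom σ.toRingHom lam
    (algebraMap O (BettiHeckeAlg (DiamondRing O C.Δ)) c) = _
  rw [IsScalarTower.algebraMap_apply O (DiamondRing O C.Δ) (BettiHeckeAlg (DiamondRing O C.Δ)),
    MvPolynomial.algebraMap_eq, MvPolynomial.eval₂Hom_C]
  exact σ.commutes c

/-- The Hecke algebra of a variant is finite over the coefficients. -/
private theorem moduleFinite_hecke (C : SupplyLevel P Q r e) (v : OddVariant) (hp2 : p ≠ 2)
    (hpO : (p : O) ∈ maximalIdeal O) : Module.Finite O (C.hecke v) := by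
  haveI : NeZero (p ^ e) := ⟨pow_ne_zero _ (Fact.out : p.Prime).ne_zero⟩
  obtain ⟨-, hfin, -, -⟩ := C.free_mod hp2 hpO v
  haveI := hfin
  haveI : Module.Finite O (DiamondRing O C.Δ) := inferInstance
  haveI : Module.Finite O (C.Mod v) := Module.Finite.trans (DiamondRing O C.Δ) (C.Mod v)
  obtain ⟨n, g, hg⟩ := Module.Finite.exists_fin' O (C.Mod v)
  let evl : Module.End O (C.Mod v) →ₗ[O] (Fin n → C.Mod v) :=
    { toFun := fun u i => u (g (Pi.single i 1))
      map_add' := fun _ _ => rfl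
      map_smul' := fun _ _ => rfl }
  have hevl : Function.Injective evl := by
    intro u u' huu
    refine LinearMap.ext fun y => ?_
    obtain ⟨w, rfl⟩ := hg y
    rw [pi_eq_sum_univ' w]
    simp only [map_sum, map_smul]
    exact Finset.sum_congr rfl fun i _ => congrArg (w i • ·) (congrFun huu i)
  exact Module.Finite.of_injective (evl.comp (C.hecke v).val.toLinearMap)
    (hevl.comp Subtype.val_injective)

variable [CharZero K] [IsAlgClosed K]

/-- **The system of an eigen system of a variant.** -/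
theorem exists_oddSystem_eigenSystem (hp2 : p ≠ 2) (hpO : (p : O) ∈ maximalIdeal O)
    (hres : OddResidual p ρbar) (hK : Function.Injective (algebraMap O K))
    (h : IsEigenSystem (charDiamond O (C.char v) (C.delta v)) S.supplyPrimes
      (gammaHTheta O (C.theta v) C.Δ) σ.toRingHom lam)
    (l₀ : Nat.Primes)
    (hl₀ : ((l₀ : ℕ) : ZMod (C.level v * ∏ q ∈ (C.twistData v).Qs, q)) = 1)
    (hl₀S : (MvPolynomial.X l₀ - MvPolynomial.C (((l₀ : ℕ) : DiamondRing O C.Δ) + 1) :
      BettiHeckeAlg (DiamondRing O C.Δ)) ∈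
      bettiResidualSubmonoid S.supplyPrimes (gammaHTheta O (C.theta v) C.Δ)) :
    ∃ (x : OddSystem S Q) (ev : C.hecke v →ₐ[O] x.O'),
      (∀ R : C.polys v, ev (C.toHecke v R) = 0 →
        MvPolynomial.eval₂Hom σ.toRingHom lam (R : BettiHeckeAlg (DiamondRing O C.Δ)) = 0) ∧
      ∀ ℓ : ℕ, ℓ.Prime → ℓ ∉ C.exc v → ∀ A : ValuationSubring Qbar, A.LiesOverPrime ℓ →
        ∀ φ : Γℚ, A.IsFrobeniusAt φ ℓ → x.r.trace φ = ev (C.tElt v ℓ) := by
  classical
  have hp : p.Prime := Fact.out
  have hodd : Odd p := hp.odd_of_ne_two hp2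
  haveI : NeZero (p ^ e) := ⟨pow_ne_zero _ hp.ne_zero⟩
  let D := C.twistData v
  let σR := σ.toRingHom
  let θd := gammaHTheta O (C.theta v) C.Δ
  have hθd' : θd = gammaHTheta O (C.theta v) C.Δ := rfl
  -- the point of the twisted level
  refine Exists.elim h.exists_class fun x hxe => ?_
  have hx := hxe.1
  have heig := hxe.2
  haveI : NeZero (C.level v * ∏ q ∈ D.primesAt σR, q) :=
    ⟨mul_ne_zero (NeZero.ne _) (Finset.prod_ne_zero_iff.2 fun q hq =>
      (D.exactly_primesAt σR q hq).1.ne_zero)⟩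
  have hnE : lam l₀ ≠ (l₀ : ℕ) + 1 := fun he => h.ne_zero _ hl₀S (by
    rw [map_sub, MvPolynomial.eval₂Hom_X', MvPolynomial.eval₂Hom_C, map_add, map_natCast, map_one,
      he, sub_self])
  refine Exists.elim (exists_twist_point (D.exactly_primesAt σR)
    (D.psiAt_sq_ne_one σR hodd) (D.chi_mul_twistFactor_sq σR hodd) (x := x) hx lam
    (fun l _ => by
      have := heig l
      rwa [BettiMod.hecke_smul, bettiEval_X] at this)
    ⟨l₀, D.modEq_one_primesAt σR hl₀, hnE⟩) fun θK hθK => ?_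
  have hθT := hθK.1
  have hθU := hθK.2.1
  let N := C.level v * ∏ q ∈ D.primesAt σR, q
  have hdvdN : C.level v ∣ N := dvd_mul_right _ _
  have hprimesN : ∀ {q : ℕ}, q.Prime → q ∣ N → q ∣ C.level v := fun {q} hq hqN => by
    rcases hq.dvd_mul.1 hqN with hd | hd
    · exact hd
    · obtain ⟨s, hs, hqs⟩ := (Prime.dvd_finsetProd_iff hq.prime _).1 hd
      rw [(Nat.prime_dvd_prime_iff_eq hq (D.exactly_primesAt σR s hs).1).1 hqs]
      exact (D.exactly_primesAt σR s hs).2.1
  have hsqN : ∀ {q : ℕ}, q.Prime → q ∉ D.Qs → ¬ q ^ 2 ∣ N := fun {q} hq hqs h2 =>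
    C.not_sq_dvd_level v hq ((Nat.Coprime.prod_right fun s hs =>
      Nat.Coprime.pow_left 2 ((Nat.coprime_primes hq (D.exactly_primesAt σR s hs).1).2 fun he =>
        hqs (he ▸ D.primesAt_subset σR hs))).dvd_of_dvd_mul_right h2)
  -- the point of the variant
  refine Exists.elim (C.exists_heckePoint h) fun ev₀ hev₀ => ?_
  -- coefficients
  haveI : Module.Finite O (C.hecke v) := moduleFinite_hecke C v hp2 hpO
  haveI := FermatLib.Modular.heckeAlgebra_moduleFinite N 2 (∅ : Set ℕ)
  refine Exists.elim (exists_value_generators ev₀) fun s₂ h₂ => ?_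
  have hs₂ := h₂.1
  have hi₂ := h₂.2.1
  have hr₂ := h₂.2.2
  refine Exists.elim (exists_value_generators θK.toIntAlgHom) fun s₃ h₃ => ?_
  have hs₃ := h₃.1
  have hi₃ := h₃.2.1
  have hr₃ := h₃.2.2
  have hpe : 0 < p ^ D.e := pow_pos hp.pos _
  let sμ : Set K := ↑(Polynomial.nthRootsFinset (p ^ D.e) (1 : K))
  obtain ⟨O₁, _, _, _, _, _, _, _, _, _, j, hj, hjO, hjs⟩ :=
    Two.exists_coeffRing hK (sμ ∪ s₂ ∪ s₃) (((Finset.finite_toSet _).union hs₂).union hs₃)
      (fun y hy => by
      rcases hy with (hy | hy) | hy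
      · refine IsIntegral.of_pow hpe ?_
        rw [(Polynomial.mem_nthRootsFinset hpe (1 : K)).1 hy]
        exact isIntegral_one
      · exact hi₂ y hy
      · exact (hi₃ y hy).tower_top)
  have hjO' : ∀ a, algebraMap O K a ∈ j.range :=
    fun a => ⟨algebraMap O O₁ a, RingHom.congr_fun hjO a⟩
  have hmem₀ := hr₂ j.range hjO' fun y hy => hjs y (Or.inl (Or.inr hy))
  refine Exists.elim (exists_ringHom_of_mem_range (B := C.hecke v) (R := O₁) (K := K) j hj
    (ev₀ : C.hecke v →+* K) hmem₀) fun e₁ he₁ => ?_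
  refine Exists.elim (exists_ringHom_of_mem_range j hj θK
    (hr₃ j.range (fun a => by rw [eq_intCast]; exact intCast_mem _ a)
      fun y hy => hjs y (Or.inr hy))) fun θ₁ hθ₁ => ?_
  haveI : Algebra.IsIntegral O O₁ := Algebra.IsIntegral.of_finite O O₁
  have hθC : ∀ c, θd (MvPolynomial.C (algebraMap O (DiamondRing O C.Δ) c)) = residue O c :=
    fun c => by
      rw [hθd', gammaHTheta_C, AlgHom.commutes, SupplyLevel.theta, residualRaiseSet_C,
        baseTheta_C, Algebra.algebraMap_self, RingHom.id_apply]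
  haveI : CharP (ResidueField O₁) p := by
    refine (CharP.charP_iff_prime_eq_zero hp).2 ?_
    rw [← map_natCast (residue O₁), residue_eq_zero_iff, ← map_natCast (algebraMap O O₁)]
    exact map_nonunit (algebraMap O O₁) _ hpO
  -- the twisted values
  have hprod : ∀ (q : ℕ) (hq : q.Prime), (∀ s ∈ D.Qs, q.Coprime s) →
      ((⟨q, hq⟩ : Nat.Primes) ∈ S.supplyPrimes) →
      ∀ u : O₁, j u = twistFactor (D.primesAt σR) (D.psiAt σR) q * lam ⟨q, hq⟩ →
        residue O₁ u = ResidueField.map (algebraMap O O₁)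
          (C.theta v (MvPolynomial.X ⟨q, hq⟩)) := by
    intro q hq hcop hqS u hu
    rw [D.twistFactor_primesAt_of_coprime σR hcop] at hu
    have hpow : σR (D.val q) ^ p ^ D.e = 1 := by
      rw [← map_pow, D.val_pow_of_coprime hcop, map_one]
    obtain ⟨w, hwj⟩ := hjs _ (Or.inl (Or.inl ((Polynomial.mem_nthRootsFinset hpe (1 : K)).2 hpow)))
    have hw : w ^ p ^ D.e = 1 := hj (by rw [map_pow, hwj, hpow, map_one])
    have hw1 : residue O₁ w = 1 := by
      refine sub_eq_zero.1 (eq_zero_of_pow_eq_zero (n := p ^ D.e) ?_)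
      rw [sub_pow_char_pow, one_pow, ← map_pow, hw, map_one, sub_self]
    have ha : j (w ^ (p ^ D.e - 1) * u) = lam ⟨q, hq⟩ := by
      rw [map_mul, map_pow, hwj, hu, ← mul_assoc, ← pow_succ, Nat.sub_add_cancel hpe, hpow, one_mul]
    have hr := residue_eigenvalue_of_ne_zero hθC σR (fun c => σ.commutes c) h.ne_zero j hjO hqS _ ha
    rw [map_mul, map_pow, hw1, one_pow, one_mul] at hr
    exact hr.trans (congrArg _ (gammaHTheta_X O _ _))
  -- the representation
  let E := C.exc v
  have hpE : p ∈ E := Nat.mem_primeFactors.2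
    ⟨hp, dvd_mul_right _ _, mul_ne_zero hp.ne_zero (NeZero.ne _)⟩
  have hNE : ∀ q : ℕ, q.Prime → q ∣ N → q ∈ E := fun q hq hqN => Nat.mem_primeFactors.2
    ⟨hq, (hprimesN hq hqN).mul_left p, mul_ne_zero hp.ne_zero (NeZero.ne _)⟩
  let χ₀ : heckeAlgebra N 2 (E : Set ℕ) →+* O₁ := θ₁.comp
    (Subalgebra.inclusion (CuspForm.heckeAlgebra_mono (Set.empty_subset (E : Set ℕ)))).toRingHom
  have hχ₀ : ∀ (ℓ : ℕ) (hℓ : ℓ.Prime) (hℓN : ¬ ℓ ∣ N) (hℓE : ℓ ∉ (E : Set ℕ)),
      χ₀ (heckeAlgebra.T hℓ hℓN hℓE) = θ₁ (heckeAlgebra.T hℓ hℓN (Set.notMem_empty ℓ)) :=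
    fun _ _ _ _ => rfl
  have hcopN : ∀ {ℓ : ℕ}, ℓ.Prime → ¬ ℓ ∣ N → ℓ.Coprime (C.level v) := fun hℓ hℓN =>
    hℓ.coprime_iff_not_dvd.2 fun hd => hℓN (hd.trans hdvdN)
  have hS0 : p * S.level ≠ 0 := mul_ne_zero hp.ne_zero (NeZero.ne _)
  refine Nonempty.elim (nonempty_pointLift_outside Galois.padicAttachment hp2 hpO hres.absIrred hres.det hpE hNE
    (pointInputs_holds N hp2) χ₀ (p * S.level).primeFactors
    fun ℓ hℓ hℓN hℓE hℓ₀ A hA φ hφ => by
      have hgood : ¬ ℓ ∣ p * S.level := fun hd => hℓ₀ (Nat.mem_primeFactors.2 ⟨hℓ, hd, hS0⟩)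
      have hnot : (⟨ℓ, hℓ⟩ : Nat.Primes) ∉ C.qPrimes := fun hm => by
        obtain ⟨i, hi⟩ := C.mem_qPrimes.1 hm
        have hd := (C.qv_dvd_level v i).trans hdvdN
        rw [hi] at hd
        exact hℓN hd
      rw [hprod ℓ hℓ (fun s hs => (hcopN hℓ hℓN).coprime_dvd_right (D.exactly s hs).2.1)
        (Or.inl hgood) _ (by rw [hχ₀, hθ₁, hθT]), SupplyLevel.theta,
        residualRaiseSet_X_of_notMem _ _ hnot, baseTheta_X_of_not_dvd P v (l := ⟨ℓ, hℓ⟩) (by exact hgood),
        P.θX_good ⟨ℓ, hℓ⟩ hgood A hA φ hφ]) fun L => ?_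
  have hp2N : ¬ p ^ 2 ∣ N := hsqN hp (C.not_mem_Qs_of_notMem v
    (fun hT => S.ne_p p (Finset.mem_union_left _ (Finset.mem_union_right _ hT)) rfl)
    (C.qv_ne_of_mem_all (Finset.mem_insert_self _ _)))
  have hnQs : ∀ q ∈ S.Smin ∪ S.F, q ∉ D.Qs := fun q hq => by
    refine C.not_mem_Qs_of_notMem v (fun hT => ?_) (C.qv_ne_of_mem_all (Finset.mem_insert_of_mem ?_))
    · rcases Finset.mem_union.1 hq with hq | hq
      · exact Finset.disjoint_left.1 S.disjoint_min_T hq hT
      · exact Finset.disjoint_left.1 S.disjoint_T_F hT hq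
    · rcases Finset.mem_union.1 hq with hq | hq
      · exact Finset.mem_union_left _ (Finset.mem_union_left _ hq)
      · exact Finset.mem_union_right _ hq
  have hιloc : IsLocalHom L.ι.toRingHom := isLocalHom_of_injective_algHom L.ι L.ι_injective
  refine Exists.elim (L.exists_oddSystem (S := S) (Q := Q) hp2
    (fun q hq hqN hqp => C.mem_of_dvd_level' v hq (hprimesN hq hqN) hqp)
    (fun q hq => hsqN (S.prime_of_mem q (by
      rcases Finset.mem_union.1 hq with hq | hq <;> simp [hq])) (hnQs q hq))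
    hp2N
    (fun hc hpN => C.not_p_dvd_level v hc (hprimesN hp hpN))
    (fun hc => L.isStrictOrdinaryAt_of_not_flat Galois.padicAttachment hp2 hpO hres.absIrred hres.det
      (S.strict_p (by rw [hc]; decide)).isOrdinaryAt (S.not_flat_p hc) hpE hNE hp2N
      fun M _ _ _ hpM => hasStrictReductionKernel_holds hpM)
    (fun q hq hqN h1 A hA φ hφ => by
      have hqp : q.Prime := S.prime_of_mem q (Finset.mem_union_right _ hq)
      have hqQ := hnQs q (Finset.mem_union_right _ hq)
      have hlev := hprimesN hqp hqN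
      have hU : residue O₁ (θ₁ (heckeAlgebra.U hqp hqN (Set.notMem_empty q))) =
          ResidueField.map (algebraMap O O₁) (S.ε q : ResidueField O) := by
        rw [hprod q hqp (fun s hs => (Nat.coprime_primes hqp (D.exactly s hs).1).2 fun he =>
          hqQ (he ▸ hs)) (Or.inr (Finset.mem_union_left _ (Finset.mem_filter.2 ⟨hq, h1⟩))) _
          (by rw [hθ₁, hθU q hqp hqN fun hm => hqQ (D.primesAt_subset σR hm)]),
          C.theta_X_of_mem_F v (q := ⟨q, hqp⟩) hq h1 hlev]
      refine L.exists_sign_root hpO hres.absIrred hpE hNE (L.ι.toRingHom.comp θ₁)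
        (fun ℓ hℓ hℓN hℓE => rfl) hqp hqN (hsqN hqp hqQ)
        (S.ne_p q (Finset.mem_union_right _ hq)) (e := (S.ε q : L.O')) ?_ hA hφ
      show L.ι (θ₁ (heckeAlgebra.U hqp hqN (Set.notMem_empty q))) - (S.ε q : L.O') ∈ _
      rw [← map_intCast L.ι, ← map_sub]
      refine map_nonunit L.ι.toRingHom _ ((residue_eq_zero_iff _).1 ?_)
      rw [map_sub, hU, map_intCast, map_intCast, sub_self])) fun y ⟨jy, hjy, htr⟩ => ?_
  -- the point of the variant in the coefficients
  let e₁' : C.hecke v →ₐ[O] O₁ :=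
    { e₁ with
      commutes' := fun c => hj (by
        show j (e₁ (algebraMap O (C.hecke v) c)) = _
        rw [he₁]
        exact (AlgHom.commutes ev₀ c).trans (RingHom.congr_fun hjO c).symm) }
  refine ⟨y, jy.comp (L.ι.comp e₁'), fun R hR => ?_, fun ℓ hℓ hℓE A hA φ hφ => ?_⟩
  · have h0 : e₁ (C.toHecke v R) = 0 :=
      L.ι_injective ((hjy (hR.trans (map_zero jy).symm)).trans (map_zero L.ι).symm)
    exact (hev₀ R).symm.trans ((he₁ (C.toHecke v R)).symm.trans ((congrArg j h0).trans (map_zero j)))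
  · have hℓN : ¬ ℓ ∣ N := fun hd => hℓE (hNE ℓ hℓ hd)
    refine ((htr φ).trans (congrArg jy (L.trace_frob hℓ hℓN (by exact_mod_cast hℓE) hA hφ))).trans
      (congrArg jy (congrArg L.ι (hj ?_)))
    refine (((congrArg j (hχ₀ ℓ hℓ hℓN _)).trans (hθ₁ _)).trans (hθT ℓ hℓ hℓN)).trans
      (Eq.trans ?_ ((he₁ _).trans ((congrArg ev₀
        (dif_pos (c := ℓ.Prime ∧ ℓ ∉ C.exc v) ⟨hℓ, hℓE⟩)).trans (hev₀ _))).symm)
    show _ = MvPolynomial.eval₂Hom σR lam (C.opT v ℓ)
    rw [opT, dif_pos hℓ, map_mul, MvPolynomial.eval₂Hom_C,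
      MvPolynomial.eval₂Hom_X' σR lam (⟨ℓ, hℓ⟩ : Nat.Primes),
      D.twistFactor_primesAt σR (hcopN hℓ hℓN), C.val_twistData v (hcopN hℓ hℓN)]

end point

end SupplyLevel

end FermatLib.MLT.Odd

end
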