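import Fermat.Agent.MLT.Odd.LevelRing
import Fermat.Agent.Basic.FrobeniusExists
import Mathlib.Algebra.Module.Torsion.Basic

/-!
# Modules with a reduced Hecke algebra whose eigen systems lie in a family

A `SystemModule x` is a module over a reduced algebra `T` whose points are systems of the family
`x`, with elements `t ℓ` giving the traces at good primes.  It is a module over the level ring,
and every additive map commuting with constants and with the good `t ℓ` is linear for it.
-/

set_option autoImplicit false
set_option linter.style.haveILetI false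

noncomputable section

namespace FermatLib.MLT.Odd

open IsLocalRing

local notation "Γℚ" => (AlgebraicClosure ℚ ≃ₐ[ℚ] AlgebraicClosure ℚ)

variable {O : Type} [CommRing O] [IsDomain O] [IsDiscreteValuationRing O] {p : ℕ}
  {ρbar : ResidualGaloisRep (ResidueField O)} {S : OddPrimes p ρbar} {Q Q₀ : Finset ℕ}

/-- A system is one with more auxiliary primes. -/
def OddSystem.weaken (h : Q₀ ⊆ Q) (x : OddSystem S Q₀) : OddSystem S Q where
  O' := x.O'
  r := x.r
  lift :=
    { det := x.lift.det
      at_p := x.lift.at_p
      unramified := fun q hq hqp hqS =>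
        x.lift.unramified q hq hqp fun h' => hqS (Finset.union_subset_union le_rfl h h')
      unipotent := x.lift.unipotent
      sign := x.lift.sign }
  isLiftOf := x.isLiftOf

variable {ι ι₀ : Type}

/-- A module over a reduced algebra whose points are systems of the family. -/
structure SystemModule (x : ι → OddSystem S Q) : Type 1 where
  M : Type
  [instAddCommGroup : AddCommGroup M]
  T : Type
  [instCommRing : CommRing T]
  [instAlgebra : Algebra O T]
  [instModule : Module T M]
  κ : Type
  [instFinite : Finite κ]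
  sys : κ → ι
  ev : ∀ j, T →ₐ[O] (x (sys j)).O'
  ev_inj : ∀ a, (∀ j, ev j a = 0) → a = 0
  E : Finset ℕ
  t : ℕ → T
  t_spec : ∀ (j : κ) (ℓ : ℕ), ℓ.Prime → ℓ ∉ E → ∀ P : ValuationSubring (AlgebraicClosure ℚ),
    P.LiesOverPrime ℓ → ∀ σ : Γℚ, P.IsFrobeniusAt σ ℓ → (x (sys j)).r.trace σ = ev j (t ℓ)

attribute [instance] SystemModule.instAddCommGroup SystemModule.instCommRing
  SystemModule.instAlgebra SystemModule.instModule SystemModule.instFinite

namespace SystemModule

variable {x : ι → OddSystem S Q} {x₀ : ι₀ → OddSystem S Q₀}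

/-- `k` copies. -/
def pow (A : SystemModule x) (k : ℕ) : SystemModule x where
  M := Fin k → A.M
  T := A.T
  κ := A.κ
  sys := A.sys
  ev := A.ev
  ev_inj := A.ev_inj
  E := A.E
  t := A.t
  t_spec := A.t_spec

/-- The submodule `𝔪 M`. -/
def modVarpi (A : SystemModule x) : Submodule A.T A.M :=
  (maximalIdeal O).map (algebraMap O A.T) • ⊤

/-- The reduction modulo the maximal ideal of the constants. -/
def red (A : SystemModule x) : SystemModule x where
  M := A.M ⧸ A.modVarpi
  T := A.T
  κ := A.κ
  sys := A.sys
  ev := A.ev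
  ev_inj := A.ev_inj
  E := A.E
  t := A.t
  t_spec := A.t_spec

/-- An additive map commuting with the constants and the good `t ℓ`. -/
def IsTraceMap (A : SystemModule x) (B : SystemModule x₀) (f : A.M →+ B.M) : Prop :=
  (∀ (c : O) (m : A.M), f (algebraMap O A.T c • m) = algebraMap O B.T c • f m) ∧
    ∀ ℓ : ℕ, ℓ.Prime → ℓ ∉ A.E ∪ B.E → ∀ m : A.M, f (A.t ℓ • m) = B.t ℓ • f m

theorem ext_ev (A : SystemModule x) {a b : A.T} (h : ∀ j, A.ev j a = A.ev j b) : a = b :=
  sub_eq_zero.1 (A.ev_inj _ fun j => by rw [map_sub, h j, sub_self])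

variable [Fact p.Prime]

theorem exists_action (A : SystemModule x) :
    ∃ φ : LevelRing x →ₐ[O] A.T, ∀ a j, A.ev j (φ a) = levelEval x (A.sys j) a :=
  exists_levelAction x A.sys (Fact.out : p.Prime) A.ev A.ev_inj A.E A.t A.t_spec

/-- The action of the level ring. -/
def action (A : SystemModule x) : LevelRing x →ₐ[O] A.T := A.exists_action.choose

theorem ev_action (A : SystemModule x) (a : LevelRing x) (j : A.κ) :
    A.ev j (A.action a) = levelEval x (A.sys j) a :=
  A.exists_action.choose_spec a j

/-- The value of the action is determined at the systems. -/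
theorem action_eq (A : SystemModule x) {a : LevelRing x} {b : A.T}
    (h : ∀ j, A.ev j b = levelEval x (A.sys j) a) : A.action a = b :=
  A.ext_ev fun j => by rw [ev_action, h]

/-- The module over the level ring. -/
@[reducible] def moduleLevel (A : SystemModule x) : Module (LevelRing x) A.M :=
  Module.compHom A.M A.action.toRingHom

/-- **Linearity of trace maps**, for a map between families compatible with the traces. -/
theorem IsTraceMap.map_action {A : SystemModule x} {B : SystemModule x₀} {f : A.M →+ B.M}
    (hf : IsTraceMap A B f) (hQ : Q₀ ⊆ Q) (π : LevelRing x →ₐ[O] LevelRing x₀)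
    (hπ : ∀ σ, π (levelTrace x σ) = levelTrace x₀ σ) (a : LevelRing x) (m : A.M) :
    f (A.action a • m) = B.action (π a) • f m := by
  classical
  let z : A.κ ⊕ B.κ → OddSystem S Q :=
    Sum.elim (fun j => x (A.sys j)) fun j => (x₀ (B.sys j)).weaken hQ
  let E := A.E ∪ B.E
  let U : Subalgebra O (A.T × B.T) :=
    Algebra.adjoin O ((fun ℓ => (A.t ℓ, B.t ℓ)) '' {ℓ | ℓ.Prime ∧ ℓ ∉ E})
  have hU : ∀ y ∈ U, ∀ w : A.M, f (y.1 • w) = y.2 • f w := by
    intro y hy
    induction hy using Algebra.adjoin_induction with
    | mem y hy =>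
      obtain ⟨ℓ, ⟨hℓ, hℓE⟩, rfl⟩ := hy
      exact hf.2 ℓ hℓ hℓE
    | algebraMap c => exact hf.1 c
    | add y y' _ _ hy hy' =>
      intro w
      rw [Prod.fst_add, Prod.snd_add, add_smul, add_smul, map_add, hy, hy']
    | mul y y' _ _ hy hy' =>
      intro w
      rw [Prod.fst_mul, Prod.snd_mul, mul_smul, mul_smul, hy, hy']
  let t : ℕ → U := fun ℓ =>
    if h : ℓ.Prime ∧ ℓ ∉ E then ⟨(A.t ℓ, B.t ℓ), Algebra.subset_adjoin ⟨ℓ, h, rfl⟩⟩ else 0
  let ev : ∀ j, U →ₐ[O] (z j).O' := fun j => match j with
    | .inl j => ((A.ev j).comp (AlgHom.fst O A.T B.T)).comp U.val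
    | .inr j => ((B.ev j).comp (AlgHom.snd O A.T B.T)).comp U.val
  have htr : ∀ (j : A.κ ⊕ B.κ) (ℓ : ℕ), ℓ.Prime → ℓ ∉ E →
      ∀ P : ValuationSubring (AlgebraicClosure ℚ), P.LiesOverPrime ℓ →
      ∀ σ : Γℚ, P.IsFrobeniusAt σ ℓ → (z j).r.trace σ = ev j (t ℓ) := by
    intro j ℓ hℓ hℓE P hP σ hσ
    have hE : ℓ ∉ A.E ∧ ℓ ∉ B.E := by rwa [← not_or, ← Finset.mem_union]
    simp only [t, dif_pos (And.intro hℓ hℓE)]
    cases j with
    | inl j => exact A.t_spec j ℓ hℓ hE.1 P hP σ hσ
    | inr j => exact B.t_spec j ℓ hℓ hE.2 P hP σ hσ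
  obtain ⟨ψ, hψ⟩ := exists_levelAction z id (Fact.out : p.Prime) ev (fun y hy => Subtype.ext
    (Prod.ext (A.ev_inj _ fun j => hy (.inl j)) (B.ev_inj _ fun j => hy (.inr j)))) E t htr
  have hgen : ∀ σ, ((A.action (levelTrace x σ), B.action (π (levelTrace x σ))) : A.T × B.T) =
      (ψ (levelTrace z σ) : U) := fun σ => by
    refine Prod.ext (A.action_eq fun j => ?_) (B.action_eq fun j => ?_)
    · exact (hψ (levelTrace z σ) (.inl j)).trans rfl
    · rw [hπ]
      exact (hψ (levelTrace z σ) (.inr j)).trans rfl
  have hmem : ((A.action a, B.action (π a)) : A.T × B.T) ∈ U := by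
    have ha : a ∈ Algebra.adjoin O (Set.range (levelTrace x)) := by
      rw [adjoin_levelTrace]
      exact Algebra.mem_top
    induction ha using Algebra.adjoin_induction with
    | mem y hy => obtain ⟨σ, rfl⟩ := hy; rw [hgen σ]; exact (ψ (levelTrace z σ)).2
    | algebraMap c =>
      simp only [AlgHom.commutes]
      exact Subalgebra.algebraMap_mem U c
    | add y y' _ _ hy hy' => simp only [map_add]; exact add_mem hy hy'
    | mul y y' _ _ hy hy' => simp only [map_mul]; exact mul_mem hy hy'
  exact hU _ hmem m

/-- Linearity of trace maps within one family. -/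
theorem IsTraceMap.map_action_self {A B : SystemModule x} {f : A.M →+ B.M}
    (hf : IsTraceMap A B f) (a : LevelRing x) (m : A.M) :
    f (A.action a • m) = B.action a • f m :=
  hf.map_action (subset_refl Q) (AlgHom.id O _) (fun _ => rfl) a m

/-- A point of the level ring killed by the annihilator comes from a system of the module. -/
theorem exists_sys_of_annihilator (A : SystemModule x) {D : Type} [CommRing D] [IsDomain D]
    (y : LevelRing x →+* D)
    (hy : letI := A.moduleLevel; ∀ a ∈ Module.annihilator (LevelRing x) A.M, y a = 0) :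
    ∃ j, ∀ a, levelEval x (A.sys j) a = 0 → y a = 0 := by
  refine exists_index_ker_le x A.sys y fun a ha => ?_
  letI := A.moduleLevel
  refine hy a (Module.mem_annihilator.2 fun m => ?_)
  show A.action a • m = 0
  rw [A.action_eq (b := 0) fun j => by rw [map_zero, ha], zero_smul]

end SystemModule

/-- Membership in `I M` seen through a surjection or any ring map `φ`. -/
theorem mem_smul_top_compHom {R T M : Type} [CommRing R] [CommRing T] [AddCommGroup M]
    [Module T M] (φ : R →+* T) (I : Ideal R) (m : M) :
    (letI := Module.compHom M φ; m ∈ I • (⊤ : Submodule R M)) ↔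
      m ∈ I.map φ • (⊤ : Submodule T M) := by
  letI := Module.compHom M φ
  constructor
  · intro h
    refine Submodule.smul_induction_on h (fun a ha w _ => ?_) fun _ _ h h' => add_mem h h'
    exact Submodule.smul_mem_smul (Ideal.mem_map_of_mem φ ha) Submodule.mem_top
  · intro h
    refine Submodule.smul_induction_on h (fun b hb w _ => ?_) fun _ _ h h' => add_mem h h'
    have key : ∀ v : M, b • v ∈ I • (⊤ : Submodule R M) := by
      induction hb using Submodule.span_induction with
      | mem b hb =>
        obtain ⟨a, ha, rfl⟩ := hb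
        exact fun v => Submodule.smul_mem_smul (N := (⊤ : Submodule R M)) ha Submodule.mem_top
      | zero => intro v; rw [zero_smul]; exact zero_mem _
      | add b b' _ _ hb hb' => intro v; rw [add_smul]; exact add_mem (hb v) (hb' v)
      | smul c b _ hb => intro v; rw [smul_eq_mul, mul_comm, mul_smul]; exact hb (c • v)
    exact key w

end FermatLib.MLT.Odd
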