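import Fermat.Agent.CFT.GWUnrLocal
import Fermat.Agent.CFT.GWDescent
import Fermat.Agent.MLT.Odd.TWDual

/-!
# The adjoint module at an auxiliary prime

At an auxiliary prime the adjoint module is unramified, Frobenius has two distinct eigenvalues and
the cyclotomic character is trivial, so the invariants of the adjoint module and of its dual twist
are one line over `k` each and the continuous first cohomology is a plane over `k`.
-/

set_option autoImplicit false

noncomputable section

open CategoryTheory Module groupCohomology ExtCitation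
open scoped Pointwise

namespace FermatLib.MLT.Odd

open FermatLib.MLT.Ad FermatLib.CFT.TW

local notation "Qbar" => AlgebraicClosure ℚ
local notation "Γℚ" => (AlgebraicClosure ℚ ≃ₐ[ℚ] AlgebraicClosure ℚ)
local notation "M₂" R:max => Matrix (Fin 2) (Fin 2) R

/-- A local Frobenius is a Frobenius at the standard place. -/
theorem isFrobeniusAt_localFrobenius {q : Nat.Primes} {g₀ : CFT.Gloc q}
    (hg₀ : ∀ x, ‖x‖ ≤ 1 → ‖g₀ x - x ^ (q : ℕ)‖ < 1) :
    (primeLocalPlace q).IsFrobeniusAt (primeLocalToGlobal q (CFT.GWUnr.locEquiv q g₀)) q := by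
  refine Galois.isFrobeniusAt_iff_forall_mem.2
    ⟨localGaloisToGlobal_mem_decompositionSubgroup (q : ℕ) g₀, fun x hx => ?_⟩
  rw [CFT.GWUnr.mem_nonunits_primeLocalPlace_iff, map_sub, map_pow, CFT.GWUnr.emb_locToGlobal]
  exact hg₀ _ (CFT.GWUnr.mem_primeLocalPlace_iff.1 hx)

variable {k : Type} [Field k]

/-- The trace zero matrices commuting with a regular matrix form a line. -/
def commutantEquiv (A : M₂ k) (h2 : (2 : k) ≠ 0) (hd : A.det = 1) (ht : A.trace ^ 2 ≠ 4) :
    k ≃ₗ[k] (LinearMap.ker ((LinearMap.mulLeft k A - LinearMap.mulRight k A).comp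
      (traceZero k).subtype) : Submodule k (traceZero k)) := by
  refine LinearEquiv.ofBijective
    { toFun := fun c => ⟨⟨c • (A - (A.trace / 2) • 1), mem_traceZero.mpr (by
          simp [Matrix.trace_one]; field_simp; ring_nf; tauto)⟩, LinearMap.mem_ker.mpr (by
          simp [mul_sub, sub_mul])⟩
      map_add' := fun c d => Subtype.ext (Subtype.ext (add_smul c d _))
      map_smul' := fun c d => Subtype.ext (Subtype.ext (mul_smul c d _)) } ⟨?_, ?_⟩
  · rw [injective_iff_map_eq_zero]
    intro c hc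
    have h : c • (A - (A.trace / 2) • (1 : M₂ k)) = 0 :=
      congrArg (fun X => ((X : _).1 : traceZero k).1) hc
    refine (smul_eq_zero.mp h).resolve_right fun h0 => ht ?_
    rw [sub_eq_zero] at h0
    rw [h0, Matrix.det_smul, Matrix.det_one, Fintype.card_fin, mul_one, div_pow] at hd
    field_simp at hd
    linear_combination hd
  · rintro ⟨⟨X, hX⟩, hXA⟩
    rw [LinearMap.mem_ker] at hXA
    have hcomm : A * X - X * A = 0 := hXA
    have hx : X 1 1 = -X 0 0 := by
      rw [mem_traceZero, Matrix.trace_fin_two] at hX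
      linear_combination hX
    have h00 := congrFun (congrFun hcomm 0) 0
    have h01 := congrFun (congrFun hcomm 0) 1
    have h10 := congrFun (congrFun hcomm 1) 0
    simp only [Matrix.sub_apply, Matrix.mul_apply, Fin.sum_univ_two, Matrix.zero_apply, hx]
      at h00 h01 h10
    suffices h : ∃ c : k, 2 * X 0 0 = c * (A 0 0 - A 1 1) ∧ X 0 1 = c * A 0 1 ∧
        X 1 0 = c * A 1 0 by
      obtain ⟨c, e00, e01, e10⟩ := h
      refine ⟨c, Subtype.ext (Subtype.ext ?_)⟩
      show c • (A - (A.trace / 2) • (1 : M₂ k)) = X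
      ext i j
      fin_cases i <;> fin_cases j
      · simp [Matrix.trace_fin_two]; field_simp; linear_combination -e00
      · simp [e01]
      · simp [e10]
      · simp [Matrix.trace_fin_two, hx]; field_simp; linear_combination e00
    by_cases hb : A 0 1 = 0
    · by_cases hc : A 1 0 = 0
      · have had : A 0 0 - A 1 1 ≠ 0 := fun h => ht (by
          rw [Matrix.det_fin_two, hb, hc, mul_zero, sub_zero, sub_eq_zero.mp h] at hd
          rw [Matrix.trace_fin_two, sub_eq_zero.mp h]
          linear_combination 4 * hd)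
        refine ⟨2 * X 0 0 / (A 0 0 - A 1 1), (div_mul_cancel₀ _ had).symm, ?_, ?_⟩
        · rw [hb, mul_zero]
          have : X 0 1 * (A 0 0 - A 1 1) = 0 := by rw [hb] at h01; linear_combination h01
          exact (mul_eq_zero.mp this).resolve_right had
        · rw [hc, mul_zero]
          have : X 1 0 * (A 0 0 - A 1 1) = 0 := by rw [hc] at h10; linear_combination -h10
          exact (mul_eq_zero.mp this).resolve_right had
      · refine ⟨X 1 0 / A 1 0, ?_, ?_, (div_mul_cancel₀ _ hc).symm⟩
        · field_simp; linear_combination h10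
        · field_simp; linear_combination -h00
    · refine ⟨X 0 1 / A 0 1, ?_, (div_mul_cancel₀ _ hb).symm, ?_⟩
      · field_simp; linear_combination -h01
      · field_simp; linear_combination h00

variable {p : ℕ} [Fact p.Prime] [Finite k] [Algebra (ZMod p) k] {ρ : Γℚ →* M₂ k}
  (hs : IsTWSetting p ρ (cycloUnits p k))

include hs in
omit [Finite k] in
/-- The adjoint module has finite level. -/
theorem adRep_finiteLevel (m : adRep ρ p) : ∃ F : IntermediateField ℚ Qbar,
    FiniteDimensional ℚ F ∧ ∀ s ∈ F.fixingSubgroup, (adRep ρ p).ρ s m = m := by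
  obtain ⟨F, hF, hFρ⟩ := hs.finiteLevel
  exact ⟨F, hF, fun s h => LinearMap.congr_fun (adRep_eq_one_of_eq_one ρ p (hFρ s h)) m⟩

variable {n : ℕ} {S : Finset ℕ} {q : Nat.Primes} {A : ValuationSubring Qbar} {σ : Γℚ}
  (hσ : IsTWPlace p ρ (cycloUnits p k) n S q A σ)

include hσ in
omit [Finite k] in
lemma IsTWPlace.ne_p : (q : ℕ) ≠ p := fun h => by
  have h1 : (q : ℕ) ∣ q - 1 := by
    have := (dvd_pow_self p n.succ_ne_zero).trans hσ.dvd
    rwa [← h] at this
  exact q.2.one_lt.not_ge (by have := Nat.le_of_dvd (by have := q.2.two_le; omega) h1; omega)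

include hs hσ in
omit [Finite k] in
/-- The cyclotomic character is trivial on the local group at an auxiliary prime. -/
theorem IsTWPlace.cycloChar_eq_one (g : primeLocalGaloisGroup q) :
    cycloChar p (primeLocalToGlobal q g) = 1 := by
  obtain ⟨g₀, hg₀⟩ := CFT.GWUnr.exists_localFrobenius (q := q)
  have hqp : ¬ (q : ℕ) ∣ p := fun h =>
    hσ.ne_p ((Nat.prime_dvd_prime_iff_eq q.2 Fact.out).1 h)
  have hfix : ∀ ζ : Qbar, ζ ^ p = 1 → primeLocalToGlobal q g ζ = ζ ^ 1 := fun ζ hζ => by
    let Z : IntermediateField ℚ Qbar := IntermediateField.adjoin ℚ ({ζ} : Set Qbar)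
    have : FiniteDimensional ℚ Z := IntermediateField.adjoin.finiteDimensional
      ((IsIntegral.of_pow (Fact.out : p.Prime).pos (hζ ▸ isIntegral_one)))
    obtain ⟨j, t, s, ht, hst, rfl⟩ := CFT.GWUnr.exists_decomp hg₀ Z g
    rw [map_mul, AlgEquiv.mul_apply, (IntermediateField.mem_fixingSubgroup_iff Z _).1 hst ζ
        (IntermediateField.mem_adjoin_simple_self ℚ ζ),
      CFT.GWUnr.apply_rootOfUnity_frobenius hg₀ hqp hζ j ht, pow_one]
    obtain ⟨m, hm⟩ : p ∣ (q : ℕ) ^ j - 1 :=
      ((dvd_pow_self p n.succ_ne_zero).trans hσ.dvd).trans (by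
        simpa using Nat.sub_dvd_pow_sub_pow (q : ℕ) 1 j)
    have hq : (q : ℕ) ^ j = p * m + 1 := by
      have := Nat.one_le_pow j (q : ℕ) q.2.pos
      omega
    rw [hq, pow_succ, pow_mul, hζ, one_pow, one_mul]
  have h := hs.cyclotomic _ 1 hfix
  rw [cycloUnits_coe, Nat.cast_one] at h
  exact Units.ext ((algebraMap (ZMod p) k).injective (h.trans (map_one _).symm))

variable (hur : ∀ g, primeLocalToGlobal q g ∈ (primeLocalPlace q).inertiaSubgroupIn ℚ →
    ρ (primeLocalToGlobal q g) = 1)

include hs hσ hur in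
omit [Finite k] in
/-- The local invariants of the adjoint module form a line over `k`. -/
theorem IsTWPlace.finrank_invariants :
    finrank (ZMod p) (Rep.res (primeLocalToGlobal q) (adRep ρ p)).ρ.invariants =
      finrank (ZMod p) k := by
  obtain ⟨g₀, hg₀⟩ := CFT.GWUnr.exists_localFrobenius (q := q)
  set F₀ := primeLocalToGlobal q (CFT.GWUnr.locEquiv q g₀) with hF₀
  have hfr : (primeLocalPlace q).IsFrobeniusAt F₀ q := isFrobeniusAt_localFrobenius hg₀
  obtain ⟨hd, ht⟩ := hσ.regular _ (Galois.padicPlace_liesOverPrime q) F₀ hfr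
  have := hs.charP
  have h2 : (2 : k) ≠ 0 := two_ne_zero_of_charP p hs.ne_two
  refine ((commutantEquiv (ρ F₀) h2 hd ht).restrictScalars (ZMod p)).finrank_eq.symm ▸ ?_
  refine LinearEquiv.finrank_eq (LinearEquiv.ofEq _ (Submodule.restrictScalars (ZMod p)
    (LinearMap.ker ((LinearMap.mulLeft k (ρ F₀) - LinearMap.mulRight k (ρ F₀)).comp
      (traceZero k).subtype) : Submodule k (traceZero k))) ?_)
  ext X
  rw [Submodule.restrictScalars_mem, LinearMap.mem_ker, Representation.mem_invariants]
  show _ ↔ ρ F₀ * X.1 - X.1 * ρ F₀ = 0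
  rw [sub_eq_zero]
  refine ⟨fun h => ?_, fun h g => ?_⟩
  · have e : ρ F₀ * X.1 * ρ F₀⁻¹ = X.1 :=
      congrArg Subtype.val (h (CFT.GWUnr.locEquiv q g₀))
    calc ρ F₀ * X.1 = ρ F₀ * X.1 * ρ F₀⁻¹ * ρ F₀ := by
          rw [mul_assoc, rho_inv_mul, mul_one]
      _ = _ := by rw [e]
  · obtain ⟨E, hE, hEρ⟩ := hs.finiteLevel
    obtain ⟨j, t, s, ht', hst, rfl⟩ := CFT.GWUnr.exists_decomp hg₀ E g
    have hρg : ρ (primeLocalToGlobal q (CFT.GWUnr.locEquiv q (g₀ ^ j * t) * s)) = ρ F₀ ^ j := by
      rw [map_mul, map_mul, hEρ _ hst, mul_one, map_mul, map_mul, map_mul,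
        hur _ (CFT.GWUnr.mem_inertia_of_isInertial ht'), mul_one, map_pow, map_pow, map_pow]
    refine Subtype.ext ?_
    show ρ (primeLocalToGlobal q (CFT.GWUnr.locEquiv q (g₀ ^ j * t) * s)) * X.1 *
      ρ (primeLocalToGlobal q (CFT.GWUnr.locEquiv q (g₀ ^ j * t) * s))⁻¹ = X.1
    have hc : Commute (ρ F₀ ^ j) X.1 := (show Commute (ρ F₀) X.1 from h).pow_left j
    rw [hρg, hc.eq, mul_assoc, ← hρg, rho_mul_inv, mul_one]

include hs hσ hur in
/-- The local invariants of the dual form a line over `k`. -/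
theorem IsTWPlace.finrank_invariants_adDual :
    finrank (ZMod p) (Rep.res (primeLocalToGlobal q) (adDual p ρ)).ρ.invariants =
      finrank (ZMod p) k := by
  have h2 := hs.ne_two
  rw [← hσ.finrank_invariants hs hur]
  refine (LinearEquiv.finrank_eq ((adDualEquiv p k h2).submoduleMap
    (Rep.res (primeLocalToGlobal q) (adRep ρ p)).ρ.invariants) |>.trans ?_).symm
  refine LinearEquiv.finrank_eq (LinearEquiv.ofEq _ _ ?_)
  have hkey : ∀ (g : primeLocalGaloisGroup q) (Y : traceZero k),
      (adDual p ρ).ρ (primeLocalToGlobal q g) (adDualEquiv p k h2 Y) =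
        adDualEquiv p k h2 (adFun ρ (primeLocalToGlobal q g) Y) := fun g Y => by
    rw [adDual_rho_adDualEquiv p h2 ρ, twistConj]
    congr 1
    rw [cycloUnits_coe, hσ.cycloChar_eq_one hs g, Units.val_one, map_one, one_smul]
  ext f
  obtain ⟨Y, rfl⟩ := (adDualEquiv p k h2).surjective f
  rw [Submodule.mem_map_equiv, LinearEquiv.symm_apply_apply, Representation.mem_invariants,
    Representation.mem_invariants]
  refine forall_congr' fun g => ?_
  show adFun ρ (primeLocalToGlobal q g) Y = Y ↔
    (adDual p ρ).ρ (primeLocalToGlobal q g) (adDualEquiv p k h2 Y) = adDualEquiv p k h2 Y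
  rw [hkey, EquivLike.apply_eq_iff_eq]

include hs hσ hur in
/-- Continuous local cohomology at an auxiliary prime is a plane over `k`. -/
theorem IsTWPlace.finrank_continuousH1 :
    finrank (ZMod p) (continuousH1 (primeLocalToGlobal q)
        (Rep.res (primeLocalToGlobal q) (adRep ρ p))) = 2 * finrank (ZMod p) k := by
  classical
  set M := adRep ρ p
  have hsm := adRep_finiteLevel hs
  let S₀ : Finset Nat.Primes := {pPrime p}
  have hq : q ∉ S₀ := fun h => hσ.ne_p (congrArg Subtype.val (Finset.mem_singleton.1 h))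
  have hS : S₀ ⊆ insert q S₀ := Finset.subset_insert _ _
  have hsd : insert q S₀ \ S₀ = {q} := by
    rw [Finset.insert_sdiff_of_notMem _ hq, Finset.sdiff_self]; rfl
  have e1 := CFT.sum_finrank_continuousH1 M hsm S₀ (Finset.mem_singleton_self _)
  have e2 := CFT.sum_finrank_continuousH1 M hsm (insert q S₀)
    (Finset.mem_insert_of_mem (Finset.mem_singleton_self _))
  let d₁ : Nat.Primes → ℕ := fun r => finrank (ZMod p)
    (continuousH1 (primeLocalToGlobal r) (Rep.res (primeLocalToGlobal r) M))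
  let d₂ : Nat.Primes → ℕ := fun r =>
    finrank (ZMod p) (Rep.res (primeLocalToGlobal r) M).ρ.invariants
  let d₃ : Nat.Primes → ℕ := fun r =>
    finrank (ZMod p) (Rep.res (primeLocalToGlobal r) (M.dualTwist (cycloChar p))).ρ.invariants
  have a1 : ∑ v, finrank (ZMod p) (continuousH1 (extArithLoc (insert q S₀) v)
        (Rep.res (extArithLoc (insert q S₀) v) M)) =
      ∑ v, finrank (ZMod p) (continuousH1 (extArithLoc S₀ v) (Rep.res (extArithLoc S₀ v) M)) +
        ∑ r ∈ insert q S₀ \ S₀, d₁ r :=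
    CFT.sum_extArithIndex hS _ _ d₁ (fun _ => rfl) (fun _ _ _ => rfl) (fun _ _ _ => rfl)
  have a2 : ∑ v, finrank (ZMod p) (Rep.res (extArithLoc (insert q S₀) v) M).ρ.invariants =
      ∑ v, finrank (ZMod p) (Rep.res (extArithLoc S₀ v) M).ρ.invariants +
        ∑ r ∈ insert q S₀ \ S₀, d₂ r :=
    CFT.sum_extArithIndex hS _ _ d₂ (fun _ => rfl) (fun _ _ _ => rfl) (fun _ _ _ => rfl)
  have a3 : ∑ v, finrank (ZMod p)
        (Rep.res (extArithLoc (insert q S₀) v) (M.dualTwist (cycloChar p))).ρ.invariants =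
      ∑ v, finrank (ZMod p) (Rep.res (extArithLoc S₀ v) (M.dualTwist (cycloChar p))).ρ.invariants +
        ∑ r ∈ insert q S₀ \ S₀, d₃ r :=
    CFT.sum_extArithIndex hS _ _ d₃ (fun _ => rfl) (fun _ _ _ => rfl) (fun _ _ _ => rfl)
  rw [a1, a2, a3, hsd, Finset.sum_singleton, Finset.sum_singleton, Finset.sum_singleton] at e2
  have h2 : d₂ q = finrank (ZMod p) k := hσ.finrank_invariants hs hur
  have h3 : d₃ q = finrank (ZMod p) k := hσ.finrank_invariants_adDual hs hur
  show d₁ q = _
  clear_value d₁ d₂ d₃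
  omega

end FermatLib.MLT.Odd
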